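/-
Program MAZ (S15), G-side, pole (P1) = (PT), Galois-theoretic route (helper76, report #2266):
the abstract "bubble sort" count for admissible groups (Mazur, Eisenstein ideal, I.1–I.4 style).
Mathlib only.

`𝒥` an abelian group with an action of a group `G`; `E U V` and `M U V` two relations on subgroups
(think: `U ≤ V` are `(G, T)`-stable, flat at `r`, unramified elsewhere, and `V / U` is `ℤ/r` with its
étale structure, resp. `μ_r` with its multiplicative structure).  Hypotheses:

* `hswap` : an `M`-step directly below an `E`-step can be exchanged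
  (the length-two subquotient is an extension of `ℤ/r` by `μ_r` over `Spec ℤ`: it splits, S14);
* `hmink` : an `E`-step over a subgroup with trivial action has trivial action
  (étale-by-constant is everywhere unramified: Minkowski).

Then a chain from `⊥` to `X` with `e` steps of type `E` produces a subgroup `C ≤ X` of order `r ^ e`
with trivial `G`-action (`exists_trivial_sub`), hence `r ^ e ≤ B` for every bound `B` on the
subgroups of `X` with trivial action (`pow_le_of_bound`).
-/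
import Mathlib

set_option autoImplicit false

namespace Fermat.Agent.MAZ.Desc.AdmSwap76

variable {𝒥 : Type*} [AddCommGroup 𝒥]

/-- A chain of steps from `U` to `V` with `e` steps of type `E` and `m` steps of type `M`. -/
inductive Chain (E M : AddSubgroup 𝒥 → AddSubgroup 𝒥 → Prop) :
    AddSubgroup 𝒥 → AddSubgroup 𝒥 → ℕ → ℕ → Prop
  | nil (U : AddSubgroup 𝒥) : Chain E M U U 0 0
  | consE {U V V' : AddSubgroup 𝒥} {e m : ℕ} : Chain E M U V e m → E V V' → Chain E M U V' (e + 1) m
  | consM {U V V' : AddSubgroup 𝒥} {e m : ℕ} : Chain E M U V e m → M V V' → Chain E M U V' e (m + 1)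

variable {E M : AddSubgroup 𝒥 → AddSubgroup 𝒥 → Prop}

theorem Chain.le (hE : ∀ U V, E U V → U ≤ V) (hM : ∀ U V, M U V → U ≤ V)
    {U V : AddSubgroup 𝒥} {e m : ℕ} (h : Chain E M U V e m) : U ≤ V := by
  induction h with
  | nil => exact le_rfl
  | consE _ hstep ih => exact ih.trans (hE _ _ hstep)
  | consM _ hstep ih => exact ih.trans (hM _ _ hstep)

/-- Push one `E`-step down through a chain of `M`-steps. -/
theorem push_down (hswap : ∀ U W V, M U W → E W V → ∃ W', E U W' ∧ M W' V)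
    {C V : AddSubgroup 𝒥} {e m : ℕ} (h : Chain E M C V e m) (he : e = 0) :
    ∀ V' : AddSubgroup 𝒥, E V V' → ∃ C', E C C' ∧ Chain E M C' V' 0 m := by
  induction h with
  | nil =>
    intro V' hV'
    exact ⟨V', hV', Chain.nil V'⟩
  | consE _ _ _ => exact absurd he (Nat.succ_ne_zero _)
  | consM _ hstep ih =>
    intro V' hV'
    obtain ⟨W', hEW, hMW⟩ := hswap _ _ _ hstep hV'
    obtain ⟨C', hC', hch⟩ := ih he W' hEW
    exact ⟨C', hC', Chain.consM hch hMW⟩

/-- **Bubble sort**: all `E`-steps can be moved to the bottom. -/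
theorem sort (hswap : ∀ U W V, M U W → E W V → ∃ W', E U W' ∧ M W' V)
    {U V : AddSubgroup 𝒥} {e m : ℕ} (h : Chain E M U V e m) :
    ∃ C, Chain E M U C e 0 ∧ Chain E M C V 0 m := by
  induction h with
  | nil => exact ⟨U, Chain.nil U, Chain.nil U⟩
  | consE _ hstep ih =>
    obtain ⟨C, hUC, hCV⟩ := ih
    obtain ⟨C', hC', hch⟩ := push_down hswap hCV rfl _ hstep
    exact ⟨C', Chain.consE hUC hC', hch⟩
  | consM _ hstep ih =>
    obtain ⟨C, hUC, hCV⟩ := ih
    exact ⟨C, hUC, Chain.consM hCV hstep⟩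

variable {G : Type*} [Group G] [DistribMulAction G 𝒥]

/-- A chain of `E`-steps starting from `⊥` ends in a subgroup of order `r ^ e` with trivial action. -/
theorem trivial_of_chainE (r : ℕ)
    (hcard : ∀ U V, E U V → Nat.card V = r * Nat.card U)
    (hmink : ∀ U V, E U V → (∀ (g : G), ∀ u ∈ U, g • u = u) → ∀ (g : G), ∀ v ∈ V, g • v = v)
    {U C : AddSubgroup 𝒥} {e m : ℕ} (h : Chain E M U C e m) (hU : U = ⊥) (hm : m = 0) :
    (∀ (g : G), ∀ x ∈ C, g • x = x) ∧ Nat.card C = r ^ e := by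
  induction h with
  | nil =>
    subst hU
    refine ⟨fun g x hx => ?_, ?_⟩
    · rw [(AddSubgroup.mem_bot).mp hx, smul_zero]
    · rw [pow_zero]
      exact Nat.card_unique
  | consE _ hstep ih =>
    obtain ⟨htriv, hc⟩ := ih hm
    exact ⟨hmink _ _ hstep htriv, by rw [hcard _ _ hstep, hc, pow_succ, mul_comm]⟩
  | consM _ _ _ => exact absurd hm (Nat.succ_ne_zero _)

/-- **The count.** -/
theorem exists_trivial_sub (r : ℕ)
    (hE : ∀ U V, E U V → U ≤ V) (hM : ∀ U V, M U V → U ≤ V)
    (hcard : ∀ U V, E U V → Nat.card V = r * Nat.card U)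
    (hswap : ∀ U W V, M U W → E W V → ∃ W', E U W' ∧ M W' V)
    (hmink : ∀ U V, E U V → (∀ (g : G), ∀ u ∈ U, g • u = u) → ∀ (g : G), ∀ v ∈ V, g • v = v)
    {X : AddSubgroup 𝒥} {e m : ℕ} (h : Chain E M ⊥ X e m) :
    ∃ C : AddSubgroup 𝒥, C ≤ X ∧ (∀ (g : G), ∀ x ∈ C, g • x = x) ∧ Nat.card C = r ^ e := by
  obtain ⟨C, h1, h2⟩ := sort hswap h
  obtain ⟨htriv, hc⟩ := trivial_of_chainE (G := G) r hcard hmink h1 rfl rfl
  exact ⟨C, h2.le hE hM, htriv, hc⟩

/-- the order of `X` is `r ^ (e + m)`. -/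
theorem Chain.card (r : ℕ) (hcardE : ∀ U V, E U V → Nat.card V = r * Nat.card U)
    (hcardM : ∀ U V, M U V → Nat.card V = r * Nat.card U)
    {U V : AddSubgroup 𝒥} {e m : ℕ} (h : Chain E M U V e m) :
    Nat.card V = r ^ (e + m) * Nat.card U := by
  induction h with
  | nil => rw [add_zero, pow_zero, one_mul]
  | consE _ hstep ih => rw [hcardE _ _ hstep, ih]; ring
  | consM _ hstep ih => rw [hcardM _ _ hstep, ih]; ring

/-- **Corollary**: a bound on the fixed points bounds the number of `E`-steps. -/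
theorem pow_le_of_bound (r : ℕ)
    (hE : ∀ U V, E U V → U ≤ V) (hM : ∀ U V, M U V → U ≤ V)
    (hcard : ∀ U V, E U V → Nat.card V = r * Nat.card U)
    (hswap : ∀ U W V, M U W → E W V → ∃ W', E U W' ∧ M W' V)
    (hmink : ∀ U V, E U V → (∀ (g : G), ∀ u ∈ U, g • u = u) → ∀ (g : G), ∀ v ∈ V, g • v = v)
    {X : AddSubgroup 𝒥} {e m : ℕ} (h : Chain E M ⊥ X e m) (B : ℕ)
    (hB : ∀ C : AddSubgroup 𝒥, C ≤ X → (∀ (g : G), ∀ x ∈ C, g • x = x) → Nat.card C ≤ B) :
    r ^ e ≤ B := by
  obtain ⟨C, hCX, htriv, hc⟩ := exists_trivial_sub (G := G) r hE hM hcard hswap hmink h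
  rw [← hc]
  exact hB C hCX htriv

end Fermat.Agent.MAZ.Desc.AdmSwap76
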