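/-
MAZ (S15), chapter DESC, brick G-ALG-FIN (helper79): **the Eisenstein killer**.
Pure commutative algebra, Mathlib only.

`T` a commutative ring (think: the Hecke algebra away from `p`), `P` an ideal (think: the Eisenstein
prime `(I, r)`), `A` a `T`-module which is finitely generated as an abelian group (think: `J⁰(ℤ)`,
by Mordell–Weil).  If the quotients `A / P ^ m A` have bounded order (this is what the Selmer
inequality gives, through the `P`-primary parts of `A / r ^ k A`), then there is `s ∈ 1 + P` and
`N > 0` with `N • (s • a) = 0` for all `a`: the "Eisenstein part" of `A` is torsion.  Such an `s`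
does not kill any nonzero element which is killed by a power of `P` (the `r`-primary part of the
cuspidal class).

* `primaryPart P M` : the `P`-primary part `{x | ∃ n, P ^ n • x = 0}`;
* `primaryPart_sup_pow_smul_top` : `M = M[P^∞] + P ^ m M` for a finite module `M`;
* `card_le_card_primaryPart` : a quotient of a finite `M` killed by `P ^ m` is a quotient of `M[P^∞]`;
* `card_primaryPart_le_of_injective` : monotonicity of `# M[P^∞]` under injections;
* `exists_eisenstein_killer` : the main statement;
* `exists_eisenstein_killer_of_selmer` : the same from a bound on `# (A / r ^ k A)[P^∞]`;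
* `smul_ne_zero_of_sub_one_mem` : `s ∈ 1 + P` does not kill `P`-primary elements.
-/
import Mathlib

set_option autoImplicit false

namespace Fermat.Agent.MAZ.Desc.EisKill79

open Function

variable {T : Type*} [CommRing T]

section PrimaryPart

variable {M : Type*} [AddCommGroup M] [Module T M]

/-- The `P`-primary part of a `T`-module: the elements killed by a power of `P`. -/
def primaryPart (P : Ideal T) (M : Type*) [AddCommGroup M] [Module T M] : Submodule T M where
  carrier := {x | ∃ n : ℕ, ∀ t ∈ P ^ n, t • x = 0}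
  zero_mem' := ⟨0, fun t _ => smul_zero t⟩
  add_mem' := by
    rintro x y ⟨n, hn⟩ ⟨m, hm⟩
    refine ⟨n + m, fun t ht => ?_⟩
    rw [smul_add, hn t (Ideal.pow_le_pow_right (Nat.le_add_right n m) ht),
      hm t (Ideal.pow_le_pow_right (Nat.le_add_left m n) ht), add_zero]
  smul_mem' := by
    rintro c x ⟨n, hn⟩
    exact ⟨n, fun t ht => by rw [smul_comm, hn t ht, smul_zero]⟩

theorem mem_primaryPart {P : Ideal T} {x : M} :
    x ∈ primaryPart P M ↔ ∃ n : ℕ, ∀ t ∈ P ^ n, t • x = 0 := Iff.rfl

/-- A linear map sends the primary part into the primary part. -/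
theorem map_mem_primaryPart {N : Type*} [AddCommGroup N] [Module T N] (P : Ideal T)
    (f : M →ₗ[T] N) {x : M} (hx : x ∈ primaryPart P M) : f x ∈ primaryPart P N := by
  obtain ⟨n, hn⟩ := hx
  exact ⟨n, fun t ht => by rw [← map_smul, hn t ht, map_zero]⟩

/-- The restriction of a linear map to the primary parts. -/
def primaryPartMap {N : Type*} [AddCommGroup N] [Module T N] (P : Ideal T) (f : M →ₗ[T] N) :
    primaryPart P M →ₗ[T] primaryPart P N :=
  (f.comp (primaryPart P M).subtype).codRestrict (primaryPart P N)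
    (fun x => map_mem_primaryPart P f x.2)

theorem primaryPartMap_injective {N : Type*} [AddCommGroup N] [Module T N] (P : Ideal T)
    (f : M →ₗ[T] N) (hf : Injective f) : Injective (primaryPartMap P f) := by
  intro x y hxy
  apply Subtype.ext
  apply hf
  exact congrArg Subtype.val hxy

/-- Monotonicity of the order of the primary part under injections. -/
theorem card_primaryPart_le_of_injective {N : Type*} [AddCommGroup N] [Module T N] (P : Ideal T)
    (f : M →ₗ[T] N) (hf : Injective f) [Finite (primaryPart P N)] :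
    Nat.card (primaryPart P M) ≤ Nat.card (primaryPart P N) :=
  Nat.card_le_card_of_injective _ (primaryPartMap_injective P f hf)

/-- An element of `1 + P` does not kill a nonzero element killed by a power of `P`. -/
theorem smul_ne_zero_of_sub_one_mem {P : Ideal T} {s : T} (hs : s - 1 ∈ P) {c : M} (hc : c ≠ 0)
    (n : ℕ) (hcn : ∀ t ∈ P ^ n, t • c = 0) : s • c ≠ 0 := by
  intro h0
  apply hc
  have h1 : (1 - s) • c = c := by rw [sub_smul, one_smul, h0, sub_zero]
  have h2 : ∀ k : ℕ, (1 - s) ^ k • c = c := by
    intro k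
    induction k with
    | zero => rw [pow_zero, one_smul]
    | succ k ih => rw [pow_succ, mul_smul, h1, ih]
  have h3 : (1 - s) ∈ P := by
    have : 1 - s = -(s - 1) := by ring
    rw [this]
    exact P.neg_mem hs
  rw [← h2 n]
  exact hcn _ (Ideal.pow_mem_pow h3 n)

/-- `s ∈ 1 + P` with `s • P ^ n M = 0` maps everything into the primary part. -/
theorem smul_mem_primaryPart_of_kills {P : Ideal T} {s : T} (n : ℕ)
    (hs : ∀ y ∈ (P ^ n • ⊤ : Submodule T M), s • y = 0) (x : M) : s • x ∈ primaryPart P M := by
  refine ⟨n, fun t ht => ?_⟩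
  rw [smul_comm]
  exact hs _ (Submodule.smul_mem_smul ht Submodule.mem_top)

/-- **Primary decomposition, the part we need**: a finite module is the sum of its `P`-primary part
and `P ^ m M`, for every `m`. -/
theorem primaryPart_sup_pow_smul_top [Finite M] (P : Ideal T) (m : ℕ) :
    primaryPart P M ⊔ (P ^ m • ⊤ : Submodule T M) = ⊤ := by
  classical
  -- stabilisation of the chain `P ^ n M`
  have hart : IsArtinian T M := inferInstance
  let f : ℕ →o (Submodule T M)ᵒᵈ :=
    ⟨fun n => OrderDual.toDual (P ^ n • ⊤ : Submodule T M), fun a b hab => by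
      change (P ^ b • ⊤ : Submodule T M) ≤ P ^ a • ⊤
      exact Submodule.smul_mono_left (Ideal.pow_le_pow_right hab)⟩
  obtain ⟨n₀, hn₀⟩ := IsArtinian.monotone_stabilizes f
  have hstab : (P ^ n₀ • ⊤ : Submodule T M) = P ^ (n₀ + 1) • ⊤ :=
    congrArg OrderDual.ofDual (hn₀ (n₀ + 1) (Nat.le_succ n₀))
  -- Nakayama
  have hle : (P ^ n₀ • ⊤ : Submodule T M) ≤ P • (P ^ n₀ • ⊤ : Submodule T M) := by
    rw [← Submodule.mul_smul, ← pow_succ', ← hstab]
  have hfg : (P ^ n₀ • ⊤ : Submodule T M).FG := by
    have : IsNoetherian T M := inferInstance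
    exact IsNoetherian.noetherian _
  obtain ⟨s, hs1, hs0⟩ :=
    Submodule.exists_sub_one_mem_and_smul_eq_zero_of_fg_of_le_smul P _ hfg hle
  have h1s : (1 - s) ∈ P := by
    have : 1 - s = -(s - 1) := by ring
    rw [this]
    exact P.neg_mem hs1
  -- induction on `m`
  have key : ∀ (m : ℕ) (x : M), x ∈ primaryPart P M ⊔ (P ^ m • ⊤ : Submodule T M) := by
    intro m
    induction m with
    | zero =>
      intro x
      rw [pow_zero, Ideal.one_eq_top, Submodule.top_smul]
      exact Submodule.mem_sup_right Submodule.mem_top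
    | succ m ih =>
      intro x
      have hx : x = s • x + (1 - s) • x := by rw [sub_smul, one_smul]; abel
      rw [hx]
      refine Submodule.add_mem _
        (Submodule.mem_sup_left (smul_mem_primaryPart_of_kills n₀ hs0 x)) ?_
      obtain ⟨u, hu, v, hv, huv⟩ := Submodule.mem_sup.mp (ih x)
      rw [← huv, smul_add]
      refine Submodule.add_mem _ (Submodule.mem_sup_left (Submodule.smul_mem _ _ hu))
        (Submodule.mem_sup_right ?_)
      rw [pow_succ', Submodule.mul_smul]
      exact Submodule.smul_mem_smul h1s hv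
  exact eq_top_iff.mpr fun x _ => key m x

/-- A quotient of a finite module `M` which is killed by `P ^ m` is already a quotient of the
`P`-primary part of `M`. -/
theorem surjective_comp_subtype_primaryPart [Finite M] {N : Type*} [AddCommGroup N] [Module T N]
    (P : Ideal T) (f : M →ₗ[T] N) (hf : Surjective f) (m : ℕ)
    (hN : ∀ t ∈ P ^ m, ∀ y : N, t • y = 0) :
    Surjective (f.comp (primaryPart P M).subtype) := by
  intro y
  obtain ⟨x, rfl⟩ := hf y
  have hx : x ∈ primaryPart P M ⊔ (P ^ m • ⊤ : Submodule T M) := by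
    rw [primaryPart_sup_pow_smul_top]; exact Submodule.mem_top
  obtain ⟨u, hu, v, hv, rfl⟩ := Submodule.mem_sup.mp hx
  refine ⟨⟨u, hu⟩, ?_⟩
  have hv0 : f v = 0 := by
    refine Submodule.smul_induction_on hv (fun t ht z _ => ?_) (fun a b ha hb => ?_)
    · rw [map_smul]; exact hN t ht _
    · rw [map_add, ha, hb, add_zero]
  rw [map_add, hv0, add_zero]
  rfl

theorem card_le_card_primaryPart [Finite M] {N : Type*} [AddCommGroup N] [Module T N]
    (P : Ideal T) (f : M →ₗ[T] N) (hf : Surjective f) (m : ℕ)
    (hN : ∀ t ∈ P ^ m, ∀ y : N, t • y = 0) :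
    Nat.card N ≤ Nat.card (primaryPart P M) :=
  Nat.card_le_card_of_surjective _ (surjective_comp_subtype_primaryPart P f hf m hN)

end PrimaryPart

section Killer

variable {A : Type*} [AddCommGroup A] [Module T A]

/-- The quotient `A / P ^ m A` is killed by `P ^ m`. -/
theorem smul_quotient_eq_zero (P : Ideal T) (m : ℕ) (t : T) (ht : t ∈ P ^ m)
    (y : A ⧸ (P ^ m • ⊤ : Submodule T A)) : t • y = 0 := by
  obtain ⟨a, rfl⟩ := Submodule.Quotient.mk_surjective _ y
  rw [← Submodule.Quotient.mk_smul, Submodule.Quotient.mk_eq_zero]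
  exact Submodule.smul_mem_smul ht Submodule.mem_top

/-- **The Eisenstein killer.**  If `A` is finitely generated as an abelian group and the quotients
`A / P ^ m A` are finite of bounded order, then some `s ∈ 1 + P` sends `A` into its torsion. -/
theorem exists_eisenstein_killer [Module.Finite ℤ A] (P : Ideal T) (B : ℕ)
    (hfin : ∀ m : ℕ, Finite (A ⧸ (P ^ m • ⊤ : Submodule T A)))
    (hB : ∀ m : ℕ, Nat.card (A ⧸ (P ^ m • ⊤ : Submodule T A)) ≤ B) :
    ∃ s : T, s - 1 ∈ P ∧ ∃ N : ℕ, 0 < N ∧ ∀ a : A, N • (s • a) = 0 := by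
  classical
  -- the orders `c m = #(A / P ^ m A)` are monotone and bounded, so two consecutive ones agree
  set c : ℕ → ℕ := fun m => Nat.card (A ⧸ (P ^ m • ⊤ : Submodule T A)) with hc
  have hle : ∀ m, (P ^ (m + 1) • ⊤ : Submodule T A) ≤ P ^ m • ⊤ := fun m =>
    Submodule.smul_mono_left (Ideal.pow_le_pow_right (Nat.le_succ m))
  have hpos : ∀ m, 0 < c m := fun m => by
    have := hfin m
    exact Nat.card_pos
  have hmono : ∀ m, c m ≤ c (m + 1) := by
    intro m
    have := hfin (m + 1)
    refine Nat.card_le_card_of_surjective (Submodule.factor (hle m)) ?_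
    exact Submodule.factor_surjective (hle m)
  have hex : ∃ m, c (m + 1) = c m := by
    by_contra hne
    simp only [not_exists] at hne
    have hgrow : ∀ m, m + 1 ≤ c m := by
      intro m
      induction m with
      | zero => exact hpos 0
      | succ m ih =>
        have := lt_of_le_of_ne (hmono m) (fun h => hne m h.symm)
        omega
    have h1 : B + 1 ≤ c B := hgrow B
    have h2 : c B ≤ B := hB B
    omega
  obtain ⟨m, hm⟩ := hex
  -- hence `P ^ m A = P ^ (m+1) A`
  have heq : (P ^ m • ⊤ : Submodule T A) ≤ P ^ (m + 1) • ⊤ := by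
    have := hfin (m + 1)
    have := hfin m
    have hbij : Bijective (Submodule.factor (hle m)) := by
      refine (Nat.bijective_iff_surjective_and_card _).mpr
        ⟨Submodule.factor_surjective (hle m), hm⟩
    intro x hx
    have h0 : Submodule.factor (hle m) (Submodule.Quotient.mk x) = 0 := by
      change (Submodule.Quotient.mk x : A ⧸ (P ^ m • ⊤ : Submodule T A)) = 0
      rw [Submodule.Quotient.mk_eq_zero]
      exact hx
    have h1 : (Submodule.Quotient.mk x : A ⧸ (P ^ (m + 1) • ⊤ : Submodule T A)) = 0 :=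
      hbij.1 (by rw [h0, map_zero])
    exact (Submodule.Quotient.mk_eq_zero _).mp h1
  -- Nakayama
  have hle' : (P ^ m • ⊤ : Submodule T A) ≤ P • (P ^ m • ⊤ : Submodule T A) := by
    rw [← Submodule.mul_smul, ← pow_succ']
    exact heq
  have hfg : (P ^ m • ⊤ : Submodule T A).FG := by
    have : IsNoetherian ℤ A := inferInstance
    have h1 : ((P ^ m • ⊤ : Submodule T A).restrictScalars ℤ).FG := IsNoetherian.noetherian _
    exact Submodule.FG.of_restrictScalars ℤ h1
  obtain ⟨s, hs1, hs0⟩ :=
    Submodule.exists_sub_one_mem_and_smul_eq_zero_of_fg_of_le_smul P _ hfg hle'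
  refine ⟨s, hs1, c m, hpos m, fun a => ?_⟩
  have := hfin m
  have hmem : c m • a ∈ (P ^ m • ⊤ : Submodule T A) := by
    rw [← Submodule.Quotient.mk_eq_zero, Submodule.Quotient.mk_smul]
    exact card_nsmul_eq_zero' (G := A ⧸ (P ^ m • ⊤ : Submodule T A))
  rw [← smul_comm]
  exact hs0 _ hmem

/-- **The Eisenstein killer from the Selmer bound**: it suffices to bound the orders of the
`P`-primary parts of the finite groups `A / r ^ k A`, when `r ∈ P`. -/
theorem exists_eisenstein_killer_of_selmer [Module.Finite ℤ A] (P : Ideal T) (r : ℕ) (hr : 0 < r)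
    (hrP : (r : T) ∈ P) (B : ℕ)
    (hsel : ∀ k : ℕ, Nat.card
      (primaryPart P (A ⧸ (Ideal.span {(r : T) ^ k} • ⊤ : Submodule T A))) ≤ B) :
    ∃ s : T, s - 1 ∈ P ∧ ∃ N : ℕ, 0 < N ∧ ∀ a : A, N • (s • a) = 0 := by
  classical
  -- `A / r ^ k A` is finite
  have hfinr : ∀ k : ℕ, Finite (A ⧸ (Ideal.span {(r : T) ^ k} • ⊤ : Submodule T A)) := by
    intro k
    -- it is a finitely generated abelian group killed by `r ^ k`
    have hk : ∀ y : A ⧸ (Ideal.span {(r : T) ^ k} • ⊤ : Submodule T A), (r ^ k) • y = 0 := by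
      intro y
      obtain ⟨a, rfl⟩ := Submodule.Quotient.mk_surjective _ y
      rw [← Submodule.Quotient.mk_smul, Submodule.Quotient.mk_eq_zero]
      have : (r ^ k) • a = ((r : T) ^ k) • a := by
        rw [← Nat.cast_pow, Nat.cast_smul_eq_nsmul]
      rw [this]
      exact Submodule.smul_mem_smul (Ideal.subset_span rfl) Submodule.mem_top
    have : Module.Finite ℤ (A ⧸ (Ideal.span {(r : T) ^ k} • ⊤ : Submodule T A)) :=
      Module.Finite.of_surjective
        ((Submodule.mkQ (Ideal.span {(r : T) ^ k} • ⊤ : Submodule T A)).restrictScalars ℤ)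
        (Submodule.Quotient.mk_surjective _)
    refine Module.finite_of_fg_torsion _ ?_
    intro y
    refine ⟨⟨((r ^ k : ℕ) : ℤ), ?_⟩, ?_⟩
    · rw [mem_nonZeroDivisors_iff_ne_zero]
      exact_mod_cast (pow_pos hr k).ne'
    · change ((r ^ k : ℕ) : ℤ) • y = 0
      rw [Nat.cast_smul_eq_nsmul]
      exact hk y
  have hle : ∀ m : ℕ, (Ideal.span {(r : T) ^ m} • ⊤ : Submodule T A) ≤ P ^ m • ⊤ := fun m =>
    Submodule.smul_mono_left
      ((Ideal.span_singleton_le_iff_mem _).mpr (Ideal.pow_mem_pow hrP m))
  have hfin : ∀ m : ℕ, Finite (A ⧸ (P ^ m • ⊤ : Submodule T A)) := by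
    intro m
    have := hfinr m
    exact Finite.of_surjective _ (Submodule.factor_surjective (hle m))
  refine exists_eisenstein_killer P B hfin (fun m => ?_)
  have := hfinr m
  exact le_trans
    (card_le_card_primaryPart P (Submodule.factor (hle m)) (Submodule.factor_surjective (hle m)) m
      (smul_quotient_eq_zero P m)) (hsel m)

end Killer

end Fermat.Agent.MAZ.Desc.EisKill79
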