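/-
MAZ (S15), chapter DESC, brick ALGFIN of helper26's table (helper79): **`GSpec26.AlgFin` is a theorem.**

The adapter between the submodule `EisKill79.primaryPart P M` and the set `GSpec26.primarySet P M`
(they have the same carrier, definitionally), and the consequences:

* `algFin : GSpec26.AlgFin`;
* `globalEis_of_bound` : `GSpec26.globalEis_of_bound` with the hypothesis `AlgFin` discharged, i.e. the
  descent chapter owes exactly `GSpec26.EisBound`;
* `globalEis_of_contracts` : the same for `GSpec26.globalEis_of_contracts`;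
* `finite_quotient_span_pow`, `finite_primarySet`, `eisBound_of_card_le` : the finiteness half of
  `EisBound` is automatic for a finitely generated abelian group `A`, so a producer of `EisBound` only
  has to bound `Nat.card (primaryPart P (A ⧸ r ^ k A))` (or the `ncard` of the `primarySet`).
-/
import Mathlib
import Fermat.Agent.MAZ.Spec.GSpec26
import Fermat.Agent.MAZ.Desc.EisKill79

set_option autoImplicit false
set_option linter.unusedSectionVars false

open AlgebraicCurve ModularCurve

noncomputable section

namespace Fermat.Agent.MAZ.Desc.AlgFin79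

open Fermat.Agent.X0 Fermat.Agent.MAZ.Spec.XSpec62 Fermat.Agent.MAZ.Spec.GSpec26
open Fermat.Agent.MAZ.Desc.EisKill79

section Adapter

variable {T : Type} [CommRing T]

/-- The set `GSpec26.primarySet` is the carrier of the submodule `EisKill79.primaryPart`. -/
theorem primarySet_eq_coe_primaryPart (P : Ideal T) (M : Type*) [AddCommGroup M] [Module T M] :
    primarySet P M = (primaryPart P M : Set M) := rfl

theorem mem_primarySet_iff (P : Ideal T) {M : Type*} [AddCommGroup M] [Module T M] (x : M) :
    x ∈ primarySet P M ↔ x ∈ primaryPart P M := Iff.rfl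

/-- `ncard` of the set = `Nat.card` of the submodule. -/
theorem ncard_primarySet (P : Ideal T) (M : Type*) [AddCommGroup M] [Module T M] :
    (primarySet P M).ncard = Nat.card (primaryPart P M) := by
  rw [primarySet_eq_coe_primaryPart, ← Nat.card_coe_set_eq]
  rfl

/-- For a finitely generated abelian group `A` and `r > 0`, `A / r ^ k A` is finite. -/
theorem finite_quotient_span_pow {A : Type*} [AddCommGroup A] [Module T A] [Module.Finite ℤ A]
    (r : ℕ) (hr : 0 < r) (k : ℕ) :
    Finite (A ⧸ (Ideal.span {(r : T) ^ k} • ⊤ : Submodule T A)) := by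
  have hk : ∀ y : A ⧸ (Ideal.span {(r : T) ^ k} • ⊤ : Submodule T A), (r ^ k) • y = 0 := by
    intro y
    obtain ⟨a, rfl⟩ := Submodule.Quotient.mk_surjective _ y
    rw [← Submodule.Quotient.mk_smul, Submodule.Quotient.mk_eq_zero]
    have : (r ^ k) • a = ((r : T) ^ k) • a := by
      rw [← Nat.cast_pow, Nat.cast_smul_eq_nsmul]
    rw [this]
    exact Submodule.smul_mem_smul (Ideal.subset_span rfl) Submodule.mem_top
  have : Module.Finite ℤ (A ⧸ (Ideal.span {(r : T) ^ k} • ⊤ : Submodule T A)) :=
    Module.Finite.of_surjective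
      ((Submodule.mkQ (Ideal.span {(r : T) ^ k} • ⊤ : Submodule T A)).restrictScalars ℤ)
      (Submodule.Quotient.mk_surjective _)
  refine Module.finite_of_fg_torsion _ ?_
  intro y
  refine ⟨⟨((r ^ k : ℕ) : ℤ), ?_⟩, ?_⟩
  · rw [mem_nonZeroDivisors_iff_ne_zero]
    exact_mod_cast (pow_pos hr k).ne'
  · change ((r ^ k : ℕ) : ℤ) • y = 0
    rw [Nat.cast_smul_eq_nsmul]
    exact hk y

/-- The finiteness half of `EisBound` is automatic. -/
theorem finite_primarySet {A : Type*} [AddCommGroup A] [Module T A] [Module.Finite ℤ A]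
    (P : Ideal T) (r : ℕ) (hr : 0 < r) (k : ℕ) :
    (primarySet P (A ⧸ (Ideal.span {(r : T) ^ k} • ⊤ : Submodule T A))).Finite := by
  have := finite_quotient_span_pow (T := T) (A := A) r hr k
  exact Set.toFinite _

/-- **(G-ALG-FIN)** helper26's contract `GSpec26.AlgFin` holds. -/
theorem algFin : AlgFin := by
  intro T _ A _ _ hfin P r hr hrP B hB
  have := hfin
  refine exists_eisenstein_killer_of_selmer P r hr hrP B (fun k => ?_)
  rw [← ncard_primarySet]
  exact hB k

end Adapter

section Top

variable {p : ℕ} [NeZero p] {T : Type} [CommRing T] [Module T (JZero p)]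

/-- A finite index submodule of the rational points is a finitely generated abelian group, by
Mordell-Weil. -/
theorem finite_of_le_ratPoints (hT : HeckeModel p T) (hMW : MW p) (A : Submodule T (JZero p))
    (hA : A ≤ ratPoints hT) : Module.Finite ℤ A := by
  have hfg : Module.Finite ℤ ↥(FixedPoints.addSubgroup GQ (JZero p)) :=
    Module.Finite.iff_addGroup_fg.mpr hMW
  have : IsNoetherian ℤ ↥(FixedPoints.addSubgroup GQ (JZero p)) :=
    isNoetherian_of_isNoetherianRing_of_finite ℤ _
  let ι : ↥A →ₗ[ℤ] ↥(FixedPoints.addSubgroup GQ (JZero p)) :=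
    { toFun := fun a => ⟨(a : JZero p), fun σ => hA a.2 σ⟩
      map_add' := fun _ _ => rfl
      map_smul' := fun n a => by
        apply Subtype.ext
        change ((n • a : _) : JZero p) = n • (a : JZero p)
        exact AddSubgroupClass.coe_zsmul a n }
  exact Module.Finite.of_injective ι (fun a b hab => Subtype.ext
    (congrArg (fun x : ↥(FixedPoints.addSubgroup GQ (JZero p)) => (x : JZero p)) hab))

/-- `EisBound` from a bound on the cardinalities of the primary parts (the finiteness half is
automatic by Mordell-Weil). -/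
theorem eisBound_of_card_le (hT : HeckeModel p T) (hMW : MW p) (A : Submodule T (JZero p))
    (hA : A ≤ ratPoints hT) (P : Ideal T) (r : ℕ) (hr : 0 < r) (B : ℕ)
    (hB : ∀ k : ℕ, Nat.card
      (primaryPart P (A ⧸ (Ideal.span {(r : T) ^ k} • ⊤ : Submodule T A))) ≤ B) :
    EisBound A P r B := by
  have := finite_of_le_ratPoints hT hMW A hA
  intro k
  refine ⟨finite_primarySet P r hr k, ?_⟩
  rw [ncard_primarySet]
  exact hB k

/-- **`GlobalEis` from the uniform bound**, with `AlgFin` discharged. -/
theorem globalEis_of_bound (hT : HeckeModel p T) (hMW : MW p) (hdeg : DegOne p)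
    (cZ : Place Qb (FF p)) (r : ℕ) [Fact r.Prime] (π : T →+* ZMod r) (m : ℕ)
    (hC : CuspEis hT hdeg cZ r π m) (A : Submodule T (JZero p))
    (hA : FiniteIndexIn A (ratPoints hT)) (B : ℕ) (hB : EisBound A (RingHom.ker π) r B) :
    GlobalEis hdeg cZ :=
  Fermat.Agent.MAZ.Spec.GSpec26.globalEis_of_bound hT hMW hdeg cZ r π m hC A hA B hB algFin

end Top

end Fermat.Agent.MAZ.Desc.AlgFin79
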