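/-
MAZ (S15), descent side, helper19: THE EISENSTEIN CONSTITUENTS ARE `ℤ/r` AND `μ_r`.

Abstract form (Mathlib only).  `r` a prime, `W` a finite nonzero `𝔽_r`-vector space with an additive
action of a group `G`, `χ : G →* 𝔽_r` a character (think: the mod `r` cyclotomic character).
Suppose that `W` is SIMPLE (no `G`-stable subgroup besides `0` and `W`) and that every `g : G`
satisfies the "Eichler–Shimura relation at an Eisenstein prime"

  `g² - (1 + χ g) g + χ g = 0`  on `W`       (i.e. `(g - 1)(g - χ g) = 0`).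

Then `G` acts on `W` trivially or through `χ`, and `W` has exactly `r` elements.

(Application: `W` a simple constituent of `J₀(p)[𝔓]`, `𝔓 = (I, r)` an Eisenstein prime: by
Eichler–Shimura `Frob_q² - T_q Frob_q + q = 0`, `T_q ≡ 1 + q mod 𝔓`, and by Chebotarev every element
of the finite image of Galois is a Frobenius.)

Proof.  The kernel `H` of `χ` acts unipotently (`(h - 1)² = 0`, so `h^r = 1` on `W`): its image is a
finite `r`-group, which has a nonzero fixed vector in the `r`-group `W`; the fixed space of the normal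
subgroup `H` is `G`-stable, hence everything: `H` acts trivially and the action of `G` is commutative.
Then every `ker (g - 1)` is stable, hence `0` or `W`; in the first case `(g - 1)(g - χ g) = 0`
forces `g = χ g`.  A product `g₁ g₂` with `g₁ = χ g₁ ≠ 1`, `g₂ = 1 ≠ χ g₂` is neither.
-/
import Mathlib

set_option autoImplicit false

namespace Fermat.Agent.MAZ.Desc.EisConstituent19

open MulAction

variable {r : ℕ} [hr : Fact r.Prime] {G : Type*} [Group G] {W : Type*} [AddCommGroup W]
  [Module (ZMod r) W] [DistribMulAction G W]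

/-- The action of `G` commutes with the `𝔽_r`-scalars. -/
theorem smul_zmod_smul (g : G) (a : ZMod r) (w : W) : g • (a • w) = a • g • w :=
  ZMod.map_smul (DistribSMul.toAddMonoidHom W g) a w

/-- The Eichler–Shimura relation at an Eisenstein prime. -/
def EisRel (χ : G →* ZMod r) : Prop :=
  ∀ (g : G) (w : W), g • g • w - ((1 : ZMod r) + χ g) • g • w + χ g • w = 0

/-- `W` has no nontrivial `G`-stable subgroup. -/
def IsSimpleAct (G : Type*) [Group G] (W : Type*) [AddCommGroup W] [DistribMulAction G W] : Prop :=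
  ∀ U : AddSubgroup W, (∀ (g : G), ∀ u ∈ U, g • u ∈ U) → U = ⊥ ∨ U = ⊤

variable {χ : G →* ZMod r}

theorem EisRel.sq (hES : EisRel (W := W) χ) (g : G) (w : W) :
    g • g • w = ((1 : ZMod r) + χ g) • g • w - χ g • w := by
  have h := hES g w
  rw [sub_add, sub_eq_zero] at h
  exact h

/-! ### The kernel of `χ` acts unipotently -/

theorem pow_smul_of_ker (hES : EisRel (W := W) χ) {h : G} (hh : χ h = 1) (k : ℕ) (w : W) :
    h ^ k • w = (k : ZMod r) • h • w - ((k : ZMod r) - 1) • w := by
  induction k with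
  | zero =>
    rw [pow_zero, one_smul, Nat.cast_zero, zero_smul, zero_sub, zero_sub, neg_smul, one_smul,
      neg_neg]
  | succ k ih =>
    rw [pow_succ', mul_smul, ih, smul_sub, smul_zmod_smul, smul_zmod_smul, hES.sq h w, hh]
    push_cast
    generalize h • w = a
    module

theorem pow_prime_smul_of_ker (hES : EisRel (W := W) χ) {h : G} (hh : χ h = 1) (w : W) :
    h ^ r • w = w := by
  rw [pow_smul_of_ker hES hh r w, ZMod.natCast_self, zero_smul, zero_sub, zero_sub, neg_smul,
    one_smul, neg_neg]

/-- The image of `ker χ` in the permutation group of `W`. -/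
def kerImage (χ : G →* ZMod r) (W : Type*) [AddCommGroup W] [DistribMulAction G W] :
    Subgroup (Equiv.Perm W) :=
  (MonoidHom.ker χ).map (MulAction.toPermHom G W)

theorem isPGroup_kerImage (hES : EisRel (W := W) χ) : IsPGroup r (kerImage χ W) := by
  rintro ⟨σ, h, hh, rfl⟩
  refine ⟨1, ?_⟩
  apply Subtype.ext
  rw [pow_one]
  show (MulAction.toPermHom G W h) ^ r = 1
  rw [← map_pow]
  apply Equiv.ext
  intro w
  show h ^ r • w = w
  exact pow_prime_smul_of_ker hES (MonoidHom.mem_ker.1 hh) w

theorem prime_dvd_card [Nontrivial W] : r ∣ Nat.card W := by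
  obtain ⟨w, hw⟩ := exists_ne (0 : W)
  have h1 : r • w = 0 := by
    rw [← Nat.cast_smul_eq_nsmul (ZMod r), ZMod.natCast_self, zero_smul]
  have h2 : addOrderOf w = r := addOrderOf_eq_prime h1 hw
  rw [← h2]
  exact addOrderOf_dvd_natCard w

/-- `ker χ` has a nonzero fixed vector. -/
theorem exists_fixed_ne_zero [Finite W] [Nontrivial W] (hES : EisRel (W := W) χ) :
    ∃ w : W, w ≠ 0 ∧ ∀ h : G, χ h = 1 → h • w = w := by
  have h0 : (0 : W) ∈ fixedPoints (kerImage χ W) W := by
    rintro ⟨σ, h, hh, rfl⟩
    show h • (0 : W) = 0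
    exact smul_zero h
  obtain ⟨b, hb, hb0⟩ :=
    (isPGroup_kerImage hES).exists_fixed_point_of_prime_dvd_card_of_fixed_point W
      (prime_dvd_card (r := r)) h0
  refine ⟨b, fun h => hb0 h.symm, fun h hh => ?_⟩
  exact hb ⟨MulAction.toPermHom G W h, h, MonoidHom.mem_ker.2 hh, rfl⟩

/-- The fixed vectors of `ker χ`. -/
def kerFixed (χ : G →* ZMod r) (W : Type*) [AddCommGroup W] [DistribMulAction G W] :
    AddSubgroup W where
  carrier := {w | ∀ h : G, χ h = 1 → h • w = w}
  zero_mem' := fun h _ => smul_zero h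
  add_mem' := fun {a b} ha hb h hh => by rw [smul_add, ha h hh, hb h hh]
  neg_mem' := fun {a} ha h hh => by rw [smul_neg, ha h hh]

theorem χ_inv_mul (g : G) : χ g⁻¹ * χ g = 1 := by
  rw [← map_mul, inv_mul_cancel, map_one]

omit [Module (ZMod r) W] in
theorem kerFixed_stable (g : G) {w : W} (hw : w ∈ kerFixed χ W) : g • w ∈ kerFixed χ W := by
  intro h hh
  have h1 : χ (g⁻¹ * h * g) = 1 := by
    rw [map_mul, map_mul, hh, mul_one, χ_inv_mul]
  have h2 := hw (g⁻¹ * h * g) h1
  calc h • g • w = g • (g⁻¹ * h * g) • w := by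
        rw [← mul_smul, ← mul_smul, mul_assoc, mul_inv_cancel_left]
    _ = g • w := by rw [h2]

/-- `ker χ` acts trivially on a simple `W`. -/
theorem ker_smul [Finite W] [Nontrivial W] (hES : EisRel (W := W) χ) (hs : IsSimpleAct G W)
    {h : G} (hh : χ h = 1) (w : W) : h • w = w := by
  obtain ⟨b, hb0, hb⟩ := exists_fixed_ne_zero hES
  rcases hs (kerFixed χ W) (fun g u hu => kerFixed_stable g hu) with h1 | h1
  · exact absurd ((AddSubgroup.eq_bot_iff_forall _).1 h1 b hb) hb0
  · have : w ∈ kerFixed χ W := h1 ▸ AddSubgroup.mem_top w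
    exact this h hh

/-- The action of `G` on a simple `W` is commutative. -/
theorem smul_comm_of_simple [Finite W] [Nontrivial W] (hES : EisRel (W := W) χ)
    (hs : IsSimpleAct G W) (g g' : G) (w : W) : g • g' • w = g' • g • w := by
  have h1 : χ (g⁻¹ * g'⁻¹ * g * g') = 1 := by
    rw [map_mul, map_mul, map_mul, mul_assoc, mul_comm (χ g) (χ g'), ← mul_assoc,
      mul_assoc (χ g⁻¹), χ_inv_mul, mul_one, χ_inv_mul]
  have h2 := ker_smul hES hs h1 w
  calc g • g' • w = (g' * g) • (g⁻¹ * g'⁻¹ * g * g') • w := by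
        rw [← mul_smul, ← mul_smul]
        congr 1
        group
    _ = g' • g • w := by rw [h2, mul_smul]

/-- The fixed vectors of one element. -/
def fixedOf (g : G) (W : Type*) [AddCommGroup W] [DistribMulAction G W] : AddSubgroup W where
  carrier := {w | g • w = w}
  zero_mem' := smul_zero g
  add_mem' := fun {a b} ha hb => by
    show g • (a + b) = a + b
    rw [smul_add, ha, hb]
  neg_mem' := fun {a} ha => by
    show g • (-a) = -a
    rw [smul_neg, ha]

/-- Every element acts trivially or through `χ`. -/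
theorem smul_eq_or [Finite W] [Nontrivial W] (hES : EisRel (W := W) χ) (hs : IsSimpleAct G W)
    (g : G) : (∀ w : W, g • w = w) ∨ (∀ w : W, g • w = χ g • w) := by
  rcases hs (fixedOf g W) (fun g' u hu => by
      show g • g' • u = g' • u
      rw [smul_comm_of_simple hES hs g g' u, hu]) with h1 | h1
  · right
    intro w
    have hv : g • w - χ g • w ∈ fixedOf g W := by
      show g • (g • w - χ g • w) = g • w - χ g • w
      rw [smul_sub, smul_zmod_smul, hES.sq g w]
      generalize g • w = a
      module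
    rw [h1, AddSubgroup.mem_bot, sub_eq_zero] at hv
    exact hv
  · left
    intro w
    have : w ∈ fixedOf g W := h1 ▸ AddSubgroup.mem_top w
    exact this

theorem eq_one_of_forall_smul [Nontrivial W] {c : ZMod r} (h : ∀ w : W, c • w = w) : c = 1 := by
  obtain ⟨w, hw⟩ := exists_ne (0 : W)
  have h1 : (c - 1) • w = 0 := by rw [sub_smul, one_smul, h w, sub_self]
  rcases smul_eq_zero.1 h1 with h2 | h2
  · exact sub_eq_zero.1 h2
  · exact absurd h2 hw

/-- **The Eisenstein constituents.** A simple finite `𝔽_r[G]`-module on which every `g` satisfies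
`(g - 1)(g - χ g) = 0` is `𝔽_r` with the trivial action or with the action through `χ`. -/
theorem trivial_or_chi [Finite W] [Nontrivial W] (hES : EisRel (W := W) χ)
    (hs : IsSimpleAct G W) :
    (∀ (g : G) (w : W), g • w = w) ∨ (∀ (g : G) (w : W), g • w = χ g • w) := by
  by_contra hcon
  rw [not_or] at hcon
  obtain ⟨hc1, hc2⟩ := hcon
  simp only [not_forall] at hc1 hc2
  obtain ⟨g₁, w₁, hg₁⟩ := hc1
  obtain ⟨g₂, w₂, hg₂⟩ := hc2
  -- `g₁` acts through `χ g₁ ≠ 1`, `g₂` acts trivially and `χ g₂ ≠ 1`
  have h1 : ∀ w : W, g₁ • w = χ g₁ • w := by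
    rcases smul_eq_or hES hs g₁ with h | h
    · exact absurd (h w₁) hg₁
    · exact h
  have h2 : ∀ w : W, g₂ • w = w := by
    rcases smul_eq_or hES hs g₂ with h | h
    · exact h
    · exact absurd (h w₂) hg₂
  have hχ1 : χ g₁ ≠ 1 := by
    intro h
    apply hg₁
    rw [h1 w₁, h, one_smul]
  have hχ2 : χ g₂ ≠ 1 := by
    intro h
    apply hg₂
    rw [h2 w₂, h, one_smul]
  have h12 : ∀ w : W, (g₁ * g₂) • w = χ g₁ • w := fun w => by rw [mul_smul, h2, h1]
  rcases smul_eq_or hES hs (g₁ * g₂) with h | h
  · exact hχ1 (eq_one_of_forall_smul (W := W) fun w => by rw [← h12 w, h w])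
  · apply hχ2
    have h3 : ∀ w : W, (χ g₂) • w = w := by
      intro w
      have h4 := h ((χ g₁⁻¹) • w)
      rw [h12, map_mul, smul_smul, smul_smul, mul_comm (χ g₁) (χ g₂), mul_assoc,
        mul_comm (χ g₁), χ_inv_mul, mul_one, one_smul] at h4
      exact h4.symm
    exact eq_one_of_forall_smul (W := W) h3

/-- A simple module on which `G` acts through scalars has `r` elements. -/
theorem card_eq_of_scalar [Finite W] [Nontrivial W] (hs : IsSimpleAct G W) (c : G → ZMod r)
    (hc : ∀ (g : G) (w : W), g • w = c g • w) : Nat.card W = r := by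
  obtain ⟨w, hw⟩ := exists_ne (0 : W)
  have h1 : r • w = 0 := by
    rw [← Nat.cast_smul_eq_nsmul (ZMod r), ZMod.natCast_self, zero_smul]
  have h2 : addOrderOf w = r := addOrderOf_eq_prime h1 hw
  rcases hs (AddSubgroup.zmultiples w) (fun g u hu => by
      rw [hc g u]
      exact ZMod.smul_mem hu (c g)) with h3 | h3
  · exact absurd ((AddSubgroup.eq_bot_iff_forall _).1 h3 w (AddSubgroup.mem_zmultiples w)) hw
  · rw [← h2]
    exact (addOrderOf_eq_card_of_forall_mem_zmultiples fun y => h3 ▸ AddSubgroup.mem_top y).symm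

/-- **Rank one.** -/
theorem card_eq [Finite W] [Nontrivial W] (hES : EisRel (W := W) χ) (hs : IsSimpleAct G W) :
    Nat.card W = r := by
  rcases trivial_or_chi hES hs with h | h
  · exact card_eq_of_scalar hs (fun _ => 1) (fun g w => by rw [h g w, one_smul])
  · exact card_eq_of_scalar hs (fun g => χ g) h

end Fermat.Agent.MAZ.Desc.EisConstituent19
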