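/-
MAZ (S15), descent side, helper19: EXISTENCE OF A RANK-ONE EISENSTEIN SUBMODULE.

`M` a finite nonzero abelian group with commuting actions of a group `G` and of a commutative ring
`T` (think: `M = J₀(p)[r^k]_𝔓`, `G` = Galois, `T` = Hecke algebra), `π : T →+* 𝔽_r` a character of `T`
whose kernel `𝔓` acts nilpotently on `M`, `χ : G →* 𝔽_r` a character of `G`, and an Eichler–Shimura
relation `g² - τ_g g + δ_g = 0` on `M` with `π τ_g = 1 + χ g`, `π δ_g = χ g`.

Then `M` contains a `(G, T)`-stable subgroup `W` of order `r` on which `T` acts through `π` and `G`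
acts trivially or through `χ` (`exists_rank_one_sub`).  By induction on `M ⧸ W` this is the
"admissible filtration" of Mazur, Eisenstein ideal, II.14.
-/
import Mathlib
import Fermat.Agent.MAZ.Desc.EisConstituent19

set_option autoImplicit false
set_option linter.style.haveILetI false

namespace Fermat.Agent.MAZ.Desc.EisFiltration19

open Fermat.Agent.MAZ.Desc.EisConstituent19

variable {r : ℕ} [hr : Fact r.Prime] {G : Type*} [Group G] {M : Type*} [AddCommGroup M]
  [DistribMulAction G M] {T : Type*} [CommRing T] [Module T M] [SMulCommClass G T M]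

/-- `W` is stable under `G` and `T`. -/
def IsStable (G : Type*) [Group G] (T : Type*) [CommRing T] {M : Type*} [AddCommGroup M]
    [DistribMulAction G M] [Module T M] (W : AddSubgroup M) : Prop :=
  (∀ (g : G), ∀ w ∈ W, g • w ∈ W) ∧ (∀ (t : T), ∀ w ∈ W, t • w ∈ W)

/-- The Eichler–Shimura data on `M`. -/
structure EisData (π : T →+* ZMod r) (χ : G →* ZMod r) (τ δ : G → T) (M : Type*)
    [AddCommGroup M] [DistribMulAction G M] [Module T M] : Prop where
  nil : ∃ m : ℕ, ∀ t ∈ (RingHom.ker π) ^ m, ∀ x : M, t • x = 0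
  tau : ∀ g, π (τ g) = 1 + χ g
  delta : ∀ g, π (δ g) = χ g
  rel : ∀ (g : G) (x : M), g • g • x - τ g • g • x + δ g • x = 0

variable {π : T →+* ZMod r} {χ : G →* ZMod r} {τ δ : G → T}

/-! ### The part of `M` killed by `ker π` -/

/-- The elements killed by `ker π`. -/
def killed (π : T →+* ZMod r) (M : Type*) [AddCommGroup M] [Module T M] : AddSubgroup M where
  carrier := {x | ∀ t ∈ RingHom.ker π, t • x = 0}
  zero_mem' := fun t _ => smul_zero t
  add_mem' := fun {a b} ha hb t ht => by rw [smul_add, ha t ht, hb t ht, add_zero]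
  neg_mem' := fun {a} ha t ht => by rw [smul_neg, ha t ht, neg_zero]

theorem isStable_killed : IsStable G T (killed π M) := by
  refine ⟨fun g w hw t ht => ?_, fun t' w hw t ht => ?_⟩
  · rw [← smul_comm, hw t ht, smul_zero]
  · rw [smul_comm, hw t ht, smul_zero]

/-- Nilpotence of `ker π` gives a nonzero element killed by `ker π`. -/
theorem exists_killed_ne_zero [Nontrivial M] (m : ℕ)
    (h : ∀ t ∈ (RingHom.ker π) ^ m, ∀ x : M, t • x = 0) : ∃ x : M, x ≠ 0 ∧ x ∈ killed π M := by
  induction m with
  | zero =>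
    exfalso
    obtain ⟨x, hx⟩ := exists_ne (0 : M)
    apply hx
    have := h 1 (by rw [pow_zero, Ideal.one_eq_top]; exact Submodule.mem_top) x
    rwa [one_smul] at this
  | succ m ih =>
    by_cases h' : ∀ t ∈ (RingHom.ker π) ^ m, ∀ x : M, t • x = 0
    · exact ih h'
    · simp only [not_forall] at h'
      obtain ⟨t, ht, x, hx⟩ := h'
      refine ⟨t • x, hx, fun s hs => ?_⟩
      rw [smul_smul]
      apply h
      rw [pow_succ']
      exact Ideal.mul_mem_mul hs ht

/-! ### `T` acts on the killed part through `π` -/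

theorem natCast_val_sub_mem_ker (t : T) : t - ((π t).val : T) ∈ RingHom.ker π := by
  rw [RingHom.mem_ker, map_sub, map_natCast, ZMod.natCast_zmod_val, sub_self]

theorem smul_eq_val_nsmul {x : M} (hx : x ∈ killed π M) (t : T) : t • x = (π t).val • x := by
  have h := hx _ (natCast_val_sub_mem_ker (π := π) t)
  rw [sub_smul, sub_eq_zero, Nat.cast_smul_eq_nsmul] at h
  exact h

theorem prime_nsmul_eq_zero {x : M} (hx : x ∈ killed π M) : r • x = 0 := by
  have h : (r : T) ∈ RingHom.ker π := by
    rw [RingHom.mem_ker, map_natCast, ZMod.natCast_self]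
  have := hx _ h
  rwa [Nat.cast_smul_eq_nsmul] at this

/-- In any `ZMod r`-module, a scalar acts as its value. -/
theorem zmod_smul_eq_val_nsmul {X : Type*} [AddCommGroup X] [Module (ZMod r) X] (a : ZMod r)
    (x : X) : a • x = a.val • x := by
  rw [← Nat.cast_smul_eq_nsmul (ZMod r), ZMod.natCast_zmod_val]

/-! ### The induced action on a stable subgroup -/

/-- The action of `G` on a `G`-stable subgroup. -/
@[reducible] def subAction (W : AddSubgroup M) (hW : ∀ (g : G), ∀ w ∈ W, g • w ∈ W) :
    DistribMulAction G W where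
  smul g w := ⟨g • w.1, hW g w.1 w.2⟩
  one_smul w := Subtype.ext (one_smul G w.1)
  mul_smul g h w := Subtype.ext (mul_smul g h w.1)
  smul_zero g := Subtype.ext (smul_zero g)
  smul_add g a b := Subtype.ext (smul_add g a.1 b.1)

/-! ### The main existence theorem -/

/-- **A rank-one Eisenstein submodule exists.** -/
theorem exists_rank_one_sub [Finite M] [Nontrivial M] (D : EisData π χ τ δ M) :
    ∃ W : AddSubgroup M, W ≠ ⊥ ∧ IsStable G T W ∧ Nat.card W = r ∧
      (∀ (t : T), ∀ w ∈ W, t • w = (π t).val • w) ∧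
      ((∀ (g : G), ∀ w ∈ W, g • w = w) ∨ (∀ (g : G), ∀ w ∈ W, g • w = (χ g).val • w)) := by
  classical
  obtain ⟨m, hm⟩ := D.nil
  obtain ⟨x₀, hx₀, hx₀k⟩ := exists_killed_ne_zero (π := π) (M := M) m hm
  -- a minimal nonzero stable subgroup of the killed part
  let S : Set (AddSubgroup M) := {W | W ≠ ⊥ ∧ IsStable G T W ∧ W ≤ killed π M}
  have hS : S.Nonempty := by
    refine ⟨killed π M, ?_, isStable_killed, le_rfl⟩
    intro h
    rw [h, AddSubgroup.mem_bot] at hx₀k
    exact hx₀ hx₀k
  obtain ⟨W, ⟨hW0, hWst, hWk⟩, hmin⟩ :=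
    WellFounded.has_min (measure (fun W : AddSubgroup M => Nat.card W)).wf S hS
  have hmin' : ∀ U : AddSubgroup M, U ≠ ⊥ → IsStable G T U → U ≤ W → U = W := by
    intro U hU0 hUst hUW
    have h1 : ¬ Nat.card U < Nat.card W := hmin U ⟨hU0, hUst, hUW.trans hWk⟩
    exact AddSubgroup.eq_of_le_of_card_ge hUW (not_lt.1 h1)
  have hTW : ∀ (t : T), ∀ w ∈ W, t • w = (π t).val • w := fun t w hw =>
    smul_eq_val_nsmul (hWk hw) t
  -- the structures on `W`
  letI : DistribMulAction G W := subAction W hWst.1
  letI : Module (ZMod r) W := AddCommGroup.zmodModule (n := r) (fun w => Subtype.ext (by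
    rw [AddSubgroup.coe_nsmul, AddSubgroup.coe_zero]
    exact prime_nsmul_eq_zero (hWk w.2)))
  haveI : Nontrivial W := (AddSubgroup.nontrivial_iff_ne_bot W).2 hW0
  have hsmul : ∀ (g : G) (w : W), ((g • w : W) : M) = g • (w : M) := fun _ _ => rfl
  -- simplicity
  have hs : IsSimpleAct G W := by
    intro U hU
    by_cases hU0 : U = ⊥
    · exact Or.inl hU0
    · right
      have h1 : U.map W.subtype ≠ ⊥ := by
        intro h
        apply hU0
        rw [eq_bot_iff]
        intro u hu
        have : W.subtype u ∈ U.map W.subtype := AddSubgroup.mem_map_of_mem _ hu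
        rw [h, AddSubgroup.mem_bot] at this
        rw [AddSubgroup.mem_bot]
        exact Subtype.ext this
      have h2 : U.map W.subtype ≤ W := by
        rintro _ ⟨u, -, rfl⟩
        exact u.2
      have h3 : IsStable G T (U.map W.subtype) := by
        refine ⟨?_, ?_⟩
        · rintro g _ ⟨u, hu, rfl⟩
          exact ⟨g • u, hU g u hu, rfl⟩
        · rintro t _ ⟨u, hu, rfl⟩
          have hu' : W.subtype u ∈ U.map W.subtype := AddSubgroup.mem_map_of_mem _ hu
          have e : t • W.subtype u = (π t).val • W.subtype u := hTW t _ u.2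
          rw [e]
          exact AddSubgroup.nsmul_mem _ hu' _
      have h4 := hmin' _ h1 h3 h2
      rw [eq_top_iff]
      intro w _
      have : (w : M) ∈ U.map W.subtype := by
        rw [h4]
        exact w.2
      obtain ⟨u, hu, huw⟩ := this
      have : u = w := Subtype.ext huw
      exact this ▸ hu
  -- the Eichler–Shimura relation
  have hES : EisRel (W := W) χ := by
    intro g w
    apply Subtype.ext
    have h := D.rel g (w : M)
    have hgw : g • (w : M) ∈ W := hWst.1 g _ w.2
    rw [hTW (τ g) _ hgw, hTW (δ g) _ w.2, D.tau, D.delta] at h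
    rw [zmod_smul_eq_val_nsmul, zmod_smul_eq_val_nsmul]
    simpa [hsmul] using h
  refine ⟨W, hW0, hWst, ?_, hTW, ?_⟩
  · exact card_eq hES hs
  · rcases trivial_or_chi hES hs with h | h
    · left
      intro g w hw
      exact congrArg Subtype.val (h g ⟨w, hw⟩)
    · right
      intro g w hw
      have := congrArg Subtype.val (h g ⟨w, hw⟩)
      rw [zmod_smul_eq_val_nsmul] at this
      simpa [hsmul] using this

end Fermat.Agent.MAZ.Desc.EisFiltration19
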