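/-
MAZ (S15), G-side (descent), brick SEL-COUNT (helper95): **the six-term counting inequality with
local conditions**.  Mathlib only, independent of every vocabulary choice.

For a short exact sequence `0 → M' → M → M'' → 0` of Galois modules and the beginning
`0 → H⁰(M') → H⁰(M) → H⁰(M'') → H¹(M') → H¹(M) → H¹(M'')` of the long exact sequence, with subgroups
("Selmer conditions") `S' ≤ H¹(M')`, `S ≤ H¹(M)`, `S'' ≤ H¹(M'')` such that the condition on the sub
contains the induced one (`i x ∈ S → x ∈ S'`) and the condition on the quotient contains the image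
(`x ∈ S → π x ∈ S''`):

  `#S · #H⁰(M') · #H⁰(M'') ≤ #S' · #S'' · #H⁰(M)`,

i.e. `(h¹_S - h⁰)(M) ≤ (h¹_S - h⁰)(M') + (h¹_S - h⁰)(M'')` — Mazur, *Eisenstein ideal*, I.1.7 in
abstract form.  Everything is stated for abstract abelian groups and additive maps; only the parts
of exactness which are used are assumed.

* `card_eq_ker_mul_range`, `finite_of_ker_range` : Lagrange for an additive map;
* `card_selmer_mul_le` : the inequality (the groups `A' → A → A''` playing the role of the `H⁰`'s
  are arbitrary finite groups, e.g. `H⁰` of closures);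
* `card_selmer_div_le` : the same in the iterable form `q(M) ≤ q(M') q(M'')`, `q = #S / #H⁰ ∈ ℚ`;
* `HasFiltration`, `defect_le_sum`, `defect_le_prod` : the resulting bounds along a finite filtration
  for an abstract subadditive (resp. submultiplicative) "defect".
-/
import Mathlib

set_option autoImplicit false
set_option linter.style.haveILetI false

namespace Fermat.Agent.MAZ.Desc.SelmerCount95

/-! ### Lagrange for an additive map -/

section Basic

variable {G H : Type*} [AddCommGroup G] [AddCommGroup H]

/-- `#G = #ker φ · #im φ` (also for infinite groups, with `Nat.card = 0`). -/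
theorem card_eq_ker_mul_range (φ : G →+ H) :
    Nat.card G = Nat.card φ.ker * Nat.card φ.range := by
  rw [AddSubgroup.card_eq_card_quotient_mul_card_addSubgroup φ.ker, mul_comm]
  congr 1
  exact Nat.card_congr (QuotientAddGroup.quotientKerEquivRange φ).toEquiv

/-- a group with finite kernel and finite image under some additive map is finite. -/
theorem finite_of_ker_range (φ : G →+ H) [Finite φ.ker] [Finite φ.range] : Finite G := by
  apply Nat.finite_of_card_ne_zero
  rw [card_eq_ker_mul_range φ]
  exact Nat.mul_ne_zero Nat.card_pos.ne' Nat.card_pos.ne'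

/-- comparison of cardinalities through an inclusion of underlying sets inside an ambient type. -/
theorem card_le_of_forall_mem {X : Type*} {s t : Set X} [Finite t] (h : ∀ x ∈ s, x ∈ t) :
    Nat.card s ≤ Nat.card t :=
  Nat.card_le_card_of_injective (fun x : s => (⟨x.1, h x.1 x.2⟩ : t))
    (fun _ _ hxy => Subtype.ext (congrArg (fun z : t => (z : X)) hxy))

end Basic

/-! ### The counting inequality -/

section Count

variable {A' A A'' B' B B'' : Type*} [AddCommGroup A'] [AddCommGroup A] [AddCommGroup A'']
  [AddCommGroup B'] [AddCommGroup B] [AddCommGroup B'']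

/-- **The six-term counting inequality with local conditions.** -/
theorem card_selmer_mul_le (f : A' →+ A) (g : A →+ A'') (δ : A'' →+ B') (i : B' →+ B)
    (π : B →+ B'')
    (hf : Function.Injective f) (hgf : ∀ x, g (f x) = 0)
    (hδ : ∀ x, δ x = 0 → ∃ y, g y = x) (hiδ : ∀ x, i (δ x) = 0)
    (hπ : ∀ x, π x = 0 → ∃ y, i y = x)
    [Finite A'] [Finite A] [Finite A'']
    (S' : AddSubgroup B') (S : AddSubgroup B) (S'' : AddSubgroup B'') [Finite S'] [Finite S'']
    (hS' : ∀ x, i x ∈ S → x ∈ S') (hS'' : ∀ x ∈ S, π x ∈ S'') :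
    Finite S ∧
      Nat.card S * (Nat.card A' * Nat.card A'') ≤ Nat.card S' * Nat.card S'' * Nat.card A := by
  classical
  -- the two restricted maps
  set φ : S →+ B'' := π.comp S.subtype with hφ
  set ψ : S' →+ B := i.comp S'.subtype with hψ
  -- `im φ ⊆ S''`
  have hr : ∀ x ∈ (φ.range : Set B''), x ∈ (S'' : Set B'') := by
    rintro _ ⟨s, rfl⟩
    exact hS'' s.1 s.2
  haveI : Finite (S'' : Set B'') := ‹Finite S''›
  haveI hfr : Finite φ.range := Finite.of_injective
    (fun x : φ.range => (⟨x.1, hr x.1 x.2⟩ : (S'' : Set B'')))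
    (fun x y hxy => Subtype.ext (congrArg (fun z : (S'' : Set B'') => (z : B'')) hxy))
  have h_r : Nat.card φ.range ≤ Nat.card S'' := card_le_of_forall_mem (s := (φ.range : Set B''))
    (t := (S'' : Set B'')) hr
  -- `ker φ ⊆ im ψ` (inside `B`)
  haveI : Finite ψ.range := Finite.of_surjective ψ.rangeRestrict ψ.rangeRestrict_surjective
  have hk : ∀ x : φ.ker, (x.1 : B) ∈ ψ.range := by
    intro x
    have hx : π (x.1 : B) = 0 := x.2
    obtain ⟨y, hy⟩ := hπ _ hx
    have hyS' : y ∈ S' := hS' y (by rw [hy]; exact x.1.2)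
    exact ⟨⟨y, hyS'⟩, hy⟩
  have hinj : Function.Injective (fun x : φ.ker => (⟨(x.1 : B), hk x⟩ : ψ.range)) := by
    intro x y hxy
    have : ((x.1 : S) : B) = ((y.1 : S) : B) := congrArg (fun z : ψ.range => (z : B)) hxy
    exact Subtype.ext (Subtype.ext this)
  haveI hfk : Finite φ.ker := Finite.of_injective _ hinj
  have h_k : Nat.card φ.ker ≤ Nat.card ψ.range := Nat.card_le_card_of_injective _ hinj
  haveI hS : Finite S := finite_of_ker_range φ
  refine ⟨hS, ?_⟩
  -- `im δ ⊆ ker ψ`
  have hδS' : ∀ a, δ a ∈ S' := fun a => hS' _ (by rw [hiδ]; exact S.zero_mem)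
  have hinjδ : Function.Injective
      (fun x : δ.range => (⟨⟨(x : B'), by obtain ⟨a, ha⟩ := x.2; rw [← ha]; exact hδS' a⟩, by
        obtain ⟨a, ha⟩ := x.2
        show i (x : B') = 0
        rw [← ha, hiδ]⟩ : ψ.ker)) := by
    intro x y hxy
    have := congrArg (fun z : ψ.ker => ((z.1 : S') : B')) hxy
    exact Subtype.ext this
  have h_rδ : Nat.card δ.range ≤ Nat.card ψ.ker := Nat.card_le_card_of_injective _ hinjδ
  -- `ker δ ⊆ im g`
  have hinjg : Function.Injective
      (fun x : δ.ker => (⟨(x : A''), by obtain ⟨y, hy⟩ := hδ _ x.2; exact ⟨y, hy⟩⟩ : g.range)) := by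
    intro x y hxy
    have := congrArg (fun z : g.range => (z : A'')) hxy
    exact Subtype.ext this
  have h_kδ : Nat.card δ.ker ≤ Nat.card g.range := Nat.card_le_card_of_injective _ hinjg
  -- `A' ↪ ker g`
  have hinjf : Function.Injective (fun x : A' => (⟨f x, hgf x⟩ : g.ker)) := by
    intro x y hxy
    exact hf (congrArg (fun z : g.ker => (z : A)) hxy)
  have h_a' : Nat.card A' ≤ Nat.card g.ker := Nat.card_le_card_of_injective _ hinjf
  -- Lagrange four times
  have e1 := card_eq_ker_mul_range φ
  have e2 := card_eq_ker_mul_range ψ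
  have e3 := card_eq_ker_mul_range δ
  have e4 := card_eq_ker_mul_range g
  rw [e1, e3, e2, e4]
  calc Nat.card φ.ker * Nat.card φ.range * (Nat.card A' * (Nat.card δ.ker * Nat.card δ.range))
      ≤ Nat.card ψ.range * Nat.card S'' *
          (Nat.card g.ker * (Nat.card g.range * Nat.card ψ.ker)) :=
        Nat.mul_le_mul (Nat.mul_le_mul h_k h_r)
          (Nat.mul_le_mul h_a' (Nat.mul_le_mul h_kδ h_rδ))
    _ = Nat.card ψ.ker * Nat.card ψ.range * Nat.card S'' *
          (Nat.card g.ker * Nat.card g.range) := by ring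

end Count

/-! ### The iterable form -/

section Quot

variable {A' A A'' B' B B'' : Type*} [AddCommGroup A'] [AddCommGroup A] [AddCommGroup A'']
  [AddCommGroup B'] [AddCommGroup B] [AddCommGroup B'']

/-- **Submultiplicativity of `q = #S / #H⁰`** along a short exact sequence. -/
theorem card_selmer_div_le (f : A' →+ A) (g : A →+ A'') (δ : A'' →+ B') (i : B' →+ B)
    (π : B →+ B'')
    (hf : Function.Injective f) (hgf : ∀ x, g (f x) = 0)
    (hδ : ∀ x, δ x = 0 → ∃ y, g y = x) (hiδ : ∀ x, i (δ x) = 0)
    (hπ : ∀ x, π x = 0 → ∃ y, i y = x)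
    [Finite A'] [Finite A] [Finite A'']
    (S' : AddSubgroup B') (S : AddSubgroup B) (S'' : AddSubgroup B'') [Finite S'] [Finite S'']
    (hS' : ∀ x, i x ∈ S → x ∈ S') (hS'' : ∀ x ∈ S, π x ∈ S'') :
    (Nat.card S : ℚ) / Nat.card A ≤
      ((Nat.card S' : ℚ) / Nat.card A') * ((Nat.card S'' : ℚ) / Nat.card A'') := by
  obtain ⟨-, h⟩ := card_selmer_mul_le f g δ i π hf hgf hδ hiδ hπ S' S S'' hS' hS''
  have hA : (0 : ℚ) < Nat.card A := by exact_mod_cast Nat.card_pos
  have hA' : (0 : ℚ) < Nat.card A' := by exact_mod_cast Nat.card_pos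
  have hA'' : (0 : ℚ) < Nat.card A'' := by exact_mod_cast Nat.card_pos
  have h' : (Nat.card S : ℚ) * ((Nat.card A' : ℚ) * Nat.card A'') ≤
      (Nat.card S' : ℚ) * Nat.card S'' * Nat.card A := by exact_mod_cast h
  rw [div_mul_div_comm, div_le_div_iff₀ hA (mul_pos hA' hA'')]
  exact h'

end Quot

/-! ### Dévissage along a filtration -/

section Filtration

variable {Obj : Type*}

/-- `HasFiltration Ext M l`: `M` has a finite filtration whose successive quotients (from the bottom)
are the members of the list `l`, where `Ext M' M M''` means "`M` is an extension of `M''` by `M'`". -/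
inductive HasFiltration (Ext : Obj → Obj → Obj → Prop) : Obj → List Obj → Prop
  | single (M : Obj) : HasFiltration Ext M [M]
  | cons {M' M M'' : Obj} {l : List Obj} : Ext M' M M'' → HasFiltration Ext M'' l →
      HasFiltration Ext M (M' :: l)

/-- a subadditive defect is bounded by the sum over the graded pieces. -/
theorem defect_le_sum {Ext : Obj → Obj → Obj → Prop} (d : Obj → ℤ)
    (hd : ∀ M' M M'', Ext M' M M'' → d M ≤ d M' + d M'') {M : Obj} {l : List Obj}
    (h : HasFiltration Ext M l) : d M ≤ (l.map d).sum := by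
  induction h with
  | single M => simp
  | cons hE _ ih =>
    rw [List.map_cons, List.sum_cons]
    exact (hd _ _ _ hE).trans (add_le_add_right ih _)

/-- a submultiplicative nonnegative defect is bounded by the product over the graded pieces. -/
theorem defect_le_prod {Ext : Obj → Obj → Obj → Prop} (q : Obj → ℚ) (hq0 : ∀ M, 0 ≤ q M)
    (hq : ∀ M' M M'', Ext M' M M'' → q M ≤ q M' * q M'') {M : Obj} {l : List Obj}
    (h : HasFiltration Ext M l) : q M ≤ (l.map q).prod := by
  induction h with
  | single M => simp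
  | cons hE _ ih =>
    rw [List.map_cons, List.prod_cons]
    exact (hq _ _ _ hE).trans (mul_le_mul_of_nonneg_left ih (hq0 _))

end Filtration

end Fermat.Agent.MAZ.Desc.SelmerCount95
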