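/-
MAZ (S15), G-side (descent), brick SEL-CONE (helper95): **the `H¹` of the Selmer cone at `p` and its
six-term sequence**.  Mathlib + `SelmerCount95` only; abstract group `G` with subgroups `D`, `I`
(decomposition and inertia group at one place over `p`).

A *cone datum* on a `G`-module `M` is a subgroup `Mf ≤ M` ("finite part at `p`": `D`-stable and
pointwise `I`-fixed) together with a subgroup `Z` of the `1`-cocycles `G → M` containing the
coboundaries (the cocycles which are continuous, unramified outside `{r, p}`, flat at `r`, …).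

* `Z1S` : triples `(c, a, β)`, `c ∈ Z`, `a ∈ M`, `β : D → Mf` a cocycle vanishing on `I`, such that
  `c σ = β σ + (σ • a - a)` for `σ ∈ D`  (a global class with a trivialisation at `p` modulo the
  unramified classes with values in the finite part);
* `B1S` : the triples `(d m, m - m_f, d m_f)`;  `H1S = Z1S / B1S`;  `H0S = M^G ∩ Mf`.

This is `H^i` of the mapping cone `Cone (C(G, M) ⊕ C(D/I, Mf) → C(D, M))[-1]`, i.e. the Galois
theoretic form of the fppf cohomology over `Spec ℤ` of a quasi-finite group scheme (finite over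
`ℤ[1/p]`) used by Mazur, *Eisenstein ideal*, I.1.  For a short exact sequence
`0 → M' → M → M'' → 0` with the induced finite parts (`M'f = M' ∩ Mf`, `M''f = image of Mf`) the
sequence `0 → H0S M' → H0S M → H0S M'' → H1S M' → H1S M → H1S M''` is exact, hence

  `#H1S M · #H0S M' · #H0S M'' ≤ #H1S M' · #H1S M'' · #H0S M`   (`card_H1S_mul_le`),

which a Selmer *subgroup* of `H¹(G, M)` does not satisfy (the connecting map at `p` is ramified).
-/
import Mathlib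
import Fermat.Agent.MAZ.Desc.SelmerCount95

set_option autoImplicit false

namespace Fermat.Agent.MAZ.Desc.SelmerCone95

open Fermat.Agent.MAZ.Desc

variable {G : Type*} [Group G]

section Defs

variable {M : Type*} [AddCommGroup M] [DistribMulAction G M]

/-- the coboundary of `m`. -/
def dd (m : M) : G → M := fun σ => σ • m - m

theorem dd_def (m : M) (σ : G) : (dd m : G → M) σ = σ • m - m := rfl

theorem dd_add (m n : M) : (dd (m + n) : G → M) = dd m + dd n := by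
  funext σ
  simp only [dd_def, Pi.add_apply, smul_add]
  abel

theorem dd_zero : (dd (0 : M) : G → M) = 0 := by
  funext σ
  simp [dd_def]

theorem dd_neg (m : M) : (dd (-m) : G → M) = -dd m := by
  funext σ
  simp only [dd_def, Pi.neg_apply, smul_neg]
  abel

theorem dd_sub (m n : M) : (dd (m - n) : G → M) = dd m - dd n := by
  rw [sub_eq_add_neg, dd_add, dd_neg, sub_eq_add_neg]

theorem dd_cocycle (m : M) (σ τ : G) : (dd m : G → M) (σ * τ) = dd m σ + σ • dd m τ := by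
  simp only [dd_def, mul_smul, smul_sub]
  abel

/-- A cone datum on the `G`-module `M`: finite part `Mf` and admissible cocycles `Z`. -/
structure ConeData (D I : Subgroup G) (M : Type*) [AddCommGroup M] [DistribMulAction G M] where
  /-- the finite part at `p` -/
  Mf : AddSubgroup M
  stable : ∀ σ ∈ D, ∀ x ∈ Mf, σ • x ∈ Mf
  fixed : ∀ σ ∈ I, ∀ x ∈ Mf, σ • x = x
  /-- the admissible cocycles -/
  Z : AddSubgroup (G → M)
  cocycle : ∀ c ∈ Z, ∀ σ τ : G, c (σ * τ) = c σ + σ • c τ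
  cobound : ∀ m : M, dd m ∈ Z

/-- triples (global cochain, element, local cochain on `D`). -/
abbrev Triple (D : Subgroup G) (M : Type*) := (G → M) × M × (D → M)

variable {D I : Subgroup G}

/-- the cocycles of the Selmer cone. -/
def Z1S (𝕄 : ConeData D I M) : AddSubgroup (Triple D M) where
  carrier := {t | t.1 ∈ 𝕄.Z ∧ (∀ σ : D, t.2.2 σ ∈ 𝕄.Mf) ∧
    (∀ σ τ : D, t.2.2 (σ * τ) = t.2.2 σ + (σ : G) • t.2.2 τ) ∧
    (∀ σ : D, (σ : G) ∈ I → t.2.2 σ = 0) ∧
    ∀ σ : D, t.1 (σ : G) = t.2.2 σ + ((σ : G) • t.2.1 - t.2.1)}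
  zero_mem' := by
    refine ⟨𝕄.Z.zero_mem, fun σ => 𝕄.Mf.zero_mem, fun σ τ => ?_, fun σ _ => rfl, fun σ => ?_⟩
    · simp
    · simp
  add_mem' := by
    rintro s t ⟨hs1, hs2, hs3, hs4, hs5⟩ ⟨ht1, ht2, ht3, ht4, ht5⟩
    refine ⟨𝕄.Z.add_mem hs1 ht1, fun σ => 𝕄.Mf.add_mem (hs2 σ) (ht2 σ), fun σ τ => ?_,
      fun σ hσ => ?_, fun σ => ?_⟩
    · simp only [Prod.snd_add, Pi.add_apply, hs3 σ τ, ht3 σ τ, smul_add]
      abel
    · simp only [Prod.snd_add, Pi.add_apply, hs4 σ hσ, ht4 σ hσ, add_zero]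
    · simp only [Prod.fst_add, Prod.snd_add, Pi.add_apply, hs5 σ, ht5 σ, smul_add]
      abel
  neg_mem' := by
    rintro s ⟨hs1, hs2, hs3, hs4, hs5⟩
    refine ⟨𝕄.Z.neg_mem hs1, fun σ => 𝕄.Mf.neg_mem (hs2 σ), fun σ τ => ?_,
      fun σ hσ => ?_, fun σ => ?_⟩
    · simp only [Prod.snd_neg, Pi.neg_apply, hs3 σ τ, smul_neg]
      abel
    · simp only [Prod.snd_neg, Pi.neg_apply, hs4 σ hσ, neg_zero]
    · simp only [Prod.fst_neg, Prod.snd_neg, Pi.neg_apply, hs5 σ, smul_neg]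
      abel

theorem mem_Z1S {𝕄 : ConeData D I M} {t : Triple D M} :
    t ∈ Z1S 𝕄 ↔ t.1 ∈ 𝕄.Z ∧ (∀ σ : D, t.2.2 σ ∈ 𝕄.Mf) ∧
    (∀ σ τ : D, t.2.2 (σ * τ) = t.2.2 σ + (σ : G) • t.2.2 τ) ∧
    (∀ σ : D, (σ : G) ∈ I → t.2.2 σ = 0) ∧
    ∀ σ : D, t.1 (σ : G) = t.2.2 σ + ((σ : G) • t.2.1 - t.2.1) := Iff.rfl

/-- the coboundary map of the Selmer cone. -/
def bd (𝕄 : ConeData D I M) : M × 𝕄.Mf →+ Triple D M where
  toFun x := (dd x.1, x.1 - x.2, fun σ : D => (σ : G) • (x.2 : M) - x.2)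
  map_zero' := by
    ext <;> simp [dd_def]
  map_add' x y := by
    refine Prod.ext ?_ (Prod.ext ?_ ?_)
    · simp only [Prod.fst_add, dd_add]
    · simp only [Prod.fst_add, Prod.snd_add, AddSubgroup.coe_add]
      abel
    · funext σ
      simp only [Prod.snd_add, AddSubgroup.coe_add, smul_add, Pi.add_apply]
      abel

theorem bd_apply (𝕄 : ConeData D I M) (m : M) (mf : 𝕄.Mf) :
    bd 𝕄 (m, mf) = (dd m, m - mf, fun σ : D => (σ : G) • (mf : M) - mf) := rfl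

/-- the coboundaries of the Selmer cone. -/
def B1S (𝕄 : ConeData D I M) : AddSubgroup (Triple D M) := (bd 𝕄).range

theorem bd_mem_Z1S (𝕄 : ConeData D I M) (x : M × 𝕄.Mf) : bd 𝕄 x ∈ Z1S 𝕄 := by
  obtain ⟨m, mf⟩ := x
  rw [bd_apply, mem_Z1S]
  refine ⟨𝕄.cobound m, fun σ => 𝕄.Mf.sub_mem (𝕄.stable σ σ.2 mf mf.2) mf.2, fun σ τ => ?_,
    fun σ hσ => ?_, fun σ => ?_⟩
  · simp only [Subgroup.coe_mul, mul_smul, smul_sub]
    abel
  · simp only [𝕄.fixed σ hσ mf mf.2, sub_self]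
  · simp only [dd_def, smul_sub]
    abel

theorem B1S_le_Z1S (𝕄 : ConeData D I M) : B1S 𝕄 ≤ Z1S 𝕄 := by
  rintro _ ⟨x, rfl⟩
  exact bd_mem_Z1S 𝕄 x

/-- **`H¹` of the Selmer cone.** -/
abbrev H1S (𝕄 : ConeData D I M) : Type _ := (Z1S 𝕄) ⧸ (B1S 𝕄).addSubgroupOf (Z1S 𝕄)

/-- the class of a cocycle. -/
def H1S.mk (𝕄 : ConeData D I M) : Z1S 𝕄 →+ H1S 𝕄 := QuotientAddGroup.mk' _

theorem H1S.mk_surjective (𝕄 : ConeData D I M) : Function.Surjective (H1S.mk 𝕄) :=
  QuotientAddGroup.mk'_surjective _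

theorem H1S.mk_eq_zero_iff (𝕄 : ConeData D I M) (t : Z1S 𝕄) :
    H1S.mk 𝕄 t = 0 ↔ (t : Triple D M) ∈ B1S 𝕄 := by
  rw [H1S.mk, QuotientAddGroup.mk'_apply, QuotientAddGroup.eq_zero_iff]
  exact AddSubgroup.mem_addSubgroupOf

/-- **`H⁰` of the Selmer cone**: the `G`-invariants lying in the finite part. -/
def H0S (𝕄 : ConeData D I M) : AddSubgroup M where
  carrier := {m | m ∈ 𝕄.Mf ∧ ∀ σ : G, σ • m = m}
  zero_mem' := ⟨𝕄.Mf.zero_mem, fun σ => smul_zero σ⟩
  add_mem' := by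
    rintro x y ⟨hx, hx'⟩ ⟨hy, hy'⟩
    exact ⟨𝕄.Mf.add_mem hx hy, fun σ => by rw [smul_add, hx', hy']⟩
  neg_mem' := by
    rintro x ⟨hx, hx'⟩
    exact ⟨𝕄.Mf.neg_mem hx, fun σ => by rw [smul_neg, hx']⟩

theorem mem_H0S {𝕄 : ConeData D I M} {m : M} :
    m ∈ H0S 𝕄 ↔ m ∈ 𝕄.Mf ∧ ∀ σ : G, σ • m = m := Iff.rfl

end Defs

/-! ### Functoriality -/

section Functoriality

variable {D I : Subgroup G}
variable {M N : Type*} [AddCommGroup M] [DistribMulAction G M] [AddCommGroup N]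
  [DistribMulAction G N]

/-- the map induced on triples by an additive map. -/
def tmap (D : Subgroup G) (f : M →+ N) : Triple D M →+ Triple D N where
  toFun t := (fun σ => f (t.1 σ), f t.2.1, fun σ => f (t.2.2 σ))
  map_zero' := by
    refine Prod.ext ?_ (Prod.ext ?_ ?_)
    · funext σ; simp
    · simp
    · funext σ; simp
  map_add' s t := by
    refine Prod.ext ?_ (Prod.ext ?_ ?_)
    · funext σ; simp
    · simp
    · funext σ; simp

omit [DistribMulAction G M] [DistribMulAction G N] in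
theorem tmap_apply (f : M →+ N) (t : Triple D M) :
    tmap D f t = (fun σ => f (t.1 σ), f t.2.1, fun σ => f (t.2.2 σ)) := rfl

/-- an additive map compatible with two cone data. -/
structure ConeHom (𝕄 : ConeData D I M) (𝕂 : ConeData D I N) (f : M →+ N) : Prop where
  equivariant : ∀ (σ : G) (x : M), f (σ • x) = σ • f x
  mapMf : ∀ x ∈ 𝕄.Mf, f x ∈ 𝕂.Mf
  mapZ : ∀ c ∈ 𝕄.Z, (fun σ => f (c σ)) ∈ 𝕂.Z

variable {𝕄 : ConeData D I M} {𝕂 : ConeData D I N} {f : M →+ N}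

theorem ConeHom.dd (h : ConeHom 𝕄 𝕂 f) (m : M) : (fun σ : G => f (dd m σ)) = dd (f m) := by
  funext σ
  simp only [dd_def, map_sub, h.equivariant]

theorem ConeHom.tmap_mem_Z1S (h : ConeHom 𝕄 𝕂 f) {t : Triple D M} (ht : t ∈ Z1S 𝕄) :
    tmap D f t ∈ Z1S 𝕂 := by
  obtain ⟨h1, h2, h3, h4, h5⟩ := ht
  refine ⟨h.mapZ _ h1, fun σ => h.mapMf _ (h2 σ), fun σ τ => ?_, fun σ hσ => ?_, fun σ => ?_⟩
  · simp only [tmap_apply, h3 σ τ, map_add, h.equivariant]
  · simp only [tmap_apply, h4 σ hσ, map_zero]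
  · simp only [tmap_apply, h5 σ, map_add, map_sub, h.equivariant]

theorem ConeHom.tmap_bd (h : ConeHom 𝕄 𝕂 f) (m : M) (mf : 𝕄.Mf) :
    tmap D f (bd 𝕄 (m, mf)) = bd 𝕂 (f m, ⟨f mf, h.mapMf _ mf.2⟩) := by
  rw [bd_apply, bd_apply, tmap_apply]
  refine Prod.ext (h.dd m) (Prod.ext ?_ ?_)
  · simp only [map_sub]
  · funext σ
    simp only [map_sub, h.equivariant]

theorem ConeHom.tmap_mem_B1S (h : ConeHom 𝕄 𝕂 f) {t : Triple D M} (ht : t ∈ B1S 𝕄) :
    tmap D f t ∈ B1S 𝕂 := by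
  obtain ⟨⟨m, mf⟩, rfl⟩ := ht
  exact ⟨_, (h.tmap_bd m mf).symm⟩

/-- the map induced on cone cocycles. -/
def ConeHom.mapZ1S (h : ConeHom 𝕄 𝕂 f) : Z1S 𝕄 →+ Z1S 𝕂 :=
  ((tmap D f).comp (Z1S 𝕄).subtype).codRestrict (Z1S 𝕂) (fun t => h.tmap_mem_Z1S t.2)

theorem ConeHom.coe_mapZ1S (h : ConeHom 𝕄 𝕂 f) (t : Z1S 𝕄) :
    ((h.mapZ1S t : Z1S 𝕂) : Triple D N) = tmap D f t := rfl

/-- the map induced on `H1S`. -/
def ConeHom.mapH1S (h : ConeHom 𝕄 𝕂 f) : H1S 𝕄 →+ H1S 𝕂 :=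
  QuotientAddGroup.map _ _ h.mapZ1S (by
    intro t ht
    rw [AddSubgroup.mem_comap, AddSubgroup.mem_addSubgroupOf, h.coe_mapZ1S]
    exact h.tmap_mem_B1S (AddSubgroup.mem_addSubgroupOf.mp ht))

theorem ConeHom.mapH1S_mk (h : ConeHom 𝕄 𝕂 f) (t : Z1S 𝕄) :
    h.mapH1S (H1S.mk 𝕄 t) = H1S.mk 𝕂 (h.mapZ1S t) := rfl

/-- the map induced on `H0S`. -/
def ConeHom.mapH0S (h : ConeHom 𝕄 𝕂 f) : H0S 𝕄 →+ H0S 𝕂 :=
  (f.comp (H0S 𝕄).subtype).codRestrict (H0S 𝕂) (fun m =>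
    ⟨h.mapMf _ m.2.1, fun σ => by
      change σ • f (m : M) = f (m : M)
      rw [← h.equivariant, m.2.2 σ]⟩)

theorem ConeHom.coe_mapH0S (h : ConeHom 𝕄 𝕂 f) (m : H0S 𝕄) :
    ((h.mapH0S m : H0S 𝕂) : N) = f m := rfl

/-- the identity is a morphism of cone data. -/
theorem ConeHom.id (𝕄 : ConeData D I M) : ConeHom 𝕄 𝕄 (AddMonoidHom.id M) :=
  ⟨fun _ _ => rfl, fun _ hx => hx, fun _ hc => hc⟩

theorem ConeHom.mapH1S_id (𝕄 : ConeData D I M) (x : H1S 𝕄) : (ConeHom.id 𝕄).mapH1S x = x := by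
  obtain ⟨t, rfl⟩ := H1S.mk_surjective 𝕄 x
  rfl

variable {L : Type*} [AddCommGroup L] [DistribMulAction G L] {𝕃 : ConeData D I L} {g : N →+ L}

/-- composition of morphisms of cone data. -/
theorem ConeHom.comp (h' : ConeHom 𝕂 𝕃 g) (h : ConeHom 𝕄 𝕂 f) : ConeHom 𝕄 𝕃 (g.comp f) :=
  ⟨fun σ x => by rw [AddMonoidHom.comp_apply, h.equivariant, h'.equivariant]; rfl,
    fun x hx => h'.mapMf _ (h.mapMf x hx), fun c hc => h'.mapZ _ (h.mapZ c hc)⟩

theorem ConeHom.mapH1S_comp (h' : ConeHom 𝕂 𝕃 g) (h : ConeHom 𝕄 𝕂 f) (x : H1S 𝕄) :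
    (h'.comp h).mapH1S x = h'.mapH1S (h.mapH1S x) := by
  obtain ⟨t, rfl⟩ := H1S.mk_surjective 𝕄 x
  rfl

/-- two morphisms with the same underlying map induce the same map. -/
theorem ConeHom.mapH1S_congr {f' : M →+ N} (h : ConeHom 𝕄 𝕂 f) (h' : ConeHom 𝕄 𝕂 f')
    (e : f = f') (x : H1S 𝕄) : h.mapH1S x = h'.mapH1S x := by
  subst e
  rfl

/-- the sum of two morphisms of cone data. -/
theorem ConeHom.add {f' : M →+ N} (h : ConeHom 𝕄 𝕂 f) (h' : ConeHom 𝕄 𝕂 f') :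
    ConeHom 𝕄 𝕂 (f + f') :=
  ⟨fun σ x => by
      rw [AddMonoidHom.add_apply, AddMonoidHom.add_apply, h.equivariant, h'.equivariant, smul_add],
    fun x hx => 𝕂.Mf.add_mem (h.mapMf x hx) (h'.mapMf x hx),
    fun c hc => 𝕂.Z.add_mem (h.mapZ c hc) (h'.mapZ c hc)⟩

theorem ConeHom.mapH1S_add {f' : M →+ N} (h : ConeHom 𝕄 𝕂 f) (h' : ConeHom 𝕄 𝕂 f')
    (x : H1S 𝕄) : (h.add h').mapH1S x = h.mapH1S x + h'.mapH1S x := by
  obtain ⟨t, rfl⟩ := H1S.mk_surjective 𝕄 x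
  rfl

end Functoriality

/-! ### The six-term sequence -/

section Exact

variable {D I : Subgroup G}
variable {M' M M'' : Type*} [AddCommGroup M'] [DistribMulAction G M'] [AddCommGroup M]
  [DistribMulAction G M] [AddCommGroup M''] [DistribMulAction G M'']

/-- A short exact sequence of cone data: `0 → M' → M → M'' → 0` exact (surjectivity of `π` is only
needed on the finite parts), `M'f = M' ∩ Mf`, `M''f = π (Mf)`, and the admissible cocycles of `M'`
contain those which become admissible in `M`. -/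
structure ConeExact (𝕄' : ConeData D I M') (𝕄 : ConeData D I M) (𝕄'' : ConeData D I M'')
    (i : M' →+ M) (π : M →+ M'') : Prop where
  homi : ConeHom 𝕄' 𝕄 i
  homπ : ConeHom 𝕄 𝕄'' π
  inj : Function.Injective i
  exact : ∀ x, π x = 0 ↔ ∃ y, i y = x
  surjMf : ∀ y ∈ 𝕄''.Mf, ∃ x ∈ 𝕄.Mf, π x = y
  memMf : ∀ x, i x ∈ 𝕄.Mf → x ∈ 𝕄'.Mf
  memZ : ∀ c : G → M', (fun σ => i (c σ)) ∈ 𝕄.Z → c ∈ 𝕄'.Z

variable {𝕄' : ConeData D I M'} {𝕄 : ConeData D I M} {𝕄'' : ConeData D I M''}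
  {i : M' →+ M} {π : M →+ M''}

namespace ConeExact

variable (h : ConeExact 𝕄' 𝕄 𝕄'' i π)

include h

theorem π_i (y : M') : π (i y) = 0 := (h.exact _).2 ⟨y, rfl⟩

/-- a set-theoretic retraction of `i`. -/
noncomputable def retr (_h : ConeExact 𝕄' 𝕄 𝕄'' i π) : M → M' := Function.invFun i

theorem retr_i (y : M') : h.retr (i y) = y := Function.leftInverse_invFun h.inj y

theorem i_retr {x : M} (hx : π x = 0) : i (h.retr x) = x := by
  obtain ⟨y, rfl⟩ := (h.exact x).1 hx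
  rw [h.retr_i]

theorem retr_add {x y : M} (hx : π x = 0) (hy : π y = 0) :
    h.retr (x + y) = h.retr x + h.retr y := by
  apply h.inj
  rw [map_add, h.i_retr hx, h.i_retr hy, h.i_retr (by rw [map_add, hx, hy, add_zero])]

/-- a cone cocycle of `M` which dies in `M''` (as a triple) comes from a cone cocycle of `M'`. -/
theorem exists_of_tmap_eq_zero {t : Triple D M} (ht : t ∈ Z1S 𝕄) (h0 : tmap D π t = 0) :
    ∃ t' ∈ Z1S 𝕄', tmap D i t' = t := by
  have h01 : ∀ σ : G, π (t.1 σ) = 0 := fun σ => congrFun (congrArg Prod.fst h0) σ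
  have h02 : π t.2.1 = 0 := congrArg (fun z => z.2.1) h0
  have h03 : ∀ σ : D, π (t.2.2 σ) = 0 := fun σ => congrFun (congrArg (fun z => z.2.2) h0) σ
  obtain ⟨h1, h2, h3, h4, h5⟩ := ht
  refine ⟨(fun σ => h.retr (t.1 σ), h.retr t.2.1, fun σ => h.retr (t.2.2 σ)), ?_, ?_⟩
  · refine ⟨h.memZ _ ?_, fun σ => h.memMf _ ?_, fun σ τ => h.inj ?_, fun σ hσ => h.inj ?_,
      fun σ => h.inj ?_⟩
    · have : (fun σ => i (h.retr (t.1 σ))) = t.1 := funext fun σ => h.i_retr (h01 σ)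
      rw [this]
      exact h1
    · change i (h.retr (t.2.2 σ)) ∈ 𝕄.Mf
      rw [h.i_retr (h03 σ)]
      exact h2 σ
    · change i (h.retr (t.2.2 (σ * τ))) = i (h.retr (t.2.2 σ) + (σ : G) • h.retr (t.2.2 τ))
      rw [map_add, h.homi.equivariant, h.i_retr (h03 _), h.i_retr (h03 _), h.i_retr (h03 _), h3]
    · change i (h.retr (t.2.2 σ)) = i 0
      rw [h.i_retr (h03 _), h4 σ hσ, map_zero]
    · change i (h.retr (t.1 σ)) = i (h.retr (t.2.2 σ) + ((σ : G) • h.retr t.2.1 - h.retr t.2.1))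
      rw [map_add, map_sub, h.homi.equivariant, h.i_retr (h01 _), h.i_retr (h03 _), h.i_retr h02,
        h5]
  · rw [tmap_apply]
    refine Prod.ext ?_ (Prod.ext ?_ ?_)
    · funext σ
      exact h.i_retr (h01 σ)
    · exact h.i_retr h02
    · funext σ
      exact h.i_retr (h03 σ)

/-- exactness at `H1S M`. -/
theorem exact_H1S (y : H1S 𝕄) (hy : h.homπ.mapH1S y = 0) : ∃ x : H1S 𝕄', h.homi.mapH1S x = y := by
  obtain ⟨t, rfl⟩ := H1S.mk_surjective 𝕄 y
  rw [ConeHom.mapH1S_mk, H1S.mk_eq_zero_iff, ConeHom.coe_mapZ1S] at hy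
  obtain ⟨⟨m'', mf''⟩, hb⟩ := hy
  obtain ⟨mf, hmf, hmf'⟩ := h.surjMf _ mf''.2
  -- second components: `m'' - mf'' = π a`
  have h2 : m'' - (mf'' : M'') = π (t : Triple D M).2.1 := by
    have := congrArg (fun z => z.2.1) hb
    simpa [bd_apply, tmap_apply] using this
  set m : M := (t : Triple D M).2.1 + mf with hm
  have hπm : π m = m'' := by
    rw [hm, map_add, ← h2, hmf']
    abel
  -- correct `t` by a coboundary
  set t₁ : Triple D M := (t : Triple D M) - bd 𝕄 (m, ⟨mf, hmf⟩) with ht₁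
  have ht₁Z : t₁ ∈ Z1S 𝕄 := (Z1S 𝕄).sub_mem t.2 (bd_mem_Z1S 𝕄 _)
  have ht₁0 : tmap D π t₁ = 0 := by
    rw [ht₁, map_sub, h.homπ.tmap_bd, ← hb, sub_eq_zero]
    congr 1
    exact Prod.ext hπm.symm (Subtype.ext hmf'.symm)
  obtain ⟨t', ht'Z, ht'⟩ := h.exists_of_tmap_eq_zero ht₁Z ht₁0
  refine ⟨H1S.mk 𝕄' ⟨t', ht'Z⟩, ?_⟩
  rw [ConeHom.mapH1S_mk, ← sub_eq_zero, ← map_sub, H1S.mk_eq_zero_iff]
  refine ⟨-(m, ⟨mf, hmf⟩), ?_⟩
  rw [map_neg, AddSubgroup.coe_sub, ConeHom.coe_mapZ1S]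
  change _ = tmap D i t' - (t : Triple D M)
  rw [ht', ht₁]
  abel

theorem tmap_injective : Function.Injective (tmap D i) := by
  intro s t hst
  exact Prod.ext (funext fun σ => h.inj (congrFun (congrArg Prod.fst hst) σ))
    (Prod.ext (h.inj (congrArg (fun z => z.2.1) hst))
      (funext fun σ => h.inj (congrFun (congrArg (fun z => z.2.2) hst) σ)))

theorem mapZ1S_injective : Function.Injective h.homi.mapZ1S := fun _ _ hst =>
  Subtype.ext (h.tmap_injective (congrArg Subtype.val hst))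

theorem exists_pull (k : h.homπ.mapZ1S.ker) : ∃ t' : Z1S 𝕄', h.homi.mapZ1S t' = k.1 := by
  have hk : tmap D π ((k.1 : Z1S 𝕄) : Triple D M) = 0 := by
    have h1 := k.2
    rw [AddMonoidHom.mem_ker] at h1
    exact congrArg Subtype.val h1
  obtain ⟨t', ht', e⟩ := h.exists_of_tmap_eq_zero k.1.2 hk
  exact ⟨⟨t', ht'⟩, Subtype.ext e⟩

/-- the kernel of `Z1S M → Z1S M''` is `Z1S M'`. -/
noncomputable def pullHom : h.homπ.mapZ1S.ker →+ Z1S 𝕄' :=
  AddMonoidHom.mk' (fun k => Classical.choose (h.exists_pull k)) (fun k l => by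
    apply h.mapZ1S_injective
    rw [map_add, Classical.choose_spec (h.exists_pull k), Classical.choose_spec (h.exists_pull l),
      Classical.choose_spec (h.exists_pull (k + l))]
    rfl)

theorem mapZ1S_pullHom (k : h.homπ.mapZ1S.ker) : h.homi.mapZ1S (h.pullHom k) = k.1 :=
  Classical.choose_spec (h.exists_pull k)

/-- the lifts of `H0S M''` inside the finite part of `M`. -/
def liftGroup (_h : ConeExact 𝕄' 𝕄 𝕄'' i π) : AddSubgroup M := 𝕄.Mf ⊓ (H0S 𝕄'').comap π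

/-- `x ↦ (x, x)`. -/
def diagLift : h.liftGroup →+ M × 𝕄.Mf where
  toFun x := ((x : M), ⟨(x : M), x.2.1⟩)
  map_zero' := rfl
  map_add' _ _ := rfl

theorem diagLift_apply (x : h.liftGroup) : h.diagLift x = ((x : M), ⟨(x : M), x.2.1⟩) := rfl

theorem tmap_π_bd_diagLift (x : h.liftGroup) : tmap D π (bd 𝕄 (h.diagLift x)) = 0 := by
  have hx : ∀ σ : G, σ • π (x : M) = π (x : M) := x.2.2.2
  rw [diagLift_apply, h.homπ.tmap_bd, bd_apply]
  refine Prod.ext ?_ (Prod.ext ?_ ?_)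
  · funext σ
    simp only [dd_def, hx σ, sub_self]
    rfl
  · simp
  · funext σ
    simp only [hx σ, sub_self]
    rfl

/-- a lift `x` gives the cone coboundary `bd (x, x)` of `M`, which dies in `M''`. -/
def bdLift : h.liftGroup →+ h.homπ.mapZ1S.ker :=
  (((bd 𝕄).comp h.diagLift).codRestrict (Z1S 𝕄) (fun _ => bd_mem_Z1S 𝕄 _)).codRestrict _
    (fun x => by
      rw [AddMonoidHom.mem_ker]
      exact Subtype.ext (h.tmap_π_bd_diagLift x))

theorem coe_bdLift (x : h.liftGroup) :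
    (((h.bdLift x : h.homπ.mapZ1S.ker) : Z1S 𝕄) : Triple D M) = bd 𝕄 (h.diagLift x) := rfl

/-- the connecting map on lifts. -/
noncomputable def deltaLift : h.liftGroup →+ H1S 𝕄' :=
  (H1S.mk 𝕄').comp (h.pullHom.comp h.bdLift)

/-- the projection of the lifts onto `H0S M''`. -/
def πLift : h.liftGroup →+ H0S 𝕄'' :=
  (π.comp h.liftGroup.subtype).codRestrict _ (fun x => x.2.2)

theorem coe_πLift (x : h.liftGroup) : ((h.πLift x : H0S 𝕄'') : M'') = π (x : M) := rfl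

theorem πLift_surjective : Function.Surjective h.πLift := by
  intro y
  obtain ⟨x, hx, hxy⟩ := h.surjMf _ y.2.1
  have hx2 : x ∈ (H0S 𝕄'').comap π := by
    rw [AddSubgroup.mem_comap, hxy]
    exact y.2
  exact ⟨⟨x, hx, hx2⟩, Subtype.ext hxy⟩

theorem tmap_i_deltaTriple (x : h.liftGroup) :
    tmap D i ((h.pullHom (h.bdLift x) : Z1S 𝕄') : Triple D M') = bd 𝕄 (h.diagLift x) := by
  rw [← ConeHom.coe_mapZ1S h.homi, h.mapZ1S_pullHom, coe_bdLift]

theorem deltaLift_eq_zero_of_mem_ker (x : h.liftGroup) (hx : x ∈ h.πLift.ker) :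
    h.deltaLift x = 0 := by
  have hx0 : π (x : M) = 0 := by
    rw [AddMonoidHom.mem_ker] at hx
    exact congrArg Subtype.val hx
  obtain ⟨y, hy⟩ := (h.exact _).1 hx0
  have hyf : y ∈ 𝕄'.Mf := h.memMf y (by rw [hy]; exact x.2.1)
  change H1S.mk 𝕄' (h.pullHom (h.bdLift x)) = 0
  rw [H1S.mk_eq_zero_iff]
  refine ⟨(y, ⟨y, hyf⟩), h.tmap_injective ?_⟩
  rw [h.tmap_i_deltaTriple, h.homi.tmap_bd, diagLift_apply]
  congr 1
  exact Prod.ext hy (Subtype.ext hy)

/-- **the connecting map** `H0S M'' → H1S M'`. -/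
noncomputable def delta : H0S 𝕄'' →+ H1S 𝕄' :=
  (QuotientAddGroup.lift h.πLift.ker h.deltaLift
      (fun x hx => h.deltaLift_eq_zero_of_mem_ker x hx)).comp
    (QuotientAddGroup.quotientKerEquivOfSurjective h.πLift h.πLift_surjective).symm.toAddMonoidHom

theorem delta_πLift (x : h.liftGroup) : h.delta (h.πLift x) = h.deltaLift x := by
  have e : (QuotientAddGroup.quotientKerEquivOfSurjective h.πLift h.πLift_surjective).symm
      (h.πLift x) = QuotientAddGroup.mk x := by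
    rw [AddEquiv.symm_apply_eq]
    rfl
  simp only [delta, AddMonoidHom.coe_comp, Function.comp_apply, AddEquiv.coe_toAddMonoidHom, e]
  rfl

/-- exactness at `H0S M''`. -/
theorem exact_H0S'' (y : H0S 𝕄'') (hy : h.delta y = 0) : ∃ x : H0S 𝕄, h.homπ.mapH0S x = y := by
  obtain ⟨x, rfl⟩ := h.πLift_surjective y
  rw [h.delta_πLift] at hy
  change H1S.mk 𝕄' (h.pullHom (h.bdLift x)) = 0 at hy
  rw [H1S.mk_eq_zero_iff] at hy
  obtain ⟨⟨n, nf⟩, hb⟩ := hy
  -- apply `i`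
  have hb' := congrArg (tmap D i) hb
  rw [h.tmap_i_deltaTriple, h.homi.tmap_bd, diagLift_apply, bd_apply, bd_apply] at hb'
  have e1 : ∀ σ : G, σ • i n - i n = σ • (x : M) - x := fun σ =>
    congrFun (congrArg Prod.fst hb') σ
  have e2 : i n - i (nf : M') = (x : M) - x := congrArg (fun z => z.2.1) hb'
  have hnf : i n = i (nf : M') := by
    rw [sub_self] at e2
    exact sub_eq_zero.mp e2
  refine ⟨⟨(x : M) - i n, 𝕄.Mf.sub_mem x.2.1 (by rw [hnf]; exact h.homi.mapMf _ nf.2),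
    fun σ => ?_⟩, Subtype.ext ?_⟩
  · rw [smul_sub, sub_eq_sub_iff_sub_eq_sub]
    exact (e1 σ).symm
  · change π ((x : M) - i n) = π (x : M)
    rw [map_sub, h.π_i, sub_zero]

/-- `H1S M' → H1S M` kills the image of the connecting map. -/
theorem mapH1S_delta (y : H0S 𝕄'') : h.homi.mapH1S (h.delta y) = 0 := by
  obtain ⟨x, rfl⟩ := h.πLift_surjective y
  rw [h.delta_πLift]
  change h.homi.mapH1S (H1S.mk 𝕄' (h.pullHom (h.bdLift x))) = 0
  rw [ConeHom.mapH1S_mk, H1S.mk_eq_zero_iff, h.mapZ1S_pullHom, coe_bdLift]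
  exact ⟨_, rfl⟩

theorem mapH0S_injective : Function.Injective h.homi.mapH0S := fun _ _ hxy =>
  Subtype.ext (h.inj (congrArg Subtype.val hxy))

theorem mapH0S_comp (x : H0S 𝕄') : h.homπ.mapH0S (h.homi.mapH0S x) = 0 :=
  Subtype.ext (h.π_i _)

/-- **Subadditivity of `h¹ - h⁰` for the Selmer cone**, in multiplicative form. -/
theorem card_H1S_mul_le [Finite M'] [Finite M] [Finite M''] [Finite (H1S 𝕄')] [Finite (H1S 𝕄'')] :
    Finite (H1S 𝕄) ∧
      Nat.card (H1S 𝕄) * (Nat.card (H0S 𝕄') * Nat.card (H0S 𝕄'')) ≤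
        Nat.card (H1S 𝕄') * Nat.card (H1S 𝕄'') * Nat.card (H0S 𝕄) := by
  have key := SelmerCount95.card_selmer_mul_le h.homi.mapH0S h.homπ.mapH0S h.delta h.homi.mapH1S
    h.homπ.mapH1S h.mapH0S_injective h.mapH0S_comp h.exact_H0S'' h.mapH1S_delta h.exact_H1S
    ⊤ ⊤ ⊤ (fun _ _ => AddSubgroup.mem_top _) (fun _ _ => AddSubgroup.mem_top _)
  obtain ⟨hfin, hle⟩ := key
  refine ⟨?_, ?_⟩
  · exact Finite.of_equiv _ (AddSubgroup.topEquiv (G := H1S 𝕄)).toEquiv
  · simpa only [AddSubgroup.card_top] using hle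

end ConeExact

end Exact

/-! ### Tools for the rank one cases -/

section RankOne

variable {D I : Subgroup G}
variable {M : Type*} [AddCommGroup M] [DistribMulAction G M]

/-- a cone cocycle whose global component is the coboundary of `m`, with `m - a` in the finite
part, is a cone coboundary. -/
theorem mem_B1S_of_eq_dd {𝕄 : ConeData D I M} {t : Triple D M} (ht : t ∈ Z1S 𝕄) (m : M)
    (hm : t.1 = dd m) (hmf : m - t.2.1 ∈ 𝕄.Mf) : t ∈ B1S 𝕄 := by
  obtain ⟨-, -, -, -, h5⟩ := ht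
  refine ⟨(m, ⟨m - t.2.1, hmf⟩), ?_⟩
  rw [bd_apply]
  refine Prod.ext hm.symm (Prod.ext ?_ ?_)
  · simp
  · funext σ
    have := h5 σ
    rw [hm, dd_def] at this
    simp only [smul_sub]
    rw [sub_sub_sub_comm, this]
    abel

/-- **`H1S` vanishes** as soon as every cone cocycle has a global component `d m` with `m - a` in
the finite part (e.g. `Mf = ⊤` and every admissible cocycle vanishing on `I` is a coboundary:
the cases `(ℤ/r, full)` and `(μ_r, full)`). -/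
theorem subsingleton_H1S {𝕄 : ConeData D I M}
    (H : ∀ t ∈ Z1S 𝕄, ∃ m : M, t.1 = dd m ∧ m - t.2.1 ∈ 𝕄.Mf) : Subsingleton (H1S 𝕄) := by
  refine ⟨fun x y => ?_⟩
  obtain ⟨s, rfl⟩ := H1S.mk_surjective 𝕄 x
  obtain ⟨t, rfl⟩ := H1S.mk_surjective 𝕄 y
  rw [← sub_eq_zero, ← map_sub, H1S.mk_eq_zero_iff]
  obtain ⟨m, hm, hmf⟩ := H _ (s - t).2
  exact mem_B1S_of_eq_dd (s - t).2 m hm hmf

/-- on a cone cocycle the global component vanishes on `D ∩ I` when `I` acts trivially on `a`. -/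
theorem Z1S_apply_of_mem_inertia {𝕄 : ConeData D I M} {t : Triple D M} (ht : t ∈ Z1S 𝕄) (σ : G)
    (hσD : σ ∈ D) (hσI : σ ∈ I) (ha : σ • t.2.1 = t.2.1) : t.1 σ = 0 := by
  obtain ⟨-, -, -, h4, h5⟩ := ht
  have := h5 ⟨σ, hσD⟩
  rw [h4 ⟨σ, hσD⟩ hσI, zero_add] at this
  rw [this, Subgroup.coe_mk, ha, sub_self]

/-- the invariants of a subgroup. -/
def invariants (S : Subgroup G) (M : Type*) [AddCommGroup M] [DistribMulAction G M] :
    AddSubgroup M where
  carrier := {m | ∀ σ ∈ S, σ • m = m}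
  zero_mem' := fun σ _ => smul_zero σ
  add_mem' := fun hx hy σ hσ => by rw [smul_add, hx σ hσ, hy σ hσ]
  neg_mem' := fun hx σ hσ => by rw [smul_neg, hx σ hσ]

/-- `a ↦ (0, a, 0)` on the `D`-invariants. -/
def invToZ1S (𝕄 : ConeData D I M) : invariants D M →+ Z1S 𝕄 where
  toFun a := ⟨(0, (a : M), 0), 𝕄.Z.zero_mem, fun _ => 𝕄.Mf.zero_mem, fun _ _ => by simp,
    fun _ _ => rfl, fun σ => by
      change (0 : M) = 0 + ((σ : G) • (a : M) - a)
      rw [a.2 σ σ.2, sub_self, add_zero]⟩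
  map_zero' := rfl
  map_add' _ _ := Subtype.ext (Prod.ext (by simp) (Prod.ext (by simp) (by simp)))

theorem coe_invToZ1S (𝕄 : ConeData D I M) (a : invariants D M) :
    ((invToZ1S 𝕄 a : Z1S 𝕄) : Triple D M) = (0, (a : M), 0) := rfl

/-- **The case of an empty fibre at `p`** (`Mf = ⊥`: the types `j_!(ℤ/r)`, `j_!(μ_r)`): if every
admissible cocycle which is a coboundary on `D` is a coboundary, then
`#H1S · #M^G ≤ #M^D`. -/
theorem card_H1S_mul_le_of_bot {𝕄 : ConeData D I M} [Finite M] (hbot : 𝕄.Mf = ⊥)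
    (H : ∀ c ∈ 𝕄.Z, (∃ a : M, ∀ σ ∈ D, c σ = σ • a - a) → ∃ m : M, c = dd m) :
    Nat.card (H1S 𝕄) * Nat.card (invariants (⊤ : Subgroup G) M) ≤ Nat.card (invariants D M) := by
  set φ : invariants D M →+ H1S 𝕄 := (H1S.mk 𝕄).comp (invToZ1S 𝕄) with hφ
  -- `φ` is surjective
  have hsurj : Function.Surjective φ := by
    intro y
    obtain ⟨t, rfl⟩ := H1S.mk_surjective 𝕄 y
    obtain ⟨h1, h2, -, -, h5⟩ := t.2
    have hβ : ∀ σ : D, (t : Triple D M).2.2 σ = 0 := fun σ => by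
      have := h2 σ
      rwa [hbot, AddSubgroup.mem_bot] at this
    obtain ⟨m, hm⟩ := H _ h1 ⟨(t : Triple D M).2.1, fun σ hσ => by
      have := h5 ⟨σ, hσ⟩
      rwa [hβ, zero_add] at this⟩
    have hinv : (t : Triple D M).2.1 - m ∈ invariants D M := by
      intro σ hσ
      have := h5 ⟨σ, hσ⟩
      rw [hβ, zero_add, hm, dd_def] at this
      rw [smul_sub, sub_eq_sub_iff_sub_eq_sub]
      exact this.symm
    refine ⟨⟨_, hinv⟩, ?_⟩
    rw [hφ, AddMonoidHom.comp_apply, ← sub_eq_zero, ← map_sub, H1S.mk_eq_zero_iff]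
    refine ⟨(-m, 0), ?_⟩
    rw [bd_apply, AddSubgroup.coe_sub, coe_invToZ1S]
    refine Prod.ext ?_ (Prod.ext ?_ ?_)
    · rw [dd_neg, ← hm]
      simp
    · simp
    · funext σ
      simp [hβ σ]
  -- the `G`-invariants die
  have hker : ∀ a : invariants (⊤ : Subgroup G) M, ∃ b : φ.ker, ((b : invariants D M) : M) = a := by
    intro a
    have haD : (a : M) ∈ invariants D M := fun σ _ => a.2 σ (Subgroup.mem_top σ)
    refine ⟨⟨⟨a, haD⟩, ?_⟩, rfl⟩
    rw [AddMonoidHom.mem_ker, hφ, AddMonoidHom.comp_apply, H1S.mk_eq_zero_iff]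
    refine ⟨((a : M), 0), ?_⟩
    rw [bd_apply, coe_invToZ1S]
    refine Prod.ext ?_ (Prod.ext ?_ ?_)
    · funext σ
      simp [dd_def, a.2 σ (Subgroup.mem_top σ)]
    · simp
    · funext σ
      simp
  have hcard : Nat.card (invariants (⊤ : Subgroup G) M) ≤ Nat.card φ.ker := by
    choose b hb using hker
    exact Nat.card_le_card_of_injective b (fun x y hxy => Subtype.ext (by rw [← hb x, ← hb y, hxy]))
  have hrange : Nat.card φ.range = Nat.card (H1S 𝕄) := by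
    rw [AddMonoidHom.range_eq_top.mpr hsurj, AddSubgroup.card_top]
  rw [SelmerCount95.card_eq_ker_mul_range φ, hrange, mul_comm]
  exact Nat.mul_le_mul_right _ hcard

end RankOne

/-! ### Induced cone data on a submodule -/

section Comap

variable {D I : Subgroup G}
variable {M' M : Type*} [AddCommGroup M'] [DistribMulAction G M'] [AddCommGroup M]
  [DistribMulAction G M]

/-- the cone datum induced on a submodule: `M'f = M' ∩ Mf`, admissible cocycles = those which are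
admissible in `M`. -/
def ConeData.comap (𝕄 : ConeData D I M) (i : M' →+ M) (hi : ∀ (σ : G) (x : M'), i (σ • x) = σ • i x)
    (hinj : Function.Injective i) : ConeData D I M' where
  Mf := 𝕄.Mf.comap i
  stable σ hσ x hx := by
    rw [AddSubgroup.mem_comap, hi]
    exact 𝕄.stable σ hσ _ hx
  fixed σ hσ x hx := hinj (by rw [hi]; exact 𝕄.fixed σ hσ _ hx)
  Z := 𝕄.Z.comap (i.compLeft G)
  cocycle c hc σ τ := hinj (by
    have := 𝕄.cocycle _ hc σ τ
    simp only [AddMonoidHom.compLeft_apply, Function.comp_apply] at this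
    rw [map_add, hi, this])
  cobound m := by
    rw [AddSubgroup.mem_comap]
    have : (i.compLeft G) (dd m) = dd (i m) := by
      funext σ
      simp only [AddMonoidHom.compLeft_apply, Function.comp_apply, dd_def, map_sub, hi]
    rw [this]
    exact 𝕄.cobound _

theorem ConeData.comap_coneHom (𝕄 : ConeData D I M) (i : M' →+ M)
    (hi : ∀ (σ : G) (x : M'), i (σ • x) = σ • i x) (hinj : Function.Injective i) :
    ConeHom (𝕄.comap i hi hinj) 𝕄 i :=
  ⟨hi, fun _ hx => hx, fun _ hc => hc⟩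

/-- a short exact sequence whose sub carries the induced cone datum is `ConeExact` as soon as the
quotient datum has `M''f = π(Mf)` and receives the admissible cocycles. -/
theorem ConeData.comap_coneExact {M'' : Type*} [AddCommGroup M''] [DistribMulAction G M'']
    (𝕄 : ConeData D I M) (𝕄'' : ConeData D I M'') (i : M' →+ M)
    (hi : ∀ (σ : G) (x : M'), i (σ • x) = σ • i x) (hinj : Function.Injective i) (π : M →+ M'')
    (hπ : ConeHom 𝕄 𝕄'' π) (hex : ∀ x, π x = 0 ↔ ∃ y, i y = x)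
    (hsurj : ∀ y ∈ 𝕄''.Mf, ∃ x ∈ 𝕄.Mf, π x = y) :
    ConeExact (𝕄.comap i hi hinj) 𝕄 𝕄'' i π :=
  ⟨𝕄.comap_coneHom i hi hinj, hπ, hinj, hex, hsurj, fun _ hx => hx, fun _ hc => hc⟩

end Comap

end Fermat.Agent.MAZ.Desc.SelmerCone95
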