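/-
MAZ (S15), G-side (descent), brick DEVISSAGE (helper95): **Mazur's inequality `h¹ - h⁰ ≤ δ - α` for
the Selmer cone, by induction along the rank-one Eisenstein filtration**.
Mathlib + `SelmerCone95` + `EisFiltration19`.

`gen1 f` is the generalised kernel of an endomorphism `f` (for `f = φ₀ - 1`, `φ₀ ∈ G` with
`χ φ₀ ≠ 1`, `#gen1 = r ^ (number of constituents ℤ/r)`: Mazur's `r^α`, defined intrinsically);
it is exact on finite groups (Fitting).  `AdmFamily` is a functorial family of admissible cocycles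
on a class `Ok` of modules closed under sub-objects and quotient objects (v2: relative family).
`devissage`: if the rank-one objects satisfy `#H1S · #gen1 · #Mf ≤ #H0S · r`, then every finite
Eisenstein module satisfies `#H1S · #gen1 · #Mf ≤ #H0S · #M`.
-/
import Mathlib
import Fermat.Agent.MAZ.Desc.SelmerCone95
import Fermat.Agent.MAZ.Desc.EisFiltration19

set_option autoImplicit false
set_option linter.style.haveILetI false

universe u

namespace Fermat.Agent.MAZ.Desc.Devissage95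

open Fermat.Agent.MAZ.Desc Fermat.Agent.MAZ.Desc.SelmerCone95
  Fermat.Agent.MAZ.Desc.EisFiltration19

/-! ### Counting along a short exact sequence -/

section Count

variable {A' A A'' : Type*} [AddCommGroup A'] [AddCommGroup A] [AddCommGroup A'']

/-- `#A = #A' · #A''` for a short exact sequence (also for infinite groups). -/
theorem card_of_exact (i : A' →+ A) (π : A →+ A'') (hi : Function.Injective i)
    (hex : ∀ x, π x = 0 ↔ ∃ y, i y = x) (hsurj : Function.Surjective π) :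
    Nat.card A = Nat.card A' * Nat.card A'' := by
  rw [SelmerCount95.card_eq_ker_mul_range π, AddMonoidHom.range_eq_top.mpr hsurj,
    AddSubgroup.card_top]
  congr 1
  refine (Nat.card_congr (Equiv.ofBijective
    (fun y : A' => (⟨i y, (hex _).2 ⟨y, rfl⟩⟩ : π.ker)) ⟨?_, ?_⟩)).symm
  · intro a b hab
    exact hi (congrArg Subtype.val hab)
  · rintro ⟨x, hx⟩
    obtain ⟨y, rfl⟩ := (hex x).1 hx
    exact ⟨y, rfl⟩

/-- the same for subgroups `S' ≤ A'`, `S ≤ A`, `S'' ≤ A''`. -/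
theorem card_of_exact_sub (i : A' →+ A) (π : A →+ A'') (hi : Function.Injective i)
    (S' : AddSubgroup A') (S : AddSubgroup A) (S'' : AddSubgroup A'')
    (h1 : ∀ x ∈ S', i x ∈ S) (h2 : ∀ x ∈ S, π x ∈ S'')
    (hex : ∀ x ∈ S, π x = 0 → ∃ y ∈ S', i y = x) (hπi : ∀ y, π (i y) = 0)
    (hsurj : ∀ z ∈ S'', ∃ x ∈ S, π x = z) :
    Nat.card S = Nat.card S' * Nat.card S'' := by
  refine card_of_exact ((i.comp S'.subtype).codRestrict S (fun x => h1 _ x.2))
    ((π.comp S.subtype).codRestrict S'' (fun x => h2 _ x.2)) ?_ ?_ ?_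
  · intro a b hab
    exact Subtype.ext (hi (congrArg Subtype.val hab))
  · intro x
    constructor
    · intro hx
      obtain ⟨y, hy, hyx⟩ := hex x.1 x.2 (congrArg Subtype.val hx)
      exact ⟨⟨y, hy⟩, Subtype.ext hyx⟩
    · rintro ⟨y, rfl⟩
      exact Subtype.ext (hπi _)
  · intro z
    obtain ⟨x, hx, hxz⟩ := hsurj z.1 z.2
    exact ⟨⟨x, hx⟩, Subtype.ext hxz⟩

end Count

/-! ### The generalised kernel -/

section Gen1

variable {M : Type*} [AddCommGroup M]

/-- the generalised kernel of an endomorphism. -/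
def gen1 (f : M →+ M) : AddSubgroup M where
  carrier := {x | ∃ N : ℕ, f^[N] x = 0}
  zero_mem' := ⟨0, rfl⟩
  add_mem' := by
    rintro x y ⟨a, ha⟩ ⟨b, hb⟩
    refine ⟨a + b, ?_⟩
    rw [iterate_map_add]
    have h1 : f^[a + b] x = 0 := by
      rw [add_comm, Function.iterate_add_apply, ha, iterate_map_zero]
    have h2 : f^[a + b] y = 0 := by
      rw [Function.iterate_add_apply, hb, iterate_map_zero]
    rw [h1, h2, add_zero]
  neg_mem' := by
    rintro x ⟨a, ha⟩
    exact ⟨a, by rw [iterate_map_neg, ha, neg_zero]⟩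

theorem mem_gen1 {f : M →+ M} {x : M} : x ∈ gen1 f ↔ ∃ N : ℕ, f^[N] x = 0 := Iff.rfl

theorem gen1_eq_top_of_eq_zero {f : M →+ M} (hf : ∀ x, f x = 0) : gen1 f = ⊤ := by
  rw [eq_top_iff]
  intro x _
  exact ⟨1, hf x⟩

theorem gen1_eq_bot_of_injective {f : M →+ M} (hf : Function.Injective f) : gen1 f = ⊥ := by
  rw [eq_bot_iff]
  rintro x ⟨N, hN⟩
  rw [AddSubgroup.mem_bot]
  have : Function.Injective f^[N] := hf.iterate N
  exact this (by rw [hN, iterate_map_zero])

theorem iterate_eq_zero_of_le {f : M →+ M} {x : M} {a b : ℕ} (hab : a ≤ b) (ha : f^[a] x = 0) :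
    f^[b] x = 0 := by
  obtain ⟨c, rfl⟩ := Nat.exists_eq_add_of_le hab
  rw [add_comm, Function.iterate_add_apply, ha, iterate_map_zero]

/-- Fitting: for `N` large, `gen1 f = ker f^N` and `ker f^N`, `range f^N` are complementary. -/
theorem exists_fitting [Finite M] (f : M →+ M) :
    ∃ N₀ : ℕ, ∀ N, N₀ ≤ N → (∀ x, x ∈ gen1 f ↔ f^[N] x = 0) ∧
      (∀ x, ∃ k ρ : M, f^[N] k = 0 ∧ x = k + f^[N] ρ) ∧
      (∀ x y, f^[N] x = 0 → x = f^[N] y → x = 0) := by
  classical
  set F : Module.End ℤ M := f.toIntLinearMap with hF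
  have hFpow : ∀ (N : ℕ) (x : M), (F ^ N) x = f^[N] x := by
    intro N x
    rw [Module.End.pow_apply, hF, AddMonoidHom.coe_toIntLinearMap]
  have : IsArtinian ℤ M := isArtinian_of_finite
  obtain ⟨N₀, hN₀⟩ := Filter.eventually_atTop.mp
    (F.eventually_isCompl_ker_pow_range_pow.and F.eventually_iSup_ker_pow_eq)
  refine ⟨N₀, fun N hN => ?_⟩
  obtain ⟨hc, hs⟩ := hN₀ N hN
  refine ⟨fun x => ⟨?_, fun h => ⟨N, h⟩⟩, fun x => ?_, fun x y hx hy => ?_⟩
  · rintro ⟨a, ha⟩
    have h1 : x ∈ LinearMap.ker (F ^ a) := by rw [LinearMap.mem_ker, hFpow, ha]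
    have h2 : x ∈ ⨆ m, LinearMap.ker (F ^ m) := (le_iSup (fun m => LinearMap.ker (F ^ m)) a) h1
    rw [hs, LinearMap.mem_ker, hFpow] at h2
    exact h2
  · have hx : x ∈ LinearMap.ker (F ^ N) ⊔ LinearMap.range (F ^ N) := by
      rw [hc.sup_eq_top]
      exact Submodule.mem_top
    obtain ⟨k, hk, y, ⟨ρ, rfl⟩, rfl⟩ := Submodule.mem_sup.mp hx
    refine ⟨k, ρ, ?_, ?_⟩
    · rw [← hFpow]
      exact hk
    · rw [hFpow]
  · have h1 : x ∈ LinearMap.ker (F ^ N) := by rw [LinearMap.mem_ker, hFpow, hx]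
    have h2 : x ∈ LinearMap.range (F ^ N) := ⟨y, by rw [hFpow, ← hy]⟩
    have h3 : x ∈ LinearMap.ker (F ^ N) ⊓ LinearMap.range (F ^ N) := ⟨h1, h2⟩
    rw [hc.inf_eq_bot] at h3
    exact (Submodule.mem_bot ℤ).mp h3

/-- **`#gen1` is multiplicative in short exact sequences of finite groups.** -/
theorem card_gen1_of_exact {M' M'' : Type*} [AddCommGroup M'] [AddCommGroup M''] [Finite M]
    [Finite M''] (i : M' →+ M) (π : M →+ M'') (hi : Function.Injective i)
    (hex : ∀ x, π x = 0 ↔ ∃ y, i y = x) (hsurj : Function.Surjective π)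
    (f' : M' →+ M') (f : M →+ M) (f'' : M'' →+ M'') (hif : ∀ x, i (f' x) = f (i x))
    (hπf : ∀ x, π (f x) = f'' (π x)) :
    Nat.card (gen1 f) = Nat.card (gen1 f') * Nat.card (gen1 f'') := by
  have hi_it : ∀ (N : ℕ) (x : M'), i (f'^[N] x) = f^[N] (i x) := fun N x =>
    (Function.Semiconj.iterate_right (f := i) (ga := f') (gb := f) hif N) x
  have hπ_it : ∀ (N : ℕ) (x : M), π (f^[N] x) = f''^[N] (π x) := fun N x =>
    (Function.Semiconj.iterate_right (f := π) (ga := f) (gb := f'') hπf N) x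
  obtain ⟨N₁, h₁⟩ := exists_fitting f
  obtain ⟨N₂, h₂⟩ := exists_fitting f''
  obtain ⟨hg, hdec, -⟩ := h₁ (max N₁ N₂) (le_max_left _ _)
  obtain ⟨hg'', -, hdisj⟩ := h₂ (max N₁ N₂) (le_max_right _ _)
  set N := max N₁ N₂
  refine card_of_exact_sub i π hi (gen1 f') (gen1 f) (gen1 f'') ?_ ?_ ?_ ?_ ?_
  · rintro x ⟨a, ha⟩
    exact ⟨a, by rw [← hi_it, ha, map_zero]⟩
  · rintro x ⟨a, ha⟩
    exact ⟨a, by rw [← hπ_it, ha, map_zero]⟩
  · rintro x ⟨a, ha⟩ hx
    obtain ⟨y, rfl⟩ := (hex x).1 hx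
    refine ⟨y, ⟨a, hi ?_⟩, rfl⟩
    rw [hi_it, ha, map_zero]
  · intro y
    exact (hex _).2 ⟨y, rfl⟩
  · intro z hz
    obtain ⟨x, rfl⟩ := hsurj z
    obtain ⟨k, ρ, hk, rfl⟩ := hdec x
    have hzN : f''^[N] (π (k + f^[N] ρ)) = 0 := (hg'' _).1 hz
    have hkN : f''^[N] (π k) = 0 := by rw [← hπ_it, hk, map_zero]
    have hρ : π (f^[N] ρ) = 0 := by
      refine hdisj _ (π ρ) ?_ (hπ_it N ρ)
      rw [map_add, iterate_map_add, hkN, zero_add] at hzN
      exact hzN
    refine ⟨k, (hg k).2 hk, ?_⟩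
    rw [map_add, hρ, add_zero]

end Gen1

/-! ### Actions on stable submodules and their quotients -/

section Actions

variable {G : Type*} [Group G] {T : Type*} [CommRing T] {M : Type*} [AddCommGroup M]
  [DistribMulAction G M] [Module T M] [SMulCommClass G T M]

/-- the submodule attached to a `(G, T)`-stable subgroup. -/
def toSub (W : AddSubgroup M) (hW : IsStable G T W) : Submodule T M :=
  { W.toAddSubmonoid with smul_mem' := fun t w hw => hW.2 t w hw }

omit [SMulCommClass G T M] in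
theorem mem_toSub {W : AddSubgroup M} {hW : IsStable G T W} {x : M} :
    x ∈ toSub W hW ↔ x ∈ W := Iff.rfl

/-- the `G`-action on a `G`-stable submodule. -/
@[instance_reducible]
def subDMA (W : Submodule T M) (hW : ∀ (g : G), ∀ w ∈ W, g • w ∈ W) : DistribMulAction G W where
  smul g w := ⟨g • (w : M), hW g w w.2⟩
  one_smul w := Subtype.ext (one_smul G (w : M))
  mul_smul g h w := Subtype.ext (mul_smul g h (w : M))
  smul_zero g := Subtype.ext (smul_zero g)
  smul_add g a b := Subtype.ext (smul_add g (a : M) b)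

theorem le_comap_of_stable (W : Submodule T M) (hW : ∀ (g : G), ∀ w ∈ W, g • w ∈ W) (g : G) :
    W ≤ W.comap (DistribSMul.toLinearMap T M g) := by
  intro w hw
  exact hW g w hw

/-- the map induced by `g` on the quotient by a `G`-stable submodule. -/
def quotMap (W : Submodule T M) (hW : ∀ (g : G), ∀ w ∈ W, g • w ∈ W) (g : G) :
    M ⧸ W →ₗ[T] M ⧸ W :=
  W.mapQ W (DistribSMul.toLinearMap T M g) (le_comap_of_stable W hW g)

theorem quotMap_mk (W : Submodule T M) (hW : ∀ (g : G), ∀ w ∈ W, g • w ∈ W) (g : G) (x : M) :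
    quotMap W hW g (Submodule.Quotient.mk x) = Submodule.Quotient.mk (g • x) := rfl

/-- the `G`-action on the quotient by a `G`-stable submodule. -/
@[instance_reducible]
def quotDMA (W : Submodule T M) (hW : ∀ (g : G), ∀ w ∈ W, g • w ∈ W) :
    DistribMulAction G (M ⧸ W) where
  smul g := quotMap W hW g
  one_smul x := by
    obtain ⟨x, rfl⟩ := Submodule.Quotient.mk_surjective W x
    change quotMap W hW 1 (Submodule.Quotient.mk x) = _
    rw [quotMap_mk, one_smul]
  mul_smul g h x := by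
    obtain ⟨x, rfl⟩ := Submodule.Quotient.mk_surjective W x
    change quotMap W hW (g * h) (Submodule.Quotient.mk x) =
      quotMap W hW g (quotMap W hW h (Submodule.Quotient.mk x))
    rw [quotMap_mk, quotMap_mk, quotMap_mk, mul_smul]
  smul_zero g := map_zero (quotMap W hW g)
  smul_add g a b := map_add (quotMap W hW g) a b

theorem quot_smul_mk (W : Submodule T M) (hW : ∀ (g : G), ∀ w ∈ W, g • w ∈ W) (g : G) (x : M) :
    letI := quotDMA W hW
    g • (Submodule.Quotient.mk x : M ⧸ W) = Submodule.Quotient.mk (g • x) := rfl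

theorem quot_smulCommClass (W : Submodule T M) (hW : ∀ (g : G), ∀ w ∈ W, g • w ∈ W) :
    letI := quotDMA W hW
    SMulCommClass G T (M ⧸ W) := by
  letI := quotDMA W hW
  refine ⟨fun g t x => ?_⟩
  obtain ⟨x, rfl⟩ := Submodule.Quotient.mk_surjective W x
  rw [← Submodule.Quotient.mk_smul, quot_smul_mk W hW, quot_smul_mk W hW,
    ← Submodule.Quotient.mk_smul, smul_comm]

variable {r : ℕ} [Fact r.Prime] {π : T →+* ZMod r} {χ : G →* ZMod r} {τ δ : G → T}

/-- the Eichler–Shimura data pass to quotients. -/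
theorem eisData_quot (W : Submodule T M) (hW : ∀ (g : G), ∀ w ∈ W, g • w ∈ W)
    (E : EisData π χ τ δ M) :
    letI := quotDMA W hW
    EisData π χ τ δ (M ⧸ W) := by
  letI := quotDMA W hW
  refine ⟨?_, E.tau, E.delta, fun g x => ?_⟩
  · obtain ⟨m, hm⟩ := E.nil
    refine ⟨m, fun t ht x => ?_⟩
    obtain ⟨x, rfl⟩ := Submodule.Quotient.mk_surjective W x
    rw [← Submodule.Quotient.mk_smul, hm t ht x, Submodule.Quotient.mk_zero]
  · obtain ⟨x, rfl⟩ := Submodule.Quotient.mk_surjective W x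
    rw [quot_smul_mk W hW, quot_smul_mk W hW, ← Submodule.Quotient.mk_smul,
      ← Submodule.Quotient.mk_smul, ← Submodule.Quotient.mk_sub, ← Submodule.Quotient.mk_add,
      E.rel g x, Submodule.Quotient.mk_zero]

end Actions

/-! ### Admissible cocycles and the induction -/

section Induction

variable {G : Type*} [Group G]

/-- `φ₀ - 1` as an endomorphism. -/
def phiSub (φ₀ : G) (N : Type*) [AddCommGroup N] [DistribMulAction G N] : N →+ N :=
  DistribSMul.toAddMonoidHom N φ₀ - AddMonoidHom.id N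

theorem phiSub_apply (φ₀ : G) {N : Type*} [AddCommGroup N] [DistribMulAction G N] (x : N) :
    phiSub φ₀ N x = φ₀ • x - x := rfl

/-- A functorial family of admissible cocycles on a class `Ok` of `G`-modules of the universe `u`
(in the application: `Ok N` = finite, killed by `r ^ k`, unramified outside `{r, p}`, with a finite
flat model at `r`; `Z N` = the cocycles vanishing on the inertia groups outside `{r, p}` whose
extension has a finite flat model at `r`).  The class is closed under sub-objects and quotient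
objects, and the functoriality is only required inside the class. -/
structure AdmFamily (G : Type*) [Group G] where
  Ok : ∀ (N : Type u) [AddCommGroup N] [DistribMulAction G N], Prop
  Z : ∀ (N : Type u) [AddCommGroup N] [DistribMulAction G N], AddSubgroup (G → N)
  cocycle : ∀ (N : Type u) [AddCommGroup N] [DistribMulAction G N], ∀ c ∈ Z N, ∀ σ τ : G,
    c (σ * τ) = c σ + σ • c τ
  cobound : ∀ (N : Type u) [AddCommGroup N] [DistribMulAction G N], Ok N → ∀ m : N, dd m ∈ Z N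
  map : ∀ {N N' : Type u} [AddCommGroup N] [DistribMulAction G N] [AddCommGroup N']
    [DistribMulAction G N'] (f : N →+ N'), (∀ (σ : G) (x : N), f (σ • x) = σ • f x) →
    Ok N → Ok N' → ∀ c ∈ Z N, (fun σ => f (c σ)) ∈ Z N'
  comap : ∀ {N N' : Type u} [AddCommGroup N] [DistribMulAction G N] [AddCommGroup N']
    [DistribMulAction G N'] (f : N →+ N'), (∀ (σ : G) (x : N), f (σ • x) = σ • f x) →
    Function.Injective f → Ok N → Ok N' → ∀ c : G → N, (fun σ => f (c σ)) ∈ Z N' → c ∈ Z N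
  ok_sub : ∀ {N N' : Type u} [AddCommGroup N] [DistribMulAction G N] [AddCommGroup N']
    [DistribMulAction G N'] (f : N →+ N'), (∀ (σ : G) (x : N), f (σ • x) = σ • f x) →
    Function.Injective f → Ok N' → Ok N
  ok_quot : ∀ {N N' : Type u} [AddCommGroup N] [DistribMulAction G N] [AddCommGroup N']
    [DistribMulAction G N'] (f : N →+ N'), (∀ (σ : G) (x : N), f (σ • x) = σ • f x) →
    Function.Surjective f → Ok N → Ok N'

variable {D I : Subgroup G}

/-- the conclusion of the devissage for a cone datum. -/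
def Concl (φ₀ : G) {M : Type*} [AddCommGroup M] [DistribMulAction G M] (𝕄 : ConeData D I M)
    (b : ℕ) : Prop :=
  Finite (H1S 𝕄) ∧
    Nat.card (H1S 𝕄) * Nat.card (gen1 (phiSub φ₀ M)) * Nat.card 𝕄.Mf ≤ Nat.card (H0S 𝕄) * b

/-- the conclusion holds for the zero module. -/
theorem concl_of_subsingleton (φ₀ : G) {M : Type*} [AddCommGroup M] [DistribMulAction G M]
    [Subsingleton M] (𝕄 : ConeData D I M) : Concl φ₀ 𝕄 (Nat.card M) := by
  have h1 : Subsingleton (H1S 𝕄) := by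
    have : Subsingleton (Z1S 𝕄) := inferInstance
    exact Quotient.instSubsingletonQuotient _
  refine ⟨Finite.of_subsingleton, ?_⟩
  rw [Nat.card_unique, Nat.card_unique, Nat.card_unique, Nat.card_unique, Nat.card_unique]

variable {T : Type*} [CommRing T] {r : ℕ} [hr : Fact r.Prime] {π : T →+* ZMod r}
  {χ : G →* ZMod r} {τ δ : G → T}

/-- the arithmetic of one step. -/
theorem step_arith {a w0 q0 b c m0 gW gQ fW fQ cW cQ : ℕ} (hw0 : 0 < w0) (hq0 : 0 < q0)
    (hstep : a * (w0 * q0) ≤ b * c * m0) (hW1 : b * gW * fW ≤ w0 * cW)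
    (hQ1 : c * gQ * fQ ≤ q0 * cQ) :
    a * (gW * gQ) * (fW * fQ) ≤ m0 * (cW * cQ) := by
  have hpos : 0 < w0 * q0 := Nat.mul_pos hw0 hq0
  refine Nat.le_of_mul_le_mul_right ?_ hpos
  calc a * (gW * gQ) * (fW * fQ) * (w0 * q0)
      = a * (w0 * q0) * ((gW * gQ) * (fW * fQ)) := by ring
    _ ≤ b * c * m0 * ((gW * gQ) * (fW * fQ)) := Nat.mul_le_mul_right _ hstep
    _ = m0 * ((b * gW * fW) * (c * gQ * fQ)) := by ring
    _ ≤ m0 * ((w0 * cW) * (q0 * cQ)) := Nat.mul_le_mul_left _ (Nat.mul_le_mul hW1 hQ1)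
    _ = m0 * (cW * cQ) * (w0 * q0) := by ring

/-- the hypothesis on rank-one objects: the uniform form of the four rank-one computations. -/
def RankOneBound (F : AdmFamily.{u} G) (D I : Subgroup G) (r : ℕ) (χ : G →* ZMod r) (φ₀ : G) :
    Prop :=
  ∀ (N : Type u) [AddCommGroup N] [DistribMulAction G N] [Finite N], F.Ok N → Nat.card N = r →
    ((∀ (g : G) (x : N), g • x = x) ∨ (∀ (g : G) (x : N), g • x = (χ g).val • x)) →
    ∀ 𝕟 : ConeData D I N, 𝕟.Z = F.Z N → Concl φ₀ 𝕟 r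

/-- one step of the devissage: a rank-one stable subgroup `W` and the quotient. -/
theorem concl_step (F : AdmFamily.{u} G) (φ₀ : G) (hR : RankOneBound F D I r χ φ₀)
    {M : Type u} [AddCommGroup M] [DistribMulAction G M] [Module T M] [SMulCommClass G T M]
    [Finite M] (hOk : F.Ok M) (𝕄 : ConeData D I M) (h𝕄 : 𝕄.Z = F.Z M)
    (W : Submodule T M) (hWG : ∀ (g : G), ∀ w ∈ W, g • w ∈ W) (hWr : Nat.card W = r)
    (hWact : (∀ (g : G), ∀ w ∈ W, g • w = w) ∨ (∀ (g : G), ∀ w ∈ W, g • w = (χ g).val • w))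
    (hQ : letI := quotDMA W hWG
      F.Ok (M ⧸ W) → ∀ 𝕢 : ConeData D I (M ⧸ W), 𝕢.Z = F.Z (M ⧸ W) →
        Concl φ₀ 𝕢 (Nat.card (M ⧸ W))) :
    Concl φ₀ 𝕄 (Nat.card M) := by
  letI iW : DistribMulAction G W := subDMA W hWG
  letI iQ : DistribMulAction G (M ⧸ W) := quotDMA W hWG
  -- the maps
  set i : W →+ M := W.subtype.toAddMonoidHom with hi_def
  set p : M →+ M ⧸ W := W.mkQ.toAddMonoidHom with hp_def
  have hi_eq : ∀ (σ : G) (x : W), i (σ • x) = σ • i x := fun _ _ => rfl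
  have hp_eq : ∀ (σ : G) (x : M), p (σ • x) = σ • p x := fun _ _ => rfl
  have hi_inj : Function.Injective i := W.injective_subtype
  have hp_surj : Function.Surjective p := W.mkQ_surjective
  have hex : ∀ x, p x = 0 ↔ ∃ y, i y = x := by
    intro x
    constructor
    · intro hx
      have : x ∈ W := (Submodule.Quotient.mk_eq_zero W).1 hx
      exact ⟨⟨x, this⟩, rfl⟩
    · rintro ⟨y, rfl⟩
      exact (Submodule.Quotient.mk_eq_zero W).2 y.2
  -- the class `Ok`
  have hOkW : F.Ok W := F.ok_sub i hi_eq hi_inj hOk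
  have hOkQ : F.Ok (M ⧸ W) := F.ok_quot p hp_eq hp_surj hOk
  -- the cone data
  set 𝕨 : ConeData D I W := 𝕄.comap i hi_eq hi_inj with h𝕨_def
  have h𝕨 : 𝕨.Z = F.Z W := by
    ext c
    constructor
    · intro hc
      have hc' : (fun σ => i (c σ)) ∈ 𝕄.Z := hc
      rw [h𝕄] at hc'
      exact F.comap i hi_eq hi_inj hOkW hOk c hc'
    · intro hc
      have : (fun σ => i (c σ)) ∈ F.Z M := F.map i hi_eq hOkW hOk c hc
      rw [← h𝕄] at this
      exact this
  let 𝕢 : ConeData D I (M ⧸ W) :=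
    { Mf := 𝕄.Mf.map p
      stable := by
        rintro σ hσ _ ⟨x, hx, rfl⟩
        exact ⟨σ • x, 𝕄.stable σ hσ x hx, hp_eq σ x⟩
      fixed := by
        rintro σ hσ _ ⟨x, hx, rfl⟩
        rw [← hp_eq, 𝕄.fixed σ hσ x hx]
      Z := F.Z (M ⧸ W)
      cocycle := F.cocycle (M ⧸ W)
      cobound := F.cobound (M ⧸ W) hOkQ }
  have hπ : ConeHom 𝕄 𝕢 p :=
    ⟨hp_eq, fun x hx => ⟨x, hx, rfl⟩, fun c hc => by
      rw [h𝕄] at hc
      exact F.map p hp_eq hOk hOkQ c hc⟩
  have hE : ConeExact 𝕨 𝕄 𝕢 i p :=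
    𝕄.comap_coneExact 𝕢 i hi_eq hi_inj p hπ hex (by
      rintro _ ⟨x, hx, rfl⟩
      exact ⟨x, hx, rfl⟩)
  -- the three bounds
  haveI : Finite W := inferInstance
  haveI : Finite (M ⧸ W) := Finite.of_surjective p hp_surj
  obtain ⟨finW, hW1⟩ := hR W hOkW hWr (by
    rcases hWact with h | h
    · exact Or.inl fun g x => Subtype.ext (h g x x.2)
    · exact Or.inr fun g x => Subtype.ext (h g x x.2)) 𝕨 h𝕨
  obtain ⟨finQ, hQ1⟩ := hQ hOkQ 𝕢 rfl
  obtain ⟨finM, hstep⟩ := hE.card_H1S_mul_le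
  refine ⟨finM, ?_⟩
  -- multiplicativity
  have c1 : Nat.card M = Nat.card W * Nat.card (M ⧸ W) := card_of_exact i p hi_inj hex hp_surj
  have c2 : Nat.card (gen1 (phiSub φ₀ M)) =
      Nat.card (gen1 (phiSub φ₀ W)) * Nat.card (gen1 (phiSub φ₀ (M ⧸ W))) :=
    card_gen1_of_exact i p hi_inj hex hp_surj _ _ _ (fun x => rfl) (fun x => rfl)
  have c3 : Nat.card 𝕄.Mf = Nat.card 𝕨.Mf * Nat.card 𝕢.Mf := by
    refine card_of_exact_sub i p hi_inj 𝕨.Mf 𝕄.Mf 𝕢.Mf (fun x hx => hx)
      (fun x hx => ⟨x, hx, rfl⟩) ?_ (fun y => (hex _).2 ⟨y, rfl⟩) ?_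
    · intro x hx hx0
      obtain ⟨y, rfl⟩ := (hex x).1 hx0
      exact ⟨y, hx, rfl⟩
    · rintro _ ⟨x, hx, rfl⟩
      exact ⟨x, hx, rfl⟩
  rw [c1, c2, c3, hWr]
  exact step_arith Nat.card_pos Nat.card_pos hstep hW1 hQ1

/-- the induction. -/
theorem devissage_aux (F : AdmFamily.{u} G) (φ₀ : G) (hR : RankOneBound F D I r χ φ₀) :
    ∀ (n : ℕ) (M : Type u) [AddCommGroup M] [DistribMulAction G M] [Module T M]
      [SMulCommClass G T M] [Finite M], Nat.card M ≤ n → F.Ok M → EisData π χ τ δ M →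
      ∀ 𝕄 : ConeData D I M, 𝕄.Z = F.Z M → Concl φ₀ 𝕄 (Nat.card M) := by
  intro n
  induction n with
  | zero =>
    intro M _ _ _ _ _ hn
    have := Nat.card_pos (α := M)
    omega
  | succ n ih =>
    intro M _ _ _ _ _ hn hOk E 𝕄 h𝕄
    rcases subsingleton_or_nontrivial M with hs | hnt
    · exact concl_of_subsingleton φ₀ 𝕄
    · obtain ⟨W, -, hWst, hWr, -, hWact⟩ := exists_rank_one_sub E
      have hWr' : Nat.card (toSub W hWst) = r := hWr
      refine concl_step F φ₀ hR hOk 𝕄 h𝕄 (toSub W hWst) hWst.1 hWr' hWact ?_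
      letI := quotDMA (toSub W hWst) hWst.1
      haveI := quot_smulCommClass (toSub W hWst) hWst.1
      haveI : Finite (M ⧸ toSub W hWst) :=
        Finite.of_surjective _ (toSub W hWst).mkQ_surjective
      intro hOkQ 𝕢 h𝕢
      refine ih (M ⧸ toSub W hWst) ?_ hOkQ (eisData_quot (toSub W hWst) hWst.1 E) 𝕢 h𝕢
      have hc := Submodule.card_eq_card_quotient_mul_card (toSub W hWst)
      rw [hWr'] at hc
      have hr2 : 2 ≤ r := hr.out.two_le
      have hq : 0 < Nat.card (M ⧸ toSub W hWst) := Nat.card_pos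
      have : 2 * Nat.card (M ⧸ toSub W hWst) ≤ r * Nat.card (M ⧸ toSub W hWst) :=
        Nat.mul_le_mul_right _ hr2
      omega

/-- **Devissage (Mazur, Eisenstein ideal, I.1.7 / II.14, for the Selmer cone).**  If the rank-one
objects satisfy `#H1S · #gen1 · #Mf ≤ #H0S · r`, then for every finite Eisenstein module `M` with a
cone datum whose admissible cocycles are those of the family:
`#H1S · #gen1 (φ₀ - 1) · #Mf ≤ #H0S · #M`. -/
theorem devissage (F : AdmFamily.{u} G) (φ₀ : G) (hR : RankOneBound F D I r χ φ₀)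
    (M : Type u) [AddCommGroup M] [DistribMulAction G M] [Module T M] [SMulCommClass G T M]
    [Finite M] (hOk : F.Ok M) (E : EisData π χ τ δ M) (𝕄 : ConeData D I M) (h𝕄 : 𝕄.Z = F.Z M) :
    Finite (H1S 𝕄) ∧
      Nat.card (H1S 𝕄) * Nat.card (gen1 (phiSub φ₀ M)) * Nat.card 𝕄.Mf ≤
        Nat.card (H0S 𝕄) * Nat.card M :=
  devissage_aux F φ₀ hR (Nat.card M) M le_rfl hOk E 𝕄 h𝕄

/-- the consequence `#H1S ≤ #H0S` when `α`-half and `δ`-half hold:
`#M ≤ #gen1 · #Mf`. -/
theorem card_H1S_le_card_H0S (F : AdmFamily.{u} G) (φ₀ : G) (hR : RankOneBound F D I r χ φ₀)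
    (M : Type u) [AddCommGroup M] [DistribMulAction G M] [Module T M] [SMulCommClass G T M]
    [Finite M] (hOk : F.Ok M) (E : EisData π χ τ δ M) (𝕄 : ConeData D I M) (h𝕄 : 𝕄.Z = F.Z M)
    (hhalf : Nat.card M ≤ Nat.card (gen1 (phiSub φ₀ M)) * Nat.card 𝕄.Mf) :
    Finite (H1S 𝕄) ∧ Nat.card (H1S 𝕄) ≤ Nat.card (H0S 𝕄) := by
  obtain ⟨hfin, hle⟩ := devissage F φ₀ hR M hOk E 𝕄 h𝕄
  refine ⟨hfin, ?_⟩
  have hpos : 0 < Nat.card M := Nat.card_pos
  refine Nat.le_of_mul_le_mul_right ?_ hpos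
  calc Nat.card (H1S 𝕄) * Nat.card M
      ≤ Nat.card (H1S 𝕄) * (Nat.card (gen1 (phiSub φ₀ M)) * Nat.card 𝕄.Mf) :=
        Nat.mul_le_mul_left _ hhalf
    _ = Nat.card (H1S 𝕄) * Nat.card (gen1 (phiSub φ₀ M)) * Nat.card 𝕄.Mf := by ring
    _ ≤ Nat.card (H0S 𝕄) * Nat.card M := hle

/-! ### The two shapes of rank-one objects -/

/-- on a module with trivial action the generalised kernel of `φ₀ - 1` is everything. -/
theorem gen1_phiSub_of_trivial (φ₀ : G) {N : Type*} [AddCommGroup N] [DistribMulAction G N]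
    (h : ∀ (g : G) (x : N), g • x = x) : gen1 (phiSub φ₀ N) = ⊤ :=
  gen1_eq_top_of_eq_zero fun x => by rw [phiSub_apply, h, sub_self]

/-- on a module of exponent `r` with action through `χ`, `χ φ₀ ≠ 1`, the generalised kernel of
`φ₀ - 1` is zero. -/
theorem gen1_phiSub_of_chi (φ₀ : G) {N : Type*} [AddCommGroup N] [DistribMulAction G N]
    (hrN : ∀ x : N, r • x = 0) (h : ∀ (g : G) (x : N), g • x = (χ g).val • x)
    (hφ₀ : χ φ₀ ≠ 1) : gen1 (phiSub φ₀ N) = ⊥ := by
  refine gen1_eq_bot_of_injective ?_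
  rw [injective_iff_map_eq_zero]
  intro x hx
  rw [phiSub_apply, h, sub_eq_zero] at hx
  -- `(χ φ₀ - 1)` is invertible mod `r`
  letI : Module (ZMod r) N := AddCommGroup.zmodModule hrN
  have h1 : (χ φ₀) • x = x := by
    have : ((χ φ₀).val : ZMod r) • x = x := by
      rw [Nat.cast_smul_eq_nsmul]
      exact hx
    rwa [ZMod.natCast_zmod_val] at this
  have h2 : (χ φ₀ - 1) • x = 0 := by rw [sub_smul, one_smul, h1, sub_self]
  have h3 : χ φ₀ - 1 ≠ 0 := sub_ne_zero.mpr hφ₀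
  have := congrArg (fun y => (χ φ₀ - 1)⁻¹ • y) h2
  simpa [smul_smul, inv_mul_cancel₀ h3] using this

end Induction

end Fermat.Agent.MAZ.Desc.Devissage95
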