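/-
MAZ (S15), G-side (descent), brick DUAL, part 1 (helper2): **the dual module `Hom(M, C)`**.
Mathlib + `EisFiltration19`.

`Dual M C` is a type synonym of `M →+ C` carrying the contragredient action of `G`
(`(g • f) x = g • f (g⁻¹ • x)`) and the transposed action of the commutative ring `T`
(`(t • f) x = f (t • x)`).

* `eisData_dual` : the Eichler-Shimura data pass to the dual when `δ g` acts on `M` as the integer
  by which `g` acts on `C` (think `C = μ_{r^k}` written additively, `δ (Frob_ℓ) = ℓ`);
* `card_addMonoidHom` : `#Hom(X, C) = #X` for `C` finite cyclic and `X` finite killed by `#C`;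
* `Dual.ann S` : the functionals killing the subgroup `S`, of order `#(M ⧸ S)` (`card_ann`).
-/
import Mathlib
import Fermat.Agent.MAZ.Desc.EisFiltration19

set_option autoImplicit false

namespace Fermat.Agent.MAZ.Desc.DualModule2

open Fermat.Agent.MAZ.Desc.EisFiltration19

section Defs

variable {G : Type*} [Group G] {T : Type*} [CommRing T]
variable (M : Type*) [AddCommGroup M] [DistribMulAction G M] [Module T M]
variable (C : Type*) [AddCommGroup C] [DistribMulAction G C]

/-- The dual module `Hom(M, C)` (a type synonym carrying the contragredient `G`-action and the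
transposed `T`-action). -/
def Dual : Type _ := M →+ C

instance : AddCommGroup (Dual M C) := inferInstanceAs (AddCommGroup (M →+ C))

variable {M C}

/-- the underlying homomorphism. -/
def Dual.hom (f : Dual M C) : M →+ C := f

/-- constructor. -/
def Dual.mk (f : M →+ C) : Dual M C := f

@[simp] theorem Dual.hom_mk (f : M →+ C) : (Dual.mk f).hom = f := rfl
@[simp] theorem Dual.mk_hom (f : Dual M C) : Dual.mk f.hom = f := rfl

@[ext] theorem Dual.ext {f g : Dual M C} (h : ∀ x, f.hom x = g.hom x) : f = g :=
  AddMonoidHom.ext h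

@[simp] theorem Dual.hom_add (f g : Dual M C) (x : M) : (f + g).hom x = f.hom x + g.hom x := rfl
@[simp] theorem Dual.hom_zero (x : M) : (0 : Dual M C).hom x = 0 := rfl
@[simp] theorem Dual.hom_neg (f : Dual M C) (x : M) : (-f).hom x = -f.hom x := rfl
@[simp] theorem Dual.hom_sub (f g : Dual M C) (x : M) : (f - g).hom x = f.hom x - g.hom x := rfl
@[simp] theorem Dual.hom_nsmul (n : ℕ) (f : Dual M C) (x : M) : (n • f).hom x = n • f.hom x := rfl

/-- The contragredient action `(g • f)(x) = g • f (g⁻¹ • x)`. -/
instance : DistribMulAction G (Dual M C) where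
  smul g f := Dual.mk ((DistribSMul.toAddMonoidHom C g).comp
    (f.hom.comp (DistribSMul.toAddMonoidHom M g⁻¹)))
  one_smul f := by
    apply Dual.ext; intro x
    change (1 : G) • f.hom ((1 : G)⁻¹ • x) = f.hom x
    simp
  mul_smul g h f := by
    apply Dual.ext; intro x
    change (g * h) • f.hom ((g * h)⁻¹ • x) = g • (h • f.hom (h⁻¹ • (g⁻¹ • x)))
    rw [mul_smul, mul_inv_rev, mul_smul]
  smul_zero g := by
    apply Dual.ext; intro x
    change g • (0 : C) = 0
    simp
  smul_add g f f' := by
    apply Dual.ext; intro x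
    change g • (f.hom (g⁻¹ • x) + f'.hom (g⁻¹ • x)) = g • f.hom (g⁻¹ • x) + g • f'.hom (g⁻¹ • x)
    rw [smul_add]

theorem Dual.smul_hom (g : G) (f : Dual M C) (x : M) : (g • f).hom x = g • f.hom (g⁻¹ • x) := rfl

/-- The transposed action `(t • f)(x) = f (t • x)`. -/
instance : Module T (Dual M C) where
  smul t f := Dual.mk (f.hom.comp (DistribSMul.toAddMonoidHom M t))
  one_smul f := by
    apply Dual.ext; intro x
    change f.hom ((1 : T) • x) = f.hom x
    rw [one_smul]
  mul_smul s t f := by
    apply Dual.ext; intro x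
    change f.hom ((s * t) • x) = f.hom (t • (s • x))
    rw [mul_comm, mul_smul]
  smul_zero t := by
    apply Dual.ext; intro x
    rfl
  smul_add t f f' := by
    apply Dual.ext; intro x
    rfl
  add_smul s t f := by
    apply Dual.ext; intro x
    change f.hom ((s + t) • x) = f.hom (s • x) + f.hom (t • x)
    rw [add_smul, map_add]
  zero_smul f := by
    apply Dual.ext; intro x
    change f.hom ((0 : T) • x) = 0
    rw [zero_smul, map_zero]

theorem Dual.tsmul_hom (t : T) (f : Dual M C) (x : M) : (t • f).hom x = f.hom (t • x) := rfl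

instance [SMulCommClass G T M] : SMulCommClass G T (Dual M C) where
  smul_comm g t f := by
    apply Dual.ext; intro x
    change g • f.hom (t • (g⁻¹ • x)) = g • f.hom (g⁻¹ • (t • x))
    rw [smul_comm g⁻¹ t x]

end Defs

section Eis

variable {r : ℕ} [hr : Fact r.Prime] {G : Type*} [Group G] {T : Type*} [CommRing T]
variable {M : Type*} [AddCommGroup M] [DistribMulAction G M] [Module T M] [SMulCommClass G T M]
variable {C : Type*} [AddCommGroup C] [DistribMulAction G C]
variable {π : T →+* ZMod r} {χ : G →* ZMod r} {τ δ : G → T}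

/-- **The Eichler–Shimura data pass to the dual**, provided `δ g` acts on `M` as the integer by which
`g` acts on `C` (`δ(Frob_ℓ) = ℓ`, `C = μ_{r^k}`). -/
theorem eisData_dual (D : EisData π χ τ δ M)
    (hδ : ∀ g : G, ∃ u : ℕ, (∀ c : C, g • c = u • c) ∧ (∀ x : M, δ g • x = u • x)) :
    EisData π χ τ δ (Dual M C) where
  nil := by
    obtain ⟨m, hm⟩ := D.nil
    refine ⟨m, fun t ht f => ?_⟩
    apply Dual.ext; intro x
    rw [Dual.tsmul_hom, hm t ht x, map_zero, Dual.hom_zero]
  tau := D.tau
  delta := D.delta
  rel := by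
    intro g f
    obtain ⟨u, hu1, hu2⟩ := hδ g
    apply Dual.ext; intro x
    rw [Dual.hom_add, Dual.hom_sub, Dual.hom_zero, Dual.smul_hom, Dual.smul_hom, Dual.tsmul_hom,
      Dual.smul_hom, Dual.tsmul_hom]
    have h := D.rel g (g⁻¹ • g⁻¹ • x)
    rw [smul_inv_smul, smul_inv_smul, hu2] at h
    have h' := congrArg f.hom h
    rw [map_zero, map_add, map_sub, map_nsmul] at h'
    rw [hu1, hu1, hu1, hu2, map_nsmul, smul_comm g⁻¹ (τ g) x]
    -- h' : f x - f (τ g⁻¹ x) + u f (g⁻² x) = 0
    have : u • u • f.hom (g⁻¹ • g⁻¹ • x) - u • f.hom (τ g • g⁻¹ • x) + u • f.hom x =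
        u • (f.hom x - f.hom (τ g • g⁻¹ • x) + u • f.hom (g⁻¹ • g⁻¹ • x)) := by
      rw [smul_add, smul_sub]
      abel
    rw [this, h', smul_zero]

end Eis


/-! ### Counting -/

section Card

variable (X C : Type*) [AddCommGroup X] [Finite X] [AddCommGroup C] [Finite C] [IsAddCyclic C]

omit [Finite C] in
/-- a finite cyclic group, written multiplicatively, has enough roots of unity of its order. -/
theorem hasEnough_of_cyclic :
    HasEnoughRootsOfUnity (Multiplicative C) (Nat.card C) where
  prim := by
    obtain ⟨g, hg⟩ := IsCyclic.exists_generator (α := Multiplicative C)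
    refine ⟨g, ?_⟩
    have h1 : orderOf g = Nat.card (Multiplicative C) := orderOf_eq_card_of_forall_mem_zpowers hg
    have h2 : Nat.card (Multiplicative C) = Nat.card C := rfl
    rw [← h2, ← h1]
    exact IsPrimitiveRoot.orderOf g
  cyc := by
    have : IsCyclic (Multiplicative C)ˣ :=
      isCyclic_of_surjective (toUnits (G := Multiplicative C))
        (toUnits (G := Multiplicative C)).surjective
    infer_instance

/-- **`#Hom(X, C) = #X`** for `C` finite cyclic and `X` a finite group killed by `#C`. -/
theorem card_addMonoidHom (h : ∀ x : X, Nat.card C • x = 0) : Nat.card (X →+ C) = Nat.card X := by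
  have := hasEnough_of_cyclic C
  have : NeZero (Nat.card C) := ⟨Nat.card_pos.ne'⟩
  have hdvd : Monoid.exponent (Multiplicative X) ∣ Nat.card C := by
    apply Monoid.exponent_dvd_of_forall_pow_eq_one
    intro g
    change Multiplicative.ofAdd (Nat.card C • Multiplicative.toAdd g) = 1
    rw [h]
    rfl
  have : HasEnoughRootsOfUnity (Multiplicative C) (Monoid.exponent (Multiplicative X)) :=
    HasEnoughRootsOfUnity.of_dvd (Multiplicative C) hdvd
  have key := CommGroup.card_monoidHom_of_hasEnoughRootsOfUnity (Multiplicative X) (Multiplicative C)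
  have e : (X →+ C) ≃ (Multiplicative X →* (Multiplicative C)ˣ) :=
    AddMonoidHom.toMultiplicative.trans
      (MulEquiv.monoidHomCongrRightEquiv (toUnits (G := Multiplicative C)))
  rw [Nat.card_congr e, key]
  rfl

end Card

section Ann

variable {M : Type*} [AddCommGroup M] (C : Type*) [AddCommGroup C]

instance [Finite M] [Finite C] : Finite (Dual M C) :=
  Finite.of_injective (fun f : Dual M C => (f.hom : M → C)) (fun _ _ h => Dual.ext (congrFun h))

/-- the functionals killing a subgroup. -/
def Dual.ann (S : AddSubgroup M) : AddSubgroup (Dual M C) where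
  carrier := {f | ∀ x ∈ S, f.hom x = 0}
  zero_mem' := fun _ _ => rfl
  add_mem' := fun {f g} hf hg x hx => by rw [Dual.hom_add, hf x hx, hg x hx, add_zero]
  neg_mem' := fun {f} hf x hx => by rw [Dual.hom_neg, hf x hx, neg_zero]

variable {C}

theorem Dual.mem_ann {S : AddSubgroup M} {f : Dual M C} :
    f ∈ Dual.ann C S ↔ ∀ x ∈ S, f.hom x = 0 := Iff.rfl

variable (C)

/-- functionals on the quotient = functionals killing the subgroup. -/
def annEquiv (S : AddSubgroup M) : (M ⧸ S →+ C) ≃ Dual.ann C S where
  toFun h := ⟨Dual.mk (h.comp (QuotientAddGroup.mk' S)), fun x hx => by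
    change h (QuotientAddGroup.mk' S x) = 0
    rw [QuotientAddGroup.mk'_apply, (QuotientAddGroup.eq_zero_iff x).2 hx, map_zero]⟩
  invFun f := QuotientAddGroup.lift S (f : Dual M C).hom (fun x hx => f.2 x hx)
  left_inv h := by
    ext x
    rfl
  right_inv f := by
    apply Subtype.ext
    apply Dual.ext
    intro x
    rfl

/-- **`#S^⊥ = #(M ⧸ S)`.** -/
theorem card_ann [Finite M] [Finite C] [IsAddCyclic C] (hMC : ∀ x : M, Nat.card C • x = 0)
    (S : AddSubgroup M) : Nat.card (Dual.ann C S) = Nat.card (M ⧸ S) := by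
  rw [← Nat.card_congr (annEquiv C S)]
  refine card_addMonoidHom (M ⧸ S) C (fun y => ?_)
  obtain ⟨x, rfl⟩ := QuotientAddGroup.mk_surjective y
  rw [← QuotientAddGroup.mk_nsmul, hMC, QuotientAddGroup.mk_zero]

/-- **`#Hom(M, C) = #M`.** -/
theorem card_dual [Finite M] [Finite C] [IsAddCyclic C] (hMC : ∀ x : M, Nat.card C • x = 0) :
    Nat.card (Dual M C) = Nat.card M :=
  card_addMonoidHom M C hMC

end Ann

end Fermat.Agent.MAZ.Desc.DualModule2
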