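/-
MAZ (S15), G-side (descent), brick DUAL, part 2 (helper2): **the symmetric devissage**.
Mathlib + `DualModule2` + `Devissage95` (+ `SelmerCone95`, `EisFiltration19`).

Mazur's inequality `#H1S ≤ #H0S` for the Selmer cone of `M` (`Devissage95.card_H1S_le_card_H0S`)
needs the two "halves" `#M ≤ #gen1 (φ₀ - 1 | M) · #Mf` (Weil pairing: half of the constituents are
trivial; tame inertia: half of the constituents are unramified).  Here the devissage is run on
`N := M ⊕ Hom(M, C)` (`C` a finite cyclic module, think `μ_{r^k}` written additively) with the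
finite part `Nf := Mf ⊕ Mf^⊥`, for which both halves hold AUTOMATICALLY:

* `#Nf = #Mf · #(M ⧸ Mf) = #M` (`card_ann`), as soon as `I` acts trivially on `M ⧸ Mf` and on `C`;
* `#gen1 (φ₀ - 1 | N) ≥ #M` (`card_le_gen1_mul_gen1_dual`): `(φ₀ - 1)(u φ₀⁻¹ - 1) = 1 + u - τ φ₀` is
  nilpotent by Eichler–Shimura, and `φ₀ - 1` on the dual is the transpose of `u φ₀⁻¹ - 1`.

Since `H1S M` is a direct summand of `H1S N` and `H0S N = H0S M × Hom_G(M ⧸ Mf, C)`:

  `#H1S M ≤ #H0S M · #Hom_G(M ⧸ Mf, C)`      (`card_H1S_le_mul_dualH0`),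

so the remaining input is a uniform bound on the number of equivariant functionals `M → C`
(`card_H1S_le_of_equivariantHoms`).
-/
import Mathlib
import Fermat.Agent.MAZ.Desc.DualModule2
import Fermat.Agent.MAZ.Desc.Devissage95

set_option autoImplicit false
set_option linter.unusedSectionVars false

universe u

namespace Fermat.Agent.MAZ.Desc.DualDevissage2

open Fermat.Agent.MAZ.Desc Fermat.Agent.MAZ.Desc.SelmerCone95
  Fermat.Agent.MAZ.Desc.EisFiltration19 Fermat.Agent.MAZ.Desc.Devissage95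
  Fermat.Agent.MAZ.Desc.DualModule2

/-! ### Fitting for two commuting endomorphisms with nilpotent product -/

section Fitting

variable {M : Type*} [AddCommGroup M]

/-- the iterates of an endomorphism, as endomorphisms. -/
def iter (f : M →+ M) : ℕ → (M →+ M)
  | 0 => AddMonoidHom.id M
  | (n + 1) => (iter f n).comp f

theorem iter_apply (f : M →+ M) (n : ℕ) (x : M) : iter f n x = f^[n] x := by
  induction n generalizing x with
  | zero => rfl
  | succ n ih =>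
    change iter f n (f x) = _
    rw [ih, Function.iterate_succ_apply]

theorem ker_iter_eq_gen1 [Finite M] (f : M →+ M) :
    ∃ N₀ : ℕ, ∀ N, N₀ ≤ N → (iter f N).ker = gen1 f ∧
      (∀ x y, f^[N] x = 0 → x = f^[N] y → x = 0) := by
  obtain ⟨N₀, hN₀⟩ := exists_fitting f
  refine ⟨N₀, fun N hN => ?_⟩
  obtain ⟨h1, -, h3⟩ := hN₀ N hN
  refine ⟨?_, h3⟩
  ext x
  rw [AddMonoidHom.mem_ker, iter_apply, h1]

/-- **`#M ≤ #gen1 f · #gen1 g`** for commuting `f`, `g` with `(f ∘ g)^m = 0`. -/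
theorem card_le_gen1_mul_gen1 [Finite M] (f g : M →+ M) (hcomm : ∀ x, f (g x) = g (f x))
    (m : ℕ) (hnil : ∀ x, (fun y => f (g y))^[m] x = 0) :
    Nat.card M ≤ Nat.card (gen1 f) * Nat.card (gen1 g) := by
  obtain ⟨N₀, hN₀⟩ := ker_iter_eq_gen1 f
  obtain ⟨hker, hdisj⟩ := hN₀ (max N₀ m) (le_max_left _ _)
  set N := max N₀ m with hN
  have hc : Function.Commute (f : M → M) (g : M → M) := fun x => hcomm x
  have hrange : (iter f N).range ≤ gen1 g := by
    rintro _ ⟨y, rfl⟩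
    rw [iter_apply]
    refine ⟨m, ?_⟩
    -- `z = g^m (f^N y) = f^N (g^m y)` is killed by `f^m`
    have e1 : g^[m] (f^[N] y) = f^[N] (g^[m] y) := ((hc.iterate_iterate N m) y).symm
    have e2 : f^[m] (g^[m] (f^[N] y)) = 0 := by
      have := hnil (f^[N] y)
      have e : (fun y => f (g y)) = (f : M → M) ∘ (g : M → M) := rfl
      rw [e, hc.comp_iterate] at this
      exact this
    exact hdisj _ (g^[m] y) (iterate_eq_zero_of_le (le_max_right N₀ m) e2) e1
  rw [SelmerCount95.card_eq_ker_mul_range (iter f N), hker]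
  exact Nat.mul_le_mul_left _ (AddSubgroup.card_le_of_le hrange)

end Fitting


/-! ### The generalised kernel of `φ₀ - 1` on the dual -/

section GenDual

variable {G : Type*} [Group G] {M : Type*} [AddCommGroup M] [DistribMulAction G M]
variable {C : Type*} [AddCommGroup C] [DistribMulAction G C]

/-- `u φ₀⁻¹ - 1` as an endomorphism. -/
def psiSub (φ₀ : G) (u : ℕ) (M : Type*) [AddCommGroup M] [DistribMulAction G M] : M →+ M :=
  u • DistribSMul.toAddMonoidHom M φ₀⁻¹ - AddMonoidHom.id M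

theorem psiSub_apply (φ₀ : G) (u : ℕ) (x : M) : psiSub φ₀ u M x = u • φ₀⁻¹ • x - x := rfl

/-- `φ₀ - 1` on the dual is the transpose of `u φ₀⁻¹ - 1`. -/
theorem phiSub_dual_hom {φ₀ : G} {u : ℕ} (hu : ∀ c : C, φ₀ • c = u • c) (f : Dual M C) (x : M) :
    (phiSub φ₀ (Dual M C) f).hom x = f.hom (psiSub φ₀ u M x) := by
  rw [phiSub_apply, Dual.hom_sub, Dual.smul_hom, hu, psiSub_apply, map_sub, map_nsmul]

theorem iterate_phiSub_dual_hom {φ₀ : G} {u : ℕ} (hu : ∀ c : C, φ₀ • c = u • c) (N : ℕ)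
    (f : Dual M C) (x : M) :
    ((phiSub φ₀ (Dual M C))^[N] f).hom x = f.hom ((psiSub φ₀ u M)^[N] x) := by
  induction N generalizing f x with
  | zero => rfl
  | succ N ih =>
    rw [Function.iterate_succ_apply, ih, phiSub_dual_hom hu, Function.iterate_succ_apply']

/-- **`#gen1 (u φ₀⁻¹ - 1 | M) ≤ #gen1 (φ₀ - 1 | Hom(M, C))`.** -/
theorem card_gen1_psiSub_le [Finite M] [Finite C] [IsAddCyclic C]
    (hMC : ∀ x : M, Nat.card C • x = 0) {φ₀ : G} {u : ℕ} (hu : ∀ c : C, φ₀ • c = u • c) :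
    Nat.card (gen1 (psiSub φ₀ u M)) ≤ Nat.card (gen1 (phiSub φ₀ (Dual M C))) := by
  obtain ⟨N, hN⟩ := ker_iter_eq_gen1 (psiSub φ₀ u M)
  obtain ⟨hker, -⟩ := hN N le_rfl
  set R : AddSubgroup M := (iter (psiSub φ₀ u M) N).range with hR
  have hle : Dual.ann C R ≤ gen1 (phiSub φ₀ (Dual M C)) := by
    intro f hf
    refine ⟨N, ?_⟩
    apply Dual.ext
    intro x
    rw [iterate_phiSub_dual_hom hu, Dual.hom_zero]
    exact hf _ ⟨x, iter_apply _ _ _⟩
  have h1 : Nat.card (Dual.ann C R) = Nat.card (M ⧸ R) := card_ann C hMC R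
  have h2 : Nat.card M = Nat.card (M ⧸ R) * Nat.card R :=
    AddSubgroup.card_eq_card_quotient_mul_card_addSubgroup R
  have h3 : Nat.card M = Nat.card (gen1 (psiSub φ₀ u M)) * Nat.card R := by
    rw [← hker]
    exact SelmerCount95.card_eq_ker_mul_range (iter (psiSub φ₀ u M) N)
  have h4 : Nat.card (gen1 (psiSub φ₀ u M)) = Nat.card (M ⧸ R) := by
    have hpos : 0 < Nat.card R := Nat.card_pos
    exact Nat.eq_of_mul_eq_mul_right hpos (h3.symm.trans h2)
  rw [h4, ← h1]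
  exact AddSubgroup.card_le_of_le hle

end GenDual


/-! ### Eichler–Shimura: `(φ₀ - 1)(u φ₀⁻¹ - 1)` is nilpotent -/

section ES

variable {r : ℕ} [hr : Fact r.Prime] {G : Type*} [Group G] {T : Type*} [CommRing T]
variable {M : Type*} [AddCommGroup M] [DistribMulAction G M] [Module T M] [SMulCommClass G T M]
variable {π : T →+* ZMod r} {χ : G →* ZMod r} {τ δ : G → T}

omit [Module T M] [SMulCommClass G T M] in
theorem phiSub_psiSub_comm (φ₀ : G) (u : ℕ) (x : M) :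
    phiSub φ₀ M (psiSub φ₀ u M x) = psiSub φ₀ u M (phiSub φ₀ M x) := by
  simp only [phiSub_apply, psiSub_apply, smul_sub, inv_smul_smul]
  rw [smul_comm φ₀ u, smul_inv_smul]
  abel

theorem phiSub_psiSub (E : EisData π χ τ δ M) (φ₀ : G) (u : ℕ)
    (hu2 : ∀ x : M, δ φ₀ • x = u • x) (x : M) :
    phiSub φ₀ M (psiSub φ₀ u M x) = (((1 + u : ℕ) : T) - τ φ₀) • x := by
  have h := E.rel φ₀ (φ₀⁻¹ • x)
  rw [smul_inv_smul, hu2, sub_add_eq_add_sub, sub_eq_zero] at h
  rw [phiSub_apply, psiSub_apply, smul_sub, smul_comm φ₀ u, smul_inv_smul, sub_smul,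
    Nat.cast_smul_eq_nsmul, add_smul, one_smul, ← h]
  abel

theorem phiSub_psiSub_nil (E : EisData π χ τ δ M) (φ₀ : G) (u : ℕ) (hχ : (u : ZMod r) = χ φ₀)
    (hu2 : ∀ x : M, δ φ₀ • x = u • x) :
    ∃ m : ℕ, ∀ x : M, (fun y => phiSub φ₀ M (psiSub φ₀ u M y))^[m] x = 0 := by
  obtain ⟨m, hm⟩ := E.nil
  refine ⟨m, fun x => ?_⟩
  set s : T := ((1 + u : ℕ) : T) - τ φ₀ with hs_def
  have hs : s ∈ RingHom.ker π := by
    rw [RingHom.mem_ker, hs_def, map_sub, map_natCast, E.tau, Nat.cast_add, Nat.cast_one, hχ,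
      sub_self]
  have e : (fun y => phiSub φ₀ M (psiSub φ₀ u M y)) = (fun y : M => s • y) :=
    funext (phiSub_psiSub E φ₀ u hu2)
  rw [e, smul_iterate]
  exact hm _ (Ideal.pow_mem_pow hs m) x

/-- **the `α`-half of `M ⊕ Hom(M, C)`**: `#M ≤ #gen1 (φ₀ - 1 | M) · #gen1 (φ₀ - 1 | Hom(M, C))`. -/
theorem card_le_gen1_mul_gen1_dual {C : Type*} [AddCommGroup C] [DistribMulAction G C] [Finite M]
    [Finite C] [IsAddCyclic C] (E : EisData π χ τ δ M) (φ₀ : G) (u : ℕ)
    (hχ : (u : ZMod r) = χ φ₀) (hu1 : ∀ c : C, φ₀ • c = u • c) (hu2 : ∀ x : M, δ φ₀ • x = u • x)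
    (hMC : ∀ x : M, Nat.card C • x = 0) :
    Nat.card M ≤ Nat.card (gen1 (phiSub φ₀ M)) * Nat.card (gen1 (phiSub φ₀ (Dual M C))) := by
  obtain ⟨m, hm⟩ := phiSub_psiSub_nil E φ₀ u hχ hu2
  refine (card_le_gen1_mul_gen1 (phiSub φ₀ M) (psiSub φ₀ u M) (phiSub_psiSub_comm φ₀ u) m
    hm).trans ?_
  exact Nat.mul_le_mul_left _ (card_gen1_psiSub_le hMC hu1)

end ES


/-! ### Products -/

section Prod

variable {r : ℕ} [hr : Fact r.Prime] {G : Type*} [Group G] {T : Type*} [CommRing T]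
variable {M : Type*} [AddCommGroup M] [DistribMulAction G M] [Module T M] [SMulCommClass G T M]
variable {M' : Type*} [AddCommGroup M'] [DistribMulAction G M'] [Module T M']
  [SMulCommClass G T M']
variable {π : T →+* ZMod r} {χ : G →* ZMod r} {τ δ : G → T}

/-- the Eichler–Shimura data pass to products. -/
theorem eisData_prod (E : EisData π χ τ δ M) (E' : EisData π χ τ δ M') :
    EisData π χ τ δ (M × M') where
  nil := by
    obtain ⟨m, hm⟩ := E.nil
    obtain ⟨m', hm'⟩ := E'.nil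
    refine ⟨max m m', fun t ht x => Prod.ext ?_ ?_⟩
    · exact hm t (Ideal.pow_le_pow_right (le_max_left m m') ht) x.1
    · exact hm' t (Ideal.pow_le_pow_right (le_max_right m m') ht) x.2
  tau := E.tau
  delta := E.delta
  rel g x := Prod.ext (E.rel g x.1) (E'.rel g x.2)

theorem iterate_phiSub_prod (φ₀ : G) (N : ℕ) (x : M × M') :
    (phiSub φ₀ (M × M'))^[N] x = ((phiSub φ₀ M)^[N] x.1, (phiSub φ₀ M')^[N] x.2) := by
  induction N generalizing x with
  | zero => rfl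
  | succ N ih =>
    rw [Function.iterate_succ_apply, ih, Function.iterate_succ_apply, Function.iterate_succ_apply]
    rfl

/-- `#gen1 (M) · #gen1 (M') ≤ #gen1 (M × M')`. -/
theorem card_gen1_prod_le [Finite M] [Finite M'] (φ₀ : G) :
    Nat.card (gen1 (phiSub φ₀ M)) * Nat.card (gen1 (phiSub φ₀ M')) ≤
      Nat.card (gen1 (phiSub φ₀ (M × M'))) := by
  rw [← Nat.card_prod]
  refine Nat.card_le_card_of_injective
    (fun z : gen1 (phiSub φ₀ M) × gen1 (phiSub φ₀ M') =>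
      (⟨((z.1 : M), (z.2 : M')), ?_⟩ : gen1 (phiSub φ₀ (M × M')))) ?_
  · obtain ⟨a, ha⟩ := z.1.2
    obtain ⟨b, hb⟩ := z.2.2
    refine ⟨max a b, ?_⟩
    rw [iterate_phiSub_prod]
    exact Prod.ext (iterate_eq_zero_of_le (le_max_left a b) ha)
      (iterate_eq_zero_of_le (le_max_right a b) hb)
  · intro z w hzw
    have h := congrArg (fun q : gen1 (phiSub φ₀ (M × M')) => (q : M × M')) hzw
    exact Prod.ext (Subtype.ext (congrArg Prod.fst h)) (Subtype.ext (congrArg Prod.snd h))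

end Prod


/-! ### The symmetric devissage -/

section Final

variable {G : Type*} [Group G] {D I : Subgroup G} {T : Type*} [CommRing T] {r : ℕ}
  [hr : Fact r.Prime] {π : T →+* ZMod r} {χ : G →* ZMod r} {τ δ : G → T}

section Defs

variable {M : Type*} [AddCommGroup M] [DistribMulAction G M] (C : Type*) [AddCommGroup C]
  [DistribMulAction G C]

/-- the `G`-equivariant functionals killing the finite part: `H⁰` of the dual cone. -/
def dualH0 (𝕄 : ConeData D I M) : AddSubgroup (Dual M C) where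
  carrier := {f | (∀ x ∈ 𝕄.Mf, f.hom x = 0) ∧ ∀ g : G, g • f = f}
  zero_mem' := ⟨fun _ _ => rfl, fun g => smul_zero g⟩
  add_mem' := fun {a b} ha hb =>
    ⟨(Dual.ann C 𝕄.Mf).add_mem ha.1 hb.1, fun g => by rw [smul_add, ha.2, hb.2]⟩
  neg_mem' := fun {a} ha => ⟨(Dual.ann C 𝕄.Mf).neg_mem ha.1, fun g => by rw [smul_neg, ha.2]⟩

variable {C}

theorem mem_dualH0 {𝕄 : ConeData D I M} {f : Dual M C} :
    f ∈ dualH0 C 𝕄 ↔ (∀ x ∈ 𝕄.Mf, f.hom x = 0) ∧ ∀ g : G, g • f = f := Iff.rfl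

/-- a functional is fixed by `G` iff it is equivariant. -/
theorem fixed_iff (f : Dual M C) :
    (∀ g : G, g • f = f) ↔ ∀ (g : G) (x : M), f.hom (g • x) = g • f.hom x := by
  constructor
  · intro h g x
    have := congrArg (fun q : Dual M C => q.hom (g • x)) (h g)
    simp only [Dual.smul_hom, inv_smul_smul] at this
    exact this.symm
  · intro h g
    apply Dual.ext
    intro x
    rw [Dual.smul_hom, ← h, smul_inv_smul]

variable (C)

/-- the equivariant functionals. -/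
def equivariantHoms (G : Type*) [Group G] (M : Type*) [AddCommGroup M] [DistribMulAction G M]
    (C : Type*) [AddCommGroup C] [DistribMulAction G C] : AddSubgroup (Dual M C) where
  carrier := {f | ∀ (g : G) (x : M), f.hom (g • x) = g • f.hom x}
  zero_mem' := fun g _ => (smul_zero g).symm
  add_mem' := fun {a b} ha hb g x => by
    rw [Dual.hom_add, Dual.hom_add, ha g x, hb g x, smul_add]
  neg_mem' := fun {a} ha g x => by rw [Dual.hom_neg, Dual.hom_neg, ha g x, smul_neg]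

theorem dualH0_le_equivariantHoms (𝕄 : ConeData D I M) : dualH0 C 𝕄 ≤ equivariantHoms G M C :=
  fun f hf => (fixed_iff f).1 hf.2

theorem card_dualH0_le [Finite M] [Finite C] (𝕄 : ConeData D I M) :
    Nat.card (dualH0 C 𝕄) ≤ Nat.card (equivariantHoms G M C) :=
  AddSubgroup.card_le_of_le (dualH0_le_equivariantHoms C 𝕄)

end Defs

variable {M : Type u} [AddCommGroup M] [DistribMulAction G M] (C : Type u) [AddCommGroup C]
  [DistribMulAction G C]

/-- the cone datum on `M × Hom(M, C)` with finite part `Mf × Mf^⊥`. -/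
def prodCone (F : AdmFamily.{u} G) (𝕄 : ConeData D I M) (hOk : F.Ok (M × Dual M C))
    (hIC : ∀ σ ∈ I, ∀ c : C, σ • c = c) (hI : ∀ σ ∈ I, ∀ x : M, σ • x - x ∈ 𝕄.Mf) :
    ConeData D I (M × Dual M C) where
  Mf := 𝕄.Mf.prod (Dual.ann C 𝕄.Mf)
  stable := by
    rintro σ hσ ⟨x, f⟩ ⟨hx, hf⟩
    refine ⟨𝕄.stable σ hσ x hx, fun y hy => ?_⟩
    change (σ • f).hom y = 0
    rw [Dual.smul_hom, hf _ (𝕄.stable σ⁻¹ (D.inv_mem hσ) y hy), smul_zero]
  fixed := by
    rintro σ hσ ⟨x, f⟩ ⟨hx, hf⟩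
    refine Prod.ext (𝕄.fixed σ hσ x hx) ?_
    apply Dual.ext
    intro y
    change (σ • f).hom y = f.hom y
    rw [Dual.smul_hom, hIC σ hσ]
    have := hf _ (hI σ⁻¹ (I.inv_mem hσ) y)
    rw [map_sub, sub_eq_zero] at this
    exact this
  Z := F.Z (M × Dual M C)
  cocycle := F.cocycle _
  cobound := F.cobound _ hOk

/-- **DUAL: Mazur's inequality from the symmetric devissage.**  Running the devissage on
`M ⊕ Hom(M, C)` (`C` finite cyclic, e.g. `μ_{r^k}` written additively) with finite part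
`Mf ⊕ Mf^⊥`, both the `α`-half and the `δ`-half hold automatically, hence
`#H1S M ≤ #H0S M · #Hom_G(M / Mf, C)`. -/
theorem card_H1S_le_mul_dualH0 (F : AdmFamily.{u} G) (φ₀ : G) (hR : RankOneBound F D I r χ φ₀)
    (M : Type u) [AddCommGroup M] [DistribMulAction G M] [Module T M] [SMulCommClass G T M]
    [Finite M] (C : Type u) [AddCommGroup C] [DistribMulAction G C] [Finite C] [IsAddCyclic C]
    (hMC : ∀ x : M, Nat.card C • x = 0) (hIC : ∀ σ ∈ I, ∀ c : C, σ • c = c)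
    (hδ : ∀ g : G, ∃ u : ℕ, (u : ZMod r) = χ g ∧ (∀ c : C, g • c = u • c) ∧
      ∀ x : M, δ g • x = u • x)
    (E : EisData π χ τ δ M) (𝕄 : ConeData D I M) (h𝕄 : 𝕄.Z = F.Z M)
    (hI : ∀ σ ∈ I, ∀ x : M, σ • x - x ∈ 𝕄.Mf) (hOk : F.Ok (M × Dual M C)) :
    Finite (H1S 𝕄) ∧ Nat.card (H1S 𝕄) ≤ Nat.card (H0S 𝕄) * Nat.card (dualH0 C 𝕄) := by
  -- the maps
  set i : M →+ M × Dual M C := AddMonoidHom.inl M (Dual M C) with hi_def
  set p : M × Dual M C →+ M := AddMonoidHom.fst M (Dual M C) with hp_def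
  have hi_eq : ∀ (σ : G) (x : M), i (σ • x) = σ • i x := fun σ x =>
    Prod.ext rfl (smul_zero σ).symm
  have hp_eq : ∀ (σ : G) (x : M × Dual M C), p (σ • x) = σ • p x := fun _ _ => rfl
  have hi_inj : Function.Injective i := fun a b hab => congrArg Prod.fst hab
  have hOkM : F.Ok M := F.ok_sub i hi_eq hi_inj hOk
  set 𝕟 : ConeData D I (M × Dual M C) := prodCone C F 𝕄 hOk hIC hI with h𝕟
  have hi : ConeHom 𝕄 𝕟 i :=
    ⟨hi_eq, fun x hx => ⟨hx, (Dual.ann C 𝕄.Mf).zero_mem⟩, fun c hc => by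
      rw [h𝕄] at hc
      exact F.map i hi_eq hOkM hOk c hc⟩
  have hp : ConeHom 𝕟 𝕄 p :=
    ⟨hp_eq, fun x hx => hx.1, fun c hc => by
      rw [h𝕄]
      exact F.map p hp_eq hOk hOkM c hc⟩
  -- the Eichler-Shimura data
  have hδ' : ∀ g : G, ∃ u : ℕ, (∀ c : C, g • c = u • c) ∧ ∀ x : M, δ g • x = u • x := fun g => by
    obtain ⟨u, -, h1, h2⟩ := hδ g
    exact ⟨u, h1, h2⟩
  have EN : EisData π χ τ δ (M × Dual M C) := eisData_prod E (eisData_dual E hδ')
  -- the two halves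
  obtain ⟨u, hχ, hu1, hu2⟩ := hδ φ₀
  have hA := card_le_gen1_mul_gen1_dual (C := C) E φ₀ u hχ hu1 hu2 hMC
  have hB : Nat.card 𝕟.Mf = Nat.card M := by
    have e1 : Nat.card 𝕟.Mf = Nat.card 𝕄.Mf * Nat.card (Dual.ann C 𝕄.Mf) := by
      rw [← Nat.card_prod]
      exact Nat.card_congr (AddSubgroup.prodEquiv 𝕄.Mf (Dual.ann C 𝕄.Mf)).toEquiv
    rw [e1, card_ann C hMC, mul_comm]
    exact (AddSubgroup.card_eq_card_quotient_mul_card_addSubgroup 𝕄.Mf).symm
  have hhalf : Nat.card (M × Dual M C) ≤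
      Nat.card (gen1 (phiSub φ₀ (M × Dual M C))) * Nat.card 𝕟.Mf := by
    rw [Nat.card_prod, card_dual C hMC, hB]
    exact Nat.mul_le_mul_right _ (hA.trans (card_gen1_prod_le φ₀))
  obtain ⟨hfin, hle⟩ := card_H1S_le_card_H0S F φ₀ hR (M × Dual M C) hOk EN 𝕟 rfl hhalf
  -- `H1S 𝕄` is a direct summand of `H1S 𝕟`
  have hinj : Function.Injective hi.mapH1S := by
    intro x y hxy
    have h := congrArg hp.mapH1S hxy
    have e : p.comp i = AddMonoidHom.id M := AddMonoidHom.ext fun _ => rfl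
    rw [← ConeHom.mapH1S_comp hp hi, ← ConeHom.mapH1S_comp hp hi,
      ConeHom.mapH1S_congr (hp.comp hi) (ConeHom.id 𝕄) e,
      ConeHom.mapH1S_congr (hp.comp hi) (ConeHom.id 𝕄) e, ConeHom.mapH1S_id,
      ConeHom.mapH1S_id] at h
    exact h
  have hfinM : Finite (H1S 𝕄) := Finite.of_injective _ hinj
  refine ⟨hfinM, (Nat.card_le_card_of_injective _ hinj).trans (hle.trans ?_)⟩
  -- `H0S 𝕟 ↪ H0S 𝕄 × dualH0`
  rw [← Nat.card_prod]
  refine Nat.card_le_card_of_injective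
    (fun z : H0S 𝕟 =>
      ((⟨(z : M × Dual M C).1, z.2.1.1, fun σ => congrArg Prod.fst (z.2.2 σ)⟩ : H0S 𝕄),
        (⟨(z : M × Dual M C).2, z.2.1.2, fun σ => congrArg Prod.snd (z.2.2 σ)⟩ :
          dualH0 C 𝕄))) ?_
  intro z w hzw
  have h1 : (z : M × Dual M C).1 = (w : M × Dual M C).1 :=
    congrArg (fun q : H0S 𝕄 × dualH0 C 𝕄 => (q.1 : M)) hzw
  have h2 : (z : M × Dual M C).2 = (w : M × Dual M C).2 :=
    congrArg (fun q : H0S 𝕄 × dualH0 C 𝕄 => (q.2 : Dual M C)) hzw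
  exact Subtype.ext (Prod.ext h1 h2)

/-- the same with a bound on the number of `G`-equivariant functionals `M → C` (HOM-μ). -/
theorem card_H1S_le_of_equivariantHoms (F : AdmFamily.{u} G) (φ₀ : G)
    (hR : RankOneBound F D I r χ φ₀)
    (M : Type u) [AddCommGroup M] [DistribMulAction G M] [Module T M] [SMulCommClass G T M]
    [Finite M] (C : Type u) [AddCommGroup C] [DistribMulAction G C] [Finite C] [IsAddCyclic C]
    (hMC : ∀ x : M, Nat.card C • x = 0) (hIC : ∀ σ ∈ I, ∀ c : C, σ • c = c)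
    (hδ : ∀ g : G, ∃ u : ℕ, (u : ZMod r) = χ g ∧ (∀ c : C, g • c = u • c) ∧
      ∀ x : M, δ g • x = u • x)
    (E : EisData π χ τ δ M) (𝕄 : ConeData D I M) (h𝕄 : 𝕄.Z = F.Z M)
    (hI : ∀ σ ∈ I, ∀ x : M, σ • x - x ∈ 𝕄.Mf) (hOk : F.Ok (M × Dual M C)) (B : ℕ)
    (hB : Nat.card (equivariantHoms G M C) ≤ B) :
    Finite (H1S 𝕄) ∧ Nat.card (H1S 𝕄) ≤ Nat.card (H0S 𝕄) * B := by
  obtain ⟨hfin, hle⟩ := card_H1S_le_mul_dualH0 F φ₀ hR M C hMC hIC hδ E 𝕄 h𝕄 hI hOk
  exact ⟨hfin, hle.trans (Nat.mul_le_mul_left _ ((card_dualH0_le C 𝕄).trans hB))⟩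

end Final

end Fermat.Agent.MAZ.Desc.DualDevissage2
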