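/-
MAZ (S15), G-side (descent), brick DUAL, part 4 (helper2): **bounded unramified pieces** (the
abstract core of step (BU) of the Galois-theoretic route to the toric pole, helper50).
`DualDevissage2` (+ `Devissage95`, `DualModule2`) only.

* `ok_dual_of_injective`, `ok_dual_of_surjective` : the property `F.Ok (M × Hom(M, C))` (CARTIER)
  passes to equivariant sub-objects and quotient objects of `M` (`Hom(-, C)` is exact on finite
  groups killed by `#C`, `C` finite cyclic: by counting, `card_ann` + `card_dual`);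
* `card_le_of_inertia_trivial` : a finite Eisenstein module `X` on which the inertia group `I`
  acts trivially satisfies `#X ≤ #X^G · #Hom_G(X, C)`: the devissage on `N = X ⊕ Hom(X, C)` with
  finite part `N^f := N` gives `#gen1 (φ₀ - 1 | N) ≤ #H0S N = #N^G`, and `#X ≤ #gen1 (φ₀ - 1 | N)`
  by the `α`-half of the symmetric devissage.
-/
import Mathlib
import Fermat.Agent.MAZ.Desc.DualDevissage2

set_option autoImplicit false
set_option linter.unusedSectionVars false

universe u

namespace Fermat.Agent.MAZ.Desc.BoundedUnram2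

open Fermat.Agent.MAZ.Desc Fermat.Agent.MAZ.Desc.SelmerCone95
  Fermat.Agent.MAZ.Desc.EisFiltration19 Fermat.Agent.MAZ.Desc.Devissage95
  Fermat.Agent.MAZ.Desc.DualModule2 Fermat.Agent.MAZ.Desc.DualDevissage2

/-! ### Transposes -/

section Transpose

variable {G : Type*} [Group G]
variable {W : Type*} [AddCommGroup W] [DistribMulAction G W]
variable {M : Type*} [AddCommGroup M] [DistribMulAction G M]
variable (C : Type*) [AddCommGroup C] [DistribMulAction G C]

/-- the transpose of an additive map. -/
def transpose (i : W →+ M) : Dual M C →+ Dual W C where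
  toFun f := Dual.mk (f.hom.comp i)
  map_zero' := rfl
  map_add' _ _ := rfl

theorem transpose_hom (i : W →+ M) (f : Dual M C) (x : W) :
    (transpose C i f).hom x = f.hom (i x) := rfl

theorem transpose_equivariant (i : W →+ M) (hi : ∀ (σ : G) (x : W), i (σ • x) = σ • i x) (σ : G)
    (f : Dual M C) : transpose C i (σ • f) = σ • transpose C i f := by
  apply Dual.ext
  intro x
  rw [transpose_hom, Dual.smul_hom, Dual.smul_hom, transpose_hom, hi]

theorem transpose_injective (q : W →+ M) (hq : Function.Surjective q) :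
    Function.Injective (transpose C q) := by
  intro f g hfg
  apply Dual.ext
  intro y
  obtain ⟨x, rfl⟩ := hq y
  exact congrArg (fun h : Dual W C => h.hom x) hfg

theorem ker_transpose (i : W →+ M) : (transpose C i).ker = Dual.ann C i.range := by
  ext f
  rw [AddMonoidHom.mem_ker, Dual.mem_ann]
  constructor
  · rintro h _ ⟨x, rfl⟩
    exact congrArg (fun g : Dual W C => g.hom x) h
  · intro h
    apply Dual.ext
    intro x
    exact h _ ⟨x, rfl⟩

/-- `Hom(-, C)` is right exact on finite groups killed by `#C`. -/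
theorem transpose_surjective [Finite M] [Finite C] [IsAddCyclic C]
    (hMC : ∀ x : M, Nat.card C • x = 0) (i : W →+ M) (hinj : Function.Injective i) :
    Function.Surjective (transpose C i) := by
  have : Finite W := Finite.of_injective i hinj
  have hWC : ∀ x : W, Nat.card C • x = 0 := fun x => hinj (by rw [map_nsmul, hMC, map_zero])
  have h1 : Nat.card (Dual M C) =
      Nat.card (transpose C i).ker * Nat.card (transpose C i).range :=
    SelmerCount95.card_eq_ker_mul_range _
  rw [ker_transpose, card_ann C hMC, card_dual C hMC] at h1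
  have h2 : Nat.card M = Nat.card (M ⧸ i.range) * Nat.card i.range :=
    AddSubgroup.card_eq_card_quotient_mul_card_addSubgroup _
  have h3 : Nat.card i.range = Nat.card W :=
    (Nat.card_congr (AddMonoidHom.ofInjective hinj).toEquiv).symm
  have h4 : Nat.card (transpose C i).range = Nat.card (Dual W C) := by
    rw [card_dual C hWC, ← h3]
    have hpos : 0 < Nat.card (M ⧸ i.range) := Nat.card_pos
    exact Nat.eq_of_mul_eq_mul_left hpos (h1.symm.trans h2)
  have h5 : (transpose C i).range = ⊤ := by
    rw [← AddSubgroup.card_eq_iff_eq_top]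
    exact h4
  exact AddMonoidHom.range_eq_top.mp h5

end Transpose

/-! ### Transport of `Ok` -/

section Ok

variable {G : Type*} [Group G]
variable {W : Type u} [AddCommGroup W] [DistribMulAction G W]
variable {M : Type u} [AddCommGroup M] [DistribMulAction G M]
variable (C : Type u) [AddCommGroup C] [DistribMulAction G C]

/-- CARTIER passes to sub-objects. -/
theorem ok_dual_of_injective (F : AdmFamily.{u} G) (i : W →+ M)
    (hi : ∀ (σ : G) (x : W), i (σ • x) = σ • i x) (hinj : Function.Injective i) [Finite M]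
    [Finite C] [IsAddCyclic C] (hMC : ∀ x : M, Nat.card C • x = 0)
    (hOk : F.Ok (M × Dual M C)) : F.Ok (W × Dual W C) := by
  let q : M × Dual M C →+ M × Dual W C :=
    AddMonoidHom.prodMap (AddMonoidHom.id M) (transpose C i)
  have hq : ∀ (σ : G) (x : M × Dual M C), q (σ • x) = σ • q x := fun σ x =>
    Prod.ext rfl (transpose_equivariant C i hi σ x.2)
  have hqs : Function.Surjective q := fun y => by
    obtain ⟨f, hf⟩ := transpose_surjective C hMC i hinj y.2
    exact ⟨(y.1, f), Prod.ext rfl hf⟩
  have h1 : F.Ok (M × Dual W C) := F.ok_quot q hq hqs hOk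
  let j : W × Dual W C →+ M × Dual W C := AddMonoidHom.prodMap i (AddMonoidHom.id _)
  have hj : ∀ (σ : G) (x : W × Dual W C), j (σ • x) = σ • j x := fun σ x =>
    Prod.ext (hi σ x.1) rfl
  have hji : Function.Injective j := fun a b hab => by
    have e1 : (j a).1 = (j b).1 := congrArg Prod.fst hab
    have e2 : (j a).2 = (j b).2 := congrArg Prod.snd hab
    exact Prod.ext (hinj e1) e2
  exact F.ok_sub j hj hji h1

variable {Q : Type u} [AddCommGroup Q] [DistribMulAction G Q]

/-- CARTIER passes to quotient objects. -/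
theorem ok_dual_of_surjective (F : AdmFamily.{u} G) (q : M →+ Q)
    (hq : ∀ (σ : G) (x : M), q (σ • x) = σ • q x) (hsurj : Function.Surjective q)
    (hOk : F.Ok (M × Dual M C)) : F.Ok (Q × Dual Q C) := by
  let j : M × Dual Q C →+ M × Dual M C :=
    AddMonoidHom.prodMap (AddMonoidHom.id M) (transpose C q)
  have hj : ∀ (σ : G) (x : M × Dual Q C), j (σ • x) = σ • j x := fun σ x =>
    Prod.ext rfl (transpose_equivariant C q hq σ x.2)
  have hji : Function.Injective j := fun a b hab => by
    have e1 : (j a).1 = (j b).1 := congrArg Prod.fst hab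
    have e2 : (j a).2 = (j b).2 := congrArg Prod.snd hab
    exact Prod.ext e1 (transpose_injective C q hsurj e2)
  have h1 : F.Ok (M × Dual Q C) := F.ok_sub j hj hji hOk
  let p : M × Dual Q C →+ Q × Dual Q C := AddMonoidHom.prodMap q (AddMonoidHom.id _)
  have hp : ∀ (σ : G) (x : M × Dual Q C), p (σ • x) = σ • p x := fun σ x =>
    Prod.ext (hq σ x.1) rfl
  have hps : Function.Surjective p := fun y => by
    obtain ⟨x, hx⟩ := hsurj y.1
    exact ⟨(x, y.2), Prod.ext hx rfl⟩
  exact F.ok_quot p hp hps h1

end Ok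

/-! ### Bounded unramified pieces -/

section BU

variable {G : Type*} [Group G] {D I : Subgroup G} {T : Type*} [CommRing T] {r : ℕ}
  [hr : Fact r.Prime] {π : T →+* ZMod r} {χ : G →* ZMod r} {τ δ : G → T}

/-- **(BU), abstract core.**  A finite Eisenstein module `X` on which `I` acts trivially satisfies
`#X ≤ #X^G · #Hom_G(X, C)`. -/
theorem card_le_of_inertia_trivial (F : AdmFamily.{u} G) (φ₀ : G)
    (hR : RankOneBound F D I r χ φ₀)
    (X : Type u) [AddCommGroup X] [DistribMulAction G X] [Module T X] [SMulCommClass G T X]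
    [Finite X] (C : Type u) [AddCommGroup C] [DistribMulAction G C] [Finite C] [IsAddCyclic C]
    (hXC : ∀ x : X, Nat.card C • x = 0) (hIC : ∀ σ ∈ I, ∀ c : C, σ • c = c)
    (hδ : ∀ g : G, ∃ u : ℕ, (u : ZMod r) = χ g ∧ (∀ c : C, g • c = u • c) ∧
      ∀ x : X, δ g • x = u • x)
    (E : EisData π χ τ δ X) (hIX : ∀ σ ∈ I, ∀ x : X, σ • x = x)
    (hOk : F.Ok (X × Dual X C)) :
    Nat.card X ≤ Nat.card {x : X // ∀ g : G, g • x = x} * Nat.card (equivariantHoms G X C) := by
  -- the cone datum with full finite part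
  let 𝕟 : ConeData D I (X × Dual X C) :=
    { Mf := ⊤
      stable := fun _ _ _ _ => AddSubgroup.mem_top _
      fixed := by
        rintro σ hσ ⟨x, f⟩ -
        refine Prod.ext (hIX σ hσ x) ?_
        apply Dual.ext
        intro y
        change (σ • f).hom y = f.hom y
        rw [Dual.smul_hom, hIC σ hσ, hIX σ⁻¹ (I.inv_mem hσ)]
      Z := F.Z (X × Dual X C)
      cocycle := F.cocycle _
      cobound := F.cobound _ hOk }
  have hδ' : ∀ g : G, ∃ u : ℕ, (∀ c : C, g • c = u • c) ∧ ∀ x : X, δ g • x = u • x := fun g => by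
    obtain ⟨u, -, h1, h2⟩ := hδ g
    exact ⟨u, h1, h2⟩
  have EN : EisData π χ τ δ (X × Dual X C) := eisData_prod E (eisData_dual E hδ')
  obtain ⟨hfin, hle⟩ := devissage F φ₀ hR (X × Dual X C) hOk EN 𝕟 rfl
  -- cancel `#N`
  have hMf : Nat.card 𝕟.Mf = Nat.card (X × Dual X C) := AddSubgroup.card_top
  rw [hMf] at hle
  have hpos : 0 < Nat.card (X × Dual X C) := Nat.card_pos
  have h1 : Nat.card (H1S 𝕟) * Nat.card (gen1 (phiSub φ₀ (X × Dual X C))) ≤ Nat.card (H0S 𝕟) :=
    Nat.le_of_mul_le_mul_right hle hpos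
  have h2 : Nat.card (gen1 (phiSub φ₀ (X × Dual X C))) ≤ Nat.card (H0S 𝕟) := by
    have hH1 : 0 < Nat.card (H1S 𝕟) := Nat.card_pos
    calc Nat.card (gen1 (phiSub φ₀ (X × Dual X C)))
        = 1 * Nat.card (gen1 (phiSub φ₀ (X × Dual X C))) := (one_mul _).symm
      _ ≤ Nat.card (H1S 𝕟) * Nat.card (gen1 (phiSub φ₀ (X × Dual X C))) :=
          Nat.mul_le_mul_right _ hH1
      _ ≤ Nat.card (H0S 𝕟) := h1
  -- the `α`-half
  obtain ⟨u, hχ, hu1, hu2⟩ := hδ φ₀
  have hA := card_le_gen1_mul_gen1_dual (C := C) E φ₀ u hχ hu1 hu2 hXC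
  refine (hA.trans (card_gen1_prod_le φ₀)).trans (h2.trans ?_)
  -- `H0S 𝕟 ↪ X^G × Hom_G(X, C)`
  rw [← Nat.card_prod]
  refine Nat.card_le_card_of_injective
    (fun z : H0S 𝕟 =>
      ((⟨(z : X × Dual X C).1, fun g => congrArg Prod.fst (z.2.2 g)⟩ :
          {x : X // ∀ g : G, g • x = x}),
        (⟨(z : X × Dual X C).2, (fixed_iff _).1 (fun g => congrArg Prod.snd (z.2.2 g))⟩ :
          equivariantHoms G X C))) ?_
  intro z w hzw
  have e1 : (z : X × Dual X C).1 = (w : X × Dual X C).1 :=
    congrArg (fun q : {x : X // ∀ g : G, g • x = x} × equivariantHoms G X C => (q.1 : X)) hzw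
  have e2 : (z : X × Dual X C).2 = (w : X × Dual X C).2 :=
    congrArg (fun q : {x : X // ∀ g : G, g • x = x} × equivariantHoms G X C =>
      (q.2 : Dual X C)) hzw
  exact Subtype.ext (Prod.ext e1 e2)

end BU

end Fermat.Agent.MAZ.Desc.BoundedUnram2
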