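/-
MAZ (S15), G-side (descent), brick DUAL, part 5 (helper2): **bounded unramified SUBQUOTIENTS** =
the abstract core of step (T3) (BU)-INST of the Galois-theoretic route to the toric pole
(helper50 #2267, ruling helper62 #2346).  `BoundedUnram2` only.

* `card_tors_eq_card_quot` : `#A[n] = #(A / nA)`; hence `#X[n] ≤ #M[n]` for every subquotient `X`
  of a finite abelian group `M` (`card_tors_le_of_injective`, `card_tors_le_of_surjective`);
* `eisData_of_injective`, `eisData_of_surjective` : the Eichler–Shimura data pass to equivariant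
  sub-objects and quotient objects;
* `equivariant_kills` : an equivariant functional `X → C` kills `(t - 1 - ℓ) X` for every
  "Frobenius" `φ` with `φ² - t φ + ℓ = 0` on `X` and `φ = ℓ` on `C`;
* **`card_le_of_subquotient`** : with CARTIER on `M`, the rank-one bound, and an integer `n'` in the
  Eisenstein ideal of every stable submodule of `M` (NO-EIS), every `(G, T)`-stable subquotient
  `Y₁ / Y₂` of `M` with trivial action of `I` satisfies `#Y₁ ≤ #Y₂ · (#M[n'])²`.
-/
import Mathlib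
import Fermat.Agent.MAZ.Desc.BoundedUnram2

set_option autoImplicit false
set_option linter.unusedSectionVars false
set_option linter.style.haveILetI false

universe u

namespace Fermat.Agent.MAZ.Desc.BUSubquot2

open Fermat.Agent.MAZ.Desc Fermat.Agent.MAZ.Desc.SelmerCone95
  Fermat.Agent.MAZ.Desc.EisFiltration19 Fermat.Agent.MAZ.Desc.Devissage95
  Fermat.Agent.MAZ.Desc.DualModule2 Fermat.Agent.MAZ.Desc.DualDevissage2
  Fermat.Agent.MAZ.Desc.BoundedUnram2

/-! ### Torsion of sub-objects and quotient objects -/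

section Torsion

variable {A : Type*} [AddCommGroup A]

/-- `#A[n] = #(A / n A)` for a finite abelian group. -/
theorem card_tors_eq_card_quot [Finite A] (n : ℕ) :
    Nat.card {x : A // n • x = 0} = Nat.card (A ⧸ (nsmulAddMonoidHom n : A →+ A).range) := by
  set f : A →+ A := nsmulAddMonoidHom n with hf
  have h1 : Nat.card A = Nat.card f.ker * Nat.card f.range :=
    SelmerCount95.card_eq_ker_mul_range f
  have h2 : Nat.card A = Nat.card (A ⧸ f.range) * Nat.card f.range :=
    AddSubgroup.card_eq_card_quotient_mul_card_addSubgroup f.range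
  have hpos : 0 < Nat.card f.range := Nat.card_pos
  have h3 : Nat.card f.ker = Nat.card (A ⧸ f.range) :=
    Nat.eq_of_mul_eq_mul_right hpos (h1.symm.trans h2)
  rw [← h3]
  refine Nat.card_congr (Equiv.subtypeEquivRight fun x => ?_)
  rw [AddMonoidHom.mem_ker, hf, nsmulAddMonoidHom_apply]

variable {B : Type*} [AddCommGroup B]

theorem card_tors_le_of_injective [Finite A] (i : B →+ A) (hi : Function.Injective i) (n : ℕ) :
    Nat.card {x : B // n • x = 0} ≤ Nat.card {x : A // n • x = 0} :=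
  Nat.card_le_card_of_injective
    (fun x : {x : B // n • x = 0} =>
      (⟨i x, by rw [← map_nsmul, x.2, map_zero]⟩ : {x : A // n • x = 0}))
    (fun a b hab => Subtype.ext (hi (congrArg Subtype.val hab)))

theorem card_tors_le_of_surjective [Finite A] (q : A →+ B) (hq : Function.Surjective q) (n : ℕ) :
    Nat.card {x : B // n • x = 0} ≤ Nat.card {x : A // n • x = 0} := by
  have : Finite B := Finite.of_surjective q hq
  rw [card_tors_eq_card_quot, card_tors_eq_card_quot]
  let qq : A ⧸ (nsmulAddMonoidHom n : A →+ A).range →+ B ⧸ (nsmulAddMonoidHom n : B →+ B).range :=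
    QuotientAddGroup.map _ _ q (by
      rintro _ ⟨a, rfl⟩
      exact ⟨q a, by simp [nsmulAddMonoidHom_apply]⟩)
  refine Nat.card_le_card_of_surjective qq ?_
  intro y
  obtain ⟨b, rfl⟩ := QuotientAddGroup.mk_surjective y
  obtain ⟨a, rfl⟩ := hq b
  exact ⟨QuotientAddGroup.mk a, rfl⟩

end Torsion

/-! ### Transport of the Eichler–Shimura data -/

section EisTransport

variable {r : ℕ} [hr : Fact r.Prime] {G : Type*} [Group G] {T : Type*} [CommRing T]
variable {M : Type*} [AddCommGroup M] [DistribMulAction G M] [Module T M]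
variable {Y : Type*} [AddCommGroup Y] [DistribMulAction G Y] [Module T Y]
variable {π : T →+* ZMod r} {χ : G →* ZMod r} {τ δ : G → T}

theorem eisData_of_injective (i : Y →ₗ[T] M) (hi : ∀ (σ : G) (y : Y), i (σ • y) = σ • i y)
    (hinj : Function.Injective i) (E : EisData π χ τ δ M) : EisData π χ τ δ Y where
  nil := by
    obtain ⟨m, hm⟩ := E.nil
    exact ⟨m, fun t ht y => hinj (by rw [map_smul, hm t ht, map_zero])⟩
  tau := E.tau
  delta := E.delta
  rel g y := hinj (by
    simp only [map_add, map_sub, LinearMap.map_smul, hi, map_zero]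
    exact E.rel g (i y))

theorem eisData_of_surjective (q : M →ₗ[T] Y) (hq : ∀ (σ : G) (x : M), q (σ • x) = σ • q x)
    (hsurj : Function.Surjective q) (E : EisData π χ τ δ M) : EisData π χ τ δ Y where
  nil := by
    obtain ⟨m, hm⟩ := E.nil
    refine ⟨m, fun t ht y => ?_⟩
    obtain ⟨x, rfl⟩ := hsurj y
    rw [← map_smul, hm t ht, map_zero]
  tau := E.tau
  delta := E.delta
  rel g y := by
    obtain ⟨x, rfl⟩ := hsurj y
    have h := congrArg q (E.rel g x)
    simp only [map_add, map_sub, LinearMap.map_smul, hq, map_zero] at h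
    exact h

end EisTransport


/-! ### The bound for a subquotient -/

section Aux

variable {G : Type*} [Group G] {D I : Subgroup G} {T : Type*} [CommRing T] {r : ℕ}
  [hr : Fact r.Prime] {π : T →+* ZMod r} {χ : G →* ZMod r} {τ δ : G → T}

/-- an equivariant functional kills the Eisenstein elements `t - (1 + ℓ)` attached to a
"Frobenius" `φ` (`φ² - t φ + ℓ = 0` on `X`, `φ = ℓ` on `C`, `ℓ` injective on `C`). -/
theorem equivariant_kills {X : Type*} [AddCommGroup X] [DistribMulAction G X] [Module T X]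
    [SMulCommClass G T X] {C : Type*} [AddCommGroup C] [DistribMulAction G C] (φ : G) (t : T)
    (ℓ : ℕ) (hrel : ∀ x : X, φ • φ • x - t • φ • x + ℓ • x = 0) (hφC : ∀ c : C, φ • c = ℓ • c)
    (hℓC : ∀ c : C, ℓ • c = 0 → c = 0) (f : Dual X C)
    (hf : ∀ (g : G) (x : X), f.hom (g • x) = g • f.hom x) (x : X) :
    f.hom (t • x - (1 + ℓ) • x) = 0 := by
  have h := congrArg f.hom (hrel x)
  rw [map_add, map_sub, map_nsmul, map_zero, hf, hf, ← smul_comm φ t x, hf, hφC, hφC, hφC] at h
  have h2 : ℓ • (ℓ • f.hom x - f.hom (t • x) + f.hom x) = 0 := by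
    rw [smul_add, smul_sub]
    exact h
  have h3 := hℓC _ h2
  rw [map_sub, map_nsmul, add_smul, one_smul]
  rw [← neg_eq_zero, ← h3]
  abel

/-- **(BU) for a subquotient `X = q(Y)`, `Y ↪ M`**: `#X ≤ (#M[n'])²`. -/
theorem card_le_of_subquotient_aux (F : AdmFamily.{u} G) (φ₀ : G)
    (hR : RankOneBound F D I r χ φ₀)
    (M : Type u) [AddCommGroup M] [DistribMulAction G M] [Module T M] [SMulCommClass G T M]
    [Finite M] (C : Type u) [AddCommGroup C] [DistribMulAction G C] [Finite C] [IsAddCyclic C]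
    (hMC : ∀ x : M, Nat.card C • x = 0) (hIC : ∀ σ ∈ I, ∀ c : C, σ • c = c)
    (hδ : ∀ g : G, ∃ u : ℕ, (u : ZMod r) = χ g ∧ (∀ c : C, g • c = u • c) ∧
      ∀ x : M, δ g • x = u • x)
    (E : EisData π χ τ δ M) (hOk : F.Ok (M × Dual M C))
    {ι : Type*} (φ : ι → G) (t : ι → T) (ℓ : ι → ℕ)
    (hφrel : ∀ j (x : M), φ j • φ j • x - t j • φ j • x + ℓ j • x = 0)
    (hφC : ∀ j (c : C), φ j • c = ℓ j • c) (hℓC : ∀ j (c : C), ℓ j • c = 0 → c = 0)
    (n' : ℕ)
    (hidx : ∀ Y : Submodule T M, (∀ g : G, ∀ y ∈ Y, g • y ∈ Y) → ∀ y ∈ Y,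
      n' • y ∈ AddSubgroup.closure {z : M | ∃ j, ∃ y' ∈ Y, z = t j • y' - (1 + ℓ j) • y'})
    (Y : Type u) [AddCommGroup Y] [DistribMulAction G Y] [Module T Y] [SMulCommClass G T Y]
    (X : Type u) [AddCommGroup X] [DistribMulAction G X] [Module T X] [SMulCommClass G T X]
    (i : Y →ₗ[T] M) (hi : ∀ (σ : G) (y : Y), i (σ • y) = σ • i y) (hinj : Function.Injective i)
    (q : Y →ₗ[T] X) (hq : ∀ (σ : G) (y : Y), q (σ • y) = σ • q y) (hsurj : Function.Surjective q)
    (hIX : ∀ σ ∈ I, ∀ x : X, σ • x = x) :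
    Nat.card X ≤ Nat.card {x : M // n' • x = 0} ^ 2 := by
  have : Finite Y := Finite.of_injective i hinj
  have : Finite X := Finite.of_surjective q hsurj
  have hYC : ∀ y : Y, Nat.card C • y = 0 := fun y => hinj (by rw [map_nsmul, hMC, map_zero])
  have hXC : ∀ x : X, Nat.card C • x = 0 := fun x => by
    obtain ⟨y, rfl⟩ := hsurj x
    rw [← map_nsmul, hYC, map_zero]
  have EY : EisData π χ τ δ Y := eisData_of_injective i hi hinj E
  have EX : EisData π χ τ δ X := eisData_of_surjective q hq hsurj EY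
  have hOkY : F.Ok (Y × Dual Y C) :=
    ok_dual_of_injective C F i.toAddMonoidHom hi hinj hMC hOk
  have hOkX : F.Ok (X × Dual X C) := ok_dual_of_surjective C F q.toAddMonoidHom hq hsurj hOkY
  have hδX : ∀ g : G, ∃ u : ℕ, (u : ZMod r) = χ g ∧ (∀ c : C, g • c = u • c) ∧
      ∀ x : X, δ g • x = u • x := fun g => by
    obtain ⟨u, h1, h2, h3⟩ := hδ g
    refine ⟨u, h1, h2, fun x => ?_⟩
    obtain ⟨y, rfl⟩ := hsurj x
    have hy : δ g • y = u • y := hinj (by rw [LinearMap.map_smul, h3, map_nsmul])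
    rw [← LinearMap.map_smul, hy, map_nsmul]
  have hBU := card_le_of_inertia_trivial F φ₀ hR X C hXC hIC hδX EX hIX hOkX
  -- the Frobenius relations on `Y` and `X`
  have hrelY : ∀ j (y : Y), φ j • φ j • y - t j • φ j • y + ℓ j • y = 0 := fun j y => hinj (by
    simp only [map_add, map_sub, LinearMap.map_smul, hi, map_nsmul, map_zero]
    exact hφrel j (i y))
  have hrelX : ∀ j (x : X), φ j • φ j • x - t j • φ j • x + ℓ j • x = 0 := fun j x => by
    obtain ⟨y, rfl⟩ := hsurj x
    have h := congrArg q (hrelY j y)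
    simp only [map_add, map_sub, LinearMap.map_smul, hq, map_nsmul, map_zero] at h
    exact h
  -- (a) the fixed points are killed by `n'`
  have hfix : ∀ x : X, (∀ g : G, g • x = x) → n' • x = 0 := by
    intro x hx
    obtain ⟨y, rfl⟩ := hsurj x
    let Y₃ : Submodule T Y :=
      { carrier := {y | ∀ g : G, g • q y = q y}
        add_mem' := fun {a b} ha hb g => by rw [map_add, smul_add, ha g, hb g]
        zero_mem' := fun g => by rw [map_zero, smul_zero]
        smul_mem' := fun c a ha g => by rw [LinearMap.map_smul, smul_comm, ha g] }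
    have hst : ∀ g : G, ∀ z ∈ Y₃.map i, g • z ∈ Y₃.map i := by
      rintro g _ ⟨a, ha, rfl⟩
      refine ⟨g • a, fun h => ?_, hi g a⟩
      rw [hq, ha g, ha h]
    have hmem : i y ∈ Y₃.map i := ⟨y, hx, rfl⟩
    have h1 := hidx (Y₃.map i) hst (i y) hmem
    have hle : AddSubgroup.closure {z : M | ∃ j, ∃ y' ∈ Y₃.map i,
        z = t j • y' - (1 + ℓ j) • y'} ≤ ((LinearMap.ker q).map i).toAddSubgroup := by
      rw [AddSubgroup.closure_le]
      rintro _ ⟨j, _, ⟨a, ha, rfl⟩, rfl⟩
      refine ⟨t j • a - (1 + ℓ j) • a, ?_, by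
        simp only [map_sub, LinearMap.map_smul, map_nsmul]⟩
      change q (t j • a - (1 + ℓ j) • a) = 0
      have h2 := hrelX j (q a)
      rw [ha (φ j), ha (φ j)] at h2
      rw [map_sub, LinearMap.map_smul, map_nsmul, add_smul, one_smul, ← neg_eq_zero, ← h2]
      abel
    obtain ⟨y₀, hy₀, hy₀'⟩ := hle h1
    have h3 : n' • y = y₀ := hinj (by rw [map_nsmul]; exact hy₀'.symm)
    rw [← map_nsmul, h3]
    exact hy₀
  -- (b) the equivariant functionals kill `n' X`
  have hhom : equivariantHoms G X C ≤ Dual.ann C (nsmulAddMonoidHom n' : X →+ X).range := by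
    rintro f hf _ ⟨x, rfl⟩
    obtain ⟨y, rfl⟩ := hsurj x
    have hst : ∀ g : G, ∀ z ∈ (⊤ : Submodule T Y).map i, g • z ∈ (⊤ : Submodule T Y).map i := by
      rintro g _ ⟨a, -, rfl⟩
      exact ⟨g • a, Submodule.mem_top, hi g a⟩
    have h1 := hidx ((⊤ : Submodule T Y).map i) hst (i y) ⟨y, Submodule.mem_top, rfl⟩
    let K : AddSubgroup Y := (f.hom.comp q.toAddMonoidHom).ker
    have hle : AddSubgroup.closure {z : M | ∃ j, ∃ y' ∈ (⊤ : Submodule T Y).map i,
        z = t j • y' - (1 + ℓ j) • y'} ≤ K.map i.toAddMonoidHom := by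
      rw [AddSubgroup.closure_le]
      rintro _ ⟨j, _, ⟨a, -, rfl⟩, rfl⟩
      refine ⟨t j • a - (1 + ℓ j) • a, ?_, by
        change i (t j • a - (1 + ℓ j) • a) = _
        simp only [map_sub, LinearMap.map_smul, map_nsmul]⟩
      change f.hom (q (t j • a - (1 + ℓ j) • a)) = 0
      rw [map_sub, LinearMap.map_smul, map_nsmul]
      exact equivariant_kills (φ j) (t j) (ℓ j) (hrelX j) (hφC j) (hℓC j) f hf (q a)
    obtain ⟨y₀, hy₀, hy₀'⟩ := hle h1
    have h3 : n' • y = y₀ := hinj (by rw [map_nsmul]; exact hy₀'.symm)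
    change f.hom (n' • q y) = 0
    rw [← map_nsmul, h3]
    exact hy₀
  -- the counts
  have hX : Nat.card {x : X // n' • x = 0} ≤ Nat.card {x : M // n' • x = 0} :=
    (card_tors_le_of_surjective q.toAddMonoidHom hsurj n').trans
      (card_tors_le_of_injective i.toAddMonoidHom hinj n')
  have h1 : Nat.card {x : X // ∀ g : G, g • x = x} ≤ Nat.card {x : X // n' • x = 0} :=
    Nat.card_le_card_of_injective
      (fun x : {x : X // ∀ g : G, g • x = x} => (⟨x.1, hfix x.1 x.2⟩ : {x : X // n' • x = 0}))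
      (fun a b hab => Subtype.ext (by
        have h := congrArg Subtype.val hab
        exact h))
  have h2 : Nat.card (equivariantHoms G X C) ≤ Nat.card {x : X // n' • x = 0} := by
    rw [card_tors_eq_card_quot, ← card_ann C hXC]
    exact AddSubgroup.card_le_of_le hhom
  calc Nat.card X ≤ Nat.card {x : X // ∀ g : G, g • x = x} * Nat.card (equivariantHoms G X C) :=
        hBU
    _ ≤ Nat.card {x : M // n' • x = 0} * Nat.card {x : M // n' • x = 0} :=
        Nat.mul_le_mul (h1.trans hX) (h2.trans hX)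
    _ = Nat.card {x : M // n' • x = 0} ^ 2 := (sq _).symm

end Aux


/-! ### The bound for a subquotient `Y₁ / Y₂` of `M` -/

section Main

variable {G : Type*} [Group G] {D I : Subgroup G} {T : Type*} [CommRing T] {r : ℕ}
  [hr : Fact r.Prime] {π : T →+* ZMod r} {χ : G →* ZMod r} {τ δ : G → T}

/-- **(BU) for the subquotients of `M`.**  `M` a finite Eisenstein module with CARTIER
(`F.Ok (M × Hom(M, C))`), a family of "Frobenius elements" `φ j` (`φ² - t φ + ℓ = 0` on `M`,
`φ = ℓ` on `C`, `ℓ` injective on `C`) and an integer `n'` lying in the Eisenstein ideal of every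
stable submodule (`hidx`: NO-EIS).  Then every `(G, T)`-stable subquotient `Y₁ / Y₂` of `M` on which
`I` acts trivially has order at most `(#M[n'])²`. -/
theorem card_le_of_subquotient (F : AdmFamily.{u} G) (φ₀ : G) (hR : RankOneBound F D I r χ φ₀)
    (M : Type u) [AddCommGroup M] [DistribMulAction G M] [Module T M] [SMulCommClass G T M]
    [Finite M] (C : Type u) [AddCommGroup C] [DistribMulAction G C] [Finite C] [IsAddCyclic C]
    (hMC : ∀ x : M, Nat.card C • x = 0) (hIC : ∀ σ ∈ I, ∀ c : C, σ • c = c)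
    (hδ : ∀ g : G, ∃ u : ℕ, (u : ZMod r) = χ g ∧ (∀ c : C, g • c = u • c) ∧
      ∀ x : M, δ g • x = u • x)
    (E : EisData π χ τ δ M) (hOk : F.Ok (M × Dual M C))
    {ι : Type*} (φ : ι → G) (t : ι → T) (ℓ : ι → ℕ)
    (hφrel : ∀ j (x : M), φ j • φ j • x - t j • φ j • x + ℓ j • x = 0)
    (hφC : ∀ j (c : C), φ j • c = ℓ j • c) (hℓC : ∀ j (c : C), ℓ j • c = 0 → c = 0)
    (n' : ℕ)
    (hidx : ∀ Y : Submodule T M, (∀ g : G, ∀ y ∈ Y, g • y ∈ Y) → ∀ y ∈ Y,
      n' • y ∈ AddSubgroup.closure {z : M | ∃ j, ∃ y' ∈ Y, z = t j • y' - (1 + ℓ j) • y'})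
    (Y₁ Y₂ : Submodule T M) (h21 : Y₂ ≤ Y₁) (hG₁ : ∀ g : G, ∀ y ∈ Y₁, g • y ∈ Y₁)
    (hG₂ : ∀ g : G, ∀ y ∈ Y₂, g • y ∈ Y₂) (hI : ∀ σ ∈ I, ∀ y ∈ Y₁, σ • y - y ∈ Y₂) :
    Nat.card Y₁ ≤ Nat.card Y₂ * Nat.card {x : M // n' • x = 0} ^ 2 := by
  letI : DistribMulAction G Y₁ := subDMA Y₁ hG₁
  haveI : SMulCommClass G T Y₁ := ⟨fun g t y => Subtype.ext (smul_comm g t (y : M))⟩
  set W : Submodule T Y₁ := Y₂.comap Y₁.subtype with hWdef
  have hW : ∀ g : G, ∀ w ∈ W, g • w ∈ W := fun g w hw => hG₂ g _ hw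
  letI : DistribMulAction G (Y₁ ⧸ W) := quotDMA W hW
  haveI : SMulCommClass G T (Y₁ ⧸ W) := quot_smulCommClass W hW
  have hIX : ∀ σ ∈ I, ∀ x : Y₁ ⧸ W, σ • x = x := by
    intro σ hσ x
    obtain ⟨y, rfl⟩ := Submodule.Quotient.mk_surjective W x
    rw [quot_smul_mk W hW, Submodule.Quotient.eq]
    exact hI σ hσ y y.2
  have key := card_le_of_subquotient_aux F φ₀ hR M C hMC hIC hδ E hOk φ t ℓ hφrel hφC hℓC n' hidx
    Y₁ (Y₁ ⧸ W) Y₁.subtype (fun _ _ => rfl) Y₁.injective_subtype W.mkQ (fun _ _ => rfl)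
    W.mkQ_surjective hIX
  have hc : Nat.card Y₁ = Nat.card W * Nat.card (Y₁ ⧸ W) :=
    Submodule.card_eq_card_quotient_mul_card W
  have hW2 : Nat.card W = Nat.card Y₂ :=
    Nat.card_congr (Submodule.comapSubtypeEquivOfLe h21).toEquiv
  rw [hc, hW2]
  exact Nat.mul_le_mul_left _ key

end Main

end Fermat.Agent.MAZ.Desc.BUSubquot2
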