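/-
MAZ (S15), G-side (descent), brick DEVISSAGE WITH MARKS (helper95): **Mazur's devissage for the
Selmer cone on marked modules** (`r`-agnostic; needed for `r = 2`, where the two rank-one objects
`ℤ/2` and `μ_2` are the same Galois module and are told apart by the connected part of the model
at `2`).  Mathlib + `SelmerCone95` + `Devissage95` (counting, actions on sub/quotients) +
`EisFiltration19`.

A *mark* on a `G`-module `N` is a plain subgroup `N₀ ≤ N` (think: the points of `N` reducing to `0`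
at a fixed place over `r`, i.e. the points of the connected part of the model; only stable under the
decomposition group, so no stability is asked).  Induced marks: `W₀ = W ∩ M₀` on a subobject,
`(M/W)₀ = image of M₀` on a quotient; `#M₀ = #W₀ · #(M/W)₀`.

With `α(N) = [N : N₀]` Mazur's inequality `#H1S · α · #Mf ≤ #H0S · #M` becomes

  `ConclM 𝕄 M₀ : #H1S 𝕄 · #𝕄.Mf ≤ #H0S 𝕄 · #M₀`,

which is what the induction proves (`devissageM`) from the rank-one cases (`RankOneBoundM`); hence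
`#H1S ≤ #H0S` as soon as `#M₀ ≤ #𝕄.Mf` (`card_H1S_le_card_H0S_marked`).
-/
import Mathlib
import Fermat.Agent.MAZ.Desc.Devissage95

set_option autoImplicit false
set_option linter.style.haveILetI false

namespace Fermat.Agent.MAZ.Desc.DevissageMarked95

open Fermat.Agent.MAZ.Desc Fermat.Agent.MAZ.Desc.SelmerCone95
  Fermat.Agent.MAZ.Desc.EisFiltration19 Fermat.Agent.MAZ.Desc.Devissage95

universe u

variable {G : Type*} [Group G]

/-- A functorial family of admissible cocycles on a class `Ok` of marked `G`-modules of the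
universe `u`.  (In the application: `Ok N N₀` = finite, killed by `r ^ k`, unramified outside
`{r, p}`, with a finite flat model at `r` whose connected part has the points `N₀`; `Z N N₀` = the
cocycles vanishing on the inertia groups outside `{r, p}` whose extension `N × ℤ/r^k` has a finite
flat model with connected part `N₀ × 0`.) -/
structure MarkedFamily (G : Type*) [Group G] where
  Ok : ∀ (N : Type u) [AddCommGroup N] [DistribMulAction G N], AddSubgroup N → Prop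
  Z : ∀ (N : Type u) [AddCommGroup N] [DistribMulAction G N], AddSubgroup N → AddSubgroup (G → N)
  cocycle : ∀ (N : Type u) [AddCommGroup N] [DistribMulAction G N] (N₀ : AddSubgroup N),
    ∀ c ∈ Z N N₀, ∀ σ τ : G, c (σ * τ) = c σ + σ • c τ
  cobound : ∀ (N : Type u) [AddCommGroup N] [DistribMulAction G N] (N₀ : AddSubgroup N),
    Ok N N₀ → ∀ m : N, dd m ∈ Z N N₀
  map : ∀ {N N' : Type u} [AddCommGroup N] [DistribMulAction G N] [AddCommGroup N']
    [DistribMulAction G N'] (N₀ : AddSubgroup N) (N₀' : AddSubgroup N') (f : N →+ N'),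
    (∀ (σ : G) (x : N), f (σ • x) = σ • f x) → (∀ x ∈ N₀, f x ∈ N₀') →
    Ok N N₀ → Ok N' N₀' → ∀ c ∈ Z N N₀, (fun σ => f (c σ)) ∈ Z N' N₀'
  comap : ∀ {N N' : Type u} [AddCommGroup N] [DistribMulAction G N] [AddCommGroup N']
    [DistribMulAction G N'] (N₀ : AddSubgroup N) (N₀' : AddSubgroup N') (f : N →+ N'),
    (∀ (σ : G) (x : N), f (σ • x) = σ • f x) → Function.Injective f →
    (∀ x, x ∈ N₀ ↔ f x ∈ N₀') → Ok N N₀ → Ok N' N₀' →
    ∀ c : G → N, (fun σ => f (c σ)) ∈ Z N' N₀' → c ∈ Z N N₀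
  ok_sub : ∀ {N N' : Type u} [AddCommGroup N] [DistribMulAction G N] [AddCommGroup N']
    [DistribMulAction G N'] (N₀ : AddSubgroup N) (N₀' : AddSubgroup N') (f : N →+ N'),
    (∀ (σ : G) (x : N), f (σ • x) = σ • f x) → Function.Injective f →
    (∀ x, x ∈ N₀ ↔ f x ∈ N₀') → Ok N' N₀' → Ok N N₀
  ok_quot : ∀ {N N' : Type u} [AddCommGroup N] [DistribMulAction G N] [AddCommGroup N']
    [DistribMulAction G N'] (N₀ : AddSubgroup N) (N₀' : AddSubgroup N') (f : N →+ N'),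
    (∀ (σ : G) (x : N), f (σ • x) = σ • f x) → Function.Surjective f →
    (∀ y, y ∈ N₀' ↔ ∃ x ∈ N₀, f x = y) → Ok N N₀ → Ok N' N₀'

variable {D I : Subgroup G}

/-- the conclusion of the marked devissage for a cone datum. -/
def ConclM {M : Type*} [AddCommGroup M] [DistribMulAction G M] (𝕄 : ConeData D I M)
    (M₀ : AddSubgroup M) : Prop :=
  Finite (H1S 𝕄) ∧ Nat.card (H1S 𝕄) * Nat.card 𝕄.Mf ≤ Nat.card (H0S 𝕄) * Nat.card M₀

/-- the conclusion holds for the zero module. -/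
theorem conclM_of_subsingleton {M : Type*} [AddCommGroup M] [DistribMulAction G M]
    [Subsingleton M] (𝕄 : ConeData D I M) (M₀ : AddSubgroup M) : ConclM 𝕄 M₀ := by
  have h1 : Subsingleton (H1S 𝕄) := by
    have : Subsingleton (Z1S 𝕄) := inferInstance
    exact Quotient.instSubsingletonQuotient _
  refine ⟨Finite.of_subsingleton, ?_⟩
  rw [Nat.card_unique, Nat.card_unique, Nat.card_unique, Nat.card_unique]

variable {T : Type*} [CommRing T] {r : ℕ} [hr : Fact r.Prime] {π : T →+* ZMod r}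
  {χ : G →* ZMod r} {τ δ : G → T}

/-- the arithmetic of one step. -/
theorem step_arithM {a w0 q0 b c m0 fW fQ cW cQ : ℕ} (hw0 : 0 < w0) (hq0 : 0 < q0)
    (hstep : a * (w0 * q0) ≤ b * c * m0) (hW1 : b * fW ≤ w0 * cW) (hQ1 : c * fQ ≤ q0 * cQ) :
    a * (fW * fQ) ≤ m0 * (cW * cQ) := by
  have hpos : 0 < w0 * q0 := Nat.mul_pos hw0 hq0
  refine Nat.le_of_mul_le_mul_right ?_ hpos
  calc a * (fW * fQ) * (w0 * q0)
      = a * (w0 * q0) * (fW * fQ) := by ring
    _ ≤ b * c * m0 * (fW * fQ) := Nat.mul_le_mul_right _ hstep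
    _ = m0 * ((b * fW) * (c * fQ)) := by ring
    _ ≤ m0 * ((w0 * cW) * (q0 * cQ)) := Nat.mul_le_mul_left _ (Nat.mul_le_mul hW1 hQ1)
    _ = m0 * (cW * cQ) * (w0 * q0) := by ring

/-- the hypothesis on rank-one objects: the uniform form of the four rank-one computations
(`N₀ ∈ {⊥, ⊤}` : étale or multiplicative model; `𝕟.Mf ∈ {⊥, ⊤}`). -/
def RankOneBoundM (F : MarkedFamily.{u} G) (D I : Subgroup G) (r : ℕ) (χ : G →* ZMod r) : Prop :=
  ∀ (N : Type u) [AddCommGroup N] [DistribMulAction G N] [Finite N] (N₀ : AddSubgroup N),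
    F.Ok N N₀ → Nat.card N = r →
    ((∀ (g : G) (x : N), g • x = x) ∨ (∀ (g : G) (x : N), g • x = (χ g).val • x)) →
    ∀ 𝕟 : ConeData D I N, 𝕟.Z = F.Z N N₀ → ConclM 𝕟 N₀

/-- one step of the devissage: a rank-one stable subgroup `W` and the quotient, with the induced
marks. -/
theorem conclM_step (F : MarkedFamily.{u} G) (hR : RankOneBoundM F D I r χ)
    {M : Type u} [AddCommGroup M] [DistribMulAction G M] [Module T M] [SMulCommClass G T M]
    [Finite M] (M₀ : AddSubgroup M) (hOk : F.Ok M M₀) (𝕄 : ConeData D I M)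
    (h𝕄 : 𝕄.Z = F.Z M M₀)
    (W : Submodule T M) (hWG : ∀ (g : G), ∀ w ∈ W, g • w ∈ W) (hWr : Nat.card W = r)
    (hWact : (∀ (g : G), ∀ w ∈ W, g • w = w) ∨ (∀ (g : G), ∀ w ∈ W, g • w = (χ g).val • w))
    (hQ : letI := quotDMA W hWG
      F.Ok (M ⧸ W) (M₀.map W.mkQ.toAddMonoidHom) → ∀ 𝕢 : ConeData D I (M ⧸ W),
        𝕢.Z = F.Z (M ⧸ W) (M₀.map W.mkQ.toAddMonoidHom) →
          ConclM 𝕢 (M₀.map W.mkQ.toAddMonoidHom)) :
    ConclM 𝕄 M₀ := by
  letI iW : DistribMulAction G W := subDMA W hWG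
  letI iQ : DistribMulAction G (M ⧸ W) := quotDMA W hWG
  -- the maps
  set i : W →+ M := W.subtype.toAddMonoidHom with hi_def
  set p : M →+ M ⧸ W := W.mkQ.toAddMonoidHom with hp_def
  have hi_eq : ∀ (σ : G) (x : W), i (σ • x) = σ • i x := fun _ _ => rfl
  have hp_eq : ∀ (σ : G) (x : M), p (σ • x) = σ • p x := fun _ _ => rfl
  have hi_inj : Function.Injective i := W.injective_subtype
  have hp_surj : Function.Surjective p := W.mkQ_surjective
  have hex : ∀ x, p x = 0 ↔ ∃ y, i y = x := by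
    intro x
    constructor
    · intro hx
      have : x ∈ W := (Submodule.Quotient.mk_eq_zero W).1 hx
      exact ⟨⟨x, this⟩, rfl⟩
    · rintro ⟨y, rfl⟩
      exact (Submodule.Quotient.mk_eq_zero W).2 y.2
  -- the marks
  set W₀ : AddSubgroup W := M₀.comap i with hW₀_def
  set Q₀ : AddSubgroup (M ⧸ W) := M₀.map p with hQ₀_def
  have hW₀ : ∀ x : W, x ∈ W₀ ↔ i x ∈ M₀ := fun x => Iff.rfl
  have hQ₀ : ∀ y : M ⧸ W, y ∈ Q₀ ↔ ∃ x ∈ M₀, p x = y := fun y => AddSubgroup.mem_map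
  -- the class `Ok`
  have hOkW : F.Ok W W₀ := F.ok_sub W₀ M₀ i hi_eq hi_inj hW₀ hOk
  have hOkQ : F.Ok (M ⧸ W) Q₀ := F.ok_quot M₀ Q₀ p hp_eq hp_surj hQ₀ hOk
  -- the cone data
  set 𝕨 : ConeData D I W := 𝕄.comap i hi_eq hi_inj with h𝕨_def
  have h𝕨 : 𝕨.Z = F.Z W W₀ := by
    ext c
    constructor
    · intro hc
      have hc' : (fun σ => i (c σ)) ∈ 𝕄.Z := hc
      rw [h𝕄] at hc'
      exact F.comap W₀ M₀ i hi_eq hi_inj hW₀ hOkW hOk c hc'
    · intro hc
      have : (fun σ => i (c σ)) ∈ F.Z M M₀ :=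
        F.map W₀ M₀ i hi_eq (fun x hx => (hW₀ x).1 hx) hOkW hOk c hc
      rw [← h𝕄] at this
      exact this
  let 𝕢 : ConeData D I (M ⧸ W) :=
    { Mf := 𝕄.Mf.map p
      stable := by
        rintro σ hσ _ ⟨x, hx, rfl⟩
        exact ⟨σ • x, 𝕄.stable σ hσ x hx, hp_eq σ x⟩
      fixed := by
        rintro σ hσ _ ⟨x, hx, rfl⟩
        rw [← hp_eq, 𝕄.fixed σ hσ x hx]
      Z := F.Z (M ⧸ W) Q₀
      cocycle := F.cocycle (M ⧸ W) Q₀
      cobound := F.cobound (M ⧸ W) Q₀ hOkQ }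
  have hπ : ConeHom 𝕄 𝕢 p :=
    ⟨hp_eq, fun x hx => ⟨x, hx, rfl⟩, fun c hc => by
      rw [h𝕄] at hc
      exact F.map M₀ Q₀ p hp_eq (fun x hx => (hQ₀ _).2 ⟨x, hx, rfl⟩) hOk hOkQ c hc⟩
  have hE : ConeExact 𝕨 𝕄 𝕢 i p :=
    𝕄.comap_coneExact 𝕢 i hi_eq hi_inj p hπ hex (by
      rintro _ ⟨x, hx, rfl⟩
      exact ⟨x, hx, rfl⟩)
  -- the three bounds
  haveI : Finite W := inferInstance
  haveI : Finite (M ⧸ W) := Finite.of_surjective p hp_surj
  obtain ⟨finW, hW1⟩ := hR W W₀ hOkW hWr (by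
    rcases hWact with h | h
    · exact Or.inl fun g x => Subtype.ext (h g x x.2)
    · exact Or.inr fun g x => Subtype.ext (h g x x.2)) 𝕨 h𝕨
  obtain ⟨finQ, hQ1⟩ := hQ hOkQ 𝕢 rfl
  obtain ⟨finM, hstep⟩ := hE.card_H1S_mul_le
  refine ⟨finM, ?_⟩
  -- multiplicativity
  have c3 : Nat.card 𝕄.Mf = Nat.card 𝕨.Mf * Nat.card 𝕢.Mf := by
    refine card_of_exact_sub i p hi_inj 𝕨.Mf 𝕄.Mf 𝕢.Mf (fun x hx => hx)
      (fun x hx => ⟨x, hx, rfl⟩) ?_ (fun y => (hex _).2 ⟨y, rfl⟩) ?_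
    · intro x hx hx0
      obtain ⟨y, rfl⟩ := (hex x).1 hx0
      exact ⟨y, hx, rfl⟩
    · rintro _ ⟨x, hx, rfl⟩
      exact ⟨x, hx, rfl⟩
  have c4 : Nat.card M₀ = Nat.card W₀ * Nat.card Q₀ := by
    refine card_of_exact_sub i p hi_inj W₀ M₀ Q₀ (fun x hx => (hW₀ x).1 hx)
      (fun x hx => (hQ₀ _).2 ⟨x, hx, rfl⟩) ?_ (fun y => (hex _).2 ⟨y, rfl⟩) ?_
    · intro x hx hx0
      obtain ⟨y, rfl⟩ := (hex x).1 hx0
      exact ⟨y, (hW₀ y).2 hx, rfl⟩
    · intro z hz
      exact (hQ₀ z).1 hz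
  rw [c3, c4]
  exact step_arithM Nat.card_pos Nat.card_pos hstep hW1 hQ1

/-- the induction. -/
theorem devissageM_aux (F : MarkedFamily.{u} G) (hR : RankOneBoundM F D I r χ) :
    ∀ (n : ℕ) (M : Type u) [AddCommGroup M] [DistribMulAction G M] [Module T M]
      [SMulCommClass G T M] [Finite M], Nat.card M ≤ n → ∀ M₀ : AddSubgroup M, F.Ok M M₀ →
      EisData π χ τ δ M → ∀ 𝕄 : ConeData D I M, 𝕄.Z = F.Z M M₀ → ConclM 𝕄 M₀ := by
  intro n
  induction n with
  | zero =>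
    intro M _ _ _ _ _ hn
    have := Nat.card_pos (α := M)
    omega
  | succ n ih =>
    intro M _ _ _ _ _ hn M₀ hOk E 𝕄 h𝕄
    rcases subsingleton_or_nontrivial M with hs | hnt
    · exact conclM_of_subsingleton 𝕄 M₀
    · obtain ⟨W, -, hWst, hWr, -, hWact⟩ := exists_rank_one_sub E
      have hWr' : Nat.card (toSub W hWst) = r := hWr
      refine conclM_step F hR M₀ hOk 𝕄 h𝕄 (toSub W hWst) hWst.1 hWr' hWact ?_
      letI := quotDMA (toSub W hWst) hWst.1
      haveI := quot_smulCommClass (toSub W hWst) hWst.1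
      haveI : Finite (M ⧸ toSub W hWst) :=
        Finite.of_surjective _ (toSub W hWst).mkQ_surjective
      intro hOkQ 𝕢 h𝕢
      refine ih (M ⧸ toSub W hWst) ?_ _ hOkQ (eisData_quot (toSub W hWst) hWst.1 E) 𝕢 h𝕢
      have hc := Submodule.card_eq_card_quotient_mul_card (toSub W hWst)
      rw [hWr'] at hc
      have hr2 : 2 ≤ r := hr.out.two_le
      have hq : 0 < Nat.card (M ⧸ toSub W hWst) := Nat.card_pos
      have : 2 * Nat.card (M ⧸ toSub W hWst) ≤ r * Nat.card (M ⧸ toSub W hWst) :=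
        Nat.mul_le_mul_right _ hr2
      omega

/-- **Devissage with marks (Mazur, Eisenstein ideal, I.1.7, for the Selmer cone).**  If the
rank-one objects satisfy `#H1S · #Nf ≤ #H0S · #N₀`, then for every finite Eisenstein module `M`
with a mark `M₀` and a cone datum whose admissible cocycles are those of the family:
`#H1S · #Mf ≤ #H0S · #M₀`. -/
theorem devissageM (F : MarkedFamily.{u} G) (hR : RankOneBoundM F D I r χ)
    (M : Type u) [AddCommGroup M] [DistribMulAction G M] [Module T M] [SMulCommClass G T M]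
    [Finite M] (M₀ : AddSubgroup M) (hOk : F.Ok M M₀) (E : EisData π χ τ δ M)
    (𝕄 : ConeData D I M) (h𝕄 : 𝕄.Z = F.Z M M₀) :
    Finite (H1S 𝕄) ∧ Nat.card (H1S 𝕄) * Nat.card 𝕄.Mf ≤ Nat.card (H0S 𝕄) * Nat.card M₀ :=
  devissageM_aux F hR (Nat.card M) M le_rfl M₀ hOk E 𝕄 h𝕄

/-- the consequence `#H1S ≤ #H0S` when the connected part is at most as large as the finite part:
`#M₀ ≤ #Mf`. -/
theorem card_H1S_le_card_H0S_marked (F : MarkedFamily.{u} G) (hR : RankOneBoundM F D I r χ)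
    (M : Type u) [AddCommGroup M] [DistribMulAction G M] [Module T M] [SMulCommClass G T M]
    [Finite M] (M₀ : AddSubgroup M) (hOk : F.Ok M M₀) (E : EisData π χ τ δ M)
    (𝕄 : ConeData D I M) (h𝕄 : 𝕄.Z = F.Z M M₀)
    (hhalf : Nat.card M₀ ≤ Nat.card 𝕄.Mf) :
    Finite (H1S 𝕄) ∧ Nat.card (H1S 𝕄) ≤ Nat.card (H0S 𝕄) := by
  obtain ⟨hfin, hle⟩ := devissageM F hR M M₀ hOk E 𝕄 h𝕄
  refine ⟨hfin, ?_⟩
  have hpos : 0 < Nat.card 𝕄.Mf := Nat.card_pos
  refine Nat.le_of_mul_le_mul_right ?_ hpos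
  exact hle.trans (Nat.mul_le_mul_left _ hhalf)

/-! ### The unmarked family as a marked family -/

/-- an unmarked admissible family, seen as a marked family ignoring the marks. -/
def ofAdmFamily (F : AdmFamily.{u} G) : MarkedFamily.{u} G where
  Ok N _ _ _ := F.Ok N
  Z N _ _ _ := F.Z N
  cocycle N _ _ _ := F.cocycle N
  cobound N _ _ _ := F.cobound N
  map _ _ f hf _ := F.map f hf
  comap _ _ f hf hinj _ := F.comap f hf hinj
  ok_sub _ _ f hf hinj _ := F.ok_sub f hf hinj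
  ok_quot _ _ f hf hsurj _ := F.ok_quot f hf hsurj

end Fermat.Agent.MAZ.Desc.DevissageMarked95
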