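/-
MAZ (S15), G-side (descent), brick DUAL WITH MARKS (helper95): **the symmetric devissage on marked
modules** (`r`-agnostic; needed for `r = 2`).  The marked twin of helper2's `DualDevissage2`:
Mathlib + `DualModule2` + `DualDevissage2` (for `dualH0`, `equivariantHoms`, `eisData_prod`) +
`DevissageMarked95`.

On `N := M × Hom(M, C)` (`C` finite cyclic, think `μ_{r^k}` written additively) take a PRODUCT
mark `N₀ := M₀ × D₀` (v2: `D₀` is an ABSTRACT subgroup of the dual, think "the connected part of the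
Cartier dual"; in general it is NOT `M₀^⊥`) and the finite part `Nf := Mf × Mf^⊥`.  Then
`#Nf = #Mf · #(M ⧸ Mf) = #M`, so the single hypothesis `#N₀ ≤ #Nf` of the marked devissage is the
NUMERIC hypothesis `#D₀ · #M₀ ≤ #M` (`hD₀`; for a rank-one-filtered module it is an equality,
`conn` of the dual having the order of the étale quotient), and

  `#H1S M ≤ #H0S M · #Hom_G(M ⧸ Mf, C)`      (`card_H1S_le_mul_dualH0_marked`).

`prodMark C M₀ = M₀ × M₀^⊥` is kept as the special case `D₀ = M₀^⊥` (`..._ann` forms), where `hD₀`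
holds identically.
-/
import Mathlib
import Fermat.Agent.MAZ.Desc.DualDevissage2
import Fermat.Agent.MAZ.Desc.DevissageMarked95

set_option autoImplicit false
set_option linter.unusedSectionVars false

universe u

namespace Fermat.Agent.MAZ.Desc.DualDevissageMarked95

open Fermat.Agent.MAZ.Desc Fermat.Agent.MAZ.Desc.SelmerCone95
  Fermat.Agent.MAZ.Desc.EisFiltration19 Fermat.Agent.MAZ.Desc.Devissage95
  Fermat.Agent.MAZ.Desc.DualModule2 Fermat.Agent.MAZ.Desc.DualDevissage2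
  Fermat.Agent.MAZ.Desc.DevissageMarked95

variable {G : Type*} [Group G] {D I : Subgroup G} {T : Type*} [CommRing T] {r : ℕ}
  [hr : Fact r.Prime] {π : T →+* ZMod r} {χ : G →* ZMod r} {τ δ : G → T}

variable {M : Type u} [AddCommGroup M] [DistribMulAction G M] (C : Type u) [AddCommGroup C]
  [DistribMulAction G C]

/-- the mark `M₀ × M₀^⊥` on `M × Hom(M, C)`. -/
def prodMark (M₀ : AddSubgroup M) : AddSubgroup (M × Dual M C) := M₀.prod (Dual.ann C M₀)

theorem mem_prodMark {M₀ : AddSubgroup M} {z : M × Dual M C} :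
    z ∈ prodMark C M₀ ↔ z.1 ∈ M₀ ∧ z.2 ∈ Dual.ann C M₀ := Iff.rfl

/-- `#(S × S^⊥) = #M`. -/
theorem card_prod_ann [Finite M] [Finite C] [IsAddCyclic C] (hMC : ∀ x : M, Nat.card C • x = 0)
    (S : AddSubgroup M) : Nat.card (S.prod (Dual.ann C S)) = Nat.card M := by
  have e1 : Nat.card (S.prod (Dual.ann C S)) = Nat.card S * Nat.card (Dual.ann C S) := by
    rw [← Nat.card_prod]
    exact Nat.card_congr (AddSubgroup.prodEquiv S (Dual.ann C S)).toEquiv
  rw [e1, card_ann C hMC, mul_comm]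
  exact (AddSubgroup.card_eq_card_quotient_mul_card_addSubgroup S).symm

/-- `#(S × S') = #S · #S'`. -/
theorem card_prod_mark (S : AddSubgroup M) (S' : AddSubgroup (Dual M C)) :
    Nat.card (S.prod S') = Nat.card S * Nat.card S' := by
  rw [← Nat.card_prod]
  exact Nat.card_congr (AddSubgroup.prodEquiv S S').toEquiv

/-- the cone datum on `M × Hom(M, C)` with finite part `Mf × Mf^⊥` and the admissible cocycles of
the marked family for a mark `N₀`. -/
def prodConeM (F : MarkedFamily.{u} G) (𝕄 : ConeData D I M) (N₀ : AddSubgroup (M × Dual M C))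
    (hOk : F.Ok (M × Dual M C) N₀)
    (hIC : ∀ σ ∈ I, ∀ c : C, σ • c = c) (hI : ∀ σ ∈ I, ∀ x : M, σ • x - x ∈ 𝕄.Mf) :
    ConeData D I (M × Dual M C) where
  Mf := 𝕄.Mf.prod (Dual.ann C 𝕄.Mf)
  stable := by
    rintro σ hσ ⟨x, f⟩ ⟨hx, hf⟩
    refine ⟨𝕄.stable σ hσ x hx, fun y hy => ?_⟩
    change (σ • f).hom y = 0
    rw [Dual.smul_hom, hf _ (𝕄.stable σ⁻¹ (D.inv_mem hσ) y hy), smul_zero]
  fixed := by
    rintro σ hσ ⟨x, f⟩ ⟨hx, hf⟩
    refine Prod.ext (𝕄.fixed σ hσ x hx) ?_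
    apply Dual.ext
    intro y
    change (σ • f).hom y = f.hom y
    rw [Dual.smul_hom, hIC σ hσ]
    have := hf _ (hI σ⁻¹ (I.inv_mem hσ) y)
    rw [map_sub, sub_eq_zero] at this
    exact this
  Z := F.Z (M × Dual M C) N₀
  cocycle := F.cocycle _ _
  cobound := F.cobound _ _ hOk

/-- **DUAL with marks: Mazur's inequality from the symmetric marked devissage.** -/
theorem card_H1S_le_mul_dualH0_marked (F : MarkedFamily.{u} G) (hR : RankOneBoundM F D I r χ)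
    (M : Type u) [AddCommGroup M] [DistribMulAction G M] [Module T M] [SMulCommClass G T M]
    [Finite M] (C : Type u) [AddCommGroup C] [DistribMulAction G C] [Finite C] [IsAddCyclic C]
    (hMC : ∀ x : M, Nat.card C • x = 0) (hIC : ∀ σ ∈ I, ∀ c : C, σ • c = c)
    (hδ : ∀ g : G, ∃ u : ℕ, (∀ c : C, g • c = u • c) ∧ ∀ x : M, δ g • x = u • x)
    (E : EisData π χ τ δ M) (𝕄 : ConeData D I M) (M₀ : AddSubgroup M)
    (h𝕄 : 𝕄.Z = F.Z M M₀) (hI : ∀ σ ∈ I, ∀ x : M, σ • x - x ∈ 𝕄.Mf)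
    (D₀ : AddSubgroup (Dual M C)) (hOk : F.Ok (M × Dual M C) (M₀.prod D₀))
    (hD₀ : Nat.card D₀ * Nat.card M₀ ≤ Nat.card M) :
    Finite (H1S 𝕄) ∧ Nat.card (H1S 𝕄) ≤ Nat.card (H0S 𝕄) * Nat.card (dualH0 C 𝕄) := by
  -- the maps
  set i : M →+ M × Dual M C := AddMonoidHom.inl M (Dual M C) with hi_def
  set p : M × Dual M C →+ M := AddMonoidHom.fst M (Dual M C) with hp_def
  have hi_eq : ∀ (σ : G) (x : M), i (σ • x) = σ • i x := fun σ x =>
    Prod.ext rfl (smul_zero σ).symm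
  have hp_eq : ∀ (σ : G) (x : M × Dual M C), p (σ • x) = σ • p x := fun _ _ => rfl
  have hi_inj : Function.Injective i := fun a b hab => congrArg Prod.fst hab
  have hi_mark : ∀ x, x ∈ M₀ ↔ i x ∈ M₀.prod D₀ := fun x =>
    ⟨fun hx => ⟨hx, D₀.zero_mem⟩, fun h => h.1⟩
  have hOkM : F.Ok M M₀ := F.ok_sub M₀ (M₀.prod D₀) i hi_eq hi_inj hi_mark hOk
  set 𝕟 : ConeData D I (M × Dual M C) := prodConeM C F 𝕄 (M₀.prod D₀) hOk hIC hI with h𝕟
  have hi : ConeHom 𝕄 𝕟 i :=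
    ⟨hi_eq, fun x hx => ⟨hx, (Dual.ann C 𝕄.Mf).zero_mem⟩, fun c hc => by
      rw [h𝕄] at hc
      exact F.map M₀ (M₀.prod D₀) i hi_eq (fun x hx => (hi_mark x).1 hx) hOkM hOk c hc⟩
  have hp : ConeHom 𝕟 𝕄 p :=
    ⟨hp_eq, fun x hx => hx.1, fun c hc => by
      rw [h𝕄]
      exact F.map (M₀.prod D₀) M₀ p hp_eq (fun x hx => hx.1) hOk hOkM c hc⟩
  -- the Eichler-Shimura data
  have EN : EisData π χ τ δ (M × Dual M C) := eisData_prod E (eisData_dual E hδ)
  -- the mark and the finite part have the same order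
  have hhalf : Nat.card (M₀.prod D₀) ≤ Nat.card 𝕟.Mf := by
    have h1 : Nat.card (M₀.prod D₀) = Nat.card M₀ * Nat.card D₀ := card_prod_mark C M₀ D₀
    have h2 : Nat.card 𝕟.Mf = Nat.card M := card_prod_ann C hMC 𝕄.Mf
    rw [h1, h2, mul_comm]
    exact hD₀
  obtain ⟨hfin, hle⟩ := card_H1S_le_card_H0S_marked F hR (M × Dual M C) (M₀.prod D₀) hOk EN 𝕟
    rfl hhalf
  -- `H1S 𝕄` is a direct summand of `H1S 𝕟`
  have hinj : Function.Injective hi.mapH1S := by
    intro x y hxy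
    have h := congrArg hp.mapH1S hxy
    have e : p.comp i = AddMonoidHom.id M := AddMonoidHom.ext fun _ => rfl
    rw [← ConeHom.mapH1S_comp hp hi, ← ConeHom.mapH1S_comp hp hi,
      ConeHom.mapH1S_congr (hp.comp hi) (ConeHom.id 𝕄) e,
      ConeHom.mapH1S_congr (hp.comp hi) (ConeHom.id 𝕄) e, ConeHom.mapH1S_id,
      ConeHom.mapH1S_id] at h
    exact h
  have hfinM : Finite (H1S 𝕄) := Finite.of_injective _ hinj
  refine ⟨hfinM, (Nat.card_le_card_of_injective _ hinj).trans (hle.trans ?_)⟩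
  -- `H0S 𝕟 ↪ H0S 𝕄 × dualH0`
  rw [← Nat.card_prod]
  refine Nat.card_le_card_of_injective
    (fun z : H0S 𝕟 =>
      ((⟨(z : M × Dual M C).1, z.2.1.1, fun σ => congrArg Prod.fst (z.2.2 σ)⟩ : H0S 𝕄),
        (⟨(z : M × Dual M C).2, z.2.1.2, fun σ => congrArg Prod.snd (z.2.2 σ)⟩ :
          dualH0 C 𝕄))) ?_
  intro z w hzw
  have h1 : (z : M × Dual M C).1 = (w : M × Dual M C).1 :=
    congrArg (fun q : H0S 𝕄 × dualH0 C 𝕄 => (q.1 : M)) hzw
  have h2 : (z : M × Dual M C).2 = (w : M × Dual M C).2 :=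
    congrArg (fun q : H0S 𝕄 × dualH0 C 𝕄 => (q.2 : Dual M C)) hzw
  exact Subtype.ext (Prod.ext h1 h2)

/-- the same with a bound on the number of `G`-equivariant functionals `M → C` (HOM-μ). -/
theorem card_H1S_le_of_equivariantHoms_marked (F : MarkedFamily.{u} G)
    (hR : RankOneBoundM F D I r χ)
    (M : Type u) [AddCommGroup M] [DistribMulAction G M] [Module T M] [SMulCommClass G T M]
    [Finite M] (C : Type u) [AddCommGroup C] [DistribMulAction G C] [Finite C] [IsAddCyclic C]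
    (hMC : ∀ x : M, Nat.card C • x = 0) (hIC : ∀ σ ∈ I, ∀ c : C, σ • c = c)
    (hδ : ∀ g : G, ∃ u : ℕ, (∀ c : C, g • c = u • c) ∧ ∀ x : M, δ g • x = u • x)
    (E : EisData π χ τ δ M) (𝕄 : ConeData D I M) (M₀ : AddSubgroup M)
    (h𝕄 : 𝕄.Z = F.Z M M₀) (hI : ∀ σ ∈ I, ∀ x : M, σ • x - x ∈ 𝕄.Mf)
    (D₀ : AddSubgroup (Dual M C)) (hOk : F.Ok (M × Dual M C) (M₀.prod D₀))
    (hD₀ : Nat.card D₀ * Nat.card M₀ ≤ Nat.card M) (B : ℕ)
    (hB : Nat.card (equivariantHoms G M C) ≤ B) :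
    Finite (H1S 𝕄) ∧ Nat.card (H1S 𝕄) ≤ Nat.card (H0S 𝕄) * B := by
  obtain ⟨hfin, hle⟩ := card_H1S_le_mul_dualH0_marked F hR M C hMC hIC hδ E 𝕄 M₀ h𝕄 hI D₀ hOk hD₀
  exact ⟨hfin, hle.trans (Nat.mul_le_mul_left _ ((card_dualH0_le C 𝕄).trans hB))⟩

/-- for `D₀ = M₀^⊥` the numeric hypothesis holds identically. -/
theorem card_ann_mul_card_le [Finite M] [Finite C] [IsAddCyclic C]
    (hMC : ∀ x : M, Nat.card C • x = 0) (M₀ : AddSubgroup M) :
    Nat.card (Dual.ann C M₀) * Nat.card M₀ ≤ Nat.card M := by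
  have h := card_prod_ann C hMC M₀
  rw [card_prod_mark] at h
  rw [mul_comm, h]

/-- the special case `D₀ = M₀^⊥` (the mark `prodMark C M₀`). -/
theorem card_H1S_le_of_equivariantHoms_marked_ann (F : MarkedFamily.{u} G)
    (hR : RankOneBoundM F D I r χ)
    (M : Type u) [AddCommGroup M] [DistribMulAction G M] [Module T M] [SMulCommClass G T M]
    [Finite M] (C : Type u) [AddCommGroup C] [DistribMulAction G C] [Finite C] [IsAddCyclic C]
    (hMC : ∀ x : M, Nat.card C • x = 0) (hIC : ∀ σ ∈ I, ∀ c : C, σ • c = c)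
    (hδ : ∀ g : G, ∃ u : ℕ, (∀ c : C, g • c = u • c) ∧ ∀ x : M, δ g • x = u • x)
    (E : EisData π χ τ δ M) (𝕄 : ConeData D I M) (M₀ : AddSubgroup M)
    (h𝕄 : 𝕄.Z = F.Z M M₀) (hI : ∀ σ ∈ I, ∀ x : M, σ • x - x ∈ 𝕄.Mf)
    (hOk : F.Ok (M × Dual M C) (prodMark C M₀)) (B : ℕ)
    (hB : Nat.card (equivariantHoms G M C) ≤ B) :
    Finite (H1S 𝕄) ∧ Nat.card (H1S 𝕄) ≤ Nat.card (H0S 𝕄) * B :=
  card_H1S_le_of_equivariantHoms_marked F hR M C hMC hIC hδ E 𝕄 M₀ h𝕄 hI (Dual.ann C M₀) hOk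
    (card_ann_mul_card_le C hMC M₀) B hB

end Fermat.Agent.MAZ.Desc.DualDevissageMarked95
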