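/-
MAZ (S15), G-side (descent), P1 (PT) at `r = 2` (helper50): **bounded unramified pieces, WITH
MARKS** — the marked twin of helper2's `BoundedUnram2` (`r`-agnostic; needed for `r = 2`, where
`ℤ/2` and `μ_2` are the same Galois module).  `DualDevissageMarked95` (helper95) +
`BoundedUnram2` (for `transpose`) only.

* `transpose_mem_ann`, `exists_transpose_eq_of_mem_ann`, `transpose_mem_ann_iff` : the restriction
  `Hom(M, C) → Hom(W, C)` maps `M₀^⊥` ONTO `(W ∩ M₀)^⊥`, and the inflation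
  `Hom(Q, C) → Hom(M, C)` pulls `M₀^⊥` back to `(image of M₀)^⊥`;
* `ok_prodMark_of_injective`, `ok_prodMark_of_surjective` : the property
  `F.Ok (M × Hom(M, C)) (M₀ × M₀^⊥)` (CARTIER with marks) passes to equivariant sub-objects (mark
  `W ∩ M₀`) and quotient objects (mark = image of `M₀`);
* `card_le_of_inertia_trivial_marked` : a finite Eisenstein module `X` on which the inertia group
  `I` acts trivially satisfies `#X ≤ #X^G · #Hom_G(X, C)`: the marked devissage on
  `N = X ⊕ Hom(X, C)` with finite part `N^f := N` gives `#N ≤ #H0S N · #N₀`, and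
  `#N₀ = #X₀ · #D₀ ≤ #X`;
* `eq_ann_of_card_le` : `M₀^⊥ ≤ D₀` and `#D₀ · #M₀ ≤ #M` force `D₀ = M₀^⊥`.
-/
import Mathlib
import Fermat.Agent.MAZ.Desc.DualDevissageMarked95
import Fermat.Agent.MAZ.Desc.BoundedUnram2

set_option autoImplicit false
set_option linter.unusedSectionVars false

universe u

namespace Fermat.Agent.MAZ.Desc.BoundedUnramM50

open Fermat.Agent.MAZ.Desc Fermat.Agent.MAZ.Desc.SelmerCone95
  Fermat.Agent.MAZ.Desc.EisFiltration19 Fermat.Agent.MAZ.Desc.Devissage95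
  Fermat.Agent.MAZ.Desc.DualModule2 Fermat.Agent.MAZ.Desc.DualDevissage2
  Fermat.Agent.MAZ.Desc.DevissageMarked95 Fermat.Agent.MAZ.Desc.DualDevissageMarked95
  Fermat.Agent.MAZ.Desc.BoundedUnram2

/-! ### Transposes and annihilators -/

section Ann

variable {W : Type*} [AddCommGroup W]
variable {M : Type*} [AddCommGroup M]
variable {Q : Type*} [AddCommGroup Q]
variable (C : Type*) [AddCommGroup C]

/-- restriction maps `M₀^⊥` into `(W ∩ M₀)^⊥`. -/
theorem transpose_mem_ann (i : W →+ M) (M₀ : AddSubgroup M) {f : Dual M C}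
    (hf : f ∈ Dual.ann C M₀) : transpose C i f ∈ Dual.ann C (M₀.comap i) := by
  intro x hx
  rw [transpose_hom]
  exact hf (i x) hx

/-- inflation pulls `M₀^⊥` back to `(image of M₀)^⊥`. -/
theorem transpose_mem_ann_iff (q : M →+ Q) (M₀ : AddSubgroup M) (f : Dual Q C) :
    transpose C q f ∈ Dual.ann C M₀ ↔ f ∈ Dual.ann C (M₀.map q) := by
  constructor
  · rintro h _ ⟨x, hx, rfl⟩
    exact h x hx
  · intro h x hx
    rw [transpose_hom]
    exact h _ ⟨x, hx, rfl⟩

/-- **restriction maps `M₀^⊥` ONTO `(W ∩ M₀)^⊥`.** -/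
theorem exists_transpose_eq_of_mem_ann [Finite M] [Finite C] [IsAddCyclic C]
    (hMC : ∀ x : M, Nat.card C • x = 0) (i : W →+ M)
    (M₀ : AddSubgroup M) {g : Dual W C} (hg : g ∈ Dual.ann C (M₀.comap i)) :
    ∃ f ∈ Dual.ann C M₀, transpose C i f = g := by
  -- the injection `W ⧸ (W ∩ M₀) → M ⧸ M₀`
  set W₀ : AddSubgroup W := M₀.comap i with hW₀
  let ibar : W ⧸ W₀ →+ M ⧸ M₀ := QuotientAddGroup.map W₀ M₀ i (fun x hx => hx)
  have hibar : Function.Injective ibar := by
    rw [injective_iff_map_eq_zero]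
    intro y hy
    obtain ⟨x, rfl⟩ := QuotientAddGroup.mk_surjective y
    have h1 : ibar (QuotientAddGroup.mk x) = QuotientAddGroup.mk (i x) := rfl
    rw [h1, QuotientAddGroup.eq_zero_iff] at hy
    exact (QuotientAddGroup.eq_zero_iff x).2 hy
  have hQC : ∀ y : M ⧸ M₀, Nat.card C • y = 0 := by
    intro y
    obtain ⟨x, rfl⟩ := QuotientAddGroup.mk_surjective y
    rw [← QuotientAddGroup.mk_nsmul, hMC, QuotientAddGroup.mk_zero]
  -- `g` descends
  let gbar : W ⧸ W₀ →+ C := (annEquiv C W₀).symm ⟨g, hg⟩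
  have hgbar : ∀ x : W, gbar (QuotientAddGroup.mk x) = g.hom x := fun _ => rfl
  obtain ⟨fbar, hfbar⟩ := transpose_surjective C hQC ibar hibar (Dual.mk gbar)
  refine ⟨Dual.mk (fbar.hom.comp (QuotientAddGroup.mk' M₀)), ?_, ?_⟩
  · intro x hx
    change fbar.hom (QuotientAddGroup.mk' M₀ x) = 0
    rw [QuotientAddGroup.mk'_apply, (QuotientAddGroup.eq_zero_iff x).2 hx, map_zero]
  · apply Dual.ext
    intro x
    rw [transpose_hom]
    change fbar.hom (QuotientAddGroup.mk (i x)) = g.hom x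
    have h1 : (transpose C ibar fbar).hom (QuotientAddGroup.mk x) = fbar.hom (QuotientAddGroup.mk (i x)) := rfl
    rw [← h1, hfbar]
    exact hgbar x

/-- `M₀^⊥ ≤ D₀` and `#D₀ · #M₀ ≤ #M` force `D₀ = M₀^⊥`. -/
theorem eq_ann_of_card_le [Finite M] [Finite C] [IsAddCyclic C]
    (hMC : ∀ x : M, Nat.card C • x = 0) (M₀ : AddSubgroup M) (D₀ : AddSubgroup (Dual M C))
    (hann : Dual.ann C M₀ ≤ D₀) (hD₀ : Nat.card D₀ * Nat.card M₀ ≤ Nat.card M) :
    D₀ = Dual.ann C M₀ := by
  have h1 : Nat.card (Dual.ann C M₀) * Nat.card M₀ = Nat.card M := by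
    rw [card_ann C hMC]
    exact (AddSubgroup.card_eq_card_quotient_mul_card_addSubgroup M₀).symm
  have hpos : 0 < Nat.card M₀ := Nat.card_pos
  have h2 : Nat.card D₀ ≤ Nat.card (Dual.ann C M₀) := by
    refine Nat.le_of_mul_le_mul_right ?_ hpos
    rw [h1]
    exact hD₀
  exact (AddSubgroup.eq_of_le_of_card_ge hann h2).symm

end Ann

/-! ### Transport of `Ok` with marks -/

section Ok

variable {G : Type*} [Group G]
variable {W : Type u} [AddCommGroup W] [DistribMulAction G W]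
variable {M : Type u} [AddCommGroup M] [DistribMulAction G M]
variable (C : Type u) [AddCommGroup C] [DistribMulAction G C]

/-- CARTIER with marks passes to sub-objects, with the induced mark `W ∩ M₀`. -/
theorem ok_prodMark_of_injective (F : MarkedFamily.{u} G) (i : W →+ M)
    (hi : ∀ (σ : G) (x : W), i (σ • x) = σ • i x) (hinj : Function.Injective i) [Finite M]
    [Finite C] [IsAddCyclic C] (hMC : ∀ x : M, Nat.card C • x = 0) (M₀ : AddSubgroup M)
    (hOk : F.Ok (M × Dual M C) (prodMark C M₀)) :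
    F.Ok (W × Dual W C) (prodMark C (M₀.comap i)) := by
  let q : M × Dual M C →+ M × Dual W C :=
    AddMonoidHom.prodMap (AddMonoidHom.id M) (transpose C i)
  have hq : ∀ (σ : G) (x : M × Dual M C), q (σ • x) = σ • q x := fun σ x =>
    Prod.ext rfl (transpose_equivariant C i hi σ x.2)
  have hqs : Function.Surjective q := fun y => by
    obtain ⟨f, hf⟩ := transpose_surjective C hMC i hinj y.2
    exact ⟨(y.1, f), Prod.ext rfl hf⟩
  -- the intermediate mark
  set N₁ : AddSubgroup (M × Dual W C) := M₀.prod (Dual.ann C (M₀.comap i)) with hN₁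
  have hmark : ∀ y, y ∈ N₁ ↔ ∃ x ∈ prodMark C M₀, q x = y := by
    rintro ⟨m, g⟩
    constructor
    · rintro ⟨hm, hg⟩
      obtain ⟨f, hf, hfg⟩ := exists_transpose_eq_of_mem_ann C hMC i M₀ hg
      exact ⟨(m, f), ⟨hm, hf⟩, Prod.ext rfl hfg⟩
    · rintro ⟨⟨m', f⟩, ⟨hm', hf⟩, hx⟩
      have e1 : m' = m := congrArg Prod.fst hx
      have e2 : transpose C i f = g := congrArg Prod.snd hx
      refine ⟨e1 ▸ hm', ?_⟩
      rw [← e2]
      exact transpose_mem_ann C i M₀ hf
  have h1 : F.Ok (M × Dual W C) N₁ := F.ok_quot (prodMark C M₀) N₁ q hq hqs hmark hOk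
  let j : W × Dual W C →+ M × Dual W C := AddMonoidHom.prodMap i (AddMonoidHom.id _)
  have hj : ∀ (σ : G) (x : W × Dual W C), j (σ • x) = σ • j x := fun σ x =>
    Prod.ext (hi σ x.1) rfl
  have hji : Function.Injective j := fun a b hab => by
    have e1 : (j a).1 = (j b).1 := congrArg Prod.fst hab
    have e2 : (j a).2 = (j b).2 := congrArg Prod.snd hab
    exact Prod.ext (hinj e1) e2
  have hmark2 : ∀ x, x ∈ prodMark C (M₀.comap i) ↔ j x ∈ N₁ := fun x => Iff.rfl
  exact F.ok_sub (prodMark C (M₀.comap i)) N₁ j hj hji hmark2 h1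

variable {Q : Type u} [AddCommGroup Q] [DistribMulAction G Q]

/-- CARTIER with marks passes to quotient objects, with the induced mark (the image of `M₀`). -/
theorem ok_prodMark_of_surjective (F : MarkedFamily.{u} G) (q : M →+ Q)
    (hq : ∀ (σ : G) (x : M), q (σ • x) = σ • q x) (hsurj : Function.Surjective q)
    (M₀ : AddSubgroup M) (hOk : F.Ok (M × Dual M C) (prodMark C M₀)) :
    F.Ok (Q × Dual Q C) (prodMark C (M₀.map q)) := by
  let j : M × Dual Q C →+ M × Dual M C :=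
    AddMonoidHom.prodMap (AddMonoidHom.id M) (transpose C q)
  have hj : ∀ (σ : G) (x : M × Dual Q C), j (σ • x) = σ • j x := fun σ x =>
    Prod.ext rfl (transpose_equivariant C q hq σ x.2)
  have hji : Function.Injective j := fun a b hab => by
    have e1 : (j a).1 = (j b).1 := congrArg Prod.fst hab
    have e2 : (j a).2 = (j b).2 := congrArg Prod.snd hab
    exact Prod.ext e1 (transpose_injective C q hsurj e2)
  set N₁ : AddSubgroup (M × Dual Q C) := M₀.prod (Dual.ann C (M₀.map q)) with hN₁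
  have hmark : ∀ x, x ∈ N₁ ↔ j x ∈ prodMark C M₀ := by
    rintro ⟨m, f⟩
    constructor
    · rintro ⟨hm, hf⟩
      exact ⟨hm, (transpose_mem_ann_iff C q M₀ f).2 hf⟩
    · rintro ⟨hm, hf⟩
      exact ⟨hm, (transpose_mem_ann_iff C q M₀ f).1 hf⟩
  have h1 : F.Ok (M × Dual Q C) N₁ := F.ok_sub N₁ (prodMark C M₀) j hj hji hmark hOk
  let p : M × Dual Q C →+ Q × Dual Q C := AddMonoidHom.prodMap q (AddMonoidHom.id _)
  have hp : ∀ (σ : G) (x : M × Dual Q C), p (σ • x) = σ • p x := fun σ x =>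
    Prod.ext (hq σ x.1) rfl
  have hps : Function.Surjective p := fun y => by
    obtain ⟨x, hx⟩ := hsurj y.1
    exact ⟨(x, y.2), Prod.ext hx rfl⟩
  have hmark2 : ∀ y, y ∈ prodMark C (M₀.map q) ↔ ∃ x ∈ N₁, p x = y := by
    rintro ⟨y1, f⟩
    constructor
    · rintro ⟨⟨m, hm, hmy⟩, hf⟩
      exact ⟨(m, f), ⟨hm, hf⟩, Prod.ext hmy rfl⟩
    · rintro ⟨⟨m, f'⟩, ⟨hm, hf'⟩, hx⟩
      have e1 : q m = y1 := congrArg Prod.fst hx
      have e2 : f' = f := congrArg Prod.snd hx
      exact ⟨⟨m, hm, e1⟩, e2 ▸ hf'⟩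
  exact F.ok_quot N₁ (prodMark C (M₀.map q)) p hp hps hmark2 h1

end Ok

/-! ### Bounded unramified pieces, with marks -/

section BU

variable {G : Type*} [Group G] {D I : Subgroup G} {T : Type*} [CommRing T] {r : ℕ}
  [hr : Fact r.Prime] {π : T →+* ZMod r} {χ : G →* ZMod r} {τ δ : G → T}

/-- **(BU) with marks, abstract core.**  A finite Eisenstein module `X` on which `I` acts trivially
satisfies `#X ≤ #X^G · #Hom_G(X, C)`, as soon as `X × Hom(X, C)` carries an admissible product mark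
`X₀ × D₀` with `#D₀ · #X₀ ≤ #X`. -/
theorem card_le_of_inertia_trivial_marked (F : MarkedFamily.{u} G)
    (hR : RankOneBoundM F D I r χ)
    (X : Type u) [AddCommGroup X] [DistribMulAction G X] [Module T X] [SMulCommClass G T X]
    [Finite X] (C : Type u) [AddCommGroup C] [DistribMulAction G C] [Finite C] [IsAddCyclic C]
    (hXC : ∀ x : X, Nat.card C • x = 0) (hIC : ∀ σ ∈ I, ∀ c : C, σ • c = c)
    (hδ : ∀ g : G, ∃ u : ℕ, (∀ c : C, g • c = u • c) ∧ ∀ x : X, δ g • x = u • x)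
    (E : EisData π χ τ δ X) (hIX : ∀ σ ∈ I, ∀ x : X, σ • x = x)
    (X₀ : AddSubgroup X) (D₀ : AddSubgroup (Dual X C))
    (hOk : F.Ok (X × Dual X C) (X₀.prod D₀))
    (hD₀ : Nat.card D₀ * Nat.card X₀ ≤ Nat.card X) :
    Nat.card X ≤ Nat.card {x : X // ∀ g : G, g • x = x} * Nat.card (equivariantHoms G X C) := by
  -- the cone datum with full finite part
  let 𝕟 : ConeData D I (X × Dual X C) :=
    { Mf := ⊤
      stable := fun _ _ _ _ => AddSubgroup.mem_top _
      fixed := by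
        rintro σ hσ ⟨x, f⟩ -
        refine Prod.ext (hIX σ hσ x) ?_
        apply Dual.ext
        intro y
        change (σ • f).hom y = f.hom y
        rw [Dual.smul_hom, hIC σ hσ, hIX σ⁻¹ (I.inv_mem hσ)]
      Z := F.Z (X × Dual X C) (X₀.prod D₀)
      cocycle := F.cocycle _ _
      cobound := F.cobound _ _ hOk }
  have EN : EisData π χ τ δ (X × Dual X C) := eisData_prod E (eisData_dual E hδ)
  obtain ⟨hfin, hle⟩ := devissageM F hR (X × Dual X C) (X₀.prod D₀) hOk EN 𝕟 rfl
  -- `#N ≤ #H0S · #X`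
  have hMf : Nat.card 𝕟.Mf = Nat.card X * Nat.card X := by
    have : Nat.card 𝕟.Mf = Nat.card (X × Dual X C) := AddSubgroup.card_top
    rw [this, Nat.card_prod, card_dual C hXC]
  have hN₀ : Nat.card (X₀.prod D₀) ≤ Nat.card X := by
    rw [card_prod_mark, mul_comm]
    exact hD₀
  have hH1 : 0 < Nat.card (H1S 𝕟) := Nat.card_pos
  have hpos : 0 < Nat.card X := Nat.card_pos
  have h2 : Nat.card X ≤ Nat.card (H0S 𝕟) := by
    refine Nat.le_of_mul_le_mul_right ?_ hpos
    calc Nat.card X * Nat.card X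
        = 1 * (Nat.card X * Nat.card X) := (one_mul _).symm
      _ ≤ Nat.card (H1S 𝕟) * (Nat.card X * Nat.card X) := Nat.mul_le_mul_right _ hH1
      _ = Nat.card (H1S 𝕟) * Nat.card 𝕟.Mf := by rw [hMf]
      _ ≤ Nat.card (H0S 𝕟) * Nat.card (X₀.prod D₀) := hle
      _ ≤ Nat.card (H0S 𝕟) * Nat.card X := Nat.mul_le_mul_left _ hN₀
  refine h2.trans ?_
  -- `H0S 𝕟 ↪ X^G × Hom_G(X, C)`
  rw [← Nat.card_prod]
  refine Nat.card_le_card_of_injective
    (fun z : H0S 𝕟 =>
      ((⟨(z : X × Dual X C).1, fun g => congrArg Prod.fst (z.2.2 g)⟩ :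
          {x : X // ∀ g : G, g • x = x}),
        (⟨(z : X × Dual X C).2, (fixed_iff _).1 (fun g => congrArg Prod.snd (z.2.2 g))⟩ :
          equivariantHoms G X C))) ?_
  intro z w hzw
  have e1 : (z : X × Dual X C).1 = (w : X × Dual X C).1 :=
    congrArg (fun q : {x : X // ∀ g : G, g • x = x} × equivariantHoms G X C => (q.1 : X)) hzw
  have e2 : (z : X × Dual X C).2 = (w : X × Dual X C).2 :=
    congrArg (fun q : {x : X // ∀ g : G, g • x = x} × equivariantHoms G X C =>
      (q.2 : Dual X C)) hzw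
  exact Subtype.ext (Prod.ext e1 e2)

/-- the special case `D₀ = X₀^⊥` (the mark `prodMark C X₀`), where the count is an identity. -/
theorem card_le_of_inertia_trivial_prodMark (F : MarkedFamily.{u} G)
    (hR : RankOneBoundM F D I r χ)
    (X : Type u) [AddCommGroup X] [DistribMulAction G X] [Module T X] [SMulCommClass G T X]
    [Finite X] (C : Type u) [AddCommGroup C] [DistribMulAction G C] [Finite C] [IsAddCyclic C]
    (hXC : ∀ x : X, Nat.card C • x = 0) (hIC : ∀ σ ∈ I, ∀ c : C, σ • c = c)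
    (hδ : ∀ g : G, ∃ u : ℕ, (∀ c : C, g • c = u • c) ∧ ∀ x : X, δ g • x = u • x)
    (E : EisData π χ τ δ X) (hIX : ∀ σ ∈ I, ∀ x : X, σ • x = x)
    (X₀ : AddSubgroup X) (hOk : F.Ok (X × Dual X C) (prodMark C X₀)) :
    Nat.card X ≤ Nat.card {x : X // ∀ g : G, g • x = x} * Nat.card (equivariantHoms G X C) :=
  card_le_of_inertia_trivial_marked F hR X C hXC hIC hδ E hIX X₀ (Dual.ann C X₀) hOk
    (card_ann_mul_card_le C hXC X₀)

end BU

end Fermat.Agent.MAZ.Desc.BoundedUnramM50
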