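/-
MAZ (S15), G-side (descent), brick KUMMER-CONE (helper95): **the Kummer map into the `H¹` of the
Selmer cone**.  Mathlib + `SelmerCone95` only; abstract group `G` with subgroups `D`, `I`.

`J` is a `G`-module (think `J₀(p)(ℚbar)`), `J0 ≤ J` a `D`-stable, pointwise `I`-fixed subgroup (the
points over `ℚ_p^unr` [which reduce to the identity component]), `n : ℕ`, `ι : M →+ J` an
equivariant identification of `M` with `J[n]`, `𝕄` a cone datum on `M` with `Mf = ι⁻¹ J0`.
`A := J^G ∩ J0`, and `B ≤ A` is the domain of the Kummer map.  If every `y ∈ B` is divisible by `n`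
in `J` and in `J0`, and the cocycles `σ ↦ σ y' - y'` (`n y' = y ∈ B`) are admissible (`hK`:
unramified outside `{r, p}`, flat at `r`), then

* `kummer : B →+ H1S 𝕄`, `y ↦ [(σ ↦ σ y' - y', y' - y'', σ ↦ σ y'' - y'')]` (`n y' = y = n y''`,
  `y'' ∈ J0`);
* `kummer_eq_zero_iff : kummer y = 0 ↔ ∃ z ∈ A, n • z = y`   (the kernel is `B ∩ n A`);
* `kummer_mapB` : compatibility with endomorphisms (Hecke operators);
* `card_quotient_le` : `#(B / N) ≤ #H1S 𝕄` for every `N ⊇ B ∩ n A`.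

Two uses: `J0` = the points of the identity component over `ℚ_p^unr` (divisible), `B = A`, kernel
`n A`;  or `J0 = J^I`, `B = {z ∈ J^G | z ∈ n J0}`, kernel `B ∩ n J^G`.
-/
import Mathlib
import Fermat.Agent.MAZ.Desc.SelmerCone95

set_option autoImplicit false

namespace Fermat.Agent.MAZ.Desc.KummerCone95

open Fermat.Agent.MAZ.Desc.SelmerCone95

variable {G : Type*} [Group G] {D I : Subgroup G}
variable {J : Type*} [AddCommGroup J] [DistribMulAction G J]
variable {M : Type*} [AddCommGroup M] [DistribMulAction G M]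

/-- The setting of the Kummer map. -/
structure KummerData (D I : Subgroup G) (J : Type*) [AddCommGroup J] [DistribMulAction G J]
    (M : Type*) [AddCommGroup M] [DistribMulAction G M] (n : ℕ) where
  /-- the identification of `M` with `J[n]` -/
  ι : M →+ J
  ι_inj : Function.Injective ι
  ι_equiv : ∀ (σ : G) (m : M), ι (σ • m) = σ • ι m
  ι_range : ∀ x : J, n • x = 0 ↔ ∃ m, ι m = x
  /-- the points over the maximal unramified extension (in the identity component) -/
  J0 : AddSubgroup J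
  J0_stable : ∀ σ ∈ D, ∀ x ∈ J0, σ • x ∈ J0
  J0_fixed : ∀ σ ∈ I, ∀ x ∈ J0, σ • x = x
  /-- the cone datum on `M` -/
  cone : ConeData D I M
  mem_Mf : ∀ m : M, m ∈ cone.Mf ↔ ι m ∈ J0
  /-- the domain of the Kummer map: a group of `G`-invariant points of `J0` -/
  B : AddSubgroup J
  B_le : ∀ y ∈ B, y ∈ J0 ∧ ∀ σ : G, σ • y = y

namespace KummerData

variable {n : ℕ} (K : KummerData D I J M n)

/-- `A = J^G ∩ J0`. -/
def A : AddSubgroup J where
  carrier := {y | y ∈ K.J0 ∧ ∀ σ : G, σ • y = y}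
  zero_mem' := ⟨K.J0.zero_mem, fun σ => smul_zero σ⟩
  add_mem' := by
    rintro x y ⟨hx, hx'⟩ ⟨hy, hy'⟩
    exact ⟨K.J0.add_mem hx hy, fun σ => by rw [smul_add, hx', hy']⟩
  neg_mem' := by
    rintro x ⟨hx, hx'⟩
    exact ⟨K.J0.neg_mem hx, fun σ => by rw [smul_neg, hx']⟩

theorem mem_A {y : J} : y ∈ K.A ↔ y ∈ K.J0 ∧ ∀ σ : G, σ • y = y := Iff.rfl

/-- the hypotheses under which the Kummer map exists. -/
structure Hyp : Prop where
  div : ∀ y ∈ K.B, ∃ y' : J, n • y' = y
  div0 : ∀ y ∈ K.B, ∃ y'' ∈ K.J0, n • y'' = y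
  adm : ∀ y ∈ K.B, ∀ y' : J, n • y' = y → ∀ c : G → M, (∀ σ, K.ι (c σ) = σ • y' - y') →
    c ∈ K.cone.Z

/-- a set-theoretic retraction of `ι`. -/
noncomputable def retr : J → M := Function.invFun K.ι

theorem retr_ι (m : M) : K.retr (K.ι m) = m := Function.leftInverse_invFun K.ι_inj m

theorem ι_retr {x : J} (hx : n • x = 0) : K.ι (K.retr x) = x := by
  obtain ⟨m, rfl⟩ := (K.ι_range x).1 hx
  rw [K.retr_ι]

theorem nsmul_ι (m : M) : n • K.ι m = 0 := (K.ι_range _).2 ⟨m, rfl⟩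

/-- the group of choices `(y, y', y'')`. -/
def choices : AddSubgroup (J × J × J) where
  carrier := {w | w.1 ∈ K.B ∧ n • w.2.1 = w.1 ∧ w.2.2 ∈ K.J0 ∧ n • w.2.2 = w.1}
  zero_mem' := ⟨K.B.zero_mem, smul_zero n, K.J0.zero_mem, smul_zero n⟩
  add_mem' := by
    rintro v w ⟨hv1, hv2, hv3, hv4⟩ ⟨hw1, hw2, hw3, hw4⟩
    refine ⟨K.B.add_mem hv1 hw1, ?_, K.J0.add_mem hv3 hw3, ?_⟩
    · simp only [Prod.fst_add, Prod.snd_add, smul_add, hv2, hw2]
    · simp only [Prod.fst_add, Prod.snd_add, smul_add, hv4, hw4]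
  neg_mem' := by
    rintro v ⟨hv1, hv2, hv3, hv4⟩
    refine ⟨K.B.neg_mem hv1, ?_, K.J0.neg_mem hv3, ?_⟩
    · simp only [Prod.fst_neg, Prod.snd_neg, smul_neg, hv2]
    · simp only [Prod.fst_neg, Prod.snd_neg, smul_neg, hv4]

theorem nsmul_dd_eq_zero {w : J × J × J} (hw : w ∈ K.choices) (σ : G) :
    n • (σ • w.2.1 - w.2.1) = 0 := by
  obtain ⟨h1, h2, -, -⟩ := hw
  rw [smul_sub, ← smul_comm σ n w.2.1, h2, (K.B_le _ h1).2 σ, sub_self]

theorem nsmul_dd0_eq_zero {w : J × J × J} (hw : w ∈ K.choices) (σ : G) :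
    n • (σ • w.2.2 - w.2.2) = 0 := by
  obtain ⟨h1, -, -, h4⟩ := hw
  rw [smul_sub, ← smul_comm σ n w.2.2, h4, (K.B_le _ h1).2 σ, sub_self]

theorem nsmul_sub_eq_zero {w : J × J × J} (hw : w ∈ K.choices) : n • (w.2.1 - w.2.2) = 0 := by
  obtain ⟨-, h2, -, h4⟩ := hw
  rw [smul_sub, h2, h4, sub_self]

/-- the triple of a choice, as a triple with values in `J`. -/
def tripleJ (w : J × J × J) : Triple D J :=
  (fun σ => σ • w.2.1 - w.2.1, w.2.1 - w.2.2, fun σ : D => (σ : G) • w.2.2 - w.2.2)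

/-- the triple of a choice. -/
noncomputable def triple (w : J × J × J) : Triple D M :=
  (fun σ => K.retr (σ • w.2.1 - w.2.1), K.retr (w.2.1 - w.2.2),
    fun σ : D => K.retr ((σ : G) • w.2.2 - w.2.2))

theorem tmap_triple {w : J × J × J} (hw : w ∈ K.choices) :
    tmap D K.ι (K.triple w) = tripleJ w := by
  rw [tmap_apply]
  refine Prod.ext ?_ (Prod.ext ?_ ?_)
  · funext σ
    exact K.ι_retr (K.nsmul_dd_eq_zero hw σ)
  · exact K.ι_retr (K.nsmul_sub_eq_zero hw)
  · funext σ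
    exact K.ι_retr (K.nsmul_dd0_eq_zero hw σ)

theorem tmap_ι_injective : Function.Injective (tmap D K.ι) := by
  intro s t hst
  exact Prod.ext (funext fun σ => K.ι_inj (congrFun (congrArg Prod.fst hst) σ))
    (Prod.ext (K.ι_inj (congrArg (fun z => z.2.1) hst))
      (funext fun σ => K.ι_inj (congrFun (congrArg (fun z => z.2.2) hst) σ)))

theorem tripleJ_add (v w : J × J × J) : (tripleJ (v + w) : Triple D J) = tripleJ v + tripleJ w := by
  refine Prod.ext ?_ (Prod.ext ?_ ?_)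
  · funext σ
    simp only [tripleJ, Prod.snd_add, Prod.fst_add, smul_add, Pi.add_apply]
    abel
  · simp only [tripleJ, Prod.snd_add, Prod.fst_add]
    abel
  · funext σ
    simp only [tripleJ, Prod.snd_add, smul_add, Pi.add_apply]
    abel

theorem triple_add {v w : J × J × J} (hv : v ∈ K.choices) (hw : w ∈ K.choices) :
    K.triple (v + w) = K.triple v + K.triple w := by
  apply K.tmap_ι_injective (D := D)
  rw [map_add, K.tmap_triple hv, K.tmap_triple hw, K.tmap_triple (K.choices.add_mem hv hw),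
    tripleJ_add]

variable (hK : K.Hyp)

include hK

theorem triple_mem_Z1S {w : J × J × J} (hw : w ∈ K.choices) : K.triple w ∈ Z1S K.cone := by
  have e := K.tmap_triple (D := D) hw
  have e1 : ∀ σ : G, K.ι ((K.triple w : Triple D M).1 σ) = σ • w.2.1 - w.2.1 := fun σ =>
    congrFun (congrArg Prod.fst e) σ
  have e2 : K.ι (K.triple w : Triple D M).2.1 = w.2.1 - w.2.2 := congrArg (fun z => z.2.1) e
  have e3 : ∀ σ : D, K.ι ((K.triple w : Triple D M).2.2 σ) = (σ : G) • w.2.2 - w.2.2 := fun σ =>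
    congrFun (congrArg (fun z => z.2.2) e) σ
  obtain ⟨h1, h2, h3, h4⟩ := hw
  refine ⟨hK.adm _ h1 _ h2 _ e1, fun σ => ?_, fun σ τ => K.ι_inj ?_, fun σ hσ => K.ι_inj ?_,
    fun σ => K.ι_inj ?_⟩
  · rw [K.mem_Mf, e3]
    exact K.J0.sub_mem (K.J0_stable σ σ.2 _ h3) h3
  · rw [map_add, K.ι_equiv, e3, e3, e3, Subgroup.coe_mul, mul_smul, smul_sub]
    abel
  · rw [e3, K.J0_fixed σ hσ _ h3, sub_self, map_zero]
  · rw [map_add, map_sub, K.ι_equiv, e1, e2, e3, smul_sub]
    abel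

/-- the cone cocycle of a choice. -/
noncomputable def tripleHom : K.choices →+ Z1S K.cone :=
  AddMonoidHom.mk' (fun w => ⟨K.triple w.1, K.triple_mem_Z1S hK w.2⟩)
    (fun v w => Subtype.ext (K.triple_add v.2 w.2))

theorem coe_tripleHom (w : K.choices) :
    ((K.tripleHom hK w : Z1S K.cone) : Triple D M) = K.triple w.1 := rfl

/-- the Kummer class of a choice. -/
noncomputable def kummerLift : K.choices →+ H1S K.cone := (H1S.mk K.cone).comp (K.tripleHom hK)

/-- the projection of the choices onto `B`. -/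
def prA : K.choices →+ K.B :=
  ((AddMonoidHom.fst J (J × J)).comp K.choices.subtype).codRestrict _ (fun w => w.2.1)

omit hK in
theorem coe_prA (w : K.choices) : ((K.prA w : K.B) : J) = w.1.1 := rfl

theorem prA_surjective : Function.Surjective K.prA := by
  intro y
  obtain ⟨y', hy'⟩ := hK.div y y.2
  obtain ⟨y'', hy''0, hy''⟩ := hK.div0 y y.2
  exact ⟨⟨(y, y', y''), y.2, hy', hy''0, hy''⟩, Subtype.ext rfl⟩

theorem kummerLift_eq_zero_of_mem_ker (w : K.choices) (hw : w ∈ K.prA.ker) :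
    K.kummerLift hK w = 0 := by
  have hw0 : w.1.1 = 0 := by
    rw [AddMonoidHom.mem_ker] at hw
    exact congrArg Subtype.val hw
  obtain ⟨-, h2, h3, h4⟩ := w.2
  rw [hw0] at h2 h4
  obtain ⟨m, hm⟩ := (K.ι_range _).1 h2
  obtain ⟨mf, hmf⟩ := (K.ι_range _).1 h4
  have hmfM : mf ∈ K.cone.Mf := by rw [K.mem_Mf, hmf]; exact h3
  change H1S.mk K.cone (K.tripleHom hK w) = 0
  rw [H1S.mk_eq_zero_iff, coe_tripleHom]
  refine ⟨(m, ⟨mf, hmfM⟩), K.tmap_ι_injective (D := D) ?_⟩
  rw [K.tmap_triple w.2, bd_apply, tmap_apply, tripleJ]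
  refine Prod.ext ?_ (Prod.ext ?_ ?_)
  · funext σ
    simp only [dd_def, map_sub, K.ι_equiv, hm]
  · simp only [map_sub, hm, hmf]
  · funext σ
    simp only [map_sub, K.ι_equiv, hmf]

/-- **The Kummer map** `B → H1S (J[n])`. -/
noncomputable def kummer : K.B →+ H1S K.cone :=
  (QuotientAddGroup.lift K.prA.ker (K.kummerLift hK)
      (fun w hw => K.kummerLift_eq_zero_of_mem_ker hK w hw)).comp
    (QuotientAddGroup.quotientKerEquivOfSurjective K.prA (K.prA_surjective hK)).symm.toAddMonoidHom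

theorem kummer_prA (w : K.choices) : K.kummer hK (K.prA w) = K.kummerLift hK w := by
  have e : (QuotientAddGroup.quotientKerEquivOfSurjective K.prA (K.prA_surjective hK)).symm
      (K.prA w) = QuotientAddGroup.mk w := by
    rw [AddEquiv.symm_apply_eq]
    rfl
  simp only [kummer, AddMonoidHom.coe_comp, Function.comp_apply, AddEquiv.coe_toAddMonoidHom, e]
  rfl

/-- the Kummer class computed with any choice of `y'`, `y''`. -/
theorem kummer_eq (y : K.B) (y' y'' : J) (hy' : n • y' = y) (hy''0 : y'' ∈ K.J0)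
    (hy'' : n • y'' = y) :
    K.kummer hK y = H1S.mk K.cone ⟨K.triple ((y : J), y', y''),
      K.triple_mem_Z1S hK (show ((y : J), y', y'') ∈ K.choices from ⟨y.2, hy', hy''0, hy''⟩)⟩ := by
  have hw : ((y : J), y', y'') ∈ K.choices := ⟨y.2, hy', hy''0, hy''⟩
  have h1 := K.kummer_prA hK ⟨_, hw⟩
  have e : K.prA ⟨_, hw⟩ = y := Subtype.ext rfl
  rw [e] at h1
  exact h1

/-- **The kernel of the Kummer map is `B ∩ n A`.** -/
theorem kummer_eq_zero_iff (y : K.B) : K.kummer hK y = 0 ↔ ∃ z ∈ K.A, n • z = (y : J) := by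
  constructor
  · intro h0
    obtain ⟨w, rfl⟩ := K.prA_surjective hK y
    rw [K.kummer_prA hK] at h0
    change H1S.mk K.cone (K.tripleHom hK w) = 0 at h0
    rw [H1S.mk_eq_zero_iff, coe_tripleHom] at h0
    obtain ⟨⟨m, mf⟩, hb⟩ := h0
    have hb' := congrArg (tmap D K.ι) hb
    rw [K.tmap_triple w.2, bd_apply, tmap_apply, tripleJ] at hb'
    have e1 : ∀ σ : G, K.ι (dd m σ) = σ • w.1.2.1 - w.1.2.1 := fun σ =>
      congrFun (congrArg Prod.fst hb') σ
    have e2 : K.ι (m - (mf : M)) = w.1.2.1 - w.1.2.2 := congrArg (fun z => z.2.1) hb'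
    obtain ⟨h1, h2, h3, h4⟩ := w.2
    -- `z := y' - ι m`
    have hzfix : ∀ σ : G, σ • (w.1.2.1 - K.ι m) = w.1.2.1 - K.ι m := by
      intro σ
      have := e1 σ
      rw [dd_def, map_sub, K.ι_equiv] at this
      rw [smul_sub, sub_eq_sub_iff_sub_eq_sub]
      exact this.symm
    have hzJ0 : w.1.2.1 - K.ι m ∈ K.J0 := by
      have : w.1.2.1 - K.ι m = w.1.2.2 - K.ι (mf : M) := by
        rw [map_sub] at e2
        rw [sub_eq_sub_iff_sub_eq_sub]
        exact e2.symm
      rw [this]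
      exact K.J0.sub_mem h3 ((K.mem_Mf _).1 mf.2)
    refine ⟨w.1.2.1 - K.ι m, ⟨hzJ0, hzfix⟩, ?_⟩
    change n • (w.1.2.1 - K.ι m) = w.1.1
    rw [smul_sub, h2, K.nsmul_ι, sub_zero]
  · rintro ⟨z, hz, hzy⟩
    rw [K.kummer_eq hK y z z hzy hz.1 hzy, H1S.mk_eq_zero_iff]
    refine ⟨0, K.tmap_ι_injective (D := D) ?_⟩
    rw [map_zero, map_zero, K.tmap_triple (show ((y : J), z, z) ∈ K.choices
      from ⟨y.2, hzy, hz.1, hzy⟩), tripleJ]
    refine Prod.ext ?_ (Prod.ext ?_ ?_)
    · funext σ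
      simp only [hz.2 σ, sub_self]
      rfl
    · simp
    · funext σ
      simp only [hz.2 σ, sub_self]
      rfl

/-- **`#(B / N) ≤ #H1S (J[n])`** for every subgroup `N` of `B` containing `B ∩ n A`. -/
theorem card_quotient_le [Finite (H1S K.cone)] (N : AddSubgroup K.B)
    (hN : ∀ y : K.B, (∃ z ∈ K.A, n • z = (y : J)) → y ∈ N) :
    Nat.card (K.B ⧸ N) ≤ Nat.card (H1S K.cone) := by
  have hker : (K.kummer hK).ker ≤ N := fun y hy => hN y ((K.kummer_eq_zero_iff hK y).1 hy)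
  -- `B / ker κ` embeds into `H1S`
  have hinj : Function.Injective (QuotientAddGroup.kerLift (K.kummer hK)) :=
    QuotientAddGroup.kerLift_injective _
  have : Finite (K.B ⧸ (K.kummer hK).ker) := Finite.of_injective _ hinj
  have h1 : Nat.card (K.B ⧸ (K.kummer hK).ker) ≤ Nat.card (H1S K.cone) :=
    Nat.card_le_card_of_injective _ hinj
  -- `B / ker κ` surjects onto `B / N`
  have hsurj : Function.Surjective
      (QuotientAddGroup.map (K.kummer hK).ker N (AddMonoidHom.id K.B) hker) := by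
    intro x
    obtain ⟨y, rfl⟩ := QuotientAddGroup.mk_surjective x
    exact ⟨QuotientAddGroup.mk y, rfl⟩
  exact (Nat.card_le_card_of_surjective _ hsurj).trans h1

/-- the case `B = A` with kernel `n A`: `A / nA` embeds into `H1S (J[n])`. -/
theorem card_quotient_nsmul_le [Finite (H1S K.cone)] (hBA : ∀ y ∈ K.A, y ∈ K.B) :
    Nat.card (K.B ⧸ (nsmulAddMonoidHom (α := K.B) n).range) ≤ Nat.card (H1S K.cone) := by
  refine K.card_quotient_le hK _ ?_
  rintro y ⟨z, hz, hzy⟩
  exact ⟨⟨z, hBA z hz⟩, Subtype.ext hzy⟩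

/-! ### Compatibility with endomorphisms -/

omit hK in
/-- an endomorphism of `J` preserving `B`. -/
def mapB (t : J →+ J) (htB : ∀ y ∈ K.B, t y ∈ K.B) : K.B →+ K.B :=
  (t.comp K.B.subtype).codRestrict _ (fun y => htB _ y.2)

omit hK in
theorem coe_mapB (t : J →+ J) (htB : ∀ y ∈ K.B, t y ∈ K.B) (y : K.B) :
    ((K.mapB t htB y : K.B) : J) = t y := rfl

/-- **The Kummer map commutes with endomorphisms** (Hecke operators). -/
theorem kummer_mapB (t : J →+ J) (ht : ∀ (σ : G) (x : J), t (σ • x) = σ • t x)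
    (ht0 : ∀ x ∈ K.J0, t x ∈ K.J0) (htB : ∀ y ∈ K.B, t y ∈ K.B) (tM : M →+ M)
    (htι : ∀ m, K.ι (tM m) = t (K.ι m)) (hcone : ConeHom K.cone K.cone tM) (y : K.B) :
    K.kummer hK (K.mapB t htB y) = hcone.mapH1S (K.kummer hK y) := by
  obtain ⟨y', hy'⟩ := hK.div y y.2
  obtain ⟨y'', hy''0, hy''⟩ := hK.div0 y y.2
  have hw : ((y : J), y', y'') ∈ K.choices := ⟨y.2, hy', hy''0, hy''⟩
  have hw' : (((K.mapB t htB y : K.B) : J), t y', t y'') ∈ K.choices :=
    ⟨(K.mapB t htB y).2, by rw [← map_nsmul, hy', coe_mapB], ht0 _ hy''0,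
      by rw [← map_nsmul, hy'', coe_mapB]⟩
  rw [K.kummer_eq hK y y' y'' hy' hy''0 hy'',
    K.kummer_eq hK (K.mapB t htB y) (t y') (t y'') hw'.2.1 hw'.2.2.1 hw'.2.2.2,
    ConeHom.mapH1S_mk]
  congr 1
  apply Subtype.ext
  rw [ConeHom.coe_mapZ1S]
  apply K.tmap_ι_injective (D := D)
  rw [K.tmap_triple hw']
  have e := K.tmap_triple (D := D) hw
  have e1 : ∀ σ : G, K.ι ((K.triple ((y : J), y', y'') : Triple D M).1 σ) = σ • y' - y' := fun σ =>
    congrFun (congrArg Prod.fst e) σ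
  have e2 : K.ι (K.triple ((y : J), y', y'') : Triple D M).2.1 = y' - y'' :=
    congrArg (fun z => z.2.1) e
  have e3 : ∀ σ : D, K.ι ((K.triple ((y : J), y', y'') : Triple D M).2.2 σ) =
      (σ : G) • y'' - y'' := fun σ => congrFun (congrArg (fun z => z.2.2) e) σ
  rw [tmap_apply, tmap_apply, tripleJ]
  refine Prod.ext ?_ (Prod.ext ?_ ?_)
  · funext σ
    simp only [htι, e1, map_sub, ht]
  · simp only [htι, e2, map_sub]
  · funext σ
    simp only [htι, e3, map_sub, ht]

end KummerData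

/-! ### The module structure on `H1S` induced by a ring of endomorphisms -/

section Module

variable {T : Type*} [Ring T] (𝕄 : ConeData D I M)

theorem mapH1S_zero {N : Type*} [AddCommGroup N] [DistribMulAction G N] {𝕂 : ConeData D I N}
    (h : ConeHom 𝕄 𝕂 (0 : M →+ N)) (x : H1S 𝕄) : h.mapH1S x = 0 := by
  obtain ⟨t, rfl⟩ := H1S.mk_surjective 𝕄 x
  rw [ConeHom.mapH1S_mk]
  have : h.mapZ1S t = 0 := Subtype.ext (by
    rw [ConeHom.coe_mapZ1S, tmap_apply]
    rfl)
  rw [this, map_zero]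

/-- a ring acting on `M` by morphisms of the cone datum acts on `H1S`. -/
noncomputable def endHom [Module T M]
    (hact : ∀ t : T, ConeHom 𝕄 𝕄 (DistribSMul.toAddMonoidHom M t)) :
    T →+* AddMonoid.End (H1S 𝕄) where
  toFun t := (hact t).mapH1S
  map_one' := AddMonoidHom.ext fun x => by
    have e : DistribSMul.toAddMonoidHom M (1 : T) = AddMonoidHom.id M :=
      AddMonoidHom.ext fun m => one_smul T m
    exact (ConeHom.mapH1S_congr (hact 1) (ConeHom.id 𝕄) e x).trans (ConeHom.mapH1S_id 𝕄 x)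
  map_mul' s t := AddMonoidHom.ext fun x => by
    have e : DistribSMul.toAddMonoidHom M (s * t) =
        (DistribSMul.toAddMonoidHom M s).comp (DistribSMul.toAddMonoidHom M t) :=
      AddMonoidHom.ext fun m => mul_smul s t m
    exact (ConeHom.mapH1S_congr (hact (s * t)) ((hact s).comp (hact t)) e x).trans
      (ConeHom.mapH1S_comp (hact s) (hact t) x)
  map_zero' := AddMonoidHom.ext fun x => by
    have e : DistribSMul.toAddMonoidHom M (0 : T) = 0 :=
      AddMonoidHom.ext fun m => zero_smul T m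
    exact (ConeHom.mapH1S_congr (hact 0) (e ▸ hact 0) e x).trans (mapH1S_zero 𝕄 _ x)
  map_add' s t := AddMonoidHom.ext fun x => by
    have e : DistribSMul.toAddMonoidHom M (s + t) =
        DistribSMul.toAddMonoidHom M s + DistribSMul.toAddMonoidHom M t :=
      AddMonoidHom.ext fun m => add_smul s t m
    exact (ConeHom.mapH1S_congr (hact (s + t)) ((hact s).add (hact t)) e x).trans
      (ConeHom.mapH1S_add (hact s) (hact t) x)

theorem endHom_apply [Module T M]
    (hact : ∀ t : T, ConeHom 𝕄 𝕄 (DistribSMul.toAddMonoidHom M t)) (t : T) (x : H1S 𝕄) :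
    endHom 𝕄 hact t x = (hact t).mapH1S x := rfl

/-- the `T`-module structure on `H1S` (not an instance): `t • [c, a, β] = [t • c, t • a, t • β]`. -/
noncomputable abbrev moduleH1S [Module T M]
    (hact : ∀ t : T, ConeHom 𝕄 𝕄 (DistribSMul.toAddMonoidHom M t)) : Module T (H1S 𝕄) :=
  Module.compHom (H1S 𝕄) (endHom 𝕄 hact)

theorem smul_def [Module T M]
    (hact : ∀ t : T, ConeHom 𝕄 𝕄 (DistribSMul.toAddMonoidHom M t)) (t : T) (x : H1S 𝕄) :
    letI := moduleH1S 𝕄 hact
    t • x = (hact t).mapH1S x := rfl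

end Module

end Fermat.Agent.MAZ.Desc.KummerCone95
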