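/-
MAZ (S15), descent side, helper19: THE `P`-PRIMARY PART OF A FINITE HECKE MODULE AND THE ENDGAME OF
THE GLOBAL EISENSTEIN CONTRACT, in pure commutative algebra (no completion, no localisation).

`T` a commutative ring, `P` an ideal, `M` a `T`-module.
* `primaryPart P M` : the elements killed by a power of `P`.
* `IsProj P e M` : `e ≡ 1 mod P^j` and `e` kills `P^j M` for some `j ≥ 1`.  Such an `e` maps `M` into
  `primaryPart P M` and is the identity on it; the property passes to submodules and quotients, and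
  an `e` exists for every finite `M` (Nakayama on the stable value of `P^j M`).
* `primaryPart_surjective` : on finite modules, `M ↦ primaryPart P M` preserves surjections.
* `endgame` : if `A` is finitely generated over `ℤ`, `r ∈ P` a prime number, and the `P`-primary parts
  of finite modules `S_k` receiving `A` with kernel inside `r^k A` have bounded order, then some
  `t ≡ 1 mod P` maps `A` into its torsion.
* `smul_ne_zero_of_sub_one_mem` : such a `t` does not kill a nonzero element killed by a power of `P`.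
-/
import Mathlib

set_option autoImplicit false

namespace Fermat.Agent.MAZ.Desc.PrimaryPart19

universe u v w

variable {T : Type u} [CommRing T] (P : Ideal T)

/-! ### The primary part -/

/-- The elements killed by a power of `P`. -/
def primaryPart (M : Type*) [AddCommGroup M] [Module T M] : Submodule T M where
  carrier := {x | ∃ j : ℕ, ∀ t ∈ P ^ j, t • x = 0}
  zero_mem' := ⟨0, fun t _ => smul_zero t⟩
  add_mem' := by
    rintro a b ⟨i, hi⟩ ⟨j, hj⟩
    refine ⟨max i j, fun t ht => ?_⟩
    rw [smul_add, hi t (Ideal.pow_le_pow_right (le_max_left i j) ht),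
      hj t (Ideal.pow_le_pow_right (le_max_right i j) ht), add_zero]
  smul_mem' := by
    rintro s x ⟨j, hj⟩
    exact ⟨j, fun t ht => by rw [smul_comm, hj t ht, smul_zero]⟩

variable {P}

theorem mem_primaryPart {M : Type*} [AddCommGroup M] [Module T M] {x : M} :
    x ∈ primaryPart P M ↔ ∃ j : ℕ, ∀ t ∈ P ^ j, t • x = 0 := Iff.rfl

/-- A linear map preserves primary parts. -/
theorem map_mem_primaryPart {M M' : Type*} [AddCommGroup M] [Module T M] [AddCommGroup M']
    [Module T M'] (f : M →ₗ[T] M') {x : M} (hx : x ∈ primaryPart P M) :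
    f x ∈ primaryPart P M' := by
  obtain ⟨j, hj⟩ := hx
  exact ⟨j, fun t ht => by rw [← map_smul, hj t ht, map_zero]⟩

/-! ### Projectors -/

variable (P) in
/-- `e` is a `P`-projector on `M`. -/
def IsProj (e : T) (M : Type*) [AddCommGroup M] [Module T M] : Prop :=
  ∃ j : ℕ, 0 < j ∧ e - 1 ∈ P ^ j ∧ ∀ q ∈ P ^ j, ∀ x : M, e • q • x = 0

section proj

variable {M : Type v} [AddCommGroup M] [Module T M] {M' : Type w} [AddCommGroup M'] [Module T M']
  {e : T}

theorem IsProj.sub_one_mem (h : IsProj P e M) : e - 1 ∈ P := by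
  obtain ⟨j, hj, he, -⟩ := h
  exact Ideal.pow_le_self hj.ne' he

theorem IsProj.smul_mem (h : IsProj P e M) (x : M) : e • x ∈ primaryPart P M := by
  obtain ⟨j, -, -, hk⟩ := h
  exact ⟨j, fun q hq => by rw [smul_comm]; exact hk q hq x⟩

theorem IsProj.smul_eq (h : IsProj P e M) {x : M} (hx : x ∈ primaryPart P M) : e • x = x := by
  obtain ⟨j, hj, he, hk⟩ := h
  obtain ⟨i, hi⟩ := hx
  -- `u = 1 - e`
  have hu : 1 - e ∈ P ^ j := by
    have := (P ^ j).neg_mem he
    rwa [neg_sub] at this
  have h1 : (1 - e) • x = (1 - e) • (1 - e) • x := by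
    have h0 := hk (1 - e) hu x
    have : (1 - e) • x = e • (1 - e) • x + (1 - e) • (1 - e) • x := by
      rw [← add_smul, add_sub_cancel, one_smul]
    rw [h0, zero_add] at this
    exact this
  have h2 : ∀ m : ℕ, (1 - e) • x = (1 - e) ^ (m + 1) • x := by
    intro m
    induction m with
    | zero => rw [zero_add, pow_one]
    | succ m ih =>
      calc (1 - e) • x = (1 - e) • (1 - e) • x := h1
        _ = (1 - e) • (1 - e) ^ (m + 1) • x := by rw [← ih]
        _ = (1 - e) ^ (m + 1 + 1) • x := by rw [pow_succ' _ (m + 1), mul_smul]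
  have h3 : (1 - e) ^ (i + 1) • x = 0 := by
    apply hi
    have h4 : (1 - e) ^ (i + 1) ∈ (P ^ j) ^ (i + 1) := Ideal.pow_mem_pow hu _
    rw [← pow_mul] at h4
    refine Ideal.pow_le_pow_right ?_ h4
    calc i ≤ i + 1 := Nat.le_succ i
      _ = 1 * (i + 1) := (one_mul _).symm
      _ ≤ j * (i + 1) := Nat.mul_le_mul_right _ hj
  have h5 : (1 - e) • x = 0 := by rw [h2 i, h3]
  rw [sub_smul, one_smul, sub_eq_zero] at h5
  exact h5.symm

/-- Projectors pass to quotients. -/
theorem IsProj.of_surjective (h : IsProj P e M) (f : M →ₗ[T] M') (hf : Function.Surjective f) :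
    IsProj P e M' := by
  obtain ⟨j, hj, he, hk⟩ := h
  refine ⟨j, hj, he, fun q hq y => ?_⟩
  obtain ⟨x, rfl⟩ := hf y
  rw [← map_smul, ← map_smul, hk q hq x, map_zero]

/-- Projectors pass to submodules. -/
theorem IsProj.of_injective (h : IsProj P e M') (f : M →ₗ[T] M') (hf : Function.Injective f) :
    IsProj P e M := by
  obtain ⟨j, hj, he, hk⟩ := h
  refine ⟨j, hj, he, fun q hq x => ?_⟩
  apply hf
  rw [map_smul, map_smul, hk q hq (f x), map_zero]

variable (P M) in
/-- Every finite module has a projector. -/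
theorem exists_isProj [Finite M] : ∃ e : T, IsProj P e M := by
  -- the chain `P^j M` stabilises
  let N : ℕ → Submodule T M := fun j => P ^ j • (⊤ : Submodule T M)
  have hanti : Antitone N := by
    intro a b hab
    exact Submodule.smul_mono_left (Ideal.pow_le_pow_right hab)
  have hfin : (Set.range N).Finite := Set.toFinite _
  -- stabilisation
  have hstab : ∃ n : ℕ, ∀ m : ℕ, n ≤ m → N m = N n := by
    by_contra hcon
    push Not at hcon
    -- strictly decreasing cardinalities, impossible
    have hlt : ∀ n : ℕ, ∃ m : ℕ, n ≤ m ∧ N m < N n := by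
      intro n
      obtain ⟨m, hnm, hne⟩ := hcon n
      exact ⟨m, hnm, lt_of_le_of_ne (hanti hnm) hne⟩
    choose g hg1 hg2 using hlt
    let s : ℕ → ℕ := fun k => Nat.rec 0 (fun _ a => g a) k
    have hs : StrictAnti (fun k => N (s k)) := by
      apply strictAnti_nat_of_succ_lt
      intro k
      exact hg2 (s k)
    exact (not_strictAnti_of_wellFoundedLT (fun k => N (s k)) |>.elim hs : False)
  obtain ⟨n, hn⟩ := hstab
  have hNN : N (n + 1) ≤ P ^ (n + 1) • N (n + 1) := by
    have h1 : P ^ (n + 1) • N (n + 1) = N (n + 1 + (n + 1)) := by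
      change P ^ (n + 1) • (P ^ (n + 1) • (⊤ : Submodule T M)) = _
      rw [← Submodule.mul_smul, ← pow_add]
    rw [h1, hn (n + 1) (Nat.le_succ n), hn (n + 1 + (n + 1)) (by omega)]
  have hfg : (N (n + 1)).FG := by
    have : IsNoetherian T M := isNoetherian_of_finite T M
    exact IsNoetherian.noetherian _
  obtain ⟨e, he1, he2⟩ :=
    Submodule.exists_sub_one_mem_and_smul_eq_zero_of_fg_of_le_smul (P ^ (n + 1)) (N (n + 1)) hfg hNN
  refine ⟨e, n + 1, Nat.succ_pos n, he1, fun q hq x => ?_⟩
  exact he2 _ (Submodule.smul_mem_smul hq Submodule.mem_top)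

/-- On finite modules the primary part preserves surjections. -/
theorem primaryPart_surjective [Finite M] (f : M →ₗ[T] M') (hf : Function.Surjective f) {y : M'}
    (hy : y ∈ primaryPart P M') : ∃ x ∈ primaryPart P M, f x = y := by
  obtain ⟨e, he⟩ := exists_isProj P M
  obtain ⟨x, rfl⟩ := hf y
  refine ⟨e • x, he.smul_mem x, ?_⟩
  rw [map_smul]
  exact (he.of_surjective f hf).smul_eq hy

end proj

/-! ### Torsion -/

/-- The torsion `T`-submodule. -/
def torsSub (T : Type*) [CommRing T] (A : Type*) [AddCommGroup A] [Module T A] : Submodule T A where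
  carrier := {x | ∃ n : ℕ, 0 < n ∧ n • x = 0}
  zero_mem' := ⟨1, one_pos, smul_zero _⟩
  add_mem' := by
    rintro a b ⟨m, hm, hma⟩ ⟨n, hn, hnb⟩
    refine ⟨m * n, Nat.mul_pos hm hn, ?_⟩
    rw [smul_add, mul_comm m n, mul_smul, hma, smul_zero, mul_comm n m, mul_smul, hnb, smul_zero,
      add_zero]
  smul_mem' := by
    rintro t x ⟨n, hn, hx⟩
    exact ⟨n, hn, by rw [smul_comm, hx, smul_zero]⟩

theorem mem_torsSub {A : Type*} [AddCommGroup A] [Module T A] {x : A} :
    x ∈ torsSub T A ↔ ∃ n : ℕ, 0 < n ∧ n • x = 0 := Iff.rfl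

/-- The quotient by the torsion is torsion free. -/
theorem quotient_torsSub_torsionFree {A : Type*} [AddCommGroup A] [Module T A] (n : ℕ) (hn : 0 < n)
    (x : A ⧸ torsSub T A) (h : n • x = 0) : x = 0 := by
  obtain ⟨a, rfl⟩ := Submodule.Quotient.mk_surjective _ x
  rw [← Submodule.Quotient.mk_smul, Submodule.Quotient.mk_eq_zero] at h
  obtain ⟨m, hm, hma⟩ := h
  rw [Submodule.Quotient.mk_eq_zero]
  exact ⟨m * n, Nat.mul_pos hm hn, by rw [mul_smul]; exact hma⟩

/-- In a torsion-free group, an element outside `r N` has "infinite `r`-adic order". -/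
theorem pow_dvd_of_nsmul_eq {N : Type*} [AddCommGroup N]
    (htf : ∀ n : ℕ, 0 < n → ∀ x : N, n • x = 0 → x = 0) {r : ℕ} (hr : r.Prime) {x₁ : N}
    (hx₁ : ∀ y : N, x₁ ≠ r • y) :
    ∀ (k m : ℕ) (y : N), m • x₁ = r ^ k • y → r ^ k ∣ m := by
  intro k
  induction k with
  | zero => intro m y _; rw [pow_zero]; exact one_dvd m
  | succ k ih =>
    intro m y h
    by_cases hrm : r ∣ m
    · obtain ⟨m₁, rfl⟩ := hrm
      rw [pow_succ']
      apply Nat.mul_dvd_mul_left
      apply ih m₁ y
      have h0 : r • (m₁ • x₁ - r ^ k • y) = 0 := by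
        rw [smul_sub, ← mul_smul, ← mul_smul, ← pow_succ', h, sub_self]
      exact sub_eq_zero.1 (htf r hr.pos _ h0)
    · exfalso
      have hcop : Nat.Coprime m r := (Nat.Coprime.symm ((Nat.Prime.coprime_iff_not_dvd hr).2 hrm))
      obtain ⟨u, -, hu⟩ := Nat.exists_mul_mod_eq_one_of_coprime hcop hr.one_lt
      have hdiv := Nat.div_add_mod (m * u) r
      rw [hu] at hdiv
      -- `x₁ = (m u) x₁ - r q x₁`
      apply hx₁ (u • r ^ k • y - (m * u / r) • x₁)
      have h1 : (m * u) • x₁ = (r * (m * u / r)) • x₁ + x₁ := by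
        conv_lhs => rw [← hdiv]
        rw [add_smul, one_smul]
      have h2 : (m * u) • x₁ = r • u • r ^ k • y := by
        rw [mul_comm m u, mul_smul, h, pow_succ', mul_smul, smul_comm u r]
      rw [smul_sub, ← h2, h1, mul_smul, add_sub_cancel_left]

/-! ### The endgame -/

/-- **Endgame.**  `A` finitely generated over `ℤ`, `r ∈ P` a prime number; for every `k` a finite
`T`-module `S` receiving `A` with kernel inside `r^k A` and `#(primaryPart P S) ≤ C`.  Then some
`t ≡ 1 mod P` maps `A` into its torsion. -/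
theorem endgame {A : Type v} [AddCommGroup A] [Module T A] [Module.Finite ℤ A] {r : ℕ}
    (hr : r.Prime) (hrP : (r : T) ∈ P) (C : ℕ)
    (hK : ∀ k : ℕ, ∃ (S : Type w) (_ : AddCommGroup S) (_ : Module T S) (_ : Finite S)
      (κ : A →ₗ[T] S), (∀ x, κ x = 0 → ∃ y, x = r ^ k • y) ∧ Nat.card (primaryPart P S) ≤ C) :
    ∃ t : T, t - 1 ∈ P ∧ ∀ z : A, ∃ k : ℕ, 0 < k ∧ k • t • z = 0 := by
  classical
  set N' := A ⧸ torsSub T A with hN'
  have hmk : Function.Surjective (torsSub T A).mkQ := Submodule.mkQ_surjective _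
  have htf := quotient_torsSub_torsionFree (T := T) (A := A)
  -- the key claim
  have hP : (⊤ : Submodule T N') ≤ P • (⊤ : Submodule T N') := by
    intro x₀ _
    by_contra hx₀
    obtain ⟨a, rfl⟩ := hmk x₀
    obtain ⟨S, _, _, _, κ, hκ, hcard⟩ := hK C
    obtain ⟨e, he⟩ := exists_isProj P S
    have he1 : 1 - e ∈ P := by
      have := P.neg_mem he.sub_one_mem
      rwa [neg_sub] at this
    -- `x₁ = e x₀`
    have hx₁ : ∀ y : N', (torsSub T A).mkQ (e • a) ≠ r • y := by
      intro y hy
      apply hx₀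
      have h1 : (torsSub T A).mkQ a
          = (1 - e) • (torsSub T A).mkQ a + (r : T) • y := by
        rw [Nat.cast_smul_eq_nsmul, ← hy, map_smul, ← add_smul, sub_add_cancel, one_smul]
      rw [h1]
      exact Submodule.add_mem _ (Submodule.smul_mem_smul he1 Submodule.mem_top)
        (Submodule.smul_mem_smul hrP Submodule.mem_top)
    -- the element `s`
    let s : primaryPart P S := ⟨κ (e • a), by rw [map_smul]; exact he.smul_mem _⟩
    have ho : 0 < addOrderOf s := addOrderOf_pos s
    have hos : addOrderOf s • κ (e • a) = 0 := by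
      have := addOrderOf_nsmul_eq_zero s
      exact congrArg Subtype.val this
    rw [← map_nsmul] at hos
    obtain ⟨y, hy⟩ := hκ _ hos
    have hdvd : r ^ C ∣ addOrderOf s := by
      apply pow_dvd_of_nsmul_eq htf hr hx₁ C (addOrderOf s) ((torsSub T A).mkQ y)
      rw [← map_nsmul, hy, map_nsmul]
    have h1 : r ^ C ≤ addOrderOf s := Nat.le_of_dvd ho hdvd
    have h2 : addOrderOf s ≤ Nat.card (primaryPart P S) := addOrderOf_le_card
    have h3 : C < r ^ C := Nat.lt_pow_self hr.one_lt
    omega
  -- Nakayama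
  have : Module.Finite T A := Module.Finite.of_restrictScalars_finite ℤ T A
  have hfg : (⊤ : Submodule T N').FG := Module.Finite.fg_top
  obtain ⟨t, ht1, ht2⟩ :=
    Submodule.exists_sub_one_mem_and_smul_eq_zero_of_fg_of_le_smul P ⊤ hfg hP
  refine ⟨t, ht1, fun z => ?_⟩
  have h := ht2 ((torsSub T A).mkQ z) Submodule.mem_top
  rw [← map_smul, Submodule.mkQ_apply, Submodule.Quotient.mk_eq_zero] at h
  exact h

/-- The image of a finitely generated group under a map killing `n A` is finite. -/
theorem finite_range_of_nsmul_eq_zero {A : Type v} [AddCommGroup A] [Module T A]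
    [Module.Finite ℤ A] {S : Type w} [AddCommGroup S] [Module T S] (κ : A →ₗ[T] S) {n : ℕ}
    (hn : 0 < n) (h : ∀ y : A, κ (n • y) = 0) : Finite (LinearMap.range κ) := by
  let κ' : A →ₗ[ℤ] S := κ.toAddMonoidHom.toIntLinearMap
  have hfin : Module.Finite ℤ (LinearMap.range κ') := Module.Finite.range κ'
  have htors : Module.IsTorsion ℤ (LinearMap.range κ') := by
    rintro ⟨_, a, rfl⟩
    refine ⟨⟨(n : ℤ), ?_⟩, ?_⟩
    · rw [mem_nonZeroDivisors_iff_ne_zero]
      exact_mod_cast hn.ne'
    · apply Subtype.ext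
      change (n : ℤ) • κ a = 0
      rw [Nat.cast_smul_eq_nsmul, ← map_nsmul]
      exact h a
  have hF : Finite (LinearMap.range κ') := Module.finite_of_fg_torsion _ htors
  have hset : (LinearMap.range κ : Set S) = (LinearMap.range κ' : Set S) := by
    ext x
    simp only [SetLike.mem_coe, LinearMap.mem_range]
    rfl
  have h2 : (LinearMap.range κ' : Set S).Finite := Set.toFinite _
  rw [← hset] at h2
  exact h2.to_subtype

/-- **Endgame, exact-kernel form.**  For every `k` a `T`-module `S` (not necessarily finite) with a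
map `κ : A → S` of kernel exactly `r^k A` (e.g. the Kummer map into a Selmer group or into `H¹`),
such that the `P`-primary part of `S` is finite of order `≤ C`. -/
theorem endgame_exact {A : Type v} [AddCommGroup A] [Module T A] [Module.Finite ℤ A] {r : ℕ}
    (hr : r.Prime) (hrP : (r : T) ∈ P) (C : ℕ)
    (hK : ∀ k : ℕ, ∃ (S : Type w) (_ : AddCommGroup S) (_ : Module T S) (κ : A →ₗ[T] S),
      (∀ x, κ x = 0 ↔ ∃ y, x = r ^ k • y) ∧ Finite (primaryPart P S) ∧
        Nat.card (primaryPart P S) ≤ C) :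
    ∃ t : T, t - 1 ∈ P ∧ ∀ z : A, ∃ k : ℕ, 0 < k ∧ k • t • z = 0 := by
  refine endgame.{u, v, w} hr hrP C (fun k => ?_)
  obtain ⟨S, _, _, κ, hκ, hfin, hcard⟩ := hK k
  have hF : Finite (LinearMap.range κ) :=
    finite_range_of_nsmul_eq_zero κ (pow_pos hr.pos k) (fun y => (hκ _).2 ⟨y, rfl⟩)
  refine ⟨LinearMap.range κ, inferInstance, inferInstance, hF, κ.rangeRestrict, ?_, ?_⟩
  · intro x hx
    apply (hκ x).1
    exact congrArg Subtype.val hx
  · -- the primary part of the range injects into the primary part of `S`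
    let ι : primaryPart P (LinearMap.range κ) → primaryPart P S := fun x =>
      ⟨(LinearMap.range κ).subtype x.1, map_mem_primaryPart _ x.2⟩
    have hι : Function.Injective ι := by
      intro x y hxy
      apply Subtype.ext
      apply Subtype.ext
      have h0 : (ι x).1 = (ι y).1 := congrArg Subtype.val hxy
      exact h0
    exact (Nat.card_le_card_of_injective ι hι).trans hcard

/-- A `t ≡ 1 mod P` does not kill a nonzero element killed by a power of `P`. -/
theorem smul_ne_zero_of_sub_one_mem {A : Type*} [AddCommGroup A] [Module T A] {t : T}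
    (ht : t - 1 ∈ P) {c : A} (hc : c ≠ 0) (hP : c ∈ primaryPart P A) : t • c ≠ 0 := by
  intro h
  obtain ⟨a, ha⟩ := hP
  apply hc
  have h1 : ∀ m : ℕ, c = (1 - t) ^ m • c := by
    intro m
    induction m with
    | zero => rw [pow_zero, one_smul]
    | succ m ih =>
      rw [pow_succ, mul_smul, sub_smul, one_smul, h, sub_zero, ← ih]
  rw [h1 a]
  apply ha
  apply Ideal.pow_mem_pow
  have := P.neg_mem ht
  rwa [neg_sub] at this

/-- Torsion of the image passes from a subgroup of finite index to the whole group. -/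
theorem torsion_of_finiteIndex {A : Type*} [AddCommGroup A] (B : AddSubgroup A) [B.FiniteIndex]
    (f : A →+ A) (hB : ∀ z ∈ B, ∃ k : ℕ, 0 < k ∧ k • f z = 0) (z : A) :
    ∃ k : ℕ, 0 < k ∧ k • f z = 0 := by
  have hd : 0 < B.index := Nat.pos_of_ne_zero AddSubgroup.FiniteIndex.index_ne_zero
  have hz : B.index • z ∈ B := AddSubgroup.nsmul_index_mem B z
  obtain ⟨k, hk, hkz⟩ := hB _ hz
  refine ⟨k * B.index, Nat.mul_pos hk hd, ?_⟩
  rw [mul_smul, ← map_nsmul]
  exact hkz

end Fermat.Agent.MAZ.Desc.PrimaryPart19
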