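/-
MAZ (S15), G-side (descent), brick CONE-PPART (helper95): **the `P`-primary part of the `H¹` of the
Selmer cone is controlled by the `H¹` of the cone of the `P`-primary part**.
Mathlib + `SelmerCone95` + `KummerCone95` (module structure on `H1S`) + `Devissage95` (actions on
stable submodules) + `PrimaryPart19`.

`T` a commutative ring acting on the finite `G`-module `M` by morphisms of the cone datum `𝕄`,
`P` an ideal of `T`, `M_P := primaryPart P M` with the induced cone datum `𝕄.primary P`.  Then, for the
`T`-module structure `moduleH1S` on `H1S 𝕄`,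

  `#primaryPart P (H1S 𝕄) ≤ #H1S (𝕄.primary P)`      (`card_primaryPart_H1S_le`),

because a `P`-projector `e` of `M` (`PrimaryPart19.exists_isProj`) is also a `P`-projector of
`H1S 𝕄`, and `e` factors through `M_P`.
-/
import Mathlib
import Fermat.Agent.MAZ.Desc.KummerCone95
import Fermat.Agent.MAZ.Desc.Devissage95
import Fermat.Agent.MAZ.Desc.PrimaryPart19

set_option autoImplicit false
set_option linter.style.haveILetI false

namespace Fermat.Agent.MAZ.Desc.ConePrimary95

open Fermat.Agent.MAZ.Desc.SelmerCone95 Fermat.Agent.MAZ.Desc.KummerCone95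
  Fermat.Agent.MAZ.Desc.Devissage95 Fermat.Agent.MAZ.Desc.PrimaryPart19

variable {G : Type*} [Group G] {D I : Subgroup G} {T : Type*} [CommRing T]
variable {M : Type*} [AddCommGroup M] [DistribMulAction G M] [Module T M] [SMulCommClass G T M]

/-- the primary part is `G`-stable. -/
theorem smul_mem_primaryPart (P : Ideal T) (g : G) {x : M} (hx : x ∈ primaryPart P M) :
    g • x ∈ primaryPart P M := by
  obtain ⟨j, hj⟩ := hx
  exact ⟨j, fun t ht => by rw [← smul_comm, hj t ht, smul_zero]⟩

/-- the inclusion of the primary part. -/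
def inclP (P : Ideal T) : primaryPart P M →+ M := (primaryPart P M).subtype.toAddMonoidHom

theorem inclP_injective (P : Ideal T) : Function.Injective (inclP (M := M) P) :=
  (primaryPart P M).injective_subtype

/-- the `G`-action on the `P`-primary part. -/
@[instance_reducible]
def primaryDMA (G : Type*) [Group G] {T : Type*} [CommRing T] {M : Type*} [AddCommGroup M]
    [DistribMulAction G M] [Module T M] [SMulCommClass G T M] (P : Ideal T) :
    DistribMulAction G (primaryPart P M) :=
  subDMA (primaryPart P M) (fun (g : G) _ hw => smul_mem_primaryPart P g hw)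

attribute [local instance] primaryDMA

/-- the cone datum induced on the `P`-primary part. -/
def primaryCone (𝕄 : ConeData D I M) (P : Ideal T) : ConeData D I (primaryPart P M) :=
  𝕄.comap (inclP P) (fun _ _ => rfl) (inclP_injective P)

variable (𝕄 : ConeData D I M)
  (hact : ∀ t : T, ConeHom 𝕄 𝕄 (DistribSMul.toAddMonoidHom M t))

omit [SMulCommClass G T M] in
include hact in
/-- an element of `T` killing `M` kills `H1S`. -/
theorem smul_H1S_eq_zero_of_forall (t : T) (ht : ∀ m : M, t • m = 0) (x : H1S 𝕄) :
    letI := moduleH1S 𝕄 hact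
    t • x = 0 := by
  letI := moduleH1S 𝕄 hact
  have e : DistribSMul.toAddMonoidHom M t = 0 := AddMonoidHom.ext fun m => ht m
  rw [smul_def 𝕄 hact]
  exact (ConeHom.mapH1S_congr (hact t) (e ▸ hact t) e x).trans (mapH1S_zero 𝕄 _ x)

omit [SMulCommClass G T M] in
include hact in
/-- a projector of `M` is a projector of `H1S`. -/
theorem isProj_H1S (P : Ideal T) {e : T} (he : IsProj P e M) :
    letI := moduleH1S 𝕄 hact
    IsProj P e (H1S 𝕄) := by
  letI := moduleH1S 𝕄 hact
  obtain ⟨j, hj, hej, hk⟩ := he
  refine ⟨j, hj, hej, fun q hq x => ?_⟩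
  rw [← mul_smul]
  exact smul_H1S_eq_zero_of_forall 𝕄 hact (e * q) (fun m => by rw [mul_smul]; exact hk q hq m) x

/-- **`#primaryPart P (H1S 𝕄) ≤ #H1S (primaryCone 𝕄 P)`.** -/
theorem card_primaryPart_H1S_le [Finite M] (P : Ideal T) [Finite (H1S (primaryCone 𝕄 P))] :
    letI := moduleH1S 𝕄 hact
    Nat.card (primaryPart P (H1S 𝕄)) ≤ Nat.card (H1S (primaryCone 𝕄 P)) := by
  letI := moduleH1S 𝕄 hact
  obtain ⟨e, he⟩ := exists_isProj P M
  have heH := isProj_H1S 𝕄 hact P he
  -- the morphisms
  have hincl : ConeHom (primaryCone 𝕄 P) 𝕄 (inclP P) :=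
    𝕄.comap_coneHom (inclP P) (fun _ _ => rfl) (inclP_injective P)
  -- `e` as a map `M → M_P`
  let eP : M →+ primaryPart P M :=
    (DistribSMul.toAddMonoidHom M e).codRestrict (primaryPart P M).toAddSubgroup
      (fun m => he.smul_mem m)
  have heP : ConeHom 𝕄 (primaryCone 𝕄 P) eP := by
    refine ⟨fun σ x => Subtype.ext ?_, fun x hx => ?_, fun c hc => ?_⟩
    · change e • (σ • x) = σ • (e • x)
      rw [← smul_comm]
    · exact (hact e).mapMf x hx
    · exact (hact e).mapZ c hc
  have hcomp : (inclP P).comp eP = DistribSMul.toAddMonoidHom M e := AddMonoidHom.ext fun _ => rfl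
  -- every element of the primary part is in the range of `incl_*`
  have hrange : ∀ x : primaryPart P (H1S 𝕄), ∃ y : H1S (primaryCone 𝕄 P),
      hincl.mapH1S y = (x : H1S 𝕄) := by
    intro x
    refine ⟨heP.mapH1S (x : H1S 𝕄), ?_⟩
    rw [← ConeHom.mapH1S_comp hincl heP,
      ConeHom.mapH1S_congr (hincl.comp heP) (hact e) hcomp, ← smul_def 𝕄 hact]
    exact heH.smul_eq x.2
  choose y hy using hrange
  refine Nat.card_le_card_of_injective y (fun a b hab => Subtype.ext ?_)
  rw [← hy a, ← hy b, hab]

/-- `H0S` of the primary cone sits inside the `P`-primary `G`-invariants of the finite part. -/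
theorem card_H0S_primaryCone_le (P : Ideal T) (S : AddSubgroup M) [Finite S]
    (hS : ∀ m ∈ H0S 𝕄, m ∈ primaryPart P M → m ∈ S) :
    letI := primaryDMA G (M := M) P
    Nat.card (H0S (primaryCone 𝕄 P)) ≤ Nat.card S := by
  letI := primaryDMA G (M := M) P
  refine Nat.card_le_card_of_injective
    (fun x : H0S (primaryCone 𝕄 P) => (⟨((x : primaryPart P M) : M), hS _ ⟨x.2.1, fun σ => ?_⟩
      (x : primaryPart P M).2⟩ : S)) (fun a b hab => ?_)
  · exact congrArg Subtype.val (x.2.2 σ)
  · have h1 : (((a : primaryPart P M) : M)) = ((b : primaryPart P M) : M) :=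
      congrArg (fun z : S => (z : M)) hab
    exact Subtype.ext (Subtype.ext h1)

/-! ### The Eichler–Shimura data on the primary part -/

section Eis

open Fermat.Agent.MAZ.Desc.EisFiltration19

variable {r : ℕ} [Fact r.Prime] {π : T →+* ZMod r} {χ : G →* ZMod r} {τ δ : G → T}

theorem primary_smulCommClass (P : Ideal T) :
    letI := primaryDMA G (M := M) P
    SMulCommClass G T (primaryPart P M) := by
  letI := primaryDMA G (M := M) P
  exact ⟨fun g t x => Subtype.ext (smul_comm g t (x : M))⟩

/-- **`EisData` on the `ker π`-primary part of a finite module** from the Eichler–Shimura relation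
on the module. -/
theorem eisData_primaryPart [Finite M] (htau : ∀ g, π (τ g) = 1 + χ g) (hdelta : ∀ g, π (δ g) = χ g)
    (hrel : ∀ (g : G) (x : M), g • g • x - τ g • g • x + δ g • x = 0) :
    letI := primaryDMA G (M := M) (RingHom.ker π)
    EisData π χ τ δ (primaryPart (RingHom.ker π) M) := by
  letI := primaryDMA G (M := M) (RingHom.ker π)
  refine ⟨?_, htau, hdelta, fun g x => Subtype.ext (hrel g x)⟩
  -- a uniform exponent on the finite module
  have hfin : Finite (primaryPart (RingHom.ker π) M) := inferInstance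
  choose j hj using fun x : primaryPart (RingHom.ker π) M => x.2
  obtain ⟨m, hm⟩ : ∃ m, ∀ x, j x ≤ m := by
    cases nonempty_fintype (primaryPart (RingHom.ker π) M)
    exact ⟨Finset.univ.sup j, fun x => Finset.le_sup (Finset.mem_univ x)⟩
  refine ⟨m, fun t ht x => Subtype.ext ?_⟩
  exact hj x t (Ideal.pow_le_pow_right (hm x) ht)

end Eis

end Fermat.Agent.MAZ.Desc.ConePrimary95
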