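/-
MAZ (S15), G-side (descent), brick DESCENT-ASM, abstract half (helper95): **the `T`-linear Kummer
map into the `H¹` of the Selmer cone, and the bound of the `P`-primary part of that `H¹` by the
devissage**.  Mathlib + `SelmerCone95` + `KummerCone95` + `Devissage95` + `ConePrimary95`
(+ `PrimaryPart19`, `EisFiltration19` through them); abstract group `G` with subgroups `D`, `I`.

* `ok_primaryPart`, `primaryCone_Z_eq` : the `P`-primary part of an `Ok` module of an admissible
  family is `Ok`, and the induced cone datum has the admissible cocycles of the family;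
* `coneHom_smul` : the elements of `T` act by morphisms of a cone datum of the family;
* `exists_injective_primaryPart_H1S`, `card_primaryPart_H1S_le_card_H0S` : under the hypotheses of
  the devissage on the `ker π`-primary part (Eichler–Shimura relation, rank-one bound, `α`- and
  `δ`-half),  `primaryPart (ker π) (H1S 𝕄)` is finite of order at most `#H0S (𝕄_P)`;
* `Lin K A` : the compatibility of a Kummer datum `K` with the `T`-action, `A` a `T`-submodule of
  `J` with `K.B = A`;  `kummerLin : A →ₗ[T] H1S K.cone` (for the module structure `moduleH1S`),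
  `kummerLin_eq_zero` (kernel inside `n K.A`), `nsmul_kummerLin`;
* `card_H0S_primaryCone_le_of_kummer` : `#H0S (𝕄_P) ≤ #Tt` for any finite group `Tt` of points
  containing the `n`-torsion of `K.A` (the rational torsion);
* **`descent_asm`** : all of the above in the literal shape of the inner hypotheses of
  `KerAdapter80.kerAdapter` (with `S := Set.univ`, `H := H1S K.cone`).
-/
import Mathlib
import Fermat.Agent.MAZ.Desc.ConePrimary95

set_option autoImplicit false
set_option linter.style.haveILetI false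

namespace Fermat.Agent.MAZ.Desc.DescentAsm95

open Fermat.Agent.MAZ.Desc.SelmerCone95 Fermat.Agent.MAZ.Desc.KummerCone95
  Fermat.Agent.MAZ.Desc.Devissage95 Fermat.Agent.MAZ.Desc.PrimaryPart19
  Fermat.Agent.MAZ.Desc.ConePrimary95 Fermat.Agent.MAZ.Desc.EisFiltration19

universe u

attribute [local instance] primaryDMA

/-! ### The primary part inside an admissible family -/

section Family

variable {G : Type*} [Group G] {D I : Subgroup G} {T : Type*} [CommRing T]
variable {M : Type u} [AddCommGroup M] [DistribMulAction G M] [Module T M] [SMulCommClass G T M]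

/-- the primary part of an `Ok` module is `Ok`. -/
theorem ok_primaryPart (F : AdmFamily.{u} G) (hOk : F.Ok M) (P : Ideal T) :
    F.Ok (primaryPart P M) :=
  F.ok_sub (inclP P) (fun _ _ => rfl) (inclP_injective P) hOk

/-- the cone datum induced on the primary part has the admissible cocycles of the family. -/
theorem primaryCone_Z_eq (F : AdmFamily.{u} G) (hOk : F.Ok M) (𝕄 : ConeData D I M)
    (h𝕄 : 𝕄.Z = F.Z M) (P : Ideal T) : (primaryCone 𝕄 P).Z = F.Z (primaryPart P M) := by
  ext c
  constructor
  · intro hc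
    have hc' : (fun σ => inclP P (c σ)) ∈ 𝕄.Z := hc
    rw [h𝕄] at hc'
    exact F.comap (inclP P) (fun _ _ => rfl) (inclP_injective P) (ok_primaryPart F hOk P) hOk c hc'
  · intro hc
    have : (fun σ => inclP P (c σ)) ∈ F.Z M :=
      F.map (inclP P) (fun _ _ => rfl) (ok_primaryPart F hOk P) hOk c hc
    rw [← h𝕄] at this
    exact this

/-- the elements of `T` act by morphisms of a cone datum of the family (if they preserve the
finite part). -/
theorem coneHom_smul (F : AdmFamily.{u} G) (hOk : F.Ok M) (𝕄 : ConeData D I M)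
    (h𝕄 : 𝕄.Z = F.Z M) (hMf : ∀ (t : T), ∀ x ∈ 𝕄.Mf, t • x ∈ 𝕄.Mf) (t : T) :
    ConeHom 𝕄 𝕄 (DistribSMul.toAddMonoidHom M t) := by
  have heq : ∀ (σ : G) (x : M), DistribSMul.toAddMonoidHom M t (σ • x) =
      σ • DistribSMul.toAddMonoidHom M t x := fun σ x => (smul_comm σ t x).symm
  refine ⟨heq, fun x hx => hMf t x hx, fun c hc => ?_⟩
  rw [h𝕄] at hc ⊢
  exact F.map (DistribSMul.toAddMonoidHom M t) heq hOk hOk c hc

variable (𝕄 : ConeData D I M)
  (hact : ∀ t : T, ConeHom 𝕄 𝕄 (DistribSMul.toAddMonoidHom M t))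

/-- the `P`-primary part of `H1S 𝕄` embeds into `H1S` of the cone of the `P`-primary part. -/
theorem exists_injective_primaryPart_H1S [Finite M] (P : Ideal T) :
    letI := moduleH1S 𝕄 hact
    ∃ y : primaryPart P (H1S 𝕄) → H1S (primaryCone 𝕄 P), Function.Injective y := by
  letI := moduleH1S 𝕄 hact
  obtain ⟨e, he⟩ := exists_isProj P M
  have heH := isProj_H1S 𝕄 hact P he
  have hincl : ConeHom (primaryCone 𝕄 P) 𝕄 (inclP P) :=
    𝕄.comap_coneHom (inclP P) (fun _ _ => rfl) (inclP_injective P)
  let eP : M →+ primaryPart P M :=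
    (DistribSMul.toAddMonoidHom M e).codRestrict (primaryPart P M).toAddSubgroup
      (fun m => he.smul_mem m)
  have heP : ConeHom 𝕄 (primaryCone 𝕄 P) eP := by
    refine ⟨fun σ x => Subtype.ext ?_, fun x hx => ?_, fun c hc => ?_⟩
    · change e • (σ • x) = σ • (e • x)
      rw [← smul_comm]
    · exact (hact e).mapMf x hx
    · exact (hact e).mapZ c hc
  have hcomp : (inclP P).comp eP = DistribSMul.toAddMonoidHom M e := AddMonoidHom.ext fun _ => rfl
  have hrange : ∀ x : primaryPart P (H1S 𝕄), ∃ y : H1S (primaryCone 𝕄 P),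
      hincl.mapH1S y = (x : H1S 𝕄) := by
    intro x
    refine ⟨heP.mapH1S (x : H1S 𝕄), ?_⟩
    rw [← ConeHom.mapH1S_comp hincl heP,
      ConeHom.mapH1S_congr (hincl.comp heP) (hact e) hcomp, ← smul_def 𝕄 hact]
    exact heH.smul_eq x.2
  choose y hy using hrange
  refine ⟨y, fun a b hab => Subtype.ext ?_⟩
  rw [← hy a, ← hy b, hab]

variable {r : ℕ} [Fact r.Prime] {π : T →+* ZMod r} {χ : G →* ZMod r} {τ δ : G → T}

/-- **The devissage on the `ker π`-primary part bounds the `ker π`-primary part of `H1S`.**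
`hhalf` is the conjunction of `α`-half and `δ`-half for the primary part. -/
theorem card_primaryPart_H1S_le_card_H0S (F : AdmFamily.{u} G) (φ₀ : G)
    (hR : RankOneBound F D I r χ φ₀) [Finite M] (hOk : F.Ok M)
    (htau : ∀ g, π (τ g) = 1 + χ g) (hdelta : ∀ g, π (δ g) = χ g)
    (hrel : ∀ (g : G) (x : M), g • g • x - τ g • g • x + δ g • x = 0)
    (h𝕄 : 𝕄.Z = F.Z M)
    (hhalf : Nat.card (primaryPart (RingHom.ker π) M) ≤
      Nat.card (gen1 (phiSub φ₀ (primaryPart (RingHom.ker π) M))) *
        Nat.card (primaryCone 𝕄 (RingHom.ker π)).Mf) :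
    letI := moduleH1S 𝕄 hact
    Finite (primaryPart (RingHom.ker π) (H1S 𝕄)) ∧
      Nat.card (primaryPart (RingHom.ker π) (H1S 𝕄)) ≤
        Nat.card (H0S (primaryCone 𝕄 (RingHom.ker π))) := by
  letI := moduleH1S 𝕄 hact
  haveI := primary_smulCommClass (G := G) (M := M) (RingHom.ker π)
  have E : EisData π χ τ δ (primaryPart (RingHom.ker π) M) :=
    eisData_primaryPart htau hdelta hrel
  obtain ⟨hfin, hle⟩ := card_H1S_le_card_H0S F φ₀ hR (primaryPart (RingHom.ker π) M)
    (ok_primaryPart F hOk _) E (primaryCone 𝕄 (RingHom.ker π))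
    (primaryCone_Z_eq F hOk 𝕄 h𝕄 _) hhalf
  haveI := hfin
  obtain ⟨y, hy⟩ := exists_injective_primaryPart_H1S 𝕄 hact (RingHom.ker π)
  exact ⟨Finite.of_injective y hy, (Nat.card_le_card_of_injective y hy).trans hle⟩

end Family

/-- the arithmetic of the two halves: `m ≤ a²` and `m ≤ b²` give `m ≤ a b`. -/
theorem le_mul_of_le_sq {m a b : ℕ} (ha : m ≤ a * a) (hb : m ≤ b * b) : m ≤ a * b := by
  by_contra h
  rw [not_le] at h
  have h1 : (a * b) * (a * b) < m * m := Nat.mul_lt_mul'' h h
  have h2 : m * m ≤ (a * a) * (b * b) := Nat.mul_le_mul ha hb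
  have h3 : (a * b) * (a * b) = (a * a) * (b * b) := by ring
  omega

/-! ### The `T`-linear Kummer map -/

section Kummer

variable {G : Type*} [Group G] {D I : Subgroup G} {T : Type*} [CommRing T]
variable {J : Type*} [AddCommGroup J] [DistribMulAction G J] [Module T J]
variable {M : Type*} [AddCommGroup M] [DistribMulAction G M] [Module T M]
variable {n : ℕ}

/-- the compatibility of a Kummer datum with the action of `T`: the domain `B` is the `T`-submodule
`A`, the `T`-action commutes with `G` on `J`, preserves `J0`, and `ι` is `T`-linear. -/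
structure Lin (K : KummerData D I J M n) (A : Submodule T J) : Prop where
  B_eq : K.B = A.toAddSubgroup
  gal : ∀ (t : T) (σ : G) (x : J), t • σ • x = σ • t • x
  J0_smul : ∀ (t : T), ∀ x ∈ K.J0, t • x ∈ K.J0
  ι_smul : ∀ (t : T) (m : M), K.ι (t • m) = t • K.ι m

variable {K : KummerData D I J M n} {A : Submodule T J}

/-- `M` is killed by `n`. -/
theorem nsmul_eq_zero (K : KummerData D I J M n) (m : M) : n • m = 0 := by
  apply K.ι_inj
  rw [map_nsmul, K.nsmul_ι, map_zero]

/-- the `T`-action on `M` commutes with `G`. -/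
theorem Lin.smulCommClass (hL : Lin K A) : SMulCommClass G T M :=
  ⟨fun σ t m => K.ι_inj (by rw [K.ι_equiv, hL.ι_smul, hL.ι_smul, K.ι_equiv, hL.gal])⟩

/-- the `T`-action on `M` preserves the finite part. -/
theorem Lin.smul_mem_Mf (hL : Lin K A) (t : T) (x : M) (hx : x ∈ K.cone.Mf) :
    t • x ∈ K.cone.Mf := by
  rw [K.mem_Mf] at hx ⊢
  rw [hL.ι_smul]
  exact hL.J0_smul t _ hx

/-- the elements of `A` as elements of the domain of the Kummer map. -/
def toB (hL : Lin K A) : A →+ K.B where
  toFun a := ⟨(a : J), by rw [hL.B_eq]; exact a.2⟩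
  map_zero' := rfl
  map_add' _ _ := rfl

theorem coe_toB (hL : Lin K A) (a : A) : ((toB hL a : K.B) : J) = (a : J) := rfl

/-- an element of `H1S` is killed by every integer killing `M`. -/
theorem nsmul_H1S_eq_zero (𝕄 : ConeData D I M) (k : ℕ) (hk : ∀ m : M, k • m = 0) (x : H1S 𝕄) :
    k • x = 0 := by
  obtain ⟨t, rfl⟩ := H1S.mk_surjective 𝕄 x
  rw [← map_nsmul]
  have : k • t = 0 := by
    apply Subtype.ext
    rw [AddSubgroup.coe_nsmul]
    refine Prod.ext ?_ (Prod.ext ?_ ?_)
    · funext σ
      exact hk _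
    · exact hk _
    · funext σ
      exact hk _
  rw [this, map_zero]

variable (hL : Lin K A) (hK : K.Hyp)
  (hact : ∀ t : T, ConeHom K.cone K.cone (DistribSMul.toAddMonoidHom M t))

/-- **The Kummer map is `T`-linear** (for the module structure `moduleH1S` on `H1S`). -/
noncomputable def kummerLin :
    @LinearMap T T _ _ (RingHom.id T) A (H1S K.cone) _ _ _ (moduleH1S K.cone hact) :=
  letI := moduleH1S K.cone hact
  { toFun := fun a => K.kummer hK (toB hL a)
    map_add' := fun a b => by rw [map_add, map_add]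
    map_smul' := fun t a => by
      have htB : ∀ y ∈ K.B, (DistribSMul.toAddMonoidHom J t) y ∈ K.B := by
        intro y hy
        rw [hL.B_eq] at hy ⊢
        exact A.smul_mem t hy
      have e : toB hL (t • a) = K.mapB (DistribSMul.toAddMonoidHom J t) htB (toB hL a) :=
        Subtype.ext rfl
      rw [e, K.kummer_mapB hK (DistribSMul.toAddMonoidHom J t) (fun σ x => hL.gal t σ x)
        (hL.J0_smul t) htB (DistribSMul.toAddMonoidHom M t) (hL.ι_smul t) (hact t)]
      rfl }

theorem kummerLin_apply (a : A) : kummerLin hL hK hact a = K.kummer hK (toB hL a) := rfl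

/-- the kernel of the Kummer map lies in `n K.A`. -/
theorem kummerLin_eq_zero (a : A) (ha : kummerLin hL hK hact a = 0) :
    ∃ w ∈ K.A, n • w = (a : J) :=
  (K.kummer_eq_zero_iff hK (toB hL a)).1 ha

/-- conversely, `A ∩ n K.A` is in the kernel. -/
theorem kummerLin_eq_zero_of (a : A) (w : J) (hw : w ∈ K.A) (hwa : n • w = (a : J)) :
    kummerLin hL hK hact a = 0 :=
  (K.kummer_eq_zero_iff hK (toB hL a)).2 ⟨w, hw, hwa⟩

/-- the image of the Kummer map is killed by `n`. -/
theorem nsmul_kummerLin (a : A) : n • kummerLin hL hK hact a = 0 :=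
  nsmul_H1S_eq_zero K.cone n (nsmul_eq_zero K) _

omit [Module T J] hK hact in
/-- `H0S` of the cone of the `P`-primary part sits inside the `n`-torsion of `K.A`. -/
theorem card_H0S_primaryCone_le_of_kummer [SMulCommClass G T M] (K : KummerData D I J M n)
    (P : Ideal T) (Tt : AddSubgroup J) [Finite Tt]
    (hTt : ∀ x ∈ K.A, n • x = 0 → x ∈ Tt) :
    Nat.card (H0S (primaryCone K.cone P)) ≤ Nat.card Tt := by
  refine Nat.card_le_card_of_injective
    (fun x : H0S (primaryCone K.cone P) =>
      (⟨K.ι ((x : primaryPart P M) : M), hTt _ ⟨(K.mem_Mf _).1 x.2.1, fun σ => ?_⟩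
        (K.nsmul_ι _)⟩ : Tt)) (fun a b hab => ?_)
  · rw [← K.ι_equiv]
    exact congrArg (fun z : primaryPart P M => K.ι (z : M)) (x.2.2 σ)
  · have h1 : K.ι ((a : primaryPart P M) : M) = K.ι ((b : primaryPart P M) : M) :=
      congrArg (fun z : Tt => (z : J)) hab
    exact Subtype.ext (Subtype.ext (K.ι_inj h1))

end Kummer

/-! ### The assembly -/

section Assembly

variable {G : Type*} [Group G] {D I : Subgroup G} {T : Type*} [CommRing T]
variable {J : Type*} [AddCommGroup J] [DistribMulAction G J] [Module T J]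
variable {M : Type u} [AddCommGroup M] [DistribMulAction G M] [Module T M]
variable {n : ℕ} {r : ℕ} [Fact r.Prime] {π : T →+* ZMod r} {χ : G →* ZMod r} {τ δ : G → T}

/-- **DESCENT-ASM, abstract form.**  For a Kummer datum `K` on `M ≅ J[n]` compatible with the
`T`-action (`Lin K A`), whose cone datum has the admissible cocycles of the family `F`
(`K.cone.Z = F.Z M`, `F.Ok M`), with the Eichler–Shimura relation on `M`, the rank-one bound, the
two halves on the `ker π`-primary part, and a finite group `Tt` containing the `n`-torsion of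
`K.A` : a `T`-module structure on `H := H1S K.cone` and a `T`-linear `f : A → H`, killed by `n`,
with kernel inside `n K.A`, such that the `ker π`-primary part of `H` is finite of order at most
`#Tt`.  This is the literal list of inner hypotheses of `KerAdapter80.kerAdapter` (with
`S := Set.univ`). -/
theorem descent_asm (F : AdmFamily.{u} G) (φ₀ : G) (hR : RankOneBound F D I r χ φ₀) [Finite M]
    (K : KummerData D I J M n) (A : Submodule T J) (hL : Lin K A) (hK : K.Hyp)
    (hOk : F.Ok M) (hZ : K.cone.Z = F.Z M)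
    (htau : ∀ g, π (τ g) = 1 + χ g) (hdelta : ∀ g, π (δ g) = χ g)
    (hrel : ∀ (g : G) (x : M), g • g • x - τ g • g • x + δ g • x = 0)
    (hhalf : haveI := hL.smulCommClass
      Nat.card (primaryPart (RingHom.ker π) M) ≤
        Nat.card (gen1 (phiSub φ₀ (primaryPart (RingHom.ker π) M))) *
          Nat.card (primaryCone K.cone (RingHom.ker π)).Mf)
    (Tt : AddSubgroup J) [Finite Tt] (hTt : ∀ x ∈ K.A, n • x = 0 → x ∈ Tt) :
    ∃ (_ : Module T (H1S K.cone)) (f : A →ₗ[T] H1S K.cone),
      (∀ a : A, n • f a = 0) ∧ (∀ a : A, f a = 0 → ∃ w ∈ K.A, n • w = (a : J)) ∧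
      (Set.univ ∩ {x : H1S K.cone | ∃ j : ℕ, ∀ t ∈ RingHom.ker π ^ j, t • x = 0}).Finite ∧
      (Set.univ ∩ {x : H1S K.cone | ∃ j : ℕ, ∀ t ∈ RingHom.ker π ^ j, t • x = 0}).ncard ≤
        Nat.card Tt := by
  haveI := hL.smulCommClass
  have hact : ∀ t : T, ConeHom K.cone K.cone (DistribSMul.toAddMonoidHom M t) :=
    coneHom_smul F hOk K.cone hZ hL.smul_mem_Mf
  letI := moduleH1S K.cone hact
  obtain ⟨hfin, hle⟩ := card_primaryPart_H1S_le_card_H0S K.cone hact F φ₀ hR hOk htau hdelta hrel hZ
    hhalf
  have hH0 := card_H0S_primaryCone_le_of_kummer K (RingHom.ker π) Tt hTt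
  have hset : (Set.univ ∩ {x : H1S K.cone | ∃ j : ℕ, ∀ t ∈ RingHom.ker π ^ j, t • x = 0}) =
      ((primaryPart (RingHom.ker π) (H1S K.cone) : Submodule T (H1S K.cone)) :
        Set (H1S K.cone)) := by
    rw [Set.univ_inter]
    rfl
  refine ⟨moduleH1S K.cone hact, kummerLin hL hK hact, nsmul_kummerLin hL hK hact,
    kummerLin_eq_zero hL hK hact, ?_, ?_⟩
  · rw [hset]
    exact Set.toFinite _
  · rw [hset]
    have e : ((primaryPart (RingHom.ker π) (H1S K.cone) : Submodule T (H1S K.cone)) :
        Set (H1S K.cone)).ncard = Nat.card (primaryPart (RingHom.ker π) (H1S K.cone)) :=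
      (Nat.card_coe_set_eq _).symm
    rw [e]
    exact hle.trans hH0

end Assembly

end Fermat.Agent.MAZ.Desc.DescentAsm95
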