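/-
MAZ (S15), G-side (descent), brick DESCENT-ASM WITH MARKS, abstract half (helper95): the marked
version of `DescentAsm95` (`r`-agnostic; needed for `r = 2`).  Mathlib + `DescentAsm95` +
`DevissageMarked95`.

* `ok_primaryPartM`, `primaryCone_Z_eqM` : the `P`-primary part of an `Ok` marked module, with the
  induced mark `M₀ ∩ M_P`, is `Ok`, and the induced cone datum has the admissible cocycles of the
  family;
* `coneHom_smulM` : the elements of `T` act by morphisms of a cone datum of the family (if they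
  preserve the finite part and the mark);
* `card_primaryPart_H1S_le_card_H0S_marked` : under the hypotheses of the marked devissage on the
  `ker π`-primary part, `primaryPart (ker π) (H1S 𝕄)` is finite of order at most `#H0S (𝕄_P)`;
* **`descent_asm_marked`** : the literal list of inner hypotheses of `KerAdapter80.kerAdapter`.
-/
import Mathlib
import Fermat.Agent.MAZ.Desc.DescentAsm95
import Fermat.Agent.MAZ.Desc.DevissageMarked95

set_option autoImplicit false
set_option linter.style.haveILetI false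

namespace Fermat.Agent.MAZ.Desc.DescentAsmMarked95

open Fermat.Agent.MAZ.Desc.SelmerCone95 Fermat.Agent.MAZ.Desc.KummerCone95
  Fermat.Agent.MAZ.Desc.Devissage95 Fermat.Agent.MAZ.Desc.PrimaryPart19
  Fermat.Agent.MAZ.Desc.ConePrimary95 Fermat.Agent.MAZ.Desc.EisFiltration19
  Fermat.Agent.MAZ.Desc.DescentAsm95 Fermat.Agent.MAZ.Desc.DevissageMarked95

universe u

attribute [local instance] primaryDMA

/-! ### The primary part inside a marked family -/

section Family

variable {G : Type*} [Group G] {D I : Subgroup G} {T : Type*} [CommRing T]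
variable {M : Type u} [AddCommGroup M] [DistribMulAction G M] [Module T M] [SMulCommClass G T M]

/-- the mark induced on the primary part. -/
def primaryMark (P : Ideal T) (M₀ : AddSubgroup M) : AddSubgroup (primaryPart P M) :=
  M₀.comap (inclP P)

theorem mem_primaryMark (P : Ideal T) (M₀ : AddSubgroup M) (x : primaryPart P M) :
    x ∈ primaryMark P M₀ ↔ inclP P x ∈ M₀ := Iff.rfl

/-- the primary part of an `Ok` marked module is `Ok`. -/
theorem ok_primaryPartM (F : MarkedFamily.{u} G) (M₀ : AddSubgroup M) (hOk : F.Ok M M₀)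
    (P : Ideal T) : F.Ok (primaryPart P M) (primaryMark P M₀) :=
  F.ok_sub (primaryMark P M₀) M₀ (inclP P) (fun _ _ => rfl) (inclP_injective P)
    (mem_primaryMark P M₀) hOk

/-- the cone datum induced on the primary part has the admissible cocycles of the family. -/
theorem primaryCone_Z_eqM (F : MarkedFamily.{u} G) (M₀ : AddSubgroup M) (hOk : F.Ok M M₀)
    (𝕄 : ConeData D I M) (h𝕄 : 𝕄.Z = F.Z M M₀) (P : Ideal T) :
    (primaryCone 𝕄 P).Z = F.Z (primaryPart P M) (primaryMark P M₀) := by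
  ext c
  constructor
  · intro hc
    have hc' : (fun σ => inclP P (c σ)) ∈ 𝕄.Z := hc
    rw [h𝕄] at hc'
    exact F.comap (primaryMark P M₀) M₀ (inclP P) (fun _ _ => rfl) (inclP_injective P)
      (mem_primaryMark P M₀) (ok_primaryPartM F M₀ hOk P) hOk c hc'
  · intro hc
    have : (fun σ => inclP P (c σ)) ∈ F.Z M M₀ :=
      F.map (primaryMark P M₀) M₀ (inclP P) (fun _ _ => rfl)
        (fun x hx => (mem_primaryMark P M₀ x).1 hx) (ok_primaryPartM F M₀ hOk P) hOk c hc
    rw [← h𝕄] at this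
    exact this

/-- the elements of `T` act by morphisms of a cone datum of the family (if they preserve the
finite part and the mark). -/
theorem coneHom_smulM (F : MarkedFamily.{u} G) (M₀ : AddSubgroup M) (hOk : F.Ok M M₀)
    (𝕄 : ConeData D I M) (h𝕄 : 𝕄.Z = F.Z M M₀) (hMf : ∀ (t : T), ∀ x ∈ 𝕄.Mf, t • x ∈ 𝕄.Mf)
    (hM₀ : ∀ (t : T), ∀ x ∈ M₀, t • x ∈ M₀) (t : T) :
    ConeHom 𝕄 𝕄 (DistribSMul.toAddMonoidHom M t) := by
  have heq : ∀ (σ : G) (x : M), DistribSMul.toAddMonoidHom M t (σ • x) =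
      σ • DistribSMul.toAddMonoidHom M t x := fun σ x => (smul_comm σ t x).symm
  refine ⟨heq, fun x hx => hMf t x hx, fun c hc => ?_⟩
  rw [h𝕄] at hc ⊢
  exact F.map M₀ M₀ (DistribSMul.toAddMonoidHom M t) heq (fun x hx => hM₀ t x hx) hOk hOk c hc

variable (𝕄 : ConeData D I M)
  (hact : ∀ t : T, ConeHom 𝕄 𝕄 (DistribSMul.toAddMonoidHom M t))

variable {r : ℕ} [Fact r.Prime] {π : T →+* ZMod r} {χ : G →* ZMod r} {τ δ : G → T}

/-- **The marked devissage on the `ker π`-primary part bounds the `ker π`-primary part of `H1S`.**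
`hhalf` : the mark of the primary part is at most as large as its finite part. -/
theorem card_primaryPart_H1S_le_card_H0S_marked (F : MarkedFamily.{u} G)
    (hR : RankOneBoundM F D I r χ) [Finite M] (M₀ : AddSubgroup M) (hOk : F.Ok M M₀)
    (htau : ∀ g, π (τ g) = 1 + χ g) (hdelta : ∀ g, π (δ g) = χ g)
    (hrel : ∀ (g : G) (x : M), g • g • x - τ g • g • x + δ g • x = 0)
    (h𝕄 : 𝕄.Z = F.Z M M₀)
    (hhalf : Nat.card (primaryMark (RingHom.ker π) M₀) ≤
      Nat.card (primaryCone 𝕄 (RingHom.ker π)).Mf) :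
    letI := moduleH1S 𝕄 hact
    Finite (primaryPart (RingHom.ker π) (H1S 𝕄)) ∧
      Nat.card (primaryPart (RingHom.ker π) (H1S 𝕄)) ≤
        Nat.card (H0S (primaryCone 𝕄 (RingHom.ker π))) := by
  letI := moduleH1S 𝕄 hact
  haveI := primary_smulCommClass (G := G) (M := M) (RingHom.ker π)
  have E : EisData π χ τ δ (primaryPart (RingHom.ker π) M) :=
    eisData_primaryPart htau hdelta hrel
  obtain ⟨hfin, hle⟩ := card_H1S_le_card_H0S_marked F hR (primaryPart (RingHom.ker π) M)
    (primaryMark (RingHom.ker π) M₀) (ok_primaryPartM F M₀ hOk _) E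
    (primaryCone 𝕄 (RingHom.ker π)) (primaryCone_Z_eqM F M₀ hOk 𝕄 h𝕄 _) hhalf
  haveI := hfin
  obtain ⟨y, hy⟩ := exists_injective_primaryPart_H1S 𝕄 hact (RingHom.ker π)
  exact ⟨Finite.of_injective y hy, (Nat.card_le_card_of_injective y hy).trans hle⟩

end Family

/-! ### The assembly -/

section Assembly

variable {G : Type*} [Group G] {D I : Subgroup G} {T : Type*} [CommRing T]
variable {J : Type*} [AddCommGroup J] [DistribMulAction G J] [Module T J]
variable {M : Type u} [AddCommGroup M] [DistribMulAction G M] [Module T M]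
variable {n : ℕ} {r : ℕ} [Fact r.Prime] {π : T →+* ZMod r} {χ : G →* ZMod r} {τ δ : G → T}

/-- **DESCENT-ASM with marks, abstract form.**  As `DescentAsm95.descent_asm`, for a marked family:
`M₀` is a `T`-stable mark on `M ≅ J[n]` with `F.Ok M M₀`, `K.cone.Z = F.Z M M₀`, and the two halves
are replaced by `#(M₀ ∩ M_P) ≤ #(M_P)^f`. -/
theorem descent_asm_marked (F : MarkedFamily.{u} G) (hR : RankOneBoundM F D I r χ) [Finite M]
    (K : KummerData D I J M n) (A : Submodule T J) (hL : Lin K A) (hK : K.Hyp)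
    (M₀ : AddSubgroup M) (hM₀ : ∀ (t : T), ∀ x ∈ M₀, t • x ∈ M₀)
    (hOk : F.Ok M M₀) (hZ : K.cone.Z = F.Z M M₀)
    (htau : ∀ g, π (τ g) = 1 + χ g) (hdelta : ∀ g, π (δ g) = χ g)
    (hrel : ∀ (g : G) (x : M), g • g • x - τ g • g • x + δ g • x = 0)
    (hhalf : haveI := hL.smulCommClass
      Nat.card (primaryMark (RingHom.ker π) M₀) ≤
        Nat.card (primaryCone K.cone (RingHom.ker π)).Mf)
    (Tt : AddSubgroup J) [Finite Tt] (hTt : ∀ x ∈ K.A, n • x = 0 → x ∈ Tt) :
    ∃ (_ : Module T (H1S K.cone)) (f : A →ₗ[T] H1S K.cone),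
      (∀ a : A, n • f a = 0) ∧ (∀ a : A, f a = 0 → ∃ w ∈ K.A, n • w = (a : J)) ∧
      (Set.univ ∩ {x : H1S K.cone | ∃ j : ℕ, ∀ t ∈ RingHom.ker π ^ j, t • x = 0}).Finite ∧
      (Set.univ ∩ {x : H1S K.cone | ∃ j : ℕ, ∀ t ∈ RingHom.ker π ^ j, t • x = 0}).ncard ≤
        Nat.card Tt := by
  haveI := hL.smulCommClass
  have hact : ∀ t : T, ConeHom K.cone K.cone (DistribSMul.toAddMonoidHom M t) :=
    coneHom_smulM F M₀ hOk K.cone hZ hL.smul_mem_Mf hM₀
  letI := moduleH1S K.cone hact
  obtain ⟨hfin, hle⟩ := card_primaryPart_H1S_le_card_H0S_marked K.cone hact F hR M₀ hOk htau hdelta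
    hrel hZ hhalf
  have hH0 := card_H0S_primaryCone_le_of_kummer K (RingHom.ker π) Tt hTt
  have hset : (Set.univ ∩ {x : H1S K.cone | ∃ j : ℕ, ∀ t ∈ RingHom.ker π ^ j, t • x = 0}) =
      ((primaryPart (RingHom.ker π) (H1S K.cone) : Submodule T (H1S K.cone)) :
        Set (H1S K.cone)) := by
    rw [Set.univ_inter]
    rfl
  refine ⟨moduleH1S K.cone hact, kummerLin hL hK hact, nsmul_kummerLin hL hK hact,
    kummerLin_eq_zero hL hK hact, ?_, ?_⟩
  · rw [hset]
    exact Set.toFinite _
  · rw [hset]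
    have e : ((primaryPart (RingHom.ker π) (H1S K.cone) : Submodule T (H1S K.cone)) :
        Set (H1S K.cone)).ncard = Nat.card (primaryPart (RingHom.ker π) (H1S K.cone)) :=
      (Nat.card_coe_set_eq _).symm
    rw [e]
    exact hle.trans hH0

end Assembly

end Fermat.Agent.MAZ.Desc.DescentAsmMarked95
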