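/-
Programme MAZ (S15), G-side, brick FLAT-ADM (helper68).

THE CONCRETE ADMISSIBLE FAMILY of the Eisenstein descent, in the vocabulary `FlatModel r` of S19
(`TW.FF.FlatModel68.FlatModel`, closure properties in `FFJ.Glue.GlobalClosure68`).

For a prime `r`, a level `k`, the level `p` and a `G_ℚ`-module `N`:
* `extActN r k c`       : the extension module `E_c = N × ℤ/r^k`, `σ (n, a) = (σ n + a • c σ, a)`;
* `OkMod r k p N`       : `N` finite, killed by `r^k`, with a finite flat model over `ℤ_(r)`, unramified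
                          outside `{r, p}`;
* `Zadm r k p N`        : the admissible cocycles: cocycles vanishing on every inertia group at
                          `q ∉ {r, p}` whose extension module has a finite flat model over `ℤ_(r)` (an additive
                          subgroup of `G_ℚ → N`: Baer sum);
* `dd_mem`, `map_mem`, `comap_mem`, `OkMod.of_injective`, `OkMod.of_surjective`, and the instance
  `admFamily r k p : Devissage95.AdmFamily GQ` of helper95's relative family;
* `flatModel_const`     : the constant group has a flat model;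
* `exists_fixingSubgroup_le`, `exists_open_kernel` : flat modules and admissible cocycles factor through a
                          finite extension of `ℚ` (continuity is automatic);
* `Zadm_of_le`          : lowering the level `k`;
* the two rank-one adapters of `FlatRank68` (`r` odd):
  `eq_zero_of_mem_Zadm_of_inertia_trivial` (an admissible cocycle with values in a module killed by `r` on
  which inertia at `A ∣ r` acts trivially vanishes on that inertia group), and
  `dvd_padicValRat_of_mem_Zadm` (Kummer case: `r ∣ v_r(u)`).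
-/
import Mathlib
import Fermat.Agent.FFJ.Glue.GlobalClosure68
import Fermat.Agent.FFJ.Alg.MaxOrder3
import Fermat.Agent.MAZ.Local.FlatRank68
import Fermat.Agent.MAZ.Desc.Devissage95

set_option autoImplicit false
set_option linter.unusedSectionVars false
set_option linter.style.haveILetI false

noncomputable section

namespace Fermat.Agent.MAZ.Desc.FlatAdm68

open Fermat.Agent.S19.Shell64 Fermat.Agent.TW.FF.FunOrder68
open Fermat.Agent.TW.FF.FlatModel68 Fermat.Agent.TW.FF.Closure68
open Fermat.Agent.FFJ.Glue.GlobalClosure68 Fermat.Agent.FFJ.Alg.MaxOrder3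
open Fermat.Agent.MAZ.Desc.SelmerCone95 Fermat.Agent.MAZ.Desc.Devissage95

local notation "Qb" => AlgebraicClosure ℚ

/-! ### 0. The constant group has a model -/

section Const

variable {R F K : Type} [CommRing R] [IsDomain R] [IsPrincipalIdealRing R] [Field F] [Field K]
  [Algebra R F] [IsFractionRing R F] [Algebra F K] [Algebra R K] [IsScalarTower R F K]

/-- the functions with values in (the image of) `R` form a function order on a finite group with trivial
Galois action. -/
theorem isFunOrder_const (A : Type) [AddCommGroup A] [Finite A] [MulAction (K ≃ₐ[F] K) A]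
    (htriv : ∀ (σ : K ≃ₐ[F] K) (a : A), σ • a = a) :
    IsFunOrder R F (valSub A (⊥ : Subalgebra R K)) := by
  classical
  cases nonempty_fintype A
  have hsingle : ∀ a : A, (Pi.single a (1 : K) : A → K) ∈ valSub A (⊥ : Subalgebra R K) := by
    intro a b
    by_cases hb : b = a
    · subst hb
      rw [Pi.single_eq_same]
      exact Subalgebra.one_mem _
    · rw [Pi.single_eq_of_ne hb]
      exact Subalgebra.zero_mem _
  refine ⟨finite_of_le_valSub A ⊥ _ le_rfl, ?_, ?_, ?_⟩
  · intro h hh σ m
    obtain ⟨x, hx⟩ := Algebra.mem_bot.mp (hh m)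
    rw [htriv, ← hx, IsScalarTower.algebraMap_apply R F K, AlgEquiv.commutes]
  · intro m m' hmm
    refine ⟨Pi.single m 1, hsingle m, ?_⟩
    rw [Pi.single_eq_same, Pi.single_eq_of_ne (Ne.symm hmm)]
    exact one_ne_zero
  · intro h hh
    let e : Fin (Fintype.card A) ≃ A := (Fintype.equivFin A).symm
    refine ⟨Fintype.card A, fun i => ⟨Pi.single (e i) 1, hsingle (e i)⟩,
      fun i => ⟨fun m' => h (e i + m'), fun m' => hh _⟩, fun m m' => ?_⟩
    change h (m + m') = ∑ i, (Pi.single (e i) (1 : K) : A → K) m * h (e i + m')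
    rw [Equiv.sum_comp e (fun a => (Pi.single a (1 : K) : A → K) m * h (a + m')),
      Finset.sum_eq_single m]
    · rw [Pi.single_eq_same, one_mul]
    · intro b _ hb
      rw [Pi.single_eq_of_ne (Ne.symm hb), zero_mul]
    · intro hm
      exact absurd (Finset.mem_univ m) hm

end Const

variable {r : ℕ} [Fact r.Prime]

/-- **the constant group scheme**: a finite abelian group with trivial Galois action has a finite flat
model over `ℤ_(r)`. -/
theorem flatModel_const (A : Type) [AddCommGroup A] [Finite A] :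
    FlatModel r A (fun _ a => a) := by
  letI : DistribMulAction GQ A :=
    { smul := fun _ a => a
      one_smul := fun _ => rfl
      mul_smul := fun _ _ _ => rfl
      smul_zero := fun _ => rfl
      smul_add := fun _ _ _ => rfl }
  have hH : IsFunOrder (Zloc r) ℚ (valSub A (⊥ : Subalgebra (Zloc r) Qb)) :=
    isFunOrder_const A (fun _ _ => rfl)
  exact IsFunOrder.modelOf (R := Zloc r) (F := ℚ) fixedFieldEqBase_Qbar hH _ (fun _ _ => rfl)

/-! ### 1. Elementary facts on `ℤ/n`-multiples -/

section Val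

variable {N : Type} [AddCommGroup N]

theorem mod_nsmul68 {n : ℕ} {x : N} (hx : n • x = 0) (t : ℕ) : (t % n) • x = t • x := by
  conv_rhs => rw [← Nat.mod_add_div t n]
  rw [add_nsmul, mul_nsmul, hx, smul_zero, add_zero]

theorem val_add_nsmul68 {n : ℕ} [NeZero n] {x : N} (hx : n • x = 0) (a b : ZMod n) :
    (a + b).val • x = a.val • x + b.val • x := by
  rw [ZMod.val_add, mod_nsmul68 hx, add_nsmul]

theorem val_cast_nsmul68 {n m : ℕ} [NeZero n] [NeZero m] (hmn : m ∣ n) {x : N} (hx : m • x = 0)
    (a : ZMod n) : (ZMod.castHom hmn (ZMod m) a).val • x = a.val • x := by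
  rw [ZMod.castHom_apply, ← ZMod.natCast_val, ZMod.val_natCast, mod_nsmul68 hx]

end Val

instance neZero_pow68 (k : ℕ) : NeZero (r ^ k) :=
  ⟨pow_ne_zero k (Fact.out : r.Prime).ne_zero⟩

/-! ### 2. The vocabulary -/

section Defs

variable (r) (k p : ℕ)

/-- the extension module `E_c = N × ℤ/r^k` of a cochain `c`: `σ (n, a) = (σ n + a • c σ, a)`. -/
def extActN {N : Type} [AddCommGroup N] [DistribMulAction GQ N] (c : GQ → N) (σ : GQ)
    (e : N × ZMod (r ^ k)) : N × ZMod (r ^ k) :=
  (σ • e.1 + e.2.val • c σ, e.2)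

omit [Fact r.Prime] in
theorem extActN_apply {N : Type} [AddCommGroup N] [DistribMulAction GQ N] (c : GQ → N) (σ : GQ)
    (n : N) (a : ZMod (r ^ k)) : extActN r k c σ (n, a) = (σ • n + a.val • c σ, a) := rfl

/-- the cochain vanishes on every inertia group at a prime `q ∉ {r, p}`. -/
def UnramOutside {N : Type} [AddCommGroup N] (c : GQ → N) : Prop :=
  ∀ q : ℕ, q.Prime → q ≠ r → q ≠ p → ∀ A : ValuationSubring Qb, A.LiesOverPrime q →
    ∀ σ ∈ A.inertiaSubgroupIn ℚ, c σ = 0

/-- **the good modules**: finite, killed by `r^k`, with a finite flat model over `ℤ_(r)`, unramified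
outside `{r, p}`. -/
structure OkMod (N : Type) [AddCommGroup N] [DistribMulAction GQ N] : Prop where
  finite : Finite N
  killed : ∀ x : N, r ^ k • x = 0
  flat : FlatModel r N (fun σ x => σ • x)
  unram : ∀ q : ℕ, q.Prime → q ≠ r → q ≠ p → ∀ A : ValuationSubring Qb, A.LiesOverPrime q →
    ∀ σ ∈ A.inertiaSubgroupIn ℚ, ∀ x : N, σ • x = x

omit [Fact r.Prime] in
theorem okMod_iff (N : Type) [AddCommGroup N] [DistribMulAction GQ N] :
    OkMod r k p N ↔ Finite N ∧ (∀ x : N, r ^ k • x = 0) ∧ FlatModel r N (fun σ x => σ • x) ∧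
      ∀ q : ℕ, q.Prime → q ≠ r → q ≠ p → ∀ A : ValuationSubring Qb, A.LiesOverPrime q →
        ∀ σ ∈ A.inertiaSubgroupIn ℚ, ∀ x : N, σ • x = x :=
  ⟨fun h => ⟨h.finite, h.killed, h.flat, h.unram⟩, fun h => ⟨h.1, h.2.1, h.2.2.1, h.2.2.2⟩⟩

end Defs

/-! ### 3. Flatness of extension modules: Baer sum, sign, push-out, pull-back, coboundaries -/

section Ext

variable (r) (k : ℕ) {N N' : Type} [AddCommGroup N] [DistribMulAction GQ N] [AddCommGroup N']
  [DistribMulAction GQ N']

/-- the split extension is flat. -/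
theorem flat_ext_zero (hN : FlatModel r N (fun σ x => σ • x)) :
    FlatModel r (N × ZMod (r ^ k)) (extActN r k (0 : GQ → N)) := by
  have h := FlatModel.prod hN (flatModel_const (r := r) (ZMod (r ^ k)))
  have he : extActN r k (0 : GQ → N) = fun σ x => (σ • x.1, x.2) := by
    funext σ x
    simp [extActN]
  rw [he]
  exact h

/-- **Baer sum**: `E_{c + c'}` is a subquotient of `E_c × E_{c'}`. -/
theorem flat_ext_add {c c' : GQ → N} (hc : FlatModel r (N × ZMod (r ^ k)) (extActN r k c))
    (hc' : FlatModel r (N × ZMod (r ^ k)) (extActN r k c')) :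
    FlatModel r (N × ZMod (r ^ k)) (extActN r k (c + c')) := by
  let i : N × N × ZMod (r ^ k) →+ (N × ZMod (r ^ k)) × (N × ZMod (r ^ k)) :=
    { toFun := fun x => ((x.1, x.2.2), (x.2.1, x.2.2))
      map_zero' := rfl
      map_add' := fun _ _ => rfl }
  let g : N × N × ZMod (r ^ k) →+ N × ZMod (r ^ k) :=
    { toFun := fun x => (x.1 + x.2.1, x.2.2)
      map_zero' := by simp
      map_add' := fun x y => by
        ext
        · simp only [Prod.fst_add, Prod.snd_add]
          abel
        · rfl }
  refine FlatModel.of_subquotient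
    (actN := fun σ x => (σ • x.1 + x.2.2.val • c σ, σ • x.2.1 + x.2.2.val • c' σ, x.2.2))
    i ?_ ?_ g ?_ ?_ (FlatModel.prod hc hc')
  · intro x y hxy
    have h1 := congrArg (fun z => z.1.1) hxy
    have h2 := congrArg (fun z => z.2.1) hxy
    have h3 := congrArg (fun z => z.1.2) hxy
    exact Prod.ext h1 (Prod.ext h2 h3)
  · intro σ x
    rfl
  · rintro ⟨n, a⟩
    exact ⟨(n, 0, a), by simp [g]⟩
  · intro σ x
    change (σ • x.1 + x.2.2.val • c σ + (σ • x.2.1 + x.2.2.val • c' σ), x.2.2) =
      (σ • (x.1 + x.2.1) + x.2.2.val • (c σ + c' σ), x.2.2)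
    rw [smul_add, smul_add]
    congr 1
    abel

/-- `E_{-c} ≅ E_c`. -/
theorem flat_ext_neg {c : GQ → N} (hc : FlatModel r (N × ZMod (r ^ k)) (extActN r k c)) :
    FlatModel r (N × ZMod (r ^ k)) (extActN r k (-c)) := by
  refine FlatModel.of_addEquiv ((AddEquiv.neg N).prodCongr (AddEquiv.refl (ZMod (r ^ k))))
    (fun σ x => ?_) hc
  change (-(σ • x.1 + x.2.val • c σ), x.2) = (σ • (-x.1) + x.2.val • (-c σ), x.2)
  rw [smul_neg, smul_neg, neg_add]

/-- **push-out**: `E_{f ∘ c}` is a quotient of `E_c × N'`. -/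
theorem flat_ext_map (f : N →+ N') (hf : ∀ (σ : GQ) (x : N), f (σ • x) = σ • f x)
    (hN' : FlatModel r N' (fun σ x => σ • x)) {c : GQ → N}
    (hc : FlatModel r (N × ZMod (r ^ k)) (extActN r k c)) :
    FlatModel r (N' × ZMod (r ^ k)) (extActN r k (fun σ => f (c σ))) := by
  let g : (N × ZMod (r ^ k)) × N' →+ N' × ZMod (r ^ k) :=
    { toFun := fun x => (f x.1.1 + x.2, x.1.2)
      map_zero' := by simp
      map_add' := fun x y => by
        ext
        · simp only [Prod.fst_add, Prod.snd_add, map_add]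
          abel
        · rfl }
  refine FlatModel.of_surjective g ?_ ?_ (FlatModel.prod hc hN')
  · rintro ⟨n', a⟩
    exact ⟨((0, a), n'), by simp [g]⟩
  · intro σ x
    change (f (σ • x.1.1 + x.1.2.val • c σ) + σ • x.2, x.1.2) =
      (σ • (f x.1.1 + x.2) + x.1.2.val • f (c σ), x.1.2)
    rw [map_add, hf, map_nsmul, smul_add]
    congr 1
    abel

/-- **pull-back**: `E_c` embeds into `E_{f ∘ c}` for `f` injective. -/
theorem flat_ext_comap (f : N →+ N') (hf : ∀ (σ : GQ) (x : N), f (σ • x) = σ • f x)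
    (hinj : Function.Injective f) {c : GQ → N}
    (hc : FlatModel r (N' × ZMod (r ^ k)) (extActN r k (fun σ => f (c σ)))) :
    FlatModel r (N × ZMod (r ^ k)) (extActN r k c) := by
  let i : N × ZMod (r ^ k) →+ N' × ZMod (r ^ k) :=
    { toFun := fun x => (f x.1, x.2)
      map_zero' := by simp
      map_add' := fun x y => by simp }
  refine FlatModel.of_injective i ?_ ?_ hc
  · intro x y hxy
    have h1 := congrArg Prod.fst hxy
    have h2 := congrArg Prod.snd hxy
    exact Prod.ext (hinj h1) h2
  · intro σ x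
    change (f (σ • x.1 + x.2.val • c σ), x.2) = (σ • f x.1 + x.2.val • f (c σ), x.2)
    rw [map_add, hf, map_nsmul]

/-- the extension of a coboundary splits: `(n, a) ↦ (n + a • m, a)`. -/
theorem flat_ext_dd (hN : FlatModel r N (fun σ x => σ • x)) (m : N) (hm : r ^ k • m = 0) :
    FlatModel r (N × ZMod (r ^ k)) (extActN r k (dd m : GQ → N)) := by
  let φ : N × ZMod (r ^ k) →+ N × ZMod (r ^ k) :=
    { toFun := fun x => (x.1 + x.2.val • m, x.2)
      map_zero' := by simp
      map_add' := fun x y => by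
        ext
        · simp only [Prod.fst_add, Prod.snd_add]
          rw [val_add_nsmul68 hm]
          abel
        · rfl }
  refine FlatModel.of_injective φ ?_ ?_ (flat_ext_zero r k hN)
  · intro x y hxy
    have h2 : x.2 = y.2 := by
      have := congrArg Prod.snd hxy
      exact this
    have h1 : x.1 + x.2.val • m = y.1 + y.2.val • m := by
      have := congrArg Prod.fst hxy
      exact this
    rw [h2] at h1
    exact Prod.ext (add_right_cancel h1) h2
  · intro σ x
    change (σ • x.1 + x.2.val • (σ • m - m) + x.2.val • m, x.2) =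
      (σ • (x.1 + x.2.val • m) + x.2.val • (0 : N), x.2)
    rw [smul_zero, add_zero, smul_add, smul_sub, smul_comm σ x.2.val m]
    congr 1
    abel

end Ext

/-! ### 4. The admissible cocycles -/

section Adm

variable (r) (k p : ℕ)

/-- **the admissible cocycles** with values in `N`: cocycles which vanish on every inertia group at a
prime `q ∉ {r, p}` and whose extension module `E_c` has a finite flat model over `ℤ_(r)`.  (The last
condition is imposed only when `N` itself has a model: otherwise no `E_c` has one, and the definition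
degenerates to the unramified cocycles, so that `Zadm` is a subgroup for every `N`.) -/
def Zadm (N : Type) [AddCommGroup N] [DistribMulAction GQ N] : AddSubgroup (GQ → N) where
  carrier := {c | (∀ σ τ : GQ, c (σ * τ) = c σ + σ • c τ) ∧ UnramOutside r p c ∧
    (FlatModel r N (fun σ x => σ • x) → FlatModel r (N × ZMod (r ^ k)) (extActN r k c))}
  zero_mem' := by
    refine ⟨fun σ τ => ?_, fun q _ _ _ A _ σ _ => rfl, fun hN => flat_ext_zero r k hN⟩
    simp
  add_mem' := by
    rintro c c' ⟨h1, h2, h3⟩ ⟨h1', h2', h3'⟩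
    refine ⟨fun σ τ => ?_, fun q hq hqr hqp A hA σ hσ => ?_, fun hN =>
      flat_ext_add r k (h3 hN) (h3' hN)⟩
    · simp only [Pi.add_apply]
      rw [h1, h1', smul_add]
      abel
    · simp only [Pi.add_apply]
      rw [h2 q hq hqr hqp A hA σ hσ, h2' q hq hqr hqp A hA σ hσ, add_zero]
  neg_mem' := by
    rintro c ⟨h1, h2, h3⟩
    refine ⟨fun σ τ => ?_, fun q hq hqr hqp A hA σ hσ => ?_, fun hN => flat_ext_neg r k (h3 hN)⟩
    · simp only [Pi.neg_apply]
      rw [h1, smul_neg, neg_add]
    · simp only [Pi.neg_apply]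
      rw [h2 q hq hqr hqp A hA σ hσ, neg_zero]

variable {r k p} {N N' : Type} [AddCommGroup N] [DistribMulAction GQ N] [AddCommGroup N']
  [DistribMulAction GQ N']

theorem mem_Zadm_iff {c : GQ → N} : c ∈ Zadm r k p N ↔
    (∀ σ τ : GQ, c (σ * τ) = c σ + σ • c τ) ∧ UnramOutside r p c ∧
      (FlatModel r N (fun σ x => σ • x) → FlatModel r (N × ZMod (r ^ k)) (extActN r k c)) :=
  Iff.rfl

/-- membership in `Zadm` for a module with a model (in particular a good module). -/
theorem mem_Zadm_iff_of_flat (hN : FlatModel r N (fun σ x => σ • x)) {c : GQ → N} :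
    c ∈ Zadm r k p N ↔ (∀ σ τ : GQ, c (σ * τ) = c σ + σ • c τ) ∧ UnramOutside r p c ∧
      FlatModel r (N × ZMod (r ^ k)) (extActN r k c) :=
  ⟨fun h => ⟨h.1, h.2.1, h.2.2 hN⟩, fun h => ⟨h.1, h.2.1, fun _ => h.2.2⟩⟩

theorem mem_Zadm_iff_of_ok (hN : OkMod r k p N) {c : GQ → N} :
    c ∈ Zadm r k p N ↔ (∀ σ τ : GQ, c (σ * τ) = c σ + σ • c τ) ∧ UnramOutside r p c ∧
      FlatModel r (N × ZMod (r ^ k)) (extActN r k c) :=
  mem_Zadm_iff_of_flat hN.flat

/-- the way to produce admissible cocycles (K-FLAT). -/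
theorem mem_Zadm_of_flat {c : GQ → N} (h1 : ∀ σ τ : GQ, c (σ * τ) = c σ + σ • c τ)
    (h2 : UnramOutside r p c) (h3 : FlatModel r (N × ZMod (r ^ k)) (extActN r k c)) :
    c ∈ Zadm r k p N :=
  ⟨h1, h2, fun _ => h3⟩

theorem Zadm.cocycle {c : GQ → N} (hc : c ∈ Zadm r k p N) (σ τ : GQ) :
    c (σ * τ) = c σ + σ • c τ := hc.1 σ τ

theorem Zadm.unram {c : GQ → N} (hc : c ∈ Zadm r k p N) : UnramOutside r p c := hc.2.1

theorem Zadm.flat {c : GQ → N} (hc : c ∈ Zadm r k p N) (hN : FlatModel r N (fun σ x => σ • x)) :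
    FlatModel r (N × ZMod (r ^ k)) (extActN r k c) := hc.2.2 hN

/-- **coboundaries of good modules are admissible.** -/
theorem dd_mem (hN : OkMod r k p N) (m : N) : (dd m : GQ → N) ∈ Zadm r k p N := by
  refine ⟨fun σ τ => ?_, fun q hq hqr hqp A hA σ hσ => ?_, fun hfl =>
    flat_ext_dd r k hfl m (hN.killed m)⟩
  · simp only [dd_def]
    rw [mul_smul, smul_sub]
    abel
  · rw [dd_def, hN.unram q hq hqr hqp A hA σ hσ m, sub_self]

/-- **push-forward** of admissible cocycles along an equivariant map of good modules. -/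
theorem map_mem (f : N →+ N') (hf : ∀ (σ : GQ) (x : N), f (σ • x) = σ • f x)
    (hN : FlatModel r N (fun σ x => σ • x)) {c : GQ → N} (hc : c ∈ Zadm r k p N) :
    (fun σ => f (c σ)) ∈ Zadm r k p N' := by
  refine ⟨fun σ τ => ?_, fun q hq hqr hqp A hA σ hσ => ?_, fun hfl =>
    flat_ext_map r k f hf hfl (hc.2.2 hN)⟩
  · change f (c (σ * τ)) = f (c σ) + σ • f (c τ)
    rw [hc.1, map_add, hf]
  · change f (c σ) = 0
    rw [hc.2.1 q hq hqr hqp A hA σ hσ, map_zero]

/-- **pull-back** of admissible cocycles along an equivariant injection. -/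
theorem comap_mem (f : N →+ N') (hf : ∀ (σ : GQ) (x : N), f (σ • x) = σ • f x)
    (hinj : Function.Injective f) (hN' : FlatModel r N' (fun σ x => σ • x)) {c : GQ → N}
    (hc : (fun σ => f (c σ)) ∈ Zadm r k p N') : c ∈ Zadm r k p N := by
  refine ⟨fun σ τ => hinj ?_, fun q hq hqr hqp A hA σ hσ => hinj ?_, fun _ =>
    flat_ext_comap r k f hf hinj (hc.2.2 hN')⟩
  · rw [map_add, hf]
    exact hc.1 σ τ
  · rw [map_zero]
    exact hc.2.1 q hq hqr hqp A hA σ hσ

/-- good modules pull back along equivariant injections (in particular: stable subgroups). -/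
theorem OkMod.of_injective (f : N →+ N') (hf : ∀ (σ : GQ) (x : N), f (σ • x) = σ • f x)
    (hinj : Function.Injective f) (hN' : OkMod r k p N') : OkMod r k p N := by
  haveI := hN'.finite
  refine ⟨Finite.of_injective f hinj, fun x => hinj ?_,
    FlatModel.of_injective f hinj (fun σ x => hf σ x) hN'.flat,
    fun q hq hqr hqp A hA σ hσ x => hinj ?_⟩
  · rw [map_nsmul, hN'.killed, map_zero]
  · rw [hf, hN'.unram q hq hqr hqp A hA σ hσ]

/-- good modules push forward along equivariant surjections (in particular: quotients). -/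
theorem OkMod.of_surjective (f : N →+ N') (hf : ∀ (σ : GQ) (x : N), f (σ • x) = σ • f x)
    (hsurj : Function.Surjective f) (hN : OkMod r k p N) : OkMod r k p N' := by
  haveI := hN.finite
  refine ⟨Finite.of_surjective f hsurj, fun x => ?_,
    FlatModel.of_surjective f hsurj (fun σ x => hf σ x) hN.flat,
    fun q hq hqr hqp A hA σ hσ x => ?_⟩
  · obtain ⟨y, rfl⟩ := hsurj x
    rw [← map_nsmul, hN.killed, map_zero]
  · obtain ⟨y, rfl⟩ := hsurj x
    rw [← hf, hN.unram q hq hqr hqp A hA σ hσ]

/-- good modules are closed under products. -/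
theorem OkMod.prod (hN : OkMod r k p N) (hN' : OkMod r k p N') : OkMod r k p (N × N') := by
  haveI := hN.finite
  haveI := hN'.finite
  refine ⟨inferInstance, fun x => Prod.ext (hN.killed x.1) (hN'.killed x.2),
    FlatModel.prod hN.flat hN'.flat, fun q hq hqr hqp A hA σ hσ x =>
      Prod.ext (hN.unram q hq hqr hqp A hA σ hσ x.1) (hN'.unram q hq hqr hqp A hA σ hσ x.2)⟩

/-- a finite group killed by `r^k` with trivial Galois action is a good module. -/
theorem OkMod.of_trivial [Finite N] (hkill : ∀ x : N, r ^ k • x = 0)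
    (htriv : ∀ (σ : GQ) (x : N), σ • x = x) : OkMod r k p N := by
  refine ⟨inferInstance, hkill, ?_, fun q _ _ _ A _ σ _ x => htriv σ x⟩
  have he : (fun (σ : GQ) (x : N) => σ • x) = fun _ x => x := by
    funext σ x
    exact htriv σ x
  rw [he]
  exact flatModel_const N

variable (r k p)

/-- **THE CONCRETE ADMISSIBLE FAMILY** (instance of helper95's relative `AdmFamily`). -/
def admFamily : AdmFamily.{0, 0} GQ where
  Ok N _ _ := OkMod r k p N
  Z N _ _ := Zadm r k p N
  cocycle _ _ _ _ hc σ τ := hc.1 σ τ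
  cobound _ _ _ hN m := dd_mem hN m
  map f hf hN _ _ hc := map_mem f hf hN.flat hc
  comap f hf hinj _ hN' _ hc := comap_mem f hf hinj hN'.flat hc
  ok_sub f hf hinj hN' := OkMod.of_injective f hf hinj hN'
  ok_quot f hf hsurj hN := OkMod.of_surjective f hf hsurj hN

@[simp] theorem admFamily_Ok (N : Type) [AddCommGroup N] [DistribMulAction GQ N] :
    (admFamily r k p).Ok N = OkMod r k p N := rfl

@[simp] theorem admFamily_Z (N : Type) [AddCommGroup N] [DistribMulAction GQ N] :
    (admFamily r k p).Z N = Zadm r k p N := rfl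

end Adm

/-! ### 5. Continuity is automatic: flat modules factor through a finite extension of `ℚ` -/

section Open

/-- **a flat module is split by a finite extension of `ℚ`.** -/
theorem exists_fixingSubgroup_le {E : Type} [AddCommGroup E] {act : GQ → E → E}
    (h : FlatModel r E act) :
    ∃ L : IntermediateField ℚ Qb, FiniteDimensional ℚ L ∧
      ∀ σ ∈ L.fixingSubgroup, ∀ e : E, act σ e = e := by
  classical
  have hfinE : Finite E := FlatModel.finite h
  obtain ⟨H, i1, i2, hfin, -, -, e, hmul, hact⟩ := h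
  have hfinX : Finite (WithConv (H →ₐ[Zloc r] Qb)) := Finite.of_equiv E e.symm
  obtain ⟨s, hs⟩ := hfin.fg_top
  let S : Set Qb := Set.range (fun x : WithConv (H →ₐ[Zloc r] Qb) × (s : Set H) => x.1.ofConv x.2.1)
  have hSfin : Finite S := Set.finite_range _
  refine ⟨IntermediateField.adjoin ℚ S,
    IntermediateField.finiteDimensional_adjoin (fun x _ => (Algebra.IsIntegral.isIntegral x)), ?_⟩
  intro σ hσ x
  have hσ' : ∀ y ∈ IntermediateField.adjoin ℚ S, σ y = y := fun y hy =>
    (IntermediateField.mem_fixingSubgroup_iff _ σ).1 hσ y hy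
  obtain ⟨f, rfl⟩ := e.surjective x
  have hval : ∀ h : H, f.ofConv h ∈ IntermediateField.adjoin ℚ S := by
    intro h
    have hh : h ∈ Submodule.span (Zloc r) (s : Set H) := by
      rw [hs]
      trivial
    induction hh using Submodule.span_induction with
    | mem y hy => exact IntermediateField.subset_adjoin ℚ S ⟨(f, ⟨y, hy⟩), rfl⟩
    | zero =>
      rw [map_zero]
      exact zero_mem _
    | add y z _ _ hy hz =>
      rw [map_add]
      exact add_mem hy hz
    | smul a y _ hy =>
      rw [Algebra.smul_def, map_mul, AlgHom.commutes, IsScalarTower.algebraMap_apply (Zloc r) ℚ Qb]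
      exact mul_mem (IntermediateField.algebraMap_mem _ _) hy
  exact (hact σ f f (fun h => (hσ' _ (hval h)).symm)).symm

variable {k p : ℕ} {N : Type} [AddCommGroup N] [DistribMulAction GQ N]

omit [Fact r.Prime] in
/-- an element acting trivially on `E_c` acts trivially on `N`. -/
theorem smul_eq_of_extActN_eq {c : GQ → N} {σ : GQ}
    (h : ∀ e : N × ZMod (r ^ k), extActN r k c σ e = e) (x : N) : σ • x = x := by
  have h1 := congrArg Prod.fst (h (x, (0 : ZMod (r ^ k))))
  rw [extActN_apply, ZMod.val_zero, zero_smul, add_zero] at h1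
  exact h1

/-- an element acting trivially on `E_c` (level `k ≥ 1`) kills the cocycle. -/
theorem eq_zero_of_extActN_eq (hk : 1 ≤ k) {c : GQ → N} {σ : GQ}
    (h : ∀ e : N × ZMod (r ^ k), extActN r k c σ e = e) : c σ = 0 := by
  have h1 := congrArg Prod.fst (h ((0 : N), (1 : ZMod (r ^ k))))
  rw [extActN_apply] at h1
  have hne : r ^ k ≠ 1 := by
    have h2 : 1 < r ^ k := Nat.one_lt_pow (by omega) (Fact.out : r.Prime).one_lt
    omega
  rw [ZMod.val_one'' hne, one_smul, smul_zero, zero_add] at h1
  exact h1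

/-- **an admissible cocycle of a good module has open kernel**: it vanishes on the absolute Galois
group of a finite extension `L` of `ℚ` (which also acts trivially on `N`). -/
theorem exists_open_kernel (hN : OkMod r k p N) {c : GQ → N} (hc : c ∈ Zadm r k p N) :
    ∃ L : IntermediateField ℚ Qb, FiniteDimensional ℚ L ∧
      ∀ σ ∈ L.fixingSubgroup, c σ = 0 ∧ ∀ x : N, σ • x = x := by
  obtain ⟨L, hL, hfix⟩ := exists_fixingSubgroup_le (hc.2.2 hN.flat)
  refine ⟨L, hL, fun σ hσ => ⟨?_, smul_eq_of_extActN_eq (hfix σ hσ)⟩⟩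
  rcases Nat.eq_zero_or_pos k with hk | hk
  · subst hk
    have := hN.killed (c σ)
    rwa [pow_zero, one_smul] at this
  · exact eq_zero_of_extActN_eq hk (hfix σ hσ)

end Open

/-! ### 6. Lowering the level -/

section Level

variable {k j p : ℕ} {N : Type} [AddCommGroup N] [DistribMulAction GQ N]

/-- `E_c` at level `k` maps onto `E_c` at level `j ≤ k` when `c` is killed by `r^j`. -/
theorem flat_ext_of_le (hjk : j ≤ k) {c : GQ → N} (hcj : ∀ σ, r ^ j • c σ = 0)
    (hc : FlatModel r (N × ZMod (r ^ k)) (extActN r k c)) :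
    FlatModel r (N × ZMod (r ^ j)) (extActN r j c) := by
  have hdvd : r ^ j ∣ r ^ k := pow_dvd_pow r hjk
  let g : N × ZMod (r ^ k) →+ N × ZMod (r ^ j) :=
    { toFun := fun x => (x.1, ZMod.castHom hdvd (ZMod (r ^ j)) x.2)
      map_zero' := Prod.ext rfl (map_zero (ZMod.castHom hdvd (ZMod (r ^ j))))
      map_add' := fun x y => Prod.ext rfl (map_add (ZMod.castHom hdvd (ZMod (r ^ j))) x.2 y.2) }
  refine FlatModel.of_surjective g ?_ ?_ hc
  · rintro ⟨n, a⟩
    obtain ⟨b, rfl⟩ := ZMod.castHom_surjective hdvd a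
    exact ⟨(n, b), rfl⟩
  · intro σ x
    change (σ • x.1 + x.2.val • c σ, ZMod.castHom hdvd (ZMod (r ^ j)) x.2) =
      (σ • x.1 + (ZMod.castHom hdvd (ZMod (r ^ j)) x.2).val • c σ,
        ZMod.castHom hdvd (ZMod (r ^ j)) x.2)
    rw [val_cast_nsmul68 hdvd (hcj σ)]

/-- **lowering the level**: an admissible cocycle at level `k` with values killed by `r^j`, `j ≤ k`,
is admissible at level `j`. -/
theorem Zadm_of_le (hjk : j ≤ k) {c : GQ → N} (hcj : ∀ σ, r ^ j • c σ = 0)
    (hc : c ∈ Zadm r k p N) : c ∈ Zadm r j p N :=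
  ⟨hc.1, hc.2.1, fun hN => flat_ext_of_le hjk hcj (hc.2.2 hN)⟩

end Level

/-! ### 7. The two rank-one adapters (`r` odd) -/

section RankOne

open Fermat.Agent.MAZ.Local.FlatRank68

variable {k p : ℕ} {N : Type} [AddCommGroup N] [DistribMulAction GQ N]

/-- the level one extension module of a module killed by `r` is killed by `r`. -/
theorem ext_one_killed (hkill : ∀ x : N, r • x = 0) (e : N × ZMod (r ^ 1)) : r • e = 0 := by
  refine Prod.ext (hkill e.1) ?_
  change r • e.2 = 0
  rw [nsmul_eq_mul, (ZMod.natCast_eq_zero_iff r (r ^ 1)).2 (by rw [pow_one]), zero_mul]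

/-- the level one extension module of an admissible cocycle with values killed by `r`. -/
theorem flat_ext_one (hk : 1 ≤ k) (hN : FlatModel r N (fun σ x => σ • x))
    (hkill : ∀ x : N, r • x = 0) {c : GQ → N} (hc : c ∈ Zadm r k p N) :
    FlatModel r (N × ZMod (r ^ 1)) (extActN r 1 c) :=
  (Zadm_of_le hk (fun σ => by rw [pow_one]; exact hkill _) hc).2.2 hN

/-- **(A1) flat + trivial inertia ⇒ unramified** (`r` odd): an admissible cocycle with values in a module
killed by `r`, on which the inertia group at a place `A ∣ r` acts trivially, vanishes on that inertia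
group.  (`FlatRank68.act_eq_of_flat_of_unipotent` for `E_c` at level one, `W = N × 0`.) -/
theorem eq_zero_of_mem_Zadm_of_inertia_trivial (hr2 : r ≠ 2) (hk : 1 ≤ k)
    (hN : FlatModel r N (fun σ x => σ • x)) (hkill : ∀ x : N, r • x = 0) {c : GQ → N}
    (hc : c ∈ Zadm r k p N) {A : ValuationSubring Qb} (hA : A.LiesOverPrime r)
    (htriv : ∀ σ ∈ A.inertiaSubgroupIn ℚ, ∀ x : N, σ • x = x) :
    ∀ σ ∈ A.inertiaSubgroupIn ℚ, c σ = 0 := by
  have hfl := flat_ext_one hk hN hkill hc
  haveI : Finite (N × ZMod (r ^ 1)) := FlatModel.finite hfl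
  intro σ hσ
  refine eq_zero_of_extActN_eq le_rfl
    (act_eq_of_flat_of_unipotent hr2 hfl (ext_one_killed hkill) hA
      ((⊤ : AddSubgroup N).prod (⊥ : AddSubgroup (ZMod (r ^ 1)))) ?_ ?_ σ hσ)
  · rintro τ hτ ⟨n, a⟩ hw
    have ha : a = 0 := (AddSubgroup.mem_prod.1 hw).2
    subst ha
    rw [extActN_apply, ZMod.val_zero, zero_smul, add_zero, htriv τ hτ]
  · rintro τ hτ ⟨n, a⟩
    rw [extActN_apply, AddSubgroup.mem_prod]
    exact ⟨AddSubgroup.mem_top _, by
      change a - a ∈ (⊥ : AddSubgroup (ZMod (r ^ 1)))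
      rw [sub_self]
      exact AddSubgroup.zero_mem _⟩

/-- **(A2) Kummer case** (`r` odd): let `c` be an admissible cocycle with values in a module killed by
`r`, and `z ∈ ℚ̄` an `r`-th root of `u ∈ ℚ^×` which is fixed by every `σ` fixing `μ_r`, acting trivially
on `N` and with `c σ = 0`.  Then `r ∣ v_r(u)`.  (`FlatRank68.dvd_padicValRat_of_flat` for `E_c`.) -/
theorem dvd_padicValRat_of_mem_Zadm (hr2 : r ≠ 2) (hk : 1 ≤ k)
    (hN : FlatModel r N (fun σ x => σ • x)) (hkill : ∀ x : N, r • x = 0) {c : GQ → N}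
    (hc : c ∈ Zadm r k p N) (u : ℚ) (hu : u ≠ 0) (z : Qb) (hz : z ^ r = (u : Qb))
    (hfix : ∀ σ : GQ, (∀ ζ : Qb, ζ ^ r = 1 → σ ζ = ζ) → (∀ x : N, σ • x = x) → c σ = 0 →
      σ z = z) :
    (r : ℤ) ∣ padicValRat r u := by
  have hfl := flat_ext_one hk hN hkill hc
  haveI : Finite (N × ZMod (r ^ 1)) := FlatModel.finite hfl
  exact dvd_padicValRat_of_flat hr2 hfl (ext_one_killed hkill) u hu z hz
    (fun σ hζ hE => hfix σ hζ (smul_eq_of_extActN_eq hE) (eq_zero_of_extActN_eq le_rfl hE))

end RankOne

end Fermat.Agent.MAZ.Desc.FlatAdm68
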