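/-
MAZ (S15), descent side, helper19: A FLAT MODEL HAS FINITE LEVEL.

`FlatModel p M act` (`M` = the `ℚ̄`-points of a finite flat Hopf algebra over `ℤ_(p)`) implies that
`G_ℚ` acts on `M` through a finite quotient: there is a finite extension `L₀/ℚ` inside `ℚ̄` whose
fixing subgroup acts trivially (`exists_level`).  Consequence (`exists_level_cocycle`): if the
extension `E_c = N × C` of a cocycle `c : G_ℚ → N` (action `σ (n, a) = (σ n + φ a (c σ), a)`) has a
flat model, then `c` is trivial on an open subgroup ("admissible cocycles are continuous").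
-/
import Mathlib
import Fermat.Agent.FFJ.Glue.GlobalClosure68

set_option autoImplicit false
set_option linter.style.haveILetI false

namespace Fermat.Agent.MAZ.Desc.FlatLevel19

open Fermat.Agent.TW.FF.FlatModel68 Fermat.Agent.FFJ.Glue.GlobalClosure68

local notation "Qbar" => AlgebraicClosure ℚ

local instance isAlgebraicQbar_fl19 : Algebra.IsAlgebraic ℚ (AlgebraicClosure ℚ) :=
  AlgebraicClosure.isAlgebraic ℚ

/-- **A flat model has finite level.** -/
theorem exists_level {p : ℕ} [Fact p.Prime] {M : Type} [AddCommGroup M] {act : GQ → M → M}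
    (h : FlatModel p M act) :
    ∃ L₀ : IntermediateField ℚ Qbar, FiniteDimensional ℚ L₀ ∧
      ∀ σ ∈ L₀.fixingSubgroup, ∀ m : M, act σ m = m := by
  classical
  haveI hMfin : Finite M := FlatModel.finite h
  obtain ⟨H, i1, i2, hfin, hflat, hco, e, hmul, hact⟩ := h
  haveI : Finite (WithConv (H →ₐ[GaloisRep.ratLocalizedAt p] Qbar)) := Finite.of_equiv M e.symm
  obtain ⟨s, hs⟩ := (Module.finite_def.1 hfin)
  -- the finite set of values on the generators
  let V : Set Qbar :=
    Set.range fun x : WithConv (H →ₐ[GaloisRep.ratLocalizedAt p] Qbar) × s => x.1.ofConv (x.2 : H)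
  haveI : Finite V := Set.finite_range _ |>.to_subtype
  refine ⟨IntermediateField.adjoin ℚ V,
    IntermediateField.finiteDimensional_adjoin (fun z _ => (Algebra.IsIntegral.isIntegral z)), ?_⟩
  intro σ hσ m
  obtain ⟨f, rfl⟩ := e.surjective m
  -- the twist of `f` by `σ`
  let g : WithConv (H →ₐ[GaloisRep.ratLocalizedAt p] Qbar) :=
    WithConv.toConv (((σ : Qbar ≃ₐ[ℚ] Qbar) : Qbar →ₐ[ℚ] Qbar).restrictScalars
      (GaloisRep.ratLocalizedAt p) |>.comp f.ofConv)
  have hg : ∀ x : H, g x = σ (f x) := fun x => rfl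
  have hgf : g = f := by
    have h1 : g.ofConv.toLinearMap = f.ofConv.toLinearMap := by
      apply LinearMap.ext_on hs
      intro x hx
      change g x = f x
      rw [hg]
      have hxV : f.ofConv x ∈ IntermediateField.adjoin ℚ V :=
        IntermediateField.subset_adjoin ℚ V ⟨(f, ⟨x, hx⟩), rfl⟩
      exact (IntermediateField.mem_fixingSubgroup_iff _ σ).1 hσ _ hxV
    have h2 : g.ofConv = f.ofConv := AlgHom.toLinearMap_injective h1
    exact congrArg WithConv.toConv h2
  have := hact σ f g hg
  rw [hgf] at this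
  exact this.symm

/-- If the extension `N × C` of a cocycle `c` has a flat model, then `c` is trivial on an open
subgroup (provided some `a₀ : C` has `φ a₀ = id`). -/
theorem exists_level_cocycle {p : ℕ} [Fact p.Prime] {N C : Type} [AddCommGroup N] [AddCommGroup C]
    (c : GQ → N) (ρ : GQ → N → N) (hρ0 : ∀ σ, ρ σ 0 = 0) (φ : C → N → N) (a₀ : C)
    (ha₀ : ∀ n, φ a₀ n = n)
    (h : FlatModel p (N × C) (fun σ e => (ρ σ e.1 + φ e.2 (c σ), e.2))) :
    ∃ L₀ : IntermediateField ℚ Qbar, FiniteDimensional ℚ L₀ ∧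
      ∀ σ ∈ L₀.fixingSubgroup, c σ = 0 := by
  obtain ⟨L₀, hfin, hL₀⟩ := exists_level h
  refine ⟨L₀, hfin, fun σ hσ => ?_⟩
  have := hL₀ σ hσ ((0 : N), a₀)
  have h1 := congrArg Prod.fst this
  simp only [hρ0, zero_add, ha₀] at h1
  exact h1

end Fermat.Agent.MAZ.Desc.FlatLevel19
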