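/-
MAZ (S15), descent side, helper19: HILBERT 90 AND KUMMER THEORY FOR COCYCLES OF `GQ = Gal(Qbar/ℚ)` OF FINITE LEVEL.

* `exists_coboundary` : a cocycle `c : GQ → Qbarˣ` (written with values in `Qbar`, nonvanishing),
  trivial on the fixing subgroup of a finite normal `L` and with values in `L`, is `σ ↦ σ β / β`,
  `β ∈ Lˣ` (Mathlib Hilbert 90 at level `L`).
* `exists_kummer` (K1) : if moreover `c σ ^ r = 1` for all `σ`, then `c σ = σ α / α` with
  `α ^ r = a ∈ ℚˣ`.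
-/
import Mathlib

set_option autoImplicit false
set_option linter.style.haveILetI false

namespace Fermat.Agent.MAZ.Desc.KummerH90_19

local notation "Qbar" => AlgebraicClosure ℚ
local notation "GQ" => (AlgebraicClosure ℚ) ≃ₐ[ℚ] (AlgebraicClosure ℚ)

local instance isAlgebraicQbar_k19 : Algebra.IsAlgebraic ℚ (AlgebraicClosure ℚ) :=
  AlgebraicClosure.isAlgebraic ℚ
local instance isAlgClosureQbar_k19 : IsAlgClosure ℚ (AlgebraicClosure ℚ) :=
  ⟨inferInstance, inferInstance⟩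
local instance normalQbar_k19 : Normal ℚ (AlgebraicClosure ℚ) :=
  IsAlgClosure.normal ℚ (AlgebraicClosure ℚ)
local instance isGaloisQbar_k19 : IsGalois ℚ (AlgebraicClosure ℚ) := ⟨⟩

/-- **Hilbert 90 for cocycles of finite level with values in `Qbarˣ`.** -/
theorem exists_coboundary (c : GQ → Qbar) (h0 : ∀ σ, c σ ≠ 0)
    (hc : ∀ σ τ : GQ, c (σ * τ) = c σ * σ (c τ))
    (L : IntermediateField ℚ Qbar) [FiniteDimensional ℚ L] [Normal ℚ L]
    (hL1 : ∀ σ ∈ L.fixingSubgroup, c σ = 1) (hLmem : ∀ σ, c σ ∈ L) :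
    ∃ β : Qbar, β ∈ L ∧ β ≠ 0 ∧ ∀ σ : GQ, c σ * β = σ β := by
  classical
  -- `c σ` depends only on `σ|_L`
  have hagree : ∀ σ σ' : GQ, (∀ x ∈ L, σ x = σ' x) → c σ = c σ' := by
    intro σ σ' h
    have hmem : σ⁻¹ * σ' ∈ L.fixingSubgroup := by
      rw [IntermediateField.mem_fixingSubgroup_iff]
      intro x hx
      change σ⁻¹ (σ' x) = x
      rw [← h x hx]
      exact AlgEquiv.symm_apply_apply σ x
    have h1 := hc σ (σ⁻¹ * σ')
    rw [mul_inv_cancel_left, hL1 _ hmem, map_one, mul_one] at h1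
    exact h1.symm
  let lift : (L ≃ₐ[ℚ] L) → GQ := fun τ => τ.liftNormal Qbar
  have hlift : ∀ (τ : L ≃ₐ[ℚ] L) (x : L), lift τ (x : Qbar) = ((τ x : L) : Qbar) :=
    fun τ x => AlgEquiv.liftNormal_commutes τ Qbar x
  let f : (L ≃ₐ[ℚ] L) → Lˣ := fun τ =>
    Units.mk0 ⟨c (lift τ), hLmem _⟩ (fun h => h0 (lift τ) (congrArg Subtype.val h))
  have hfcoe : ∀ τ, (((f τ : Lˣ) : L) : Qbar) = c (lift τ) := fun τ => rfl
  have hf : @groupCohomology.IsMulCocycle₁ (L ≃ₐ[ℚ] L) Lˣ _ _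
      (AlgEquiv.instMulDistribMulActionUnits (R := ℚ) (A₁ := L)).toMulAction.toSMul f := by
    intro τ τ'
    show f (τ * τ') = Units.map (τ : L →* L) (f τ') * f τ
    apply Units.ext
    apply Subtype.ext
    have h1 : c (lift (τ * τ')) = c (lift τ * lift τ') := by
      apply hagree
      intro x hx
      rw [hlift (τ * τ') ⟨x, hx⟩, AlgEquiv.mul_apply, AlgEquiv.mul_apply, hlift τ' ⟨x, hx⟩, hlift τ]
    have h3 : ((((Units.map (τ : L →* L) (f τ') * f τ : Lˣ) : Lˣ) : L) : Qbar)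
        = ((τ ((f τ' : Lˣ) : L) : L) : Qbar) * (((f τ : Lˣ) : L) : Qbar) := by
      rw [Units.val_mul, MulMemClass.coe_mul]
      rfl
    rw [h3, ← hlift τ, hfcoe, hfcoe, hfcoe, h1, hc, mul_comm]
  obtain ⟨β, hβ⟩ := groupCohomology.isMulCoboundary₁_of_isMulCocycle₁_of_aut_to_units f hf
  refine ⟨((β : L) : Qbar), (β : L).2, ?_, ?_⟩
  · intro h
    exact β.ne_zero (Subtype.ext h)
  · intro σ
    set τ : L ≃ₐ[ℚ] L := σ.restrictNormal L with hτ
    have hστ : ∀ x : L, σ (x : Qbar) = ((τ x : L) : Qbar) := fun x =>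
      (AlgEquiv.restrictNormal_commutes σ L x).symm
    have h1 : c σ = c (lift τ) := by
      apply hagree
      intro x hx
      rw [hlift τ ⟨x, hx⟩, ← hστ]
    have h2 : Units.map (τ : L →* L) β / β = f τ := hβ τ
    rw [div_eq_iff_eq_mul] at h2
    have h4 := congrArg (fun u : Lˣ => (((u : Lˣ) : L) : Qbar)) h2
    simp only [Units.val_mul, MulMemClass.coe_mul] at h4
    have h3 : (((Units.map (τ : L →* L) β : Lˣ) : L) : Qbar) = ((τ (β : L) : L) : Qbar) := rfl
    rw [h3, ← hστ, hfcoe, ← h1] at h4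
    exact h4.symm

/-- **(K1) Kummer theory over `ℚ`**: a cocycle of finite level with values in `μ_r(Qbar)` is
`σ ↦ σ α / α` with `α ^ r ∈ ℚˣ`. -/
theorem exists_kummer {r : ℕ} (hr : 0 < r) (c : GQ → Qbar)
    (hc : ∀ σ τ : GQ, c (σ * τ) = c σ * σ (c τ)) (hcr : ∀ σ, c σ ^ r = 1)
    (hopen : ∃ L₀ : IntermediateField ℚ Qbar, FiniteDimensional ℚ L₀ ∧
      ∀ σ ∈ L₀.fixingSubgroup, c σ = 1) :
    ∃ (α : Qbar) (a : ℚ), α ≠ 0 ∧ a ≠ 0 ∧ α ^ r = algebraMap ℚ Qbar a ∧
      ∀ σ : GQ, c σ * α = σ α := by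
  classical
  obtain ⟨L₀, hL₀fin, hL₀⟩ := hopen
  have h0 : ∀ σ, c σ ≠ 0 := by
    intro σ h
    have := hcr σ
    rw [h, zero_pow hr.ne'] at this
    exact zero_ne_one this
  -- the `r`-th roots of unity
  let Z : Set Qbar := {z | z ^ r = 1}
  have hZfin : Z.Finite := by
    have h1 : Z ⊆ ((Polynomial.X ^ r - 1 : Polynomial Qbar).roots.toFinset : Set Qbar) := by
      intro z hz
      have hz' : z ^ r = 1 := hz
      have hne : (Polynomial.X ^ r - 1 : Polynomial Qbar) ≠ 0 :=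
        Polynomial.X_pow_sub_C_ne_zero hr 1
      simp only [Finset.mem_coe, Multiset.mem_toFinset]
      rw [Polynomial.mem_roots hne]
      simp [hz']
    exact Set.Finite.subset (Finset.finite_toSet _) h1
  haveI : Finite Z := hZfin.to_subtype
  haveI : FiniteDimensional ℚ (IntermediateField.adjoin ℚ Z) :=
    IntermediateField.finiteDimensional_adjoin (fun z _ => (Algebra.IsIntegral.isIntegral z))
  let L₁ : IntermediateField ℚ Qbar := L₀ ⊔ IntermediateField.adjoin ℚ Z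
  haveI : FiniteDimensional ℚ L₁ := IntermediateField.finiteDimensional_sup _ _
  let L : IntermediateField ℚ Qbar := IntermediateField.normalClosure ℚ L₁ Qbar
  have hL₁L : L₁ ≤ L := IntermediateField.le_normalClosure L₁
  have hN : @Normal ℚ L _ _ (IntermediateField.algebra' L) := normalClosure.normal ℚ L₁ Qbar
  haveI : Normal ℚ L := by
    have e : (IntermediateField.algebra' L : Algebra ℚ L) = DivisionRing.toRatAlgebra :=
      Subsingleton.elim _ _
    rw [← e]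
    exact hN
  haveI : FiniteDimensional ℚ L := normalClosure.is_finiteDimensional ℚ L₁ Qbar
  have hL1 : ∀ σ ∈ L.fixingSubgroup, c σ = 1 := by
    intro σ hσ
    apply hL₀
    exact IntermediateField.fixingSubgroup_antitone ((le_sup_left : L₀ ≤ L₁).trans hL₁L) hσ
  have hLmem : ∀ σ, c σ ∈ L := by
    intro σ
    apply hL₁L
    apply (le_sup_right : IntermediateField.adjoin ℚ Z ≤ L₁)
    exact IntermediateField.subset_adjoin ℚ Z (hcr σ)
  obtain ⟨β, -, hβ0, hβ⟩ := exists_coboundary c h0 hc L hL1 hLmem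
  have hfix : ∀ σ : GQ, σ (β ^ r) = β ^ r := by
    intro σ
    rw [map_pow, ← hβ σ, mul_pow, hcr σ, one_mul]
  obtain ⟨a, ha⟩ := (InfiniteGalois.mem_range_algebraMap_iff_fixed (k := ℚ) (K := Qbar) (β ^ r)).2 hfix
  refine ⟨β, a, hβ0, ?_, ha.symm, hβ⟩
  rintro rfl
  rw [map_zero] at ha
  exact pow_ne_zero r hβ0 ha.symm

end Fermat.Agent.MAZ.Desc.KummerH90_19
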