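/-
MAZ (S15), descent side, helper19: KUMMER THEORY FOR THE RANK-ONE CASE `μ_r` — elementary part.

* `exists_pow_eq_of_forall_dvd_factorization` : a positive integer all of whose prime exponents are
  divisible by `r` is an `r`-th power.
* `exists_pow_eq_of_forall_dvd_padicValRat` (K3) : a nonzero rational `a` with `r ∣ v_ℓ(a)` for every
  prime `ℓ` is `± w^r`.  (So the classes of `ℚˣ/ℚˣ^r` which are units everywhere are `±1`:
  `H¹(Spec ℤ, μ_r) = ℤˣ/ℤˣ^r`.)
-/
import Mathlib

set_option autoImplicit false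

namespace Fermat.Agent.MAZ.Desc.KummerUnits19

/-- A positive integer all of whose prime exponents are divisible by `r` is an `r`-th power. -/
theorem exists_pow_eq_of_forall_dvd_factorization {r : ℕ} (n : ℕ) (hn : n ≠ 0)
    (h : ∀ p : ℕ, r ∣ n.factorization p) : ∃ m : ℕ, n = m ^ r := by
  refine ⟨n.factorization.prod (fun p k => p ^ (k / r)), ?_⟩
  rw [Finsupp.prod, ← Finset.prod_pow]
  conv_lhs => rw [← Nat.prod_factorization_pow_eq_self hn, Finsupp.prod]
  apply Finset.prod_congr rfl
  intro p _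
  rw [← pow_mul, Nat.div_mul_cancel (h p)]

/-- **(K3)** a nonzero rational whose valuations are all divisible by `r` is `± w^r`. -/
theorem exists_pow_eq_of_forall_dvd_padicValRat {r : ℕ} (a : ℚ) (ha : a ≠ 0)
    (h : ∀ ℓ : ℕ, ℓ.Prime → (r : ℤ) ∣ padicValRat ℓ a) : ∃ w : ℚ, a = w ^ r ∨ a = -w ^ r := by
  have hnum0 : a.num ≠ 0 := Rat.num_ne_zero.2 ha
  have hden0 : a.den ≠ 0 := a.den_ne_zero
  have hcop : Nat.Coprime a.num.natAbs a.den := a.reduced
  have hval : ∀ p : ℕ, padicValInt p a.num = padicValNat p a.num.natAbs := fun p => rfl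
  -- exponents of numerator and denominator
  have hnum : ∀ p : ℕ, r ∣ a.num.natAbs.factorization p := by
    intro p
    by_cases hp : p.Prime
    · have h1 := h p hp
      rw [padicValRat_def] at h1
      by_cases hpd : p ∣ a.den
      · have : ¬ p ∣ a.num.natAbs := fun hpn =>
          hp.one_lt.ne' (Nat.eq_one_of_dvd_coprimes hcop hpn hpd)
        rw [Nat.factorization_eq_zero_of_not_dvd this]
        exact dvd_zero r
      · rw [padicValNat.eq_zero_of_not_dvd hpd, Nat.cast_zero, sub_zero, hval] at h1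
        rw [Nat.factorization_def _ hp]
        exact_mod_cast h1
    · rw [Nat.factorization_eq_zero_of_not_prime _ hp]
      exact dvd_zero r
  have hden : ∀ p : ℕ, r ∣ a.den.factorization p := by
    intro p
    by_cases hp : p.Prime
    · have h1 := h p hp
      rw [padicValRat_def] at h1
      by_cases hpd : p ∣ a.den
      · have hpn : ¬ p ∣ a.num.natAbs := fun hpn =>
          hp.one_lt.ne' (Nat.eq_one_of_dvd_coprimes hcop hpn hpd)
        rw [hval, padicValNat.eq_zero_of_not_dvd hpn, Nat.cast_zero, zero_sub, dvd_neg] at h1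
        rw [Nat.factorization_def _ hp]
        exact_mod_cast h1
      · rw [Nat.factorization_eq_zero_of_not_dvd hpd]
        exact dvd_zero r
    · rw [Nat.factorization_eq_zero_of_not_prime _ hp]
      exact dvd_zero r
  obtain ⟨n, hn⟩ := exists_pow_eq_of_forall_dvd_factorization a.num.natAbs
    (Int.natAbs_ne_zero.2 hnum0) hnum
  obtain ⟨d, hd⟩ := exists_pow_eq_of_forall_dvd_factorization a.den hden0 hden
  have hnumQ : ((a.num.natAbs : ℕ) : ℚ) = (n : ℚ) ^ r := by rw [hn]; push_cast; rfl
  have hdenQ : ((a.den : ℕ) : ℚ) = (d : ℚ) ^ r := by rw [hd]; push_cast; rfl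
  have ha' : a = (a.num : ℚ) / (a.den : ℚ) := (Rat.num_div_den a).symm
  refine ⟨(n : ℚ) / d, ?_⟩
  rcases Int.natAbs_eq a.num with hs | hs
  · left
    have h1 : (a.num : ℚ) = ((a.num.natAbs : ℕ) : ℚ) := by
      conv_lhs => rw [hs]
      rw [Int.cast_natCast]
    rw [div_pow, ← hnumQ, ← hdenQ, ← h1]
    exact ha'
  · right
    have h1 : (a.num : ℚ) = -((a.num.natAbs : ℕ) : ℚ) := by
      conv_lhs => rw [hs]
      rw [Int.cast_neg, Int.cast_natCast]
    rw [div_pow, ← hnumQ, ← hdenQ, ← neg_div, ← h1]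
    exact ha'

end Fermat.Agent.MAZ.Desc.KummerUnits19
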