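/-
MAZ (S15), descent side, helper19: (K2) A KUMMER EXTENSION UNRAMIFIED AT `ℓ` HAS `r ∣ v_ℓ(a)`.

* `inertia_le_fixingSubgroup_conjugates` : if every inertia group over `ℓ` fixes `β`, then every
  inertia group over `ℓ` fixes the field generated by all conjugates of `β`.
* `dvd_padicValNat_of_unramified` : `β ^ r = N ∈ ℤ \ {0}`, all inertia groups over `ℓ` fix `β`
  ⟹ `r ∣ v_ℓ(N)`.
* `dvd_padicValRat_of_unramified` (K2) : `α ^ r = a ∈ ℚˣ`, all inertia groups over `ℓ` fix `α`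
  ⟹ `(r : ℤ) ∣ padicValRat ℓ a`.
-/
import Mathlib
import Fermat.Agent.PT.BR.UnramBridge13

set_option autoImplicit false
set_option linter.style.haveILetI false

namespace Fermat.Agent.MAZ.Desc.KummerUnr19

open NumberField
open scoped Pointwise

local notation "Qbar" => AlgebraicClosure ℚ
local notation "GQ" => (AlgebraicClosure ℚ) ≃ₐ[ℚ] (AlgebraicClosure ℚ)

/-- If every inertia group over `ℓ` fixes `β`, every inertia group over `ℓ` fixes the field
generated by the conjugates of `β`. -/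
theorem inertia_le_fixingSubgroup_conjugates {ℓ : ℕ} (hℓ : ℓ.Prime) (β : Qbar)
    (hunr : ∀ A : ValuationSubring Qbar, A.LiesOverPrime ℓ →
      ∀ σ ∈ A.inertiaSubgroupIn ℚ, σ β = β)
    (A : ValuationSubring Qbar) (hA : A.LiesOverPrime ℓ) :
    A.inertiaSubgroupIn ℚ ≤
      (IntermediateField.adjoin ℚ (Set.range fun g : GQ => g β)).fixingSubgroup := by
  rw [← IntermediateField.le_iff_le, IntermediateField.adjoin_le_iff]
  rintro _ ⟨g, rfl⟩
  rw [SetLike.mem_coe, IntermediateField.mem_fixedField_iff]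
  intro σ hσ
  have h1 := Fermat.Agent.PT.BR.UnramBridge13.conj_mem_inertiaSubgroupIn hℓ hA g⁻¹ hσ
  have h2 := hunr _ (Fermat.Agent.PT.BR.UnramBridge13.liesOverPrime_smul g⁻¹ hA) _ h1
  rw [inv_inv, AlgEquiv.mul_apply, AlgEquiv.mul_apply] at h2
  have h3 := congrArg g h2
  rw [← AlgEquiv.mul_apply g g⁻¹, mul_inv_cancel, AlgEquiv.one_apply] at h3
  exact h3

/-- Integral form of (K2). -/
theorem dvd_padicValNat_of_unramified {r ℓ : ℕ} (hℓ : ℓ.Prime) (β : Qbar) (N : ℤ) (hN : N ≠ 0)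
    (hβ : β ^ r = (N : Qbar))
    (hunr : ∀ A : ValuationSubring Qbar, A.LiesOverPrime ℓ →
      ∀ σ ∈ A.inertiaSubgroupIn ℚ, σ β = β) :
    r ∣ padicValNat ℓ N.natAbs := by
  classical
  rcases Nat.eq_zero_or_pos r with rfl | hr
  · rw [pow_zero] at hβ
    have h1 : N = 1 := by exact_mod_cast hβ.symm
    rw [h1]
    simp
  haveI : Fact ℓ.Prime := ⟨hℓ⟩
  -- the field of conjugates
  set S : Set Qbar := Set.range fun g : GQ => g β with hS
  have hSfin : S.Finite := by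
    have hne : (Polynomial.X ^ r - Polynomial.C (N : Qbar) : Polynomial Qbar) ≠ 0 :=
      Polynomial.X_pow_sub_C_ne_zero hr _
    have h1 : S ⊆ ((Polynomial.X ^ r - Polynomial.C (N : Qbar) : Polynomial Qbar).roots.toFinset :
        Set Qbar) := by
      rintro _ ⟨g, rfl⟩
      simp only [Finset.mem_coe, Multiset.mem_toFinset]
      rw [Polynomial.mem_roots hne]
      simp only [Polynomial.IsRoot.def, Polynomial.eval_sub, Polynomial.eval_pow,
        Polynomial.eval_X, Polynomial.eval_C]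
      rw [← map_pow, hβ, map_intCast, sub_self]
    exact Set.Finite.subset (Finset.finite_toSet _) h1
  haveI : Finite S := hSfin.to_subtype
  set L : IntermediateField ℚ Qbar := IntermediateField.adjoin ℚ S with hL
  haveI : FiniteDimensional ℚ L :=
    IntermediateField.finiteDimensional_adjoin (fun z _ => (Algebra.IsIntegral.isIntegral z))
  have hN' : @Normal ℚ L _ _ (IntermediateField.algebra' L) := by
    rw [IntermediateField.normal_iff_forall_map_le']
    intro σ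
    rw [hL, IntermediateField.adjoin_map]
    apply IntermediateField.adjoin.mono
    rintro _ ⟨_, ⟨g, rfl⟩, rfl⟩
    exact ⟨σ * g, rfl⟩
  haveI : Normal ℚ L := by
    have e : (IntermediateField.algebra' L : Algebra ℚ L) = DivisionRing.toRatAlgebra :=
      Subsingleton.elim _ _
    rw [← e]
    exact hN'
  haveI : IsGalois ℚ L := ⟨⟩
  have hβL : β ∈ L := IntermediateField.subset_adjoin ℚ S ⟨1, rfl⟩
  have hβint : IsIntegral ℤ (⟨β, hβL⟩ : L) := by
    refine ⟨Polynomial.X ^ r - Polynomial.C N, Polynomial.monic_X_pow_sub_C N hr.ne', ?_⟩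
    rw [Polynomial.eval₂_sub, Polynomial.eval₂_pow, Polynomial.eval₂_X, Polynomial.eval₂_C]
    apply Subtype.ext
    simp [hβ]
  obtain ⟨b, hb⟩ := Fermat.Agent.S14.UnramLevel.exists_integer_eq L hβint
  have hbr : b ^ r = (N : 𝓞 L) := by
    apply RingOfIntegers.ext
    apply Subtype.ext
    simp [hb, hβ]
  have hb0 : b ≠ 0 := by
    rintro rfl
    rw [zero_pow hr.ne'] at hbr
    have : (N : 𝓞 L) = ((0 : ℤ) : 𝓞 L) := by rw [← hbr]; simp
    exact hN (Int.cast_injective this)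
  -- a prime over `ℓ`
  set q : Ideal ℤ := Ideal.span {(ℓ : ℤ)} with hq
  haveI : q.IsMaximal := Int.ideal_span_isMaximal_of_prime ℓ
  obtain ⟨P, hPmax, hPq⟩ := Ideal.exists_maximal_ideal_liesOver_of_isIntegral (S := 𝓞 L) q
  haveI := hPmax
  haveI := hPq
  haveI : P.IsPrime := hPmax.isPrime
  have hmemP : ∀ n : ℤ, (n : 𝓞 L) ∈ P ↔ (ℓ : ℤ) ∣ n := by
    intro n
    have h1 : (n : 𝓞 L) ∈ P ↔ n ∈ P.under ℤ := by
      rw [Ideal.under_def, Ideal.mem_comap]
      simp
    rw [h1, ← Ideal.over_def P q, hq, Ideal.mem_span_singleton]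
  have hℓP : (ℓ : 𝓞 L) ∈ P := by
    have := (hmemP (ℓ : ℤ)).2 dvd_rfl
    simpa using this
  have hP0 : P ≠ ⊥ := by
    rintro rfl
    have h0 : (ℓ : 𝓞 L) = 0 := hℓP
    exact hℓ.ne_zero (by exact_mod_cast h0)
  have hPprime : Prime P := Ideal.prime_of_isPrime hP0 inferInstance
  -- inertia is trivial, so `e = 1`
  have hI : P.inertia (L ≃ₐ[ℚ] L) = ⊥ :=
    Fermat.Agent.S14.UnramLevel.inertia_eq_bot L hℓ
      (inertia_le_fixingSubgroup_conjugates hℓ β hunr) P hℓP
  have hcard := Ideal.card_inertia_eq_ramificationIdxIn (G := L ≃ₐ[ℚ] L) q P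
  rw [hI, Subgroup.card_bot, Ideal.ramificationIdxIn_eq_ramificationIdx q P (L ≃ₐ[ℚ] L)] at hcard
  have hmap : q.map (algebraMap ℤ (𝓞 L)) = Ideal.span {(ℓ : 𝓞 L)} := by
    rw [hq, Ideal.map_span, Set.image_singleton]
    simp
  have hℓ0 : (Ideal.span {(ℓ : 𝓞 L)} : Ideal (𝓞 L)) ≠ ⊥ := by
    rw [Ne, Ideal.span_singleton_eq_bot]
    exact_mod_cast hℓ.ne_zero
  have hmult : multiplicity P (Ideal.span {(ℓ : 𝓞 L)}) = 1 := by
    rw [← hmap, ← Ideal.IsDedekindDomain.ramificationIdx_eq_multiplicity q P (by rw [hmap]; exact hℓ0)]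
    exact hcard.symm
  have hPunit : ¬ IsUnit P := by
    rw [Ideal.isUnit_iff]
    exact hPmax.ne_top
  have hfinℓ : FiniteMultiplicity P (Ideal.span {(ℓ : 𝓞 L)}) :=
    FiniteMultiplicity.of_not_isUnit hPunit hℓ0
  have hemℓ : emultiplicity P (Ideal.span {(ℓ : 𝓞 L)}) = 1 := by
    rw [hfinℓ.emultiplicity_eq_multiplicity, hmult]
    rfl
  -- decompose `|N| = ℓ ^ k * w`
  set k := padicValNat ℓ N.natAbs with hk
  have hNabs : N.natAbs ≠ 0 := Int.natAbs_ne_zero.2 hN
  obtain ⟨w, hw⟩ : ℓ ^ k ∣ N.natAbs := pow_padicValNat_dvd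
  have hℓw : ¬ ℓ ∣ w := by
    rintro ⟨w', rfl⟩
    apply pow_succ_padicValNat_not_dvd (p := ℓ) hNabs
    rw [← hk]
    exact ⟨w', by rw [hw]; ring⟩
  have hwP : (w : 𝓞 L) ∉ P := by
    intro h
    have := (hmemP (w : ℤ)).1 (by simpa using h)
    exact hℓw (by exact_mod_cast this)
  have hemw : emultiplicity P (Ideal.span {(w : 𝓞 L)}) = 0 := by
    rw [emultiplicity_eq_zero, Ideal.dvd_span_singleton]
    exact hwP
  have hspanN : Ideal.span {(N : 𝓞 L)} = Ideal.span {(ℓ : 𝓞 L)} ^ k * Ideal.span {(w : 𝓞 L)} := by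
    rw [Ideal.span_singleton_pow, Ideal.span_singleton_mul_span_singleton]
    have h2 : ((N.natAbs : ℕ) : 𝓞 L) = (ℓ : 𝓞 L) ^ k * (w : 𝓞 L) := by
      rw [hw]; push_cast; rfl
    rcases Int.natAbs_eq N with h | h
    · rw [← h2]
      congr 2
      conv_lhs => rw [h]
      simp
    · rw [← h2, ← Ideal.span_singleton_neg]
      congr 2
      conv_lhs => rw [h]
      simp
  have hmain : (r : ℕ∞) * emultiplicity P (Ideal.span {b}) = k := by
    rw [← emultiplicity_pow hPprime, Ideal.span_singleton_pow, hbr, hspanN,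
      emultiplicity_mul hPprime, emultiplicity_pow hPprime, hemℓ, hemw, mul_one, add_zero]
  have hfinb : FiniteMultiplicity P (Ideal.span {b}) :=
    FiniteMultiplicity.of_not_isUnit hPunit (by
      rw [Ne, Ideal.zero_eq_bot, Ideal.span_singleton_eq_bot]; exact hb0)
  rw [hfinb.emultiplicity_eq_multiplicity] at hmain
  refine ⟨multiplicity P (Ideal.span {b}), ?_⟩
  exact_mod_cast hmain.symm

/-- **(K2)** If `α ^ r = a ∈ ℚˣ` and every inertia group over `ℓ` fixes `α`, then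
`r ∣ v_ℓ(a)`. -/
theorem dvd_padicValRat_of_unramified {r ℓ : ℕ} (hℓ : ℓ.Prime) (α : Qbar) (a : ℚ) (ha : a ≠ 0)
    (hα : α ^ r = algebraMap ℚ Qbar a)
    (hunr : ∀ A : ValuationSubring Qbar, A.LiesOverPrime ℓ →
      ∀ σ ∈ A.inertiaSubgroupIn ℚ, σ α = α) :
    (r : ℤ) ∣ padicValRat ℓ a := by
  haveI : Fact ℓ.Prime := ⟨hℓ⟩
  rcases Nat.eq_zero_or_pos r with rfl | hr
  · rw [pow_zero] at hα
    have h1 : a = 1 := by
      have : algebraMap ℚ Qbar a = algebraMap ℚ Qbar 1 := by rw [← hα, map_one]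
      exact (algebraMap ℚ Qbar).injective this
    rw [h1]
    simp
  -- `β := α * den`, `β ^ r = num * den ^ (r - 1)`
  set N : ℤ := a.num * (a.den : ℤ) ^ (r - 1) with hNdef
  have hden0 : (a.den : ℤ) ≠ 0 := by exact_mod_cast a.den_ne_zero
  have hnum0 : a.num ≠ 0 := Rat.num_ne_zero.2 ha
  have hN0 : N ≠ 0 := mul_ne_zero hnum0 (pow_ne_zero _ hden0)
  have hβ : (α * (a.den : Qbar)) ^ r = (N : Qbar) := by
    rw [mul_pow, hα]
    have h1 : (a : ℚ) * (a.den : ℚ) ^ r = (N : ℚ) := by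
      rw [hNdef]
      push_cast
      have h2 : (a.den : ℚ) ^ r = (a.den : ℚ) ^ (r - 1) * a.den := by
        rw [← pow_succ, Nat.sub_add_cancel hr]
      rw [h2]
      have h3 : (a : ℚ) * (a.den : ℚ) = a.num := Rat.mul_den_eq_num a
      calc (a : ℚ) * ((a.den : ℚ) ^ (r - 1) * a.den) = (a * a.den) * (a.den : ℚ) ^ (r - 1) := by ring
        _ = (a.num : ℚ) * (a.den : ℚ) ^ (r - 1) := by rw [h3]
    have h4 := congrArg (algebraMap ℚ Qbar) h1
    rw [map_mul, map_pow, map_natCast, map_intCast] at h4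
    exact h4
  have hunr' : ∀ A : ValuationSubring Qbar, A.LiesOverPrime ℓ →
      ∀ σ ∈ A.inertiaSubgroupIn ℚ, σ (α * (a.den : Qbar)) = α * (a.den : Qbar) := by
    intro A hA σ hσ
    rw [map_mul, hunr A hA σ hσ, map_natCast]
  have hdvd := dvd_padicValNat_of_unramified hℓ (α * (a.den : Qbar)) N hN0 hβ hunr'
  -- `v_ℓ(N) = v_ℓ(num) + (r - 1) v_ℓ(den) ≡ v_ℓ(a) mod r`
  have hvN : (padicValNat ℓ N.natAbs : ℤ) = padicValInt ℓ a.num + (r - 1 : ℕ) * padicValNat ℓ a.den := by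
    have h1 : padicValNat ℓ N.natAbs = padicValInt ℓ N := rfl
    rw [h1, hNdef, padicValInt.mul hnum0 (pow_ne_zero _ hden0)]
    have h2 : padicValInt ℓ ((a.den : ℤ) ^ (r - 1)) = (r - 1) * padicValNat ℓ a.den := by
      unfold padicValInt
      rw [Int.natAbs_pow, Int.natAbs_natCast, padicValNat.pow]
    rw [h2]
    push_cast
    rfl
  have hva : padicValRat ℓ a = padicValInt ℓ a.num - padicValNat ℓ a.den := rfl
  have hdvd' : (r : ℤ) ∣ (padicValNat ℓ N.natAbs : ℤ) := by exact_mod_cast hdvd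
  rw [hvN] at hdvd'
  rw [hva]
  have h5 : (padicValInt ℓ a.num : ℤ) - padicValNat ℓ a.den
      = ((padicValInt ℓ a.num : ℤ) + ((r - 1 : ℕ) : ℤ) * padicValNat ℓ a.den)
        - (r : ℤ) * padicValNat ℓ a.den := by
    have h6 : ((r - 1 : ℕ) : ℤ) = (r : ℤ) - 1 := by
      rw [Nat.cast_sub hr]; simp
    rw [h6]; ring
  rw [h5]
  exact dvd_sub hdvd' (dvd_mul_right _ _)

end Fermat.Agent.MAZ.Desc.KummerUnr19
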