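/-
MAZ (S15), descent side, helper19: MINKOWSKI'S THEOREM IN THE S14/S15 VOCABULARY
(`Qbar = AlgebraicClosure ℚ`, `GQ = Qbar ≃ₐ[ℚ] Qbar`, valuation subrings `A` of `Qbar`,
`A.LiesOverPrime ℓ`, `A.inertiaSubgroupIn ℚ`).

* `eq_bot_of_unramified` : a finite Galois `K/ℚ` inside `Qbar` on which every inertia group `I_A`
  acts trivially is `ℚ`.
* `hom_eq_one_of_unramified` : a homomorphism `f : GQ →* U` which factors through a finite level and
  kills every inertia group is trivial.  (Rank-one case "`ℤ/r` finite over `Spec ℤ`" of Mazur's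
  descent: `H¹(Spec ℤ, ℤ/r) = 0`.)
* `addHom_eq_zero_of_unramified` : additive form, for `c : GQ → M` with `c (σ τ) = c σ + c τ`.

Inputs: Mathlib's `NumberField.exists_not_isUnramifiedAt_int` (discriminant bound + different) and
helper8's bridge `S14.UnramLevel.inertia_eq_bot`.
-/
import Mathlib
import Fermat.Agent.S14.UnramLevel

set_option autoImplicit false
set_option linter.style.haveILetI false

namespace Fermat.Agent.MAZ.Desc.Minkowski19

open NumberField

local notation "Qbar" => AlgebraicClosure ℚ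
local notation "GQ" => (AlgebraicClosure ℚ) ≃ₐ[ℚ] (AlgebraicClosure ℚ)

/-- A finite Galois extension of `ℚ` inside `Qbar` on which every inertia group acts trivially is
`ℚ`. -/
theorem eq_bot_of_unramified (K : IntermediateField ℚ Qbar) [FiniteDimensional ℚ K]
    [IsGalois ℚ K]
    (h : ∀ ℓ : ℕ, ℓ.Prime → ∀ A : ValuationSubring Qbar, A.LiesOverPrime ℓ →
      A.inertiaSubgroupIn ℚ ≤ K.fixingSubgroup) : K = ⊥ := by
  by_contra hK
  have hrank : Module.finrank ℚ K ≠ 1 := fun h1 => hK (IntermediateField.finrank_eq_one_iff.1 h1)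
  obtain ⟨P, hPmax, hPram⟩ := NumberField.exists_not_isUnramifiedAt_int (K := K) (𝒪 := 𝓞 K) hrank
  apply hPram
  haveI : P.IsPrime := hPmax.isPrime
  -- the rational prime below `P`
  have hP0 : P ≠ ⊥ := Ideal.IsMaximal.ne_bot_of_isIntegral_int P
  set q : Ideal ℤ := P.under ℤ with hq
  haveI : P.LiesOver q := ⟨rfl⟩
  have hq0 : q ≠ ⊥ := fun h0 => hP0 (Ideal.eq_bot_of_comap_eq_bot h0)
  haveI : q.IsMaximal := Ring.DimensionLEOne.maximalOfPrime hq0 inferInstance
  obtain ⟨ℓ', hℓ'⟩ := IsPrincipalIdealRing.principal q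
  have hℓ'0 : ℓ' ≠ 0 := by
    rintro rfl
    apply hq0
    rw [hℓ']
    simp
  have hℓ'prime : Prime ℓ' := by
    rw [← Ideal.span_singleton_prime hℓ'0]
    have : (Ideal.span {ℓ'} : Ideal ℤ) = q := hℓ'.symm
    rw [this]
    infer_instance
  have hℓprime : ℓ'.natAbs.Prime := Int.prime_iff_natAbs_prime.mp hℓ'prime
  have hℓP : ((ℓ'.natAbs : ℕ) : 𝓞 K) ∈ P := by
    have h1 : (ℓ'.natAbs : ℤ) ∈ q := by
      rw [hℓ']
      exact Ideal.mem_span_singleton.2 (Int.dvd_natAbs.2 dvd_rfl)
    have h2 : algebraMap ℤ (𝓞 K) (ℓ'.natAbs : ℤ) ∈ P := h1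
    simpa using h2
  -- inertia is trivial
  have hI : P.inertia (K ≃ₐ[ℚ] K) = ⊥ :=
    Fermat.Agent.S14.UnramLevel.inertia_eq_bot K hℓprime (h _ hℓprime) P hℓP
  have hcard := Ideal.card_inertia_eq_ramificationIdxIn (G := K ≃ₐ[ℚ] K) q P
  rw [hI, Subgroup.card_bot, Ideal.ramificationIdxIn_eq_ramificationIdx q P (K ≃ₐ[ℚ] K)] at hcard
  exact Ideal.ramificationIdx_eq_one_iff.1 hcard.symm

/-- A homomorphism from `GQ` which factors through a finite level and kills every inertia group is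
trivial. -/
theorem hom_eq_one_of_unramified {U : Type*} [Group U] (f : GQ →* U)
    (hopen : ∃ L : IntermediateField ℚ Qbar, FiniteDimensional ℚ L ∧ L.fixingSubgroup ≤ f.ker)
    (hunr : ∀ ℓ : ℕ, ℓ.Prime → ∀ A : ValuationSubring Qbar, A.LiesOverPrime ℓ →
      ∀ σ ∈ A.inertiaSubgroupIn ℚ, f σ = 1) : ∀ σ : GQ, f σ = 1 := by
  obtain ⟨L, hLfin, hL⟩ := hopen
  set K : IntermediateField ℚ Qbar := IntermediateField.fixedField f.ker with hKdef
  -- `K ≤ L`
  have hKL : K ≤ L := by
    intro x hx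
    rw [← InfiniteGalois.fixedField_fixingSubgroup L, IntermediateField.mem_fixedField_iff]
    intro g hg
    exact (IntermediateField.mem_fixedField_iff _ x).1 hx g (hL hg)
  haveI : FiniteDimensional ℚ K :=
    Module.Finite.of_injective (IntermediateField.inclusion hKL).toLinearMap
      (IntermediateField.inclusion hKL).injective
  -- `K` is normal
  have hN : @Normal ℚ K _ _ (IntermediateField.algebra' K) := by
    rw [IntermediateField.normal_iff_forall_map_le']
    rintro σ _ ⟨x, hx, rfl⟩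
    rw [hKdef, IntermediateField.mem_fixedField_iff]
    intro g hg
    have hx' := (IntermediateField.mem_fixedField_iff _ x).1 hx
    have hconj : σ⁻¹ * g * σ ∈ f.ker := by
      rw [MonoidHom.mem_ker] at hg ⊢
      rw [map_mul, map_mul, hg, mul_one, ← map_mul, inv_mul_cancel, map_one]
    have h1 := hx' _ hconj
    change g (σ x) = σ x
    have h2 : σ ((σ⁻¹ * g * σ) x) = g (σ x) := by
      change σ (σ⁻¹ (g (σ x))) = g (σ x)
      exact AlgEquiv.apply_symm_apply σ _
    rw [← h2, h1]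
  haveI : Normal ℚ K := by
    have e : (IntermediateField.algebra' K : Algebra ℚ K) = DivisionRing.toRatAlgebra :=
      Subsingleton.elim _ _
    rw [← e]
    exact hN
  haveI : IsGalois ℚ K := ⟨⟩
  -- inertia acts trivially on `K`
  have hK : K = ⊥ := by
    apply eq_bot_of_unramified K
    intro ℓ hℓ A hA σ hσ
    rw [IntermediateField.mem_fixingSubgroup_iff]
    intro x hx
    exact (IntermediateField.mem_fixedField_iff _ x).1 hx σ (hunr ℓ hℓ A hA σ hσ)
  -- `ker f` is closed, hence equal to the fixing subgroup of its fixed field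
  have hopenL : IsOpen (L.fixingSubgroup : Set GQ) := L.fixingSubgroup_isOpen
  have hopenK : IsOpen (f.ker : Set GQ) := Subgroup.isOpen_mono hL hopenL
  have hclosed : IsClosed (f.ker : Set GQ) := Subgroup.isClosed_of_isOpen _ hopenK
  have hfix := InfiniteGalois.fixingSubgroup_fixedField (k := ℚ) (K := Qbar) ⟨f.ker, hclosed⟩
  have hfix' : K.fixingSubgroup = f.ker := hfix
  intro σ
  have : σ ∈ K.fixingSubgroup := by
    rw [hK, IntermediateField.mem_fixingSubgroup_iff]
    intro x hx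
    rw [IntermediateField.mem_bot] at hx
    obtain ⟨a, rfl⟩ := hx
    exact σ.commutes a
  rw [hfix'] at this
  exact this

/-- Form with an open kernel (Krull topology). -/
theorem hom_eq_one_of_unramified' {U : Type*} [Group U] (f : GQ →* U)
    (hopen : IsOpen (f.ker : Set GQ))
    (hunr : ∀ ℓ : ℕ, ℓ.Prime → ∀ A : ValuationSubring Qbar, A.LiesOverPrime ℓ →
      ∀ σ ∈ A.inertiaSubgroupIn ℚ, f σ = 1) : ∀ σ : GQ, f σ = 1 := by
  have h1 : (f.ker : Set GQ) ∈ nhds (1 : GQ) := hopen.mem_nhds (one_mem f.ker)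
  obtain ⟨L, hL, hsub⟩ := (krullTopology_mem_nhds_one_iff ℚ Qbar _).1 h1
  exact hom_eq_one_of_unramified f ⟨L, hL, hsub⟩ hunr

/-- Additive form: a crossed homomorphism for the trivial action, i.e. an additive character. -/
theorem addHom_eq_zero_of_unramified {M : Type*} [AddGroup M] (c : GQ → M)
    (hc : ∀ σ τ : GQ, c (σ * τ) = c σ + c τ)
    (hopen : ∃ L : IntermediateField ℚ Qbar, FiniteDimensional ℚ L ∧
      ∀ σ ∈ L.fixingSubgroup, c σ = 0)
    (hunr : ∀ ℓ : ℕ, ℓ.Prime → ∀ A : ValuationSubring Qbar, A.LiesOverPrime ℓ →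
      ∀ σ ∈ A.inertiaSubgroupIn ℚ, c σ = 0) : ∀ σ : GQ, c σ = 0 := by
  have hc1 : c 1 = 0 := by
    have := hc 1 1
    rw [mul_one] at this
    exact (add_eq_left.1 this.symm)
  let f : GQ →* Multiplicative M :=
    { toFun := fun σ => Multiplicative.ofAdd (c σ)
      map_one' := by rw [hc1]; rfl
      map_mul' := fun σ τ => by rw [hc]; rfl }
  obtain ⟨L, hLfin, hL⟩ := hopen
  have h := hom_eq_one_of_unramified f ⟨L, hLfin, fun σ hσ => by
    rw [MonoidHom.mem_ker]
    change Multiplicative.ofAdd (c σ) = 1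
    rw [hL σ hσ]; rfl⟩ (fun ℓ hℓ A hA σ hσ => by
    change Multiplicative.ofAdd (c σ) = 1
    rw [hunr ℓ hℓ A hA σ hσ]; rfl)
  intro σ
  have := h σ
  exact Multiplicative.ofAdd.injective this

end Fermat.Agent.MAZ.Desc.Minkowski19
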