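/-
MAZ (S15), descent side, helper19: THE FOUR RANK-ONE CASES OF THE EISENSTEIN DESCENT
(`Devissage95.RankOneBound`), `r` ODD.

`G = G_ℚ`, `D`, `I` = decomposition / inertia group of a fixed place `𝔄₀ ∣ p`, `N` a `G_ℚ`-module of
prime order `r` on which `G_ℚ` acts trivially (`ℤ/r`) or through the mod `r` cyclotomic character `χ`
(`μ_r`).  A cocycle `c : G_ℚ → N` is *admissible* (`IsAdm p c`) if it vanishes on the inertia groups at
the primes `q ∉ {r, p}` and the extension `E_c = N × ℤ/r` has a finite flat model over `ℤ_(r)`.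

* `eq_zero_of_trivial` (`N = ℤ/r`): an admissible cocycle vanishing on `I_{𝔄₀}` is `0`
  (Minkowski + FlatRank68 (R1)).
* `exists_eq_dd_of_chi` (`N = μ_r`): an admissible cocycle vanishing on `I_{𝔄₀}` is a coboundary
  (Hilbert 90 / Kummer theory (K1), `r ∣ v_ℓ(a)` at every `ℓ` ((K2), FlatRank68 (R2) at `ℓ = r`), and
  `ℤˣ = {±1}` (K3)).
* `rankOneBound` : `Devissage95.RankOneBound F D I r χ φ₀` for every admissible family whose cocycles on
  modules of order `r` are admissible in the sense above.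
-/
import Mathlib
import Fermat.Agent.MAZ.Desc.Devissage95
import Fermat.Agent.MAZ.Desc.Minkowski19
import Fermat.Agent.MAZ.Desc.KummerH90_19
import Fermat.Agent.MAZ.Desc.KummerUnits19
import Fermat.Agent.MAZ.Desc.KummerUnr19
import Fermat.Agent.MAZ.Desc.FlatLevel19
import Fermat.Agent.MAZ.Local.FlatRank68
import Fermat.Agent.ES.J.CycloChar8

set_option autoImplicit false
set_option linter.style.haveILetI false
set_option linter.unusedSectionVars false

namespace Fermat.Agent.MAZ.Desc.RankOne19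

open Fermat.Agent.MAZ.Desc.SelmerCone95 Fermat.Agent.MAZ.Desc.Devissage95
open Fermat.Agent.TW.FF.FlatModel68

local notation "Qbar" => AlgebraicClosure ℚ
local notation "GQ" => (AlgebraicClosure ℚ) ≃ₐ[ℚ] (AlgebraicClosure ℚ)

variable {r : ℕ} [hr : Fact r.Prime]

/-! ### Generalities -/

/-- inertia is contained in the decomposition group. -/
theorem inertia_le_decomposition {A : ValuationSubring Qbar} {σ : GQ}
    (hσ : σ ∈ A.inertiaSubgroupIn ℚ) : σ ∈ A.decompositionSubgroup ℚ := by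
  obtain ⟨τ, _, rfl⟩ := hσ
  exact τ.2

/-- inertia at `A ∣ q` fixes the roots of unity of order prime to `q`. -/
theorem inertia_fix_rootOfUnity {q : ℕ} (hq : q.Prime) {A : ValuationSubring Qbar}
    (hA : A.LiesOverPrime q) {m : ℕ} (hm : ¬ q ∣ m) {σ : GQ} (hσ : σ ∈ A.inertiaSubgroupIn ℚ)
    {z : Qbar} (hz : z ^ m = 1) : σ z = z := by
  have hm0 : m ≠ 0 := fun h0 => hm (h0 ▸ dvd_zero q)
  have hz0 : z ≠ 0 := by
    rintro rfl
    rw [zero_pow hm0] at hz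
    exact zero_ne_one hz
  have hzA : z ∈ A := Fermat.Agent.ES.J.CycloChar8.mem_of_pow_eq_one hm0 hz
  have h1 := Fermat.Agent.S05.Inertia.apply_sub_mem_nonunits hσ hzA
  have hσz : (σ z) ^ m = 1 := by rw [← map_pow, hz, map_one]
  have hη : (σ z * z⁻¹) ^ m = 1 := by
    rw [mul_pow, hσz, inv_pow, hz, inv_one, mul_one]
  have hvinv : A.valuation (z⁻¹) = 1 := by
    rw [map_inv₀, Fermat.Agent.ES.J.CycloChar8.valuation_eq_one_of_pow_eq_one hm0 hz, inv_one]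
  have hη1 : σ z * z⁻¹ - 1 ∈ A.nonunits := by
    have e : σ z * z⁻¹ - 1 = (σ z - z) * z⁻¹ := by
      rw [sub_mul, mul_inv_cancel₀ hz0]
    rw [e, ValuationSubring.mem_nonunits_iff, map_mul, hvinv, mul_one]
    exact (ValuationSubring.mem_nonunits_iff (A := A)).mp h1
  have h2 := Fermat.Agent.ES.J.CycloChar8.eq_one_of_sub_one_mem_nonunits hq hA hm hη hη1
  have := congrArg (· * z) h2
  simpa [mul_assoc, inv_mul_cancel₀ hz0] using this

/-- A group of order `r` embeds multiplicatively onto `μ_r(ℚ̄)`. -/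
theorem exists_mulEmb (N : Type) [AddCommGroup N] [Finite N] (hN : Nat.card N = r) :
    ∃ ψ : N → Qbar, (∀ x y, ψ (x + y) = ψ x * ψ y) ∧ (∀ x, ψ x ^ r = 1) ∧
      Function.Injective ψ ∧ (∀ z : Qbar, z ^ r = 1 → ∃ x, ψ x = z) ∧
      (∀ (k : ℕ) x, ψ (k • x) = ψ x ^ k) := by
  classical
  have hr' : r.Prime := hr.out
  haveI : NeZero r := ⟨hr'.ne_zero⟩
  haveI : NeZero (r : Qbar) := ⟨by exact_mod_cast hr'.ne_zero⟩
  haveI : IsAddCyclic N := isAddCyclic_of_prime_card hN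
  have hcard : Nat.card N = Nat.card (Additive (rootsOfUnity r Qbar)) := by
    rw [hN]
    have h1 : Nat.card (Additive (rootsOfUnity r Qbar)) = Nat.card (rootsOfUnity r Qbar) :=
      Nat.card_congr Additive.toMul
    rw [h1, HasEnoughRootsOfUnity.natCard_rootsOfUnity]
  let ψ₀ : N ≃+ Additive (rootsOfUnity r Qbar) := addEquivOfAddCyclicCardEq hcard
  refine ⟨fun x => (((ψ₀ x).toMul : rootsOfUnity r Qbar) : Qbarˣ), ?_, ?_, ?_, ?_, ?_⟩
  · intro x y
    simp only [map_add, toMul_add, Subgroup.coe_mul, Units.val_mul]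
  · intro x
    have := ((ψ₀ x).toMul : rootsOfUnity r Qbar).2
    rw [mem_rootsOfUnity] at this
    have h2 := congrArg (fun u : Qbarˣ => (u : Qbar)) this
    simpa using h2
  · intro x y hxy
    apply ψ₀.injective
    apply Additive.toMul.injective
    apply Subtype.ext
    apply Units.ext
    exact hxy
  · intro z hz
    have hz0 : z ≠ 0 := by
      rintro rfl
      rw [zero_pow hr'.ne_zero] at hz
      exact zero_ne_one hz
    let u : Qbarˣ := Units.mk0 z hz0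
    have hu : u ∈ rootsOfUnity r Qbar := by
      rw [mem_rootsOfUnity]
      apply Units.ext
      simpa [u] using hz
    refine ⟨ψ₀.symm (Additive.ofMul ⟨u, hu⟩), ?_⟩
    simp [u]
  · intro k x
    simp only [map_nsmul, toMul_nsmul, SubmonoidClass.coe_pow, Units.val_pow_eq_pow_val]

/-- A character which is cyclotomic on `μ_r` is trivial on every `σ` fixing `μ_r`. -/
theorem chi_eq_one_of_fix (χ : GQ →* ZMod r)
    (hχ : ∀ (σ : GQ) (z : Qbar), z ^ r = 1 → σ z = z ^ (χ σ).val) (σ : GQ)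
    (hσ : ∀ z : Qbar, z ^ r = 1 → σ z = z) : χ σ = 1 := by
  have hr' : r.Prime := hr.out
  haveI : NeZero r := ⟨hr'.ne_zero⟩
  haveI : NeZero (r : Qbar) := ⟨by exact_mod_cast hr'.ne_zero⟩
  obtain ⟨ζ, hζ⟩ := HasEnoughRootsOfUnity.exists_primitiveRoot Qbar r
  have h1 : ζ ^ (χ σ).val = ζ ^ 1 := by
    rw [← hχ σ ζ hζ.pow_eq_one, hσ ζ hζ.pow_eq_one, pow_one]
  have h2 : (χ σ).val = 1 := hζ.pow_inj (ZMod.val_lt _) hr'.one_lt h1
  have h3 : ((χ σ).val : ZMod r) = χ σ := ZMod.natCast_zmod_val _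
  rw [← h3, h2, Nat.cast_one]

/-- the surjection from the `D`-invariants onto `H1S` when `Mf = ⊥` (finiteness of `H1S`). -/
theorem finite_H1S_of_bot {G : Type*} [Group G] {D I : Subgroup G} {M : Type*} [AddCommGroup M]
    [DistribMulAction G M] {𝕄 : ConeData D I M} [Finite M] (hbot : 𝕄.Mf = ⊥)
    (H : ∀ c ∈ 𝕄.Z, (∃ a : M, ∀ σ ∈ D, c σ = σ • a - a) → ∃ m : M, c = dd m) :
    Finite (H1S 𝕄) := by
  set φ : invariants D M →+ H1S 𝕄 := (H1S.mk 𝕄).comp (invToZ1S 𝕄) with hφ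
  have hsurj : Function.Surjective φ := by
    intro y
    obtain ⟨t, rfl⟩ := H1S.mk_surjective 𝕄 y
    obtain ⟨h1, h2, -, -, h5⟩ := t.2
    have hβ : ∀ σ : D, (t : Triple D M).2.2 σ = 0 := fun σ => by
      have := h2 σ
      rwa [hbot, AddSubgroup.mem_bot] at this
    obtain ⟨m, hm⟩ := H _ h1 ⟨(t : Triple D M).2.1, fun σ hσ => by
      have := h5 ⟨σ, hσ⟩
      rwa [hβ, zero_add] at this⟩
    have hinv : (t : Triple D M).2.1 - m ∈ invariants D M := by
      intro σ hσ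
      have := h5 ⟨σ, hσ⟩
      rw [hβ, zero_add, hm, dd_def] at this
      rw [smul_sub, sub_eq_sub_iff_sub_eq_sub]
      exact this.symm
    refine ⟨⟨_, hinv⟩, ?_⟩
    rw [hφ, AddMonoidHom.comp_apply, ← sub_eq_zero, ← map_sub, H1S.mk_eq_zero_iff]
    refine ⟨(-m, 0), ?_⟩
    rw [bd_apply, AddSubgroup.coe_sub, coe_invToZ1S]
    refine Prod.ext ?_ (Prod.ext ?_ ?_)
    · rw [dd_neg, ← hm]
      simp
    · simp
    · funext σ
      simp [hβ σ]
  exact Finite.of_surjective φ hsurj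

/-! ### Admissible cocycles on a module of order `r` -/

/-- the extension `E_c = N × ℤ/r` of `ℤ/r` by `N` defined by the cocycle `c`. -/
noncomputable def ext1 {N : Type} [AddCommGroup N] [DistribMulAction GQ N] (c : GQ → N) (σ : GQ)
    (e : N × ZMod r) : N × ZMod r :=
  (σ • e.1 + e.2.val • c σ, e.2)

/-- what the rank-one computations use of an admissible cocycle. -/
structure IsAdm (p : ℕ) {N : Type} [AddCommGroup N] [DistribMulAction GQ N] (c : GQ → N) :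
    Prop where
  cocycle : ∀ σ τ : GQ, c (σ * τ) = c σ + σ • c τ
  unr : ∀ q : ℕ, q.Prime → q ≠ r → q ≠ p → ∀ A : ValuationSubring Qbar, A.LiesOverPrime q →
    ∀ σ ∈ A.inertiaSubgroupIn ℚ, c σ = 0
  flat : FlatModel r (N × ZMod r) (ext1 (r := r) c)

section Adm

variable {p : ℕ} {N : Type} [AddCommGroup N] [DistribMulAction GQ N] {c : GQ → N}

theorem val_one_zmod : (1 : ZMod r).val = 1 := by
  haveI : Fact (1 < r) := ⟨hr.out.one_lt⟩
  exact ZMod.val_one r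

/-- an admissible cocycle is trivial on an open subgroup. -/
theorem IsAdm.isOpen (hc : IsAdm (r := r) p c) :
    ∃ L₀ : IntermediateField ℚ Qbar, FiniteDimensional ℚ L₀ ∧
      ∀ σ ∈ L₀.fixingSubgroup, c σ = 0 :=
  FlatLevel19.exists_level_cocycle (p := r) c (fun σ n => σ • n) (fun σ => smul_zero σ)
    (fun a n => a.val • n) (1 : ZMod r) (fun n => by rw [val_one_zmod, one_smul]) hc.flat

theorem IsAdm.map_one (hc : IsAdm (r := r) p c) : c 1 = 0 := by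
  have := hc.cocycle 1 1
  rw [mul_one, one_smul] at this
  exact add_eq_left.1 this.symm

theorem kill_ext1 (hkill : ∀ x : N, r • x = 0) (e : N × ZMod r) : r • e = 0 := by
  refine Prod.ext (hkill e.1) ?_
  change r • e.2 = 0
  rw [nsmul_eq_mul, ZMod.natCast_self, zero_mul]

/-- if `ext1 c σ` is the identity then `c σ = 0`. -/
theorem eq_zero_of_ext1_eq {σ : GQ} (h : ∀ e : N × ZMod r, ext1 (r := r) c σ e = e) : c σ = 0 := by
  have h1 := congrArg Prod.fst (h ((0 : N), (1 : ZMod r)))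
  simp only [ext1, smul_zero, zero_add, val_one_zmod, one_smul] at h1
  exact h1

/-- **(R1)**: an admissible cocycle vanishes on the inertia groups over `r` which act trivially on
`N`. -/
theorem IsAdm.eq_zero_of_inertia_r [Finite N] (hr2 : r ≠ 2) (hc : IsAdm (r := r) p c)
    (hkill : ∀ x : N, r • x = 0) {A : ValuationSubring Qbar} (hA : A.LiesOverPrime r)
    (htriv : ∀ σ ∈ A.inertiaSubgroupIn ℚ, ∀ x : N, σ • x = x) :
    ∀ σ ∈ A.inertiaSubgroupIn ℚ, c σ = 0 := by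
  haveI : NeZero r := ⟨hr.out.ne_zero⟩
  intro σ hσ
  apply eq_zero_of_ext1_eq (r := r)
  refine Fermat.Agent.MAZ.Local.FlatRank68.act_eq_of_flat_of_unipotent hr2 hc.flat
    (kill_ext1 hkill) hA (AddMonoidHom.snd N (ZMod r)).ker ?_ ?_ σ hσ
  · intro τ hτ w hw
    rw [AddMonoidHom.mem_ker, AddMonoidHom.coe_snd] at hw
    refine Prod.ext ?_ rfl
    simp only [ext1, hw, ZMod.val_zero, zero_smul, add_zero, htriv τ hτ]
  · intro τ hτ e
    rw [AddMonoidHom.mem_ker, AddMonoidHom.coe_snd]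
    simp [ext1]

/-- adapter: the extension `N × ℤ/r^k` (`k ≥ 1`) of a cocycle with values in a module killed by `r`
has the extension `N × ℤ/r` as an equivariant quotient; so a flat model of the former gives a flat
model of the latter. -/
theorem flat_ext1_of_flat_pow {k : ℕ} (hk : 0 < k) (hkill : ∀ x : N, r • x = 0)
    (hflat : FlatModel r (N × ZMod (r ^ k))
      (fun (σ : GQ) (e : N × ZMod (r ^ k)) => (σ • e.1 + e.2.val • c σ, e.2))) :
    FlatModel r (N × ZMod r) (ext1 (r := r) c) := by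
  haveI : NeZero r := ⟨hr.out.ne_zero⟩
  haveI : NeZero (r ^ k) := ⟨pow_ne_zero k hr.out.ne_zero⟩
  have hdvd : r ∣ r ^ k := dvd_pow_self r hk.ne'
  let f : N × ZMod (r ^ k) →+ N × ZMod r :=
    AddMonoidHom.prodMap (AddMonoidHom.id N) (ZMod.castHom hdvd (ZMod r)).toAddMonoidHom
  have hf : Function.Surjective f := by
    rintro ⟨n, a⟩
    obtain ⟨b, hb⟩ := ZMod.castHom_surjective hdvd a
    exact ⟨(n, b), by simp [f, hb]⟩
  refine Fermat.Agent.FFJ.Glue.GlobalClosure68.FlatModel.of_surjective f hf ?_ hflat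
  rintro σ ⟨n, a⟩
  refine Prod.ext ?_ rfl
  change σ • n + a.val • c σ = σ • n + (ZMod.castHom hdvd (ZMod r) a).val • c σ
  congr 1
  -- `a.val ≡ (cast a).val mod r`
  have h1 : (ZMod.castHom hdvd (ZMod r) a).val = a.val % r := by
    rw [ZMod.castHom_apply, ZMod.cast_eq_val, ZMod.val_natCast]
  rw [h1]
  conv_lhs => rw [← Nat.mod_add_div a.val r]
  rw [add_smul, mul_smul, hkill, add_zero]

/-- adapter: `IsAdm` from the level `r ^ k` extension. -/
theorem isAdm_of_flat_pow {k : ℕ} (hk : 0 < k) (hkill : ∀ x : N, r • x = 0)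
    (hcoc : ∀ σ τ : GQ, c (σ * τ) = c σ + σ • c τ)
    (hunr : ∀ q : ℕ, q.Prime → q ≠ r → q ≠ p → ∀ A : ValuationSubring Qbar, A.LiesOverPrime q →
      ∀ σ ∈ A.inertiaSubgroupIn ℚ, c σ = 0)
    (hflat : FlatModel r (N × ZMod (r ^ k))
      (fun (σ : GQ) (e : N × ZMod (r ^ k)) => (σ • e.1 + e.2.val • c σ, e.2))) :
    IsAdm (r := r) p c :=
  ⟨hcoc, hunr, flat_ext1_of_flat_pow hk hkill hflat⟩

end Adm

/-! ### The case `N = ℤ/r` -/

/-- **Trivial action**: an admissible cocycle (= homomorphism) vanishing on the inertia group of one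
place over `p` is zero. -/
theorem eq_zero_of_trivial (hr2 : r ≠ 2) {p : ℕ} (hp : p.Prime) {N : Type} [AddCommGroup N]
    [DistribMulAction GQ N] [Finite N] (hkill : ∀ x : N, r • x = 0)
    (htriv : ∀ (g : GQ) (x : N), g • x = x) {c : GQ → N} (hc : IsAdm (r := r) p c)
    (𝔄₀ : ValuationSubring Qbar) (h𝔄₀ : 𝔄₀.LiesOverPrime p)
    (hI : ∀ σ ∈ 𝔄₀.inertiaSubgroupIn ℚ, c σ = 0) : ∀ σ : GQ, c σ = 0 := by
  have hadd : ∀ σ τ : GQ, c (σ * τ) = c σ + c τ := fun σ τ => by rw [hc.cocycle, htriv]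
  refine Minkowski19.addHom_eq_zero_of_unramified c hadd hc.isOpen ?_
  intro ℓ hℓ A hA σ hσ
  by_cases hℓr : ℓ = r
  · rw [hℓr] at hA
    exact hc.eq_zero_of_inertia_r hr2 hkill hA (fun τ _ x => htriv τ x) σ hσ
  by_cases hℓp : ℓ = p
  · rw [hℓp] at hA
    obtain ⟨g, hg⟩ := Fermat.Agent.TW.LocalQ.PlaceConj96.exists_conj_mem_inertia hp hA h𝔄₀
    have h1 := hI _ (hg σ hσ)
    rw [hadd, hadd] at h1
    have h2 : c g + c g⁻¹ = 0 := by rw [← hadd, mul_inv_cancel, hc.map_one]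
    have h3 : c g + c σ + c g⁻¹ = c σ + (c g + c g⁻¹) := by abel
    rw [h3, h2, add_zero] at h1
    exact h1
  · exact hc.unr ℓ hℓ hℓr hℓp A hA σ hσ

/-! ### The case `N = μ_r` -/

/-- **Action through the cyclotomic character**: an admissible cocycle vanishing on the inertia
group of one place over `p` is a coboundary. -/
theorem exists_eq_dd_of_chi (hr2 : r ≠ 2) {p : ℕ} (hp : p.Prime) (χ : GQ →* ZMod r)
    (hχ : ∀ (σ : GQ) (z : Qbar), z ^ r = 1 → σ z = z ^ (χ σ).val)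
    (hμp : ∀ A : ValuationSubring Qbar, A.LiesOverPrime p → ∀ σ ∈ A.inertiaSubgroupIn ℚ,
      ∀ z : Qbar, z ^ r = 1 → σ z = z)
    {N : Type} [AddCommGroup N] [DistribMulAction GQ N] [Finite N] (hN : Nat.card N = r)
    (hact : ∀ (g : GQ) (x : N), g • x = (χ g).val • x) {c : GQ → N} (hc : IsAdm (r := r) p c)
    (𝔄₀ : ValuationSubring Qbar) (h𝔄₀ : 𝔄₀.LiesOverPrime p)
    (hI : ∀ σ ∈ 𝔄₀.inertiaSubgroupIn ℚ, c σ = 0) : ∃ m : N, c = dd m := by
  classical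
  have hr' : r.Prime := hr.out
  haveI : NeZero r := ⟨hr'.ne_zero⟩
  have hkill : ∀ x : N, r • x = 0 := fun x => by rw [← hN]; exact card_nsmul_eq_zero'
  obtain ⟨ψ, hψadd, hψr, hψinj, hψsurj, hψpow⟩ := exists_mulEmb (r := r) N hN
  have hψne : ∀ x, ψ x ≠ 0 := by
    intro x h
    have := hψr x
    rw [h, zero_pow hr'.ne_zero] at this
    exact zero_ne_one this
  have hψ0 : ψ 0 = 1 := by
    have h1 := hψadd 0 0
    rw [add_zero] at h1
    exact (mul_eq_left₀ (hψne 0)).1 h1.symm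
  have hψeq : ∀ (σ : GQ) (x : N), ψ (σ • x) = σ (ψ x) := by
    intro σ x
    rw [hact, hψpow, hχ σ _ (hψr x)]
  -- the multiplicative cocycle
  set c' : GQ → Qbar := fun σ => ψ (c σ) with hc'
  have hc'coc : ∀ σ τ : GQ, c' (σ * τ) = c' σ * σ (c' τ) := by
    intro σ τ
    simp only [hc']
    rw [hc.cocycle, hψadd, hψeq]
  have hc'r : ∀ σ, c' σ ^ r = 1 := fun σ => hψr _
  obtain ⟨L₀, hL₀fin, hL₀⟩ := hc.isOpen
  obtain ⟨α, a₀, hα0, ha₀, hαr, hα⟩ := KummerH90_19.exists_kummer hr'.pos c' hc'coc hc'r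
    ⟨L₀, hL₀fin, fun σ hσ => by simp only [hc']; rw [hL₀ σ hσ, hψ0]⟩
  have hfixα : ∀ σ : GQ, c σ = 0 → σ α = α := by
    intro σ h
    have h1 := hα σ
    simp only [hc'] at h1
    rw [h, hψ0, one_mul] at h1
    exact h1.symm
  -- `r ∣ v_ℓ(a₀)` for all `ℓ`
  have hval : ∀ ℓ : ℕ, ℓ.Prime → (r : ℤ) ∣ padicValRat ℓ a₀ := by
    intro ℓ hℓ
    by_cases hℓr : ℓ = r
    · rw [hℓr]
      refine Fermat.Agent.MAZ.Local.FlatRank68.dvd_padicValRat_of_flat' hr2 hc.flat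
        (kill_ext1 hkill) a₀ ha₀ α hαr ?_
      intro σ _ hE
      exact hfixα σ (eq_zero_of_ext1_eq (r := r) hE)
    by_cases hℓp : ℓ = p
    · rw [hℓp]
      refine KummerUnr19.dvd_padicValRat_of_unramified hp α a₀ ha₀ hαr ?_
      intro A hA σ hσ
      obtain ⟨g, hg⟩ := Fermat.Agent.TW.LocalQ.PlaceConj96.exists_conj_mem_inertia hp hA h𝔄₀
      have h1 : (g * σ * g⁻¹) α = α := hfixα _ (hI _ (hg σ hσ))
      have h2 := hα g⁻¹
      have hz : c' g⁻¹ ^ r = 1 := hc'r _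
      have hz0 : c' g⁻¹ ≠ 0 := hψne _
      have h3 : σ (g⁻¹ α) = g⁻¹ α := by
        have h4 := congrArg (fun x => g⁻¹ x) h1
        simp only [AlgEquiv.mul_apply] at h4
        rw [← AlgEquiv.mul_apply g⁻¹ g, inv_mul_cancel, AlgEquiv.one_apply] at h4
        exact h4
      rw [← h2, map_mul, hμp A hA σ hσ _ hz] at h3
      exact mul_left_cancel₀ hz0 h3
    · refine KummerUnr19.dvd_padicValRat_of_unramified hℓ α a₀ ha₀ hαr ?_
      intro A hA σ hσ
      exact hfixα σ (hc.unr ℓ hℓ hℓr hℓp A hA σ hσ)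
  -- `a₀` is an `r`-th power
  have hodd : Odd r := hr'.odd_of_ne_two hr2
  obtain ⟨w', hw'⟩ : ∃ w' : ℚ, a₀ = w' ^ r := by
    obtain ⟨w, hw | hw⟩ := KummerUnits19.exists_pow_eq_of_forall_dvd_padicValRat a₀ ha₀ hval
    · exact ⟨w, hw⟩
    · exact ⟨-w, by rw [hodd.neg_pow]; exact hw⟩
  have hw'0 : w' ≠ 0 := by
    rintro rfl
    rw [zero_pow hr'.ne_zero] at hw'
    exact ha₀ hw'
  set W : Qbar := algebraMap ℚ Qbar w' with hW
  have hW0 : W ≠ 0 := by
    rw [hW, Ne, map_eq_zero]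
    exact hw'0
  have hWfix : ∀ σ : GQ, σ W = W := fun σ => σ.commutes w'
  have hz₀ : (α / W) ^ r = 1 := by
    rw [div_pow, hαr, hw', map_pow, ← hW, div_self (pow_ne_zero r hW0)]
  obtain ⟨m₀, hm₀⟩ := hψsurj _ hz₀
  refine ⟨m₀, funext fun σ => ?_⟩
  apply hψinj
  have hz₀0 : ψ m₀ ≠ 0 := hψne m₀
  apply mul_right_cancel₀ hz₀0
  -- `ψ (dd m₀ σ) * ψ m₀ = σ (ψ m₀)`
  have h1 : ψ (dd m₀ σ) * ψ m₀ = σ (ψ m₀) := by
    rw [← hψadd, dd_def, sub_add_cancel, hψeq]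
  rw [h1, hm₀, map_div₀, hWfix, ← hα σ]
  simp only [hc']
  rw [mul_div_assoc]

/-! ### The conclusions -/

section Concl

variable {p : ℕ} (𝔄₀ : ValuationSubring Qbar)

/-- the conclusion of the devissage for `N = ℤ/r`, any finite part. -/
theorem concl_of_trivial (hr2 : r ≠ 2) (hp : p.Prime) (h𝔄₀ : 𝔄₀.LiesOverPrime p) (φ₀ : GQ)
    {N : Type} [AddCommGroup N] [DistribMulAction GQ N] [Finite N] (hN : Nat.card N = r)
    (htriv : ∀ (g : GQ) (x : N), g • x = x)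
    (𝕟 : ConeData (𝔄₀.decompositionSubgroup ℚ) (𝔄₀.inertiaSubgroupIn ℚ) N)
    (hZ : ∀ c ∈ 𝕟.Z, IsAdm (r := r) p c) : Concl φ₀ 𝕟 r := by
  have hkill : ∀ x : N, r • x = 0 := fun x => by rw [← hN]; exact card_nsmul_eq_zero'
  have hsub : Subsingleton (H1S 𝕟) := by
    apply subsingleton_H1S
    intro t ht
    refine ⟨t.2.1, ?_, by rw [sub_self]; exact 𝕟.Mf.zero_mem⟩
    have h0 : ∀ σ, t.1 σ = 0 :=
      eq_zero_of_trivial hr2 hp hkill htriv (hZ t.1 ht.1) 𝔄₀ h𝔄₀ (fun σ hσ =>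
        Z1S_apply_of_mem_inertia ht σ (inertia_le_decomposition hσ) hσ (htriv σ _))
    funext σ
    rw [h0 σ, dd_def, htriv, sub_self]
  refine ⟨Finite.of_subsingleton, ?_⟩
  rw [Nat.card_of_subsingleton (0 : H1S 𝕟), one_mul, gen1_phiSub_of_trivial φ₀ htriv,
    AddSubgroup.card_top, hN]
  have hle : 𝕟.Mf ≤ H0S 𝕟 := fun x hx => ⟨hx, fun σ => htriv σ x⟩
  have h1 : Nat.card 𝕟.Mf ≤ Nat.card (H0S 𝕟) := AddSubgroup.card_le_of_le hle
  rw [mul_comm]
  exact Nat.mul_le_mul_right _ h1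

/-- the conclusion of the devissage for `N = μ_r`. -/
theorem concl_of_chi (hr2 : r ≠ 2) (hp : p.Prime) (h𝔄₀ : 𝔄₀.LiesOverPrime p)
    (χ : GQ →* ZMod r) (hχ : ∀ (σ : GQ) (z : Qbar), z ^ r = 1 → σ z = z ^ (χ σ).val)
    (hμp : ∀ A : ValuationSubring Qbar, A.LiesOverPrime p → ∀ σ ∈ A.inertiaSubgroupIn ℚ,
      ∀ z : Qbar, z ^ r = 1 → σ z = z) (φ₀ : GQ) (hφ₀ : χ φ₀ ≠ 1)
    {N : Type} [AddCommGroup N] [DistribMulAction GQ N] [Finite N] (hN : Nat.card N = r)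
    (hact : ∀ (g : GQ) (x : N), g • x = (χ g).val • x)
    (𝕟 : ConeData (𝔄₀.decompositionSubgroup ℚ) (𝔄₀.inertiaSubgroupIn ℚ) N)
    (hZ : ∀ c ∈ 𝕟.Z, IsAdm (r := r) p c) : Concl φ₀ 𝕟 r := by
  have hkill : ∀ x : N, r • x = 0 := fun x => by rw [← hN]; exact card_nsmul_eq_zero'
  have hIfix : ∀ σ ∈ 𝔄₀.inertiaSubgroupIn ℚ, ∀ x : N, σ • x = x := by
    intro σ hσ x
    rw [hact, chi_eq_one_of_fix χ hχ σ (hμp 𝔄₀ h𝔄₀ σ hσ), val_one_zmod, one_smul]
  have key : ∀ c ∈ 𝕟.Z, (∀ σ ∈ 𝔄₀.inertiaSubgroupIn ℚ, c σ = 0) → ∃ m : N, c = dd m :=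
    fun c hc hI => exists_eq_dd_of_chi hr2 hp χ hχ hμp hN hact (hZ c hc) 𝔄₀ h𝔄₀ hI
  have hgen : gen1 (phiSub φ₀ N) = ⊥ := gen1_phiSub_of_chi φ₀ hkill hact hφ₀
  haveI : Fact (Nat.card N).Prime := ⟨by rw [hN]; exact hr.out⟩
  have hposH0 : 1 ≤ Nat.card (H0S 𝕟) := Nat.card_pos
  rcases AddSubgroup.eq_bot_or_eq_top_of_prime_card 𝕟.Mf with hbot | htop
  · -- `j_! μ_r`
    have H : ∀ c ∈ 𝕟.Z, (∃ a : N, ∀ σ ∈ 𝔄₀.decompositionSubgroup ℚ, c σ = σ • a - a) →
        ∃ m : N, c = dd m := by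
      rintro c hc ⟨a, ha⟩
      apply key c hc
      intro σ hσ
      rw [ha σ (inertia_le_decomposition hσ), hIfix σ hσ, sub_self]
    have hcard := card_H1S_mul_le_of_bot hbot H
    have hfin : Finite (H1S 𝕟) := finite_H1S_of_bot hbot H
    refine ⟨hfin, ?_⟩
    rw [hgen, AddSubgroup.card_bot, mul_one, hbot, AddSubgroup.card_bot, mul_one]
    have h1 : 1 ≤ Nat.card (invariants (⊤ : Subgroup GQ) N) := Nat.card_pos
    have h2 : Nat.card (invariants (𝔄₀.decompositionSubgroup ℚ) N) ≤ r := by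
      rw [← hN]
      exact Nat.card_le_card_of_injective _ Subtype.val_injective
    calc Nat.card (H1S 𝕟) = Nat.card (H1S 𝕟) * 1 := (mul_one _).symm
      _ ≤ Nat.card (H1S 𝕟) * Nat.card (invariants (⊤ : Subgroup GQ) N) :=
          Nat.mul_le_mul_left _ h1
      _ ≤ Nat.card (invariants (𝔄₀.decompositionSubgroup ℚ) N) := hcard
      _ ≤ r := h2
      _ = 1 * r := (one_mul r).symm
      _ ≤ Nat.card (H0S 𝕟) * r := Nat.mul_le_mul_right r hposH0
  · -- `μ_r` finite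
    have hsub : Subsingleton (H1S 𝕟) := by
      apply subsingleton_H1S
      intro t ht
      obtain ⟨m, hm⟩ := key t.1 ht.1 (fun σ hσ =>
        Z1S_apply_of_mem_inertia ht σ (inertia_le_decomposition hσ) hσ (hIfix σ hσ _))
      exact ⟨m, hm, by rw [htop]; exact AddSubgroup.mem_top _⟩
    refine ⟨Finite.of_subsingleton, ?_⟩
    rw [Nat.card_of_subsingleton (0 : H1S 𝕟), one_mul, hgen, AddSubgroup.card_bot, one_mul]
    have h1 : Nat.card 𝕟.Mf ≤ r := by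
      rw [← hN]
      exact Nat.card_le_card_of_injective _ Subtype.val_injective
    calc Nat.card 𝕟.Mf ≤ r := h1
      _ = 1 * r := (one_mul r).symm
      _ ≤ Nat.card (H0S 𝕟) * r := Nat.mul_le_mul_right r hposH0

/-- **RANK-ONE BOUND**: the hypothesis `rankOne` of `Devissage95.devissage`, for every admissible
family whose cocycles on modules of order `r` are admissible (unramified outside `{r, p}` at the
cocycle level, `E_c` flat at `r`). -/
theorem rankOneBound (hr2 : r ≠ 2) (hp : p.Prime) (h𝔄₀ : 𝔄₀.LiesOverPrime p)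
    (χ : GQ →* ZMod r) (hχ : ∀ (σ : GQ) (z : Qbar), z ^ r = 1 → σ z = z ^ (χ σ).val)
    (hμp : ∀ A : ValuationSubring Qbar, A.LiesOverPrime p → ∀ σ ∈ A.inertiaSubgroupIn ℚ,
      ∀ z : Qbar, z ^ r = 1 → σ z = z) (φ₀ : GQ) (hφ₀ : χ φ₀ ≠ 1)
    (F : AdmFamily.{0} GQ)
    (hF : ∀ (N : Type) [AddCommGroup N] [DistribMulAction GQ N] [Finite N], F.Ok N →
      Nat.card N = r → ∀ c ∈ F.Z N, IsAdm (r := r) p c) :
    RankOneBound F (𝔄₀.decompositionSubgroup ℚ) (𝔄₀.inertiaSubgroupIn ℚ) r χ φ₀ := by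
  intro N _ _ _ hOk hN hact 𝕟 h𝕟
  have hZ : ∀ c ∈ 𝕟.Z, IsAdm (r := r) p c := by
    rw [h𝕟]
    exact hF N hOk hN
  rcases hact with htriv | hchi
  · exact concl_of_trivial 𝔄₀ hr2 hp h𝔄₀ φ₀ hN htriv 𝕟 hZ
  · exact concl_of_chi 𝔄₀ hr2 hp h𝔄₀ χ hχ hμp φ₀ hφ₀ hN hchi 𝕟 hZ

/-- `rankOneBound` with the hypothesis on `μ_r` at `p` discharged (`p ≠ r`). -/
theorem rankOneBound' (hr2 : r ≠ 2) (hp : p.Prime) (hpr : p ≠ r) (h𝔄₀ : 𝔄₀.LiesOverPrime p)
    (χ : GQ →* ZMod r) (hχ : ∀ (σ : GQ) (z : Qbar), z ^ r = 1 → σ z = z ^ (χ σ).val)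
    (φ₀ : GQ) (hφ₀ : χ φ₀ ≠ 1) (F : AdmFamily.{0} GQ)
    (hF : ∀ (N : Type) [AddCommGroup N] [DistribMulAction GQ N] [Finite N], F.Ok N →
      Nat.card N = r → ∀ c ∈ F.Z N, IsAdm (r := r) p c) :
    RankOneBound F (𝔄₀.decompositionSubgroup ℚ) (𝔄₀.inertiaSubgroupIn ℚ) r χ φ₀ :=
  rankOneBound 𝔄₀ hr2 hp h𝔄₀ χ hχ (fun _ hA _ hσ _ hz =>
    inertia_fix_rootOfUnity hp hA (fun h => hpr ((Nat.prime_dvd_prime_iff_eq hp hr.out).1 h)) hσ hz)
    φ₀ hφ₀ F hF

end Concl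

end Fermat.Agent.MAZ.Desc.RankOne19
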