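/-
MAZ (S15), descent side, helper19: THE RANK-ONE BOUND FOR THE CONCRETE ADMISSIBLE FAMILY
`FlatAdm68.admFamily r k p` (helper68), AND THE MOD `r` CYCLOTOMIC CHARACTER.

* `chiModR r : G_ℚ →* ZMod r`, `chiModR_spec` (`σ z = z ^ (χ σ).val` on `μ_r`),
  `chiModR_complexConjugation` (`χ(c) = -1`), `chiModR_complexConjugation_ne_one` (`r` odd),
  `chiModR_of_mem_inertia` (`χ = 1` on inertia at `q ≠ r`);
* `rankOneBound_admFamily` : `Devissage95.RankOneBound (admFamily r k p) D_{𝔄₀} I_{𝔄₀} r χ φ₀`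
  for `r` odd, `k ≥ 1`, `𝔄₀ ∣ p ≠ r`, `χ` cyclotomic on `μ_r`, `χ φ₀ ≠ 1`;
* `rankOneBound_conj` : the same with `χ := chiModR r`, `φ₀ := complexConjugation`.
-/
import Mathlib
import Fermat.Agent.MAZ.Desc.RankOne19
import Fermat.Agent.MAZ.Desc.FlatAdm68

set_option autoImplicit false
set_option linter.style.haveILetI false
set_option linter.unusedSectionVars false

namespace Fermat.Agent.MAZ.Desc.RankOneInst19

open Fermat.Agent.MAZ.Desc.SelmerCone95 Fermat.Agent.MAZ.Desc.Devissage95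
open Fermat.Agent.MAZ.Desc.RankOne19 Fermat.Agent.MAZ.Desc.FlatAdm68
open Fermat.Agent.TW.FF.FlatModel68 Fermat.Agent.ES.J.CycloChar8

local notation "Qbar" => AlgebraicClosure ℚ
local notation "GQ" => (AlgebraicClosure ℚ) ≃ₐ[ℚ] (AlgebraicClosure ℚ)

variable (r : ℕ) [hr : Fact r.Prime]

/-! ### The mod `r` cyclotomic character -/

/-- reduction `ℤ_r → ℤ/r`. -/
noncomputable def redHom : ℤ_[r] →+* ZMod r :=
  (ZMod.castHom (dvd_of_eq (pow_one r).symm) (ZMod r)).comp (PadicInt.toZModPow 1)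

/-- **the mod `r` cyclotomic character.** -/
noncomputable def chiModR : GQ →* ZMod r :=
  ((redHom r : ℤ_[r] →* ZMod r).comp (Units.coeHom ℤ_[r])).comp (cyclo r)

theorem chiModR_apply (σ : GQ) : chiModR r σ = redHom r ((cyclo r σ : ℤ_[r]ˣ) : ℤ_[r]) := rfl

/-- `χ` is the cyclotomic character on `μ_r`. -/
theorem chiModR_spec (σ : GQ) (z : Qbar) (hz : z ^ r = 1) : σ z = z ^ (chiModR r σ).val := by
  haveI : NeZero r := ⟨hr.out.ne_zero⟩
  haveI : NeZero (r ^ 1) := ⟨pow_ne_zero 1 hr.out.ne_zero⟩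
  have h1 := cyclo_spec r σ (n := 1) z (by rw [pow_one]; exact hz)
  rw [h1, chiModR_apply, redHom, RingHom.comp_apply, ZMod.castHom_apply, ZMod.cast_eq_val,
    ZMod.val_natCast]
  set v := ((PadicInt.toZModPow 1) ((cyclo r σ : ℤ_[r]ˣ) : ℤ_[r])).val with hv
  conv_lhs => rw [← Nat.mod_add_div v r, pow_add, pow_mul, hz, one_pow, mul_one]

/-- `χ(c) = -1`. -/
theorem chiModR_complexConjugation : chiModR r complexConjugation = -1 := by
  rw [chiModR_apply, cyclo_complexConjugation, map_neg, map_one]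

/-- `χ(c) ≠ 1` for `r` odd. -/
theorem chiModR_complexConjugation_ne_one (hr2 : r ≠ 2) : chiModR r complexConjugation ≠ 1 := by
  rw [chiModR_complexConjugation]
  haveI : Fact (2 < r) := ⟨lt_of_le_of_ne hr.out.two_le (Ne.symm hr2)⟩
  exact ZMod.neg_one_ne_one

/-- `χ = 1` on the inertia groups at `q ≠ r`. -/
theorem chiModR_of_mem_inertia {q : ℕ} (hq : q.Prime) (hqr : q ≠ r) (A : ValuationSubring Qbar)
    (hA : A.LiesOverPrime q) {τ : GQ} (hτ : τ ∈ A.inertiaSubgroupIn ℚ) : chiModR r τ = 1 := by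
  rw [chiModR_apply, cyclo_of_mem_inertia r hq hqr A hA hτ, Units.val_one, map_one]

/-! ### The rank-one bound for the concrete family -/

variable {r}

/-- **RANK-ONE BOUND for `FlatAdm68.admFamily r k p`.** -/
theorem rankOneBound_admFamily (hr2 : r ≠ 2) {k : ℕ} (hk : 1 ≤ k) {p : ℕ} (hp : p.Prime)
    (hpr : p ≠ r) (𝔄₀ : ValuationSubring Qbar) (h𝔄₀ : 𝔄₀.LiesOverPrime p) (χ : GQ →* ZMod r)
    (hχ : ∀ (σ : GQ) (z : Qbar), z ^ r = 1 → σ z = z ^ (χ σ).val) (φ₀ : GQ) (hφ₀ : χ φ₀ ≠ 1) :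
    RankOneBound (admFamily r k p) (𝔄₀.decompositionSubgroup ℚ) (𝔄₀.inertiaSubgroupIn ℚ) r χ φ₀ := by
  refine rankOneBound' 𝔄₀ hr2 hp hpr h𝔄₀ χ hχ φ₀ hφ₀ (admFamily r k p) ?_
  intro N _ _ _ hOk hN c hc
  have hOk' : OkMod r k p N := hOk
  have hc' : c ∈ Zadm r k p N := hc
  exact isAdm_of_flat_pow hk (fun x => by rw [← hN]; exact card_nsmul_eq_zero')
    (Zadm.cocycle hc') (Zadm.unram hc') (Zadm.flat hc' hOk'.flat)

/-- the same with `χ` the mod `r` cyclotomic character and `φ₀` complex conjugation. -/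
theorem rankOneBound_conj (hr2 : r ≠ 2) {k : ℕ} (hk : 1 ≤ k) {p : ℕ} (hp : p.Prime)
    (hpr : p ≠ r) (𝔄₀ : ValuationSubring Qbar) (h𝔄₀ : 𝔄₀.LiesOverPrime p) :
    RankOneBound (admFamily r k p) (𝔄₀.decompositionSubgroup ℚ) (𝔄₀.inertiaSubgroupIn ℚ) r
      (chiModR r) complexConjugation :=
  rankOneBound_admFamily hr2 hk hp hpr 𝔄₀ h𝔄₀ (chiModR r) (chiModR_spec r) complexConjugation
    (chiModR_complexConjugation_ne_one r hr2)

end Fermat.Agent.MAZ.Desc.RankOneInst19
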