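/-
MAZ (S15), descent side, P3 (`r = 2`), helper19: THE RANK-ONE BOUND OF THE MARKED DEVISSAGE AT `r = 2`,
FROM THE FLAT CONDITION AND THE ONE MARKED STATEMENT (ét₂).

* `smul_eq_of_card_two`    : `G_ℚ` acts trivially on a module of order `2`;
* `IsAdm.toMu_two`         : `r = 2`: flat ⟹ multiplicative-admissible: if `E_c` is flat over `ℤ_(2)` then the
                             Kummer class cut out by `c` has even valuation at `2` (helper22's marks-free
                             `KummerTwo22.dvd_padicValRat_two_of_flat`);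
* `IsAdm.toEt_of_unr`      : flat + unramified at `r` ⟹ étale-admissible (packaging, any `r`);
* `rankOneBoundM_two`      : **`RankOneBoundM F D_{𝔄₀} I_{𝔄₀} 2 (chiModR 2)`** for a marked family `F` whose
                             admissible cocycles on modules of order `2` are flat (`hZ`) and, on étale-marked
                             modules, unramified at `2` (`hEt2` = (ét₂), the only place where the marks are
                             used).
-/
import Mathlib
import Fermat.Agent.MAZ.Desc.RankOneMarked19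
import Fermat.Agent.MAZ.Desc.RankOneInst19
import Fermat.Agent.MAZ.Local.KummerTwo22

set_option autoImplicit false
set_option linter.style.haveILetI false
set_option linter.unusedSectionVars false

namespace Fermat.Agent.MAZ.Desc.RankOneTwo19

open Fermat.Agent.MAZ.Desc.SelmerCone95 Fermat.Agent.MAZ.Desc.Devissage95
open Fermat.Agent.MAZ.Desc.DevissageMarked95 Fermat.Agent.MAZ.Desc.RankOne19
open Fermat.Agent.MAZ.Desc.RankOneMarked19 Fermat.Agent.MAZ.Desc.RankOneInst19

local notation "Qbar" => AlgebraicClosure ℚ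
local notation "GQ" => (AlgebraicClosure ℚ) ≃ₐ[ℚ] (AlgebraicClosure ℚ)

/-! ### Modules of order two -/

section CardTwo

variable {N : Type} [AddCommGroup N]

/-- in a group of order `2` two non-zero elements are equal. -/
theorem eq_of_ne_zero_of_card_two (hN : Nat.card N = 2) {a b : N} (ha : a ≠ 0) (hb : b ≠ 0) :
    a = b := by
  by_contra hab
  have hfin : Finite N := Nat.finite_of_card_ne_zero (by rw [hN]; norm_num)
  cases nonempty_fintype N
  classical
  have h1 : ({0, a, b} : Finset N).card = 3 := by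
    rw [Finset.card_insert_of_notMem, Finset.card_insert_of_notMem, Finset.card_singleton]
    · simpa using hab
    · simp only [Finset.mem_insert, Finset.mem_singleton, not_or]
      exact ⟨ha.symm, hb.symm⟩
  have h2 : ({0, a, b} : Finset N).card ≤ Fintype.card N := Finset.card_le_univ _
  rw [h1, ← Nat.card_eq_fintype_card, hN] at h2
  omega

/-- a group of order `2` is killed by `2`. -/
theorem two_nsmul_eq_zero_of_card_two (hN : Nat.card N = 2) (x : N) : 2 • x = 0 := by
  have hfin : Finite N := Nat.finite_of_card_ne_zero (by rw [hN]; norm_num)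
  have := card_nsmul_eq_zero' (G := N) (x := x)
  rwa [hN] at this

/-- `G_ℚ` (any group) acts trivially on a module of order `2`. -/
theorem smul_eq_of_card_two {G : Type*} [Group G] [DistribMulAction G N] (hN : Nat.card N = 2)
    (g : G) (x : N) : g • x = x := by
  by_cases hx : x = 0
  · rw [hx, smul_zero]
  · refine eq_of_ne_zero_of_card_two hN (fun h => hx ?_) hx
    have := congrArg (fun y => g⁻¹ • y) h
    simpa using this

/-- the non-zero values of a character with values in `ZMod 2`. -/
theorem val_eq_one_of_ne_zero : ∀ a : ZMod 2, a ≠ 0 → a.val = 1 := by decide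

end CardTwo

/-! ### Flat ⟹ admissible -/

section Adm

variable {p : ℕ} {N : Type} [AddCommGroup N] [DistribMulAction GQ N] {c : GQ → N}

/-- flat and unramified at `r` ⟹ étale-admissible. -/
theorem IsAdm.toEt_of_unr {r : ℕ} [Fact r.Prime] (hc : IsAdm (r := r) p c)
    (hunr : ∀ A : ValuationSubring Qbar, A.LiesOverPrime r → ∀ σ ∈ A.inertiaSubgroupIn ℚ,
      c σ = 0) : IsAdmEt (r := r) p c :=
  ⟨hc.cocycle, hc.isOpen, hc.unr, hunr⟩

/-- **`r = 2`: flat ⟹ multiplicative-admissible** (no mark needed). -/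
theorem IsAdm.toMu_two [Finite N] (hN : Nat.card N = 2) (hc : IsAdm (r := 2) p c) :
    IsAdmMu (r := 2) p c := by
  refine ⟨hc.cocycle, hc.isOpen, hc.unr, fun α u hu hα hfix => ?_⟩
  -- the non-zero element of `N`
  obtain ⟨n₀, hn₀⟩ : ∃ n₀ : N, n₀ ≠ 0 := by
    by_contra h
    have h' : ∀ x : N, x = 0 := fun x => by_contra (fun hx => h ⟨x, hx⟩)
    have : Subsingleton N := ⟨fun a b => by rw [h' a, h' b]⟩
    have h1 : Nat.card N = 1 := Nat.card_unique
    omega
  have htriv : ∀ (g : GQ) (x : N), g • x = x := fun g x => smul_eq_of_card_two hN g x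
  have h2N : ∀ x : N, x + x = 0 := fun x => by
    rw [← two_nsmul]
    exact two_nsmul_eq_zero_of_card_two hN x
  have hval : ∀ x : N, x = 0 ∨ x = n₀ := fun x => by
    by_cases hx : x = 0
    · exact Or.inl hx
    · exact Or.inr (eq_of_ne_zero_of_card_two hN hx hn₀)
  have hone : ((1 : ZMod 2)).val = 1 := val_one_zmod (r := 2)
  have hact1 : ∀ σ : GQ, ext1 (r := 2) c σ ((0 : N), (1 : ZMod 2)) = (c σ, (1 : ZMod 2)) := by
    intro σ
    simp only [ext1, smul_zero, zero_add, hone, one_smul]
  refine Fermat.Agent.MAZ.Local.KummerTwo22.dvd_padicValRat_two_of_flat hc.flat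
    ((n₀, 0) : N × ZMod 2) ((0, 1) : N × ZMod 2) ?_ ?_ ?_ ?_ ?_ u hu α hα ?_
  · intro h
    exact hn₀ (congrArg Prod.fst h)
  · refine Prod.ext ?_ ?_
    · exact h2N n₀
    · simp
  · left
    refine Prod.ext ?_ ?_
    · simp
    · change (1 : ZMod 2) + 1 = 0
      decide
  · intro σ
    simp only [ext1, htriv, ZMod.val_zero, zero_smul, add_zero]
  · intro σ
    rw [hact1]
    rcases hval (c σ) with h | h
    · left
      rw [h]
    · right
      rw [h]
      refine Prod.ext ?_ ?_
      · simp
      · simp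
  · intro σ hσ
    rw [hact1] at hσ
    have hcσ : c σ = 0 := congrArg Prod.fst hσ
    refine hfix σ ?_ hcσ
    intro ζ hζ
    have h1 : (ζ - 1) * (ζ + 1) = 0 := by
      have : (ζ - 1) * (ζ + 1) = ζ ^ 2 - 1 := by ring
      rw [this, hζ, sub_self]
    rcases mul_eq_zero.1 h1 with h | h
    · rw [sub_eq_zero.1 h, map_one]
    · rw [eq_neg_of_add_eq_zero_left h, map_neg, map_one]

end Adm

/-! ### The marked rank-one bound at `r = 2` -/

/-- **THE MARKED RANK-ONE BOUND AT `r = 2`.**  `hZ` : the admissible cocycles of the family on modules of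
order `2` are flat (`RankOne19.IsAdm`); `hEt2` : (ét₂), on étale-marked modules they are unramified at
`2`.  The multiplicative case needs no marked input. -/
theorem rankOneBoundM_two (𝔄₀ : ValuationSubring Qbar) {p : ℕ} (hp : p.Prime) (hp2 : p ≠ 2)
    (h𝔄₀ : 𝔄₀.LiesOverPrime p) (F : MarkedFamily.{0} GQ)
    (hZ : ∀ (N : Type) [AddCommGroup N] [DistribMulAction GQ N] [Finite N] (N₀ : AddSubgroup N),
      F.Ok N N₀ → Nat.card N = 2 → ∀ c ∈ F.Z N N₀, IsAdm (r := 2) p c)
    (hEt2 : ∀ (N : Type) [AddCommGroup N] [DistribMulAction GQ N] [Finite N] (N₀ : AddSubgroup N),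
      F.Ok N N₀ → Nat.card N = 2 → N₀ = ⊥ → ∀ c ∈ F.Z N N₀,
        ∀ A : ValuationSubring Qbar, A.LiesOverPrime 2 → ∀ σ ∈ A.inertiaSubgroupIn ℚ, c σ = 0) :
    RankOneBoundM F (𝔄₀.decompositionSubgroup ℚ) (𝔄₀.inertiaSubgroupIn ℚ) 2 (chiModR 2) := by
  refine rankOneBoundM 𝔄₀ hp hp2 h𝔄₀ (chiModR 2) (chiModR_spec 2) F ?_ ?_
  · intro N _ _ _ N₀ hOk hN hbot
    exact ⟨fun g x => smul_eq_of_card_two hN g x, fun c hc =>
      IsAdm.toEt_of_unr (hZ N N₀ hOk hN c hc) (hEt2 N N₀ hOk hN hbot c hc)⟩
  · intro N _ _ _ N₀ hOk hN _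
    refine ⟨fun g x => ?_, fun c hc => IsAdm.toMu_two hN (hZ N N₀ hOk hN c hc)⟩
    have hne : chiModR 2 g ≠ 0 := by
      intro h0
      have h1 : chiModR 2 g * chiModR 2 g⁻¹ = 1 := by
        rw [← map_mul, mul_inv_cancel, map_one]
      rw [h0, zero_mul] at h1
      exact zero_ne_one h1
    rw [val_eq_one_of_ne_zero _ hne, one_smul]
    exact smul_eq_of_card_two hN g x

end Fermat.Agent.MAZ.Desc.RankOneTwo19
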