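/-
MAZ (S15), descent side, P3 (`r = 2`), brick M3 (helper19; closure lemmas by helper68):
**THE CONCRETE MARKED ADMISSIBLE FAMILY** `markedFamily r k p : DevissageMarked95.MarkedFamily GQ`
AND ITS RANK-ONE BOUND AT `r = 2`.

The marked family is the CONJUNCTION of the unmarked flat family `FlatAdm68.admFamily r k p` (global:
finite flat model over `ℤ_(r)`, unramified outside `{r, p}`; this gives continuity of the cocycles) and
of a LOCAL marked model at the standard place over `r` (`Mark68.MarkedModel`: a function order over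
`ℤ_r` together with its connected part, the mark):

* `OkModM r k p N N₀`  : `OkMod r k p N` ∧ `MarkedModel r N (local action) N₀`;
* `ZadmM r k p N N₀`   : `Zadm r k p N` ⊓ {`c` | if `N` is marked by `N₀` then `E_c = N × ℤ/r^k` is marked
                          by `N₀ × 0`} (an additive subgroup: marked Baer sum `MarkExt68.marked_ext_add`);
* `markedFamily r k p` : the `MarkedFamily` (coboundaries, push-out, pull-back, sub, quotient);
* `isAdm_of_mem_ZadmM` : admissible cocycles are flat (`RankOne19.IsAdm`);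
* `eq_zero_of_mem_ZadmM_bot` : (ét₂) on étale-marked modules they are unramified at `r`;
* `rankOneBoundM_markedFamily_two` : **`RankOneBoundM (markedFamily 2 k p) D_{𝔄₀} I_{𝔄₀} 2 (chiModR 2)`**.
-/
import Mathlib
import Fermat.Agent.MAZ.Desc.FlatAdm68
import Fermat.Agent.MAZ.Desc.DevissageMarked95
import Fermat.Agent.MAZ.Flat.Mark68
import Fermat.Agent.MAZ.Flat.MarkExt68
import Fermat.Agent.MAZ.Local.RankOneTwo68
import Fermat.Agent.MAZ.Desc.RankOneTwo19

set_option autoImplicit false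
set_option linter.unusedSectionVars false
set_option linter.style.haveILetI false

noncomputable section

namespace Fermat.Agent.MAZ.Desc.MarkedAdm19

open Fermat.Agent.TW.FF.FlatModel68 Fermat.Agent.TW.FF.Spec72
open Fermat.Agent.TW.Bridge.LocalInertia97 Fermat.Agent.TW.OrdLocal.PadicPlace97
open Fermat.Agent.MAZ.Desc.FlatAdm68 Fermat.Agent.MAZ.Flat.Mark68 Fermat.Agent.MAZ.Flat.MarkExt68
open Fermat.Agent.MAZ.Desc.SelmerCone95 Fermat.Agent.MAZ.Desc.Devissage95
open Fermat.Agent.MAZ.Desc.DevissageMarked95 Fermat.Agent.MAZ.Desc.RankOne19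
open Fermat.Agent.MAZ.Desc.RankOneInst19

local notation "Qb" => AlgebraicClosure ℚ

variable (r : ℕ) [Fact r.Prime] (k p : ℕ)

/-! ### The vocabulary -/

/-- **the good marked modules**: good modules of `FlatAdm68` with a marked local model at the standard
place over `r`, of connected part `N₀`. -/
structure OkModM (N : Type) [AddCommGroup N] [DistribMulAction GQ N] (N₀ : AddSubgroup N) :
    Prop where
  ok : OkMod r k p N
  marked : MarkedModel r N (fun (τ : GQp r) (x : N) => localGaloisToGlobal r τ • x) N₀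

/-- **the marked admissible cocycles**: admissible cocycles of `FlatAdm68` whose extension module is
marked by `N₀ × 0` (when `N` is marked by `N₀`). -/
def ZadmM (N : Type) [AddCommGroup N] [DistribMulAction GQ N] (N₀ : AddSubgroup N) :
    AddSubgroup (GQ → N) where
  carrier := {c | c ∈ Zadm r k p N ∧
    (MarkedModel r N (fun (τ : GQp r) (x : N) => localGaloisToGlobal r τ • x) N₀ →
      MarkedModel r (N × ZMod (r ^ k))
        (fun (τ : GQp r) => extActN r k c (localGaloisToGlobal r τ))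
        (N₀.prod (⊥ : AddSubgroup (ZMod (r ^ k)))))}
  zero_mem' := ⟨(Zadm r k p N).zero_mem, fun hN => marked_ext_zero r k hN⟩
  add_mem' := by
    rintro c c' ⟨h1, h2⟩ ⟨h1', h2'⟩
    exact ⟨(Zadm r k p N).add_mem h1 h1', fun hN => marked_ext_add r k (h2 hN) (h2' hN)⟩
  neg_mem' := by
    rintro c ⟨h1, h2⟩
    exact ⟨(Zadm r k p N).neg_mem h1, fun hN => marked_ext_neg r k (h2 hN)⟩

variable {r k p} {N N' : Type} [AddCommGroup N] [DistribMulAction GQ N] [AddCommGroup N']
  [DistribMulAction GQ N'] {N₀ : AddSubgroup N} {N₀' : AddSubgroup N'}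

theorem mem_ZadmM_iff {c : GQ → N} : c ∈ ZadmM r k p N N₀ ↔ c ∈ Zadm r k p N ∧
    (MarkedModel r N (fun (τ : GQp r) (x : N) => localGaloisToGlobal r τ • x) N₀ →
      MarkedModel r (N × ZMod (r ^ k))
        (fun (τ : GQp r) => extActN r k c (localGaloisToGlobal r τ))
        (N₀.prod (⊥ : AddSubgroup (ZMod (r ^ k))))) :=
  Iff.rfl

theorem ZadmM_le : ZadmM r k p N N₀ ≤ Zadm r k p N := fun _ hc => hc.1

/-- the way to produce marked admissible cocycles (K-FLAT with marks). -/
theorem mem_ZadmM_of {c : GQ → N} (h1 : c ∈ Zadm r k p N)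
    (h2 : MarkedModel r (N × ZMod (r ^ k))
      (fun (τ : GQp r) => extActN r k c (localGaloisToGlobal r τ))
      (N₀.prod (⊥ : AddSubgroup (ZMod (r ^ k))))) : c ∈ ZadmM r k p N N₀ :=
  ⟨h1, fun _ => h2⟩

/-- the extension module of a marked admissible cocycle on a good marked module is marked. -/
theorem ZadmM.marked {c : GQ → N} (hc : c ∈ ZadmM r k p N N₀) (hN : OkModM r k p N N₀) :
    MarkedModel r (N × ZMod (r ^ k))
      (fun (τ : GQp r) => extActN r k c (localGaloisToGlobal r τ))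
      (N₀.prod (⊥ : AddSubgroup (ZMod (r ^ k)))) :=
  hc.2 hN.marked

/-- coboundaries. -/
theorem dd_memM (hN : OkModM r k p N N₀) (m : N) : (dd m : GQ → N) ∈ ZadmM r k p N N₀ :=
  ⟨dd_mem hN.ok m, fun hM => marked_ext_dd r k hM m (hN.ok.killed m)⟩

/-- push-forward. -/
theorem map_memM (f : N →+ N') (hf : ∀ (σ : GQ) (x : N), f (σ • x) = σ • f x)
    (hf₀ : ∀ x ∈ N₀, f x ∈ N₀') (hN : OkModM r k p N N₀) {c : GQ → N}
    (hc : c ∈ ZadmM r k p N N₀) : (fun σ => f (c σ)) ∈ ZadmM r k p N' N₀' :=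
  ⟨map_mem f hf hN.ok.flat hc.1, fun hM' => marked_ext_map r k f hf hf₀ hM' (hc.2 hN.marked)⟩

/-- pull-back. -/
theorem comap_memM (f : N →+ N') (hf : ∀ (σ : GQ) (x : N), f (σ • x) = σ • f x)
    (hinj : Function.Injective f) (hf₀ : ∀ x, x ∈ N₀ ↔ f x ∈ N₀') (hN' : OkModM r k p N' N₀')
    {c : GQ → N} (hc : (fun σ => f (c σ)) ∈ ZadmM r k p N' N₀') : c ∈ ZadmM r k p N N₀ :=
  ⟨comap_mem f hf hinj hN'.ok.flat hc.1, fun _ => marked_ext_comap r k f hf hinj hf₀ (hc.2 hN'.marked)⟩

/-- good marked modules pull back along equivariant injections; the mark is the preimage. -/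
theorem OkModM.of_injective (f : N →+ N') (hf : ∀ (σ : GQ) (x : N), f (σ • x) = σ • f x)
    (hinj : Function.Injective f) (hf₀ : ∀ x, x ∈ N₀ ↔ f x ∈ N₀') (hN' : OkModM r k p N' N₀') :
    OkModM r k p N N₀ := by
  refine ⟨OkMod.of_injective f hf hinj hN'.ok, (marked_of_injective r f hf hinj hN'.marked).mark_eq ?_⟩
  ext x
  rw [AddSubgroup.mem_comap]
  exact (hf₀ x).symm

/-- good marked modules push forward along equivariant surjections; the mark is the image. -/
theorem OkModM.of_surjective (f : N →+ N') (hf : ∀ (σ : GQ) (x : N), f (σ • x) = σ • f x)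
    (hsurj : Function.Surjective f) (hf₀ : ∀ y, y ∈ N₀' ↔ ∃ x ∈ N₀, f x = y)
    (hN : OkModM r k p N N₀) : OkModM r k p N' N₀' := by
  refine ⟨OkMod.of_surjective f hf hsurj hN.ok,
    (marked_of_surjective r f hf hsurj hN.marked).mark_eq ?_⟩
  ext y
  rw [AddSubgroup.mem_map]
  exact (hf₀ y).symm

variable (r k p)

/-- **THE CONCRETE MARKED ADMISSIBLE FAMILY.** -/
def markedFamily : MarkedFamily.{0} GQ where
  Ok N _ _ N₀ := OkModM r k p N N₀
  Z N _ _ N₀ := ZadmM r k p N N₀
  cocycle _ _ _ _ _ hc σ τ := hc.1.1 σ τ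
  cobound _ _ _ _ hN m := dd_memM hN m
  map _ _ f hf hf₀ hN _ _ hc := map_memM f hf hf₀ hN hc
  comap _ _ f hf hinj hf₀ _ hN' _ hc := comap_memM f hf hinj hf₀ hN' hc
  ok_sub _ _ f hf hinj hf₀ hN' := OkModM.of_injective f hf hinj hf₀ hN'
  ok_quot _ _ f hf hsurj hf₀ hN := OkModM.of_surjective f hf hsurj hf₀ hN

@[simp] theorem markedFamily_Ok (N : Type) [AddCommGroup N] [DistribMulAction GQ N]
    (N₀ : AddSubgroup N) : (markedFamily r k p).Ok N N₀ = OkModM r k p N N₀ := rfl

@[simp] theorem markedFamily_Z (N : Type) [AddCommGroup N] [DistribMulAction GQ N]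
    (N₀ : AddSubgroup N) : (markedFamily r k p).Z N N₀ = ZadmM r k p N N₀ := rfl

variable {r k p}

/-! ### The rank-one inputs -/

/-- marked admissible cocycles with values in a good module killed by `r` are flat in the sense of
`RankOne19.IsAdm`. -/
theorem isAdm_of_mem_ZadmM (hk : 0 < k) (hN : OkModM r k p N N₀) (hkill : ∀ x : N, r • x = 0)
    {c : GQ → N} (hc : c ∈ ZadmM r k p N N₀) : IsAdm (r := r) p c :=
  isAdm_of_flat_pow hk hkill (fun σ τ => hc.1.1 σ τ) hc.1.2.1 (hc.1.2.2 hN.ok.flat)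

/-- **(ét₂)**: on an étale-marked good module with trivial Galois action the marked admissible
cocycles are unramified at `r`. -/
theorem eq_zero_of_mem_ZadmM_bot (hk : 1 ≤ k) (hN : OkModM r k p N ⊥)
    (htriv : ∀ (g : GQ) (x : N), g • x = x) {c : GQ → N} (hc : c ∈ ZadmM r k p N ⊥)
    {A : ValuationSubring Qb} (hA : A.LiesOverPrime r) :
    ∀ σ ∈ A.inertiaSubgroupIn ℚ, c σ = 0 := by
  have hE := hc.2 hN.marked
  have hbot : (⊥ : AddSubgroup N).prod (⊥ : AddSubgroup (ZMod (r ^ k))) = ⊥ := by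
    ext x
    rw [AddSubgroup.mem_prod, AddSubgroup.mem_bot, AddSubgroup.mem_bot, AddSubgroup.mem_bot]
    exact (Prod.ext_iff (x := x) (y := (0 : N × ZMod (r ^ k)))).symm
  rw [hbot] at hE
  exact Fermat.Agent.MAZ.Local.RankOneTwo68.eq_zero_of_markedModel_bot' hk
    (fun σ τ => hc.1.1 σ τ) htriv hE hA

/-- **THE MARKED RANK-ONE BOUND FOR THE CONCRETE MARKED FAMILY AT `r = 2`.** -/
theorem rankOneBoundM_markedFamily_two (𝔄₀ : ValuationSubring Qb) {k p : ℕ} (hk : 1 ≤ k)
    (hp : p.Prime) (hp2 : p ≠ 2) (h𝔄₀ : 𝔄₀.LiesOverPrime p) :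
    RankOneBoundM (markedFamily 2 k p) (𝔄₀.decompositionSubgroup ℚ) (𝔄₀.inertiaSubgroupIn ℚ) 2
      (chiModR 2) := by
  refine Fermat.Agent.MAZ.Desc.RankOneTwo19.rankOneBoundM_two 𝔄₀ hp hp2 h𝔄₀ (markedFamily 2 k p)
    ?_ ?_
  · intro N _ _ _ N₀ hOk hN c hc
    exact isAdm_of_mem_ZadmM hk hOk
      (Fermat.Agent.MAZ.Desc.RankOneTwo19.two_nsmul_eq_zero_of_card_two hN) hc
  · intro N _ _ _ N₀ hOk hN hbot c hc A hA
    subst hbot
    exact eq_zero_of_mem_ZadmM_bot hk hOk
      (fun g x => Fermat.Agent.MAZ.Desc.RankOneTwo19.smul_eq_of_card_two hN g x) hc hA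

end Fermat.Agent.MAZ.Desc.MarkedAdm19
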