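/-
Programme MAZ (S15), chapter `r = 2` (P3), CARTIER WITH MARKS, instantiation (helper68).

For the concrete marked family `MarkedAdm19.markedFamily 2 k p`: a good marked module `M` which is
unipotent at `2` (e.g. carries Eichler–Shimura data) gives the CARTIER input of the dual marked
devissage: a mark `D₀` on `Dual M C` with
`F.Ok (M × Dual M C) (M₀.prod D₀)`, `#D₀ · #M₀ ≤ #M`, `M₀^⊥ ≤ D₀`
(`exists_dualMark`), and the same on the `ker π`-primary part with the induced mark
(`exists_dualMark_primary` = conjuncts 12–13 of `KummerInstDualM95.LevelInputDualM`, and the inputs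
`(D₀, hOk, hann, hD₀)` of `ToricAsmM50.factorial_nsmul_fixed_le_range_marked_abs`).
-/
import Mathlib
import Fermat.Agent.MAZ.Flat.CartierMarkedAnn68
import Fermat.Agent.MAZ.Desc.MarkedAdm19
import Fermat.Agent.MAZ.Desc.DescentAsmMarked95

set_option autoImplicit false
set_option linter.unusedSectionVars false
set_option linter.style.haveILetI false

noncomputable section

namespace Fermat.Agent.MAZ.Desc.CartierMarkedInst68

open Fermat.Agent.TW.FF.FlatModel68 Fermat.Agent.MAZ.Desc.FlatAdm68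
open Fermat.Agent.MAZ.Desc.DualModule2 Fermat.Agent.MAZ.Desc.MarkedAdm19
open Fermat.Agent.MAZ.Desc.DevissageMarked95 Fermat.Agent.MAZ.Desc.DescentAsmMarked95
open Fermat.Agent.MAZ.Desc.ConePrimary95 Fermat.Agent.MAZ.Desc.PrimaryPart19
open Fermat.Agent.MAZ.Desc.EisFiltration19
open Fermat.Agent.MAZ.Flat.CartierMarked68 Fermat.Agent.MAZ.Flat.CartierMarkedAnn68
open Fermat.Agent.MAZ.Flat.CartierOk68

local notation "Qb" => AlgebraicClosure ℚ

attribute [local instance] primaryDMA

variable {k p : ℕ} {M C : Type} [AddCommGroup M] [DistribMulAction GQ M] [AddCommGroup C]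
  [DistribMulAction GQ C] [Finite C]

/-- **CARTIER WITH MARKS for the concrete marked family at `2`.** -/
theorem exists_dualMark {M₀ : AddSubgroup M} (hOk : OkModM 2 k p M M₀) (hU : UnipTwoGlobal M)
    (j : C → Qb) (j_add : ∀ c c', j (c + c') = j c * j c') (j_zero : j 0 = 1)
    (j_smul : ∀ (σ : GQ) c, j (σ • c) = σ (j c)) (j_inj : Function.Injective j)
    (hC : ∀ q : ℕ, q.Prime → q ≠ 2 → q ≠ p → ∀ A : ValuationSubring Qb, A.LiesOverPrime q →
      ∀ σ ∈ A.inertiaSubgroupIn ℚ, ∀ c : C, σ • c = c) :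
    ∃ D₀ : AddSubgroup (Dual M C),
      (markedFamily 2 k p).Ok (M × Dual M C) (M₀.prod D₀) ∧
      Nat.card D₀ * Nat.card M₀ ≤ Nat.card M ∧ Dual.ann C M₀ ≤ D₀ := by
  obtain ⟨D₀, hMk, hcount, hann⟩ := marked_prod_dual_two_ann hOk.marked hU j j_add j_zero j_smul
    j_inj
  exact ⟨D₀, ⟨admFamily_ok_prod_dual hOk.ok j j_add j_zero j_smul j_inj hC, hMk⟩, hcount, hann⟩

/-- **the same on the `ker π`-primary part**, from the Eichler–Shimura relation on `M`. -/
theorem exists_dualMark_primary {T : Type*} [CommRing T] [Module T M] [SMulCommClass GQ T M]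
    [Finite M] {π : T →+* ZMod 2} {χ : GQ →* ZMod 2} {τ δ : GQ → T}
    (htau : ∀ g, π (τ g) = 1 + χ g) (hdelta : ∀ g, π (δ g) = χ g)
    (hrel : ∀ (g : GQ) (x : M), g • g • x - τ g • g • x + δ g • x = 0)
    {M₀ : AddSubgroup M} (hOk : (markedFamily 2 k p).Ok M M₀)
    (j : C → Qb) (j_add : ∀ c c', j (c + c') = j c * j c') (j_zero : j 0 = 1)
    (j_smul : ∀ (σ : GQ) c, j (σ • c) = σ (j c)) (j_inj : Function.Injective j)
    (hC : ∀ q : ℕ, q.Prime → q ≠ 2 → q ≠ p → ∀ A : ValuationSubring Qb, A.LiesOverPrime q →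
      ∀ σ ∈ A.inertiaSubgroupIn ℚ, ∀ c : C, σ • c = c) :
    ∃ D₀ : AddSubgroup (Dual (primaryPart (RingHom.ker π) M) C),
      (markedFamily 2 k p).Ok
        (primaryPart (RingHom.ker π) M × Dual (primaryPart (RingHom.ker π) M) C)
        ((primaryMark (RingHom.ker π) M₀).prod D₀) ∧
      Nat.card D₀ * Nat.card (primaryMark (RingHom.ker π) M₀) ≤
        Nat.card (primaryPart (RingHom.ker π) M) ∧
      Dual.ann C (primaryMark (RingHom.ker π) M₀) ≤ D₀ := by
  haveI := primary_smulCommClass (G := GQ) (M := M) (RingHom.ker π)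
  have hOkP : OkModM 2 k p (primaryPart (RingHom.ker π) M) (primaryMark (RingHom.ker π) M₀) :=
    ok_primaryPartM (markedFamily 2 k p) M₀ hOk (RingHom.ker π)
  have EP : EisData π χ τ δ (primaryPart (RingHom.ker π) M) :=
    eisData_primaryPart htau hdelta hrel
  exact exists_dualMark hOkP (unipTwoGlobal_of_eisData EP) j j_add j_zero j_smul j_inj hC

end Fermat.Agent.MAZ.Desc.CartierMarkedInst68
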