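/-
Program MAZ (S15), G-side, helper80: brick (G-ALG-KER), CORRECTED FORM, and the G-side top without it.

`GSpec26.KerAdapter` is false as stated (counterexample: `T = ℤ`, `J = Y = A = ℤ`, `P = (r)`, `H = ℤ`,
`f = id`, `S = univ`: `S ∩ primarySet P H = {0}` but `primarySet P (A / r^k A) = ℤ / r^k`): it lacks
the hypothesis that `r^k` kills the target of `f`.  Here:

* `kerAdapter` : the statement of `GSpec26.KerAdapter` with the ONE extra hypothesis
  `∀ a, (r ^ k) • f a = 0`, PROVED (Mathlib only), with `B' = #(Y / A) · B`;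
* `smul_H1_eq_zero` : `r^k` kills `GSpec26.H1 hT r k`;
* `eisBound_of_kummer_sel'`, `globalEis_of_contracts'` : the two theorems of `GSpec26` verbatim,
  WITHOUT the argument `hKer : KerAdapter`.
-/
import Mathlib
import Fermat.Agent.MAZ.Spec.GSpec26

set_option autoImplicit false
set_option linter.unusedSectionVars false
set_option linter.unusedVariables false
set_option linter.style.haveILetI false

open AlgebraicCurve ModularCurve

noncomputable section

namespace Fermat.Agent.MAZ.Desc.KerAdapter80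

open Fermat.Agent.X0 Fermat.Agent.MAZ.Spec.XSpec62 Fermat.Agent.MAZ.Spec.GSpec26

/-! ### Counting along a homomorphism -/

/-- If `g` maps `R` into the finite set `F` and the kernel of `g` lies in the finite set `K`, then
`R` is finite with at most `#K · #F` elements. -/
theorem ncard_le_of_fibers {Q H : Type*} [AddCommGroup Q] [AddCommGroup H] (g : Q →+ H)
    (R : Set Q) (F : Set H) (hF : F.Finite) (hRF : ∀ x ∈ R, g x ∈ F)
    (K : Set Q) (hK : K.Finite) (hker : ∀ x, g x = 0 → x ∈ K) :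
    R.Finite ∧ R.ncard ≤ K.ncard * F.ncard := by
  classical
  have hfib : ∀ b : H, ({x ∈ R | g x = b}).Finite ∧ ({x ∈ R | g x = b}).ncard ≤ K.ncard := by
    intro b
    by_cases hne : ({x ∈ R | g x = b}).Nonempty
    · obtain ⟨x₀, -, hx₀⟩ := hne
      have hmaps : Set.MapsTo (fun x => x - x₀) {x ∈ R | g x = b} K := by
        rintro x ⟨-, hx⟩
        apply hker
        rw [map_sub, hx, hx₀, sub_self]
      have hinj : Set.InjOn (fun x => x - x₀) {x ∈ R | g x = b} := by
        intro x _ y _ h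
        exact sub_left_injective h
      exact ⟨Set.Finite.of_injOn hmaps hinj hK, Set.ncard_le_ncard_of_injOn _ hmaps hinj hK⟩
    · rw [Set.not_nonempty_iff_eq_empty] at hne
      rw [hne]
      exact ⟨Set.finite_empty, by simp⟩
  have hRfin : R.Finite := by
    refine Set.Finite.subset (Set.Finite.biUnion hF (fun b _ => (hfib b).1)) ?_
    intro x hx
    simp only [Set.mem_iUnion]
    exact ⟨g x, hRF x hx, hx, rfl⟩
  refine ⟨hRfin, ?_⟩
  rw [Set.ncard_eq_toFinset_card R hRfin, Set.ncard_eq_toFinset_card F hF]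
  refine Finset.card_le_mul_card_image_of_maps_to (f := g) ?_ K.ncard ?_
  · intro a ha
    rw [Set.Finite.mem_toFinset] at ha ⊢
    exact hRF a ha
  · intro b _
    have h := (hfib b).2
    rw [Set.ncard_eq_toFinset_card _ (hfib b).1] at h
    refine le_trans (le_of_eq ?_) h
    congr 1
    ext a
    simp

/-! ### The corrected kernel adapter -/

section Alg

variable {T : Type} [CommRing T] {J : Type} [AddCommGroup J] [Module T J]

/-- `Y / A` is finite when `Y` is finitely generated and `N • Y ≤ A`, `N > 0`. -/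
theorem finite_quot (Y A : Submodule T J) [Module.Finite ℤ Y] (N : ℕ) (hN : 0 < N)
    (hNA : ∀ y ∈ Y, N • y ∈ A) : Finite (Y ⧸ (A.comap Y.subtype)) := by
  set AY : Submodule T Y := A.comap Y.subtype with hAY
  let q : Y →ₗ[ℤ] (Y ⧸ AY) := (AY.mkQ).toAddMonoidHom.toIntLinearMap
  have hq : Function.Surjective q := AY.mkQ_surjective
  haveI : Module.Finite ℤ (Y ⧸ AY) := Module.Finite.of_surjective q hq
  apply Module.finite_of_fg_torsion
  intro x
  obtain ⟨y, rfl⟩ := AY.mkQ_surjective x
  refine ⟨⟨(N : ℤ), ?_⟩, ?_⟩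
  · rw [mem_nonZeroDivisors_iff_ne_zero]
    exact_mod_cast hN.ne'
  · change (N : ℤ) • AY.mkQ y = 0
    rw [natCast_zsmul, ← map_nsmul, Submodule.mkQ_apply, Submodule.Quotient.mk_eq_zero, hAY,
      Submodule.mem_comap]
    have h := hNA (y : J) y.2
    simpa using h

/-- **(G-ALG-KER), corrected form** (`GSpec26.KerAdapter` + the hypothesis `∀ a, r^k • f a = 0`). -/
theorem kerAdapter (Y A : Submodule T J) (hAY : A ≤ Y) [Module.Finite ℤ Y] (N : ℕ) (hN : 0 < N)
    (hNA : ∀ y ∈ Y, N • y ∈ A) (P : Ideal T) (r B : ℕ) :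
    ∃ B' : ℕ, ∀ (k : ℕ) (H : Type) [AddCommGroup H] [Module T H] (S : Set H) (f : A →ₗ[T] H),
      (∀ a : A, (r ^ k) • f a = 0) →
      (∀ a : A, f a = 0 → ∃ w ∈ Y, (r ^ k) • w = (a : J)) → (∀ a, f a ∈ S) →
      (S ∩ primarySet P H).Finite → (S ∩ primarySet P H).ncard ≤ B →
      (primarySet P (A ⧸ (Ideal.span {(r : T) ^ k} • ⊤ : Submodule T A))).Finite ∧
        (primarySet P (A ⧸ (Ideal.span {(r : T) ^ k} • ⊤ : Submodule T A))).ncard ≤ B' := by
  classical
  set AY : Submodule T Y := A.comap Y.subtype with hAYdef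
  haveI hfinD : Finite (Y ⧸ AY) := finite_quot Y A N hN hNA
  refine ⟨Nat.card (Y ⧸ AY) * B, ?_⟩
  intro k H _ _ S f hrk hker hS hfin hcard
  set I : Submodule T A := Ideal.span {(r : T) ^ k} • ⊤ with hI
  have hcast : ∀ h : H, ((r : T) ^ k) • h = (r ^ k) • h := by
    intro h
    rw [← Nat.cast_pow, Nat.cast_smul_eq_nsmul]
  have hIker : I ≤ LinearMap.ker f := by
    rw [hI, Submodule.smul_le]
    intro t ht a _
    obtain ⟨c, rfl⟩ := Ideal.mem_span_singleton'.1 ht
    rw [LinearMap.mem_ker, mul_smul, map_smul, map_smul, hcast, hrk, smul_zero]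
  let g : (A ⧸ I) →ₗ[T] H := I.liftQ f hIker
  have hg : ∀ a : A, g (Submodule.Quotient.mk a) = f a := fun a => Submodule.liftQ_apply I f a
  let K : Set (A ⧸ I) := {x | g x = 0}
  have hK : K.Finite ∧ K.ncard ≤ Nat.card (Y ⧸ AY) := by
    have hex : ∀ x : A ⧸ I, g x = 0 → ∃ w : Y, ∃ hw : (r ^ k) • (w : J) ∈ A,
        (Submodule.Quotient.mk ⟨(r ^ k) • (w : J), hw⟩ : A ⧸ I) = x := by
      intro x hx
      obtain ⟨a, rfl⟩ := Submodule.Quotient.mk_surjective I x
      rw [hg] at hx
      obtain ⟨w, hwY, hw⟩ := hker a hx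
      refine ⟨⟨w, hwY⟩, by rw [hw]; exact a.2, ?_⟩
      congr 1
      exact Subtype.ext hw
    let c : K → Y ⧸ AY := fun x => Submodule.Quotient.mk (Classical.choose (hex x.1 x.2))
    have hc : Function.Injective c := by
      intro x x' hxx'
      obtain ⟨hw1, e1⟩ := Classical.choose_spec (hex x.1 x.2)
      obtain ⟨hw2, e2⟩ := Classical.choose_spec (hex x'.1 x'.2)
      have hsub : Classical.choose (hex x.1 x.2) - Classical.choose (hex x'.1 x'.2) ∈ AY :=
        (Submodule.Quotient.eq AY).1 hxx'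
      have hsubA : ((Classical.choose (hex x.1 x.2) : Y) : J) -
          ((Classical.choose (hex x'.1 x'.2) : Y) : J) ∈ A := by
        simpa [hAYdef] using hsub
      apply Subtype.ext
      rw [← e1, ← e2, Submodule.Quotient.eq]
      have hdiff : (⟨(r ^ k) • ((Classical.choose (hex x.1 x.2) : Y) : J), hw1⟩ -
          ⟨(r ^ k) • ((Classical.choose (hex x'.1 x'.2) : Y) : J), hw2⟩ : A) =
          ((r : T) ^ k) • (⟨((Classical.choose (hex x.1 x.2) : Y) : J) -
            ((Classical.choose (hex x'.1 x'.2) : Y) : J), hsubA⟩ : A) := by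
        apply Subtype.ext
        rw [Submodule.coe_sub, Submodule.coe_smul, ← Nat.cast_pow, Nat.cast_smul_eq_nsmul,
          smul_sub]
      rw [hdiff]
      exact Submodule.smul_mem_smul (Ideal.mem_span_singleton_self _) Submodule.mem_top
    haveI : Finite K := Finite.of_injective c hc
    refine ⟨Set.toFinite K, ?_⟩
    have h := Nat.card_le_card_of_injective c hc
    rwa [Nat.card_coe_set_eq] at h
  have hmaps : ∀ x ∈ primarySet P (A ⧸ I), g.toAddMonoidHom x ∈ S ∩ primarySet P H := by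
    intro x hx
    refine ⟨?_, ?_⟩
    · obtain ⟨a, rfl⟩ := Submodule.Quotient.mk_surjective I x
      change g (Submodule.Quotient.mk a) ∈ S
      rw [hg]
      exact hS a
    · obtain ⟨n, hn⟩ := hx
      refine ⟨n, fun t ht => ?_⟩
      change t • g x = 0
      rw [← map_smul, hn t ht, map_zero]
  have hcount := ncard_le_of_fibers g.toAddMonoidHom (primarySet P (A ⧸ I))
    (S ∩ primarySet P H) hfin hmaps K hK.1 (fun x hx => hx)
  exact ⟨hcount.1, hcount.2.trans (Nat.mul_le_mul hK.2 hcard)⟩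

end Alg

/-! ### The G-side top without `KerAdapter` -/

section Top

variable {p : ℕ} [NeZero p] {T : Type} [CommRing T] [Module T (JZero p)]

/-- `r^k` kills `H¹(G_ℚ, J₀(p)[r^k])`. -/
theorem smul_H1_eq_zero (hT : HeckeModel p T) (r k : ℕ) (ξ : H1 hT r k) : (r ^ k) • ξ = 0 := by
  obtain ⟨x, rfl⟩ := Submodule.Quotient.mk_surjective _ ξ
  rw [← Submodule.Quotient.mk_smul]
  have hx : (r ^ k) • x = 0 := by
    apply Subtype.ext
    rw [AddSubmonoidClass.coe_nsmul, Submodule.coe_zero]
    funext σ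
    exact x.2.2 σ
  rw [hx, Submodule.Quotient.mk_zero]

/-- **(G-BOUND) from (G-KUM) + (G-SEL)** (`GSpec26.eisBound_of_kummer_sel` without `KerAdapter`). -/
theorem eisBound_of_kummer_sel' (hT : HeckeModel p T) (r : ℕ) (hMW : MW p)
    (A : Submodule T (JZero p)) (hA : FiniteIndexIn A (ratPoints hT)) (P : Ideal T) (B : ℕ)
    (hK : KummerSel hT r A) (hS : SelBound hT r P B) :
    ∃ B' : ℕ, EisBound A P r B' := by
  haveI hfg : Module.Finite ℤ ↥(FixedPoints.addSubgroup GQ (JZero p)) :=
    Module.Finite.iff_addGroup_fg.mpr hMW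
  let ι : ↥(ratPoints hT) →ₗ[ℤ] ↥(FixedPoints.addSubgroup GQ (JZero p)) :=
    { toFun := fun a => ⟨(a : JZero p), fun σ => a.2 σ⟩
      map_add' := fun a b => rfl
      map_smul' := fun n a => by
        apply Subtype.ext
        change ((n • a : ↥(ratPoints hT)) : JZero p) = n • (a : JZero p)
        exact Submodule.coe_smul_of_tower n a }
  have hι : Function.Injective ι := fun a b hab => by
    apply Subtype.ext
    exact congrArg (fun x : ↥(FixedPoints.addSubgroup GQ (JZero p)) => (x : JZero p)) hab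
  haveI : IsNoetherian ℤ ↥(FixedPoints.addSubgroup GQ (JZero p)) :=
    isNoetherian_of_isNoetherianRing_of_finite ℤ _
  haveI hY : Module.Finite ℤ ↥(ratPoints hT) := Module.Finite.of_injective ι hι
  obtain ⟨N, hN, hNA⟩ := hA.2
  obtain ⟨B', hB'⟩ := kerAdapter (ratPoints hT) A hA.1 N hN hNA P r B
  refine ⟨B', fun k => ?_⟩
  obtain ⟨f, hfker, hfS⟩ := hK k
  obtain ⟨hfin, hcard⟩ := hS k
  exact hB' k (H1 hT r k) (SelSet hT r k) f (fun a => smul_H1_eq_zero hT r k (f a)) hfker hfS
    hfin hcard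

/-- **THE G-SIDE: `GlobalEis` from the bricks** (`GSpec26.globalEis_of_contracts` without the
argument `hKer : KerAdapter`). -/
theorem globalEis_of_contracts' (hT : HeckeModel p T) (hMW : MW p) (hdeg : DegOne p)
    (cZ : Place Qb (FF p)) (r : ℕ) [Fact r.Prime] (π : T →+* ZMod r) (m : ℕ)
    (hC : CuspEis hT hdeg cZ r π m) (A : Submodule T (JZero p)) (hA : PFin hT r A)
    (hK : KummerSel hT r A) (B : ℕ) (hS : SelBound hT r (RingHom.ker π) B)
    (hAlg : AlgFin) : GlobalEis hdeg cZ := by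
  obtain ⟨B', hB'⟩ := eisBound_of_kummer_sel' hT r hMW A hA.1 (RingHom.ker π) B hK hS
  exact globalEis_of_bound hT hMW hdeg cZ r π m hC A hA.1 B' hB' hAlg

end Top

end Fermat.Agent.MAZ.Desc.KerAdapter80
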