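/-
MAZ (S15), G-side (descent), brick DUAL, part 3 (helper2): **the descent assembly with the symmetric
devissage**.  `DescentAsm95` + `DualDevissage2` + `KerAdapter80`.

The DUAL twins of `DescentAsm95.card_primaryPart_H1S_le_card_H0S`, `DescentAsm95.descent_asm` and
`EisBoundAbs95.exists_bound`: the hypothesis `hhalf` (`α`-half and `δ`-half on the `ker π`-primary
part) is replaced by the inputs of `DualDevissage2.card_H1S_le_of_equivariantHoms`, all stated on
`M ≅ J[r ^ k]` itself:

* a finite cyclic `G`-module `C` killing `M` (`μ_{r^k}` written additively), on which inertia at `p`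
  acts trivially and every `g` acts by an integer `u ≡ χ g` with `δ g = u` on `M`;
* `hI` : inertia at `p` acts trivially on `M ⧸ Mf`;
* CARTIER : `F.Ok (M × Hom(M, C))`;
* (HOM-μ) : `#Hom_G(M, C) ≤ B`.

They pass to the primary part because the primary part is a direct summand (`projP`).
-/
import Mathlib
import Fermat.Agent.MAZ.Desc.DescentAsm95
import Fermat.Agent.MAZ.Desc.DualDevissage2
import Fermat.Agent.MAZ.Desc.KerAdapter80

set_option autoImplicit false
set_option linter.style.haveILetI false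
set_option linter.unusedSectionVars false

namespace Fermat.Agent.MAZ.Desc.DescentAsmDual2

open Fermat.Agent.MAZ.Desc.SelmerCone95 Fermat.Agent.MAZ.Desc.KummerCone95
  Fermat.Agent.MAZ.Desc.Devissage95 Fermat.Agent.MAZ.Desc.PrimaryPart19
  Fermat.Agent.MAZ.Desc.ConePrimary95 Fermat.Agent.MAZ.Desc.DescentAsm95
  Fermat.Agent.MAZ.Desc.EisFiltration19 Fermat.Agent.MAZ.Desc.DualModule2
  Fermat.Agent.MAZ.Desc.DualDevissage2

universe u

attribute [local instance] primaryDMA

section Family

variable {G : Type*} [Group G] {D I : Subgroup G} {T : Type*} [CommRing T]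
variable {M : Type u} [AddCommGroup M] [DistribMulAction G M] [Module T M] [SMulCommClass G T M]
variable (C : Type u) [AddCommGroup C] [DistribMulAction G C]

/-- restriction of functionals to the primary part. -/
def resP (P : Ideal T) : Dual M C →+ Dual (primaryPart P M) C where
  toFun f := Dual.mk (f.hom.comp (inclP P))
  map_zero' := rfl
  map_add' _ _ := rfl

theorem resP_hom (P : Ideal T) (f : Dual M C) (x : primaryPart P M) :
    (resP C P f).hom x = f.hom (x : M) := rfl

theorem resP_equivariant (P : Ideal T) (σ : G) (f : Dual M C) :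
    resP C P (σ • f) = σ • resP C P f := by
  apply Dual.ext
  intro x
  rfl

/-- the projection onto the primary part given by a projector. -/
def projP (P : Ideal T) {e : T} (he : IsProj P e M) : M →+ primaryPart P M :=
  (DistribSMul.toAddMonoidHom M e).codRestrict (primaryPart P M).toAddSubgroup
    (fun m => he.smul_mem m)

theorem projP_coe (P : Ideal T) {e : T} (he : IsProj P e M) (x : M) :
    ((projP P he x : primaryPart P M) : M) = e • x := rfl

theorem projP_incl (P : Ideal T) {e : T} (he : IsProj P e M) (x : primaryPart P M) :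
    projP P he (x : M) = x := Subtype.ext (he.smul_eq x.2)

theorem projP_equivariant (P : Ideal T) {e : T} (he : IsProj P e M) (σ : G) (x : M) :
    projP P he (σ • x) = σ • projP P he x :=
  Subtype.ext (smul_comm σ e x).symm

theorem resP_surjective [Finite M] (P : Ideal T) : Function.Surjective (resP (M := M) C P) := by
  intro f'
  obtain ⟨e, he⟩ := exists_isProj P M
  refine ⟨Dual.mk (f'.hom.comp (projP P he)), ?_⟩
  apply Dual.ext
  intro x
  change f'.hom (projP P he (x : M)) = f'.hom x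
  rw [projP_incl]

/-- the class `Ok` of `M × Hom(M, C)` passes to the primary part. -/
theorem ok_primary_dual [Finite M] (F : AdmFamily.{u} G) (hOk : F.Ok (M × Dual M C))
    (P : Ideal T) : F.Ok (primaryPart P M × Dual (primaryPart P M) C) := by
  let q : M × Dual M C →+ M × Dual (primaryPart P M) C :=
    AddMonoidHom.prodMap (AddMonoidHom.id M) (resP C P)
  have hq : ∀ (σ : G) (x : M × Dual M C), q (σ • x) = σ • q x := fun σ x =>
    Prod.ext rfl (resP_equivariant C P σ x.2)
  have hqs : Function.Surjective q := fun y => by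
    obtain ⟨f, hf⟩ := resP_surjective C P y.2
    exact ⟨(y.1, f), Prod.ext rfl hf⟩
  have h1 : F.Ok (M × Dual (primaryPart P M) C) := F.ok_quot q hq hqs hOk
  let j : primaryPart P M × Dual (primaryPart P M) C →+ M × Dual (primaryPart P M) C :=
    AddMonoidHom.prodMap (inclP P) (AddMonoidHom.id _)
  have hj : ∀ (σ : G) (x : primaryPart P M × Dual (primaryPart P M) C),
      j (σ • x) = σ • j x := fun σ x => rfl
  have hji : Function.Injective j := fun a b hab => by
    have h1 : (j a).1 = (j b).1 := congrArg Prod.fst hab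
    have h2 : (j a).2 = (j b).2 := congrArg Prod.snd hab
    exact Prod.ext (inclP_injective P h1) h2
  exact F.ok_sub j hj hji h1

/-- the equivariant functionals of the primary part extend. -/
theorem card_equivariantHoms_primary_le [Finite M] [Finite C] (P : Ideal T) :
    Nat.card (equivariantHoms G (primaryPart P M) C) ≤ Nat.card (equivariantHoms G M C) := by
  obtain ⟨e, he⟩ := exists_isProj P M
  refine Nat.card_le_card_of_injective
    (fun f : equivariantHoms G (primaryPart P M) C =>
      (⟨Dual.mk ((f : Dual (primaryPart P M) C).hom.comp (projP P he)), fun g x => ?_⟩ :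
        equivariantHoms G M C)) (fun a b hab => ?_)
  · change (f : Dual (primaryPart P M) C).hom (projP P he (g • x)) =
      g • (f : Dual (primaryPart P M) C).hom (projP P he x)
    rw [projP_equivariant, f.2 g]
  · apply Subtype.ext
    apply Dual.ext
    intro x
    have h := congrArg (fun q : equivariantHoms G M C => (q : Dual M C).hom (x : M)) hab
    change (a : Dual (primaryPart P M) C).hom (projP P he (x : M)) =
      (b : Dual (primaryPart P M) C).hom (projP P he (x : M)) at h
    rwa [projP_incl] at h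

variable {C}
variable (𝕄 : ConeData D I M)
  (hact : ∀ t : T, ConeHom 𝕄 𝕄 (DistribSMul.toAddMonoidHom M t))
variable {r : ℕ} [Fact r.Prime] {π : T →+* ZMod r} {χ : G →* ZMod r} {τ δ : G → T}

/-- **The symmetric devissage on the `ker π`-primary part bounds the `ker π`-primary part of
`H1S`**: the DUAL form of `DescentAsm95.card_primaryPart_H1S_le_card_H0S`, with all the hypotheses
stated on `M` itself. -/
theorem card_primaryPart_H1S_le_dual (F : AdmFamily.{u} G) (φ₀ : G)
    (hR : RankOneBound F D I r χ φ₀) [Finite M]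
    (htau : ∀ g, π (τ g) = 1 + χ g) (hdelta : ∀ g, π (δ g) = χ g)
    (hrel : ∀ (g : G) (x : M), g • g • x - τ g • g • x + δ g • x = 0)
    (h𝕄 : 𝕄.Z = F.Z M) [Finite C] [IsAddCyclic C]
    (hMC : ∀ x : M, Nat.card C • x = 0) (hIC : ∀ σ ∈ I, ∀ c : C, σ • c = c)
    (hδ : ∀ g : G, ∃ u : ℕ, (u : ZMod r) = χ g ∧ (∀ c : C, g • c = u • c) ∧
      ∀ x : M, δ g • x = u • x)
    (hI : ∀ σ ∈ I, ∀ x : M, σ • x - x ∈ 𝕄.Mf) (hOkN : F.Ok (M × Dual M C)) (B : ℕ)
    (hB : Nat.card (equivariantHoms G M C) ≤ B) :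
    letI := moduleH1S 𝕄 hact
    Finite (primaryPart (RingHom.ker π) (H1S 𝕄)) ∧
      Nat.card (primaryPart (RingHom.ker π) (H1S 𝕄)) ≤
        Nat.card (H0S (primaryCone 𝕄 (RingHom.ker π))) * B := by
  letI := moduleH1S 𝕄 hact
  haveI := primary_smulCommClass (G := G) (M := M) (RingHom.ker π)
  have hOk : F.Ok M :=
    F.ok_sub (AddMonoidHom.inl M (Dual M C)) (fun σ x => Prod.ext rfl (smul_zero σ).symm)
      (fun a b hab => congrArg Prod.fst hab) hOkN
  have E : EisData π χ τ δ (primaryPart (RingHom.ker π) M) :=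
    eisData_primaryPart htau hdelta hrel
  obtain ⟨hfin, hle⟩ := card_H1S_le_of_equivariantHoms F φ₀ hR (primaryPart (RingHom.ker π) M) C
    (fun x => Subtype.ext (hMC x)) hIC
    (fun g => by
      obtain ⟨u, h1, h2, h3⟩ := hδ g
      exact ⟨u, h1, h2, fun x => Subtype.ext (h3 x)⟩)
    E (primaryCone 𝕄 (RingHom.ker π)) (primaryCone_Z_eq F hOk 𝕄 h𝕄 _)
    (fun σ hσ x => hI σ hσ x) (ok_primary_dual C F hOkN _) B
    ((card_equivariantHoms_primary_le C _).trans hB)
  haveI := hfin
  obtain ⟨y, hy⟩ := exists_injective_primaryPart_H1S 𝕄 hact (RingHom.ker π)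
  exact ⟨Finite.of_injective y hy, (Nat.card_le_card_of_injective y hy).trans hle⟩

end Family

/-! ### The assembly -/

section Assembly

variable {G : Type*} [Group G] {D I : Subgroup G} {T : Type*} [CommRing T]
variable {J : Type*} [AddCommGroup J] [DistribMulAction G J] [Module T J]
variable {M : Type u} [AddCommGroup M] [DistribMulAction G M] [Module T M]
variable {n : ℕ} {r : ℕ} [Fact r.Prime] {π : T →+* ZMod r} {χ : G →* ZMod r} {τ δ : G → T}

/-- **DESCENT-ASM, DUAL form.**  The same as `DescentAsm95.descent_asm`, with the two halves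
replaced by the inputs of the symmetric devissage: a finite cyclic module `C` (`μ_n` written
additively), `F.Ok (M × Hom(M, C))` (CARTIER) and a bound `B` for the number of equivariant
functionals `M → C` (HOM-μ).  The bound for the `ker π`-primary part of `H1S` becomes `#Tt · B`. -/
theorem descent_asm_dual (F : AdmFamily.{u} G) (φ₀ : G) (hR : RankOneBound F D I r χ φ₀)
    [Finite M] (K : KummerData D I J M n) (A : Submodule T J) (hL : Lin K A) (hK : K.Hyp)
    (hZ : K.cone.Z = F.Z M)
    (htau : ∀ g, π (τ g) = 1 + χ g) (hdelta : ∀ g, π (δ g) = χ g)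
    (hrel : ∀ (g : G) (x : M), g • g • x - τ g • g • x + δ g • x = 0)
    (C : Type u) [AddCommGroup C] [DistribMulAction G C] [Finite C] [IsAddCyclic C]
    (hMC : ∀ x : M, Nat.card C • x = 0) (hIC : ∀ σ ∈ I, ∀ c : C, σ • c = c)
    (hδ : ∀ g : G, ∃ u : ℕ, (u : ZMod r) = χ g ∧ (∀ c : C, g • c = u • c) ∧
      ∀ x : M, δ g • x = u • x)
    (hI : ∀ σ ∈ I, ∀ x : M, σ • x - x ∈ K.cone.Mf) (hOkN : F.Ok (M × Dual M C)) (B : ℕ)
    (hB : Nat.card (equivariantHoms G M C) ≤ B)
    (Tt : AddSubgroup J) [Finite Tt] (hTt : ∀ x ∈ K.A, n • x = 0 → x ∈ Tt) :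
    ∃ (_ : Module T (H1S K.cone)) (f : A →ₗ[T] H1S K.cone),
      (∀ a : A, n • f a = 0) ∧ (∀ a : A, f a = 0 → ∃ w ∈ K.A, n • w = (a : J)) ∧
      (Set.univ ∩ {x : H1S K.cone | ∃ j : ℕ, ∀ t ∈ RingHom.ker π ^ j, t • x = 0}).Finite ∧
      (Set.univ ∩ {x : H1S K.cone | ∃ j : ℕ, ∀ t ∈ RingHom.ker π ^ j, t • x = 0}).ncard ≤
        Nat.card Tt * B := by
  haveI := hL.smulCommClass
  have hOk : F.Ok M :=
    F.ok_sub (AddMonoidHom.inl M (Dual M C)) (fun σ x => Prod.ext rfl (smul_zero σ).symm)
      (fun a b hab => congrArg Prod.fst hab) hOkN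
  have hact : ∀ t : T, ConeHom K.cone K.cone (DistribSMul.toAddMonoidHom M t) :=
    coneHom_smul F hOk K.cone hZ hL.smul_mem_Mf
  letI := moduleH1S K.cone hact
  obtain ⟨hfin, hle⟩ := card_primaryPart_H1S_le_dual K.cone hact F φ₀ hR htau hdelta hrel hZ
    hMC hIC hδ hI hOkN B hB
  have hH0 := card_H0S_primaryCone_le_of_kummer K (RingHom.ker π) Tt hTt
  have hset : (Set.univ ∩ {x : H1S K.cone | ∃ j : ℕ, ∀ t ∈ RingHom.ker π ^ j, t • x = 0}) =
      ((primaryPart (RingHom.ker π) (H1S K.cone) : Submodule T (H1S K.cone)) :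
        Set (H1S K.cone)) := by
    rw [Set.univ_inter]
    rfl
  refine ⟨moduleH1S K.cone hact, kummerLin hL hK hact, nsmul_kummerLin hL hK hact,
    kummerLin_eq_zero hL hK hact, ?_, ?_⟩
  · rw [hset]
    exact Set.toFinite _
  · rw [hset]
    have e : ((primaryPart (RingHom.ker π) (H1S K.cone) : Submodule T (H1S K.cone)) :
        Set (H1S K.cone)).ncard = Nat.card (primaryPart (RingHom.ker π) (H1S K.cone)) :=
      (Nat.card_coe_set_eq _).symm
    rw [e]
    exact hle.trans (Nat.mul_le_mul_right _ hH0)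

end Assembly

/-! ### All levels -/

section Levels

open Fermat.Agent.MAZ.Spec.GSpec26

variable {G : Type} [Group G] {D I : Subgroup G} {T : Type} [CommRing T]
variable {J : Type} [AddCommGroup J] [DistribMulAction G J] [Module T J]
variable {r : ℕ} [Fact r.Prime] {π : T →+* ZMod r} {χ : G →* ZMod r} {τ δ : G → T}

/-- the data of the descent at the level `r ^ k`, DUAL form: the hypothesis `hhalf` of
`EisBoundAbs95.LevelData` is replaced by a finite cyclic `G`-module `C` with the inputs of the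
symmetric devissage; `B` bounds the number of equivariant functionals `M → C`. -/
def LevelDataDual (D I : Subgroup G) (A Y : Submodule T J) (F : AdmFamily.{0} G)
    (χ : G →* ZMod r) (τ δ : G → T) (Tt : AddSubgroup J) (B : ℕ) (k : ℕ) : Prop :=
  ∃ (M : Type) (_ : AddCommGroup M) (_ : DistribMulAction G M) (_ : Module T M) (_ : Finite M)
    (K : KummerData D I J M (r ^ k)) (_ : Lin K A)
    (C : Type) (_ : AddCommGroup C) (_ : DistribMulAction G C) (_ : Finite C) (_ : IsAddCyclic C),
    K.Hyp ∧ K.cone.Z = F.Z M ∧ (∀ w ∈ K.A, w ∈ Y) ∧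
    (∀ (g : G) (x : M), g • g • x - τ g • g • x + δ g • x = 0) ∧
    (∀ x : M, Nat.card C • x = 0) ∧ (∀ σ ∈ I, ∀ c : C, σ • c = c) ∧
    (∀ g : G, ∃ u : ℕ, (u : ZMod r) = χ g ∧ (∀ c : C, g • c = u • c) ∧
      ∀ x : M, δ g • x = u • x) ∧
    (∀ σ ∈ I, ∀ x : M, σ • x - x ∈ K.cone.Mf) ∧ F.Ok (M × Dual M C) ∧
    Nat.card (equivariantHoms G M C) ≤ B ∧
    ∀ x ∈ K.A, (r ^ k) • x = 0 → x ∈ Tt

/-- **The uniform bound from the symmetric descent at every level** (the conclusion is
`GSpec26.EisBound A (ker π) r B'` when `J = JZero p`). -/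
theorem exists_bound_dual (Y A : Submodule T J) (hAY : A ≤ Y) [Module.Finite ℤ Y] (N : ℕ)
    (hN : 0 < N) (hNA : ∀ y ∈ Y, N • y ∈ A) (F : AdmFamily.{0} G) (φ₀ : G)
    (hR : RankOneBound F D I r χ φ₀) (htau : ∀ g, π (τ g) = 1 + χ g)
    (hdelta : ∀ g, π (δ g) = χ g) (Tt : AddSubgroup J) [Finite Tt] (B : ℕ)
    (hk : ∀ k : ℕ, LevelDataDual D I A Y F χ τ δ Tt B k) :
    ∃ B' : ℕ, ∀ k : ℕ,
      (primarySet (RingHom.ker π) (A ⧸ (Ideal.span {(r : T) ^ k} • ⊤ : Submodule T A))).Finite ∧
        (primarySet (RingHom.ker π)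
          (A ⧸ (Ideal.span {(r : T) ^ k} • ⊤ : Submodule T A))).ncard ≤ B' := by
  obtain ⟨B', hB'⟩ := Fermat.Agent.MAZ.Desc.KerAdapter80.kerAdapter Y A hAY N hN hNA
    (RingHom.ker π) r (Nat.card Tt * B)
  refine ⟨B', fun k => ?_⟩
  obtain ⟨M, i1, i2, i3, i4, K, hL, C, c1, c2, c3, c4, hK, hZ, hKA, hrel, hMC, hIC, hδ, hI, hOkN,
    hB, hTt⟩ := hk k
  obtain ⟨inst, f, h1, h2, h3, h4⟩ := descent_asm_dual F φ₀ hR K A hL hK hZ htau hdelta hrel C
    hMC hIC hδ hI hOkN B hB Tt hTt
  refine hB' k (H1S K.cone) Set.univ f h1 (fun a ha => ?_) (fun a => Set.mem_univ _) h3 h4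
  obtain ⟨w, hw, hwa⟩ := h2 a ha
  exact ⟨w, hKA w hw, hwa⟩

end Levels

end Fermat.Agent.MAZ.Desc.DescentAsmDual2
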