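/-
MAZ (S15), G-side, helper26: **the kernel adapter, `P`-part variant** (for PT-GAL / (P-FIN)_P).

helper80's `KerAdapter80.kerAdapter` with the kernel hypothesis
`f a = 0 → ∃ w ∈ Y, r^k • w = a` replaced by
`f a = 0 → ∃ w ∈ Y, r^k • w = e • a`, where `e : T` acts as the identity on the `P`-primary part of
`A / r^k A` (a `P`-projector: `PrimaryPart19.exists_isProj`).  This is what the descent delivers when
only the `P`-part of the Kummer class is known to be unramified at `p`: the Kummer map is then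
`a ↦ κ (e • a)`.
-/
import Mathlib
import Fermat.Agent.MAZ.Desc.KerAdapter80

set_option autoImplicit false
set_option linter.unusedSectionVars false
set_option linter.unusedVariables false
set_option linter.style.haveILetI false

noncomputable section

namespace Fermat.Agent.MAZ.Desc.KerAdapterP26

open Fermat.Agent.MAZ.Spec.GSpec26 Fermat.Agent.MAZ.Desc.KerAdapter80

/-- counting along a homomorphism, on a set closed under subtraction. -/
theorem ncard_le_of_fibers_sub {Q H : Type*} [AddCommGroup Q] [AddCommGroup H] (g : Q →+ H)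
    (R : Set Q) (hsub : ∀ x ∈ R, ∀ y ∈ R, x - y ∈ R) (F : Set H) (hF : F.Finite)
    (hRF : ∀ x ∈ R, g x ∈ F) (K : Set Q) (hK : K.Finite) (hker : ∀ x ∈ R, g x = 0 → x ∈ K) :
    R.Finite ∧ R.ncard ≤ K.ncard * F.ncard := by
  classical
  have hfib : ∀ b : H, ({x ∈ R | g x = b}).Finite ∧ ({x ∈ R | g x = b}).ncard ≤ K.ncard := by
    intro b
    by_cases hne : ({x ∈ R | g x = b}).Nonempty
    · obtain ⟨x₀, hx₀R, hx₀⟩ := hne
      have hmaps : Set.MapsTo (fun x => x - x₀) {x ∈ R | g x = b} K := by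
        rintro x ⟨hxR, hx⟩
        apply hker _ (hsub x hxR x₀ hx₀R)
        rw [map_sub, hx, hx₀, sub_self]
      have hinj : Set.InjOn (fun x => x - x₀) {x ∈ R | g x = b} := by
        intro x _ y _ h
        exact sub_left_injective h
      exact ⟨Set.Finite.of_injOn hmaps hinj hK, Set.ncard_le_ncard_of_injOn _ hmaps hinj hK⟩
    · rw [Set.not_nonempty_iff_eq_empty] at hne
      rw [hne]
      exact ⟨Set.finite_empty, by simp⟩
  have hRfin : R.Finite := by
    refine Set.Finite.subset (Set.Finite.biUnion hF (fun b _ => (hfib b).1)) ?_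
    intro x hx
    simp only [Set.mem_iUnion]
    exact ⟨g x, hRF x hx, hx, rfl⟩
  refine ⟨hRfin, ?_⟩
  rw [Set.ncard_eq_toFinset_card R hRfin, Set.ncard_eq_toFinset_card F hF]
  refine Finset.card_le_mul_card_image_of_maps_to (f := g) ?_ K.ncard ?_
  · intro a ha
    rw [Set.Finite.mem_toFinset] at ha ⊢
    exact hRF a ha
  · intro b _
    have h := (hfib b).2
    rw [Set.ncard_eq_toFinset_card _ (hfib b).1] at h
    refine le_trans (le_of_eq ?_) h
    congr 1
    ext a
    simp

variable {T : Type} [CommRing T] {J : Type} [AddCommGroup J] [Module T J]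

/-- the primary set is closed under subtraction. -/
theorem primarySet_sub_mem (P : Ideal T) {M : Type*} [AddCommGroup M] [Module T M] {x y : M}
    (hx : x ∈ primarySet P M) (hy : y ∈ primarySet P M) : x - y ∈ primarySet P M := by
  obtain ⟨i, hi⟩ := hx
  obtain ⟨j, hj⟩ := hy
  refine ⟨max i j, fun t ht => ?_⟩
  rw [smul_sub, hi t (Ideal.pow_le_pow_right (le_max_left i j) ht),
    hj t (Ideal.pow_le_pow_right (le_max_right i j) ht), sub_zero]

/-- **(G-ALG-KER), `P`-part variant.** -/
theorem kerAdapterP (Y A : Submodule T J) (hAY : A ≤ Y) [Module.Finite ℤ Y] (N : ℕ) (hN : 0 < N)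
    (hNA : ∀ y ∈ Y, N • y ∈ A) (P : Ideal T) (r B : ℕ) :
    ∃ B' : ℕ, ∀ (k : ℕ) (H : Type) [AddCommGroup H] [Module T H] (S : Set H) (f : A →ₗ[T] H)
      (e : T),
      (∀ x ∈ primarySet P (A ⧸ (Ideal.span {(r : T) ^ k} • ⊤ : Submodule T A)), e • x = x) →
      (∀ a : A, (r ^ k) • f a = 0) →
      (∀ a : A, f a = 0 → ∃ w ∈ Y, (r ^ k) • w = e • (a : J)) → (∀ a, f a ∈ S) →
      (S ∩ primarySet P H).Finite → (S ∩ primarySet P H).ncard ≤ B →
      (primarySet P (A ⧸ (Ideal.span {(r : T) ^ k} • ⊤ : Submodule T A))).Finite ∧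
        (primarySet P (A ⧸ (Ideal.span {(r : T) ^ k} • ⊤ : Submodule T A))).ncard ≤ B' := by
  classical
  set AY : Submodule T Y := A.comap Y.subtype with hAYdef
  haveI hfinD : Finite (Y ⧸ AY) := finite_quot Y A N hN hNA
  refine ⟨Nat.card (Y ⧸ AY) * B, ?_⟩
  intro k H _ _ S f e he hrk hker hS hfin hcard
  set I : Submodule T A := Ideal.span {(r : T) ^ k} • ⊤ with hI
  have hcast : ∀ h : H, ((r : T) ^ k) • h = (r ^ k) • h := by
    intro h
    rw [← Nat.cast_pow, Nat.cast_smul_eq_nsmul]
  have hIker : I ≤ LinearMap.ker f := by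
    rw [hI, Submodule.smul_le]
    intro t ht a _
    obtain ⟨c, rfl⟩ := Ideal.mem_span_singleton'.1 ht
    rw [LinearMap.mem_ker, mul_smul, map_smul, map_smul, hcast, hrk, smul_zero]
  let g : (A ⧸ I) →ₗ[T] H := I.liftQ f hIker
  have hg : ∀ a : A, g (Submodule.Quotient.mk a) = f a := fun a => Submodule.liftQ_apply I f a
  let K : Set (A ⧸ I) := {x | x ∈ primarySet P (A ⧸ I) ∧ g x = 0}
  have hK : K.Finite ∧ K.ncard ≤ Nat.card (Y ⧸ AY) := by
    have hex : ∀ x : A ⧸ I, x ∈ K → ∃ w : Y, ∃ hw : (r ^ k) • (w : J) ∈ A,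
        (Submodule.Quotient.mk ⟨(r ^ k) • (w : J), hw⟩ : A ⧸ I) = x := by
      rintro x ⟨hxP, hx⟩
      obtain ⟨a, rfl⟩ := Submodule.Quotient.mk_surjective I x
      rw [hg] at hx
      obtain ⟨w, hwY, hw⟩ := hker a hx
      have hwA : (r ^ k) • w ∈ A := by
        rw [hw]
        exact (e • a).2
      refine ⟨⟨w, hwY⟩, hwA, ?_⟩
      have h1 : (⟨(r ^ k) • w, hwA⟩ : A) = e • a := Subtype.ext hw
      change (Submodule.Quotient.mk (⟨(r ^ k) • w, hwA⟩ : A) : A ⧸ I) = Submodule.Quotient.mk a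
      rw [h1, Submodule.Quotient.mk_smul]
      exact he _ hxP
    let c : K → Y ⧸ AY := fun x => Submodule.Quotient.mk (Classical.choose (hex x.1 x.2))
    have hc : Function.Injective c := by
      intro x x' hxx'
      obtain ⟨hw1, e1⟩ := Classical.choose_spec (hex x.1 x.2)
      obtain ⟨hw2, e2⟩ := Classical.choose_spec (hex x'.1 x'.2)
      have hsub : Classical.choose (hex x.1 x.2) - Classical.choose (hex x'.1 x'.2) ∈ AY :=
        (Submodule.Quotient.eq AY).1 hxx'
      have hsubA : ((Classical.choose (hex x.1 x.2) : Y) : J) -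
          ((Classical.choose (hex x'.1 x'.2) : Y) : J) ∈ A := by
        simpa [hAYdef] using hsub
      apply Subtype.ext
      rw [← e1, ← e2, Submodule.Quotient.eq]
      have hdiff : (⟨(r ^ k) • ((Classical.choose (hex x.1 x.2) : Y) : J), hw1⟩ -
          ⟨(r ^ k) • ((Classical.choose (hex x'.1 x'.2) : Y) : J), hw2⟩ : A) =
          ((r : T) ^ k) • (⟨((Classical.choose (hex x.1 x.2) : Y) : J) -
            ((Classical.choose (hex x'.1 x'.2) : Y) : J), hsubA⟩ : A) := by
        apply Subtype.ext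
        rw [Submodule.coe_sub, Submodule.coe_smul, ← Nat.cast_pow, Nat.cast_smul_eq_nsmul,
          smul_sub]
      rw [hdiff]
      exact Submodule.smul_mem_smul (Ideal.mem_span_singleton_self _) Submodule.mem_top
    haveI : Finite K := Finite.of_injective c hc
    refine ⟨Set.toFinite K, ?_⟩
    have h := Nat.card_le_card_of_injective c hc
    rwa [Nat.card_coe_set_eq] at h
  have hmaps : ∀ x ∈ primarySet P (A ⧸ I), g.toAddMonoidHom x ∈ S ∩ primarySet P H := by
    intro x hx
    refine ⟨?_, ?_⟩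
    · obtain ⟨a, rfl⟩ := Submodule.Quotient.mk_surjective I x
      change g (Submodule.Quotient.mk a) ∈ S
      rw [hg]
      exact hS a
    · obtain ⟨n, hn⟩ := hx
      refine ⟨n, fun t ht => ?_⟩
      change t • g x = 0
      rw [← map_smul, hn t ht, map_zero]
  have hcount := ncard_le_of_fibers_sub g.toAddMonoidHom (primarySet P (A ⧸ I))
    (fun x hx y hy => primarySet_sub_mem P hx hy)
    (S ∩ primarySet P H) hfin hmaps K hK.1 (fun x hxP hx => ⟨hxP, hx⟩)
  exact ⟨hcount.1, hcount.2.trans (Nat.mul_le_mul hK.2 hcard)⟩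

end Fermat.Agent.MAZ.Desc.KerAdapterP26
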