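/-
MAZ (S15), G-side (descent), brick DESCENT-ASM, abstract form for all `k` (helper95):
**the uniform bound `EisBound` from a Kummer datum at every level `r ^ k`**.
`DescentAsm95.descent_asm` plugged into `KerAdapter80.kerAdapter`; abstract group `G` with
subgroups `D`, `I`, abstract `T`-module `J` with `G`-action.

`Y` = the rational points (finitely generated), `A ≤ Y` of finite index (exponent `N`), `Tt` a finite
group containing the rational `r`-power torsion.  If for every `k` there is a finite `G`-module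
`M ≅ J[r ^ k]` with a Kummer datum `K` (domain `A`, `K.A ≤ Y`) compatible with `T`, whose cone datum
has the admissible cocycles of the family `F`, with the Eichler–Shimura relation and the two halves
on the `ker π`-primary part, then the `ker π`-primary parts of `A / r ^ k A` are finite of order
bounded independently of `k`: this is `GSpec26.EisBound A (ker π) r B'` when `J = JZero p`.
-/
import Mathlib
import Fermat.Agent.MAZ.Desc.KerAdapter80
import Fermat.Agent.MAZ.Desc.DescentAsm95

set_option autoImplicit false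
set_option linter.style.haveILetI false

namespace Fermat.Agent.MAZ.Desc.EisBoundAbs95

open Fermat.Agent.MAZ.Desc.SelmerCone95 Fermat.Agent.MAZ.Desc.KummerCone95
  Fermat.Agent.MAZ.Desc.Devissage95 Fermat.Agent.MAZ.Desc.PrimaryPart19
  Fermat.Agent.MAZ.Desc.ConePrimary95 Fermat.Agent.MAZ.Desc.DescentAsm95
  Fermat.Agent.MAZ.Spec.GSpec26

attribute [local instance] primaryDMA

variable {G : Type} [Group G] {D I : Subgroup G} {T : Type} [CommRing T]
variable {J : Type} [AddCommGroup J] [DistribMulAction G J] [Module T J]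
variable {r : ℕ} [Fact r.Prime] {π : T →+* ZMod r} {χ : G →* ZMod r} {τ δ : G → T}

/-- the data of the descent at the level `r ^ k`. -/
def LevelData (D I : Subgroup G) (A Y : Submodule T J) (F : AdmFamily.{0} G) (π : T →+* ZMod r)
    (τ δ : G → T) (φ₀ : G) (Tt : AddSubgroup J) (k : ℕ) : Prop :=
  ∃ (M : Type) (_ : AddCommGroup M) (_ : DistribMulAction G M) (_ : Module T M) (_ : Finite M)
    (K : KummerData D I J M (r ^ k)) (hL : Lin K A),
    K.Hyp ∧ F.Ok M ∧ K.cone.Z = F.Z M ∧ (∀ w ∈ K.A, w ∈ Y) ∧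
    (∀ (g : G) (x : M), g • g • x - τ g • g • x + δ g • x = 0) ∧
    (haveI := hL.smulCommClass;
      Nat.card (primaryPart (RingHom.ker π) M) ≤
        Nat.card (gen1 (phiSub φ₀ (primaryPart (RingHom.ker π) M))) *
          Nat.card (primaryCone K.cone (RingHom.ker π)).Mf) ∧
    ∀ x ∈ K.A, (r ^ k) • x = 0 → x ∈ Tt

/-- **The uniform bound from the descent at every level.** -/
theorem exists_bound (Y A : Submodule T J) (hAY : A ≤ Y) [Module.Finite ℤ Y] (N : ℕ) (hN : 0 < N)
    (hNA : ∀ y ∈ Y, N • y ∈ A) (F : AdmFamily.{0} G) (φ₀ : G)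
    (hR : RankOneBound F D I r χ φ₀) (htau : ∀ g, π (τ g) = 1 + χ g)
    (hdelta : ∀ g, π (δ g) = χ g) (Tt : AddSubgroup J) [Finite Tt]
    (hk : ∀ k : ℕ, LevelData D I A Y F π τ δ φ₀ Tt k) :
    ∃ B' : ℕ, ∀ k : ℕ,
      (primarySet (RingHom.ker π) (A ⧸ (Ideal.span {(r : T) ^ k} • ⊤ : Submodule T A))).Finite ∧
        (primarySet (RingHom.ker π)
          (A ⧸ (Ideal.span {(r : T) ^ k} • ⊤ : Submodule T A))).ncard ≤ B' := by
  obtain ⟨B', hB'⟩ := Fermat.Agent.MAZ.Desc.KerAdapter80.kerAdapter Y A hAY N hN hNA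
    (RingHom.ker π) r (Nat.card Tt)
  refine ⟨B', fun k => ?_⟩
  obtain ⟨M, i1, i2, i3, i4, K, hL, hK, hOk, hZ, hKA, hrel, hhalf, hTt⟩ := hk k
  obtain ⟨inst, f, h1, h2, h3, h4⟩ := descent_asm F φ₀ hR K A hL hK hOk hZ htau hdelta hrel hhalf
    Tt hTt
  refine hB' k (H1S K.cone) Set.univ f h1 (fun a ha => ?_) (fun a => Set.mem_univ _) h3 h4
  obtain ⟨w, hw, hwa⟩ := h2 a ha
  exact ⟨w, hKA w hw, hwa⟩

end Fermat.Agent.MAZ.Desc.EisBoundAbs95
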