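/-
MAZ (S15), G-side, helper26: the rational torsion of `J₀(p)` is finite (from Mordell-Weil, `MW p`).
This bounds `H0S` of every cone datum on a subquotient of `J₀(p)[r^k]` uniformly in `k`.
-/
import Mathlib
import Fermat.Agent.MAZ.Spec.GSpec26

set_option autoImplicit false

open AlgebraicCurve ModularCurve

noncomputable section

namespace Fermat.Agent.MAZ.Desc.RatTors26

open Fermat.Agent.X0 Fermat.Agent.MAZ.Spec.XSpec62 Fermat.Agent.MAZ.Spec.GSpec26

variable (p : ℕ) [NeZero p]

/-- the rational torsion points of `J₀(p)`. -/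
def ratTorsion : AddSubgroup (JZero p) where
  carrier := {x | (∀ σ : GQ, σ • x = x) ∧ ∃ n : ℕ, 0 < n ∧ n • x = 0}
  zero_mem' := ⟨fun σ => smul_zero σ, 1, Nat.one_pos, smul_zero 1⟩
  add_mem' := by
    rintro x y ⟨hx, n, hn, hnx⟩ ⟨hy, m, hm, hmy⟩
    refine ⟨fun σ => ?_, n * m, Nat.mul_pos hn hm, ?_⟩
    · change σ • (x + y) = x + y
      rw [smul_add, hx σ, hy σ]
    · have h1 : (n * m) • x = 0 := by rw [mul_nsmul, hnx, nsmul_zero]
      have h2 : (n * m) • y = 0 := by rw [mul_comm, mul_nsmul, hmy, nsmul_zero]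
      rw [nsmul_add, h1, h2, add_zero]
  neg_mem' := by
    rintro x ⟨hx, n, hn, hnx⟩
    refine ⟨fun σ => ?_, n, hn, ?_⟩
    · change σ • (-x) = -x
      rw [smul_neg, hx σ]
    · have h := smul_neg n x
      rw [hnx, neg_zero] at h
      exact h

variable {p}

theorem mem_ratTorsion {x : JZero p} :
    x ∈ ratTorsion p ↔ (∀ σ : GQ, σ • x = x) ∧ ∃ n : ℕ, 0 < n ∧ n • x = 0 := Iff.rfl

/-- **the rational torsion of `J₀(p)` is finite** (Mordell-Weil). -/
theorem finite_ratTorsion (hMW : MW p) : Finite ↥(ratTorsion p) := by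
  haveI hfg : Module.Finite ℤ ↥(FixedPoints.addSubgroup GQ (JZero p)) :=
    Module.Finite.iff_addGroup_fg.mpr hMW
  haveI : IsNoetherian ℤ ↥(FixedPoints.addSubgroup GQ (JZero p)) :=
    isNoetherian_of_isNoetherianRing_of_finite ℤ _
  let ι : ↥(ratTorsion p) →ₗ[ℤ] ↥(FixedPoints.addSubgroup GQ (JZero p)) :=
    { toFun := fun a => ⟨(a : JZero p), fun σ => a.2.1 σ⟩
      map_add' := fun a b => rfl
      map_smul' := fun n a => by
        apply Subtype.ext
        change ((n • a : _) : JZero p) = n • (a : JZero p)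
        exact AddSubgroupClass.coe_zsmul a n }
  have hι : Function.Injective ι := fun a b hab => by
    apply Subtype.ext
    exact congrArg (fun x : ↥(FixedPoints.addSubgroup GQ (JZero p)) => (x : JZero p)) hab
  haveI : Module.Finite ℤ ↥(ratTorsion p) := Module.Finite.of_injective ι hι
  haveI : AddGroup.FG ↥(ratTorsion p) := Module.Finite.iff_addGroup_fg.mp inferInstance
  refine AddCommGroup.finite_of_fg_isAddTorsion _ ?_
  intro a
  obtain ⟨-, n, hn, hna⟩ := a.2
  rw [isOfFinAddOrder_iff_nsmul_eq_zero]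
  refine ⟨n, hn, ?_⟩
  apply Subtype.ext
  rw [AddSubgroup.coe_nsmul, hna]
  rfl

/-- uniform bound: every set of rational `r`-power torsion points has at most `#ratTorsion`
elements. -/
theorem ncard_le_of_rational_torsion (hMW : MW p) (S : Set (JZero p))
    (hS : ∀ x ∈ S, (∀ σ : GQ, σ • x = x) ∧ ∃ n : ℕ, 0 < n ∧ n • x = 0) :
    S.Finite ∧ S.ncard ≤ Nat.card ↥(ratTorsion p) := by
  haveI := finite_ratTorsion hMW
  have hsub : S ⊆ (ratTorsion p : Set (JZero p)) := fun x hx => hS x hx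
  have hfin : ((ratTorsion p : AddSubgroup (JZero p)) : Set (JZero p)).Finite :=
    Set.toFinite _
  refine ⟨hfin.subset hsub, ?_⟩
  calc S.ncard ≤ ((ratTorsion p : AddSubgroup (JZero p)) : Set (JZero p)).ncard :=
        Set.ncard_le_ncard hsub hfin
    _ = Nat.card ↥(ratTorsion p) := (Nat.card_coe_set_eq _).symm

end Fermat.Agent.MAZ.Desc.RatTors26
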