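/-
MAZ (S15), G-side, line 8b (helper26): **KUM-INST + DESCENT-ASM at `J = JZero p`**.

The abstract descent (`KummerCone95`, `DescentAsm95`, `EisBoundAbs95`, helper95) and the concrete
admissible family (`FlatAdm68.admFamily r k p`, helper68) are instantiated at
`G = G_ℚ`, `D`, `I` = decomposition and inertia group of a place `𝔄 ∣ p` of `ℚbar`, `J = JZero p`,
`M = J₀(p)[r^k]` (`GSpec26.Mk p r k`, the literal shape of S19), `J0 = J^I`, `Mf = M^I`,
`Z = Zadm r k p M`, `B = A` (the subgroup of P-FIN).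

* `dmaMk`, `modMk` : the Galois and Hecke module structures on `J₀(p)[r^k]`;
* `okMod_Mk` : `J₀(p)[r^k]` is a good module (S19 at level `p` + K-UNR for torsion points);
* `kummerData`, `lin_kummerData`, `hyp_kummerData` : the Kummer datum, its `T`-linearity, and the
  hypotheses of the Kummer map from P-FIN (divisibility in `J^I`), K-UNR and K-FLAT;
* `exists_bound_var` : helper95's `EisBoundAbs95.exists_bound` with all auxiliary data (`F`, `χ`,
  `τ`, `δ`, `φ₀`) allowed to depend on the level `k` (they do: `admFamily r k p`, and the Chebotarev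
  choice of `(τ g, δ g)` depends on `k`);
* `levelData` : the `LevelData` of `EisBoundAbs95` at `JZero p`, from the contracts;
* **`eisBound_of_inputs`**, **`globalEis_of_inputs`** : `GSpec26.EisBound` and `XSpec62.GlobalEis` from
  the literal list of inputs `Inputs` (each field = one brick of the G-side table, in the final
  vocabulary).
-/
import Mathlib
import Fermat.Agent.MAZ.Spec.GSpec26
import Fermat.Agent.MAZ.Desc.EisBoundAbs95
import Fermat.Agent.MAZ.Desc.FlatAdm68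
import Fermat.Agent.MAZ.Desc.RatTors26
import Fermat.Agent.MAZ.Desc.AlgFin79

set_option autoImplicit false
set_option linter.unusedSectionVars false
set_option linter.unusedVariables false
set_option linter.style.haveILetI false

open AlgebraicCurve ModularCurve

noncomputable section

namespace Fermat.Agent.MAZ.Desc.KummerInst26

open Fermat.Agent.X0 Fermat.Agent.MAZ.Spec.XSpec62 Fermat.Agent.MAZ.Spec.GSpec26
open Fermat.Agent.MAZ.Desc.SelmerCone95 Fermat.Agent.MAZ.Desc.KummerCone95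
  Fermat.Agent.MAZ.Desc.Devissage95 Fermat.Agent.MAZ.Desc.PrimaryPart19
  Fermat.Agent.MAZ.Desc.ConePrimary95 Fermat.Agent.MAZ.Desc.DescentAsm95
  Fermat.Agent.MAZ.Desc.EisBoundAbs95 Fermat.Agent.MAZ.Desc.FlatAdm68
  Fermat.Agent.MAZ.Desc.RatTors26
open Fermat.Agent.TW.FF.FlatModel68 (FlatModel)

variable {p : ℕ} [NeZero p] {T : Type} [CommRing T] [Module T (JZero p)]
variable (r : ℕ) [Fact r.Prime] (k : ℕ)

/-! ### 1. The module `J₀(p)[r^k]` -/

theorem mem_Mk_iff {x : JZero p} : x ∈ Mk p r k ↔ (r ^ k) • x = 0 := by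
  rw [Submodule.mem_torsionBy_iff, ← Nat.cast_pow, natCast_zsmul]

/-- the Galois action on `J₀(p)[r^k]`. -/
@[reducible] def dmaMk : DistribMulAction GQ ↥(Mk p r k) where
  smul σ x := galMk r k σ x
  one_smul x := Subtype.ext (one_smul GQ (x : JZero p))
  mul_smul σ τ x := Subtype.ext (mul_smul σ τ (x : JZero p))
  smul_zero σ := Subtype.ext (smul_zero σ)
  smul_add σ x y := Subtype.ext (smul_add σ (x : JZero p) (y : JZero p))

/-- the Hecke action on `J₀(p)[r^k]`. -/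
@[reducible] def modMk : Module T ↥(Mk p r k) where
  smul t x := ⟨t • (x : JZero p), by
    rw [mem_Mk_iff, smul_comm, (mem_Mk_iff r k).1 x.2, smul_zero]⟩
  one_smul x := Subtype.ext (one_smul T (x : JZero p))
  mul_smul s t x := Subtype.ext (mul_smul s t (x : JZero p))
  smul_zero t := Subtype.ext (smul_zero t)
  smul_add t x y := Subtype.ext (smul_add t (x : JZero p) (y : JZero p))
  add_smul s t x := Subtype.ext (add_smul s t (x : JZero p))
  zero_smul x := Subtype.ext (zero_smul T (x : JZero p))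

attribute [local instance] dmaMk modMk primaryDMA

theorem coe_smul_Mk (σ : GQ) (x : ↥(Mk p r k)) : ((σ • x : ↥(Mk p r k)) : JZero p) = σ • (x : JZero p) :=
  rfl

theorem coe_tsmul_Mk (t : T) (x : ↥(Mk p r k)) :
    ((t • x : ↥(Mk p r k)) : JZero p) = t • (x : JZero p) := rfl


theorem smulComm_Mk (hT : HeckeModel p T) : SMulCommClass GQ T ↥(Mk p r k) :=
  ⟨fun σ t x => Subtype.ext (hT.galois t σ (x : JZero p))⟩

theorem nsmul_Mk_eq_zero (x : ↥(Mk p r k)) : (r ^ k) • x = 0 :=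
  Subtype.ext ((AddSubmonoidClass.coe_nsmul x (r ^ k)).trans ((mem_Mk_iff r k).1 x.2))

/-! ### 2. Decomposition and inertia at a place of `ℚbar` -/

variable (𝔄 : ValuationSubring Qb)

theorem conj_mem_inertia {σ τ : GQ} (hσ : σ ∈ 𝔄.decompositionSubgroup ℚ)
    (hτ : τ ∈ 𝔄.inertiaSubgroupIn ℚ) : σ⁻¹ * τ * σ ∈ 𝔄.inertiaSubgroupIn ℚ := by
  obtain ⟨τ', hτ', rfl⟩ := hτ
  have hn : (𝔄.inertiaSubgroup ℚ).Normal := by
    unfold ValuationSubring.inertiaSubgroup
    infer_instance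
  refine ⟨(⟨σ, hσ⟩ : 𝔄.decompositionSubgroup ℚ)⁻¹ * τ' * ⟨σ, hσ⟩, ?_, rfl⟩
  have h := hn.conj_mem τ' hτ' (⟨σ, hσ⟩ : 𝔄.decompositionSubgroup ℚ)⁻¹
  rwa [inv_inv] at h

/-- the points of `J₀(p)` fixed by the inertia group of `𝔄`. -/
def J0 : AddSubgroup (JZero p) where
  carrier := {x | ∀ σ ∈ 𝔄.inertiaSubgroupIn ℚ, σ • x = x}
  zero_mem' := fun σ _ => smul_zero σ
  add_mem' := fun {a b} ha hb σ hσ => by
    change σ • (a + b) = a + b
    rw [smul_add, ha σ hσ, hb σ hσ]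
  neg_mem' := fun {a} ha σ hσ => by
    change σ • (-a) = -a
    rw [smul_neg, ha σ hσ]

theorem mem_J0 {x : JZero p} :
    x ∈ J0 (p := p) 𝔄 ↔ ∀ σ ∈ 𝔄.inertiaSubgroupIn ℚ, σ • x = x := Iff.rfl

theorem J0_stable {σ : GQ} (hσ : σ ∈ 𝔄.decompositionSubgroup ℚ) {x : JZero p}
    (hx : x ∈ J0 (p := p) 𝔄) : σ • x ∈ J0 (p := p) 𝔄 := by
  intro τ hτ
  have h := hx _ (conj_mem_inertia 𝔄 hσ hτ)
  rw [mul_smul, mul_smul] at h
  calc τ • σ • x = σ • σ⁻¹ • τ • σ • x := (smul_inv_smul σ _).symm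
    _ = σ • x := by rw [h]

theorem J0_tsmul (hT : HeckeModel p T) (t : T) {x : JZero p} (hx : x ∈ J0 (p := p) 𝔄) :
    t • x ∈ J0 (p := p) 𝔄 := by
  intro σ hσ
  rw [hT.galois, hx σ hσ]

theorem mem_J0_of_fixed {x : JZero p} (hx : ∀ σ : GQ, σ • x = x) : x ∈ J0 (p := p) 𝔄 :=
  fun σ _ => hx σ

/-! ### 3. The contracts at the torsion level -/

/-- **(S19 at level `p`)** `J₀(p)[r^k]` has a finite flat model over `ℤ_(r)` (the frozen S19 at
`N = p`, `ℓ = r`, in `FlatModel` form). -/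
def S19At (p r : ℕ) [NeZero p] [Fact r.Prime] : Prop :=
  ∀ k : ℕ, FlatModel r ↥(Mk p r k) (fun σ x => galMk r k σ x)

/-- **(K-UNR)** for `q ∉ {r, p}` the inertia groups over `q` fix every point `y` such that
`r^k y` is rational (in particular every `r`-power torsion point). -/
def KUnr (p r : ℕ) [NeZero p] : Prop :=
  ∀ q : ℕ, q.Prime → q ≠ r → q ≠ p → ∀ B : ValuationSubring Qb, B.LiesOverPrime q →
    ∀ σ ∈ B.inertiaSubgroupIn ℚ, ∀ (k : ℕ) (y : JZero p),
      (∀ τ : GQ, τ • ((r ^ k) • y) = (r ^ k) • y) → σ • y = y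

/-- **(K-FLAT)** the extension module of a Kummer cocycle of a point of `A` has a finite flat model
over `ℤ_(r)`. -/
def KFlat (p r : ℕ) [NeZero p] [Fact r.Prime] (A : Set (JZero p)) : Prop :=
  ∀ k : ℕ, ∀ z ∈ A, ∀ y : JZero p, (r ^ k) • y = z → ∀ c : GQ → ↥(Mk p r k),
    (∀ σ, (c σ : JZero p) = σ • y - y) →
      FlatModel r (↥(Mk p r k) × ZMod (r ^ k)) (extActN r k c)

variable {r k}

/-- `J₀(p)[r^k]` is a good module. -/
theorem okMod_Mk (hS : S19At p r) (hU : KUnr p r) : OkMod r k p ↥(Mk p r k) where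
  finite := Fermat.Agent.FFJ.Glue.GlobalClosure68.FlatModel.finite (hS k)
  killed := nsmul_Mk_eq_zero r k
  flat := hS k
  unram := fun q hq hqr hqp B hB σ hσ x => Subtype.ext (hU q hq hqr hqp B hB σ hσ k (x : JZero p)
    (fun τ => by rw [(mem_Mk_iff r k).1 x.2]; exact smul_zero (A := JZero p) τ))

/-! ### 4. The Kummer datum -/

/-- **the Kummer datum at `JZero p`**: `M = J₀(p)[r^k]`, `J0 = J^I`, `Z = Zadm r k p M`, `B = A`. -/
def kummerData (hOk : OkMod r k p ↥(Mk p r k)) (A : Submodule T (JZero p))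
    (hA : ∀ z ∈ A, z ∈ J0 (p := p) 𝔄 ∧ ∀ σ : GQ, σ • z = z) :
    KummerData (𝔄.decompositionSubgroup ℚ) (𝔄.inertiaSubgroupIn ℚ) (JZero p) ↥(Mk p r k)
      (r ^ k) where
  ι := (Mk p r k).subtype.toAddMonoidHom
  ι_inj := Subtype.coe_injective
  ι_equiv := fun _ _ => rfl
  ι_range := fun x => ⟨fun hx => ⟨⟨x, (mem_Mk_iff r k).2 hx⟩, rfl⟩, by
    rintro ⟨m, rfl⟩
    exact (mem_Mk_iff r k).1 m.2⟩
  J0 := J0 𝔄
  J0_stable := fun σ hσ x hx => J0_stable 𝔄 hσ hx
  J0_fixed := fun σ hσ x hx => hx σ hσ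
  cone :=
    { Mf := (J0 (p := p) 𝔄).comap (Mk p r k).subtype.toAddMonoidHom
      stable := fun σ hσ x hx => J0_stable 𝔄 hσ hx
      fixed := fun σ hσ x hx => Subtype.ext (hx σ hσ)
      Z := Zadm r k p ↥(Mk p r k)
      cocycle := fun c hc σ τ => hc.1 σ τ
      cobound := fun m => dd_mem hOk m }
  mem_Mf := fun _ => Iff.rfl
  B := A.toAddSubgroup
  B_le := fun y hy => hA y hy

theorem kummerData_cone_Z (hOk : OkMod r k p ↥(Mk p r k)) (A : Submodule T (JZero p))
    (hA : ∀ z ∈ A, z ∈ J0 (p := p) 𝔄 ∧ ∀ σ : GQ, σ • z = z) :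
    (kummerData 𝔄 hOk A hA).cone.Z = (admFamily r k p).Z ↥(Mk p r k) := rfl

/-- the Kummer datum is compatible with the Hecke action. -/
theorem lin_kummerData (hT : HeckeModel p T) (hOk : OkMod r k p ↥(Mk p r k))
    (A : Submodule T (JZero p))
    (hA : ∀ z ∈ A, z ∈ J0 (p := p) 𝔄 ∧ ∀ σ : GQ, σ • z = z) :
    Lin (kummerData 𝔄 hOk A hA) A where
  B_eq := rfl
  gal := fun t σ x => (hT.galois t σ x).symm
  J0_smul := fun t x hx => J0_tsmul 𝔄 hT t hx
  ι_smul := fun _ _ => rfl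

/-- **the hypotheses of the Kummer map** from P-FIN (divisibility in `J^I`), K-UNR and K-FLAT. -/
theorem hyp_kummerData (hOk : OkMod r k p ↥(Mk p r k)) (A : Submodule T (JZero p))
    (hA : ∀ z ∈ A, z ∈ J0 (p := p) 𝔄 ∧ ∀ σ : GQ, σ • z = z)
    (hdiv : ∀ z ∈ A, ∃ y ∈ J0 (p := p) 𝔄, (r ^ k) • y = z) (hU : KUnr p r)
    (hF : KFlat p r (A : Set (JZero p))) : (kummerData 𝔄 hOk A hA).Hyp where
  div := fun y hy => by
    obtain ⟨y', -, h⟩ := hdiv y hy
    exact ⟨y', h⟩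
  div0 := fun y hy => hdiv y hy
  adm := fun y hy y' hy' c hc => by
    have hc' : ∀ σ, (c σ : JZero p) = σ • y' - y' := hc
    refine mem_Zadm_of_flat (fun σ τ => Subtype.ext ?_) (fun q hq hqr hqp B hB σ hσ =>
      Subtype.ext ?_) (hF k y hy y' hy' c hc')
    · change (c (σ * τ) : JZero p) = (c σ : JZero p) + σ • (c τ : JZero p)
      rw [hc', hc', hc', mul_smul, smul_sub]
      abel
    · change (c σ : JZero p) = 0
      rw [hc', hU q hq hqr hqp B hB σ hσ k y' (fun τ => by rw [hy']; exact (hA y hy).2 τ), sub_self]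


/-! ### 5. The uniform bound with level-dependent auxiliary data -/

/-- helper95's `EisBoundAbs95.exists_bound` with `F`, `χ`, `τ`, `δ`, `φ₀` depending on the level. -/
theorem exists_bound_var {G : Type} [Group G] {D I : Subgroup G} {T : Type} [CommRing T]
    {J : Type} [AddCommGroup J] [DistribMulAction G J] [Module T J] {r : ℕ} [Fact r.Prime]
    {π : T →+* ZMod r} (Y A : Submodule T J) (hAY : A ≤ Y) [Module.Finite ℤ Y] (N : ℕ)
    (hN : 0 < N) (hNA : ∀ y ∈ Y, N • y ∈ A) (Tt : AddSubgroup J) [Finite Tt]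
    (hk : ∀ k : ℕ, ∃ (F : AdmFamily.{0} G) (φ₀ : G) (χ : G →* ZMod r) (τ δ : G → T),
      RankOneBound F D I r χ φ₀ ∧ (∀ g, π (τ g) = 1 + χ g) ∧ (∀ g, π (δ g) = χ g) ∧
        LevelData D I A Y F π τ δ φ₀ Tt k) :
    ∃ B' : ℕ, ∀ k : ℕ,
      (primarySet (RingHom.ker π) (A ⧸ (Ideal.span {(r : T) ^ k} • ⊤ : Submodule T A))).Finite ∧
        (primarySet (RingHom.ker π)
          (A ⧸ (Ideal.span {(r : T) ^ k} • ⊤ : Submodule T A))).ncard ≤ B' := by
  obtain ⟨B', hB'⟩ := Fermat.Agent.MAZ.Desc.KerAdapter80.kerAdapter Y A hAY N hN hNA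
    (RingHom.ker π) r (Nat.card Tt)
  refine ⟨B', fun k => ?_⟩
  obtain ⟨F, φ₀, χ, τ, δ, hR, htau, hdelta, M, i1, i2, i3, i4, K, hL, hK, hOk, hZ, hKA, hrel,
    hhalf, hTt⟩ := hk k
  obtain ⟨inst, f, h1, h2, h3, h4⟩ := descent_asm F φ₀ hR K A hL hK hOk hZ htau hdelta hrel hhalf
    Tt hTt
  refine hB' k (H1S K.cone) Set.univ f h1 (fun a ha => ?_) (fun a => Set.mem_univ _) h3 h4
  obtain ⟨w, hw, hwa⟩ := h2 a ha
  exact ⟨w, hKA w hw, hwa⟩

/-! ### 6. The level data at `JZero p` -/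

variable (r)

/-- **the inputs at the level `r^k` which depend on the Eisenstein structure**: the rank-one bound
for the family `admFamily r k p` (RANK-ONE), the Eichler-Shimura relation with the Chebotarev choice
`(τ g, δ g)` (EIS-REL), and the two halves (`α`-HALF + `δ`-HALF; to be replaced by the symmetric
devissage DUAL + (HOM-μ)). -/
def LevelInput (hT : HeckeModel p T) (π : T →+* ZMod r) (A : Submodule T (JZero p))
    (hA : ∀ z ∈ A, z ∈ J0 (p := p) 𝔄 ∧ ∀ σ : GQ, σ • z = z) (k : ℕ) : Prop :=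
  ∀ hOk : OkMod r k p ↥(Mk p r k),
    ∃ (φ₀ : GQ) (χ : GQ →* ZMod r) (τ δ : GQ → T),
      RankOneBound (admFamily r k p) (𝔄.decompositionSubgroup ℚ) (𝔄.inertiaSubgroupIn ℚ) r χ φ₀ ∧
      (∀ g, π (τ g) = 1 + χ g) ∧ (∀ g, π (δ g) = χ g) ∧
      (∀ (g : GQ) (x : JZero p), (r ^ k) • x = 0 → g • g • x - τ g • g • x + δ g • x = 0) ∧
      (haveI := smulComm_Mk r k hT;
        Nat.card (primaryPart (RingHom.ker π) ↥(Mk p r k)) ≤
          Nat.card (gen1 (phiSub φ₀ (primaryPart (RingHom.ker π) ↥(Mk p r k)))) *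
            Nat.card (primaryCone (kummerData 𝔄 hOk A hA).cone (RingHom.ker π)).Mf)

/-- **the list of inputs of the G-side at the prime `r`**, in the final vocabulary: each field is one
brick of the table. -/
structure Inputs (hT : HeckeModel p T) (π : T →+* ZMod r) (A : Submodule T (JZero p)) : Prop where
  /-- S19 at level `p` (FFJ) -/
  s19 : S19At p r
  /-- K-UNR -/
  kunr : KUnr p r
  /-- P-FIN, first half: finite index -/
  fin : FiniteIndexIn A (ratPoints hT)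
  /-- P-FIN, second half: divisibility in the inertia invariants at `𝔄` -/
  div : ∀ z ∈ A, ∀ k : ℕ, ∃ y ∈ J0 (p := p) 𝔄, (r ^ k) • y = z
  /-- K-FLAT -/
  kflat : KFlat p r (A : Set (JZero p))
  /-- RANK-ONE + EIS-REL + the two halves -/
  level : ∀ k : ℕ, LevelInput r 𝔄 hT π A
    (fun z hz => ⟨mem_J0_of_fixed 𝔄 (fin.1 hz), fin.1 hz⟩) k

variable {r}

theorem finite_ratPoints (hT : HeckeModel p T) (hMW : MW p) :
    Module.Finite ℤ ↥(ratPoints hT) := by
  haveI hfg : Module.Finite ℤ ↥(FixedPoints.addSubgroup GQ (JZero p)) :=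
    Module.Finite.iff_addGroup_fg.mpr hMW
  let ι : ↥(ratPoints hT) →ₗ[ℤ] ↥(FixedPoints.addSubgroup GQ (JZero p)) :=
    { toFun := fun a => ⟨(a : JZero p), fun σ => a.2 σ⟩
      map_add' := fun a b => rfl
      map_smul' := fun n a => by
        apply Subtype.ext
        change ((n • a : _) : JZero p) = n • (a : JZero p)
        exact AddSubgroupClass.coe_zsmul a n }
  have hι : Function.Injective ι := fun a b hab => by
    apply Subtype.ext
    exact congrArg (fun x : ↥(FixedPoints.addSubgroup GQ (JZero p)) => (x : JZero p)) hab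
  haveI : IsNoetherian ℤ ↥(FixedPoints.addSubgroup GQ (JZero p)) :=
    isNoetherian_of_isNoetherianRing_of_finite ℤ _
  exact Module.Finite.of_injective ι hι

/-- **DESCENT-ASM at `JZero p`: the uniform bound from the inputs.** -/
theorem eisBound_of_inputs (hT : HeckeModel p T) (hMW : MW p) {π : T →+* ZMod r}
    {A : Submodule T (JZero p)} (h : Inputs r 𝔄 hT π A) :
    ∃ B' : ℕ, EisBound A (RingHom.ker π) r B' := by
  haveI := finite_ratPoints hT hMW
  haveI := finite_ratTorsion (p := p) hMW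
  obtain ⟨hle, N, hN, hNA⟩ := h.fin
  have hA : ∀ z ∈ A, z ∈ J0 (p := p) 𝔄 ∧ ∀ σ : GQ, σ • z = z :=
    fun z hz => ⟨mem_J0_of_fixed 𝔄 (h.fin.1 hz), h.fin.1 hz⟩
  refine exists_bound_var (D := 𝔄.decompositionSubgroup ℚ) (I := 𝔄.inertiaSubgroupIn ℚ)
    (ratPoints hT) A hle N hN hNA (ratTorsion p) fun k => ?_
  have hOk : OkMod r k p ↥(Mk p r k) := okMod_Mk h.s19 h.kunr
  obtain ⟨φ₀, χ, τ, δ, hR, htau, hdelta, hrel, hhalf⟩ := h.level k hOk
  haveI := hOk.finite
  refine ⟨admFamily r k p, φ₀, χ, τ, δ, hR, htau, hdelta, ↥(Mk p r k), inferInstance, dmaMk r k,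
    modMk r k, hOk.finite, kummerData 𝔄 hOk A hA, lin_kummerData 𝔄 hT hOk A hA,
    hyp_kummerData 𝔄 hOk A hA (fun z hz => h.div z hz k) h.kunr h.kflat, hOk, rfl,
    fun w hw => hw.2, fun g x => Subtype.ext ?_, hhalf, fun x hx hx0 => ?_⟩
  · exact hrel g (x : JZero p) ((mem_Mk_iff r k).1 x.2)
  · exact ⟨hx.2, r ^ k, pow_pos (Fact.out : r.Prime).pos k, hx0⟩

/-- **THE G-SIDE FROM THE INPUTS**: `GlobalEis` from Mordell-Weil, the cuspidal character and the
inputs of the descent. -/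
theorem globalEis_of_inputs (hT : HeckeModel p T) (hMW : MW p) (hdeg : DegOne p)
    (cZ : Place Qb (FF p)) {π : T →+* ZMod r} (m : ℕ) (hC : CuspEis hT hdeg cZ r π m)
    {A : Submodule T (JZero p)} (h : Inputs r 𝔄 hT π A) : GlobalEis hdeg cZ := by
  obtain ⟨B', hB'⟩ := eisBound_of_inputs 𝔄 hT hMW h
  exact Fermat.Agent.MAZ.Desc.AlgFin79.globalEis_of_bound hT hMW hdeg cZ r π m hC A h.fin B' hB'

end Fermat.Agent.MAZ.Desc.KummerInst26
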