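/-
MAZ (S15), G-side, line 8b (helper26): **the `P`-part variant of the descent at `J = JZero p`**
(interface for PT-GAL / (P-FIN)_P).

When only the `P`-part of the Kummer class of a rational point is known to be unramified at `p`, the
Kummer map at the level `r^k` is `a ↦ κ_k (e_k • a)`, where `e_k : T` is a `P`-projector for
`A / r^k A` and `e_k • A` lies in `Bk = {z ∈ J(ℚ) | z ∈ r^k J^{I}}`.

* `exists_bound_varP` : the abstract uniform bound (`KerAdapterP26.kerAdapterP` +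
  `DescentAsm95.descent_asm` on the submodule `Bk`);
* `Bk` : the rational points which are `r^k`-divisible in the inertia invariants;
* `InputsP`, **`eisBound_of_inputsP`**, **`globalEis_of_inputsP`** : the G-side from the inputs, with
  (P-FIN) replaced by (P-FIN)_P.
-/
import Mathlib
import Fermat.Agent.MAZ.Desc.KummerInst26
import Fermat.Agent.MAZ.Desc.KerAdapterP26

set_option autoImplicit false
set_option linter.unusedSectionVars false
set_option linter.unusedVariables false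
set_option linter.style.haveILetI false

open AlgebraicCurve ModularCurve

noncomputable section

namespace Fermat.Agent.MAZ.Desc.KummerInstP26

open Fermat.Agent.X0 Fermat.Agent.MAZ.Spec.XSpec62 Fermat.Agent.MAZ.Spec.GSpec26
open Fermat.Agent.MAZ.Desc.SelmerCone95 Fermat.Agent.MAZ.Desc.KummerCone95
  Fermat.Agent.MAZ.Desc.Devissage95 Fermat.Agent.MAZ.Desc.PrimaryPart19
  Fermat.Agent.MAZ.Desc.ConePrimary95 Fermat.Agent.MAZ.Desc.DescentAsm95
  Fermat.Agent.MAZ.Desc.EisBoundAbs95 Fermat.Agent.MAZ.Desc.FlatAdm68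
  Fermat.Agent.MAZ.Desc.RatTors26 Fermat.Agent.MAZ.Desc.KummerInst26
  Fermat.Agent.MAZ.Desc.KerAdapterP26
open Fermat.Agent.TW.FF.FlatModel68 (FlatModel)

attribute [local instance] dmaMk modMk primaryDMA

/-! ### 1. The abstract bound -/

/-- **the uniform bound, `P`-part variant**: at the level `k` the Kummer datum has domain `Bk` and the
Kummer map of `A` is `a ↦ κ (e • a)`. -/
theorem exists_bound_varP {G : Type} [Group G] {D I : Subgroup G} {T : Type} [CommRing T]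
    {J : Type} [AddCommGroup J] [DistribMulAction G J] [Module T J] {r : ℕ} [Fact r.Prime]
    {π : T →+* ZMod r} (Y A : Submodule T J) (hAY : A ≤ Y) [Module.Finite ℤ Y] (N : ℕ)
    (hN : 0 < N) (hNA : ∀ y ∈ Y, N • y ∈ A) (Tt : AddSubgroup J) [Finite Tt]
    (hk : ∀ k : ℕ, ∃ (F : AdmFamily.{0} G) (φ₀ : G) (χ : G →* ZMod r) (τ δ : G → T)
      (Bk : Submodule T J) (e : T),
      RankOneBound F D I r χ φ₀ ∧ (∀ g, π (τ g) = 1 + χ g) ∧ (∀ g, π (δ g) = χ g) ∧
      (∀ x ∈ primarySet (RingHom.ker π) (A ⧸ (Ideal.span {(r : T) ^ k} • ⊤ : Submodule T A)),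
        e • x = x) ∧
      (∀ a ∈ A, e • a ∈ Bk) ∧ LevelData D I Bk Y F π τ δ φ₀ Tt k) :
    ∃ B' : ℕ, ∀ k : ℕ,
      (primarySet (RingHom.ker π) (A ⧸ (Ideal.span {(r : T) ^ k} • ⊤ : Submodule T A))).Finite ∧
        (primarySet (RingHom.ker π)
          (A ⧸ (Ideal.span {(r : T) ^ k} • ⊤ : Submodule T A))).ncard ≤ B' := by
  obtain ⟨B', hB'⟩ := kerAdapterP Y A hAY N hN hNA (RingHom.ker π) r (Nat.card Tt)
  refine ⟨B', fun k => ?_⟩
  obtain ⟨F, φ₀, χ, τ, δ, Bk, e, hR, htau, hdelta, he, heA, M, i1, i2, i3, i4, K, hL, hK, hOk, hZ,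
    hKA, hrel, hhalf, hTt⟩ := hk k
  obtain ⟨inst, f, h1, h2, h3, h4⟩ := descent_asm F φ₀ hR K Bk hL hK hOk hZ htau hdelta hrel hhalf
    Tt hTt
  let eMul : A →ₗ[T] Bk :=
    { toFun := fun a => ⟨e • (a : J), heA a a.2⟩
      map_add' := fun a b => Subtype.ext (smul_add e (a : J) (b : J))
      map_smul' := fun t a => Subtype.ext (smul_comm e t (a : J)) }
  refine hB' k (H1S K.cone) Set.univ (f.comp eMul) e he (fun a => h1 (eMul a)) (fun a ha => ?_)
    (fun a => Set.mem_univ _) h3 h4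
  obtain ⟨w, hw, hwa⟩ := h2 (eMul a) ha
  exact ⟨w, hKA w hw, hwa⟩

/-! ### 2. The instantiation at `JZero p` -/

variable {p : ℕ} [NeZero p] {T : Type} [CommRing T] [Module T (JZero p)]
variable (r : ℕ) [Fact r.Prime] (𝔄 : ValuationSubring Qb)

/-- the rational points which are `r^k`-divisible in the inertia invariants at `𝔄`. -/
def Bk (hT : HeckeModel p T) (k : ℕ) : Submodule T (JZero p) where
  carrier := {z | (∀ σ : GQ, σ • z = z) ∧ ∃ y ∈ J0 (p := p) 𝔄, (r ^ k) • y = z}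
  zero_mem' := ⟨fun σ => smul_zero (A := JZero p) σ, 0, (J0 (p := p) 𝔄).zero_mem, smul_zero _⟩
  add_mem' := by
    rintro a b ⟨ha, y, hy, hya⟩ ⟨hb, y', hy', hyb⟩
    refine ⟨fun σ => ?_, y + y', (J0 (p := p) 𝔄).add_mem hy hy', ?_⟩
    · change σ • (a + b) = a + b
      rw [smul_add, ha σ, hb σ]
    · rw [nsmul_add, hya, hyb]
  smul_mem' := by
    rintro t z ⟨hz, y, hy, hyz⟩
    refine ⟨fun σ => ?_, t • y, J0_tsmul 𝔄 hT t hy, ?_⟩
    · change σ • (t • z) = t • z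
      rw [hT.galois, hz σ]
    · rw [smul_comm, hyz]

theorem mem_Bk (hT : HeckeModel p T) (k : ℕ) {z : JZero p} :
    z ∈ Bk r 𝔄 hT k ↔ (∀ σ : GQ, σ • z = z) ∧ ∃ y ∈ J0 (p := p) 𝔄, (r ^ k) • y = z := Iff.rfl

theorem Bk_fixed (hT : HeckeModel p T) (k : ℕ) :
    ∀ z ∈ Bk r 𝔄 hT k, z ∈ J0 (p := p) 𝔄 ∧ ∀ σ : GQ, σ • z = z :=
  fun z hz => ⟨mem_J0_of_fixed 𝔄 hz.1, hz.1⟩

/-- **the list of inputs of the G-side at the prime `r`, `P`-part variant**: (P-FIN) is replaced by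
(P-FIN)_P (`proj`), and K-FLAT is required for all rational points. -/
structure InputsP (hT : HeckeModel p T) (π : T →+* ZMod r) (A : Submodule T (JZero p)) : Prop where
  /-- S19 at level `p` (FFJ) -/
  s19 : S19At p r
  /-- K-UNR -/
  kunr : KUnr p r
  /-- finite index -/
  fin : FiniteIndexIn A (ratPoints hT)
  /-- K-FLAT for all rational points -/
  kflat : KFlat p r {z : JZero p | ∀ σ : GQ, σ • z = z}
  /-- (P-FIN)_P + RANK-ONE + EIS-REL + the two halves -/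
  level : ∀ k : ℕ, ∃ e : T,
    (∀ x ∈ primarySet (RingHom.ker π) (A ⧸ (Ideal.span {(r : T) ^ k} • ⊤ : Submodule T A)),
      e • x = x) ∧
    (∀ z ∈ A, ∃ y ∈ J0 (p := p) 𝔄, (r ^ k) • y = e • z) ∧
    LevelInput r 𝔄 hT π (Bk r 𝔄 hT k) (Bk_fixed r 𝔄 hT k) k

variable {r}

/-- **DESCENT-ASM at `JZero p`, `P`-part variant.** -/
theorem eisBound_of_inputsP (hT : HeckeModel p T) (hMW : MW p) {π : T →+* ZMod r}
    {A : Submodule T (JZero p)} (h : InputsP r 𝔄 hT π A) :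
    ∃ B' : ℕ, EisBound A (RingHom.ker π) r B' := by
  haveI := finite_ratPoints hT hMW
  haveI := finite_ratTorsion (p := p) hMW
  obtain ⟨hle, N, hN, hNA⟩ := h.fin
  refine exists_bound_varP (D := 𝔄.decompositionSubgroup ℚ) (I := 𝔄.inertiaSubgroupIn ℚ)
    (ratPoints hT) A hle N hN hNA (ratTorsion p) fun k => ?_
  have hOk : OkMod r k p ↥(Mk p r k) := okMod_Mk h.s19 h.kunr
  obtain ⟨e, he, heA, hlev⟩ := h.level k
  have h2 := hlev hOk
  obtain ⟨φ₀, h3⟩ := h2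
  obtain ⟨χ, τ, δ, hR, htau, hdelta, hrel, hhalf⟩ := h3
  have hB := Bk_fixed r 𝔄 hT k
  have heA' : ∀ a ∈ A, e • a ∈ Bk r 𝔄 hT k := fun a ha =>
    (mem_Bk r 𝔄 hT k).2 ⟨fun σ => by rw [hT.galois, hle ha σ], heA a ha⟩
  have hKF : KFlat p r ((Bk r 𝔄 hT k : Submodule T (JZero p)) : Set (JZero p)) :=
    fun k' z hz => h.kflat k' z hz.1
  have hL := lin_kummerData 𝔄 hT hOk (Bk r 𝔄 hT k) hB
  have hK := hyp_kummerData 𝔄 hOk (Bk r 𝔄 hT k) hB (fun z hz => hz.2) h.kunr hKF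
  have hrel' : ∀ (g : GQ) (x : ↥(Mk p r k)), g • g • x - τ g • g • x + δ g • x = 0 :=
    fun g x => Subtype.ext (hrel g (x : JZero p) ((mem_Mk_iff r k).1 x.2))
  have hTt : ∀ x ∈ (kummerData 𝔄 hOk (Bk r 𝔄 hT k) hB).A, (r ^ k) • x = 0 → x ∈ ratTorsion p :=
    fun x hx hx0 => ⟨hx.2, r ^ k, pow_pos (Fact.out : r.Prime).pos k, hx0⟩
  have hLD : LevelData (𝔄.decompositionSubgroup ℚ) (𝔄.inertiaSubgroupIn ℚ) (Bk r 𝔄 hT k)
      (ratPoints hT) (admFamily r k p) π τ δ φ₀ (ratTorsion p) k :=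
    ⟨↥(Mk p r k), inferInstance, dmaMk r k, modMk r k, hOk.finite,
      kummerData 𝔄 hOk (Bk r 𝔄 hT k) hB, hL, hK, hOk, rfl, fun w hw => hw.2, hrel', hhalf, hTt⟩
  exact ⟨admFamily r k p, φ₀, χ, τ, δ, Bk r 𝔄 hT k, e, hR, htau, hdelta, he, heA', hLD⟩

/-- **THE G-SIDE FROM THE INPUTS, `P`-part variant.** -/
theorem globalEis_of_inputsP (hT : HeckeModel p T) (hMW : MW p) (hdeg : DegOne p)
    (cZ : Place Qb (FF p)) {π : T →+* ZMod r} (m : ℕ) (hC : CuspEis hT hdeg cZ r π m)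
    {A : Submodule T (JZero p)} (h : InputsP r 𝔄 hT π A) : GlobalEis hdeg cZ := by
  obtain ⟨B', hB'⟩ := eisBound_of_inputsP 𝔄 hT hMW h
  exact Fermat.Agent.MAZ.Desc.AlgFin79.globalEis_of_bound hT hMW hdeg cZ r π m hC A h.fin B' hB'

end Fermat.Agent.MAZ.Desc.KummerInstP26
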