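/-
MAZ (S15) G-side, brick (HOM-μ)/(E) MU-MODULE (helper11): **the `G_ℚ`-module `μ_n(ℚbar)`, written
additively**, with exactly the properties consumed by DUAL (`DualDevissage2`: finite, cyclic, of order
`n`, inertia at `q ∤ n` acts trivially, every `g` acts as an integer `u` with `u ≡ χ(g) mod r`) and by
(D) of (HOM-μ) (a Frobenius at `ℓ ∤ n` acts as multiplication by `ℓ`; `ℓ` is injective).
-/
import Mathlib
import Fermat.Agent.ES.J.CycloChar8

set_option autoImplicit false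
set_option linter.unusedSectionVars false
set_option linter.style.haveILetI false

noncomputable section

namespace Fermat.Agent.MAZ.Desc.MuModule11

open Fermat.Agent.ES.J.CycloChar8

local notation "Qb" => AlgebraicClosure ℚ
local notation "GQ" => (AlgebraicClosure ℚ ≃ₐ[ℚ] AlgebraicClosure ℚ)

/-! ### Roots of unity in `ℚbar` and Frobenius / inertia -/

section Roots

variable {n : ℕ}

/-- a Frobenius lift at `A ∣ ℓ`, `ℓ ∤ n`, raises `n`-th roots of unity to the `ℓ`-th power. -/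
theorem apply_eq_pow_of_isFrobeniusAt {ℓ : ℕ} (hℓ : ℓ.Prime) (hℓn : ¬ ℓ ∣ n)
    (A : ValuationSubring Qb) (hA : A.LiesOverPrime ℓ) {σ : GQ} (hσ : A.IsFrobeniusAt σ ℓ)
    {ζ : Qb} (hζ : ζ ^ n = 1) : σ ζ = ζ ^ ℓ := by
  have hn : n ≠ 0 := fun h0 => hℓn (h0 ▸ dvd_zero ℓ)
  have hζ0 : ζ ≠ 0 := by
    rintro rfl
    rw [zero_pow hn] at hζ
    exact zero_ne_one hζ
  have hζA : ζ ∈ A := mem_of_pow_eq_one hn hζ
  have h1 := frob_apply_sub_pow_mem_nonunits hσ hζA
  have hσζ : (σ ζ) ^ n = 1 := by rw [← map_pow, hζ, map_one]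
  have hη : (σ ζ * (ζ ^ ℓ)⁻¹) ^ n = 1 := by
    rw [mul_pow, hσζ, inv_pow, ← pow_mul, mul_comm ℓ, pow_mul, hζ, one_pow, inv_one, mul_one]
  have hvinv : A.valuation ((ζ ^ ℓ)⁻¹) = 1 := by
    rw [map_inv₀, map_pow, valuation_eq_one_of_pow_eq_one hn hζ, one_pow, inv_one]
  have hη1 : σ ζ * (ζ ^ ℓ)⁻¹ - 1 ∈ A.nonunits := by
    have e : σ ζ * (ζ ^ ℓ)⁻¹ - 1 = (σ ζ - ζ ^ ℓ) * (ζ ^ ℓ)⁻¹ := by
      rw [sub_mul, mul_inv_cancel₀ (pow_ne_zero _ hζ0)]
    rw [e, ValuationSubring.mem_nonunits_iff, map_mul, hvinv, mul_one]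
    exact (ValuationSubring.mem_nonunits_iff (A := A)).mp h1
  have h2 := eq_one_of_sub_one_mem_nonunits hℓ hA hℓn hη hη1
  have := congrArg (· * ζ ^ ℓ) h2
  simpa [mul_assoc, inv_mul_cancel₀ (pow_ne_zero ℓ hζ0)] using this

/-- the inertia group at `A ∣ q`, `q ∤ n`, fixes the `n`-th roots of unity. -/
theorem apply_eq_of_mem_inertia {q : ℕ} (hq : q.Prime) (hqn : ¬ q ∣ n)
    (A : ValuationSubring Qb) (hA : A.LiesOverPrime q) {τ : GQ} (hτ : τ ∈ A.inertiaSubgroupIn ℚ)
    {ζ : Qb} (hζ : ζ ^ n = 1) : τ ζ = ζ := by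
  have hn : n ≠ 0 := fun h0 => hqn (h0 ▸ dvd_zero q)
  have hζ0 : ζ ≠ 0 := by
    rintro rfl
    rw [zero_pow hn] at hζ
    exact zero_ne_one hζ
  have hζA : ζ ∈ A := mem_of_pow_eq_one hn hζ
  have h1 := Fermat.Agent.S05.Inertia.apply_sub_mem_nonunits hτ hζA
  have hτζ : (τ ζ) ^ n = 1 := by rw [← map_pow, hζ, map_one]
  have hη : (τ ζ * ζ⁻¹) ^ n = 1 := by
    rw [mul_pow, hτζ, inv_pow, hζ, inv_one, mul_one]
  have hvinv : A.valuation (ζ⁻¹) = 1 := by
    rw [map_inv₀, valuation_eq_one_of_pow_eq_one hn hζ, inv_one]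
  have hη1 : τ ζ * ζ⁻¹ - 1 ∈ A.nonunits := by
    have e : τ ζ * ζ⁻¹ - 1 = (τ ζ - ζ) * ζ⁻¹ := by
      rw [sub_mul, mul_inv_cancel₀ hζ0]
    rw [e, ValuationSubring.mem_nonunits_iff, map_mul, hvinv, mul_one]
    exact (ValuationSubring.mem_nonunits_iff (A := A)).mp h1
  have h2 := eq_one_of_sub_one_mem_nonunits hq hA hqn hη hη1
  have := congrArg (· * ζ) h2
  simpa [mul_assoc, inv_mul_cancel₀ hζ0] using this

/-- every automorphism acts on the `n`-th roots of unity as a power prime to `n`. -/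
theorem exists_apply_eq_pow (hn : n ≠ 0) (g : GQ) :
    ∃ u : ℕ, u.Coprime n ∧ ∀ z : Qb, z ^ n = 1 → g z = z ^ u := by
  haveI : NeZero n := ⟨hn⟩
  obtain ⟨ζ, hζ⟩ := HasEnoughRootsOfUnity.exists_primitiveRoot Qb n
  have hgζ : IsPrimitiveRoot (g ζ) n := hζ.map_of_injective g.injective
  obtain ⟨u, -, hu⟩ := hζ.eq_pow_of_pow_eq_one hgζ.pow_eq_one
  refine ⟨u, ?_, fun z hz => ?_⟩
  · rw [← hu] at hgζ
    exact (hζ.pow_iff_coprime (Nat.pos_of_ne_zero hn) u).mp hgζ
  · obtain ⟨j, -, rfl⟩ := hζ.eq_pow_of_pow_eq_one hz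
    rw [map_pow, ← hu, ← pow_mul, ← pow_mul, mul_comm]

end Roots

/-! ### The module -/

/-- **`μ_n(ℚbar)`, written additively.** -/
def Mu (n : ℕ) : Type := Additive ↥(rootsOfUnity n Qb)

namespace Mu

variable {n : ℕ}

instance : AddCommGroup (Mu n) := inferInstanceAs (AddCommGroup (Additive ↥(rootsOfUnity n Qb)))

/-- the underlying root of unity. -/
def val (c : Mu n) : Qb :=
  (((Additive.toMul (show Additive ↥(rootsOfUnity n Qb) from c) : ↥(rootsOfUnity n Qb)) : Qbˣ) : Qb)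

theorem val_injective : Function.Injective (val (n := n)) := by
  intro c d h
  have h1 : (Additive.toMul (show Additive ↥(rootsOfUnity n Qb) from c) : ↥(rootsOfUnity n Qb)) =
      Additive.toMul (show Additive ↥(rootsOfUnity n Qb) from d) :=
    Subtype.ext (Units.ext h)
  exact Additive.toMul.injective h1

@[ext] theorem ext {c d : Mu n} (h : c.val = d.val) : c = d := val_injective h

@[simp] theorem val_zero : (0 : Mu n).val = 1 := rfl

@[simp] theorem val_add (c d : Mu n) : (c + d).val = c.val * d.val := rfl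

@[simp] theorem val_neg (c : Mu n) : (-c).val = (c.val)⁻¹ := by
  show ((((Additive.toMul (show Additive ↥(rootsOfUnity n Qb) from c))⁻¹ :
    ↥(rootsOfUnity n Qb)) : Qbˣ) : Qb) = _
  simp [val]

@[simp] theorem val_nsmul (m : ℕ) (c : Mu n) : (m • c).val = c.val ^ m := by
  induction m with
  | zero => simp
  | succ m ih => rw [succ_nsmul, val_add, ih, pow_succ]

theorem val_pow (c : Mu n) : c.val ^ n = 1 := by
  have h := (Additive.toMul (show Additive ↥(rootsOfUnity n Qb) from c) : ↥(rootsOfUnity n Qb)).2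
  rw [mem_rootsOfUnity] at h
  have := congrArg (fun u : Qbˣ => (u : Qb)) h
  simpa [val] using this

theorem val_ne_zero (c : Mu n) : c.val ≠ 0 := Units.ne_zero _

/-- constructor from an `n`-th root of unity. -/
def mk [NeZero n] (z : Qb) (hz : z ^ n = 1) : Mu n :=
  (Additive.ofMul (rootsOfUnity.mkOfPowEq z hz) : Additive ↥(rootsOfUnity n Qb))

@[simp] theorem val_mk [NeZero n] (z : Qb) (hz : z ^ n = 1) : (mk z hz).val = z := by
  simp [mk, val, rootsOfUnity.mkOfPowEq]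

theorem nsmul_self (c : Mu n) : n • c = 0 := by
  ext
  rw [val_nsmul, val_pow, val_zero]

/-! ### The Galois action -/

/-- the Galois action on a root of unity. -/
def gsmul (σ : GQ) (c : Mu n) : Mu n :=
  (Additive.ofMul (⟨σ • ((Additive.toMul (show Additive ↥(rootsOfUnity n Qb) from c) :
      ↥(rootsOfUnity n Qb)) : Qbˣ), by
    rw [mem_rootsOfUnity, ← smul_pow']
    have h := (Additive.toMul (show Additive ↥(rootsOfUnity n Qb) from c) : ↥(rootsOfUnity n Qb)).2
    rw [mem_rootsOfUnity] at h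
    rw [h, smul_one]⟩ : ↥(rootsOfUnity n Qb)) : Additive ↥(rootsOfUnity n Qb))

instance : SMul GQ (Mu n) := ⟨gsmul⟩

@[simp] theorem val_smul (σ : GQ) (c : Mu n) : (σ • c).val = σ c.val := rfl

instance : DistribMulAction GQ (Mu n) where
  one_smul c := by ext; simp
  mul_smul σ τ c := by ext; simp [AlgEquiv.mul_apply]
  smul_zero σ := by ext; simp
  smul_add σ c d := by ext; simp

instance [NeZero n] : Finite (Mu n) :=
  inferInstanceAs (Finite (Additive ↥(rootsOfUnity n Qb)))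

instance [NeZero n] : IsAddCyclic (Mu n) :=
  inferInstanceAs (IsAddCyclic (Additive ↥(rootsOfUnity n Qb)))

theorem card_mu [NeZero n] : Nat.card (Mu n) = n := by
  have h : Nat.card (Mu n) = Nat.card ↥(rootsOfUnity n Qb) :=
    Nat.card_congr (Additive.toMul (α := ↥(rootsOfUnity n Qb)))
  rw [h, HasEnoughRootsOfUnity.natCard_rootsOfUnity]

/-! ### Frobenius, inertia, integers -/

/-- **a Frobenius at `ℓ ∤ n` acts on `μ_n` as multiplication by `ℓ`.** -/
theorem smul_eq_nsmul_of_isFrobeniusAt {ℓ : ℕ} (hℓ : ℓ.Prime) (hℓn : ¬ ℓ ∣ n)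
    (A : ValuationSubring Qb) (hA : A.LiesOverPrime ℓ) {σ : GQ} (hσ : A.IsFrobeniusAt σ ℓ)
    (c : Mu n) : σ • c = ℓ • c := by
  ext
  rw [val_smul, val_nsmul]
  exact apply_eq_pow_of_isFrobeniusAt hℓ hℓn A hA hσ c.val_pow

/-- **inertia at `q ∤ n` acts trivially on `μ_n`.** -/
theorem smul_eq_of_mem_inertia {q : ℕ} (hq : q.Prime) (hqn : ¬ q ∣ n)
    (A : ValuationSubring Qb) (hA : A.LiesOverPrime q) {τ : GQ} (hτ : τ ∈ A.inertiaSubgroupIn ℚ)
    (c : Mu n) : τ • c = c := by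
  ext
  rw [val_smul]
  exact apply_eq_of_mem_inertia hq hqn A hA hτ c.val_pow

/-- **every `g` acts on `μ_n` as an integer prime to `n`.** -/
theorem exists_nat_smul [NeZero n] (g : GQ) :
    ∃ u : ℕ, u.Coprime n ∧ ∀ c : Mu n, g • c = u • c := by
  obtain ⟨u, hu, h⟩ := exists_apply_eq_pow (NeZero.ne n) g
  refine ⟨u, hu, fun c => ?_⟩
  ext
  rw [val_smul, val_nsmul]
  exact h _ c.val_pow

/-- an automorphism fixing the `n`-th roots of unity acts trivially. -/
theorem smul_eq_of_fixes {σ : GQ} (h : ∀ z : Qb, z ^ n = 1 → σ z = z) (c : Mu n) : σ • c = c := by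
  ext
  rw [val_smul]
  exact h _ c.val_pow

/-- two automorphisms agreeing on the `n`-th roots of unity act in the same way. -/
theorem smul_eq_smul_of_agree {σ τ : GQ} (h : ∀ z : Qb, z ^ n = 1 → σ z = τ z) (c : Mu n) :
    σ • c = τ • c := by
  ext
  rw [val_smul, val_smul]
  exact h _ c.val_pow

/-- multiplication by an integer prime to `n` is injective on `μ_n`. -/
theorem eq_zero_of_nsmul_eq_zero {ℓ : ℕ} (h : ℓ.Coprime n) (c : Mu n) (hc : ℓ • c = 0) : c = 0 := by
  have h1 : (ℓ.gcd n) • c = 0 := by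
    have h2 : ((ℓ.gcd n : ℕ) : ℤ) • c = 0 := by
      rw [Nat.gcd_eq_gcd_ab, add_smul, mul_smul, mul_smul, natCast_zsmul, natCast_zsmul]
      rw [smul_comm, hc, smul_zero, smul_comm, nsmul_self, smul_zero, add_zero]
    rwa [natCast_zsmul] at h2
  rwa [h, one_smul] at h1

/-- **the integer by which `g` acts on `μ_n` is `χ(g)` modulo `r`**, for a mod `r` cyclotomic character
`χ` in the vocabulary of `RankOne19`, when `r ∣ n`. -/
theorem natCast_eq_chi [NeZero n] {r : ℕ} [hr : Fact r.Prime] (χ : GQ →* ZMod r)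
    (hχ : ∀ (σ : GQ) (z : Qb), z ^ r = 1 → σ z = z ^ (χ σ).val) (hrn : r ∣ n) {g : GQ} {u : ℕ}
    (hu : ∀ c : Mu n, g • c = u • c) : (u : ZMod r) = χ g := by
  obtain ⟨ξ, hξ⟩ := HasEnoughRootsOfUnity.exists_primitiveRoot Qb r
  have hξn : ξ ^ n = 1 := by
    obtain ⟨m, rfl⟩ := hrn
    rw [pow_mul, hξ.pow_eq_one, one_pow]
  have h1 := congrArg val (hu (mk ξ hξn))
  rw [val_smul, val_nsmul, val_mk, hχ g ξ hξ.pow_eq_one] at h1
  have h2 : (χ g).val ≡ u [MOD r] := modEq_of_pow_eq_pow hξ hr.out.ne_zero h1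
  have h3 := (ZMod.natCast_eq_natCast_iff _ _ _).mpr h2
  rw [← h3, ZMod.natCast_zmod_val]

end Mu

/-! ### A concrete mod `r` cyclotomic character -/

section Chi

variable (r : ℕ) [hr : Fact r.Prime]

/-- **the mod `r` cyclotomic character** of `G_ℚ`, with values in `ZMod r`. -/
def chi : GQ →* ZMod r :=
  (Units.coeHom (ZMod r)).comp
    ((modularCyclotomicCharacter Qb (HasEnoughRootsOfUnity.natCard_rootsOfUnity Qb r)).comp
      (MulSemiringAction.toRingAut GQ Qb))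

/-- the defining property, in the vocabulary of `RankOne19`. -/
theorem chi_spec (σ : GQ) (z : Qb) (hz : z ^ r = 1) : σ z = z ^ (chi r σ).val := by
  have hz0 : z ≠ 0 := by
    rintro rfl
    rw [zero_pow hr.out.ne_zero] at hz
    exact zero_ne_one hz
  have ht : Units.mk0 z hz0 ∈ rootsOfUnity r Qb := by
    rw [mem_rootsOfUnity]
    apply Units.ext
    simpa using hz
  have := modularCyclotomicCharacter.spec Qb (HasEnoughRootsOfUnity.natCard_rootsOfUnity Qb r)
    (MulSemiringAction.toRingAut GQ Qb σ) ht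
  simpa [chi] using this

theorem chi_isUnit (σ : GQ) : IsUnit (chi r σ) := by
  unfold chi
  exact Units.isUnit _

end Chi

end Fermat.Agent.MAZ.Desc.MuModule11
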