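/-
MAZ (S15), G-side, line 8b (helper26): **the DUAL twin of `KummerInst26` / `KummerInstP26`**.

The two halves (`α`-HALF + `δ`-HALF) of `KummerInst26.LevelInput` are replaced by the inputs of the
symmetric devissage (`DescentAsmDual2`, helper2) at `C = μ_{r^k}` (`MuModule11.Mu (r ^ k)`,
helper11):

* CARTIER (`CartierOk68.admFamily_ok_prod_dual`, helper68) is discharged here;
* `hMC`, `hIC` (`μ_{r^k}` is killed by `r^k`, and unramified at `p ≠ r`) are discharged here;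
* `hI` is the statement QUAD-J (`QuadAt`; `QuadJ11.quad`, helper11) on `J₀(p)[r^k]`;
* `hδ` is the integer form of `δ` (`EisDataInt55.exists_eisData_dual`, helper55);
* (HOM-μ) is a bound `B`, uniform in `k`, for `#Hom_G(J₀(p)[r^k], μ_{r^k})`
  (`HomMuDual11.exists_bound`, helper11).

`exists_bound_dual_varP` is the abstract uniform bound (all the auxiliary data depend on the level,
`P`-part variant); `InputsDual` / `InputsDualP` are the literal lists of inputs, and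
**`globalEis_of_inputsDual`**, **`globalEis_of_inputsDualP`** the G-side.
-/
import Mathlib
import Fermat.Agent.MAZ.Desc.KummerInstP26
import Fermat.Agent.MAZ.Desc.DescentAsmDual2
import Fermat.Agent.MAZ.Desc.MuModule11
import Fermat.Agent.MAZ.Flat.CartierOk68

set_option autoImplicit false
set_option linter.unusedSectionVars false
set_option linter.unusedVariables false
set_option linter.style.haveILetI false

open AlgebraicCurve ModularCurve

noncomputable section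

namespace Fermat.Agent.MAZ.Desc.KummerInstDual26

open Fermat.Agent.X0 Fermat.Agent.MAZ.Spec.XSpec62 Fermat.Agent.MAZ.Spec.GSpec26
open Fermat.Agent.MAZ.Desc.SelmerCone95 Fermat.Agent.MAZ.Desc.KummerCone95
  Fermat.Agent.MAZ.Desc.Devissage95 Fermat.Agent.MAZ.Desc.PrimaryPart19
  Fermat.Agent.MAZ.Desc.ConePrimary95 Fermat.Agent.MAZ.Desc.DescentAsm95
  Fermat.Agent.MAZ.Desc.EisBoundAbs95 Fermat.Agent.MAZ.Desc.FlatAdm68
  Fermat.Agent.MAZ.Desc.RatTors26 Fermat.Agent.MAZ.Desc.KummerInst26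
  Fermat.Agent.MAZ.Desc.KummerInstP26 Fermat.Agent.MAZ.Desc.KerAdapterP26
  Fermat.Agent.MAZ.Desc.DualModule2 Fermat.Agent.MAZ.Desc.DualDevissage2
  Fermat.Agent.MAZ.Desc.DescentAsmDual2 Fermat.Agent.MAZ.Desc.MuModule11
open Fermat.Agent.TW.FF.FlatModel68 (FlatModel)

attribute [local instance] dmaMk modMk primaryDMA

/-! ### 1. The abstract bound -/

/-- **the uniform bound, DUAL form, `P`-part variant, level-dependent auxiliary data**: at the level
`k` the Kummer datum has domain `Bk` and the Kummer map of `A` is `a ↦ κ (e • a)`; the bound `B` for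
the equivariant functionals is uniform. -/
theorem exists_bound_dual_varP {G : Type} [Group G] {D I : Subgroup G} {T : Type} [CommRing T]
    {J : Type} [AddCommGroup J] [DistribMulAction G J] [Module T J] {r : ℕ} [Fact r.Prime]
    {π : T →+* ZMod r} (Y A : Submodule T J) (hAY : A ≤ Y) [Module.Finite ℤ Y] (N : ℕ)
    (hN : 0 < N) (hNA : ∀ y ∈ Y, N • y ∈ A) (Tt : AddSubgroup J) [Finite Tt] (B : ℕ)
    (hk : ∀ k : ℕ, ∃ (F : AdmFamily.{0} G) (φ₀ : G) (χ : G →* ZMod r) (τ δ : G → T)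
      (Bk : Submodule T J) (e : T),
      RankOneBound F D I r χ φ₀ ∧ (∀ g, π (τ g) = 1 + χ g) ∧ (∀ g, π (δ g) = χ g) ∧
      (∀ x ∈ primarySet (RingHom.ker π) (A ⧸ (Ideal.span {(r : T) ^ k} • ⊤ : Submodule T A)),
        e • x = x) ∧
      (∀ a ∈ A, e • a ∈ Bk) ∧ LevelDataDual D I Bk Y F χ τ δ Tt B k) :
    ∃ B' : ℕ, ∀ k : ℕ,
      (primarySet (RingHom.ker π) (A ⧸ (Ideal.span {(r : T) ^ k} • ⊤ : Submodule T A))).Finite ∧
        (primarySet (RingHom.ker π)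
          (A ⧸ (Ideal.span {(r : T) ^ k} • ⊤ : Submodule T A))).ncard ≤ B' := by
  obtain ⟨B', hB'⟩ := kerAdapterP Y A hAY N hN hNA (RingHom.ker π) r (Nat.card Tt * B)
  refine ⟨B', fun k => ?_⟩
  obtain ⟨F, φ₀, χ, τ, δ, Bk, e, hR, htau, hdelta, he, heA, hLD⟩ := hk k
  obtain ⟨M, i1, i2, i3, i4, K, hL, C, c1, c2, c3, c4, hK, hZ, hKA, hrel, hMC, hIC, hδ, hI, hOkN,
    hB, hTt⟩ := hLD
  obtain ⟨inst, f, h1, h2, h3, h4⟩ := descent_asm_dual F φ₀ hR K Bk hL hK hZ htau hdelta hrel C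
    hMC hIC hδ hI hOkN B hB Tt hTt
  let eMul : A →ₗ[T] Bk :=
    { toFun := fun a => ⟨e • (a : J), heA a a.2⟩
      map_add' := fun a b => Subtype.ext (smul_add e (a : J) (b : J))
      map_smul' := fun t a => Subtype.ext (smul_comm e t (a : J)) }
  refine hB' k (H1S K.cone) Set.univ (f.comp eMul) e he (fun a => h1 (eMul a)) (fun a ha => ?_)
    (fun a => Set.mem_univ _) h3 h4
  obtain ⟨w, hw, hwa⟩ := h2 (eMul a) ha
  exact ⟨w, hKA w hw, hwa⟩

/-! ### 2. The inputs at `JZero p` -/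

variable {p : ℕ} [NeZero p] {T : Type} [CommRing T] [Module T (JZero p)]
variable (r : ℕ) [Fact r.Prime] (𝔄 : ValuationSubring Qb)

/-- **QUAD-J at `𝔄`**: `(σ - 1)(τ - 1) = 0` on `J₀(p)[r^k]` for `σ τ` in the inertia group of `𝔄`
(`QuadJ11.quad` at `N = q = p`, `m = r ^ k`). -/
def QuadAt (p r : ℕ) [NeZero p] (𝔄 : ValuationSubring Qb) : Prop :=
  ∀ (k : ℕ) (σ τ : GQ), σ ∈ 𝔄.inertiaSubgroupIn ℚ → τ ∈ 𝔄.inertiaSubgroupIn ℚ →
    ∀ y : JZero p, (r ^ k) • y = 0 → σ • (τ • y - y) = τ • y - y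

/-- **the inputs at the level `r^k` which depend on the Eisenstein structure, DUAL form**: the
rank-one bound for the family `admFamily r k p` (RANK-ONE), the Eichler-Shimura relation with the
Chebotarev choice `(τ g, δ g)` and the integer form of `δ` (EIS-REL), and the bound `B` for the
equivariant functionals `J₀(p)[r^k] → μ_{r^k}` ((HOM-μ)). -/
def LevelInputDual (π : T →+* ZMod r) (B k : ℕ) : Prop :=
  ∃ (φ₀ : GQ) (χ : GQ →* ZMod r) (τ δ : GQ → T),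
    RankOneBound (admFamily r k p) (𝔄.decompositionSubgroup ℚ) (𝔄.inertiaSubgroupIn ℚ) r χ φ₀ ∧
    (∀ g, π (τ g) = 1 + χ g) ∧ (∀ g, π (δ g) = χ g) ∧
    (∀ (g : GQ) (x : JZero p), (r ^ k) • x = 0 → g • g • x - τ g • g • x + δ g • x = 0) ∧
    (∀ g : GQ, ∃ u : ℕ, (u : ZMod r) = χ g ∧ (∀ c : Mu (r ^ k), g • c = u • c) ∧
      ∀ x : JZero p, (r ^ k) • x = 0 → δ g • x = u • x) ∧
    Nat.card (equivariantHoms GQ ↥(Mk p r k) (Mu (r ^ k))) ≤ B

variable {r}

instance neZero_pow (k : ℕ) : NeZero (r ^ k) := ⟨pow_ne_zero _ (Fact.out : r.Prime).ne_zero⟩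

/-- inertia at `q ≠ r` acts trivially on `μ_{r^k}`. -/
theorem mu_inertia (k : ℕ) {q : ℕ} (hq : q.Prime) (hqr : q ≠ r) (B : ValuationSubring Qb)
    (hB : B.LiesOverPrime q) (σ : GQ) (hσ : σ ∈ B.inertiaSubgroupIn ℚ) (c : Mu (r ^ k)) :
    σ • c = c :=
  Mu.smul_eq_of_mem_inertia hq (fun h => hqr ((Nat.prime_dvd_prime_iff_eq hq
    (Fact.out : r.Prime)).1 (hq.dvd_of_dvd_pow h))) B hB hσ c

/-- **CARTIER at `J₀(p)[r^k]`**. -/
theorem ok_prod_dual {k : ℕ} (hOk : OkMod r k p ↥(Mk p r k)) :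
    (admFamily r k p).Ok (↥(Mk p r k) × Dual ↥(Mk p r k) (Mu (r ^ k))) :=
  Fermat.Agent.MAZ.Flat.CartierOk68.admFamily_ok_prod_dual hOk Mu.val Mu.val_add Mu.val_zero
    Mu.val_smul Mu.val_injective
    (fun q hq hqr _ B hB σ hσ c => mu_inertia k hq hqr B hB σ hσ c)

/-- **the level data of the symmetric descent at `JZero p`**, on a submodule `A'` of rational points
which are `r^k`-divisible in the inertia invariants. -/
theorem levelDataDual (hT : HeckeModel p T) (hp : p.Prime) (hpr : p ≠ r)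
    (h𝔄 : 𝔄.LiesOverPrime p) {k : ℕ} (hOk : OkMod r k p ↥(Mk p r k))
    (A' : Submodule T (JZero p))
    (hA' : ∀ z ∈ A', z ∈ J0 (p := p) 𝔄 ∧ ∀ σ : GQ, σ • z = z)
    (hdiv : ∀ z ∈ A', ∃ y ∈ J0 (p := p) 𝔄, (r ^ k) • y = z) (hU : KUnr p r)
    (hF : KFlat p r (A' : Set (JZero p))) (hQ : QuadAt p r 𝔄)
    {χ : GQ →* ZMod r} {τ δ : GQ → T} {B : ℕ}
    (hrel : ∀ (g : GQ) (x : JZero p), (r ^ k) • x = 0 → g • g • x - τ g • g • x + δ g • x = 0)
    (hδ : ∀ g : GQ, ∃ u : ℕ, (u : ZMod r) = χ g ∧ (∀ c : Mu (r ^ k), g • c = u • c) ∧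
      ∀ x : JZero p, (r ^ k) • x = 0 → δ g • x = u • x)
    (hB : Nat.card (equivariantHoms GQ ↥(Mk p r k) (Mu (r ^ k))) ≤ B) :
    LevelDataDual (𝔄.decompositionSubgroup ℚ) (𝔄.inertiaSubgroupIn ℚ) A' (ratPoints hT)
      (admFamily r k p) χ τ δ (ratTorsion p) B k := by
  refine ⟨↥(Mk p r k), inferInstance, dmaMk r k, modMk r k, hOk.finite,
    kummerData 𝔄 hOk A' hA', lin_kummerData 𝔄 hT hOk A' hA', Mu (r ^ k), inferInstance,
    inferInstance, inferInstance, inferInstance,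
    hyp_kummerData 𝔄 hOk A' hA' hdiv hU hF, rfl, fun w hw => hw.2,
    fun g x => Subtype.ext (hrel g (x : JZero p) ((mem_Mk_iff r k).1 x.2)),
    fun x => ?_, fun σ hσ c => mu_inertia k hp hpr 𝔄 h𝔄 σ hσ c, fun g => ?_,
    fun σ hσ x τ' hτ' => ?_, ok_prod_dual hOk, hB,
    fun x hx hx0 => ⟨hx.2, r ^ k, pow_pos (Fact.out : r.Prime).pos k, hx0⟩⟩
  · rw [Mu.card_mu]
    exact nsmul_Mk_eq_zero r k x
  · obtain ⟨u, h1, h2, h3⟩ := hδ g
    exact ⟨u, h1, h2, fun x => Subtype.ext (h3 (x : JZero p) ((mem_Mk_iff r k).1 x.2))⟩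
  · exact hQ k τ' σ hτ' hσ (x : JZero p) ((mem_Mk_iff r k).1 x.2)

variable (r)

/-- **the list of inputs of the G-side at the prime `r`, DUAL form.** -/
structure InputsDual (hT : HeckeModel p T) (π : T →+* ZMod r) (A : Submodule T (JZero p))
    (B : ℕ) : Prop where
  /-- S19 at level `p` (FFJ) -/
  s19 : S19At p r
  /-- K-UNR -/
  kunr : KUnr p r
  /-- P-FIN, first half: finite index -/
  fin : FiniteIndexIn A (ratPoints hT)
  /-- P-FIN, second half: divisibility in the inertia invariants at `𝔄` -/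
  div : ∀ z ∈ A, ∀ k : ℕ, ∃ y ∈ J0 (p := p) 𝔄, (r ^ k) • y = z
  /-- K-FLAT -/
  kflat : KFlat p r (A : Set (JZero p))
  /-- QUAD-J -/
  quad : QuadAt p r 𝔄
  /-- RANK-ONE + EIS-REL (integer form) + (HOM-μ) -/
  level : ∀ k : ℕ, LevelInputDual (p := p) r 𝔄 π B k

/-- **the list of inputs of the G-side at the prime `r`, DUAL form, `P`-part variant**: (P-FIN) is
replaced by (P-FIN)_P, and K-FLAT is required for all rational points. -/
structure InputsDualP (hT : HeckeModel p T) (π : T →+* ZMod r) (A : Submodule T (JZero p))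
    (B : ℕ) : Prop where
  /-- S19 at level `p` (FFJ) -/
  s19 : S19At p r
  /-- K-UNR -/
  kunr : KUnr p r
  /-- finite index -/
  fin : FiniteIndexIn A (ratPoints hT)
  /-- K-FLAT for all rational points -/
  kflat : KFlat p r {z : JZero p | ∀ σ : GQ, σ • z = z}
  /-- QUAD-J -/
  quad : QuadAt p r 𝔄
  /-- (P-FIN)_P + RANK-ONE + EIS-REL (integer form) + (HOM-μ) -/
  level : ∀ k : ℕ, ∃ e : T,
    (∀ x ∈ primarySet (RingHom.ker π) (A ⧸ (Ideal.span {(r : T) ^ k} • ⊤ : Submodule T A)),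
      e • x = x) ∧
    (∀ z ∈ A, ∃ y ∈ J0 (p := p) 𝔄, (r ^ k) • y = e • z) ∧
    LevelInputDual (p := p) r 𝔄 π B k

variable {r}

/-- **DESCENT-ASM at `JZero p`, DUAL form, `P`-part variant.** -/
theorem eisBound_of_inputsDualP (hT : HeckeModel p T) (hMW : MW p) (hp : p.Prime) (hpr : p ≠ r)
    (h𝔄 : 𝔄.LiesOverPrime p) {π : T →+* ZMod r} {A : Submodule T (JZero p)} {B : ℕ}
    (h : InputsDualP r 𝔄 hT π A B) :
    ∃ B' : ℕ, EisBound A (RingHom.ker π) r B' := by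
  haveI := finite_ratPoints hT hMW
  haveI := finite_ratTorsion (p := p) hMW
  obtain ⟨hle, N, hN, hNA⟩ := h.fin
  refine exists_bound_dual_varP (D := 𝔄.decompositionSubgroup ℚ) (I := 𝔄.inertiaSubgroupIn ℚ)
    (ratPoints hT) A hle N hN hNA (ratTorsion p) B fun k => ?_
  have hOk : OkMod r k p ↥(Mk p r k) := okMod_Mk h.s19 h.kunr
  obtain ⟨e, he, heA, hlev⟩ := h.level k
  obtain ⟨φ₀, h3⟩ := hlev
  obtain ⟨χ, τ, δ, hR, htau, hdelta, hrel, hδ, hB⟩ := h3
  have heA' : ∀ a ∈ A, e • a ∈ Bk r 𝔄 hT k := fun a ha =>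
    (mem_Bk r 𝔄 hT k).2 ⟨fun σ => by rw [hT.galois, hle ha σ], heA a ha⟩
  have hKF : KFlat p r ((Bk r 𝔄 hT k : Submodule T (JZero p)) : Set (JZero p)) :=
    fun k' z hz => h.kflat k' z hz.1
  exact ⟨admFamily r k p, φ₀, χ, τ, δ, Bk r 𝔄 hT k, e, hR, htau, hdelta, he, heA',
    levelDataDual 𝔄 hT hp hpr h𝔄 hOk (Bk r 𝔄 hT k) (Bk_fixed r 𝔄 hT k) (fun z hz => hz.2) h.kunr
      hKF h.quad hrel hδ hB⟩

/-- **DESCENT-ASM at `JZero p`, DUAL form.** -/
theorem eisBound_of_inputsDual (hT : HeckeModel p T) (hMW : MW p) (hp : p.Prime) (hpr : p ≠ r)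
    (h𝔄 : 𝔄.LiesOverPrime p) {π : T →+* ZMod r} {A : Submodule T (JZero p)} {B : ℕ}
    (h : InputsDual r 𝔄 hT π A B) :
    ∃ B' : ℕ, EisBound A (RingHom.ker π) r B' := by
  haveI := finite_ratPoints hT hMW
  haveI := finite_ratTorsion (p := p) hMW
  obtain ⟨hle, N, hN, hNA⟩ := h.fin
  have hA : ∀ z ∈ A, z ∈ J0 (p := p) 𝔄 ∧ ∀ σ : GQ, σ • z = z :=
    fun z hz => ⟨mem_J0_of_fixed 𝔄 (hle hz), hle hz⟩
  refine exists_bound_dual_varP (D := 𝔄.decompositionSubgroup ℚ) (I := 𝔄.inertiaSubgroupIn ℚ)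
    (ratPoints hT) A hle N hN hNA (ratTorsion p) B fun k => ?_
  have hOk : OkMod r k p ↥(Mk p r k) := okMod_Mk h.s19 h.kunr
  obtain ⟨φ₀, h3⟩ := h.level k
  obtain ⟨χ, τ, δ, hR, htau, hdelta, hrel, hδ, hB⟩ := h3
  exact ⟨admFamily r k p, φ₀, χ, τ, δ, A, 1, hR, htau, hdelta, fun x _ => one_smul T x,
    fun a ha => by rw [one_smul]; exact ha,
    levelDataDual 𝔄 hT hp hpr h𝔄 hOk A hA (fun z hz => h.div z hz k) h.kunr h.kflat h.quad hrel
      hδ hB⟩

/-- **THE G-SIDE FROM THE INPUTS, DUAL form.** -/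
theorem globalEis_of_inputsDual (hT : HeckeModel p T) (hMW : MW p) (hdeg : DegOne p)
    (cZ : Place Qb (FF p)) (hp : p.Prime) (hpr : p ≠ r) (h𝔄 : 𝔄.LiesOverPrime p)
    {π : T →+* ZMod r} (m : ℕ) (hC : CuspEis hT hdeg cZ r π m)
    {A : Submodule T (JZero p)} {B : ℕ} (h : InputsDual r 𝔄 hT π A B) : GlobalEis hdeg cZ := by
  obtain ⟨B', hB'⟩ := eisBound_of_inputsDual 𝔄 hT hMW hp hpr h𝔄 h
  exact Fermat.Agent.MAZ.Desc.AlgFin79.globalEis_of_bound hT hMW hdeg cZ r π m hC A h.fin B' hB'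

/-- **THE G-SIDE FROM THE INPUTS, DUAL form, `P`-part variant.** -/
theorem globalEis_of_inputsDualP (hT : HeckeModel p T) (hMW : MW p) (hdeg : DegOne p)
    (cZ : Place Qb (FF p)) (hp : p.Prime) (hpr : p ≠ r) (h𝔄 : 𝔄.LiesOverPrime p)
    {π : T →+* ZMod r} (m : ℕ) (hC : CuspEis hT hdeg cZ r π m)
    {A : Submodule T (JZero p)} {B : ℕ} (h : InputsDualP r 𝔄 hT π A B) : GlobalEis hdeg cZ := by
  obtain ⟨B', hB'⟩ := eisBound_of_inputsDualP 𝔄 hT hMW hp hpr h𝔄 h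
  exact Fermat.Agent.MAZ.Desc.AlgFin79.globalEis_of_bound hT hMW hdeg cZ r π m hC A h.fin B' hB'

end Fermat.Agent.MAZ.Desc.KummerInstDual26
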