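/-
MAZ (S15), `r = 2`, brick CARTIER WITH MARKS ON THE PRIMARY PART (helper95): **the conjuncts 12–13 of
`KummerInstDualM95.LevelInputDualM` for the marked family `MarkedAdm19.markedFamily 2 k p`,
DISCHARGED** from `OkModM 2 k p M M₀` and the Eichler–Shimura data.

For a finite `G_ℚ`-and-`T`-module `M` with `OkModM 2 k p M M₀` (a good module with a marked local
model at `2`) and the Eichler–Shimura relation, the `ker π`-primary part `M_P`, with the induced mark
`M₀ ∩ M_P`, is again `OkModM` (`DescentAsmMarked95.ok_primaryPartM`), it is unipotent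
(`CartierMarked68.unipTwoGlobal_of_eisData`), so helper68's `CartierMarked68.marked_prod_dual_two`
gives a dual mark `D₀ ≤ Hom(M_P, μ_{2^k})` with a marked model of `M_P × Hom(M_P, μ_{2^k})` marked by
`(M₀ ∩ M_P) × D₀` and the COUNT `#D₀ · #(M₀ ∩ M_P) ≤ #M_P`; the product is a good module by
`CartierOk68.admFamily_ok_prod_dual`.
-/
import Mathlib
import Fermat.Agent.MAZ.Desc.MarkedAdm19
import Fermat.Agent.MAZ.Desc.DescentAsmMarked95
import Fermat.Agent.MAZ.Desc.KummerInstDual26
import Fermat.Agent.MAZ.Flat.CartierMarked68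

set_option autoImplicit false
set_option linter.unusedSectionVars false
set_option linter.style.haveILetI false

noncomputable section

namespace Fermat.Agent.MAZ.Desc.CartierPrimaryM95

open Fermat.Agent.MAZ.Spec.XSpec62
open Fermat.Agent.MAZ.Desc.SelmerCone95 Fermat.Agent.MAZ.Desc.Devissage95
  Fermat.Agent.MAZ.Desc.PrimaryPart19 Fermat.Agent.MAZ.Desc.ConePrimary95
  Fermat.Agent.MAZ.Desc.EisFiltration19 Fermat.Agent.MAZ.Desc.DualModule2
  Fermat.Agent.MAZ.Desc.DevissageMarked95 Fermat.Agent.MAZ.Desc.DescentAsmMarked95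
  Fermat.Agent.MAZ.Desc.MarkedAdm19 Fermat.Agent.MAZ.Desc.MuModule11
  Fermat.Agent.MAZ.Desc.FlatAdm68 Fermat.Agent.MAZ.Desc.KummerInstDual26
  Fermat.Agent.MAZ.Flat.CartierMarked68

attribute [local instance] primaryDMA

variable {k p : ℕ} {T : Type} [CommRing T] {π : T →+* ZMod 2} {χ : GQ →* ZMod 2} {τ δ : GQ → T}
variable {M : Type} [AddCommGroup M] [DistribMulAction GQ M] [Module T M] [SMulCommClass GQ T M]
  [Finite M]

/-- **CARTIER WITH MARKS on the primary part, for the marked family at `2`.** -/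
theorem exists_dualMark_primary {M₀ : AddSubgroup M} (hOk : OkModM 2 k p M M₀)
    (htau : ∀ g, π (τ g) = 1 + χ g) (hdelta : ∀ g, π (δ g) = χ g)
    (hrel : ∀ (g : GQ) (x : M), g • g • x - τ g • g • x + δ g • x = 0) :
    ∃ D₀ : AddSubgroup (Dual (primaryPart (RingHom.ker π) M) (Mu (2 ^ k))),
      (markedFamily 2 k p).Ok
        (primaryPart (RingHom.ker π) M × Dual (primaryPart (RingHom.ker π) M) (Mu (2 ^ k)))
        ((primaryMark (RingHom.ker π) M₀).prod D₀) ∧
      Nat.card D₀ * Nat.card (primaryMark (RingHom.ker π) M₀) ≤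
        Nat.card (primaryPart (RingHom.ker π) M) := by
  haveI := primary_smulCommClass (G := GQ) (M := M) (RingHom.ker π)
  have hOkP : OkModM 2 k p (primaryPart (RingHom.ker π) M) (primaryMark (RingHom.ker π) M₀) :=
    ok_primaryPartM (markedFamily 2 k p) M₀ hOk (RingHom.ker π)
  have E : EisData π χ τ δ (primaryPart (RingHom.ker π) M) :=
    eisData_primaryPart htau hdelta hrel
  have hU : UnipTwoGlobal (primaryPart (RingHom.ker π) M) := unipTwoGlobal_of_eisData E
  obtain ⟨D₀, hmark, hcount⟩ := marked_prod_dual_two (C := Mu (2 ^ k)) hOkP.marked hU Mu.val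
    Mu.val_add Mu.val_zero Mu.val_smul Mu.val_injective
  have hprod : OkMod 2 k p
      (primaryPart (RingHom.ker π) M × Dual (primaryPart (RingHom.ker π) M) (Mu (2 ^ k))) :=
    Fermat.Agent.MAZ.Flat.CartierOk68.admFamily_ok_prod_dual hOkP.ok Mu.val Mu.val_add Mu.val_zero
      Mu.val_smul Mu.val_injective
      (fun q hq hqr _ B hB σ hσ c => mu_inertia k hq hqr B hB σ hσ c)
  exact ⟨D₀, ⟨hprod, hmark⟩, hcount⟩

end Fermat.Agent.MAZ.Desc.CartierPrimaryM95
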