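/-
Programme MAZ (S15), chapter `r = 2` (P3), CARTIER WITH MARKS in the `prodMark` form (helper68).

The finite-level route P1 at `r = 2` (`ToricAsmM50.factorial_nsmul_fixed_le_range_marked`,
`PTExpInstM90.ToricLevelInputM'`) consumes CARTIER-with-marks in the form
`F.Ok (M × Dual M C) (prodMark C M₀)`, i.e. with the dual mark EQUAL to the annihilator `M₀^⊥`.
`CartierMarkedInst68.exists_dualMark(_primary)` gives an abstract dual mark `D₀` with the count
`#D₀ · #M₀ ≤ #M` and `M₀^⊥ ≤ D₀`; for a cyclic `C` killing `M` these force `D₀ = M₀^⊥`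
(`BoundedUnramM50.eq_ann_of_card_le`).  So for the concrete marked family `markedFamily 2 k p`:

* `ok_prodMark` : `OkModM 2 k p M M₀` + unipotent at `2` ⟹ `F.Ok (M × Dual M C) (prodMark C M₀)`;
* `ok_prodMark_primary` : the same on the `ker π`-primary part with the induced mark, from the
  Eichler–Shimura relation on `M` (= the sixth conjunct of `PTExpInstM90.ToricLevelInputM'`).
-/
import Mathlib
import Fermat.Agent.MAZ.Desc.CartierMarkedInst68
import Fermat.Agent.MAZ.Desc.BoundedUnramM50

set_option autoImplicit false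
set_option linter.unusedSectionVars false
set_option linter.style.haveILetI false

noncomputable section

namespace Fermat.Agent.MAZ.Desc.CartierProdMark68

open Fermat.Agent.TW.FF.FlatModel68 Fermat.Agent.MAZ.Desc.FlatAdm68
open Fermat.Agent.MAZ.Desc.DualModule2 Fermat.Agent.MAZ.Desc.MarkedAdm19
open Fermat.Agent.MAZ.Desc.DevissageMarked95 Fermat.Agent.MAZ.Desc.DescentAsmMarked95
open Fermat.Agent.MAZ.Desc.DualDevissageMarked95
open Fermat.Agent.MAZ.Desc.ConePrimary95 Fermat.Agent.MAZ.Desc.PrimaryPart19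
open Fermat.Agent.MAZ.Desc.EisFiltration19
open Fermat.Agent.MAZ.Desc.BoundedUnramM50
open Fermat.Agent.MAZ.Flat.CartierMarked68
open Fermat.Agent.MAZ.Desc.CartierMarkedInst68

local notation "Qb" => AlgebraicClosure ℚ

attribute [local instance] primaryDMA

variable {k p : ℕ} {M C : Type} [AddCommGroup M] [DistribMulAction GQ M] [AddCommGroup C]
  [DistribMulAction GQ C] [Finite C] [IsAddCyclic C]

/-- **CARTIER WITH MARKS, `prodMark` form**: for a good marked module unipotent at `2` and a cyclic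
`C` (embedded in the roots of unity) killing `M`, `M × Hom(M, C)` with the mark `M₀ × M₀^⊥` is a
good marked module. -/
theorem ok_prodMark [Finite M] {M₀ : AddSubgroup M} (hOk : OkModM 2 k p M M₀)
    (hU : UnipTwoGlobal M) (hMC : ∀ x : M, Nat.card C • x = 0)
    (j : C → Qb) (j_add : ∀ c c', j (c + c') = j c * j c') (j_zero : j 0 = 1)
    (j_smul : ∀ (σ : GQ) c, j (σ • c) = σ (j c)) (j_inj : Function.Injective j)
    (hC : ∀ q : ℕ, q.Prime → q ≠ 2 → q ≠ p → ∀ A : ValuationSubring Qb, A.LiesOverPrime q →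
      ∀ σ ∈ A.inertiaSubgroupIn ℚ, ∀ c : C, σ • c = c) :
    (markedFamily 2 k p).Ok (M × Dual M C) (prodMark C M₀) := by
  obtain ⟨D₀, hOkD, hcount, hann⟩ := exists_dualMark hOk hU j j_add j_zero j_smul j_inj hC
  have hD : D₀ = Dual.ann C M₀ := eq_ann_of_card_le C hMC M₀ D₀ hann hcount
  subst hD
  exact hOkD

/-- **the same on the `ker π`-primary part** (the sixth conjunct of
`PTExpInstM90.ToricLevelInputM'`, with `M₀ := primaryMark (ker π) M₀`). -/
theorem ok_prodMark_primary {T : Type*} [CommRing T] [Module T M] [SMulCommClass GQ T M]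
    [Finite M] {π : T →+* ZMod 2} {χ : GQ →* ZMod 2} {τ δ : GQ → T}
    (htau : ∀ g, π (τ g) = 1 + χ g) (hdelta : ∀ g, π (δ g) = χ g)
    (hrel : ∀ (g : GQ) (x : M), g • g • x - τ g • g • x + δ g • x = 0)
    {M₀ : AddSubgroup M} (hOk : (markedFamily 2 k p).Ok M M₀)
    (hMC : ∀ x : primaryPart (RingHom.ker π) M, Nat.card C • x = 0)
    (j : C → Qb) (j_add : ∀ c c', j (c + c') = j c * j c') (j_zero : j 0 = 1)
    (j_smul : ∀ (σ : GQ) c, j (σ • c) = σ (j c)) (j_inj : Function.Injective j)
    (hC : ∀ q : ℕ, q.Prime → q ≠ 2 → q ≠ p → ∀ A : ValuationSubring Qb, A.LiesOverPrime q →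
      ∀ σ ∈ A.inertiaSubgroupIn ℚ, ∀ c : C, σ • c = c) :
    (markedFamily 2 k p).Ok
      (primaryPart (RingHom.ker π) M × Dual (primaryPart (RingHom.ker π) M) C)
      (prodMark C (primaryMark (RingHom.ker π) M₀)) := by
  obtain ⟨D₀, hOkD, hcount, hann⟩ :=
    exists_dualMark_primary htau hdelta hrel hOk j j_add j_zero j_smul j_inj hC
  have hD : D₀ = Dual.ann C (primaryMark (RingHom.ker π) M₀) :=
    eq_ann_of_card_le C hMC (primaryMark (RingHom.ker π) M₀) D₀ hann hcount
  subst hD
  exact hOkD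

end Fermat.Agent.MAZ.Desc.CartierProdMark68
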