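/-
Programme MAZ (S15), chapter `r = 2` (P3), CARTIER WITH MARKS at `J₀(p)[2^k]`, `prodMark` form
(helper68) = the sixth conjunct of `PTExpInstM90.ToricLevelInputM'` at `r = 2`, DISCHARGED.

At `M := ↥(Mk p 2 k)` (instances `dmaMk`, `modMk`), `C := Mu (2 ^ k)`, `F := markedFamily 2 k p`:
from `OkModM 2 k p ↥(Mk p 2 k) M₀` (S19 at `2` + K-UNR + the mark) and the Eichler–Shimura relation
on `J₀(p)[2^k]`,

* `card_mu_nsmul_primary` : `∀ x : M_P, Nat.card (Mu (2^k)) • x = 0` (the conjunct `hMC`);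
* `ok_prodMark_level` : `F.Ok (M_P × Dual M_P (Mu (2^k))) (prodMark (Mu (2^k)) (primaryMark (ker π) M₀))`;
* `exists_prodMark_level` : the literal sixth conjunct `∃ M₀', F.Ok (M_P × Dual M_P C) (prodMark C M₀')`.
-/
import Mathlib
import Fermat.Agent.MAZ.Desc.CartierProdMark68
import Fermat.Agent.MAZ.Desc.KummerInstDual26

set_option autoImplicit false
set_option linter.unusedSectionVars false
set_option linter.unusedVariables false
set_option linter.style.haveILetI false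

open AlgebraicCurve ModularCurve

noncomputable section

namespace Fermat.Agent.MAZ.Desc.CartierProdMarkLevel68

open Fermat.Agent.X0 Fermat.Agent.MAZ.Spec.XSpec62 Fermat.Agent.MAZ.Spec.GSpec26
open Fermat.Agent.MAZ.Desc.SelmerCone95 Fermat.Agent.MAZ.Desc.Devissage95
  Fermat.Agent.MAZ.Desc.PrimaryPart19 Fermat.Agent.MAZ.Desc.ConePrimary95
  Fermat.Agent.MAZ.Desc.EisFiltration19 Fermat.Agent.MAZ.Desc.DualModule2
  Fermat.Agent.MAZ.Desc.KummerInst26 Fermat.Agent.MAZ.Desc.MuModule11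
  Fermat.Agent.MAZ.Desc.DevissageMarked95 Fermat.Agent.MAZ.Desc.DualDevissageMarked95
  Fermat.Agent.MAZ.Desc.DescentAsmMarked95 Fermat.Agent.MAZ.Desc.MarkedAdm19
  Fermat.Agent.MAZ.Desc.FlatAdm68 Fermat.Agent.MAZ.Desc.CartierProdMark68
open Fermat.Agent.MAZ.Desc.KummerInstDual26 (mu_inertia)

local notation "Qb" => AlgebraicClosure ℚ

variable {p : ℕ} [NeZero p] {T : Type} [CommRing T] [Module T (JZero p)]

attribute [local instance] dmaMk modMk primaryDMA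

/-- `μ_{2^k}` kills the primary part of `J₀(p)[2^k]` (the conjunct `hMC`). -/
theorem card_mu_nsmul_primary (k : ℕ) (π : T →+* ZMod 2)
    (x : ↥(primaryPart (RingHom.ker π) ↥(Mk p 2 k))) : Nat.card (Mu (2 ^ k)) • x = 0 := by
  haveI : NeZero (2 ^ k) := ⟨pow_ne_zero k two_ne_zero⟩
  rw [Mu.card_mu]
  apply Subtype.ext
  rw [AddSubmonoidClass.coe_nsmul]
  exact nsmul_Mk_eq_zero 2 k (x : ↥(Mk p 2 k))

/-- **CARTIER WITH MARKS at `J₀(p)[2^k]_P`, `prodMark` form.** -/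
theorem ok_prodMark_level (hT : HeckeModel p T) {k : ℕ} (π : T →+* ZMod 2)
    {χ : GQ →* ZMod 2} {τ δ : GQ → T}
    (htau : ∀ g, π (τ g) = 1 + χ g) (hdelta : ∀ g, π (δ g) = χ g)
    (hrel : ∀ (g : GQ) (x : JZero p), (2 ^ k) • x = 0 → g • g • x - τ g • g • x + δ g • x = 0)
    {M₀ : AddSubgroup ↥(Mk p 2 k)} (hOk : OkModM 2 k p ↥(Mk p 2 k) M₀) :
    haveI := smulComm_Mk 2 k hT
    (markedFamily 2 k p).Ok
      (↥(primaryPart (RingHom.ker π) ↥(Mk p 2 k)) ×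
        Dual ↥(primaryPart (RingHom.ker π) ↥(Mk p 2 k)) (Mu (2 ^ k)))
      (prodMark (Mu (2 ^ k)) (primaryMark (RingHom.ker π) M₀)) := by
  haveI := smulComm_Mk 2 k hT
  haveI : NeZero (2 ^ k) := ⟨pow_ne_zero k two_ne_zero⟩
  haveI : Finite ↥(Mk p 2 k) := hOk.ok.finite
  exact ok_prodMark_primary (C := Mu (2 ^ k)) htau hdelta
    (fun g x => Subtype.ext (hrel g (x : JZero p) ((mem_Mk_iff 2 k).1 x.2))) hOk
    (card_mu_nsmul_primary k π) Mu.val Mu.val_add Mu.val_zero Mu.val_smul Mu.val_injective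
    (fun q hq hqr _ B hB σ hσ c => mu_inertia k hq hqr B hB σ hσ c)

/-- **the sixth conjunct of `PTExpInstM90.ToricLevelInputM'` at `r = 2`** (literal shape). -/
theorem exists_prodMark_level (hT : HeckeModel p T) {k : ℕ} (π : T →+* ZMod 2)
    {χ : GQ →* ZMod 2} {τ δ : GQ → T}
    (htau : ∀ g, π (τ g) = 1 + χ g) (hdelta : ∀ g, π (δ g) = χ g)
    (hrel : ∀ (g : GQ) (x : JZero p), (2 ^ k) • x = 0 → g • g • x - τ g • g • x + δ g • x = 0)
    {M₀ : AddSubgroup ↥(Mk p 2 k)} (hOk : OkModM 2 k p ↥(Mk p 2 k) M₀) :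
    haveI := smulComm_Mk 2 k hT
    ∃ M₀' : AddSubgroup ↥(primaryPart (RingHom.ker π) ↥(Mk p 2 k)),
      (markedFamily 2 k p).Ok
        (↥(primaryPart (RingHom.ker π) ↥(Mk p 2 k)) ×
          Dual ↥(primaryPart (RingHom.ker π) ↥(Mk p 2 k)) (Mu (2 ^ k)))
        (prodMark (Mu (2 ^ k)) M₀') :=
  ⟨_, ok_prodMark_level hT π htau hdelta hrel hOk⟩

end Fermat.Agent.MAZ.Desc.CartierProdMarkLevel68
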