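/-
Program MAZ (S15), G-side, helper80: brick (CJ-C) of the complex-conjugation route to α-HALF
(helper86 #2114, helper62 #2108): Mathlib-only algebra.

`T` a commutative ring acting on two finite free `ℤ`-modules `L₁`, `L₂` such that every `t : T` has the
same characteristic polynomial on `L₁` and on `L₂`.  Then for every prime `r`, every `k` and every
ideal `P` of `T` the `P`-primary parts of `L₁ / r^k` and `L₂ / r^k` have the same number of elements
(`card_primaryPart_eq_of_charpoly`).

Proof: (S3) `primaryPart P` is exact on finite modules (`card_primaryPart_of_exact`) and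
`0 → L/r^j → L/r^(j+1) → L/r → 0`, so `#prim(L/r^k) = #prim(L/r)^k` (`card_primaryPart_quot_pow`);
(S4) on `V_i = L_i / r` a `P`-projector `e ∈ T` of `V₁ × V₂` cuts out `prim(V_i) = {x | e x = x}`; on
`ZMod r ⊗ L_i` the base change of `e` is an idempotent whose characteristic polynomial is that of
`e` on `L_i` modulo `r`, so its fixed space has dimension `rootMultiplicity 1`, the same for `i = 1, 2`
(`card_fixed_eq`).
-/
import Mathlib
import Fermat.Agent.MAZ.Desc.PrimaryPart19

set_option autoImplicit false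
set_option linter.unusedSectionVars false
set_option linter.style.haveILetI false

noncomputable section

namespace Fermat.Agent.MAZ.Desc.CharpolyPrimary80

open Fermat.Agent.MAZ.Desc.PrimaryPart19

universe u v w

variable {T : Type u} [CommRing T] (P : Ideal T)

/-! ### Exactness of the primary part on finite modules -/

/-- For a short exact sequence `0 → A → B → C → 0` of `T`-modules with `B` finite:
`#prim B = #prim A · #prim C`. -/
theorem card_primaryPart_of_exact {A : Type*} {B : Type*} {C : Type*} [AddCommGroup A] [Module T A]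
    [AddCommGroup B] [Module T B] [AddCommGroup C] [Module T C] [Finite B]
    (ι : A →ₗ[T] B) (π : B →ₗ[T] C) (hι : Function.Injective ι) (hπ : Function.Surjective π)
    (hex : ∀ b, π b = 0 ↔ ∃ a, ι a = b) :
    Nat.card (primaryPart P B) = Nat.card (primaryPart P A) * Nat.card (primaryPart P C) := by
  -- the restricted map
  let π' : primaryPart P B →ₗ[T] primaryPart P C :=
    π.restrict (fun x hx => map_mem_primaryPart π hx)
  have hπ' : Function.Surjective π' := by
    rintro ⟨y, hy⟩
    obtain ⟨x, hx, hxy⟩ := primaryPart_surjective π hπ hy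
    exact ⟨⟨x, hx⟩, Subtype.ext hxy⟩
  -- the kernel is the primary part of `A`
  have hker : Nat.card (LinearMap.ker π') = Nat.card (primaryPart P A) := by
    symm
    refine Nat.card_congr (Equiv.ofBijective
      (fun a : primaryPart P A => (⟨⟨ι a.1, map_mem_primaryPart ι a.2⟩, by
        rw [LinearMap.mem_ker]
        apply Subtype.ext
        change π (ι a.1) = 0
        exact (hex _).2 ⟨a.1, rfl⟩⟩ : LinearMap.ker π')) ⟨?_, ?_⟩)
    · intro a a' h
      apply Subtype.ext
      apply hι
      exact congrArg (fun z : LinearMap.ker π' => ((z : primaryPart P B) : B)) h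
    · rintro ⟨⟨b, hb⟩, hb0⟩
      have hb0' : π b = 0 := by
        have := LinearMap.mem_ker.1 hb0
        exact congrArg Subtype.val this
      obtain ⟨a, rfl⟩ := (hex b).1 hb0'
      have ha : a ∈ primaryPart P A := by
        obtain ⟨j, hj⟩ := hb
        refine ⟨j, fun t ht => hι ?_⟩
        rw [map_smul, hj t ht, map_zero]
      exact ⟨⟨a, ha⟩, rfl⟩
  rw [Submodule.card_eq_card_quotient_mul_card (LinearMap.ker π'), hker,
    Nat.card_congr (π'.quotKerEquivOfSurjective hπ').toEquiv]

/-! ### The quotients `L / n L` -/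

section Quot

variable (L : Type v) [AddCommGroup L] [Module T L]

/-- `n L` as a `T`-submodule. -/
def nsub (n : ℕ) : Submodule T L where
  carrier := {x | ∃ y, x = n • y}
  zero_mem' := ⟨0, (smul_zero n).symm⟩
  add_mem' := by
    rintro _ _ ⟨y, rfl⟩ ⟨y', rfl⟩
    exact ⟨y + y', (smul_add n y y').symm⟩
  smul_mem' := by
    rintro t _ ⟨y, rfl⟩
    exact ⟨t • y, smul_comm t n y⟩

variable {L}

theorem mem_nsub {n : ℕ} {x : L} : x ∈ nsub (T := T) L n ↔ ∃ y, x = n • y := Iff.rfl

variable (T L) in
/-- `L / n L` is finite for `n > 0`, `L` finitely generated. -/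
theorem finite_quot_nsub [Module.Finite ℤ L] {n : ℕ} (hn : 0 < n) :
    Finite (L ⧸ nsub (T := T) L n) := by
  let q : L →ₗ[ℤ] (L ⧸ nsub (T := T) L n) := ((nsub (T := T) L n).mkQ).toAddMonoidHom.toIntLinearMap
  have hq : Function.Surjective q := (nsub (T := T) L n).mkQ_surjective
  haveI : Module.Finite ℤ (L ⧸ nsub (T := T) L n) := Module.Finite.of_surjective q hq
  apply Module.finite_of_fg_torsion
  intro x
  obtain ⟨y, rfl⟩ := (nsub (T := T) L n).mkQ_surjective x
  refine ⟨⟨(n : ℤ), ?_⟩, ?_⟩
  · rw [mem_nonZeroDivisors_iff_ne_zero]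
    exact_mod_cast hn.ne'
  · change (n : ℤ) • (nsub (T := T) L n).mkQ y = 0
    rw [natCast_zsmul, ← map_nsmul, Submodule.mkQ_apply, Submodule.Quotient.mk_eq_zero]
    exact ⟨y, rfl⟩

/-- `#prim(L / r^k) = #prim(L / r)^k` for a finitely generated torsion-free `L`. -/
theorem card_primaryPart_quot_pow [Module.Finite ℤ L] (htf : ∀ (n : ℕ) (x : L), 0 < n → n • x = 0 → x = 0)
    {r : ℕ} (hr : 0 < r) (k : ℕ) :
    Nat.card (primaryPart P (L ⧸ nsub (T := T) L (r ^ k))) =
      Nat.card (primaryPart P (L ⧸ nsub (T := T) L r)) ^ k := by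
  induction k with
  | zero =>
    rw [pow_zero, pow_zero]
    haveI : Subsingleton (L ⧸ nsub (T := T) L 1) := by
      refine ⟨fun a b => ?_⟩
      obtain ⟨x, rfl⟩ := Submodule.Quotient.mk_surjective _ a
      obtain ⟨y, rfl⟩ := Submodule.Quotient.mk_surjective _ b
      rw [Submodule.Quotient.eq]
      exact ⟨x - y, (one_smul ℕ _).symm⟩
    exact Nat.card_unique
  | succ j ih =>
    haveI : Finite (L ⧸ nsub (T := T) L (r ^ (j + 1))) := finite_quot_nsub T L (pow_pos hr _)
    -- multiplication by `r`
    let μ : L →ₗ[T] L := (r : T) • LinearMap.id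
    have hμ : ∀ x : L, μ x = r • x := fun x => by
      change (r : T) • x = r • x
      exact Nat.cast_smul_eq_nsmul T r x
    let ι : (L ⧸ nsub (T := T) L (r ^ j)) →ₗ[T] (L ⧸ nsub (T := T) L (r ^ (j + 1))) :=
      Submodule.mapQ _ _ μ (by
        rintro _ ⟨y, rfl⟩
        rw [Submodule.mem_comap, hμ]
        exact ⟨y, by rw [pow_succ, mul_comm, mul_smul]⟩)
    let π : (L ⧸ nsub (T := T) L (r ^ (j + 1))) →ₗ[T] (L ⧸ nsub (T := T) L r) :=
      Submodule.mapQ _ _ LinearMap.id (by
        rintro _ ⟨y, rfl⟩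
        rw [Submodule.mem_comap, LinearMap.id_apply]
        exact ⟨r ^ j • y, by rw [pow_succ, mul_comm, mul_smul]⟩)
    have hιmk : ∀ x : L, ι (Submodule.Quotient.mk x) = Submodule.Quotient.mk (r • x) := fun x => by
      change Submodule.Quotient.mk (μ x) = _
      rw [hμ]
    have hπmk : ∀ x : L, π (Submodule.Quotient.mk x) = Submodule.Quotient.mk x := fun x => rfl
    have hι : Function.Injective ι := by
      rw [injective_iff_map_eq_zero]
      intro a ha
      obtain ⟨x, rfl⟩ := Submodule.Quotient.mk_surjective _ a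
      rw [hιmk, Submodule.Quotient.mk_eq_zero] at ha
      obtain ⟨y, hy⟩ := ha
      rw [Submodule.Quotient.mk_eq_zero]
      refine ⟨y, ?_⟩
      have h0 : r • (x - r ^ j • y) = 0 := by
        rw [smul_sub, hy, pow_succ, mul_comm, mul_smul, sub_self]
      exact sub_eq_zero.1 (htf r _ hr h0)
    have hπ : Function.Surjective π := by
      intro c
      obtain ⟨x, rfl⟩ := Submodule.Quotient.mk_surjective _ c
      exact ⟨Submodule.Quotient.mk x, rfl⟩
    have hex : ∀ b, π b = 0 ↔ ∃ a, ι a = b := by
      intro b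
      obtain ⟨x, rfl⟩ := Submodule.Quotient.mk_surjective _ b
      rw [hπmk, Submodule.Quotient.mk_eq_zero]
      constructor
      · rintro ⟨y, rfl⟩
        exact ⟨Submodule.Quotient.mk y, hιmk y⟩
      · rintro ⟨a, ha⟩
        obtain ⟨y, rfl⟩ := Submodule.Quotient.mk_surjective _ a
        rw [hιmk, Submodule.Quotient.eq] at ha
        obtain ⟨z, hz⟩ := ha
        refine ⟨y - r ^ j • z, ?_⟩
        rw [smul_sub, ← mul_smul, ← pow_succ', ← hz]
        abel
    rw [card_primaryPart_of_exact P ι π hι hπ hex, ih, pow_succ]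

end Quot


/-! ### Fixed points of an endomorphism which is idempotent modulo `r` -/

section Fixed

open TensorProduct Polynomial

variable {L : Type v} [AddCommGroup L] [Module.Free ℤ L] [Module.Finite ℤ L]

/-- The reduction map `L → ZMod r ⊗ L`. -/
def red (r : ℕ) (L : Type v) [AddCommGroup L] : L →+ (ZMod r ⊗[ℤ] L) :=
  (TensorProduct.mk ℤ (ZMod r) L 1).toAddMonoidHom

theorem red_apply (r : ℕ) (x : L) : red r L x = (1 : ZMod r) ⊗ₜ[ℤ] x := rfl

theorem red_surjective (r : ℕ) : Function.Surjective (red r L) := by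
  intro w
  induction w using TensorProduct.induction_on with
  | zero => exact ⟨0, map_zero _⟩
  | tmul c x =>
    obtain ⟨n, rfl⟩ := ZMod.intCast_surjective c
    refine ⟨n • x, ?_⟩
    rw [red_apply, TensorProduct.tmul_smul, TensorProduct.smul_tmul', zsmul_eq_mul, mul_one]
  | add a b ha hb =>
    obtain ⟨x, rfl⟩ := ha
    obtain ⟨y, rfl⟩ := hb
    exact ⟨x + y, map_add _ _ _⟩

theorem red_eq_zero_iff (r : ℕ) (x : L) : red r L x = 0 ↔ ∃ y : L, x = r • y := by
  constructor
  · intro h
    let b := Module.Free.chooseBasis ℤ L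
    have hc : ∀ i, ((b.repr x i : ℤ) : ZMod r) = 0 := by
      intro i
      have h1 := congrArg (fun w => (b.baseChange (ZMod r)).repr w i) h
      simp only [red_apply, Module.Basis.baseChange_repr_tmul, map_zero, Finsupp.zero_apply] at h1
      simpa using h1
    have hdvd : ∀ i, (r : ℤ) ∣ b.repr x i := fun i =>
      (ZMod.intCast_zmod_eq_zero_iff_dvd _ _).1 (hc i)
    choose c hc' using hdvd
    refine ⟨∑ i, c i • b i, ?_⟩
    rw [Finset.smul_sum]
    conv_lhs => rw [← b.sum_repr x]
    refine Finset.sum_congr rfl fun i _ => ?_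
    rw [hc' i, mul_smul, natCast_zsmul]
  · rintro ⟨y, rfl⟩
    rw [red_apply, ← natCast_zsmul, TensorProduct.tmul_smul, TensorProduct.smul_tmul',
      zsmul_eq_mul, mul_one, Int.cast_natCast, ZMod.natCast_self, TensorProduct.zero_tmul]


/-- For an idempotent endomorphism of a finite dimensional vector space over `ZMod r`, the number of
fixed points is `r ^ rootMultiplicity 1 charpoly`. -/
theorem card_fixed_of_idempotent (r : ℕ) [Fact r.Prime] {W : Type*} [AddCommGroup W]
    [Module (ZMod r) W] [Module.Finite (ZMod r) W] (F : Module.End (ZMod r) W)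
    (hF : ∀ w, F (F w) = F w) :
    Nat.card {w : W | F w = w} = r ^ (F.charpoly.rootMultiplicity 1) := by
  haveI : Finite W := Module.finite_of_finite (ZMod r)
  -- the fixed space is the eigenspace, which is the maximal generalised eigenspace
  have hmax : F.maxGenEigenspace 1 = F.eigenspace 1 := by
    apply le_antisymm
    · intro m hm
      rw [Module.End.mem_maxGenEigenspace] at hm
      obtain ⟨k, hk⟩ := hm
      rw [Module.End.mem_eigenspace_iff, one_smul]
      have hG : ∀ x : W, (F - (1 : ZMod r) • (1 : Module.End (ZMod r) W))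
          ((F - (1 : ZMod r) • (1 : Module.End (ZMod r) W)) x) =
          -((F - (1 : ZMod r) • (1 : Module.End (ZMod r) W)) x) := by
        intro x
        simp only [one_smul, LinearMap.sub_apply, Module.End.one_apply, map_sub, hF]
        abel
      have key : ∀ (k : ℕ) (x : W),
          ((F - (1 : ZMod r) • (1 : Module.End (ZMod r) W)) ^ k) x = 0 →
          (F - (1 : ZMod r) • (1 : Module.End (ZMod r) W)) x = 0 := by
        intro k
        induction k with
        | zero =>
          intro x hx
          rw [pow_zero, Module.End.one_apply] at hx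
          rw [hx, map_zero]
        | succ j ih =>
          intro x hx
          rw [pow_succ, Module.End.mul_apply] at hx
          have h1 := ih _ hx
          rw [hG, neg_eq_zero] at h1
          exact h1
      have h2 := key k m hk
      simp only [one_smul, LinearMap.sub_apply, Module.End.one_apply] at h2
      exact sub_eq_zero.1 h2
    · exact Module.End.eigenspace_le_maxGenEigenspace
  have hset : {w : W | F w = w} = (F.eigenspace 1 : Set W) := by
    ext w
    rw [Set.mem_ofPred_eq, SetLike.mem_coe, Module.End.mem_eigenspace_iff, one_smul]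
  rw [hset]
  haveI : Fintype (F.eigenspace 1) := Fintype.ofFinite _
  change Nat.card (F.eigenspace 1) = _
  rw [Nat.card_eq_fintype_card, Module.card_eq_pow_finrank (K := ZMod r), ZMod.card, ← hmax,
    LinearMap.finrank_maxGenEigenspace_eq]


/-- **Core count.** `E` an endomorphism of the finite free `ℤ`-module `L`, idempotent modulo `r`;
`V` any model of `L / r L` with the induced map `ε`.  Then `#{v | ε v = v} = r ^ m`, `m` the
multiplicity of the root `1` of the characteristic polynomial of `E` modulo `r`. -/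
theorem card_fixed (r : ℕ) [Fact r.Prime] (E : L →ₗ[ℤ] L)
    (hE : ∀ x, ∃ y, E (E x) - E x = r • y)
    {V : Type*} [AddCommGroup V] (q : L →+ V) (hq : Function.Surjective q)
    (hker : ∀ x, q x = 0 ↔ ∃ y, x = r • y) (ε : V → V) (hε : ∀ x, ε (q x) = q (E x)) :
    Nat.card {v : V | ε v = v} =
      r ^ ((E.charpoly.map (Int.castRingHom (ZMod r))).rootMultiplicity 1) := by
  let F : Module.End (ZMod r) (ZMod r ⊗[ℤ] L) := E.baseChange (ZMod r)
  have hFred : ∀ x : L, F (red r L x) = red r L (E x) := fun x => by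
    rw [red_apply, red_apply]
    exact LinearMap.baseChange_tmul _ _ _
  have hF : ∀ w, F (F w) = F w := by
    intro w
    obtain ⟨x, rfl⟩ := red_surjective (L := L) r w
    rw [hFred, hFred]
    obtain ⟨y, hy⟩ := hE x
    have h0 : red r L (E (E x) - E x) = 0 := (red_eq_zero_iff r _).2 ⟨y, hy⟩
    rw [map_sub, sub_eq_zero] at h0
    exact h0
  -- the comparison map
  let φ : V → ZMod r ⊗[ℤ] L := fun v => red r L (Function.surjInv hq v)
  have hφ : ∀ x : L, φ (q x) = red r L x := by
    intro x
    have h1 : q (Function.surjInv hq (q x) - x) = 0 := by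
      rw [map_sub, Function.surjInv_eq hq, sub_self]
    have h2 := (red_eq_zero_iff r _).2 ((hker _).1 h1)
    rw [map_sub, sub_eq_zero] at h2
    exact h2
  have hφinj : Function.Injective φ := by
    intro v v' h
    obtain ⟨x, rfl⟩ := hq v
    obtain ⟨x', rfl⟩ := hq v'
    rw [hφ, hφ] at h
    have h1 : red r L (x - x') = 0 := by rw [map_sub, h, sub_self]
    have h2 := (hker _).2 ((red_eq_zero_iff r _).1 h1)
    rw [map_sub, sub_eq_zero] at h2
    exact h2
  have hφsurj : Function.Surjective φ := by
    intro w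
    obtain ⟨x, rfl⟩ := red_surjective (L := L) r w
    exact ⟨q x, hφ x⟩
  have hφε : ∀ v, φ (ε v) = F (φ v) := by
    intro v
    obtain ⟨x, rfl⟩ := hq v
    rw [hε, hφ, hφ, hFred]
  have hcard : Nat.card {v : V | ε v = v} = Nat.card {w : ZMod r ⊗[ℤ] L | F w = w} := by
    refine Nat.card_congr ((Equiv.ofBijective φ ⟨hφinj, hφsurj⟩).subtypeEquiv ?_)
    intro v
    change ε v = v ↔ F (φ v) = φ v
    rw [← hφε]
    exact ⟨fun h => by rw [h], fun h => hφinj h⟩
  rw [hcard, card_fixed_of_idempotent r F hF]
  congr 1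
  change (LinearMap.charpoly (E.baseChange (ZMod r))).rootMultiplicity 1 = _
  rw [LinearMap.charpoly_baseChange]
  rfl

end Fixed

/-! ### The main theorem -/

section Main

/-- The `ℤ`-linear endomorphism `x ↦ t • x`. -/
def smulZ (L : Type*) [AddCommGroup L] [Module T L] (t : T) : L →ₗ[ℤ] L :=
  (DistribSMul.toAddMonoidHom L t).toIntLinearMap

@[simp] theorem smulZ_apply {L : Type*} [AddCommGroup L] [Module T L] (t : T) (x : L) :
    smulZ L t x = t • x := rfl

/-- Linear equivalences preserve the cardinality of the primary part. -/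
theorem card_primaryPart_congr {M M' : Type*} [AddCommGroup M] [Module T M] [AddCommGroup M']
    [Module T M'] (f : M ≃ₗ[T] M') :
    Nat.card (primaryPart P M) = Nat.card (primaryPart P M') := by
  refine Nat.card_congr
    { toFun := fun x => ⟨f x.1, map_mem_primaryPart f.toLinearMap x.2⟩
      invFun := fun y => ⟨f.symm y.1, map_mem_primaryPart f.symm.toLinearMap y.2⟩
      left_inv := fun x => Subtype.ext (f.symm_apply_apply x.1)
      right_inv := fun y => Subtype.ext (f.apply_symm_apply y.1) }

variable {L₁ : Type v} [AddCommGroup L₁] [Module T L₁] [Module.Free ℤ L₁] [Module.Finite ℤ L₁]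
variable {L₂ : Type w} [AddCommGroup L₂] [Module T L₂] [Module.Free ℤ L₂] [Module.Finite ℤ L₂]

/-- The count of the primary part of `L / r` through a projector. -/
theorem card_primaryPart_quot_prime {L : Type*} [AddCommGroup L] [Module T L] [Module.Free ℤ L]
    [Module.Finite ℤ L] (r : ℕ) [Fact r.Prime] (e : T)
    (he : IsProj P e (L ⧸ nsub (T := T) L r)) :
    Nat.card (primaryPart P (L ⧸ nsub (T := T) L r)) =
      r ^ (((smulZ L e).charpoly.map (Int.castRingHom (ZMod r))).rootMultiplicity 1) := by
  have h1 : Nat.card (primaryPart P (L ⧸ nsub (T := T) L r)) =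
      Nat.card {v : L ⧸ nsub (T := T) L r | e • v = v} := by
    refine Nat.card_congr (Equiv.subtypeEquivRight fun v => ?_)
    constructor
    · intro hv
      exact he.smul_eq hv
    · intro hv
      have := he.smul_mem v
      rwa [hv] at this
  rw [h1]
  refine card_fixed r (smulZ L e) ?_ ((nsub (T := T) L r).mkQ.toAddMonoidHom)
    (nsub (T := T) L r).mkQ_surjective ?_ (fun v => e • v) (fun x => rfl)
  · intro x
    have h2 : e • (e • (Submodule.Quotient.mk x : L ⧸ nsub (T := T) L r)) =
        e • (Submodule.Quotient.mk x : L ⧸ nsub (T := T) L r) := he.smul_eq (he.smul_mem _)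
    have h3 : (Submodule.Quotient.mk (e • (e • x) - e • x) : L ⧸ nsub (T := T) L r) = 0 := by
      rw [Submodule.Quotient.mk_sub, Submodule.Quotient.mk_smul, Submodule.Quotient.mk_smul, h2,
        sub_self]
    rw [Submodule.Quotient.mk_eq_zero] at h3
    exact h3
  · intro x
    change (Submodule.Quotient.mk x : L ⧸ nsub (T := T) L r) = 0 ↔ _
    rw [Submodule.Quotient.mk_eq_zero]
    exact Iff.rfl

/-- (S4): the primary parts of `L₁ / r` and `L₂ / r` have the same cardinality. -/
theorem card_primaryPart_quot_prime_eq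
    (hchar : ∀ t : T, (smulZ L₁ t).charpoly = (smulZ L₂ t).charpoly) (r : ℕ) [hr : Fact r.Prime] :
    Nat.card (primaryPart P (L₁ ⧸ nsub (T := T) L₁ r)) =
      Nat.card (primaryPart P (L₂ ⧸ nsub (T := T) L₂ r)) := by
  haveI : Finite (L₁ ⧸ nsub (T := T) L₁ r) := finite_quot_nsub T L₁ hr.out.pos
  haveI : Finite (L₂ ⧸ nsub (T := T) L₂ r) := finite_quot_nsub T L₂ hr.out.pos
  obtain ⟨e, he⟩ := exists_isProj P ((L₁ ⧸ nsub (T := T) L₁ r) × (L₂ ⧸ nsub (T := T) L₂ r))
  have he₁ : IsProj P e (L₁ ⧸ nsub (T := T) L₁ r) :=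
    he.of_injective (LinearMap.inl T _ _) LinearMap.inl_injective
  have he₂ : IsProj P e (L₂ ⧸ nsub (T := T) L₂ r) :=
    he.of_injective (LinearMap.inr T _ _) LinearMap.inr_injective
  rw [card_primaryPart_quot_prime P r e he₁, card_primaryPart_quot_prime P r e he₂, hchar e]

/-- Free `ℤ`-modules are torsion free (in the `ℕ`-form used above). -/
theorem nsmul_eq_zero_of_free {L : Type*} [AddCommGroup L] [Module.Free ℤ L] (n : ℕ) (x : L)
    (hn : 0 < n) (h : n • x = 0) : x = 0 := by
  let b := Module.Free.chooseBasis ℤ L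
  apply b.repr.injective
  rw [map_zero]
  ext i
  have h1 := congrArg (fun z => b.repr z i) h
  simp only [map_nsmul, Finsupp.smul_apply, map_zero, Finsupp.zero_apply, nsmul_eq_mul] at h1
  rcases mul_eq_zero.1 h1 with h2 | h2
  · exact absurd (by exact_mod_cast h2) hn.ne'
  · simpa using h2

/-- **(CJ-C)** equal characteristic polynomials on `L₁`, `L₂` give equinumerous `P`-primary parts of
`L₁ / r^k` and `L₂ / r^k` (canonical quotients). -/
theorem card_primaryPart_quot_eq
    (hchar : ∀ t : T, (smulZ L₁ t).charpoly = (smulZ L₂ t).charpoly) {r : ℕ} (hr : r.Prime)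
    (k : ℕ) :
    Nat.card (primaryPart P (L₁ ⧸ nsub (T := T) L₁ (r ^ k))) =
      Nat.card (primaryPart P (L₂ ⧸ nsub (T := T) L₂ (r ^ k))) := by
  haveI : Fact r.Prime := ⟨hr⟩
  rw [card_primaryPart_quot_pow P nsmul_eq_zero_of_free hr.pos k,
    card_primaryPart_quot_pow P nsmul_eq_zero_of_free hr.pos k,
    card_primaryPart_quot_prime_eq P hchar r]

/-- **(CJ-C), presentation form**: `M_i` ANY `T`-module presented as `L_i / r^k L_i`. -/
theorem card_primaryPart_eq_of_charpoly
    (hchar : ∀ t : T, (smulZ L₁ t).charpoly = (smulZ L₂ t).charpoly) {r : ℕ} (hr : r.Prime)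
    (k : ℕ) {M₁ : Type*} {M₂ : Type*} [AddCommGroup M₁] [Module T M₁] [AddCommGroup M₂]
    [Module T M₂] (q₁ : L₁ →ₗ[T] M₁) (hq₁ : Function.Surjective q₁)
    (hk₁ : ∀ x, q₁ x = 0 ↔ ∃ y, x = (r ^ k) • y)
    (q₂ : L₂ →ₗ[T] M₂) (hq₂ : Function.Surjective q₂)
    (hk₂ : ∀ x, q₂ x = 0 ↔ ∃ y, x = (r ^ k) • y) :
    Nat.card (primaryPart P M₁) = Nat.card (primaryPart P M₂) := by
  have e₁ : LinearMap.ker q₁ = nsub (T := T) L₁ (r ^ k) := by
    ext x
    rw [LinearMap.mem_ker, hk₁, mem_nsub]
  have e₂ : LinearMap.ker q₂ = nsub (T := T) L₂ (r ^ k) := by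
    ext x
    rw [LinearMap.mem_ker, hk₂, mem_nsub]
  rw [card_primaryPart_congr P
      ((q₁.quotKerEquivOfSurjective hq₁).symm.trans (Submodule.quotEquivOfEq _ _ e₁)),
    card_primaryPart_congr P
      ((q₂.quotKerEquivOfSurjective hq₂).symm.trans (Submodule.quotEquivOfEq _ _ e₂))]
  exact card_primaryPart_quot_eq P hchar hr k


open scoped Pointwise in
/-- membership in `span {(n : T)} • ⊤`. -/
theorem mem_span_natCast_smul_top_iff {L : Type*} [AddCommGroup L] [Module T L] (n : ℕ) (x : L) :
    x ∈ (Ideal.span {(n : T)} • ⊤ : Submodule T L) ↔ ∃ y : L, x = n • y := by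
  rw [Submodule.ideal_span_singleton_smul, Submodule.mem_smul_pointwise_iff_exists]
  constructor
  · rintro ⟨y, -, rfl⟩
    exact ⟨y, Nat.cast_smul_eq_nsmul T n y⟩
  · rintro ⟨y, rfl⟩
    exact ⟨y, Submodule.mem_top, Nat.cast_smul_eq_nsmul T n y⟩

/-- **(CJ-C)** for the quotients `L_i ⧸ (Ideal.span {(r : T) ^ k} • ⊤)` (the shape of `GSpec26.EisBound`). -/
theorem card_primaryPart_quot_span_eq
    (hchar : ∀ t : T, (smulZ L₁ t).charpoly = (smulZ L₂ t).charpoly) {r : ℕ} (hr : r.Prime)
    (k : ℕ) :
    Nat.card (primaryPart P (L₁ ⧸ (Ideal.span {(r : T) ^ k} • ⊤ : Submodule T L₁))) =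
      Nat.card (primaryPart P (L₂ ⧸ (Ideal.span {(r : T) ^ k} • ⊤ : Submodule T L₂))) := by
  refine card_primaryPart_eq_of_charpoly P hchar hr k
    (Submodule.mkQ _) (Submodule.mkQ_surjective _) (fun x => ?_)
    (Submodule.mkQ _) (Submodule.mkQ_surjective _) (fun x => ?_)
  · rw [Submodule.mkQ_apply, Submodule.Quotient.mk_eq_zero, ← Nat.cast_pow,
      mem_span_natCast_smul_top_iff]
  · rw [Submodule.mkQ_apply, Submodule.Quotient.mk_eq_zero, ← Nat.cast_pow,
      mem_span_natCast_smul_top_iff]

end Main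

end Fermat.Agent.MAZ.Desc.CharpolyPrimary80
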