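/-
MAZ (S15), `r = 2` glue (helper95): **every character with values in `ZMod 2` is trivial**, so at
`r = 2` all the "mod `r` cyclotomic characters" of the tree (`RankOneInst19.chiModR 2`,
`EisRel55.chiMod 2`, …) coincide.  Mathlib only.
-/
import Mathlib

set_option autoImplicit false

namespace Fermat.Agent.MAZ.Desc.ChiTwo95

/-- a unit of `ZMod 2` is `1`. -/
theorem zmod_two_eq_one_of_mul_eq_one {a b : ZMod 2} (h : a * b = 1) : a = 1 := by
  revert a b
  decide

/-- a monoid homomorphism from a group to `ZMod 2` is constant `1`. -/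
theorem monoidHom_zmod_two_apply {G : Type*} [Group G] (χ : G →* ZMod 2) (g : G) : χ g = 1 :=
  zmod_two_eq_one_of_mul_eq_one (b := χ g⁻¹) (by rw [← map_mul, mul_inv_cancel, map_one])

/-- **any two characters with values in `ZMod 2` are equal.** -/
theorem monoidHom_zmod_two_eq {G : Type*} [Group G] (χ χ' : G →* ZMod 2) : χ = χ' := by
  ext g
  rw [monoidHom_zmod_two_apply χ g, monoidHom_zmod_two_apply χ' g]

end Fermat.Agent.MAZ.Desc.ChiTwo95
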