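/-
MAZ (S15), G-side (descent), brick CONE-CORE (helper92): **the `T`-stable core of a cone datum**.
Mathlib + `SelmerCone95` + `KummerCone95` + `ConePrimary95` + `DescentAsm95`; abstract group `G` with
subgroups `D`, `I`, a commutative ring `T` acting on the `G`-module `M`.

For the marked descent at the prime `2` the elements of `T` (Hecke operators) need not preserve the
admissible cocycles `𝕄.Z` of a cone datum (`MarkedFamily.map` asks that the map preserves the marks,
and the mark "points reducing to `0`" is not known to be Hecke-stable).  The cure is formal: replace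
`𝕄.Z` by its largest `T`-stable subgroup

  `coreZ 𝕄 T = {c | ∀ t : T, t • c ∈ 𝕄.Z}`.

* `coreCone 𝕄 T` : the cone datum with the same finite part and the admissible cocycles `coreZ 𝕄 T`
  (it contains the coboundaries: `t • dd m = dd (t • m)`);
* `coneHom_smul_core` : every `t : T` is a morphism of `coreCone 𝕄 T` (no condition on `𝕄.Z`);
* `mapH1S_id_injective` : shrinking the admissible cocycles (same finite part) is injective on `H1S`;
* `card_H1S_primaryCone_core_le`, `card_H1S_core_le` : the same in count form;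
* `exists_injective_primaryPart_H1S_core` : the `P`-primary part of `H1S (coreCone 𝕄 T)` embeds into
  `H1S (primaryCone 𝕄 P)` (the cone of the primary part of the ORIGINAL datum);
* `KummerData.core`, `lin_core`, `hyp_core` : a Kummer datum compatible with the `T`-action
  (`DescentAsm95.Lin`) has its Kummer cocycles in the core (`t •` (Kummer cocycle of `y`) is the
  Kummer cocycle of `t • y`), so the `T`-linear Kummer map exists with values in `H1S` of the core.
-/
import Mathlib
import Fermat.Agent.MAZ.Desc.DescentAsm95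

set_option autoImplicit false
set_option linter.style.haveILetI false
set_option linter.unusedSectionVars false

namespace Fermat.Agent.MAZ.Desc.ConeCore92

open Fermat.Agent.MAZ.Desc.SelmerCone95 Fermat.Agent.MAZ.Desc.KummerCone95
  Fermat.Agent.MAZ.Desc.Devissage95 Fermat.Agent.MAZ.Desc.PrimaryPart19
  Fermat.Agent.MAZ.Desc.ConePrimary95 Fermat.Agent.MAZ.Desc.DescentAsm95

attribute [local instance] primaryDMA

/-! ### Shrinking the admissible cocycles -/

section Mono

variable {G : Type*} [Group G] {D I : Subgroup G}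
variable {N : Type*} [AddCommGroup N] [DistribMulAction G N]

/-- shrinking the admissible cocycles (with the same finite part) is injective on `H1S`. -/
theorem mapH1S_id_injective {𝕄₁ 𝕄₂ : ConeData D I N} (h : ConeHom 𝕄₁ 𝕄₂ (AddMonoidHom.id N))
    (hMf : ∀ x ∈ 𝕄₂.Mf, x ∈ 𝕄₁.Mf) : Function.Injective h.mapH1S := by
  rw [injective_iff_map_eq_zero]
  intro x hx
  obtain ⟨t, rfl⟩ := H1S.mk_surjective 𝕄₁ x
  rw [ConeHom.mapH1S_mk, H1S.mk_eq_zero_iff, ConeHom.coe_mapZ1S] at hx
  obtain ⟨⟨m, mf⟩, hb⟩ := hx
  rw [H1S.mk_eq_zero_iff]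
  refine ⟨(m, ⟨(mf : N), hMf _ mf.2⟩), ?_⟩
  have h1 : tmap D (AddMonoidHom.id N) (t : Triple D N) = (t : Triple D N) := rfl
  rw [h1] at hb
  rw [← hb]
  rfl

end Mono

/-! ### The core -/

section Core

variable {G : Type*} [Group G] {D I : Subgroup G} (T : Type*) [CommRing T]
variable {M : Type*} [AddCommGroup M] [DistribMulAction G M] [Module T M] [SMulCommClass G T M]

/-- the largest `T`-stable subgroup of the admissible cocycles. -/
def coreZ (𝕄 : ConeData D I M) : AddSubgroup (G → M) where
  carrier := {c | ∀ t : T, (fun σ => t • c σ) ∈ 𝕄.Z}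
  zero_mem' := fun t => by
    have : (fun σ : G => t • (0 : G → M) σ) = 0 := funext fun σ => smul_zero t
    rw [this]
    exact 𝕄.Z.zero_mem
  add_mem' := by
    intro a b ha hb t
    have : (fun σ : G => t • (a + b) σ) = (fun σ => t • a σ) + (fun σ => t • b σ) :=
      funext fun σ => smul_add t (a σ) (b σ)
    rw [this]
    exact 𝕄.Z.add_mem (ha t) (hb t)
  neg_mem' := by
    intro a ha t
    have : (fun σ : G => t • (-a) σ) = -(fun σ => t • a σ) := funext fun σ => smul_neg t (a σ)
    rw [this]
    exact 𝕄.Z.neg_mem (ha t)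

variable {T}

theorem mem_coreZ {𝕄 : ConeData D I M} {c : G → M} :
    c ∈ coreZ T 𝕄 ↔ ∀ t : T, (fun σ => t • c σ) ∈ 𝕄.Z := Iff.rfl

theorem coreZ_le (𝕄 : ConeData D I M) : coreZ T 𝕄 ≤ 𝕄.Z := by
  intro c hc
  have h1 := hc 1
  have : (fun σ : G => (1 : T) • c σ) = c := funext fun σ => one_smul T (c σ)
  rw [this] at h1
  exact h1

theorem smul_dd (t : T) (m : M) : (fun σ : G => t • (dd m : G → M) σ) = dd (t • m) := by
  funext σ
  rw [dd_def, dd_def, smul_sub, ← smul_comm σ t m]

variable (T)

/-- **the `T`-stable core of a cone datum**: same finite part, admissible cocycles `coreZ`. -/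
def coreCone (𝕄 : ConeData D I M) : ConeData D I M where
  Mf := 𝕄.Mf
  stable := 𝕄.stable
  fixed := 𝕄.fixed
  Z := coreZ T 𝕄
  cocycle c hc := 𝕄.cocycle c (coreZ_le 𝕄 hc)
  cobound m := fun t => by
    rw [smul_dd]
    exact 𝕄.cobound _

variable {T}

/-- the core maps to the cone datum. -/
theorem coneHom_core (𝕄 : ConeData D I M) : ConeHom (coreCone T 𝕄) 𝕄 (AddMonoidHom.id M) :=
  ⟨fun _ _ => rfl, fun _ hx => hx, fun _ hc => coreZ_le 𝕄 hc⟩

/-- **every element of `T` is a morphism of the core** (if it preserves the finite part). -/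
theorem coneHom_smul_core (𝕄 : ConeData D I M) (hMf : ∀ (t : T), ∀ x ∈ 𝕄.Mf, t • x ∈ 𝕄.Mf)
    (t : T) : ConeHom (coreCone T 𝕄) (coreCone T 𝕄) (DistribSMul.toAddMonoidHom M t) := by
  refine ⟨fun σ x => (smul_comm σ t x).symm, fun x hx => hMf t x hx, fun c hc t' => ?_⟩
  have : (fun σ : G => t' • (DistribSMul.toAddMonoidHom M t) (c σ)) =
      fun σ => (t' * t) • c σ := funext fun σ => (mul_smul t' t (c σ)).symm
  rw [this]
  exact hc (t' * t)

/-- the cone of the primary part of the core maps to the cone of the primary part. -/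
theorem coneHom_primaryCone_core (𝕄 : ConeData D I M) (P : Ideal T) :
    ConeHom (primaryCone (coreCone T 𝕄) P) (primaryCone 𝕄 P)
      (AddMonoidHom.id (primaryPart P M)) :=
  ⟨fun _ _ => rfl, fun _ hx => hx, fun _ hc => coreZ_le 𝕄 hc⟩

/-- the embedding in count form: `H1S` of the cone of the primary part of the core is at most as
large as `H1S` of the cone of the primary part. -/
theorem card_H1S_primaryCone_core_le (𝕄 : ConeData D I M) (P : Ideal T)
    (hfin : Finite (H1S (primaryCone 𝕄 P))) :
    Finite (H1S (primaryCone (coreCone T 𝕄) P)) ∧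
      Nat.card (H1S (primaryCone (coreCone T 𝕄) P)) ≤ Nat.card (H1S (primaryCone 𝕄 P)) := by
  have hinj := mapH1S_id_injective (coneHom_primaryCone_core 𝕄 P) (fun _ hx => hx)
  exact ⟨Finite.of_injective _ hinj, Nat.card_le_card_of_injective _ hinj⟩

/-- the same for the core itself. -/
theorem card_H1S_core_le (𝕄 : ConeData D I M) (hfin : Finite (H1S 𝕄)) :
    Finite (H1S (coreCone T 𝕄)) ∧ Nat.card (H1S (coreCone T 𝕄)) ≤ Nat.card (H1S 𝕄) := by
  have hinj := mapH1S_id_injective (coneHom_core (T := T) 𝕄) (fun _ hx => hx)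
  exact ⟨Finite.of_injective _ hinj, Nat.card_le_card_of_injective _ hinj⟩

/-- **the `P`-primary part of `H1S` of the core embeds into `H1S` of the cone of the `P`-primary part
of the original datum.** -/
theorem exists_injective_primaryPart_H1S_core [Finite M] (𝕄 : ConeData D I M)
    (hMf : ∀ (t : T), ∀ x ∈ 𝕄.Mf, t • x ∈ 𝕄.Mf) (P : Ideal T) :
    letI := moduleH1S (coreCone T 𝕄) (coneHom_smul_core 𝕄 hMf)
    ∃ y : primaryPart P (H1S (coreCone T 𝕄)) → H1S (primaryCone 𝕄 P), Function.Injective y := by
  letI := moduleH1S (coreCone T 𝕄) (coneHom_smul_core 𝕄 hMf)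
  obtain ⟨y, hy⟩ :=
    exists_injective_primaryPart_H1S (coreCone T 𝕄) (coneHom_smul_core 𝕄 hMf) P
  exact ⟨fun x => (coneHom_primaryCone_core 𝕄 P).mapH1S (y x),
    (mapH1S_id_injective (coneHom_primaryCone_core 𝕄 P) (fun _ hx => hx)).comp hy⟩

end Core

/-! ### The Kummer datum of the core -/

section Kummer

variable {G : Type*} [Group G] {D I : Subgroup G} {T : Type*} [CommRing T]
variable {J : Type*} [AddCommGroup J] [DistribMulAction G J] [Module T J]
variable {M : Type*} [AddCommGroup M] [DistribMulAction G M] [Module T M] [SMulCommClass G T M]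
variable {n : ℕ}

variable (T) in
/-- the same Kummer datum with the core of its cone datum. -/
def core (K : KummerData D I J M n) : KummerData D I J M n :=
  { K with
    cone := coreCone T K.cone
    mem_Mf := K.mem_Mf }

theorem core_cone (K : KummerData D I J M n) : (core T K).cone = coreCone T K.cone := rfl

theorem core_A (K : KummerData D I J M n) : (core T K).A = K.A := rfl

theorem core_ι (K : KummerData D I J M n) : (core T K).ι = K.ι := rfl

variable {K : KummerData D I J M n} {A : Submodule T J}

/-- the core is compatible with the `T`-action. -/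
theorem lin_core (hL : Lin K A) : Lin (core T K) A :=
  ⟨hL.B_eq, hL.gal, hL.J0_smul, hL.ι_smul⟩

/-- **the Kummer cocycles lie in the core**: `t •` (Kummer cocycle of `y`) is the Kummer cocycle of
`t • y`. -/
theorem hyp_core (hL : Lin K A) (hK : K.Hyp) : (core T K).Hyp := by
  refine ⟨hK.div, hK.div0, fun y hy y' hy' c hc t => ?_⟩
  have hyB : t • y ∈ K.B := by
    have h1 : y ∈ A.toAddSubgroup := by
      rw [← hL.B_eq]
      exact hy
    rw [hL.B_eq]
    exact A.smul_mem t h1
  refine hK.adm (t • y) hyB (t • y') ?_ (fun σ => t • c σ) (fun σ => ?_)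
  · rw [smul_comm, hy']
  · have h2 : K.ι (c σ) = σ • y' - y' := hc σ
    rw [hL.ι_smul, h2, smul_sub, hL.gal]

end Kummer

end Fermat.Agent.MAZ.Desc.ConeCore92
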