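/-
MAZ (S15), G-side, line 8b (helper26): **adapters from the exits of the external chapters to the
contracts of `KummerInst26`**.

* `s19At_of_frozen` : the frozen statement S19 (at `N = p`, `ℓ = r`; `Fermat.Agent.S19.result p r hrp`)
  gives `KummerInst26.S19At p r`;
* `kFlat_of_flatAtR` : the exit of chapter K-FLAT in the vocabulary of `GSpec26`
  (`FlatAtR r k (σ ↦ σ • y - y)` for every `y` with `r^k • y` rational; `KummerSet69`, helper69) gives
  `KummerInst26.KFlat p r` for all the rational points.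
-/
import Mathlib
import Fermat.Agent.MAZ.Desc.KummerInst26

set_option autoImplicit false
set_option linter.unusedSectionVars false
set_option linter.unusedVariables false

open AlgebraicCurve ModularCurve

noncomputable section

namespace Fermat.Agent.MAZ.Desc.ContractAdapters26

open Fermat.Agent.X0 Fermat.Agent.MAZ.Spec.XSpec62 Fermat.Agent.MAZ.Spec.GSpec26
open Fermat.Agent.MAZ.Desc.FlatAdm68 Fermat.Agent.MAZ.Desc.KummerInst26
open Fermat.Agent.TW.FF.FlatModel68 (FlatModel)

variable {p : ℕ} [NeZero p] {r : ℕ} [Fact r.Prime]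

attribute [local instance] dmaMk

/-- **S19 at level `p`, from the frozen statement S19** (instantiated at `N = p`, `ℓ = r`). -/
theorem s19At_of_frozen
    (h : ∀ k : ℕ, ∃ (H : Type) (_ : CommRing H) (_ : HopfAlgebra (GaloisRep.ratLocalizedAt r) H),
      Module.Finite (GaloisRep.ratLocalizedAt r) H ∧ Module.Flat (GaloisRep.ratLocalizedAt r) H ∧
      Coalgebra.IsCocomm (GaloisRep.ratLocalizedAt r) H ∧
      ∃ e : WithConv (H →ₐ[GaloisRep.ratLocalizedAt r] AlgebraicClosure ℚ) ≃
          ↥(Submodule.torsionBy ℤ (JZero p) ((r : ℤ) ^ k)),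
        (∀ f g, e (f * g) = e f + e g) ∧
        ∀ (σ : AlgebraicClosure ℚ ≃ₐ[ℚ] AlgebraicClosure ℚ)
          (f g : WithConv (H →ₐ[GaloisRep.ratLocalizedAt r] AlgebraicClosure ℚ)),
          (∀ h : H, g h = σ (f h)) → ((e g : JZero p)) = σ • (e f : JZero p)) :
    S19At p r := by
  intro k
  obtain ⟨H, i1, i2, h1, h2, h3, e, he, hσ⟩ := h k
  exact ⟨H, i1, i2, h1, h2, h3, e, he, fun σ f g hfg => Subtype.ext (hσ σ f g hfg)⟩

/-- **K-FLAT for all the rational points, from the exit of chapter K-FLAT** in the vocabulary of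
`GSpec26`. -/
theorem kFlat_of_flatAtR
    (h : ∀ (k : ℕ) (y : JZero p), (∀ σ : GQ, σ • ((r ^ k) • y) = (r ^ k) • y) →
      FlatAtR r k (fun σ : GQ => σ • y - y)) :
    KFlat p r {z : JZero p | ∀ σ : GQ, σ • z = z} := by
  intro k z hz y hy c hc
  obtain ⟨y', hy', hM⟩ := h k y (by rw [hy]; exact hz)
  have hyc : y' = c := funext fun σ => Subtype.ext ((hy' σ).trans (hc σ).symm)
  subst hyc
  exact hM

end Fermat.Agent.MAZ.Desc.ContractAdapters26
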