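/-
Program MAZ (S15), P3 cell helper lemma (helper32), Mathlib only:
for a CYCLIC group of operators on a finite abelian group, `#invariants = #coinvariants`
(helper14 #2348 (b): `#M_{I_p} = #M^{I_p}` because the image of `I_p` in `Aut M` is cyclic).

* `card_ker_eq_index_range` : `#ker f = [M : im f]` for an endomorphism of a finite abelian group;
* `card_fixed_eq_index_coinv` : `I ⊆ G` acting on `M` through the powers of one `σ ∈ I`:
  `#{x | ∀ g ∈ I, g • x = x} = [M : ⟨g • x - x | g ∈ I⟩]`.
-/
import Mathlib

set_option autoImplicit false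

namespace Fermat.Agent.MAZ.Desc.CyclicCoinv32

variable {M : Type*} [AddCommGroup M]

/-- `#ker f = [M : im f]` for an endomorphism of a finite abelian group. -/
theorem card_ker_eq_index_range [Finite M] (f : M →+ M) :
    Nat.card f.ker = f.range.index := by
  have h1 : Nat.card f.ker * Nat.card f.range = Nat.card M := by
    have e := QuotientAddGroup.quotientKerEquivRange f
    have h2 : Nat.card (M ⧸ f.ker) = Nat.card f.range := Nat.card_congr e.toEquiv
    have h3 := AddSubgroup.card_eq_card_quotient_mul_card_addSubgroup f.ker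
    rw [h3, h2, mul_comm]
  have h4 : Nat.card f.range * f.range.index = Nat.card M := AddSubgroup.card_mul_index f.range
  have hpos : 0 < Nat.card f.range := Nat.card_pos
  have h5 : Nat.card f.range * Nat.card f.ker = Nat.card f.range * f.range.index := by
    rw [h4, mul_comm, h1]
  exact Nat.eq_of_mul_eq_mul_left hpos h5

variable {G : Type*} [Group G] [DistribMulAction G M]

/-- the endomorphism `x ↦ σ • x - x`. -/
def augHom (σ : G) : M →+ M :=
  (DistribSMul.toAddMonoidHom M σ) - AddMonoidHom.id M

@[simp] theorem augHom_apply (σ : G) (x : M) : augHom σ x = σ • x - x := rfl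

/-- `σ^i • x - x` lies in the image of `σ - 1`. -/
theorem pow_smul_sub_mem_range (σ : G) (i : ℕ) (x : M) :
    σ ^ i • x - x ∈ (augHom (M := M) σ).range := by
  induction i with
  | zero => rw [pow_zero, one_smul, sub_self]; exact zero_mem _
  | succ n ih =>
    have h : σ ^ (n + 1) • x - x = augHom σ (σ ^ n • x) + (σ ^ n • x - x) := by
      rw [augHom_apply, pow_succ', mul_smul]; abel
    rw [h]
    exact add_mem ⟨_, rfl⟩ ih

/-- **Invariants and coinvariants of a cyclic group of operators have the same order.** -/
theorem card_fixed_eq_index_coinv [Finite M] (I : Set G) (σ : G) (hσ : σ ∈ I)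
    (hcyc : ∀ g ∈ I, ∃ i : ℕ, ∀ x : M, g • x = σ ^ i • x) :
    Nat.card {x : M // ∀ g ∈ I, g • x = x} =
      (AddSubgroup.closure {z : M | ∃ g ∈ I, ∃ x : M, z = g • x - x}).index := by
  have hker : ∀ x : M, (∀ g ∈ I, g • x = x) ↔ x ∈ (augHom (M := M) σ).ker := by
    intro x
    rw [AddMonoidHom.mem_ker, augHom_apply, sub_eq_zero]
    constructor
    · intro h; exact h σ hσ
    · intro h g hg
      obtain ⟨i, hi⟩ := hcyc g hg
      rw [hi x]
      clear hi
      induction i with
      | zero => rw [pow_zero, one_smul]
      | succ n ih => rw [pow_succ, mul_smul, h, ih]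
  have hrange : AddSubgroup.closure {z : M | ∃ g ∈ I, ∃ x : M, z = g • x - x} =
      (augHom (M := M) σ).range := by
    apply le_antisymm
    · rw [AddSubgroup.closure_le]
      rintro z ⟨g, hg, x, rfl⟩
      obtain ⟨i, hi⟩ := hcyc g hg
      rw [hi x]
      exact pow_smul_sub_mem_range σ i x
    · rintro z ⟨x, rfl⟩
      exact AddSubgroup.subset_closure ⟨σ, hσ, x, rfl⟩
  rw [hrange, ← card_ker_eq_index_range]
  exact Nat.card_congr (Equiv.subtypeEquivRight hker)

end Fermat.Agent.MAZ.Desc.CyclicCoinv32

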