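/-
MAZ (S15) G-side, brick TAME-CYC, abstract layer (helper11).  Mathlib only.

`R` a domain with a "uniformiser" `ϖ` (every non-unit is divisible by `ϖ`, `⋂ ϖ ^ n R = 0`), a group
`G` acting on `R` by ring automorphisms `ρ : G →* RingAut R`, trivially modulo `ϖ` ("inertia"), a
prime number `p` with `ϖ ∣ p`.

* `wild_trivial` : a ring endomorphism `σ` with `σ a ≡ a` mod `ϖ`, `σ ϖ ≡ ϖ` mod `ϖ²` and
  `σ ^ m = id` for a unit `m` of `R` is the identity (so the wild inertia group is a `p`-group; no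
  higher ramification groups are needed);
* `theta ρ ϖ … : G →* (R ⧸ span {ϖ})ˣ`, `g ↦ ρ g ϖ / ϖ`, the tame character;
* `exists_generator` : if `ρ` has finite range and `f : G →* U` is a homomorphism to a finite group
  of order prime to `p` which is trivial on `ker ρ`, then the image of `f` is cyclic:
  `∃ s, ∀ g, ∃ k : ℕ, f g = f s ^ k`.
-/
import Mathlib

set_option autoImplicit false
set_option linter.unusedSectionVars false
set_option linter.style.haveILetI false

namespace Fermat.Agent.MAZ.Desc.TameAbstract11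

/-! ### One wild automorphism -/

section One

variable {R : Type*} [CommRing R] (σ : R →+* R) (ϖ : R)

theorem one_add_mul_pow (c : R) (n : ℕ) : ∃ e : R, (1 + ϖ * c) ^ n = 1 + ϖ * e := by
  induction n with
  | zero => exact ⟨0, by simp⟩
  | succ n ih =>
    obtain ⟨e, he⟩ := ih
    refine ⟨e + c + ϖ * e * c, ?_⟩
    rw [pow_succ, he]
    ring

/-- `σ - 1` raises the `ϖ`-adic order when `σ` is wild. -/
theorem dvd_map_sub (hin : ∀ a, ϖ ∣ σ a - a) (hw : ϖ ^ 2 ∣ σ ϖ - ϖ) (n : ℕ) {a : R}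
    (ha : ϖ ^ n ∣ a) : ϖ ^ (n + 1) ∣ σ a - a := by
  obtain ⟨b, rfl⟩ := ha
  obtain ⟨c, hc⟩ := hw
  obtain ⟨d, hd⟩ := hin b
  have h1 : σ ϖ = ϖ * (1 + ϖ * c) := by linear_combination hc
  have h2 : σ b = b + ϖ * d := by linear_combination hd
  obtain ⟨e, he⟩ := one_add_mul_pow ϖ c n
  refine ⟨d + e * b + ϖ * e * d, ?_⟩
  rw [map_mul, map_pow, h1, h2, mul_pow, he]
  ring

theorem dvd_map (hin : ∀ a, ϖ ∣ σ a - a) (hw : ϖ ^ 2 ∣ σ ϖ - ϖ) (n : ℕ) {a : R}
    (ha : ϖ ^ n ∣ a) : ϖ ^ n ∣ σ a := by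
  have h := dvd_map_sub σ ϖ hin hw n ha
  have h' : ϖ ^ n ∣ σ a - a := (pow_dvd_pow ϖ (Nat.le_succ n)).trans h
  have : σ a = (σ a - a) + a := by ring
  rw [this]
  exact dvd_add h' ha

theorem dvd_iterate_sub (hin : ∀ a, ϖ ∣ σ a - a) (hw : ϖ ^ 2 ∣ σ ϖ - ϖ) (n : ℕ) (j : ℕ) :
    ∀ {b : R}, ϖ ^ n ∣ b → ϖ ^ (n + 1) ∣ σ^[j] b - b := by
  induction j with
  | zero => intro b _; simp
  | succ j ih =>
    intro b hb
    have h1 : ϖ ^ (n + 1) ∣ σ^[j] (σ b) - σ b := ih (dvd_map σ ϖ hin hw n hb)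
    have h2 : ϖ ^ (n + 1) ∣ σ b - b := dvd_map_sub σ ϖ hin hw n hb
    have : σ^[j + 1] b - b = (σ^[j] (σ b) - σ b) + (σ b - b) := by
      rw [Function.iterate_succ_apply]; ring
    rw [this]
    exact dvd_add h1 h2

theorem sum_iterate_sub (a : R) (m : ℕ) :
    ∑ j ∈ Finset.range m, σ^[j] (σ a - a) = σ^[m] a - a := by
  induction m with
  | zero => simp
  | succ m ih =>
    rw [Finset.sum_range_succ, ih, iterate_map_sub, ← Function.iterate_succ_apply,
      Function.iterate_succ_apply' σ m a]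
    ring

/-- **a wild automorphism of order prime to the residue characteristic is trivial.** -/
theorem wild_trivial (hsep : ∀ x : R, (∀ n, ϖ ^ n ∣ x) → x = 0)
    (hin : ∀ a, ϖ ∣ σ a - a) (hw : ϖ ^ 2 ∣ σ ϖ - ϖ) {m : ℕ} (hm : IsUnit (m : R))
    (hσm : ∀ a, σ^[m] a = a) (a : R) : σ a = a := by
  have key : ∀ n, ϖ ^ n ∣ σ a - a := by
    intro n
    induction n with
    | zero => simp
    | succ n ih =>
      have hsum := sum_iterate_sub σ a m
      rw [hσm a, sub_self] at hsum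
      have h2 : ϖ ^ (n + 1) ∣ ∑ j ∈ Finset.range m, (σ^[j] (σ a - a) - (σ a - a)) :=
        Finset.dvd_sum fun j _ => dvd_iterate_sub σ ϖ hin hw n j ih
      rw [Finset.sum_sub_distrib, hsum, Finset.sum_const, Finset.card_range, nsmul_eq_mul,
        zero_sub, dvd_neg] at h2
      obtain ⟨u, hu⟩ := hm
      have : σ a - a = (↑u⁻¹ : R) * ((m : R) * (σ a - a)) := by
        rw [← mul_assoc, ← hu, Units.inv_mul, one_mul]
      rw [this]
      exact Dvd.dvd.mul_left h2 _
  exact sub_eq_zero.mp (hsep _ key)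

end One

/-! ### The tame character -/

section Group

variable {R : Type*} [CommRing R] [IsDomain R] {G : Type*} [Group G] (ρ : G →* RingAut R) (ϖ : R)

theorem rho_pow_apply (g : G) (m : ℕ) (a : R) :
    ρ (g ^ m) a = ((ρ g : R ≃+* R) : R →+* R)^[m] a := by
  induction m generalizing a with
  | zero => simp
  | succ m ih =>
    rw [pow_succ, map_mul, RingAut.mul_apply, ih, Function.iterate_succ_apply]
    rfl

/-- the standing hypotheses. -/
structure Setup (p : ℕ) : Prop where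
  ne_zero : ϖ ≠ 0
  not_unit : ¬ IsUnit ϖ
  unif : ∀ x : R, ¬ IsUnit x → ϖ ∣ x
  sep : ∀ x : R, (∀ n, ϖ ^ n ∣ x) → x = 0
  inertia : ∀ (g : G) (a : R), ϖ ∣ ρ g a - a
  prime : p.Prime
  dvd_p : ϖ ∣ (p : R)

variable {ρ ϖ} {p : ℕ}

theorem Setup.isUnit_natCast (h : Setup ρ ϖ p) {m : ℕ} (hm : m.Coprime p) : IsUnit (m : R) := by
  by_contra hnu
  have h1 : ϖ ∣ (m : R) := h.unif _ hnu
  have h2 : ϖ ∣ (((m : ℤ) * Nat.gcdA m p + (p : ℤ) * Nat.gcdB m p : ℤ) : R) := by
    push_cast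
    exact dvd_add (Dvd.dvd.mul_right h1 _) (Dvd.dvd.mul_right h.dvd_p _)
  rw [← Nat.gcd_eq_gcd_ab, hm.gcd_eq_one] at h2
  exact h.not_unit (isUnit_of_dvd_one (by simpa using h2))

theorem Setup.isPrime (h : Setup ρ ϖ p) : (Ideal.span {ϖ} : Ideal R).IsPrime := by
  refine ⟨?_, ?_⟩
  · rw [Ne, Ideal.span_singleton_eq_top]
    exact h.not_unit
  · intro a b hab
    rw [Ideal.mem_span_singleton] at hab ⊢
    rw [Ideal.mem_span_singleton]
    by_cases ha : IsUnit a
    · by_cases hb : IsUnit b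
      · exact absurd (isUnit_of_dvd_unit hab (ha.mul hb)) h.not_unit
      · exact Or.inr (h.unif b hb)
    · exact Or.inl (h.unif a ha)

/-- `ε g`, defined by `ρ g ϖ = ϖ * ε g`. -/
noncomputable def eps (h : Setup ρ ϖ p) (g : G) : R :=
  1 + Classical.choose (h.inertia g ϖ)

theorem rho_unif (h : Setup ρ ϖ p) (g : G) : ρ g ϖ = ϖ * eps h g := by
  have := Classical.choose_spec (h.inertia g ϖ)
  unfold eps
  linear_combination this

theorem eps_unique (h : Setup ρ ϖ p) (g : G) {e : R} (he : ρ g ϖ = ϖ * e) : eps h g = e := by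
  apply mul_left_cancel₀ h.ne_zero
  rw [← rho_unif h g, he]

theorem eps_one (h : Setup ρ ϖ p) : eps h (1 : G) = 1 :=
  eps_unique h 1 (by simp)

theorem eps_mul (h : Setup ρ ϖ p) (g g' : G) :
    ∃ d : R, eps h (g * g') = eps h g * eps h g' + ϖ * d := by
  obtain ⟨d, hd⟩ := h.inertia g (eps h g')
  refine ⟨eps h g * d, ?_⟩
  have : eps h (g * g') = eps h g * ρ g (eps h g') := by
    apply eps_unique
    rw [map_mul, RingAut.mul_apply, rho_unif h g', map_mul, rho_unif h g]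
    ring
  rw [this]
  linear_combination eps h g * hd

/-- the tame character as a monoid homomorphism to the residue ring. -/
noncomputable def theta0 (h : Setup ρ ϖ p) : G →* (R ⧸ (Ideal.span {ϖ} : Ideal R)) where
  toFun g := Ideal.Quotient.mk _ (eps h g)
  map_one' := by rw [eps_one h, map_one]
  map_mul' g g' := by
    obtain ⟨d, hd⟩ := eps_mul h g g'
    rw [← map_mul, Ideal.Quotient.eq, Ideal.mem_span_singleton]
    exact ⟨d, by linear_combination hd⟩

/-- **the tame character** `G →* (R ⧸ ϖ)ˣ`. -/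
noncomputable def theta (h : Setup ρ ϖ p) : G →* (R ⧸ (Ideal.span {ϖ} : Ideal R))ˣ :=
  (theta0 h).toHomUnits

theorem coe_theta (h : Setup ρ ϖ p) (g : G) :
    ((theta h g : (R ⧸ (Ideal.span {ϖ} : Ideal R))ˣ) : R ⧸ (Ideal.span {ϖ} : Ideal R)) =
      Ideal.Quotient.mk _ (eps h g) := rfl

/-- the kernel of the tame character is wild. -/
theorem wild_of_theta_eq_one (h : Setup ρ ϖ p) {g : G} (hg : theta h g = 1) :
    ϖ ^ 2 ∣ ρ g ϖ - ϖ := by
  have h1 : Ideal.Quotient.mk (Ideal.span {ϖ} : Ideal R) (eps h g) = 1 := by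
    rw [← coe_theta, hg]; rfl
  rw [← map_one (Ideal.Quotient.mk _), Ideal.Quotient.eq, Ideal.mem_span_singleton] at h1
  obtain ⟨c, hc⟩ := h1
  refine ⟨c, ?_⟩
  rw [rho_unif h g]
  linear_combination ϖ * hc

theorem theta_eq_of_rho_eq (h : Setup ρ ϖ p) {g g' : G} (hgg : ρ g = ρ g') :
    theta h g = theta h g' := by
  apply Units.ext
  rw [coe_theta, coe_theta]
  congr 1
  apply eps_unique
  rw [hgg, rho_unif]

/-- **wild elements of order prime to `p` act trivially.** -/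
theorem rho_eq_one_of_wild (h : Setup ρ ϖ p) {g : G} (hg : theta h g = 1) {m : ℕ}
    (hm : m.Coprime p) (hgm : ρ (g ^ m) = 1) : ρ g = 1 := by
  ext a
  have := wild_trivial ((ρ g : R ≃+* R) : R →+* R) ϖ h.sep (fun a => h.inertia g a)
    (wild_of_theta_eq_one h hg) (h.isUnit_natCast hm)
    (fun a => by rw [← rho_pow_apply, hgm]; rfl) a
  exact this

/-- **the image of "inertia" in a finite group of order prime to `p` is cyclic.** -/
theorem exists_generator (h : Setup ρ ϖ p) [Finite ρ.range] {U : Type*} [Group U] [Finite U]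
    (hU : (Nat.card U).Coprime p) (f : G →* U) (hf : ∀ g, ρ g = 1 → f g = 1) :
    ∃ s : G, ∀ g : G, ∃ k : ℕ, f g = f s ^ k := by
  classical
  haveI := h.isPrime
  -- the range of `theta` is finite
  haveI hfin : Finite (theta h).range := by
    let F : ρ.range → (R ⧸ (Ideal.span {ϖ} : Ideal R))ˣ := fun x => theta h (Classical.choose x.2)
    have hsub : ((theta h).range : Set _) ⊆ Set.range F := by
      rintro _ ⟨g, rfl⟩
      refine ⟨⟨ρ g, g, rfl⟩, ?_⟩
      exact theta_eq_of_rho_eq h (Classical.choose_spec (⟨g, rfl⟩ : ρ g ∈ ρ.range))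
    exact ((Set.finite_range F).subset hsub).to_subtype
  -- hence cyclic
  obtain ⟨⟨t, ⟨s, hs⟩⟩, ht⟩ := IsCyclic.exists_monoid_generator (α := (theta h).range)
  refine ⟨s, fun g => ?_⟩
  obtain ⟨k, hk⟩ := ht ⟨theta h g, g, rfl⟩
  refine ⟨k, ?_⟩
  have hk' : theta h s ^ k = theta h g := by
    have := congrArg Subtype.val hk
    simpa [hs] using this
  -- `w = g s⁻ᵏ` is wild
  set w : G := g * (s ^ k)⁻¹ with hw
  have hwθ : theta h w = 1 := by
    rw [hw, map_mul, map_inv, map_pow, hk', mul_inv_cancel]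
  -- `f w = 1`
  have hfw : f w = 1 := by
    have hfo : IsOfFinOrder (⟨ρ w, w, rfl⟩ : ρ.range) := isOfFinOrder_of_finite _
    obtain ⟨n, hn0, hn⟩ := hfo.exists_pow_eq_one
    have hn' : ρ (w ^ n) = 1 := by
      have := congrArg Subtype.val hn
      simpa using this
    obtain ⟨a, m, hmp, hnm⟩ := Nat.exists_eq_pow_mul_and_not_dvd hn0.ne' p h.prime.ne_one
    have hmc : m.Coprime p := (Nat.Coprime.symm ((Nat.Prime.coprime_iff_not_dvd h.prime).mpr hmp))
    have hw' : theta h (w ^ p ^ a) = 1 := by rw [map_pow, hwθ, one_pow]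
    have h1 : ρ ((w ^ p ^ a) ^ m) = 1 := by rw [← pow_mul, ← hnm, hn']
    have h2 : ρ (w ^ p ^ a) = 1 := rho_eq_one_of_wild h hw' hmc h1
    have h3 : f w ^ p ^ a = 1 := by rw [← map_pow]; exact hf _ h2
    have h4 : f w ^ Nat.card U = 1 := pow_card_eq_one'
    have h5 : orderOf (f w) ∣ Nat.gcd (p ^ a) (Nat.card U) :=
      Nat.dvd_gcd (orderOf_dvd_of_pow_eq_one h3) (orderOf_dvd_of_pow_eq_one h4)
    have h6 : Nat.gcd (p ^ a) (Nat.card U) = 1 :=
      Nat.Coprime.pow_left a hU.symm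
    rw [h6, Nat.dvd_one, orderOf_eq_one_iff] at h5
    exact h5
  have : g = w * s ^ k := by rw [hw]; group
  rw [this, map_mul, hfw, one_mul, map_pow]

end Group

end Fermat.Agent.MAZ.Desc.TameAbstract11
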