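/-
MAZ (S15) G-side, brick TAME-CYC, concrete layer (helper11).

`A` a valuation subring of `Qbar` over the prime `p`, `I_A = A.inertiaSubgroupIn ℚ`.

* `exists_inertia_generator` : a homomorphism `f` from `I_A` to a finite group of order prime to `p`
  which is trivial on `I_A ∩ Gal(Qbar/L)` for some finite normal `L/ℚ` has CYCLIC image:
  `∃ s, ∀ σ, ∃ k : ℕ, f σ = f s ^ k`  ("tame inertia is procyclic").
* `exists_inertia_generator_of_isOpen` : the same for `f` with open kernel.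
-/
import Mathlib
import Fermat.Agent.ES.N34.GalBase21
import Fermat.Agent.MAZ.Desc.TameAbstract11

set_option autoImplicit false
set_option linter.unusedSectionVars false
set_option linter.style.haveILetI false

namespace Fermat.Agent.MAZ.Desc.TameCyclic11

open Fermat.Agent.RED.Interface4 Fermat.Agent.RED.DESC Fermat.Agent.ES.N34.GalBase21
open Fermat.Agent.MAZ.Desc.TameAbstract11

noncomputable section

variable (A : ValuationSubring Qbar) (L : IntermediateField ℚ Qbar) [Normal ℚ L]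

/-- `σ ∈ D_A` as a ring automorphism of `A ∩ L`. -/
def autAK {σ : Qbar ≃ₐ[ℚ] Qbar} (hσ : σ ∈ A.decompositionSubgroup ℚ) : RingAut (AK A L) where
  toFun a := ⟨resK L σ a, resK_mem_AK A L hσ a.2⟩
  invFun a := ⟨resK L σ⁻¹ a, resK_mem_AK A L (inv_mem hσ) a.2⟩
  left_inv a := by
    apply Subtype.ext
    show resK L σ⁻¹ (resK L σ a) = a
    rw [resK_inv]
    exact (resK L σ).symm_apply_apply _
  right_inv a := by
    apply Subtype.ext
    show resK L σ (resK L σ⁻¹ a) = a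
    rw [resK_inv]
    exact (resK L σ).apply_symm_apply _
  map_mul' a b := by
    apply Subtype.ext
    show resK L σ ((a : L) * (b : L)) = resK L σ a * resK L σ b
    exact map_mul _ _ _
  map_add' a b := by
    apply Subtype.ext
    show resK L σ ((a : L) + (b : L)) = resK L σ a + resK L σ b
    exact map_add _ _ _

@[simp] theorem coe_autAK {σ : Qbar ≃ₐ[ℚ] Qbar} (hσ : σ ∈ A.decompositionSubgroup ℚ)
    (a : AK A L) : ((autAK A L hσ a : AK A L) : L) = resK L σ (a : L) := rfl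

/-- the action of inertia on `A ∩ L`. -/
def rho : ↥(A.inertiaSubgroupIn ℚ) →* RingAut (AK A L) where
  toFun τ := autAK A L (mem_decomposition_of_mem_inertia A τ.2)
  map_one' := by
    refine RingEquiv.ext fun a => Subtype.ext ?_
    show resK L (1 : Qbar ≃ₐ[ℚ] Qbar) (a : L) = a
    rw [resK_one]; rfl
  map_mul' σ τ := by
    refine RingEquiv.ext fun a => Subtype.ext ?_
    show resK L ((σ : Qbar ≃ₐ[ℚ] Qbar) * τ) (a : L) = resK L σ (resK L τ (a : L))
    rw [resK_mul]; rfl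

theorem coe_rho (τ : ↥(A.inertiaSubgroupIn ℚ)) (a : AK A L) :
    ((rho A L τ a : AK A L) : L) = resK L (τ : Qbar ≃ₐ[ℚ] Qbar) (a : L) := rfl

/-- `ρ τ` is determined by `τ|_L`. -/
theorem rho_eq_of_resK_eq {σ τ : ↥(A.inertiaSubgroupIn ℚ)}
    (h : resK L (σ : Qbar ≃ₐ[ℚ] Qbar) = resK L (τ : Qbar ≃ₐ[ℚ] Qbar)) :
    rho A L σ = rho A L τ := by
  refine RingEquiv.ext fun a => Subtype.ext ?_
  rw [coe_rho, coe_rho, h]

/-- `ρ τ = 1` forces `τ` to fix `L`. -/
theorem mem_fixingSubgroup_of_rho_eq_one {τ : ↥(A.inertiaSubgroupIn ℚ)} (h : rho A L τ = 1) :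
    (τ : Qbar ≃ₐ[ℚ] Qbar) ∈ L.fixingSubgroup := by
  have hfix : ∀ a : AK A L, resK L (τ : Qbar ≃ₐ[ℚ] Qbar) (a : L) = a := by
    intro a
    rw [← coe_rho, h]; rfl
  have hall : ∀ x : L, resK L (τ : Qbar ≃ₐ[ℚ] Qbar) x = x := by
    intro x
    rcases (AK A L).mem_or_inv_mem x with hx | hx
    · exact hfix ⟨x, hx⟩
    · have h1 := hfix ⟨x⁻¹, hx⟩
      simp only at h1
      rw [map_inv₀] at h1
      exact inv_injective h1
  rw [IntermediateField.mem_fixingSubgroup_iff]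
  intro x hx
  have := coe_resK L (τ : Qbar ≃ₐ[ℚ] Qbar) ⟨x, hx⟩
  rw [hall] at this
  exact this.symm

instance finite_range_rho [FiniteDimensional ℚ L] : Finite (rho A L).range := by
  let F : (rho A L).range → (L ≃ₐ[ℚ] L) := fun x => resK L ((Classical.choose x.2 : _) : Qbar ≃ₐ[ℚ] Qbar)
  have hF : Function.Injective F := by
    intro x y hxy
    apply Subtype.ext
    rw [← Classical.choose_spec x.2, ← Classical.choose_spec y.2]
    exact rho_eq_of_resK_eq A L hxy
  exact Finite.of_injective F hF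

/-- the abstract set-up of `TameAbstract11` holds for `A ∩ L`. -/
theorem exists_setup [FiniteDimensional ℚ L] {p : ℕ} (hp : p.Prime) (hA : A.LiesOverPrime p) :
    ∃ ϖ : AK A L, Setup (rho A L) ϖ p := by
  haveI := NumberFieldDVR27.isDiscreteValuationRing_AK A L hp.ne_zero hA
  obtain ⟨ϖ, hϖ⟩ := IsDiscreteValuationRing.exists_irreducible (AK A L)
  have hmax := (IsDiscreteValuationRing.irreducible_iff_uniformizer ϖ).mp hϖ
  have hunif : ∀ x : AK A L, ¬ IsUnit x → ϖ ∣ x := by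
    intro x hx
    have : x ∈ IsLocalRing.maximalIdeal (AK A L) := (IsLocalRing.mem_maximalIdeal _).mpr hx
    rw [hmax, Ideal.mem_span_singleton] at this
    exact this
  refine ⟨ϖ, ⟨hϖ.ne_zero, hϖ.not_isUnit, hunif, ?_, ?_, hp, ?_⟩⟩
  · intro x hx
    have hne : (Ideal.span {ϖ} : Ideal (AK A L)) ≠ ⊤ := by
      rw [Ne, Ideal.span_singleton_eq_top]; exact hϖ.not_isUnit
    have h1 := Ideal.iInf_pow_eq_bot_of_isLocalRing (Ideal.span {ϖ} : Ideal (AK A L)) hne
    have h2 : x ∈ ⨅ i : ℕ, (Ideal.span {ϖ} : Ideal (AK A L)) ^ i := by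
      rw [Ideal.mem_iInf]
      intro i
      rw [Ideal.span_singleton_pow, Ideal.mem_span_singleton]
      exact hx i
    rw [h1] at h2
    exact h2
  · intro τ a
    have h1 := resK_sub_mem_maximalIdeal A L τ.2 a
    rw [hmax, Ideal.mem_span_singleton] at h1
    exact h1
  · have h1 := NumberFieldDVR27.natCast_mem_maximalIdeal A L hA
    rw [hmax, Ideal.mem_span_singleton] at h1
    exact h1

/-- **TAME-CYC.**  The image of the inertia group at `p` in a finite group of order prime to `p`,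
under a homomorphism of finite level `L`, is cyclic. -/
theorem exists_inertia_generator [FiniteDimensional ℚ L] {p : ℕ} (hp : p.Prime)
    (hA : A.LiesOverPrime p) {U : Type*} [Group U] [Finite U] (hU : (Nat.card U).Coprime p)
    (f : ↥(A.inertiaSubgroupIn ℚ) →* U)
    (hf : ∀ σ : ↥(A.inertiaSubgroupIn ℚ), (σ : Qbar ≃ₐ[ℚ] Qbar) ∈ L.fixingSubgroup → f σ = 1) :
    ∃ s : ↥(A.inertiaSubgroupIn ℚ), ∀ σ : ↥(A.inertiaSubgroupIn ℚ), ∃ k : ℕ, f σ = f s ^ k := by
  obtain ⟨ϖ, hS⟩ := exists_setup A L hp hA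
  exact exists_generator hS hU f fun g hg => hf g (mem_fixingSubgroup_of_rho_eq_one A L hg)

end

/-- **TAME-CYC, open-kernel form.** -/
theorem exists_inertia_generator_of_isOpen (A : ValuationSubring Qbar) {p : ℕ} (hp : p.Prime)
    (hA : A.LiesOverPrime p) {U : Type*} [Group U] [Finite U] (hU : (Nat.card U).Coprime p)
    (f : ↥(A.inertiaSubgroupIn ℚ) →* U) (N : Set (Qbar ≃ₐ[ℚ] Qbar)) (hN : IsOpen N)
    (h1 : (1 : Qbar ≃ₐ[ℚ] Qbar) ∈ N)
    (hf : ∀ σ : ↥(A.inertiaSubgroupIn ℚ), (σ : Qbar ≃ₐ[ℚ] Qbar) ∈ N → f σ = 1) :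
    ∃ s : ↥(A.inertiaSubgroupIn ℚ), ∀ σ : ↥(A.inertiaSubgroupIn ℚ), ∃ k : ℕ, f σ = f s ^ k := by
  have hnhds : N ∈ nhds (1 : Qbar ≃ₐ[ℚ] Qbar) := hN.mem_nhds h1
  haveI : IsAlgClosure ℚ Qbar := ⟨inferInstance, AlgebraicClosure.isAlgebraic ℚ⟩
  haveI : Normal ℚ Qbar := IsAlgClosure.normal ℚ Qbar
  obtain ⟨L, hfd, hnorm, hL⟩ := (krullTopology_mem_nhds_one_iff_of_normal ℚ Qbar N).mp hnhds
  exact @exists_inertia_generator A L hnorm hfd p hp hA U _ _ hU f fun σ hσ => hf σ (hL hσ)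

end Fermat.Agent.MAZ.Desc.TameCyclic11
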