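/-
MAZ (S15) G-side, brick DELTA-HALF (helper11): `δ' ≤ ½`.

`M` a finite abelian `r`-group with an action of `G_ℚ = Gal(Qbar/ℚ)` with open kernel, `A` a
valuation subring of `Qbar` over a prime `p ≠ r`, `I = A.inertiaSubgroupIn ℚ`.  If
`(σ - 1)(τ - 1) = 0` on `M` for all `σ τ ∈ I` (e.g. `I` acts trivially on a subgroup `M'` and on
`M / M'`: `quad_of_filtration`), then, tame inertia being procyclic (`TameCyclic11`),

* `exists_inertia_generator_module` : `∃ s ∈ I, ∀ x, (∀ σ ∈ I, σ • x = x) ↔ s • x = x`;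
* `card_le_sq_card_inertiaInvariants` : `#M ≤ (#M^I)²`, i.e. `#(M / M^I) ≤ #M^I`
  (`card_quotient_le`).
-/
import Mathlib
import Fermat.Agent.MAZ.Desc.TameCyclic11

set_option autoImplicit false
set_option linter.unusedSectionVars false
set_option linter.style.haveILetI false

namespace Fermat.Agent.MAZ.Desc.DeltaHalf11

/-! ### Abstract part (Mathlib only) -/

section Abstract

variable {G : Type*} [Group G] (H : Subgroup G) {M : Type*} [AddCommGroup M]
  [DistribMulAction G M]

/-- the `H`-invariants of `M`. -/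
def invariants : AddSubgroup M where
  carrier := {x | ∀ σ ∈ H, σ • x = x}
  zero_mem' := fun σ _ => smul_zero σ
  add_mem' := fun {a b} ha hb σ hσ => by rw [smul_add, ha σ hσ, hb σ hσ]
  neg_mem' := fun {a} ha σ hσ => by rw [smul_neg, ha σ hσ]

theorem mem_invariants {x : M} : x ∈ invariants H (M := M) ↔ ∀ σ ∈ H, σ • x = x := Iff.rfl

variable (M) in
/-- `σ - 1` as an additive endomorphism. -/
def phi (σ : G) : M →+ M := DistribSMul.toAddMonoidHom M σ - AddMonoidHom.id M

@[simp] theorem phi_apply (σ : G) (x : M) : phi M σ x = σ • x - x := rfl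

/-- the hypothesis `(σ - 1)(τ - 1) = 0` on `H`. -/
def Quad : Prop := ∀ σ ∈ H, ∀ τ ∈ H, ∀ x : M, σ • (τ • x - x) = τ • x - x

/-- `Quad` holds when `H` acts trivially on a subgroup `M'` and on `M / M'`. -/
theorem quad_of_filtration (M' : AddSubgroup M) (h1 : ∀ σ ∈ H, ∀ x ∈ M', σ • x = x)
    (h2 : ∀ σ ∈ H, ∀ x : M, σ • x - x ∈ M') : Quad H (M := M) :=
  fun σ hσ τ hτ x => h1 σ hσ _ (h2 τ hτ x)

variable {H}

/-- `σ ↦ σ - 1` is a homomorphism `H → (End M, +)` under `Quad`. -/
def phiHom (hq : Quad H (M := M)) : ↥H →* Multiplicative (M →+ M) where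
  toFun σ := Multiplicative.ofAdd (phi M (σ : G))
  map_one' := by
    rw [← ofAdd_zero]
    congr 1
    ext x
    simp
  map_mul' σ τ := by
    rw [← ofAdd_add]
    congr 1
    ext x
    have := hq σ σ.2 τ τ.2 x
    simp only [phi_apply, Subgroup.coe_mul, AddMonoidHom.add_apply, mul_smul]
    rw [smul_sub] at this
    rw [← this]
    abel

theorem phiHom_apply (hq : Quad H (M := M)) (σ : ↥H) :
    Multiplicative.toAdd (phiHom hq σ) = phi M (σ : G) := rfl

theorem phi_eq_nsmul_of_pow (hq : Quad H (M := M)) {s σ : ↥H} {k : ℕ}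
    (h : phiHom hq σ = phiHom hq s ^ k) : phi M (σ : G) = k • phi M (s : G) := by
  have := congrArg Multiplicative.toAdd h
  rw [toAdd_pow, phiHom_apply, phiHom_apply] at this
  exact this

/-- with a cyclic image, the invariants are the kernel of `s - 1`. -/
theorem mem_invariants_iff_of_generator (hq : Quad H (M := M)) {s : ↥H}
    (hs : ∀ σ : ↥H, ∃ k : ℕ, phiHom hq σ = phiHom hq s ^ k) (x : M) :
    x ∈ invariants H (M := M) ↔ (s : G) • x = x := by
  constructor
  · intro hx; exact hx s s.2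
  · intro hx σ hσ
    obtain ⟨k, hk⟩ := hs ⟨σ, hσ⟩
    have h1 := phi_eq_nsmul_of_pow hq hk
    have h2 := congrArg (fun f : M →+ M => f x) h1
    simp only [phi_apply, AddMonoidHom.coe_smul, Pi.smul_apply] at h2
    rw [hx, sub_self, smul_zero] at h2
    exact sub_eq_zero.mp h2

/-- **`#M ≤ (#M^H)²`** when the image of `H` in `End M` is cyclic. -/
theorem card_le_sq_of_generator [Finite M] (hq : Quad H (M := M)) {s : ↥H}
    (hs : ∀ σ : ↥H, ∃ k : ℕ, phiHom hq σ = phiHom hq s ^ k) :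
    Nat.card M ≤ Nat.card (invariants H (M := M)) ^ 2 := by
  have hker : (phi M (s : G)).ker = invariants H (M := M) := by
    ext x
    rw [AddMonoidHom.mem_ker, phi_apply, sub_eq_zero, mem_invariants_iff_of_generator hq hs]
  have hrange : (phi M (s : G)).range ≤ invariants H (M := M) := by
    rintro _ ⟨x, rfl⟩ σ hσ
    exact hq σ hσ s s.2 x
  have h1 : Nat.card M = Nat.card (phi M (s : G)).range * Nat.card (phi M (s : G)).ker := by
    rw [AddSubgroup.card_eq_card_quotient_mul_card_addSubgroup (phi M (s : G)).ker,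
      Nat.card_congr (QuotientAddGroup.quotientKerEquivRange (phi M (s : G))).toEquiv]
  rw [h1, hker, sq]
  exact Nat.mul_le_mul_right _ (AddSubgroup.card_le_of_le hrange)

/-- the quotient form. -/
theorem card_quotient_le_of_generator [Finite M] (hq : Quad H (M := M)) {s : ↥H}
    (hs : ∀ σ : ↥H, ∃ k : ℕ, phiHom hq σ = phiHom hq s ^ k) :
    Nat.card (M ⧸ invariants H (M := M)) ≤ Nat.card (invariants H (M := M)) := by
  have h := card_le_sq_of_generator hq hs
  rw [AddSubgroup.card_eq_card_quotient_mul_card_addSubgroup (invariants H (M := M)), sq] at h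
  exact Nat.le_of_mul_le_mul_right h Nat.card_pos

/-- `End M` is a finite `r`-group when `#M = r ^ n`. -/
theorem card_end_coprime [Finite M] {r p : ℕ} (hr : r.Prime) (hp : p.Prime) (hrp : r ≠ p)
    (hM : ∃ n : ℕ, Nat.card M = r ^ n) :
    Finite (Multiplicative (M →+ M)) ∧ (Nat.card (Multiplicative (M →+ M))).Coprime p := by
  haveI : Finite (M →+ M) := Finite.of_injective (fun f : M →+ M => (f : M → M))
    DFunLike.coe_injective
  haveI : Finite (Multiplicative (M →+ M)) := inferInstanceAs (Finite (M →+ M))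
  refine ⟨inferInstance, ?_⟩
  obtain ⟨n, hn⟩ := hM
  haveI : Fact r.Prime := ⟨hr⟩
  have hpg : IsPGroup r (Multiplicative (M →+ M)) := by
    intro u
    refine ⟨n, ?_⟩
    apply Multiplicative.toAdd.injective
    rw [toAdd_pow, toAdd_one]
    ext x
    rw [AddMonoidHom.coe_smul, Pi.smul_apply, AddMonoidHom.zero_apply, ← map_nsmul, ← hn,
      card_nsmul_eq_zero', map_zero]
  obtain ⟨k, hk⟩ := IsPGroup.iff_card.mp hpg
  rw [hk]
  exact Nat.Coprime.pow_left k ((Nat.coprime_primes hr hp).mpr hrp)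

end Abstract

/-! ### The inertia group at `p` -/

open Fermat.Agent.RED.Interface4

variable {M : Type*} [AddCommGroup M] [Finite M] [DistribMulAction (Qbar ≃ₐ[ℚ] Qbar) M]
  {p r : ℕ}

/-- **the image of inertia at `p` in `End M` is cyclic** (`M` a finite `r`-group, `r ≠ p`). -/
theorem exists_phiHom_generator (hp : p.Prime) (hr : r.Prime) (hrp : r ≠ p)
    (hM : ∃ n : ℕ, Nat.card M = r ^ n)
    (hopen : IsOpen {σ : Qbar ≃ₐ[ℚ] Qbar | ∀ x : M, σ • x = x})
    (A : ValuationSubring Qbar) (hA : A.LiesOverPrime p)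
    (hq : Quad (A.inertiaSubgroupIn ℚ) (M := M)) :
    ∃ s : ↥(A.inertiaSubgroupIn ℚ), ∀ σ : ↥(A.inertiaSubgroupIn ℚ),
      ∃ k : ℕ, phiHom hq σ = phiHom hq s ^ k := by
  obtain ⟨hfin, hcop⟩ := card_end_coprime (M := M) hr hp hrp hM
  haveI := hfin
  refine TameCyclic11.exists_inertia_generator_of_isOpen A hp hA hcop (phiHom hq) _ hopen
    (fun x => one_smul _ x) ?_
  intro σ hσ
  apply Multiplicative.toAdd.injective
  rw [phiHom_apply, toAdd_one]
  ext x
  rw [phi_apply, hσ x, sub_self, AddMonoidHom.zero_apply]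

/-- **the inertia invariants are the fixed points of ONE element of inertia.** -/
theorem exists_inertia_generator_module (hp : p.Prime) (hr : r.Prime) (hrp : r ≠ p)
    (hM : ∃ n : ℕ, Nat.card M = r ^ n)
    (hopen : IsOpen {σ : Qbar ≃ₐ[ℚ] Qbar | ∀ x : M, σ • x = x})
    (A : ValuationSubring Qbar) (hA : A.LiesOverPrime p)
    (hq : Quad (A.inertiaSubgroupIn ℚ) (M := M)) :
    ∃ s ∈ A.inertiaSubgroupIn ℚ, ∀ x : M,
      (∀ σ ∈ A.inertiaSubgroupIn ℚ, σ • x = x) ↔ s • x = x := by
  obtain ⟨s, hs⟩ := exists_phiHom_generator hp hr hrp hM hopen A hA hq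
  exact ⟨s, s.2, fun x => mem_invariants_iff_of_generator hq hs x⟩

/-- **DELTA-HALF: `#M ≤ (#M^I)²`.** -/
theorem card_le_sq_card_inertiaInvariants (hp : p.Prime) (hr : r.Prime) (hrp : r ≠ p)
    (hM : ∃ n : ℕ, Nat.card M = r ^ n)
    (hopen : IsOpen {σ : Qbar ≃ₐ[ℚ] Qbar | ∀ x : M, σ • x = x})
    (A : ValuationSubring Qbar) (hA : A.LiesOverPrime p)
    (hq : Quad (A.inertiaSubgroupIn ℚ) (M := M)) :
    Nat.card M ≤ Nat.card (invariants (A.inertiaSubgroupIn ℚ) (M := M)) ^ 2 := by
  obtain ⟨s, hs⟩ := exists_phiHom_generator hp hr hrp hM hopen A hA hq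
  exact card_le_sq_of_generator hq hs

/-- **DELTA-HALF, quotient form: `#(M / M^I) ≤ #M^I`.** -/
theorem card_quotient_le (hp : p.Prime) (hr : r.Prime) (hrp : r ≠ p)
    (hM : ∃ n : ℕ, Nat.card M = r ^ n)
    (hopen : IsOpen {σ : Qbar ≃ₐ[ℚ] Qbar | ∀ x : M, σ • x = x})
    (A : ValuationSubring Qbar) (hA : A.LiesOverPrime p)
    (hq : Quad (A.inertiaSubgroupIn ℚ) (M := M)) :
    Nat.card (M ⧸ invariants (A.inertiaSubgroupIn ℚ) (M := M)) ≤
      Nat.card (invariants (A.inertiaSubgroupIn ℚ) (M := M)) := by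
  obtain ⟨s, hs⟩ := exists_phiHom_generator hp hr hrp hM hopen A hA hq
  exact card_quotient_le_of_generator hq hs

end Fermat.Agent.MAZ.Desc.DeltaHalf11
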