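/-
MAZ (S15), G-side (descent), brick DUAL WITH MARKS, part 2 (helper95): **the descent assembly with
the symmetric marked devissage** (`r`-agnostic; needed for `r = 2`).  The marked twin of helper2's
`DescentAsmDual2`: `DescentAsmMarked95` + `DualDevissageMarked95` + `DescentAsmDual2` (restriction /
projection of functionals) + `KerAdapter80`.

Inputs on `M ≅ J[r ^ k]` with a mark `M₀` (points reducing to `0` at a place over `r`); write
`M_P := primaryPart (ker π) M` with the induced mark `M₀ ∩ M_P = primaryMark (ker π) M₀`: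
* `F.Ok M M₀`;
* a finite cyclic `G`-module `C` killing `M`, on which inertia at `p` acts trivially and every `g`
  acts by an integer `u` with `δ g = u` on `M`;
* `hI` : inertia at `p` acts trivially on `M ⧸ Mf`;
* CARTIER WITH MARKS, **v2, on the primary part and with an ABSTRACT dual mark** `D₀ ≤ Hom(M_P, C)`
  (think: the connected part of the Cartier dual of the order on `M_P`; NOT `M₀^⊥` in general):
  `F.Ok (M_P × Hom(M_P, C)) ((M₀ ∩ M_P) × D₀)` and the COUNT `#D₀ · #(M₀ ∩ M_P) ≤ #M_P` (true for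
  the rank-one-filtered module `M_P`, in general false for `M` itself);
* (HOM-μ) : `#Hom_G(M, C) ≤ B` (on `M`; it restricts to `M_P`).
No `α`-half, no `δ`-half, no ordinarity at `r`.

`card_H1S_primaryCone_le_dual_marked` is the count WITHOUT any `T`-action on the cone datum (no
`T`-stability of the mark): `#H1S (𝕄_P) ≤ #H0S (𝕄_P) · B`.  The forms with `hact`/`hM₀` below add the
`T`-module structure on `H1S 𝕄` for a `T`-stable mark; for a mark that is not known to be `T`-stable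
pass to the `T`-core of the cone datum first (helper92's `ConeCore92`) and use the count above.
-/
import Mathlib
import Fermat.Agent.MAZ.Desc.DescentAsmMarked95
import Fermat.Agent.MAZ.Desc.DualDevissageMarked95
import Fermat.Agent.MAZ.Desc.DescentAsmDual2

set_option autoImplicit false
set_option linter.style.haveILetI false
set_option linter.unusedSectionVars false

namespace Fermat.Agent.MAZ.Desc.DescentAsmDualMarked95

open Fermat.Agent.MAZ.Desc.SelmerCone95 Fermat.Agent.MAZ.Desc.KummerCone95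
  Fermat.Agent.MAZ.Desc.Devissage95 Fermat.Agent.MAZ.Desc.PrimaryPart19
  Fermat.Agent.MAZ.Desc.ConePrimary95 Fermat.Agent.MAZ.Desc.DescentAsm95
  Fermat.Agent.MAZ.Desc.EisFiltration19 Fermat.Agent.MAZ.Desc.DualModule2
  Fermat.Agent.MAZ.Desc.DualDevissage2 Fermat.Agent.MAZ.Desc.DescentAsmDual2
  Fermat.Agent.MAZ.Desc.DevissageMarked95 Fermat.Agent.MAZ.Desc.DescentAsmMarked95
  Fermat.Agent.MAZ.Desc.DualDevissageMarked95

universe u

attribute [local instance] primaryDMA

section Family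

variable {G : Type*} [Group G] {D I : Subgroup G} {T : Type*} [CommRing T]
variable {M : Type u} [AddCommGroup M] [DistribMulAction G M] [Module T M] [SMulCommClass G T M]
variable (C : Type u) [AddCommGroup C] [DistribMulAction G C]

/-- the class `Ok` of `M × Hom(M, C)` with the mark `M₀ × M₀^⊥` passes to the primary part (for a
`T`-stable mark). -/
theorem ok_primary_dualM [Finite M] (F : MarkedFamily.{u} G) (M₀ : AddSubgroup M)
    (hM₀ : ∀ (t : T), ∀ x ∈ M₀, t • x ∈ M₀) (hOk : F.Ok (M × Dual M C) (prodMark C M₀))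
    (P : Ideal T) :
    F.Ok (primaryPart P M × Dual (primaryPart P M) C) (prodMark C (primaryMark P M₀)) := by
  obtain ⟨e, he⟩ := exists_isProj P M
  -- the intermediate object `M × Hom(M_P, C)`
  let q : M × Dual M C →+ M × Dual (primaryPart P M) C :=
    AddMonoidHom.prodMap (AddMonoidHom.id M) (resP C P)
  have hq : ∀ (σ : G) (x : M × Dual M C), q (σ • x) = σ • q x := fun σ x =>
    Prod.ext rfl (resP_equivariant C P σ x.2)
  have hqs : Function.Surjective q := fun y => by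
    obtain ⟨f, hf⟩ := resP_surjective C P y.2
    exact ⟨(y.1, f), Prod.ext rfl hf⟩
  set N₁₀ : AddSubgroup (M × Dual (primaryPart P M) C) :=
    M₀.prod (Dual.ann C (primaryMark P M₀)) with hN₁₀
  have hq_mark : ∀ y, y ∈ N₁₀ ↔ ∃ x ∈ prodMark C M₀, q x = y := by
    rintro ⟨y1, y2⟩
    constructor
    · rintro ⟨h1, h2⟩
      -- extend `y2` by the projector
      refine ⟨(y1, Dual.mk (y2.hom.comp (projP P he))), ⟨h1, fun x hx => ?_⟩, Prod.ext rfl ?_⟩
      · change y2.hom (projP P he x) = 0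
        refine h2 _ ?_
        change ((projP P he x : primaryPart P M) : M) ∈ M₀
        rw [projP_coe]
        exact hM₀ e x hx
      · apply Dual.ext
        intro x
        change y2.hom (projP P he (x : M)) = y2.hom x
        rw [projP_incl]
    · rintro ⟨⟨x1, x2⟩, ⟨h1, h2⟩, hx⟩
      have e1 : x1 = y1 := congrArg Prod.fst hx
      have e2 : resP C P x2 = y2 := congrArg Prod.snd hx
      refine ⟨e1 ▸ h1, fun z hz => ?_⟩
      rw [← e2, resP_hom]
      exact h2 _ hz
  have h1 : F.Ok (M × Dual (primaryPart P M) C) N₁₀ :=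
    F.ok_quot (prodMark C M₀) N₁₀ q hq hqs hq_mark hOk
  let j : primaryPart P M × Dual (primaryPart P M) C →+ M × Dual (primaryPart P M) C :=
    AddMonoidHom.prodMap (inclP P) (AddMonoidHom.id _)
  have hj : ∀ (σ : G) (x : primaryPart P M × Dual (primaryPart P M) C),
      j (σ • x) = σ • j x := fun σ x => rfl
  have hji : Function.Injective j := fun a b hab => by
    have h1 : (j a).1 = (j b).1 := congrArg Prod.fst hab
    have h2 : (j a).2 = (j b).2 := congrArg Prod.snd hab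
    exact Prod.ext (inclP_injective P h1) h2
  have hj_mark : ∀ z, z ∈ prodMark C (primaryMark P M₀) ↔ j z ∈ N₁₀ := fun z => Iff.rfl
  exact F.ok_sub (prodMark C (primaryMark P M₀)) N₁₀ j hj hji hj_mark h1

variable {C}
variable (𝕄 : ConeData D I M)
  (hact : ∀ t : T, ConeHom 𝕄 𝕄 (DistribSMul.toAddMonoidHom M t))
variable {r : ℕ} [Fact r.Prime] {π : T →+* ZMod r} {χ : G →* ZMod r} {τ δ : G → T}

/-- **The symmetric marked devissage on the `ker π`-primary part: the count, with NO `T`-action on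
the cone datum** (v2: the CARTIER-with-marks input lives on the primary part, with an abstract dual
mark `D₀` and the numeric hypothesis `hD₀`). -/
theorem card_H1S_primaryCone_le_dual_marked (F : MarkedFamily.{u} G)
    (hR : RankOneBoundM F D I r χ) [Finite M] (M₀ : AddSubgroup M) (hOk : F.Ok M M₀)
    (htau : ∀ g, π (τ g) = 1 + χ g) (hdelta : ∀ g, π (δ g) = χ g)
    (hrel : ∀ (g : G) (x : M), g • g • x - τ g • g • x + δ g • x = 0)
    (h𝕄 : 𝕄.Z = F.Z M M₀) [Finite C] [IsAddCyclic C]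
    (hMC : ∀ x : M, Nat.card C • x = 0) (hIC : ∀ σ ∈ I, ∀ c : C, σ • c = c)
    (hδ : ∀ g : G, ∃ u : ℕ, (∀ c : C, g • c = u • c) ∧ ∀ x : M, δ g • x = u • x)
    (hI : ∀ σ ∈ I, ∀ x : M, σ • x - x ∈ 𝕄.Mf)
    (D₀ : AddSubgroup (Dual (primaryPart (RingHom.ker π) M) C))
    (hOkN : F.Ok (primaryPart (RingHom.ker π) M × Dual (primaryPart (RingHom.ker π) M) C)
      ((primaryMark (RingHom.ker π) M₀).prod D₀))
    (hD₀ : Nat.card D₀ * Nat.card (primaryMark (RingHom.ker π) M₀) ≤
      Nat.card (primaryPart (RingHom.ker π) M)) (B : ℕ)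
    (hB : Nat.card (equivariantHoms G M C) ≤ B) :
    Finite (H1S (primaryCone 𝕄 (RingHom.ker π))) ∧
      Nat.card (H1S (primaryCone 𝕄 (RingHom.ker π))) ≤
        Nat.card (H0S (primaryCone 𝕄 (RingHom.ker π))) * B := by
  haveI := primary_smulCommClass (G := G) (M := M) (RingHom.ker π)
  have E : EisData π χ τ δ (primaryPart (RingHom.ker π) M) :=
    eisData_primaryPart htau hdelta hrel
  exact card_H1S_le_of_equivariantHoms_marked F hR
    (primaryPart (RingHom.ker π) M) C
    (fun x => Subtype.ext (hMC x)) hIC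
    (fun g => by
      obtain ⟨u, h2, h3⟩ := hδ g
      exact ⟨u, h2, fun x => Subtype.ext (h3 x)⟩)
    E (primaryCone 𝕄 (RingHom.ker π)) (primaryMark (RingHom.ker π) M₀)
    (primaryCone_Z_eqM F M₀ hOk 𝕄 h𝕄 _)
    (fun σ hσ x => hI σ hσ x) D₀ hOkN hD₀ B
    ((card_equivariantHoms_primary_le C _).trans hB)

/-- **The symmetric marked devissage on the `ker π`-primary part bounds the `ker π`-primary part of
`H1S`** (for a cone datum on which `T` acts). -/
theorem card_primaryPart_H1S_le_dual_marked (F : MarkedFamily.{u} G)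
    (hR : RankOneBoundM F D I r χ) [Finite M] (M₀ : AddSubgroup M) (hOk : F.Ok M M₀)
    (htau : ∀ g, π (τ g) = 1 + χ g) (hdelta : ∀ g, π (δ g) = χ g)
    (hrel : ∀ (g : G) (x : M), g • g • x - τ g • g • x + δ g • x = 0)
    (h𝕄 : 𝕄.Z = F.Z M M₀) [Finite C] [IsAddCyclic C]
    (hMC : ∀ x : M, Nat.card C • x = 0) (hIC : ∀ σ ∈ I, ∀ c : C, σ • c = c)
    (hδ : ∀ g : G, ∃ u : ℕ, (∀ c : C, g • c = u • c) ∧ ∀ x : M, δ g • x = u • x)
    (hI : ∀ σ ∈ I, ∀ x : M, σ • x - x ∈ 𝕄.Mf)
    (D₀ : AddSubgroup (Dual (primaryPart (RingHom.ker π) M) C))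
    (hOkN : F.Ok (primaryPart (RingHom.ker π) M × Dual (primaryPart (RingHom.ker π) M) C)
      ((primaryMark (RingHom.ker π) M₀).prod D₀))
    (hD₀ : Nat.card D₀ * Nat.card (primaryMark (RingHom.ker π) M₀) ≤
      Nat.card (primaryPart (RingHom.ker π) M)) (B : ℕ)
    (hB : Nat.card (equivariantHoms G M C) ≤ B) :
    letI := moduleH1S 𝕄 hact
    Finite (primaryPart (RingHom.ker π) (H1S 𝕄)) ∧
      Nat.card (primaryPart (RingHom.ker π) (H1S 𝕄)) ≤
        Nat.card (H0S (primaryCone 𝕄 (RingHom.ker π))) * B := by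
  letI := moduleH1S 𝕄 hact
  obtain ⟨hfin, hle⟩ := card_H1S_primaryCone_le_dual_marked 𝕄 F hR M₀ hOk htau hdelta hrel h𝕄
    hMC hIC hδ hI D₀ hOkN hD₀ B hB
  haveI := hfin
  obtain ⟨y, hy⟩ := exists_injective_primaryPart_H1S 𝕄 hact (RingHom.ker π)
  exact ⟨Finite.of_injective y hy, (Nat.card_le_card_of_injective y hy).trans hle⟩

end Family

/-! ### The assembly -/

section Assembly

variable {G : Type*} [Group G] {D I : Subgroup G} {T : Type*} [CommRing T]
variable {J : Type*} [AddCommGroup J] [DistribMulAction G J] [Module T J]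
variable {M : Type u} [AddCommGroup M] [DistribMulAction G M] [Module T M] [SMulCommClass G T M]
variable {n : ℕ} {r : ℕ} [Fact r.Prime] {π : T →+* ZMod r} {χ : G →* ZMod r} {τ δ : G → T}

/-- **DESCENT-ASM, DUAL form with marks** (for a `T`-stable mark `M₀`; v2: the CARTIER-with-marks
input on the primary part, with the abstract dual mark `D₀`).  `[SMulCommClass G T M]` is a
`Prop`-valued instance argument (it follows from `hL`: `hL.smulCommClass`). -/
theorem descent_asm_dual_marked (F : MarkedFamily.{u} G) (hR : RankOneBoundM F D I r χ)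
    [Finite M] (K : KummerData D I J M n) (A : Submodule T J) (hL : Lin K A) (hK : K.Hyp)
    (M₀ : AddSubgroup M) (hM₀ : ∀ (t : T), ∀ x ∈ M₀, t • x ∈ M₀)
    (hOk : F.Ok M M₀) (hZ : K.cone.Z = F.Z M M₀)
    (htau : ∀ g, π (τ g) = 1 + χ g) (hdelta : ∀ g, π (δ g) = χ g)
    (hrel : ∀ (g : G) (x : M), g • g • x - τ g • g • x + δ g • x = 0)
    (C : Type u) [AddCommGroup C] [DistribMulAction G C] [Finite C] [IsAddCyclic C]
    (hMC : ∀ x : M, Nat.card C • x = 0) (hIC : ∀ σ ∈ I, ∀ c : C, σ • c = c)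
    (hδ : ∀ g : G, ∃ u : ℕ, (∀ c : C, g • c = u • c) ∧ ∀ x : M, δ g • x = u • x)
    (hI : ∀ σ ∈ I, ∀ x : M, σ • x - x ∈ K.cone.Mf)
    (D₀ : AddSubgroup (Dual (primaryPart (RingHom.ker π) M) C))
    (hOkN : F.Ok (primaryPart (RingHom.ker π) M × Dual (primaryPart (RingHom.ker π) M) C)
      ((primaryMark (RingHom.ker π) M₀).prod D₀))
    (hD₀ : Nat.card D₀ * Nat.card (primaryMark (RingHom.ker π) M₀) ≤
      Nat.card (primaryPart (RingHom.ker π) M)) (B : ℕ)
    (hB : Nat.card (equivariantHoms G M C) ≤ B)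
    (Tt : AddSubgroup J) [Finite Tt] (hTt : ∀ x ∈ K.A, n • x = 0 → x ∈ Tt) :
    ∃ (_ : Module T (H1S K.cone)) (f : A →ₗ[T] H1S K.cone),
      (∀ a : A, n • f a = 0) ∧ (∀ a : A, f a = 0 → ∃ w ∈ K.A, n • w = (a : J)) ∧
      (Set.univ ∩ {x : H1S K.cone | ∃ j : ℕ, ∀ t ∈ RingHom.ker π ^ j, t • x = 0}).Finite ∧
      (Set.univ ∩ {x : H1S K.cone | ∃ j : ℕ, ∀ t ∈ RingHom.ker π ^ j, t • x = 0}).ncard ≤
        Nat.card Tt * B := by
  have hact : ∀ t : T, ConeHom K.cone K.cone (DistribSMul.toAddMonoidHom M t) :=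
    coneHom_smulM F M₀ hOk K.cone hZ hL.smul_mem_Mf hM₀
  letI := moduleH1S K.cone hact
  obtain ⟨hfin, hle⟩ := card_primaryPart_H1S_le_dual_marked K.cone hact F hR M₀ hOk htau hdelta
    hrel hZ hMC hIC hδ hI D₀ hOkN hD₀ B hB
  have hH0 := card_H0S_primaryCone_le_of_kummer K (RingHom.ker π) Tt hTt
  have hset : (Set.univ ∩ {x : H1S K.cone | ∃ j : ℕ, ∀ t ∈ RingHom.ker π ^ j, t • x = 0}) =
      ((primaryPart (RingHom.ker π) (H1S K.cone) : Submodule T (H1S K.cone)) :
        Set (H1S K.cone)) := by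
    rw [Set.univ_inter]
    rfl
  refine ⟨moduleH1S K.cone hact, kummerLin hL hK hact, nsmul_kummerLin hL hK hact,
    kummerLin_eq_zero hL hK hact, ?_, ?_⟩
  · rw [hset]
    exact Set.toFinite _
  · rw [hset]
    have e : ((primaryPart (RingHom.ker π) (H1S K.cone) : Submodule T (H1S K.cone)) :
        Set (H1S K.cone)).ncard = Nat.card (primaryPart (RingHom.ker π) (H1S K.cone)) :=
      (Nat.card_coe_set_eq _).symm
    rw [e]
    exact hle.trans (Nat.mul_le_mul_right _ hH0)

end Assembly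

/-! ### All levels -/

section Levels

open Fermat.Agent.MAZ.Spec.GSpec26

variable {G : Type} [Group G] {D I : Subgroup G} {T : Type} [CommRing T]
variable {J : Type} [AddCommGroup J] [DistribMulAction G J] [Module T J]
variable {r : ℕ} [Fact r.Prime] {π : T →+* ZMod r} {χ : G →* ZMod r} {τ δ : G → T}

/-- the data of the marked descent at the level `r ^ k`, DUAL form (for a `T`-stable mark; v2: the
CARTIER-with-marks input on the primary part, with the abstract dual mark `D₀`). -/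
def LevelDataDualM (D I : Subgroup G) (A Y : Submodule T J) (F : MarkedFamily.{0} G)
    (π : T →+* ZMod r) (τ δ : G → T) (Tt : AddSubgroup J) (B : ℕ) (k : ℕ) : Prop :=
  ∃ (M : Type) (_ : AddCommGroup M) (_ : DistribMulAction G M) (_ : Module T M)
    (_ : SMulCommClass G T M) (_ : Finite M)
    (K : KummerData D I J M (r ^ k)) (_ : Lin K A) (M₀ : AddSubgroup M)
    (C : Type) (_ : AddCommGroup C) (_ : DistribMulAction G C) (_ : Finite C) (_ : IsAddCyclic C)
    (D₀ : AddSubgroup (Dual (primaryPart (RingHom.ker π) M) C)),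
    K.Hyp ∧ (∀ (t : T), ∀ x ∈ M₀, t • x ∈ M₀) ∧ F.Ok M M₀ ∧ K.cone.Z = F.Z M M₀ ∧
    (∀ w ∈ K.A, w ∈ Y) ∧
    (∀ (g : G) (x : M), g • g • x - τ g • g • x + δ g • x = 0) ∧
    (∀ x : M, Nat.card C • x = 0) ∧ (∀ σ ∈ I, ∀ c : C, σ • c = c) ∧
    (∀ g : G, ∃ u : ℕ, (∀ c : C, g • c = u • c) ∧ ∀ x : M, δ g • x = u • x) ∧
    (∀ σ ∈ I, ∀ x : M, σ • x - x ∈ K.cone.Mf) ∧
    F.Ok (primaryPart (RingHom.ker π) M × Dual (primaryPart (RingHom.ker π) M) C)
      ((primaryMark (RingHom.ker π) M₀).prod D₀) ∧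
    Nat.card D₀ * Nat.card (primaryMark (RingHom.ker π) M₀) ≤
      Nat.card (primaryPart (RingHom.ker π) M) ∧
    Nat.card (equivariantHoms G M C) ≤ B ∧
    ∀ x ∈ K.A, (r ^ k) • x = 0 → x ∈ Tt

/-- **The uniform bound from the symmetric marked descent at every level** (the conclusion is
`GSpec26.EisBound A (ker π) r B'` when `J = JZero p`). -/
theorem exists_bound_dual_marked (Y A : Submodule T J) (hAY : A ≤ Y) [Module.Finite ℤ Y] (N : ℕ)
    (hN : 0 < N) (hNA : ∀ y ∈ Y, N • y ∈ A) (F : MarkedFamily.{0} G)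
    (hR : RankOneBoundM F D I r χ) (htau : ∀ g, π (τ g) = 1 + χ g)
    (hdelta : ∀ g, π (δ g) = χ g) (Tt : AddSubgroup J) [Finite Tt] (B : ℕ)
    (hk : ∀ k : ℕ, LevelDataDualM (r := r) D I A Y F π τ δ Tt B k) :
    ∃ B' : ℕ, ∀ k : ℕ,
      (primarySet (RingHom.ker π) (A ⧸ (Ideal.span {(r : T) ^ k} • ⊤ : Submodule T A))).Finite ∧
        (primarySet (RingHom.ker π)
          (A ⧸ (Ideal.span {(r : T) ^ k} • ⊤ : Submodule T A))).ncard ≤ B' := by
  obtain ⟨B', hB'⟩ := Fermat.Agent.MAZ.Desc.KerAdapter80.kerAdapter Y A hAY N hN hNA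
    (RingHom.ker π) r (Nat.card Tt * B)
  refine ⟨B', fun k => ?_⟩
  obtain ⟨M, i1, i2, i3, i5, i4, K, hL, M₀, C, c1, c2, c3, c4, D₀, hK, hM₀, hOk, hZ, hKA, hrel,
    hMC, hIC, hδ, hI, hOkN, hD₀, hB, hTt⟩ := hk k
  obtain ⟨inst, f, h1, h2, h3, h4⟩ := descent_asm_dual_marked F hR K A hL hK M₀ hM₀ hOk hZ htau
    hdelta hrel C hMC hIC hδ hI D₀ hOkN hD₀ B hB Tt hTt
  refine hB' k (H1S K.cone) Set.univ f h1 (fun a ha => ?_) (fun a => Set.mem_univ _) h3 h4
  obtain ⟨w, hw, hwa⟩ := h2 a ha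
  exact ⟨w, hKA w hw, hwa⟩

end Levels

end Fermat.Agent.MAZ.Desc.DescentAsmDualMarked95
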