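/-
MAZ (S15), G-side (descent), brick DUAL WITH MARKS, core form (helper95): **the symmetric marked
descent WITHOUT the hypothesis that the mark is stable under `T`** (`r`-agnostic; this is the form
needed for `r = 2`).  `DescentAsmDualMarked95` (v2: abstract dual mark on the primary part) +
helper92's `ConeCore92` (the `T`-stable core of a cone datum) + `KerAdapter80`.

* `card_primaryPart_H1S_core_le_dual_marked` : the `ker π`-primary part of `H1S` of the core is
  finite of order at most `#H0S (𝕄_P) · B`;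
* **`descent_asm_dual_core`** : the inner hypotheses of `KerAdapter80.kerAdapter`, with
  `H1S (core T K).cone` as the target of the `T`-linear Kummer map and the bound `#Tt · B`;
* `LevelDataDualCore`, **`exists_bound_dual_core`** : the uniform bound, ALL auxiliary data (`F`, `χ`,
  `τ`, `δ`, the mark, `C`, the dual mark) depending on the level `k` (as in
  `KummerInst26.exists_bound_var`); the conclusion is `GSpec26.EisBound A (ker π) r B'` when
  `J = JZero p`.

Inputs at each level (see `DescentAsmDualMarked95`): `F.Ok M M₀`, `K.cone.Z = F.Z M M₀`, EIS-REL,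
`C` (= `μ_{r^k}`) with `hMC`/`hIC`/`hδ`, `hI`, CARTIER WITH MARKS on the primary part (`D₀`, `hOkN`,
`hD₀`), (HOM-μ).  No `T`-stable mark, no `α`-half, no `δ`-half, no ordinarity at `r`.
-/
import Mathlib
import Fermat.Agent.MAZ.Desc.ConeCore92
import Fermat.Agent.MAZ.Desc.DescentAsmDualMarked95

set_option autoImplicit false
set_option linter.style.haveILetI false
set_option linter.unusedSectionVars false

namespace Fermat.Agent.MAZ.Desc.DescentAsmDualCore95

open Fermat.Agent.MAZ.Desc.SelmerCone95 Fermat.Agent.MAZ.Desc.KummerCone95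
  Fermat.Agent.MAZ.Desc.Devissage95 Fermat.Agent.MAZ.Desc.PrimaryPart19
  Fermat.Agent.MAZ.Desc.ConePrimary95 Fermat.Agent.MAZ.Desc.DescentAsm95
  Fermat.Agent.MAZ.Desc.EisFiltration19 Fermat.Agent.MAZ.Desc.DualModule2
  Fermat.Agent.MAZ.Desc.DualDevissage2 Fermat.Agent.MAZ.Desc.DescentAsmDual2
  Fermat.Agent.MAZ.Desc.DevissageMarked95 Fermat.Agent.MAZ.Desc.DescentAsmMarked95
  Fermat.Agent.MAZ.Desc.DualDevissageMarked95 Fermat.Agent.MAZ.Desc.DescentAsmDualMarked95
  Fermat.Agent.MAZ.Desc.ConeCore92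

universe u

attribute [local instance] primaryDMA

/-! ### The primary part of `H1S` of the core -/

section Family

variable {G : Type*} [Group G] {D I : Subgroup G} {T : Type*} [CommRing T]
variable {M : Type u} [AddCommGroup M] [DistribMulAction G M] [Module T M] [SMulCommClass G T M]
variable {C : Type u} [AddCommGroup C] [DistribMulAction G C]
variable {r : ℕ} [Fact r.Prime] {π : T →+* ZMod r} {χ : G →* ZMod r} {τ δ : G → T}

/-- **The symmetric marked devissage on the `ker π`-primary part bounds the `ker π`-primary part of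
`H1S` of the core.**  No stability of the mark under `T`. -/
theorem card_primaryPart_H1S_core_le_dual_marked (F : MarkedFamily.{u} G)
    (hR : RankOneBoundM F D I r χ) [Finite M] (M₀ : AddSubgroup M) (hOk : F.Ok M M₀)
    (𝕄 : ConeData D I M) (hMf : ∀ (t : T), ∀ x ∈ 𝕄.Mf, t • x ∈ 𝕄.Mf)
    (htau : ∀ g, π (τ g) = 1 + χ g) (hdelta : ∀ g, π (δ g) = χ g)
    (hrel : ∀ (g : G) (x : M), g • g • x - τ g • g • x + δ g • x = 0)
    (h𝕄 : 𝕄.Z = F.Z M M₀) [Finite C] [IsAddCyclic C]
    (hMC : ∀ x : M, Nat.card C • x = 0) (hIC : ∀ σ ∈ I, ∀ c : C, σ • c = c)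
    (hδ : ∀ g : G, ∃ u : ℕ, (∀ c : C, g • c = u • c) ∧ ∀ x : M, δ g • x = u • x)
    (hI : ∀ σ ∈ I, ∀ x : M, σ • x - x ∈ 𝕄.Mf)
    (D₀ : AddSubgroup (Dual (primaryPart (RingHom.ker π) M) C))
    (hOkN : F.Ok (primaryPart (RingHom.ker π) M × Dual (primaryPart (RingHom.ker π) M) C)
      ((primaryMark (RingHom.ker π) M₀).prod D₀))
    (hD₀ : Nat.card D₀ * Nat.card (primaryMark (RingHom.ker π) M₀) ≤
      Nat.card (primaryPart (RingHom.ker π) M)) (B : ℕ)
    (hB : Nat.card (equivariantHoms G M C) ≤ B) :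
    letI := moduleH1S (coreCone T 𝕄) (coneHom_smul_core 𝕄 hMf)
    Finite (primaryPart (RingHom.ker π) (H1S (coreCone T 𝕄))) ∧
      Nat.card (primaryPart (RingHom.ker π) (H1S (coreCone T 𝕄))) ≤
        Nat.card (H0S (primaryCone 𝕄 (RingHom.ker π))) * B := by
  letI := moduleH1S (coreCone T 𝕄) (coneHom_smul_core 𝕄 hMf)
  obtain ⟨hfin, hle⟩ := card_H1S_primaryCone_le_dual_marked 𝕄 F hR M₀ hOk htau hdelta hrel h𝕄
    hMC hIC hδ hI D₀ hOkN hD₀ B hB
  haveI := hfin
  obtain ⟨y, hy⟩ := exists_injective_primaryPart_H1S_core 𝕄 hMf (RingHom.ker π)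
  exact ⟨Finite.of_injective y hy, (Nat.card_le_card_of_injective y hy).trans hle⟩

end Family

/-! ### The assembly -/

section Assembly

variable {G : Type*} [Group G] {D I : Subgroup G} {T : Type*} [CommRing T]
variable {J : Type*} [AddCommGroup J] [DistribMulAction G J] [Module T J]
variable {M : Type u} [AddCommGroup M] [DistribMulAction G M] [Module T M] [SMulCommClass G T M]
variable {n : ℕ} {r : ℕ} [Fact r.Prime] {π : T →+* ZMod r} {χ : G →* ZMod r} {τ δ : G → T}

/-- **DESCENT-ASM, DUAL form with marks, core form.**  As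
`DescentAsmDualMarked95.descent_asm_dual_marked`, WITHOUT the stability of the mark `M₀` under `T`;
the target of the Kummer map is `H1S` of the `T`-stable core of the cone datum. -/
theorem descent_asm_dual_core (F : MarkedFamily.{u} G) (hR : RankOneBoundM F D I r χ)
    [Finite M] (K : KummerData D I J M n) (A : Submodule T J) (hL : Lin K A) (hK : K.Hyp)
    (M₀ : AddSubgroup M) (hOk : F.Ok M M₀) (hZ : K.cone.Z = F.Z M M₀)
    (htau : ∀ g, π (τ g) = 1 + χ g) (hdelta : ∀ g, π (δ g) = χ g)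
    (hrel : ∀ (g : G) (x : M), g • g • x - τ g • g • x + δ g • x = 0)
    (C : Type u) [AddCommGroup C] [DistribMulAction G C] [Finite C] [IsAddCyclic C]
    (hMC : ∀ x : M, Nat.card C • x = 0) (hIC : ∀ σ ∈ I, ∀ c : C, σ • c = c)
    (hδ : ∀ g : G, ∃ u : ℕ, (∀ c : C, g • c = u • c) ∧ ∀ x : M, δ g • x = u • x)
    (hI : ∀ σ ∈ I, ∀ x : M, σ • x - x ∈ K.cone.Mf)
    (D₀ : AddSubgroup (Dual (primaryPart (RingHom.ker π) M) C))
    (hOkN : F.Ok (primaryPart (RingHom.ker π) M × Dual (primaryPart (RingHom.ker π) M) C)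
      ((primaryMark (RingHom.ker π) M₀).prod D₀))
    (hD₀ : Nat.card D₀ * Nat.card (primaryMark (RingHom.ker π) M₀) ≤
      Nat.card (primaryPart (RingHom.ker π) M)) (B : ℕ)
    (hB : Nat.card (equivariantHoms G M C) ≤ B)
    (Tt : AddSubgroup J) [Finite Tt] (hTt : ∀ x ∈ K.A, n • x = 0 → x ∈ Tt) :
    ∃ (_ : Module T (H1S (core T K).cone)) (f : A →ₗ[T] H1S (core T K).cone),
      (∀ a : A, n • f a = 0) ∧ (∀ a : A, f a = 0 → ∃ w ∈ K.A, n • w = (a : J)) ∧
      (Set.univ ∩ {x : H1S (core T K).cone |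
        ∃ j : ℕ, ∀ t ∈ RingHom.ker π ^ j, t • x = 0}).Finite ∧
      (Set.univ ∩ {x : H1S (core T K).cone |
        ∃ j : ℕ, ∀ t ∈ RingHom.ker π ^ j, t • x = 0}).ncard ≤ Nat.card Tt * B := by
  have hL' : Lin (core T K) A := lin_core hL
  have hK' : (core T K).Hyp := hyp_core hL hK
  have hact : ∀ t : T, ConeHom (core T K).cone (core T K).cone (DistribSMul.toAddMonoidHom M t) :=
    coneHom_smul_core K.cone hL.smul_mem_Mf
  letI := moduleH1S (core T K).cone hact
  obtain ⟨hfin0, hle0⟩ := card_primaryPart_H1S_core_le_dual_marked F hR M₀ hOk K.cone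
    hL.smul_mem_Mf htau hdelta hrel hZ hMC hIC hδ hI D₀ hOkN hD₀ B hB
  have hfin : Finite (primaryPart (RingHom.ker π) (H1S (core T K).cone)) := hfin0
  have hle : Nat.card (primaryPart (RingHom.ker π) (H1S (core T K).cone)) ≤
      Nat.card (H0S (primaryCone K.cone (RingHom.ker π))) * B := hle0
  have hH0 := card_H0S_primaryCone_le_of_kummer K (RingHom.ker π) Tt hTt
  have hset : (Set.univ ∩ {x : H1S (core T K).cone |
      ∃ j : ℕ, ∀ t ∈ RingHom.ker π ^ j, t • x = 0}) =
      ((primaryPart (RingHom.ker π) (H1S (core T K).cone) :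
        Submodule T (H1S (core T K).cone)) : Set (H1S (core T K).cone)) := by
    rw [Set.univ_inter]
    rfl
  refine ⟨moduleH1S (core T K).cone hact, kummerLin hL' hK' hact, nsmul_kummerLin hL' hK' hact,
    kummerLin_eq_zero hL' hK' hact, ?_, ?_⟩
  · rw [hset]
    haveI := hfin
    exact Set.toFinite _
  · rw [hset]
    have e : ((primaryPart (RingHom.ker π) (H1S (core T K).cone) :
        Submodule T (H1S (core T K).cone)) : Set (H1S (core T K).cone)).ncard =
        Nat.card (primaryPart (RingHom.ker π) (H1S (core T K).cone)) :=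
      (Nat.card_coe_set_eq _).symm
    rw [e]
    exact hle.trans (Nat.mul_le_mul_right _ hH0)

end Assembly

/-! ### The uniform bound -/

section Bound

open Fermat.Agent.MAZ.Spec.GSpec26

variable {G : Type} [Group G] {D I : Subgroup G} {T : Type} [CommRing T]
variable {J : Type} [AddCommGroup J] [DistribMulAction G J] [Module T J]
variable {r : ℕ} [Fact r.Prime]

/-- the data of the symmetric marked descent at the level `r ^ k`, without the stability of the mark
under `T`. -/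
def LevelDataDualCore (D I : Subgroup G) (A Y : Submodule T J) (F : MarkedFamily.{0} G)
    (π : T →+* ZMod r) (τ δ : G → T) (Tt : AddSubgroup J) (B : ℕ) (k : ℕ) : Prop :=
  ∃ (M : Type) (_ : AddCommGroup M) (_ : DistribMulAction G M) (_ : Module T M)
    (_ : SMulCommClass G T M) (_ : Finite M)
    (K : KummerData D I J M (r ^ k)) (_ : Lin K A) (M₀ : AddSubgroup M)
    (C : Type) (_ : AddCommGroup C) (_ : DistribMulAction G C) (_ : Finite C) (_ : IsAddCyclic C)
    (D₀ : AddSubgroup (Dual (primaryPart (RingHom.ker π) M) C)),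
    K.Hyp ∧ F.Ok M M₀ ∧ K.cone.Z = F.Z M M₀ ∧ (∀ w ∈ K.A, w ∈ Y) ∧
    (∀ (g : G) (x : M), g • g • x - τ g • g • x + δ g • x = 0) ∧
    (∀ x : M, Nat.card C • x = 0) ∧ (∀ σ ∈ I, ∀ c : C, σ • c = c) ∧
    (∀ g : G, ∃ u : ℕ, (∀ c : C, g • c = u • c) ∧ ∀ x : M, δ g • x = u • x) ∧
    (∀ σ ∈ I, ∀ x : M, σ • x - x ∈ K.cone.Mf) ∧
    F.Ok (primaryPart (RingHom.ker π) M × Dual (primaryPart (RingHom.ker π) M) C)
      ((primaryMark (RingHom.ker π) M₀).prod D₀) ∧
    Nat.card D₀ * Nat.card (primaryMark (RingHom.ker π) M₀) ≤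
      Nat.card (primaryPart (RingHom.ker π) M) ∧
    Nat.card (equivariantHoms G M C) ≤ B ∧
    ∀ x ∈ K.A, (r ^ k) • x = 0 → x ∈ Tt

/-- the data with a `T`-stable mark are in particular data. -/
theorem levelDataDualCore_of_levelDataDualM {A Y : Submodule T J} {F : MarkedFamily.{0} G}
    {π : T →+* ZMod r} {τ δ : G → T} {Tt : AddSubgroup J} {B k : ℕ}
    (h : LevelDataDualM (r := r) D I A Y F π τ δ Tt B k) :
    LevelDataDualCore (r := r) D I A Y F π τ δ Tt B k := by
  obtain ⟨M, i1, i2, i3, i5, i4, K, hL, M₀, C, c1, c2, c3, c4, D₀, hK, -, hOk, hZ, hKA, hrel,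
    hMC, hIC, hδ, hI, hOkN, hD₀, hB, hTt⟩ := h
  exact ⟨M, i1, i2, i3, i5, i4, K, hL, M₀, C, c1, c2, c3, c4, D₀, hK, hOk, hZ, hKA, hrel,
    hMC, hIC, hδ, hI, hOkN, hD₀, hB, hTt⟩

/-- **The uniform bound from the symmetric marked descent at every level, without `T`-stable
marks**, all auxiliary data (`F`, `χ`, `τ`, `δ`) depending on the level.  The conclusion is
`GSpec26.EisBound A (ker π) r B'` when `J = JZero p`. -/
theorem exists_bound_dual_core {π : T →+* ZMod r} (Y A : Submodule T J) (hAY : A ≤ Y)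
    [Module.Finite ℤ Y] (N : ℕ) (hN : 0 < N) (hNA : ∀ y ∈ Y, N • y ∈ A) (Tt : AddSubgroup J)
    [Finite Tt] (B : ℕ)
    (hk : ∀ k : ℕ, ∃ (F : MarkedFamily.{0} G) (χ : G →* ZMod r) (τ δ : G → T),
      RankOneBoundM F D I r χ ∧ (∀ g, π (τ g) = 1 + χ g) ∧ (∀ g, π (δ g) = χ g) ∧
        LevelDataDualCore (r := r) D I A Y F π τ δ Tt B k) :
    ∃ B' : ℕ, ∀ k : ℕ,
      (primarySet (RingHom.ker π) (A ⧸ (Ideal.span {(r : T) ^ k} • ⊤ : Submodule T A))).Finite ∧
        (primarySet (RingHom.ker π)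
          (A ⧸ (Ideal.span {(r : T) ^ k} • ⊤ : Submodule T A))).ncard ≤ B' := by
  obtain ⟨B', hB'⟩ := Fermat.Agent.MAZ.Desc.KerAdapter80.kerAdapter Y A hAY N hN hNA
    (RingHom.ker π) r (Nat.card Tt * B)
  refine ⟨B', fun k => ?_⟩
  obtain ⟨F, χ, τ, δ, hR, htau, hdelta, M, i1, i2, i3, i5, i4, K, hL, M₀, C, c1, c2, c3, c4, D₀,
    hK, hOk, hZ, hKA, hrel, hMC, hIC, hδ, hI, hOkN, hD₀, hB, hTt⟩ := hk k
  obtain ⟨inst, f, h1, h2, h3, h4⟩ := descent_asm_dual_core F hR K A hL hK M₀ hOk hZ htau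
    hdelta hrel C hMC hIC hδ hI D₀ hOkN hD₀ B hB Tt hTt
  refine hB' k (H1S (core T K).cone) Set.univ f h1 (fun a ha => ?_) (fun a => Set.mem_univ _) h3 h4
  obtain ⟨w, hw, hwa⟩ := h2 a ha
  exact ⟨w, hKA w hw, hwa⟩

end Bound

end Fermat.Agent.MAZ.Desc.DescentAsmDualCore95
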