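/-
MAZ (S15), G-side (descent), brick DUAL, part 6 (helper2): **`exists_bound_dual` with the auxiliary
data depending on the level** (requested by helper26, #2412 (4)).  `DescentAsmDual2` only.

`exists_bound_dual_var` is `DescentAsmDual2.exists_bound_dual` with `F`, `φ₀`, `χ`, `τ`, `δ` allowed
to depend on the level `k` (they do at `JZero p`: `admFamily r k p`, and the Chebotarev choice of
`(τ g, δ g)` depends on `k`); only the bound `B` for the number of equivariant functionals and the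
torsion group `Tt` are uniform.  It is the DUAL twin of `KummerInst26.exists_bound_var`.
-/
import Mathlib
import Fermat.Agent.MAZ.Desc.DescentAsmDual2

set_option autoImplicit false
set_option linter.style.haveILetI false
set_option linter.unusedSectionVars false

namespace Fermat.Agent.MAZ.Desc.DescentAsmDualVar2

open Fermat.Agent.MAZ.Desc.SelmerCone95 Fermat.Agent.MAZ.Desc.KummerCone95
  Fermat.Agent.MAZ.Desc.Devissage95 Fermat.Agent.MAZ.Desc.PrimaryPart19
  Fermat.Agent.MAZ.Desc.ConePrimary95 Fermat.Agent.MAZ.Desc.DescentAsm95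
  Fermat.Agent.MAZ.Desc.EisFiltration19 Fermat.Agent.MAZ.Desc.DualModule2
  Fermat.Agent.MAZ.Desc.DualDevissage2 Fermat.Agent.MAZ.Desc.DescentAsmDual2
  Fermat.Agent.MAZ.Spec.GSpec26

/-- **The uniform bound from the symmetric descent at every level, level-dependent auxiliary
data** (the conclusion is `GSpec26.EisBound A (ker π) r B'` when `J = JZero p`). -/
theorem exists_bound_dual_var {G : Type} [Group G] {D I : Subgroup G} {T : Type} [CommRing T]
    {J : Type} [AddCommGroup J] [DistribMulAction G J] [Module T J] {r : ℕ} [Fact r.Prime]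
    {π : T →+* ZMod r} (Y A : Submodule T J) (hAY : A ≤ Y) [Module.Finite ℤ Y] (N : ℕ)
    (hN : 0 < N) (hNA : ∀ y ∈ Y, N • y ∈ A) (Tt : AddSubgroup J) [Finite Tt] (B : ℕ)
    (hk : ∀ k : ℕ, ∃ (F : AdmFamily.{0} G) (φ₀ : G) (χ : G →* ZMod r) (τ δ : G → T),
      RankOneBound F D I r χ φ₀ ∧ (∀ g, π (τ g) = 1 + χ g) ∧ (∀ g, π (δ g) = χ g) ∧
        LevelDataDual D I A Y F χ τ δ Tt B k) :
    ∃ B' : ℕ, ∀ k : ℕ,
      (primarySet (RingHom.ker π) (A ⧸ (Ideal.span {(r : T) ^ k} • ⊤ : Submodule T A))).Finite ∧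
        (primarySet (RingHom.ker π)
          (A ⧸ (Ideal.span {(r : T) ^ k} • ⊤ : Submodule T A))).ncard ≤ B' := by
  obtain ⟨B', hB'⟩ := Fermat.Agent.MAZ.Desc.KerAdapter80.kerAdapter Y A hAY N hN hNA
    (RingHom.ker π) r (Nat.card Tt * B)
  refine ⟨B', fun k => ?_⟩
  obtain ⟨F, φ₀, χ, τ, δ, hR, htau, hdelta, M, i1, i2, i3, i4, K, hL, C, c1, c2, c3, c4, hK, hZ,
    hKA, hrel, hMC, hIC, hδ, hI, hOkN, hB, hTt⟩ := hk k
  obtain ⟨inst, f, h1, h2, h3, h4⟩ := descent_asm_dual F φ₀ hR K A hL hK hZ htau hdelta hrel C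
    hMC hIC hδ hI hOkN B hB Tt hTt
  refine hB' k (H1S K.cone) Set.univ f h1 (fun a ha => ?_) (fun a => Set.mem_univ _) h3 h4
  obtain ⟨w, hw, hwa⟩ := h2 a ha
  exact ⟨w, hKA w hw, hwa⟩

end Fermat.Agent.MAZ.Desc.DescentAsmDualVar2
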