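/-
MAZ (S15), G-side (descent), brick DUAL, part 7 (helper2): **the `P`-part variant of
`exists_bound_dual_var`** = the DUAL twin of `KummerInstP26.exists_bound_varP` (helper26).
`DescentAsmDual2` + `KerAdapterP26`.

At the level `k` the Kummer datum has domain `Bk` (a `T`-submodule depending on `k`) and the Kummer
map of `A` is `a ↦ κ (e • a)`, where `e : T` is a `P`-projector for `A / r^k A` with `e • A ⊆ Bk`
((P-FIN)_P).  The auxiliary data `F`, `φ₀`, `χ`, `τ`, `δ`, `Bk`, `e` may depend on `k`; only the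
bound `B` for the number of equivariant functionals (HOM-μ) and `Tt` are uniform.
-/
import Mathlib
import Fermat.Agent.MAZ.Desc.DescentAsmDual2
import Fermat.Agent.MAZ.Desc.KerAdapterP26

set_option autoImplicit false
set_option linter.style.haveILetI false
set_option linter.unusedSectionVars false

namespace Fermat.Agent.MAZ.Desc.DescentAsmDualVarP2

open Fermat.Agent.MAZ.Desc.SelmerCone95 Fermat.Agent.MAZ.Desc.KummerCone95
  Fermat.Agent.MAZ.Desc.Devissage95 Fermat.Agent.MAZ.Desc.PrimaryPart19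
  Fermat.Agent.MAZ.Desc.ConePrimary95 Fermat.Agent.MAZ.Desc.DescentAsm95
  Fermat.Agent.MAZ.Desc.EisFiltration19 Fermat.Agent.MAZ.Desc.DualModule2
  Fermat.Agent.MAZ.Desc.DualDevissage2 Fermat.Agent.MAZ.Desc.DescentAsmDual2
  Fermat.Agent.MAZ.Spec.GSpec26 Fermat.Agent.MAZ.Desc.KerAdapterP26

/-- **The uniform bound from the symmetric descent at every level, `P`-part variant.** -/
theorem exists_bound_dual_varP {G : Type} [Group G] {D I : Subgroup G} {T : Type} [CommRing T]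
    {J : Type} [AddCommGroup J] [DistribMulAction G J] [Module T J] {r : ℕ} [Fact r.Prime]
    {π : T →+* ZMod r} (Y A : Submodule T J) (hAY : A ≤ Y) [Module.Finite ℤ Y] (N : ℕ)
    (hN : 0 < N) (hNA : ∀ y ∈ Y, N • y ∈ A) (Tt : AddSubgroup J) [Finite Tt] (B : ℕ)
    (hk : ∀ k : ℕ, ∃ (F : AdmFamily.{0} G) (φ₀ : G) (χ : G →* ZMod r) (τ δ : G → T)
      (Bk : Submodule T J) (e : T),
      RankOneBound F D I r χ φ₀ ∧ (∀ g, π (τ g) = 1 + χ g) ∧ (∀ g, π (δ g) = χ g) ∧
      (∀ x ∈ primarySet (RingHom.ker π) (A ⧸ (Ideal.span {(r : T) ^ k} • ⊤ : Submodule T A)),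
        e • x = x) ∧
      (∀ a ∈ A, e • a ∈ Bk) ∧ LevelDataDual D I Bk Y F χ τ δ Tt B k) :
    ∃ B' : ℕ, ∀ k : ℕ,
      (primarySet (RingHom.ker π) (A ⧸ (Ideal.span {(r : T) ^ k} • ⊤ : Submodule T A))).Finite ∧
        (primarySet (RingHom.ker π)
          (A ⧸ (Ideal.span {(r : T) ^ k} • ⊤ : Submodule T A))).ncard ≤ B' := by
  obtain ⟨B', hB'⟩ := kerAdapterP Y A hAY N hN hNA (RingHom.ker π) r (Nat.card Tt * B)
  refine ⟨B', fun k => ?_⟩
  obtain ⟨F, φ₀, χ, τ, δ, Bk, e, hR, htau, hdelta, he, heA, M, i1, i2, i3, i4, K, hL, C, c1, c2,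
    c3, c4, hK, hZ, hKA, hrel, hMC, hIC, hδ, hI, hOkN, hB, hTt⟩ := hk k
  obtain ⟨inst, f, h1, h2, h3, h4⟩ := descent_asm_dual F φ₀ hR K Bk hL hK hZ htau hdelta hrel C
    hMC hIC hδ hI hOkN B hB Tt hTt
  let eMul : A →ₗ[T] Bk :=
    { toFun := fun a => ⟨e • (a : J), heA a a.2⟩
      map_add' := fun a b => Subtype.ext (smul_add e (a : J) (b : J))
      map_smul' := fun t a => Subtype.ext (smul_comm e t (a : J)) }
  refine hB' k (H1S K.cone) Set.univ (f.comp eMul) e he (fun a => h1 (eMul a)) (fun a ha => ?_)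
    (fun a => Set.mem_univ _) h3 h4
  obtain ⟨w, hw, hwa⟩ := h2 (eMul a) ha
  exact ⟨w, hKA w hw, hwa⟩

end Fermat.Agent.MAZ.Desc.DescentAsmDualVarP2
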