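/-
MAZ (S15), G-side (descent), brick DESCENT-ASM WITH MARKS, core form (helper92): **the marked descent
WITHOUT the hypothesis that the mark is stable under `T`**.

`DescentAsmMarked95.descent_asm_marked` needs `hM₀ : ∀ t : T, ∀ x ∈ M₀, t • x ∈ M₀` (to make `T` act
on `H1S K.cone` through `MarkedFamily.map`).  At the prime `2` the mark is the group of points
reducing to `0` at a place over `2`, and its stability under the Hecke operators is a geometric
statement with no supplier.  Here `H1S K.cone` is replaced by `H1S` of the `T`-stable core of the cone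
datum (`ConeCore92.coreCone`): `T` acts on it for free, the Kummer classes lie in it (`hyp_core`), and
its `P`-primary part still embeds into `H1S (primaryCone K.cone P)`, which the marked devissage bounds
(marks on the primary part are induced by `comap`: no stability is needed there).

* `card_primaryPart_H1S_core_le_card_H0S_marked`;
* **`descent_asm_marked_core`** : the inner hypotheses of `KerAdapter80.kerAdapter`, verbatim the
  conclusion of `descent_asm_marked` with `(core T K).cone` in place of `K.cone`, without `hM₀`;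
* `LevelDataM'`, **`exists_bound_marked_core`** : `EisBoundMarked95.exists_bound_marked` without the
  `T`-stable-mark conjunct.
-/
import Mathlib
import Fermat.Agent.MAZ.Desc.ConeCore92
import Fermat.Agent.MAZ.Desc.EisBoundMarked95

set_option autoImplicit false
set_option linter.style.haveILetI false
set_option linter.unusedSectionVars false

namespace Fermat.Agent.MAZ.Desc.DescentAsmMarkedCore92

open Fermat.Agent.MAZ.Desc.SelmerCone95 Fermat.Agent.MAZ.Desc.KummerCone95
  Fermat.Agent.MAZ.Desc.Devissage95 Fermat.Agent.MAZ.Desc.PrimaryPart19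
  Fermat.Agent.MAZ.Desc.ConePrimary95 Fermat.Agent.MAZ.Desc.EisFiltration19
  Fermat.Agent.MAZ.Desc.DescentAsm95 Fermat.Agent.MAZ.Desc.DevissageMarked95
  Fermat.Agent.MAZ.Desc.DescentAsmMarked95 Fermat.Agent.MAZ.Desc.ConeCore92

universe u

attribute [local instance] primaryDMA

/-! ### The primary part of `H1S` of the core -/

section Family

variable {G : Type*} [Group G] {D I : Subgroup G} {T : Type*} [CommRing T]
variable {M : Type u} [AddCommGroup M] [DistribMulAction G M] [Module T M] [SMulCommClass G T M]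
variable {r : ℕ} [Fact r.Prime] {π : T →+* ZMod r} {χ : G →* ZMod r} {τ δ : G → T}

/-- **The marked devissage on the `ker π`-primary part bounds the `ker π`-primary part of `H1S` of
the core.**  No stability of the mark under `T`. -/
theorem card_primaryPart_H1S_core_le_card_H0S_marked (F : MarkedFamily.{u} G)
    (hR : RankOneBoundM F D I r χ) [Finite M] (M₀ : AddSubgroup M) (hOk : F.Ok M M₀)
    (𝕄 : ConeData D I M) (hMf : ∀ (t : T), ∀ x ∈ 𝕄.Mf, t • x ∈ 𝕄.Mf)
    (htau : ∀ g, π (τ g) = 1 + χ g) (hdelta : ∀ g, π (δ g) = χ g)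
    (hrel : ∀ (g : G) (x : M), g • g • x - τ g • g • x + δ g • x = 0)
    (h𝕄 : 𝕄.Z = F.Z M M₀)
    (hhalf : Nat.card (primaryMark (RingHom.ker π) M₀) ≤
      Nat.card (primaryCone 𝕄 (RingHom.ker π)).Mf) :
    letI := moduleH1S (coreCone T 𝕄) (coneHom_smul_core 𝕄 hMf)
    Finite (primaryPart (RingHom.ker π) (H1S (coreCone T 𝕄))) ∧
      Nat.card (primaryPart (RingHom.ker π) (H1S (coreCone T 𝕄))) ≤
        Nat.card (H0S (primaryCone 𝕄 (RingHom.ker π))) := by
  letI := moduleH1S (coreCone T 𝕄) (coneHom_smul_core 𝕄 hMf)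
  haveI := primary_smulCommClass (G := G) (M := M) (RingHom.ker π)
  have E : EisData π χ τ δ (primaryPart (RingHom.ker π) M) :=
    eisData_primaryPart htau hdelta hrel
  obtain ⟨hfin, hle⟩ := card_H1S_le_card_H0S_marked F hR (primaryPart (RingHom.ker π) M)
    (primaryMark (RingHom.ker π) M₀) (ok_primaryPartM F M₀ hOk _) E
    (primaryCone 𝕄 (RingHom.ker π)) (primaryCone_Z_eqM F M₀ hOk 𝕄 h𝕄 _) hhalf
  haveI := hfin
  obtain ⟨y, hy⟩ := exists_injective_primaryPart_H1S_core 𝕄 hMf (RingHom.ker π)
  exact ⟨Finite.of_injective y hy, (Nat.card_le_card_of_injective y hy).trans hle⟩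

end Family

/-! ### The assembly -/

section Assembly

variable {G : Type*} [Group G] {D I : Subgroup G} {T : Type*} [CommRing T]
variable {J : Type*} [AddCommGroup J] [DistribMulAction G J] [Module T J]
variable {M : Type u} [AddCommGroup M] [DistribMulAction G M] [Module T M] [SMulCommClass G T M]
variable {n : ℕ} {r : ℕ} [Fact r.Prime] {π : T →+* ZMod r} {χ : G →* ZMod r} {τ δ : G → T}

/-- **DESCENT-ASM with marks, core form.**  As `DescentAsmMarked95.descent_asm_marked`, WITHOUT the
stability of the mark `M₀` under `T`; the target of the Kummer map is `H1S` of the `T`-stable core of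
the cone datum. -/
theorem descent_asm_marked_core (F : MarkedFamily.{u} G) (hR : RankOneBoundM F D I r χ) [Finite M]
    (K : KummerData D I J M n) (A : Submodule T J) (hL : Lin K A) (hK : K.Hyp)
    (M₀ : AddSubgroup M) (hOk : F.Ok M M₀) (hZ : K.cone.Z = F.Z M M₀)
    (htau : ∀ g, π (τ g) = 1 + χ g) (hdelta : ∀ g, π (δ g) = χ g)
    (hrel : ∀ (g : G) (x : M), g • g • x - τ g • g • x + δ g • x = 0)
    (hhalf : Nat.card (primaryMark (RingHom.ker π) M₀) ≤
        Nat.card (primaryCone K.cone (RingHom.ker π)).Mf)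
    (Tt : AddSubgroup J) [Finite Tt] (hTt : ∀ x ∈ K.A, n • x = 0 → x ∈ Tt) :
    ∃ (_ : Module T (H1S (core T K).cone)) (f : A →ₗ[T] H1S (core T K).cone),
      (∀ a : A, n • f a = 0) ∧ (∀ a : A, f a = 0 → ∃ w ∈ K.A, n • w = (a : J)) ∧
      (Set.univ ∩ {x : H1S (core T K).cone |
        ∃ j : ℕ, ∀ t ∈ RingHom.ker π ^ j, t • x = 0}).Finite ∧
      (Set.univ ∩ {x : H1S (core T K).cone |
        ∃ j : ℕ, ∀ t ∈ RingHom.ker π ^ j, t • x = 0}).ncard ≤ Nat.card Tt := by
  have hL' : Lin (core T K) A := lin_core hL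
  have hK' : (core T K).Hyp := hyp_core hL hK
  have hact : ∀ t : T, ConeHom (core T K).cone (core T K).cone (DistribSMul.toAddMonoidHom M t) :=
    coneHom_smul_core K.cone hL.smul_mem_Mf
  letI := moduleH1S (core T K).cone hact
  obtain ⟨hfin0, hle0⟩ := card_primaryPart_H1S_core_le_card_H0S_marked F hR M₀ hOk K.cone
    hL.smul_mem_Mf htau hdelta hrel hZ hhalf
  have hfin : Finite (primaryPart (RingHom.ker π) (H1S (core T K).cone)) := hfin0
  have hle : Nat.card (primaryPart (RingHom.ker π) (H1S (core T K).cone)) ≤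
      Nat.card (H0S (primaryCone K.cone (RingHom.ker π))) := hle0
  have hH0 := card_H0S_primaryCone_le_of_kummer K (RingHom.ker π) Tt hTt
  have hset : (Set.univ ∩ {x : H1S (core T K).cone |
      ∃ j : ℕ, ∀ t ∈ RingHom.ker π ^ j, t • x = 0}) =
      ((primaryPart (RingHom.ker π) (H1S (core T K).cone) :
        Submodule T (H1S (core T K).cone)) : Set (H1S (core T K).cone)) := by
    rw [Set.univ_inter]
    rfl
  refine ⟨moduleH1S (core T K).cone hact, kummerLin hL' hK' hact, nsmul_kummerLin hL' hK' hact,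
    kummerLin_eq_zero hL' hK' hact, ?_, ?_⟩
  · rw [hset]
    haveI := hfin
    exact Set.toFinite _
  · rw [hset]
    have e : ((primaryPart (RingHom.ker π) (H1S (core T K).cone) :
        Submodule T (H1S (core T K).cone)) : Set (H1S (core T K).cone)).ncard =
        Nat.card (primaryPart (RingHom.ker π) (H1S (core T K).cone)) :=
      (Nat.card_coe_set_eq _).symm
    rw [e]
    exact hle.trans hH0

end Assembly

/-! ### The uniform bound -/

section Bound

open Fermat.Agent.MAZ.Spec.GSpec26

variable {G : Type} [Group G] {D I : Subgroup G} {T : Type} [CommRing T]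
variable {J : Type} [AddCommGroup J] [DistribMulAction G J] [Module T J]
variable {r : ℕ} [Fact r.Prime] {π : T →+* ZMod r} {χ : G →* ZMod r} {τ δ : G → T}

/-- the data of the marked descent at the level `r ^ k`, without the stability of the mark under
`T` (`EisBoundMarked95.LevelDataM` minus one conjunct). -/
def LevelDataM' (D I : Subgroup G) (A Y : Submodule T J) (F : MarkedFamily.{0} G)
    (π : T →+* ZMod r) (τ δ : G → T) (Tt : AddSubgroup J) (k : ℕ) : Prop :=
  ∃ (M : Type) (_ : AddCommGroup M) (_ : DistribMulAction G M) (_ : Module T M) (_ : Finite M)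
    (K : KummerData D I J M (r ^ k)) (hL : Lin K A) (M₀ : AddSubgroup M),
    K.Hyp ∧ F.Ok M M₀ ∧ K.cone.Z = F.Z M M₀ ∧
    (∀ w ∈ K.A, w ∈ Y) ∧
    (∀ (g : G) (x : M), g • g • x - τ g • g • x + δ g • x = 0) ∧
    (haveI := hL.smulCommClass;
      Nat.card (primaryMark (RingHom.ker π) M₀) ≤
        Nat.card (primaryCone K.cone (RingHom.ker π)).Mf) ∧
    ∀ x ∈ K.A, (r ^ k) • x = 0 → x ∈ Tt

/-- the data with a `T`-stable mark are in particular data. -/
theorem levelDataM'_of_levelDataM {A Y : Submodule T J} {F : MarkedFamily.{0} G}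
    {Tt : AddSubgroup J} {k : ℕ}
    (h : Fermat.Agent.MAZ.Desc.EisBoundMarked95.LevelDataM D I A Y F π τ δ Tt k) :
    LevelDataM' D I A Y F π τ δ Tt k := by
  obtain ⟨M, i1, i2, i3, i4, K, hL, M₀, hK, -, hOk, hZ, hKA, hrel, hhalf, hTt⟩ := h
  exact ⟨M, i1, i2, i3, i4, K, hL, M₀, hK, hOk, hZ, hKA, hrel, hhalf, hTt⟩

/-- **The uniform bound from the marked descent at every level, without `T`-stable marks.** -/
theorem exists_bound_marked_core (Y A : Submodule T J) (hAY : A ≤ Y) [Module.Finite ℤ Y] (N : ℕ)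
    (hN : 0 < N) (hNA : ∀ y ∈ Y, N • y ∈ A) (F : MarkedFamily.{0} G)
    (hR : RankOneBoundM F D I r χ) (htau : ∀ g, π (τ g) = 1 + χ g)
    (hdelta : ∀ g, π (δ g) = χ g) (Tt : AddSubgroup J) [Finite Tt]
    (hk : ∀ k : ℕ, LevelDataM' D I A Y F π τ δ Tt k) :
    ∃ B' : ℕ, ∀ k : ℕ,
      (primarySet (RingHom.ker π) (A ⧸ (Ideal.span {(r : T) ^ k} • ⊤ : Submodule T A))).Finite ∧
        (primarySet (RingHom.ker π)
          (A ⧸ (Ideal.span {(r : T) ^ k} • ⊤ : Submodule T A))).ncard ≤ B' := by
  obtain ⟨B', hB'⟩ := Fermat.Agent.MAZ.Desc.KerAdapter80.kerAdapter Y A hAY N hN hNA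
    (RingHom.ker π) r (Nat.card Tt)
  refine ⟨B', fun k => ?_⟩
  obtain ⟨M, i1, i2, i3, i4, K, hL, M₀, hK, hOk, hZ, hKA, hrel, hhalf, hTt⟩ := hk k
  haveI := hL.smulCommClass
  obtain ⟨inst, f, h1, h2, h3, h4⟩ := descent_asm_marked_core F hR K A hL hK M₀ hOk hZ htau hdelta
    hrel hhalf Tt hTt
  refine hB' k (H1S (core T K).cone) Set.univ f h1 (fun a ha => ?_) (fun a => Set.mem_univ _) h3 h4
  obtain ⟨w, hw, hwa⟩ := h2 a ha
  exact ⟨w, hKA w hw, hwa⟩

end Bound

end Fermat.Agent.MAZ.Desc.DescentAsmMarkedCore92
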