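/-
MAZ (S15), chapter DESC, brick G-ALG-FIN, part 2 (helper79): **the Eisenstein killer in the shape of
the global contract (G)** (`XSpec62.GlobalEis`).  Mathlib + `EisKill79` only; abstract in the
ambient group `J` (think `JZero p`).

`R` a commutative ring acting on `J` (think: `heckeSub p` made into a `CommRing`, or any
commutative ring mapping onto it), `φ : R → End_ℤ J` the action with values in a set `T` of
endomorphisms (think `T = heckeSub p`), `Y ≤ J` a subgroup (think the Galois fixed points `J(ℚ)`),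
`A` an `R`-stable subgroup which is finitely generated (Mordell–Weil) and contains `n₀ • Y` (finite
index, think `J⁰(ℤ)`), `P` an ideal of `R` containing `r`, and a bound, independent of `k`, on the
orders of the `P`-primary parts of `A / r ^ k A` (the Selmer bound).  If some multiple `c'` of `c` is
nonzero and killed by a power of `P`, then there is `t ∈ T` with `t c ≠ 0` and `t z` torsion for
every `z ∈ Y`.
-/
import Mathlib
import Fermat.Agent.MAZ.Desc.EisKill79

set_option autoImplicit false

namespace Fermat.Agent.MAZ.Desc.EisKillGlue79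

open Fermat.Agent.MAZ.Desc.EisKill79

variable {J : Type*} [AddCommGroup J]

/-- **Contract (G), abstractly.**  From the Selmer bound on the `P`-primary parts of `A / r ^ k A`
to an element of the Hecke algebra `T` which does not kill `c` and sends `Y` into the torsion. -/
theorem exists_mem_killer {R : Type*} [CommRing R] [Module R J]
    (T : Set (Module.End ℤ J)) (φ : R → Module.End ℤ J) (hφT : ∀ s, φ s ∈ T)
    (hφ : ∀ s x, φ s x = s • x)
    (Y : AddSubgroup J) (A : Submodule R J) [Module.Finite ℤ A]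
    (n₀ : ℕ) (hn₀ : 0 < n₀) (hYA : ∀ y ∈ Y, n₀ • y ∈ A)
    (P : Ideal R) (r : ℕ) (hr : 0 < r) (hrP : (r : R) ∈ P) (B : ℕ)
    (hsel : ∀ k : ℕ, Nat.card
      (primaryPart P (A ⧸ (Ideal.span {(r : R) ^ k} • ⊤ : Submodule R A))) ≤ B)
    (c : J)
    (hc : ∃ c' : J, c' ≠ 0 ∧ (∃ m : ℕ, c' = m • c) ∧ ∃ n : ℕ, ∀ t ∈ P ^ n, t • c' = 0) :
    ∃ t ∈ T, t c ≠ 0 ∧ ∀ z ∈ Y, ∃ k : ℕ, 0 < k ∧ k • t z = 0 := by
  obtain ⟨s, hs1, N, hN, hkill⟩ :=
    exists_eisenstein_killer_of_selmer (T := R) (A := A) P r hr hrP B hsel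
  obtain ⟨c', hc', ⟨m, hm⟩, n, hn⟩ := hc
  refine ⟨φ s, hφT s, ?_, ?_⟩
  · intro h0
    refine smul_ne_zero_of_sub_one_mem (M := J) hs1 hc' n hn ?_
    rw [← hφ, hm, map_nsmul, h0, smul_zero]
  · intro z hz
    refine ⟨N * n₀, Nat.mul_pos hN hn₀, ?_⟩
    have h := congrArg (Subtype.val : A → J) (hkill ⟨n₀ • z, hYA z hz⟩)
    rw [Submodule.coe_smul_of_tower, Submodule.coe_smul, Submodule.coe_zero, ← hφ,
      map_nsmul, smul_smul] at h
    exact h

/-! ### A commutative subalgebra of `End_ℤ J` as a commutative ring of its own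

WARNING (instance trap): for `T : Subalgebra ℤ (Module.End ℤ J)` the type `↥T` carries
`Subalgebra.toSemiring`, and quotients `M ⧸ N` of `↥T`-modules then FAIL to elaborate
(`HasQuotient` wants a `Ring.toSemiring`), even with `open scoped IsMulCommutative`.  The type
synonym `CommSub T` below carries only the `CommRing` structure, acts on `J` by evaluation, and
plugs into `exists_mem_killer` (and into every `[CommRing T] [Module T M]` brick of the chapter). -/

/-- A commutative subalgebra of `End_ℤ J`, as a type of its own. -/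
def CommSub (T : Subalgebra ℤ (Module.End ℤ J)) : Type _ := ↥T

namespace CommSub

variable (T : Subalgebra ℤ (Module.End ℤ J))

open scoped IsMulCommutative in
noncomputable instance instCommRing [IsMulCommutative T] : CommRing (CommSub T) :=
  inferInstanceAs (CommRing ↥T)

/-- The underlying endomorphism, as a ring homomorphism. -/
def toEnd [IsMulCommutative T] : CommSub T →+* Module.End ℤ J := T.val.toRingHom

/-- The element of `CommSub T` given by an element of `T`. -/
def ofMem [IsMulCommutative T] (t : Module.End ℤ J) (ht : t ∈ T) : CommSub T := (⟨t, ht⟩ : ↥T)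

@[simp]
theorem toEnd_ofMem [IsMulCommutative T] (t : Module.End ℤ J) (ht : t ∈ T) :
    toEnd T (ofMem T t ht) = t := rfl

theorem toEnd_mem [IsMulCommutative T] (s : CommSub T) : toEnd T s ∈ T := s.2

theorem toEnd_injective [IsMulCommutative T] : Function.Injective (toEnd T) :=
  fun _ _ h => Subtype.ext h

noncomputable instance instModule [IsMulCommutative T] : Module (CommSub T) J :=
  Module.compHom J (toEnd T)

theorem smul_def [IsMulCommutative T] (s : CommSub T) (x : J) : s • x = toEnd T s x := rfl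

/-- A subgroup of `J` stable under `T` is a `CommSub T`-submodule. -/
def submoduleOfStable [IsMulCommutative T] (A : AddSubgroup J)
    (hA : ∀ t ∈ T, ∀ a ∈ A, t a ∈ A) : Submodule (CommSub T) J where
  carrier := A
  add_mem' := A.add_mem
  zero_mem' := A.zero_mem
  smul_mem' := fun s _ ha => hA _ (toEnd_mem T s) _ ha

@[simp]
theorem mem_submoduleOfStable [IsMulCommutative T] (A : AddSubgroup J)
    (hA : ∀ t ∈ T, ∀ a ∈ A, t a ∈ A) (x : J) : x ∈ submoduleOfStable T A hA ↔ x ∈ A := Iff.rfl

/-- **Contract (G) for a commutative subalgebra** `T` of `End_ℤ J`. -/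
theorem exists_mem_killer_commSub [IsMulCommutative T]
    (Y : AddSubgroup J) (A : Submodule (CommSub T) J) [Module.Finite ℤ A]
    (n₀ : ℕ) (hn₀ : 0 < n₀) (hYA : ∀ y ∈ Y, n₀ • y ∈ A)
    (P : Ideal (CommSub T)) (r : ℕ) (hr : 0 < r) (hrP : (r : CommSub T) ∈ P) (B : ℕ)
    (hsel : ∀ k : ℕ, Nat.card (primaryPart P
      (A ⧸ (Ideal.span {(r : CommSub T) ^ k} • ⊤ : Submodule (CommSub T) A))) ≤ B)
    (c : J)
    (hc : ∃ c' : J, c' ≠ 0 ∧ (∃ m : ℕ, c' = m • c) ∧ ∃ n : ℕ, ∀ t ∈ P ^ n, t • c' = 0) :
    ∃ t ∈ T, t c ≠ 0 ∧ ∀ z ∈ Y, ∃ k : ℕ, 0 < k ∧ k • t z = 0 :=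
  exists_mem_killer (R := CommSub T) (T : Set (Module.End ℤ J)) (toEnd T) (toEnd_mem T)
    (fun _ _ => rfl) Y A n₀ hn₀ hYA P r hr hrP B hsel c hc

end CommSub

end Fermat.Agent.MAZ.Desc.EisKillGlue79
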