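/-
Programme MAZ (S15), G-side, brick FLAT-ADM, part J (helper68).

The dictionary between the vocabulary of `FlatAdm68` (`extActN`, `Zadm`, `OkMod`) and the literal
definitions of helper26's G-side specification `GSpec26` at `N = J₀(p)[r^k]`:
* `mkDMA p r k`       : the Galois action `GSpec26.galMk` on `↥(GSpec26.Mk p r k)` as a `DistribMulAction`;
* `extAct_eq`         : `GSpec26.extAct r k y = extActN r k y`;
* `isModel_iff`       : `GSpec26.IsModel = FlatModel`;
* `flatAtR_iff`       : `GSpec26.FlatAtR r k x` iff `x` is the image of a cochain `y` with values in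
                        `J₀(p)[r^k]` whose extension module `E_y` (vocabulary `extActN`) has a flat model;
* `flatAtR_of_mem_Zadm`, `mem_Zadm_of_flatAtR`.
-/
import Mathlib
import Fermat.Agent.MAZ.Spec.GSpec26
import Fermat.Agent.MAZ.Desc.FlatAdm68

set_option autoImplicit false
set_option linter.unusedSectionVars false
set_option linter.style.haveILetI false

noncomputable section

namespace Fermat.Agent.MAZ.Desc.FlatAdmJ68

open AlgebraicCurve ModularCurve
open Fermat.Agent.X0 Fermat.Agent.MAZ.Spec.XSpec62 Fermat.Agent.MAZ.Spec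
open Fermat.Agent.TW.FF.FlatModel68 Fermat.Agent.MAZ.Desc.FlatAdm68

variable (p : ℕ) [NeZero p] (r k : ℕ)

/-- the Galois action on `J₀(p)[r^k]` (`GSpec26.galMk`) as a `DistribMulAction`. -/
@[instance_reducible]
def mkDMA : DistribMulAction XSpec62.GQ ↥(GSpec26.Mk p r k) where
  smul σ m := GSpec26.galMk r k σ m
  one_smul m := Subtype.ext (one_smul XSpec62.GQ (m : JZero p))
  mul_smul σ τ m := Subtype.ext (mul_smul σ τ (m : JZero p))
  smul_zero σ := Subtype.ext (smul_zero σ)
  smul_add σ a b := Subtype.ext (smul_add σ (a : JZero p) (b : JZero p))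

attribute [local instance] mkDMA

theorem mk_smul_def (σ : XSpec62.GQ) (m : ↥(GSpec26.Mk p r k)) : σ • m = GSpec26.galMk r k σ m := rfl

@[simp] theorem coe_mk_smul (σ : XSpec62.GQ) (m : ↥(GSpec26.Mk p r k)) :
    ((σ • m : ↥(GSpec26.Mk p r k)) : JZero p) = σ • (m : JZero p) := rfl

/-- the extension module of `GSpec26` is the one of `FlatAdm68`. -/
theorem extAct_eq (y : XSpec62.GQ → ↥(GSpec26.Mk p r k)) :
    GSpec26.extAct r k y = extActN r k y := rfl

/-- `GSpec26.IsModel` is `FlatModel`. -/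
theorem isModel_iff (M : Type) [AddCommGroup M] (act : XSpec62.GQ → M → M) :
    GSpec26.IsModel r M act ↔ FlatModel r M act := Iff.rfl

/-- **`GSpec26.FlatAtR` in the vocabulary of `FlatAdm68`.** -/
theorem flatAtR_iff (x : XSpec62.GQ → JZero p) :
    GSpec26.FlatAtR r k x ↔ ∃ y : XSpec62.GQ → ↥(GSpec26.Mk p r k),
      (∀ σ, (y σ : JZero p) = x σ) ∧
        FlatModel r (↥(GSpec26.Mk p r k) × ZMod (r ^ k)) (extActN r k y) := Iff.rfl

variable [Fact r.Prime]

/-- an admissible cocycle with values in `J₀(p)[r^k]` (which has a flat model: S19) is flat at `r` in the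
sense of `GSpec26`. -/
theorem flatAtR_of_mem_Zadm (hS19 : FlatModel r ↥(GSpec26.Mk p r k) (fun σ x => σ • x))
    {y : XSpec62.GQ → ↥(GSpec26.Mk p r k)} (hy : y ∈ Zadm r k p ↥(GSpec26.Mk p r k)) :
    GSpec26.FlatAtR r k (fun σ => (y σ : JZero p)) :=
  ⟨y, fun _ => rfl, hy.2.2 hS19⟩

/-- conversely, a cocycle with values in `J₀(p)[r^k]`, vanishing on inertia outside `{r, p}` and flat at
`r` in the sense of `GSpec26`, is admissible. -/
theorem mem_Zadm_of_flatAtR {y : XSpec62.GQ → ↥(GSpec26.Mk p r k)}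
    (h1 : ∀ σ τ : XSpec62.GQ, y (σ * τ) = y σ + σ • y τ) (h2 : UnramOutside r p y)
    (h3 : GSpec26.FlatAtR r k (fun σ => (y σ : JZero p))) :
    y ∈ Zadm r k p ↥(GSpec26.Mk p r k) := by
  obtain ⟨y', hy', hfl⟩ := h3
  have : y' = y := by
    funext σ
    exact Subtype.ext (hy' σ)
  subst this
  exact mem_Zadm_of_flat h1 h2 hfl

end Fermat.Agent.MAZ.Desc.FlatAdmJ68
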