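/-
MAZ (S15), descent side, helper19: THE TOP OF THE G-SIDE.

`XSpec62.GlobalEis` ("some `t ∈ ℤ[T_m : m ≠ p]` does not kill the cuspidal class and maps `J₀(p)(ℚ)`
into torsion") from
* S17 for level `p` (`J₀(p)(ℚ)` is finitely generated), in literal form;
* a commutative ring `T` with `ev : T →+* End (JZero p)` of range inside `heckeSub p` (if the Hecke
  operators commute: `T = heckeSub p`; otherwise e.g. `ℤ[X]` and one operator), an ideal `P ∋ r`, and
  a nonzero multiple `c'` of the cuspidal class killed by `P`;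
* **the descent inequality** `DescentOne ev hev P r`: a `T`-linear map `κ` from `A = J₀(p)(ℚ)` with
  kernel `r A` (the Kummer map into the `r`-Selmer group) into a `T`-module `S` with
  `#(primaryPart P S) ≤ #(primaryPart P A[r])`.

The algebra is `PrimaryOne19.endgame_one`; the only geometric input used here is that the Hecke
operators commute with the Galois action (`HeckeGalois12.adjoin_apply_smul`).
-/
import Mathlib
import Fermat.Agent.MAZ.Spec.XSpec62
import Fermat.Agent.ES.HECKE.HeckeGalois12
import Fermat.Agent.MAZ.Desc.PrimaryOne19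

set_option autoImplicit false
set_option linter.unusedSectionVars false
set_option linter.style.haveILetI false

open AlgebraicCurve ModularCurve

noncomputable section

namespace Fermat.Agent.MAZ.Desc.GTop19

open Fermat.Agent.X0 Fermat.Agent.MAZ.Spec.XSpec62
open Fermat.Agent.MAZ.Desc.PrimaryPart19 Fermat.Agent.MAZ.Desc.PrimaryOne19

variable {p : ℕ} [NeZero p]

/-- The rational points of `J₀(p)`. -/
abbrev JQ (p : ℕ) [NeZero p] : AddSubgroup (JZero p) := FixedPoints.addSubgroup GQ (JZero p)

theorem mem_JQ {z : JZero p} : z ∈ JQ p ↔ ∀ σ : GQ, σ • z = z := Iff.rfl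

/-- Elements of `heckeSub p` commute with the Galois action. -/
theorem heckeSub_apply_smul {E : Module.End ℤ (JZero p)} (hE : E ∈ heckeSub p) (σ : GQ)
    (x : JZero p) : E (σ • x) = σ • E x := by
  apply Fermat.Agent.ES.HECKE.HeckeGalois12.adjoin_apply_smul p _ σ x
  exact Algebra.adjoin_mono (Set.image_subset_range _ _) hE

/-- Elements of `heckeSub p` preserve the rational points. -/
theorem heckeSub_apply_mem_JQ {E : Module.End ℤ (JZero p)} (hE : E ∈ heckeSub p) {z : JZero p}
    (hz : z ∈ JQ p) : E z ∈ JQ p := by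
  intro σ
  rw [← heckeSub_apply_smul hE, hz σ]

variable {T : Type} [CommRing T]

/-- The `T`-module structure on the rational points. -/
@[reducible] def fixedModule (ev : T →+* Module.End ℤ (JZero p)) (hev : ∀ t, ev t ∈ heckeSub p) :
    Module T (JQ p) where
  smul t x := ⟨ev t x.1, heckeSub_apply_mem_JQ (hev t) x.2⟩
  one_smul x := Subtype.ext (by
    change ev 1 x.1 = x.1
    rw [map_one]; rfl)
  mul_smul s t x := Subtype.ext (by
    change ev (s * t) x.1 = ev s (ev t x.1)
    rw [map_mul]; rfl)
  smul_zero t := Subtype.ext (map_zero (ev t))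
  smul_add t x y := Subtype.ext (map_add (ev t) x.1 y.1)
  add_smul s t x := Subtype.ext (by
    change ev (s + t) x.1 = ev s x.1 + ev t x.1
    rw [map_add]; rfl)
  zero_smul x := Subtype.ext (by
    change ev 0 x.1 = 0
    rw [map_zero]; rfl)

theorem fixedModule_smul_coe (ev : T →+* Module.End ℤ (JZero p)) (hev : ∀ t, ev t ∈ heckeSub p)
    (t : T) (x : JQ p) :
    ((letI := fixedModule ev hev; t • x : JQ p) : JZero p) = ev t x.1 := rfl

/-- **The descent contract** (single `r`-descent): a `T`-linear map from the rational points with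
kernel `r A` into a `T`-module whose `P`-primary part is finite of order at most that of the
`P`-primary part of `A[r]`. -/
def DescentOne (ev : T →+* Module.End ℤ (JZero p)) (hev : ∀ t, ev t ∈ heckeSub p) (P : Ideal T)
    (r : ℕ) : Prop :=
  letI := fixedModule ev hev
  ∃ (S : Type) (_ : AddCommGroup S) (_ : Module T S) (κ : JQ p →ₗ[T] S),
    (∀ x, κ x = 0 ↔ ∃ y, x = r • y) ∧ Finite (primaryPart P S) ∧
      Nat.card (primaryPart P S) ≤ Nat.card (primaryPart P (Submodule.torsionBy T (JQ p) (r : T)))

/-- **(G) from the descent contract.** -/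
theorem globalEis_of_descent (hdeg : DegOne p) (cZ : Place Qb (FF p))
    (hS17 : AddGroup.FG (JQ p))
    (ev : T →+* Module.End ℤ (JZero p)) (hev : ∀ t, ev t ∈ heckeSub p) (P : Ideal T) {r : ℕ}
    (hr : r.Prime) (hrP : (r : T) ∈ P) (n : ℕ)
    (hc' : n • pointClass hdeg cZ (cuspInf p) ≠ 0)
    (hPc : ∀ t ∈ P, ev t (n • pointClass hdeg cZ (cuspInf p)) = 0)
    (hdesc : DescentOne ev hev P r) : GlobalEis hdeg cZ := by
  letI := fixedModule ev hev
  haveI : Module.Finite ℤ (JQ p) := Module.Finite.iff_addGroup_fg.2 hS17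
  obtain ⟨S, _, _, κ, hκ, hfin, hcard⟩ := hdesc
  obtain ⟨t, ht1, ht2⟩ := endgame_one (P := P) hr hrP κ hκ hfin hcard
  refine ⟨ev t, hev t, ?_, ?_⟩
  · intro h0
    apply hc'
    have h1 := hPc _ ht1
    rw [map_sub, map_one, LinearMap.sub_apply, Module.End.one_apply, sub_eq_zero] at h1
    rw [← h1, map_nsmul, h0, smul_zero]
  · intro z hz
    obtain ⟨k, hk, hkz⟩ := ht2 ⟨z, hz⟩
    refine ⟨k, hk, ?_⟩
    have := congrArg Subtype.val hkz
    rw [AddSubgroup.coe_nsmul] at this
    exact this

/-- The annihilator of a point, as an ideal of `T`. -/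
def annIdeal (ev : T →+* Module.End ℤ (JZero p)) (x : JZero p) : Ideal T where
  carrier := {t | ev t x = 0}
  zero_mem' := by
    change ev 0 x = 0
    rw [map_zero]; rfl
  add_mem' := by
    intro a b ha hb
    change ev (a + b) x = 0
    rw [map_add, LinearMap.add_apply, ha, hb, add_zero]
  smul_mem' := by
    intro s t ht
    change ev (s • t) x = 0
    rw [smul_eq_mul, map_mul, Module.End.mul_apply, ht, map_zero]

theorem mem_annIdeal {ev : T →+* Module.End ℤ (JZero p)} {x : JZero p} {t : T} :
    t ∈ annIdeal ev x ↔ ev t x = 0 := Iff.rfl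

/-- **(G) from the descent contract at the annihilator of a point of prime order `r` of the cuspidal
group.** -/
theorem globalEis_of_descent_ann (hdeg : DegOne p) (cZ : Place Qb (FF p))
    (hS17 : AddGroup.FG (JQ p))
    (ev : T →+* Module.End ℤ (JZero p)) (hev : ∀ t, ev t ∈ heckeSub p) {r : ℕ}
    (hr : r.Prime) (n : ℕ) (hord : addOrderOf (n • pointClass hdeg cZ (cuspInf p)) = r)
    (hdesc : DescentOne ev hev (annIdeal ev (n • pointClass hdeg cZ (cuspInf p))) r) :
    GlobalEis hdeg cZ := by
  refine globalEis_of_descent hdeg cZ hS17 ev hev _ hr ?_ n ?_ (fun t ht => ht) hdesc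
  · rw [mem_annIdeal, map_natCast, ← hord]
    change ((addOrderOf (n • pointClass hdeg cZ (cuspInf p)) : ℕ) : Module.End ℤ (JZero p))
      (n • pointClass hdeg cZ (cuspInf p)) = 0
    rw [Module.End.natCast_apply]
    exact addOrderOf_nsmul_eq_zero _
  · intro h0
    rw [h0, addOrderOf_zero] at hord
    exact hr.one_lt.ne' hord.symm

/-! ### The canonical instance: `T = heckeSub p`, when the Hecke operators commute -/

/-- **(G-COMM)** the generators of `heckeSub p` commute. -/
def HeckeComm (p : ℕ) [NeZero p] : Prop :=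
  ∀ a ∈ (heckeOperatorBar p) '' {m : Nat.Primes | (m : ℕ) ≠ p},
    ∀ b ∈ (heckeOperatorBar p) '' {m : Nat.Primes | (m : ℕ) ≠ p}, a * b = b * a

theorem heckeComm_of_commuteBar (h : HeckeOperatorsCommuteBar p) : HeckeComm p := by
  rintro _ ⟨m, -, rfl⟩ _ ⟨m', -, rfl⟩
  exact h m m'

theorem isMulCommutative_heckeSub (h : HeckeComm p) : IsMulCommutative (heckeSub p) :=
  Algebra.isMulCommutative_adjoin ℤ h

open scoped IsMulCommutative in
/-- The descent contract for `T = heckeSub p` and `P` the annihilator of `n • c`. -/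
def DescentOneHecke (hcomm : HeckeComm p) (x : JZero p) (r : ℕ) : Prop :=
  haveI := isMulCommutative_heckeSub hcomm
  DescentOne (T := heckeSub p) (heckeSub p).val.toRingHom (fun t => t.2)
    (annIdeal (heckeSub p).val.toRingHom x) r

open scoped IsMulCommutative in
/-- **(G) from (G-COMM), S17 and the descent contract for the Hecke algebra itself.** -/
theorem globalEis_of_comm (hdeg : DegOne p) (cZ : Place Qb (FF p)) (hS17 : AddGroup.FG (JQ p))
    (hcomm : HeckeComm p) {r : ℕ} (hr : r.Prime) (n : ℕ)
    (hord : addOrderOf (n • pointClass hdeg cZ (cuspInf p)) = r)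
    (hdesc : DescentOneHecke hcomm (n • pointClass hdeg cZ (cuspInf p)) r) :
    GlobalEis hdeg cZ := by
  haveI := isMulCommutative_heckeSub hcomm
  exact globalEis_of_descent_ann (T := heckeSub p) hdeg cZ hS17 (heckeSub p).val.toRingHom
    (fun t => t.2) hr n hord hdesc

end Fermat.Agent.MAZ.Desc.GTop19
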