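/-
MAZ (S15), chapter DESC (helper79): **the top of the G-side in the ALL-`k` form** (uniform Selmer
bound), in concrete vocabulary.

`XSpec62.GlobalEis` from
* S17 at level `p` (`J₀(p)(ℚ)` finitely generated), literal shape of `GTop19`;
* the Hecke ring `HR p := CommSub (heckeSub p)` (a commutative ring by `HeckeComm71`; the type synonym
  avoids the `Subalgebra.toSemiring` instance trap: quotients of `↥(heckeSub p)`-modules do not
  elaborate), the Eisenstein ideal `eisIdeal p r = (r, T_m - (m + 1) : m ≠ p)`;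
* a Hecke-stable subgroup `A` of finite index in `J₀(p)(ℚ)` (think `J⁰(ℤ)`, or helper26's `A_ur`);
* a nonzero multiple `c'` of the cuspidal class with `r • c' = 0` (+ the Eisenstein property of `c`);
* **the uniform Selmer bound**: `# (A / r ^ k A)[eisIdeal ^ ∞] ≤ B` for all `k`.

The algebra is `EisKill79.exists_eisenstein_killer_of_selmer`.
-/
import Mathlib
import Fermat.Agent.MAZ.Spec.XSpec62
import Fermat.Agent.MAZ.Hecke.HeckeComm71
import Fermat.Agent.MAZ.Desc.EisKillGlue79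
import Fermat.Agent.MAZ.Desc.GTop19

set_option autoImplicit false
set_option linter.unusedSectionVars false

open AlgebraicCurve ModularCurve

noncomputable section

namespace Fermat.Agent.MAZ.Desc.GTopAll79

open Fermat.Agent.X0 Fermat.Agent.MAZ.Spec.XSpec62
open Fermat.Agent.MAZ.Desc.EisKill79 Fermat.Agent.MAZ.Desc.EisKillGlue79
open Fermat.Agent.MAZ.Desc.GTop19 (JQ mem_JQ)

variable (p : ℕ) [NeZero p] [Fact p.Prime]

/-- The Hecke ring away from `p`, as a commutative ring acting on `JZero p`. -/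
abbrev HR : Type := CommSub (heckeSub p)

/-- `T_m`, `m ≠ p`, as an element of the Hecke ring. -/
def tOp (m : Nat.Primes) (hm : (m : ℕ) ≠ p) : HR p :=
  CommSub.ofMem (heckeSub p) (heckeOperatorBar p m) (Algebra.subset_adjoin ⟨m, hm, rfl⟩)

theorem tOp_smul (m : Nat.Primes) (hm : (m : ℕ) ≠ p) (x : JZero p) :
    tOp p m hm • x = heckeOperatorBar p m x := rfl

/-- The rational points `J₀(p)(ℚ)` as a submodule over the Hecke ring. -/
def JQsub : Submodule (HR p) (JZero p) :=
  CommSub.submoduleOfStable (heckeSub p) (JQ p)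
    (fun _ ht _ ha => Fermat.Agent.MAZ.Desc.GTop19.heckeSub_apply_mem_JQ ht ha)

theorem mem_JQsub {z : JZero p} : z ∈ JQsub p ↔ ∀ σ : GQ, σ • z = z := Iff.rfl

/-- The Eisenstein ideal `(r, T_m - (m + 1) : m ≠ p)` of the Hecke ring. -/
def eisIdeal (r : ℕ) : Ideal (HR p) :=
  Ideal.span ({(r : HR p)} ∪
    {x | ∃ (m : Nat.Primes) (hm : (m : ℕ) ≠ p), x = tOp p m hm - (((m : ℕ) : HR p) + 1)})

theorem natCast_mem_eisIdeal (r : ℕ) : (r : HR p) ∈ eisIdeal p r :=
  Ideal.subset_span (Or.inl rfl)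

theorem tOp_sub_mem_eisIdeal (r : ℕ) (m : Nat.Primes) (hm : (m : ℕ) ≠ p) :
    tOp p m hm - (((m : ℕ) : HR p) + 1) ∈ eisIdeal p r :=
  Ideal.subset_span (Or.inr ⟨m, hm, rfl⟩)

/-- The Eisenstein ideal kills every `r`-torsion Eisenstein class. -/
theorem eisIdeal_smul_eq_zero (r : ℕ) {c' : JZero p} (hr : r • c' = 0)
    (hEis : ∀ (m : Nat.Primes), (m : ℕ) ≠ p →
      heckeOperatorBar p m c' = (((m : ℕ) : ℤ) + 1) • c') :
    ∀ t ∈ eisIdeal p r, t • c' = 0 := by
  intro t ht
  unfold eisIdeal at ht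
  induction ht using Submodule.span_induction with
  | mem x hx =>
    rcases hx with hx | ⟨m, hm, rfl⟩
    · rw [Set.mem_singleton_iff.mp hx, Nat.cast_smul_eq_nsmul, hr]
    · have h1 : ((((m : ℕ) : ℤ)) + 1) • c' = (m : ℕ) • c' + c' := by module
      have h2 : ((((m : ℕ) : HR p)) + 1) • c' = (m : ℕ) • c' + c' := by module
      rw [sub_smul, tOp_smul, hEis m hm, h1, h2, sub_self]
  | zero => exact zero_smul (HR p) c'
  | add x y _ _ hx hy => rw [add_smul, hx, hy, add_zero]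
  | smul a x _ hx => rw [smul_eq_mul, mul_smul, hx, smul_zero]

/-- **`GlobalEis` from the uniform Selmer bound.** -/
theorem globalEis_of_uniform_bound (hdeg : DegOne p) (cZ : Place Qb (FF p))
    (hS17 : AddGroup.FG (JQ p))
    (A : Submodule (HR p) (JZero p)) (hA : A ≤ JQsub p)
    (n₀ : ℕ) (hn₀ : 0 < n₀) (hYA : ∀ z ∈ JQsub p, n₀ • z ∈ A)
    (r : ℕ) (hr : 0 < r) (m₁ : ℕ)
    (hc1 : m₁ • pointClass hdeg cZ (cuspInf p) ≠ 0)
    (hc2 : r • (m₁ • pointClass hdeg cZ (cuspInf p)) = 0)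
    (hEis : ∀ (m : Nat.Primes), (m : ℕ) ≠ p →
      heckeOperatorBar p m (pointClass hdeg cZ (cuspInf p)) =
        (((m : ℕ) : ℤ) + 1) • pointClass hdeg cZ (cuspInf p))
    (B : ℕ)
    (hsel : ∀ k : ℕ, Nat.card (primaryPart (eisIdeal p r)
      (A ⧸ (Ideal.span {(r : HR p) ^ k} • ⊤ : Submodule (HR p) A))) ≤ B) :
    GlobalEis hdeg cZ := by
  -- `A` is finitely generated over `ℤ`
  have : Module.Finite ℤ (JQ p) := Module.Finite.iff_addGroup_fg.mpr hS17
  have : IsNoetherian ℤ (JQ p) := inferInstance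
  let incl : A →ₗ[ℤ] JQ p :=
    { toFun := fun a => ⟨a.1, hA a.2⟩
      map_add' := fun _ _ => rfl
      map_smul' := fun _ _ => rfl }
  have : Module.Finite ℤ A :=
    Module.Finite.of_injective incl (fun a b h => Subtype.ext (congrArg (fun x => x.1) h))
  -- the Eisenstein property of `c' = m₁ • c`
  have hEis' : ∀ (m : Nat.Primes), (m : ℕ) ≠ p →
      heckeOperatorBar p m (m₁ • pointClass hdeg cZ (cuspInf p)) =
        (((m : ℕ) : ℤ) + 1) • (m₁ • pointClass hdeg cZ (cuspInf p)) := by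
    intro m hm
    rw [map_nsmul, hEis m hm, smul_comm]
  obtain ⟨t, ht, htc, htY⟩ := CommSub.exists_mem_killer_commSub (heckeSub p)
    ((JQsub p).toAddSubgroup) A n₀ hn₀ (fun y hy => hYA y hy) (eisIdeal p r) r hr
    (natCast_mem_eisIdeal p r) B hsel (pointClass hdeg cZ (cuspInf p))
    ⟨m₁ • pointClass hdeg cZ (cuspInf p), hc1, ⟨m₁, rfl⟩, 1, fun t ht => by
      rw [pow_one] at ht
      exact eisIdeal_smul_eq_zero p r hc2 hEis' t ht⟩
  exact ⟨t, ht, htc, fun z hz => htY z ((mem_JQsub p).mpr hz)⟩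

end Fermat.Agent.MAZ.Desc.GTopAll79
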