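/-
Program MAZ (S15), G-side, brick (HCYC), abstract core (helper48).  Mathlib only.

`J` an abelian group (think `J₀(p)(ℚ̄)`), `Γ` a group acting on it (think `Gal(ℚ̄/ℚ)`), `Isub ≤ Γ`
(think: the inertia group at a place over `p`), `Y ≤ J` a finitely generated subgroup of `Γ`-fixed
points (think `J₀(p)(ℚ)`), `n = r ^ k`.

`divPts n Y = {y | n • y ∈ Y}` is finitely generated (`divPts_fg`), every `σ` acting on `J[n]` with
`(σ - 1)² = 0` satisfies `σ ^ (n * n) = 1` on `divPts n Y` (`pow_mul_self_smul_eq`); hence the image of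
`Isub` in the permutations of `divPts n Y` is a finite `r`-group as soon as some subgroup of finite
index of `Γ` fixes the (finitely many) generators.  If the finite prime-to-`p` quotients of `Isub`
of finite level are cyclic (`htame`: tame inertia is procyclic), `Isub` acts on `divPts n Y` through a
cyclic group: this is the hypothesis `hcyc` of `PFinAbstract90.exists_divisible_subgroup`
(`exists_generator`).
-/
import Mathlib

set_option autoImplicit false
set_option linter.style.haveILetI false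

universe u v

namespace Fermat.Agent.MAZ.Desc.HCycAbstract48

/-! ### Unipotent steps -/

section Unipotent

variable {J : Type*} [AddCommGroup J] {I : Type*} [Group I] [DistribMulAction I J]

/-- `(σ - 1)² x = 0` in the additive form of `IfaceN4.InertiaTors` says that `σ x - x` is fixed. -/
theorem smul_sub_fixed_of_quad {σ : I} {x : J} (h : σ • σ • x + x = σ • x + σ • x) :
    σ • (σ • x - x) = σ • x - x := by
  have h1 : σ • σ • x = σ • x + σ • x - x := eq_sub_of_add_eq h
  rw [smul_sub, h1]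
  abel

/-- if `σ x - x` is fixed by `σ` then `σ ^ m x = x + m (σ x - x)`. -/
theorem pow_smul_of_fixed_diff (σ : I) (x : J) (h : σ • (σ • x - x) = σ • x - x) (m : ℕ) :
    σ ^ m • x = x + m • (σ • x - x) := by
  have hc : ∀ m : ℕ, σ ^ m • (σ • x - x) = σ • x - x := by
    intro m
    induction m with
    | zero => rw [pow_zero, one_smul]
    | succ m ih => rw [pow_succ, mul_smul, h, ih]
  induction m with
  | zero => rw [pow_zero, one_smul, zero_smul, add_zero]
  | succ m ih =>
    calc σ ^ (m + 1) • x = σ ^ m • (x + (σ • x - x)) := by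
          rw [pow_succ, mul_smul]
          congr 1
          abel
      _ = σ ^ m • x + σ ^ m • (σ • x - x) := smul_add _ _ _
      _ = (x + m • (σ • x - x)) + (σ • x - x) := by rw [ih, hc m]
      _ = x + (m + 1) • (σ • x - x) := by rw [succ_nsmul]; abel

variable (n : ℕ) (Y : AddSubgroup J)

/-- the division points `{y | n • y ∈ Y}`. -/
def divPts : AddSubgroup J where
  carrier := {y | n • y ∈ Y}
  zero_mem' := by
    show n • (0 : J) ∈ Y
    rw [smul_zero]
    exact Y.zero_mem
  add_mem' := fun {a b} ha hb => by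
    show n • (a + b) ∈ Y
    rw [smul_add]
    exact Y.add_mem ha hb
  neg_mem' := fun {a} ha => by
    show n • (-a) ∈ Y
    rw [smul_neg]
    exact Y.neg_mem ha

variable {n Y}

theorem mem_divPts {y : J} : y ∈ divPts n Y ↔ n • y ∈ Y := Iff.rfl

/-- **two unipotent steps**: `σ ^ (n * n)` fixes every `y` with `n • y ∈ Y`. -/
theorem pow_mul_self_smul_eq (hY : ∀ z ∈ Y, ∀ σ : I, σ • z = z)
    (hunip : ∀ σ : I, ∀ x : J, n • x = 0 → σ • σ • x + x = σ • x + σ • x)
    (σ : I) {y : J} (hy : n • y ∈ Y) : σ ^ (n * n) • y = y := by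
  -- step A: `σ ^ n` is trivial on `J[n]`
  have hA : ∀ x : J, n • x = 0 → σ ^ n • x = x := by
    intro x hx
    rw [pow_smul_of_fixed_diff σ x (smul_sub_fixed_of_quad (hunip σ x hx)) n, smul_sub,
      smul_comm n σ x, hx, smul_zero, sub_zero, add_zero]
  -- step B: `(σ ^ n) ^ n` is trivial on the division points
  have hc : n • (σ ^ n • y - y) = 0 := by
    rw [smul_sub, smul_comm n (σ ^ n) y, hY _ hy (σ ^ n), sub_self]
  have hfix : σ ^ n • (σ ^ n • y - y) = σ ^ n • y - y := hA _ hc
  rw [pow_mul, pow_smul_of_fixed_diff (σ ^ n) y hfix n, hc, add_zero]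

/-- the division points are stable under the action. -/
theorem smul_mem_divPts (hY : ∀ z ∈ Y, ∀ σ : I, σ • z = z) (σ : I) {y : J}
    (hy : y ∈ divPts n Y) : σ • y ∈ divPts n Y := by
  show n • (σ • y) ∈ Y
  rw [smul_comm n σ y, hY _ hy σ]
  exact hy

end Unipotent

/-! ### Finite generation of the division points -/

section FG

variable {J : Type*} [AddCommGroup J] (n : ℕ) (Y : AddSubgroup J)

/-- `{y | n • y ∈ Y}` is finitely generated if `Y` is and `J[n]` is finite. -/
theorem divPts_fg (hfg : Y.FG) (hfin : Finite {x : J // n • x = 0}) : (divPts n Y).FG := by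
  classical
  let f : J →ₗ[ℤ] J := LinearMap.lsmul ℤ J (n : ℤ)
  have hf : ∀ x : J, f x = n • x := fun x => by
    show (n : ℤ) • x = n • x
    exact natCast_zsmul x n
  set s : Submodule ℤ J := AddSubgroup.toIntSubmodule (divPts n Y) with hs
  set P : Submodule ℤ J := AddSubgroup.toIntSubmodule Y with hP
  have hPfg : P.FG := (Submodule.fg_iff_addSubgroup_fg P).mpr (by
    rw [hP, AddSubgroup.toIntSubmodule_toAddSubgroup]; exact hfg)
  haveI : Module.Finite ℤ ↥P := Module.Finite.iff_fg.mpr hPfg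
  haveI : IsNoetherian ℤ ↥P := isNoetherian_of_isNoetherianRing_of_finite ℤ ↥P
  have h1 : (s.map f).FG := by
    refine isNoetherian_submodule.mp ‹IsNoetherian ℤ ↥P› _ ?_
    rintro _ ⟨y, hy, rfl⟩
    rw [hf]
    exact hy
  have h2 : (s ⊓ LinearMap.ker f).FG := by
    have hsub : ((s ⊓ LinearMap.ker f : Submodule ℤ J) : Set J) ⊆ {x : J | n • x = 0} := by
      rintro x ⟨-, hx⟩
      have : f x = 0 := hx
      rw [hf] at this
      exact this
    haveI : Finite ↥({x : J | n • x = 0} : Set J) := hfin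
    have hfinset : ({x : J | n • x = 0} : Set J).Finite := Set.toFinite _
    have hfin' : ((s ⊓ LinearMap.ker f : Submodule ℤ J) : Set J).Finite := hfinset.subset hsub
    exact ⟨hfin'.toFinset, by rw [Set.Finite.coe_toFinset, Submodule.span_eq]⟩
  have h3 : s.FG := Submodule.fg_of_fg_map_of_fg_inf_ker f h1 h2
  have h4 := (Submodule.fg_iff_addSubgroup_fg s).mp h3
  rwa [hs, AddSubgroup.toIntSubmodule_toAddSubgroup] at h4

end FG

/-! ### The cyclic quotient -/

section Main

variable {J : Type u} [AddCommGroup J] {Γ : Type v} [Group Γ] [DistribMulAction Γ J]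

/-- an additive action fixing a generating set fixes the generated subgroup pointwise. -/
theorem smul_eq_of_mem_closure {T : Set J} {σ : Γ} (hσ : ∀ y ∈ T, σ • y = y) {y : J}
    (hy : y ∈ AddSubgroup.closure T) : σ • y = y := by
  induction hy using AddSubgroup.closure_induction with
  | mem x hx => exact hσ x hx
  | zero => exact smul_zero σ
  | add x y _ _ hx hy => rw [smul_add, hx, hy]
  | neg x _ hx => rw [smul_neg, hx]

variable (Isub : Subgroup Γ) (n : ℕ) (Y : AddSubgroup J)

/-- the action of `Isub` on the division points. -/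
@[reducible] def divPtsAction (hY : ∀ z ∈ Y, ∀ σ : Γ, σ • z = z) : MulAction ↥Isub ↥(divPts n Y) where
  smul σ y := ⟨(σ : Γ) • (y : J), smul_mem_divPts hY (σ : Γ) y.2⟩
  one_smul y := Subtype.ext (one_smul Γ (y : J))
  mul_smul σ τ y := Subtype.ext (mul_smul (σ : Γ) (τ : Γ) (y : J))

/-- **(HCYC), abstract form.**  `Levels` is a family of subgroups of finite index of `Γ` (think: the
groups `Gal(ℚ̄/L)`, `L` a finite normal extension of `ℚ`) such that every finite subset of `J` is
fixed pointwise by a member of the family (`hlevel`) and such that every homomorphism from `Isub` to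
a finite group of order prime to `p` which is trivial on a member of the family has cyclic image
(`htame`).  Then `Isub` acts on `{y | r ^ k • y ∈ Y}` through a cyclic group. -/
theorem exists_generator {p r k : ℕ} [hr : Fact r.Prime] (hp : p.Prime) (hrp : r ≠ p)
    (hY : ∀ z ∈ Y, ∀ σ : Γ, σ • z = z) (hfg : Y.FG)
    (hfin : Finite {x : J // r ^ k • x = 0})
    (hunip : ∀ σ ∈ Isub, ∀ x : J, r ^ k • x = 0 → σ • σ • x + x = σ • x + σ • x)
    (Levels : Set (Subgroup Γ)) (hidx : ∀ H ∈ Levels, H.FiniteIndex)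
    (hlevel : ∀ T : Finset J, ∃ H ∈ Levels, ∀ σ ∈ H, ∀ y ∈ T, σ • y = y)
    (htame : ∀ H ∈ Levels, ∀ (U : Type u) [Group U] [Finite U], (Nat.card U).Coprime p →
      ∀ f : ↥Isub →* U, (∀ σ : ↥Isub, (σ : Γ) ∈ H → f σ = 1) →
        ∃ s : ↥Isub, ∀ σ : ↥Isub, ∃ m : ℕ, f σ = f s ^ m) :
    ∃ τ : ↥Isub, ∀ σ : ↥Isub, ∃ m : ℕ, ∀ y : J, r ^ k • y ∈ Y →
      (σ : Γ) • y = ((τ ^ m : ↥Isub) : Γ) • y := by
  classical
  -- a level fixing the division points
  obtain ⟨T, hT⟩ := divPts_fg (r ^ k) Y hfg hfin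
  obtain ⟨H, hHL, hH⟩ := hlevel T
  have hHfix : ∀ σ ∈ H, ∀ y ∈ divPts (r ^ k) Y, σ • y = y := fun σ hσ y hy =>
    smul_eq_of_mem_closure (fun t ht => hH σ hσ t ht) (by rw [hT]; exact hy)
  -- the permutation representation
  letI := divPtsAction Isub (r ^ k) Y hY
  let ρ : ↥Isub →* Equiv.Perm ↥(divPts (r ^ k) Y) := MulAction.toPermHom ↥Isub ↥(divPts (r ^ k) Y)
  have hρ : ∀ (σ : ↥Isub) (y : ↥(divPts (r ^ k) Y)), ((ρ σ y : ↥(divPts (r ^ k) Y)) : J) =
      (σ : Γ) • (y : J) := fun σ y => rfl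
  have hker : ∀ σ : ↥Isub, (σ : Γ) ∈ H → ρ σ = 1 := by
    intro σ hσ
    ext y
    rw [hρ, Equiv.Perm.coe_one, id_eq]
    exact hHfix _ hσ _ y.2
  -- the image is finite
  haveI := hidx H hHL
  haveI : (H.subgroupOf Isub).FiniteIndex := inferInstance
  have hle : H.subgroupOf Isub ≤ ρ.ker := fun σ hσ =>
    MonoidHom.mem_ker.mpr (hker σ (Subgroup.mem_subgroupOf.mp hσ))
  haveI : ρ.ker.FiniteIndex := Subgroup.finiteIndex_of_le hle
  haveI : Finite (↥Isub ⧸ ρ.ker) := Subgroup.finite_quotient_of_finiteIndex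
  haveI : Finite ↥ρ.range := Finite.of_equiv _ (QuotientGroup.quotientKerEquivRange ρ).toEquiv
  -- the image is an `r`-group
  have hpg : IsPGroup r ↥ρ.range := by
    rintro ⟨u, σ, rfl⟩
    refine ⟨2 * k, Subtype.ext ?_⟩
    rw [Subgroup.coe_pow, Subgroup.coe_one, ← map_pow]
    ext y
    rw [hρ, Equiv.Perm.coe_one, id_eq, two_mul, pow_add]
    have h := pow_mul_self_smul_eq (I := ↥Isub) (n := r ^ k) (Y := Y)
      (fun z hz τ => hY z hz (τ : Γ)) (fun τ x hx => hunip (τ : Γ) τ.2 x hx) σ y.2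
    rw [Subgroup.smul_def] at h
    exact h
  obtain ⟨a, ha⟩ := (IsPGroup.iff_card).mp hpg
  have hcop : (Nat.card ↥ρ.range).Coprime p := by
    rw [ha]
    exact Nat.Coprime.pow_left a ((Nat.coprime_primes hr.out hp).mpr hrp)
  obtain ⟨s, hs⟩ := htame H hHL ↥ρ.range hcop ρ.rangeRestrict (fun σ hσ => Subtype.ext (by
    rw [MonoidHom.coe_rangeRestrict, Subgroup.coe_one]
    exact hker σ hσ))
  refine ⟨s, fun σ => ?_⟩
  obtain ⟨m, hm⟩ := hs σ
  refine ⟨m, fun y hy => ?_⟩
  have h1 : ρ σ = ρ (s ^ m) := by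
    have h := congrArg Subtype.val hm
    rw [Subgroup.coe_pow, MonoidHom.coe_rangeRestrict, MonoidHom.coe_rangeRestrict,
      ← map_pow] at h
    exact h
  have h2 := congrArg (fun e : Equiv.Perm ↥(divPts (r ^ k) Y) =>
    ((e ⟨y, hy⟩ : ↥(divPts (r ^ k) Y)) : J)) h1
  simp only [hρ] at h2
  exact h2

end Main

end Fermat.Agent.MAZ.Desc.HCycAbstract48
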