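/-
Program MAZ (S15), G-side, brick (P-FIN), abstract core (helper90).  Mathlib only.

`J` an abelian group (think `J₀(p)(ℚ̄)`), `I` a group acting on it (think: the inertia group at a
place over `p`), `Y ≤ J` a subgroup of `I`-fixed points (think `J₀(p)(ℚ)`), `r` an integer.

**(P-FIN)** asks for a subgroup `A ≤ Y` of finite index all of whose elements are `r^k`-divisible
INSIDE the `I`-fixed points, for every `k` (so that their Kummer classes are unramified at `p`).
This file reduces it to two statements about TORSION and Kummer cocycles: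

* `hnum` (NUM') : for `y` with `r^k y ∈ Y` the Kummer cocycle `τ ↦ τ y - y` takes values in the
  `I`-fixed points (the variant of S34/`InertiaTors` for division points of rational points);
* `hpt` (PT)   : `#J[r^k]^I ≤ C · r^(g k)` while `#J[r^k] = r^(2 g k)` (the reduction is purely
  toric: the unramified torsion is at most half, up to a constant);
* `hcyc`       : `I` acts on `{y | r^k y ∈ Y}` through a cyclic group (tame inertia is procyclic).

Then `A := ⨅ k, {z ∈ Y | z ∈ r^k J^I}` has index `≤ C²` in `Y` (`exists_divisible_subgroup`).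

Proof: for fixed `k` and a generator `τ`, `z ↦ [τ y - y]` (`r^k y = z`) is a homomorphism from `Y` to
`J[r^k]^I / (τ - 1) J[r^k]`, a group of order `(#J[r^k]^I)² / #J[r^k] ≤ C²`, with kernel
`Y ∩ r^k J^I`; a decreasing chain of subgroups of index `≤ C²` has an intersection of index `≤ C²`.
-/
import Mathlib

set_option autoImplicit false

namespace Fermat.Agent.MAZ.Desc.PFinAbstract90

variable {J : Type*} [AddCommGroup J] {I : Type*} [Group I] [DistribMulAction I J]

/-- `J[n]`. -/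
def tors (J : Type*) [AddCommGroup J] (n : ℕ) : AddSubgroup J where
  carrier := {x | n • x = 0}
  zero_mem' := smul_zero n
  add_mem' := fun {a b} ha hb => by
    show n • (a + b) = 0
    rw [smul_add, ha, hb, add_zero]
  neg_mem' := fun {a} ha => by
    show n • (-a) = 0
    rw [smul_neg, ha, neg_zero]

theorem mem_tors {n : ℕ} {x : J} : x ∈ tors J n ↔ n • x = 0 := Iff.rfl

/-- the `I`-fixed points, as a subgroup. -/
def fixedPts (I : Type*) [Group I] (J : Type*) [AddCommGroup J] [DistribMulAction I J] :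
    AddSubgroup J where
  carrier := {x | ∀ σ : I, σ • x = x}
  zero_mem' := fun σ => smul_zero σ
  add_mem' := fun {a b} ha hb σ => by rw [smul_add, ha σ, hb σ]
  neg_mem' := fun {a} ha σ => by rw [smul_neg, ha σ]

theorem mem_fixedPts {x : J} : x ∈ fixedPts I J ↔ ∀ σ : I, σ • x = x := Iff.rfl

/-- the elements of `Y` which are `n`-divisible inside the `I`-fixed points. -/
def divIn (I : Type*) [Group I] {J : Type*} [AddCommGroup J] [DistribMulAction I J]
    (Y : AddSubgroup J) (n : ℕ) : AddSubgroup J where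
  carrier := {z | z ∈ Y ∧ ∃ y : J, n • y = z ∧ ∀ σ : I, σ • y = y}
  zero_mem' := ⟨Y.zero_mem, 0, smul_zero n, fun σ => smul_zero σ⟩
  add_mem' := by
    rintro a b ⟨ha, y, hy, hyf⟩ ⟨hb, y', hy', hyf'⟩
    exact ⟨Y.add_mem ha hb, y + y', by rw [smul_add, hy, hy'], fun σ => by
      rw [smul_add, hyf σ, hyf' σ]⟩
  neg_mem' := by
    rintro a ⟨ha, y, hy, hyf⟩
    exact ⟨Y.neg_mem ha, -y, by rw [smul_neg, hy], fun σ => by rw [smul_neg, hyf σ]⟩

theorem divIn_le (Y : AddSubgroup J) (n : ℕ) : divIn I Y n ≤ Y := fun _ h => h.1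

theorem divIn_anti (Y : AddSubgroup J) (r : ℕ) {k l : ℕ} (h : k ≤ l) :
    divIn I Y (r ^ l) ≤ divIn I Y (r ^ k) := by
  rintro z ⟨hz, y, hy, hyf⟩
  obtain ⟨m, rfl⟩ := Nat.exists_eq_add_of_le h
  refine ⟨hz, r ^ m • y, ?_, fun σ => ?_⟩
  · rw [smul_smul, ← pow_add, hy]
  · rw [smul_comm σ (r ^ m) y, hyf σ]

/-! ### One level `n`, one generator `τ` -/

section OneLevel

variable (n : ℕ) (τ : I)

/-- `N = τ - 1` on `J[n]`. -/
def nHom : tors J n →+ tors J n where
  toFun x := ⟨τ • (x : J) - x, by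
    show n • (τ • (x : J) - x) = 0
    rw [smul_sub, smul_comm n τ (x : J), mem_tors.mp x.2, smul_zero, sub_zero]⟩
  map_zero' := by
    apply Subtype.ext
    show τ • ((0 : tors J n) : J) - ((0 : tors J n) : J) = ((0 : tors J n) : J)
    rw [AddSubgroup.coe_zero, smul_zero, sub_zero]
  map_add' a b := by
    apply Subtype.ext
    show τ • ((a + b : tors J n) : J) - ((a + b : tors J n) : J) =
      (τ • (a : J) - a) + (τ • (b : J) - b)
    rw [AddSubgroup.coe_add, smul_add]
    abel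

theorem coe_nHom (x : tors J n) : ((nHom (J := J) n τ x : tors J n) : J) = τ • (x : J) - x := rfl

theorem card_tors_eq [Finite (tors J n)] :
    Nat.card (tors J n) = Nat.card (nHom (J := J) n τ).ker * Nat.card (nHom (J := J) n τ).range := by
  rw [← AddSubgroup.index_ker, AddSubgroup.card_mul_index]

variable (Y : AddSubgroup J)

/-- **The counting inequality at one level.** -/
theorem index_mul_card_range_le (hY : Y ≤ fixedPts I J) (hdiv : ∀ z ∈ Y, ∃ y : J, n • y = z)
    (hcyc : ∀ σ : I, ∃ m : ℕ, ∀ y : J, n • y ∈ Y → σ • y = τ ^ m • y)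
    (hnum : ∀ y : J, n • y ∈ Y → τ • (τ • y - y) = τ • y - y)
    [Finite (tors J n)] :
    Finite (↥Y ⧸ (divIn I Y n).addSubgroupOf Y) ∧
      Nat.card (↥Y ⧸ (divIn I Y n).addSubgroupOf Y) * Nat.card (nHom (J := J) n τ).range ≤
        Nat.card (nHom (J := J) n τ).ker := by
  classical
  -- `τ`-fixed division points are `I`-fixed
  have hfix : ∀ y : J, n • y ∈ Y → τ • y = y → ∀ σ : I, σ • y = y := by
    intro y hy hτ σ
    obtain ⟨m, hm⟩ := hcyc σ
    rw [hm y hy]
    clear hm
    induction m with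
    | zero => rw [pow_zero, one_smul]
    | succ m ih => rw [pow_succ, mul_smul, hτ, ih]
  -- representatives
  let zq : (↥Y ⧸ (divIn I Y n).addSubgroupOf Y) → ↥Y := fun q => Quotient.out q
  have hzq : ∀ q, ((zq q : ↥Y) : ↥Y ⧸ (divIn I Y n).addSubgroupOf Y) = q := fun q =>
    QuotientAddGroup.out_eq' q
  choose yq hyq using fun q => hdiv (zq q : J) (zq q).2
  have hyY : ∀ q, n • yq q ∈ Y := fun q => by rw [hyq q]; exact (zq q).2
  -- the cocycle values
  have haT : ∀ q, τ • yq q - yq q ∈ tors J n := fun q => by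
    show n • (τ • yq q - yq q) = 0
    rw [smul_sub, smul_comm n τ (yq q), hyq q, hY (zq q).2 τ, sub_self]
  let aq : (↥Y ⧸ (divIn I Y n).addSubgroupOf Y) → tors J n := fun q => ⟨τ • yq q - yq q, haT q⟩
  have haK : ∀ q, aq q ∈ (nHom (J := J) n τ).ker := fun q => by
    rw [AddMonoidHom.mem_ker]
    apply Subtype.ext
    rw [coe_nHom]
    show τ • (τ • yq q - yq q) - (τ • yq q - yq q) = ((0 : tors J n) : J)
    rw [hnum (yq q) (hyY q), sub_self, AddSubgroup.coe_zero]
  have hBK : ∀ b ∈ (nHom (J := J) n τ).range, b ∈ (nHom (J := J) n τ).ker := by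
    rintro b ⟨t, rfl⟩
    rw [AddMonoidHom.mem_ker]
    apply Subtype.ext
    rw [coe_nHom, coe_nHom]
    have ht : n • (t : J) ∈ Y := by rw [mem_tors.mp t.2]; exact Y.zero_mem
    rw [hnum (t : J) ht, sub_self, AddSubgroup.coe_zero]
  -- the injection
  let Φ : (↥Y ⧸ (divIn I Y n).addSubgroupOf Y) × (nHom (J := J) n τ).range → (nHom (J := J) n τ).ker :=
    fun x => ⟨aq x.1 + (x.2 : tors J n),
      (nHom (J := J) n τ).ker.add_mem (haK x.1) (hBK _ x.2.2)⟩
  have hΦ : Function.Injective Φ := by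
    rintro ⟨q, b⟩ ⟨q', b'⟩ h
    have h1 : aq q + (b : tors J n) = aq q' + (b' : tors J n) := congrArg Subtype.val h
    have hq : q = q' := by
      obtain ⟨t, ht⟩ := (nHom (J := J) n τ).range.sub_mem b'.2 b.2
      -- `aq q - aq q' = b' - b = N t`
      have h2 : (aq q : tors J n) - aq q' = nHom (J := J) n τ t := by
        rw [ht]
        have : aq q = aq q' + (b' : tors J n) - (b : tors J n) := by rw [← h1]; abel
        rw [this]; abel
      have h3 : (τ • yq q - yq q) - (τ • yq q' - yq q') = τ • (t : J) - t := by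
        have := congrArg (fun x : tors J n => (x : J)) h2
        simpa [AddSubgroup.coe_sub, coe_nHom] using this
      rw [← hzq q, ← hzq q', QuotientAddGroup.eq, AddSubgroup.mem_addSubgroupOf]
      have hmem : ((-zq q + zq q' : ↥Y) : J) ∈ Y := (-zq q + zq q').2
      refine ⟨hmem, -(yq q) + yq q' + t, ?_, ?_⟩
      · rw [smul_add, smul_add, smul_neg, hyq q, hyq q', mem_tors.mp t.2, add_zero,
          AddSubgroup.coe_add, AddSubgroup.coe_neg]
      · have hy' : n • (-(yq q) + yq q' + (t : J)) ∈ Y := by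
          rw [smul_add, smul_add, smul_neg, hyq q, hyq q', mem_tors.mp t.2, add_zero]
          exact Y.add_mem (Y.neg_mem (zq q).2) (zq q').2
        refine hfix _ hy' ?_
        rw [smul_add, smul_add, smul_neg]
        have e1 : τ • yq q = (τ • yq q' - yq q') + (τ • (t : J) - t) + yq q := by
          rw [← h3]; abel
        rw [e1]; abel
    subst hq
    have hb : (b : tors J n) = b' := add_left_cancel h1
    exact Prod.ext rfl (Subtype.ext hb)
  have : Finite (nHom (J := J) n τ).ker := Finite.of_injective (fun x => (x : tors J n)) Subtype.val_injective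
  have : Finite (nHom (J := J) n τ).range :=
    Finite.of_injective (fun x => (x : tors J n)) Subtype.val_injective
  have hfin : Finite (↥Y ⧸ (divIn I Y n).addSubgroupOf Y) :=
    Finite.of_injective (fun q => Φ (q, 0)) fun q q' h => (Prod.ext_iff.mp (hΦ h)).1
  refine ⟨hfin, ?_⟩
  rw [← Nat.card_prod]
  exact Nat.card_le_card_of_injective Φ hΦ

end OneLevel

/-! ### All levels -/

section Main

variable (r g C : ℕ) (Y : AddSubgroup J)

/-- the index of `Y ∩ r^k J^I` in `Y` is at most `C²`. -/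
theorem index_divIn_le (hr : 0 < r) (hY : Y ≤ fixedPts I J)
    (hdiv : ∀ z ∈ Y, ∀ k : ℕ, ∃ y : J, r ^ k • y = z)
    (hfin : ∀ k : ℕ, Finite (tors J (r ^ k)))
    (hcard : ∀ k : ℕ, Nat.card (tors J (r ^ k)) = r ^ (2 * g * k))
    (hcyc : ∀ k : ℕ, ∃ τ : I, ∀ σ : I, ∃ m : ℕ, ∀ y : J, r ^ k • y ∈ Y → σ • y = τ ^ m • y)
    (hnum : ∀ (k : ℕ) (y : J), r ^ k • y ∈ Y → ∀ σ τ : I, σ • (τ • y - y) = τ • y - y)
    (hpt : ∀ k : ℕ, Nat.card ↥(tors J (r ^ k) ⊓ fixedPts I J) ≤ C * r ^ (g * k)) (k : ℕ) :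
    ((divIn I Y (r ^ k)).addSubgroupOf Y).index ≠ 0 ∧
      ((divIn I Y (r ^ k)).addSubgroupOf Y).index ≤ C ^ 2 := by
  classical
  have := hfin k
  obtain ⟨τ, hτ⟩ := hcyc k
  obtain ⟨hQfin, hle⟩ := index_mul_card_range_le (r ^ k) τ Y hY (fun z hz => hdiv z hz k) hτ
    (fun y hy => hnum k y hy τ τ)
  have hidx : ((divIn I Y (r ^ k)).addSubgroupOf Y).index =
      Nat.card (↥Y ⧸ (divIn I Y (r ^ k)).addSubgroupOf Y) := rfl
  refine ⟨?_, ?_⟩
  · rw [hidx]
    exact (Nat.card_pos).ne'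
  -- `ker N` injects into the `I`-fixed torsion
  have hker : Nat.card (nHom (J := J) (r ^ k) τ).ker ≤ C * r ^ (g * k) := by
    refine le_trans ?_ (hpt k)
    have : Finite ↥(tors J (r ^ k) ⊓ fixedPts I J) :=
      Finite.of_injective (fun x => (⟨x.1, x.2.1⟩ : tors J (r ^ k))) fun a b h =>
        Subtype.ext (congrArg (fun y : tors J (r ^ k) => (y : J)) h)
    refine Nat.card_le_card_of_injective
      (fun x => (⟨(x : tors J (r ^ k)), ⟨(x : tors J (r ^ k)).2, ?_⟩⟩ :
        ↥(tors J (r ^ k) ⊓ fixedPts I J))) ?_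
    · intro σ
      have hx : τ • ((x : tors J (r ^ k)) : J) = ((x : tors J (r ^ k)) : J) := by
        have h0 := AddMonoidHom.mem_ker.mp x.2
        have h1 : ((nHom (J := J) (r ^ k) τ (x : tors J (r ^ k)) : tors J (r ^ k)) : J) = 0 := by
          rw [h0]; rfl
        rw [coe_nHom] at h1
        exact sub_eq_zero.mp h1
      obtain ⟨m, hm⟩ := hτ σ
      have hxY : r ^ k • ((x : tors J (r ^ k)) : J) ∈ Y := by
        rw [mem_tors.mp (x : tors J (r ^ k)).2]; exact Y.zero_mem
      rw [hm _ hxY]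
      clear hm
      induction m with
      | zero => rw [pow_zero, one_smul]
      | succ m ih => rw [pow_succ, mul_smul, hx, ih]
    · intro a b h
      apply Subtype.ext
      apply Subtype.ext
      exact congrArg (fun y : ↥(tors J (r ^ k) ⊓ fixedPts I J) => (y : J)) h
  have hT := card_tors_eq (J := J) (r ^ k) τ
  rw [hcard k] at hT
  rw [hidx]
  set a := Nat.card (↥Y ⧸ (divIn I Y (r ^ k)).addSubgroupOf Y) with ha
  set K := Nat.card (nHom (J := J) (r ^ k) τ).ker with hK
  set R := Nat.card (nHom (J := J) (r ^ k) τ).range with hR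
  have hpos : 0 < r ^ (2 * g * k) := pow_pos hr _
  have h1 : a * r ^ (2 * g * k) ≤ C ^ 2 * r ^ (2 * g * k) := by
    calc a * r ^ (2 * g * k) = (a * R) * K := by rw [hT]; ring
      _ ≤ K * K := Nat.mul_le_mul_right K hle
      _ ≤ (C * r ^ (g * k)) * (C * r ^ (g * k)) := Nat.mul_le_mul hker hker
      _ = C ^ 2 * r ^ (2 * g * k) := by
          rw [show 2 * g * k = g * k + g * k by ring, pow_add]; ring
  exact Nat.le_of_mul_le_mul_right h1 hpos

/-- **(P-FIN), abstract form.** -/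
theorem exists_divisible_subgroup (hr : 0 < r) (hY : Y ≤ fixedPts I J)
    (hdiv : ∀ z ∈ Y, ∀ k : ℕ, ∃ y : J, r ^ k • y = z)
    (hfin : ∀ k : ℕ, Finite (tors J (r ^ k)))
    (hcard : ∀ k : ℕ, Nat.card (tors J (r ^ k)) = r ^ (2 * g * k))
    (hcyc : ∀ k : ℕ, ∃ τ : I, ∀ σ : I, ∃ m : ℕ, ∀ y : J, r ^ k • y ∈ Y → σ • y = τ ^ m • y)
    (hnum : ∀ (k : ℕ) (y : J), r ^ k • y ∈ Y → ∀ σ τ : I, σ • (τ • y - y) = τ • y - y)
    (hpt : ∀ k : ℕ, Nat.card ↥(tors J (r ^ k) ⊓ fixedPts I J) ≤ C * r ^ (g * k)) :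
    ∃ A : AddSubgroup J, A ≤ Y ∧ (A.addSubgroupOf Y).index ≠ 0 ∧
      (A.addSubgroupOf Y).index ≤ C ^ 2 ∧
      ∀ z ∈ A, ∀ k : ℕ, ∃ y : J, r ^ k • y = z ∧ ∀ σ : I, σ • y = y := by
  classical
  have hidx := index_divIn_le (I := I) r g C Y hr hY hdiv hfin hcard hcyc hnum hpt
  set H : ℕ → AddSubgroup ↥Y := fun k => (divIn I Y (r ^ k)).addSubgroupOf Y with hH
  have hanti : ∀ {k l : ℕ}, k ≤ l → H l ≤ H k := fun {k l} hkl x hx => by
    rw [hH, AddSubgroup.mem_addSubgroupOf] at hx ⊢
    exact divIn_anti Y r hkl hx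
  -- the index is maximal at some `k₀`
  let S : Set ℕ := {m | ∃ k, (H k).index = m}
  have hSne : S.Nonempty := ⟨_, 0, rfl⟩
  have hSbdd : BddAbove S := ⟨C ^ 2, by rintro m ⟨k, rfl⟩; exact (hidx k).2⟩
  obtain ⟨k₀, hk₀⟩ := Nat.sSup_mem hSne hSbdd
  have hmax : ∀ k, (H k).index ≤ (H k₀).index := fun k => by
    rw [hk₀]; exact le_csSup hSbdd ⟨k, rfl⟩
  have hstab : ∀ k, k₀ ≤ k → H k = H k₀ := by
    intro k hk
    have hle : H k ≤ H k₀ := hanti hk
    have hdvd : (H k₀).index ∣ (H k).index := AddSubgroup.index_dvd_of_le hle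
    have heq : (H k).index = (H k₀).index :=
      le_antisymm (hmax k) (Nat.le_of_dvd (Nat.pos_of_ne_zero (hidx k).1) hdvd)
    have hrel := AddSubgroup.relIndex_mul_index hle
    rw [heq] at hrel
    have hone : (H k).relIndex (H k₀) = 1 := by
      have hpos : 0 < (H k₀).index := Nat.pos_of_ne_zero (hidx k₀).1
      exact Nat.eq_of_mul_eq_mul_right hpos (by rw [hrel, one_mul])
    exact le_antisymm hle (AddSubgroup.relIndex_eq_one.mp hone)
  refine ⟨divIn I Y (r ^ k₀), divIn_le Y _, (hidx k₀).1, (hidx k₀).2, fun z hz k => ?_⟩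
  have hzY : z ∈ Y := divIn_le Y _ hz
  have hzk : z ∈ divIn I Y (r ^ k) := by
    rcases le_total k k₀ with h | h
    · exact divIn_anti Y r h hz
    · have h1 : (⟨z, hzY⟩ : ↥Y) ∈ H k₀ := by
        rw [hH, AddSubgroup.mem_addSubgroupOf]; exact hz
      rw [← hstab k h, hH, AddSubgroup.mem_addSubgroupOf] at h1
      exact h1
  exact hzk.2

end Main

end Fermat.Agent.MAZ.Desc.PFinAbstract90
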