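/-
Program MAZ (S15), G-side, brick (HCYC) — helper48.

The hypothesis `hcyc` of `PFinAbstract90.exists_divisible_subgroup` for `J = JZero p = J₀(p)(ℚ̄)` and
`I` = the inertia group of a valuation subring `A` of `ℚ̄` over `p`:

  for every `k`, `I` acts on `{y | r ^ k • y ∈ Y}` (`Y` a finitely generated group of rational points)
  through a cyclic group.

Inputs, all in literal form (so that the closure of this file stays light):
* `hfg`   : `Y` is finitely generated (S17 for `Y = J₀(p)(ℚ)`);
* `hfin`  : `J₀(p)[r ^ k]` is finite (`ES/KUM/FiniteTorsion15`);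
* `hunip` : `(τ - 1)² = 0` on the prime-to-`p` torsion for `τ` in the inertia group
            (= `ES/N34/IfaceN4.InertiaTors` at `(N, q) = (p, p)`, proved in the closure of S34);
* `htame` : `TameStmt p A` = helper11's `TameCyclic11.exists_inertia_generator` (tame inertia is
            procyclic: finite prime-to-`p` quotients of finite level of the inertia group are cyclic).
The open-stabiliser input is `ES/GAL/OpenStab12.hasLevel_finite`.  The group theory is in
`HCycAbstract48`.
-/
import Mathlib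
import Fermat.Prelude.Def_ModularCurve_ArithmeticGalois
import Fermat.Prelude.Def_FLTPrelim_Ramification
import Fermat.Agent.ES.GAL.OpenStab12
import Fermat.Agent.MAZ.Desc.PFinAbstract90
import Fermat.Agent.MAZ.Desc.HCycAbstract48

set_option autoImplicit false
set_option linter.style.haveILetI false

open ModularCurve AlgebraicCurve

noncomputable section

namespace Fermat.Agent.MAZ.Desc.HCyc48

open Fermat.Agent.MAZ.Desc

/-- `ℚbar`. -/
abbrev Qb : Type := AlgebraicClosure ℚ

/-- The absolute Galois group of `ℚ`. -/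
abbrev GQ : Type := Qb ≃ₐ[ℚ] Qb

theorem isAlgebraic_qbar48 : Algebra.IsAlgebraic ℚ Qb := AlgebraicClosure.isAlgebraic ℚ

attribute [local instance] isAlgebraic_qbar48

local instance isAlgClosureQbar48 : IsAlgClosure ℚ Qb := ⟨inferInstance, inferInstance⟩
local instance normalQbar48 : Normal ℚ Qb := IsAlgClosure.normal ℚ Qb
local instance isGaloisQbar48 : IsGalois ℚ Qb := IsAlgClosure.isGalois ℚ Qb

/-- **Tame inertia is procyclic**, in the literal shape of helper11's
`TameCyclic11.exists_inertia_generator` (at `U : Type`): the image of the inertia group at `A ∣ p` in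
a finite group of order prime to `p`, under a homomorphism of finite level, is cyclic. -/
def TameStmt (p : ℕ) (A : ValuationSubring Qb) : Prop :=
  ∀ (L : IntermediateField ℚ Qb) [FiniteDimensional ℚ L] [Normal ℚ L]
    (U : Type) [Group U] [Finite U], (Nat.card U).Coprime p →
    ∀ f : ↥(A.inertiaSubgroupIn ℚ) →* U,
      (∀ σ : ↥(A.inertiaSubgroupIn ℚ), (σ : GQ) ∈ L.fixingSubgroup → f σ = 1) →
      ∃ s : ↥(A.inertiaSubgroupIn ℚ), ∀ σ : ↥(A.inertiaSubgroupIn ℚ), ∃ k : ℕ, f σ = f s ^ k

/-- The family of levels: the groups `Gal(ℚ̄/L)`, `L / ℚ` finite and normal. -/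
def levels : Set (Subgroup GQ) :=
  {H | ∃ L : IntermediateField ℚ Qb, FiniteDimensional ℚ L ∧ Normal ℚ L ∧ H = L.fixingSubgroup}

theorem finiteIndex_of_mem_levels {H : Subgroup GQ} (hH : H ∈ levels) : H.FiniteIndex := by
  obtain ⟨L, hL, -, rfl⟩ := hH
  haveI := hL
  haveI : Finite (GQ ⧸ L.fixingSubgroup) :=
    Subgroup.quotient_finite_of_isOpen L.fixingSubgroup (IntermediateField.fixingSubgroup_isOpen L)
  exact Subgroup.finiteIndex_of_finite_quotient

/-- every finite set of points of `J₀(N)(ℚ̄)` is fixed pointwise by a level. -/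
theorem exists_level (N : ℕ) [NeZero N] (T : Finset (JZero N)) :
    ∃ H ∈ levels, ∀ σ ∈ H, ∀ y ∈ T, σ • y = y := by
  obtain ⟨L, hL, hLT⟩ := Fermat.Agent.ES.GAL.OpenStab12.hasLevel_finite N (T : Set (JZero N))
    T.finite_toSet
  haveI := hL
  refine ⟨(IntermediateField.normalClosure ℚ ↥L Qb).fixingSubgroup,
    ⟨IntermediateField.normalClosure ℚ ↥L Qb, inferInstance, normalClosure.normal ℚ ↥L Qb, rfl⟩,
    fun σ hσ y hy => ?_⟩
  refine hLT σ (fun a ha => ?_) y (Finset.mem_coe.mpr hy)
  exact (IntermediateField.mem_fixingSubgroup_iff _ σ).mp hσ a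
    (IntermediateField.le_normalClosure L ha)

/-- **(HCYC)**: the inertia group at `A ∣ p` acts on the `r ^ k`-division points of a finitely
generated group `Y` of rational points of `J₀(p)` through a cyclic group.  The conclusion is the
hypothesis `hcyc` of `PFinAbstract90.exists_divisible_subgroup` verbatim. -/
theorem hcyc {p : ℕ} [NeZero p] (hp : p.Prime) {r : ℕ} (hr : r.Prime) (hrp : r ≠ p)
    (A : ValuationSubring Qb) (Y : AddSubgroup (JZero p))
    (hY : ∀ z ∈ Y, ∀ σ : GQ, σ • z = z) (hfg : Y.FG)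
    (hfin : ∀ k : ℕ, Finite ↥(PFinAbstract90.tors (JZero p) (r ^ k)))
    (hunip : ∀ τ ∈ A.inertiaSubgroupIn ℚ, ∀ m : ℕ, ¬ p ∣ m → ∀ y : JZero p, m • y = 0 →
      τ • τ • y + y = τ • y + τ • y)
    (htame : TameStmt p A) :
    ∀ k : ℕ, ∃ τ : ↥(A.inertiaSubgroupIn ℚ), ∀ σ : ↥(A.inertiaSubgroupIn ℚ), ∃ m : ℕ,
      ∀ y : JZero p, r ^ k • y ∈ Y → σ • y = τ ^ m • y := by
  intro k
  haveI : Fact r.Prime := ⟨hr⟩
  have hpr : ¬ p ∣ r ^ k := fun h =>
    hrp ((Nat.prime_dvd_prime_iff_eq hp hr).mp (hp.dvd_of_dvd_pow h)).symm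
  obtain ⟨τ, hτ⟩ := HCycAbstract48.exists_generator (J := JZero p) (Γ := GQ)
    (A.inertiaSubgroupIn ℚ) Y (p := p) (r := r) (k := k) hp hrp hY hfg (hfin k)
    (fun σ hσ x hx => hunip σ hσ (r ^ k) hpr x hx) levels
    (fun H hH => finiteIndex_of_mem_levels hH) (fun T => exists_level p T)
    (fun H hH U _ _ hU f hf => by
      obtain ⟨L, hL, hLn, rfl⟩ := hH
      haveI := hL
      haveI := hLn
      exact htame L U hU f hf)
  exact ⟨τ, fun σ => by
    obtain ⟨m, hm⟩ := hτ σ
    exact ⟨m, fun y hy => hm y hy⟩⟩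

end Fermat.Agent.MAZ.Desc.HCyc48
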