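/-
Program MAZ (S15), G-side, (P-FIN) — helper48.  Mathlib + `HCycAbstract48` only.

`hnum_of_hcyc`: the two-variable hypothesis `hnum` of `PFinAbstract90.exists_divisible_subgroup`
(`σ • (τ • y - y) = τ • y - y` for ALL `σ, τ` in the inertia group and all `y` with `n • y ∈ Y`)
follows from `hcyc` (the inertia group acts on the division points through a cyclic group, generated
by `τ₀`) and the ONE-variable statement `(τ - 1)² y = 0` in the additive form of `IfaceN4.InertiaTors`
(`τ • τ • y + y = τ • y + τ • y`), which is only needed for the generator `τ₀`.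

So (NUM') can be proved for a single `τ` at a time (helper90, report #2091 §1).
-/
import Mathlib
import Fermat.Agent.MAZ.Desc.HCycAbstract48

set_option autoImplicit false

namespace Fermat.Agent.MAZ.Desc.HNumOfHCyc48

open Fermat.Agent.MAZ.Desc.HCycAbstract48

variable {J : Type*} [AddCommGroup J] {I : Type*} [Group I] [DistribMulAction I J]

/-- **`hnum` from `hcyc` and the one-variable second-difference statement for the generator.** -/
theorem hnum_of_generator (n : ℕ) (Y : AddSubgroup J) (hY : ∀ z ∈ Y, ∀ σ : I, σ • z = z) (τ₀ : I)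
    (hgen : ∀ σ : I, ∃ m : ℕ, ∀ y : J, n • y ∈ Y → σ • y = τ₀ ^ m • y)
    (hquad : ∀ y : J, n • y ∈ Y → τ₀ • τ₀ • y + y = τ₀ • y + τ₀ • y)
    (y : J) (hy : n • y ∈ Y) (σ τ : I) : σ • (τ • y - y) = τ • y - y := by
  -- `c := τ₀ y - y` is fixed by `τ₀`
  have hfix : τ₀ • (τ₀ • y - y) = τ₀ • y - y := smul_sub_fixed_of_quad (hquad y hy)
  have hpow : ∀ m : ℕ, τ₀ ^ m • (τ₀ • y - y) = τ₀ • y - y := by
    intro m
    induction m with
    | zero => rw [pow_zero, one_smul]
    | succ m ih => rw [pow_succ, mul_smul, hfix, ih]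
  -- `τ y - y = b • c`
  obtain ⟨b, hb⟩ := hgen τ
  have h1 : τ • y - y = b • (τ₀ • y - y) := by
    rw [hb y hy, pow_smul_of_fixed_diff τ₀ y hfix b]
    abel
  -- `c` is `n`-torsion, hence a division point, so `σ` acts on it as a power of `τ₀`
  have hcY : n • (τ₀ • y - y) ∈ Y := by
    rw [smul_sub, smul_comm n τ₀ y, hY _ hy τ₀, sub_self]
    exact Y.zero_mem
  obtain ⟨a, ha⟩ := hgen σ
  rw [h1, smul_comm σ b, ha _ hcY, hpow a]

/-- **The form consumed by `PFinAbstract90.exists_divisible_subgroup`**: from `hcyc` (all `k`) and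
the one-variable statement for every element of `I` (only used for the generators). -/
theorem hnum_of_hcyc (r : ℕ) (Y : AddSubgroup J) (hY : ∀ z ∈ Y, ∀ σ : I, σ • z = z)
    (hcyc : ∀ k : ℕ, ∃ τ : I, ∀ σ : I, ∃ m : ℕ, ∀ y : J, r ^ k • y ∈ Y → σ • y = τ ^ m • y)
    (hquad : ∀ (k : ℕ) (τ : I) (y : J), r ^ k • y ∈ Y → τ • τ • y + y = τ • y + τ • y) :
    ∀ (k : ℕ) (y : J), r ^ k • y ∈ Y → ∀ σ τ : I, σ • (τ • y - y) = τ • y - y := by
  intro k y hy σ τ
  obtain ⟨τ₀, hτ₀⟩ := hcyc k
  exact hnum_of_generator (r ^ k) Y hY τ₀ hτ₀ (fun y hy => hquad k τ₀ y hy) y hy σ τ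

end Fermat.Agent.MAZ.Desc.HNumOfHCyc48
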