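/-
Programme MAZ (S15), G-side, line DUALITY, hedge (HOM-μ) (helper50): the Mathlib-only algebra of the
route (H2) of report 1976, in the form of reports 2083 / 2093.

Part D (the abstract step `(D)` of report 2093):
* `map_eis_eq_zero`           : an additive map `f : M → μ` with `f (φ x) = ℓ • f x` (`φ` = a Frobenius,
                                 acting on `μ` through `ℓ`) kills `(t - 1 - ℓ) M` as soon as
                                 `φ² - t φ + ℓ = 0` on `M`, `t φ = φ t` and `ℓ` acts injectively on `μ`;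
* `nsmul_map_eq_zero`         : if moreover `n' • M` lies in the subgroup generated by the ranges of such
                                 `t - 1 - ℓ`, then `n' • f = 0`;
* `card_le_of_nsmul_eq_zero`  : a set of additive maps `M → μ` killed by `n'` has at most
                                 `#μ[n'] ^ #(M / n' M)` elements, a bound that does not see the exponent
                                 of `M`;
* `card_quotient_nsmul`       : `#(M / n' M) = #M[n']` for finite `M`.

Part L (localisation variant, report 2083 Step 2):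
* `exists_mul_pow_mem`        : if every prime between `I'` and the prime `P` contains `r`, then
                                 `s * r ^ a ∈ I'` for some `s ∉ P`;
* `pow_smul_mem_smul_top`, `span_pow_smul_le`, `card_quotient_le` : on a module on which every `s ∉ P`
                                 acts surjectively, `r ^ a • M ⊆ I' • M`, hence
                                 `#(M / I' M) ≤ #(M / r ^ a M)`;
* `surjective_smul_of_primary`: on a finite `P`-primary module every `s ∉ P` acts bijectively.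

Part Q (report 2083 Step 3, abstract):
* `smul_eq_zero_of_quadratic`, `eq_add_of_quadratic` : `(φ - 1)(φ - q) = 0` and `φ² - t φ + q = 0` with
                                 `φ` surjective force `t - 1 - q` to kill the module.

* `card_hom_le`               : additive maps killing `I' • M` inject into the maps on `M / I' M`.
-/
import Mathlib

set_option autoImplicit false

namespace Fermat.Agent.MAZ.Desc.HomMuAlg50

/-! ### Part D: equivariant maps to `μ` kill the Eisenstein ideal -/

section PartD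

variable {M : Type*} [AddCommGroup M] {μ : Type*} [AddCommGroup μ]

/-- **Step (D1).** Let `φ, t` be commuting endomorphisms of `M` with `φ² - t φ + ℓ = 0`, and let
`f : M → μ` be additive with `f (φ x) = ℓ • f x`. If `ℓ` acts injectively on `μ`, then
`f (t x) = (1 + ℓ) • f x`. -/
theorem map_hecke_eq (φ t : M →+ M) (ℓ : ℕ) (hcomm : ∀ x, t (φ x) = φ (t x))
    (hES : ∀ x, φ (φ x) - t (φ x) + ℓ • x = 0) (f : M →+ μ) (hf : ∀ x, f (φ x) = ℓ • f x)
    (hinj : ∀ y : μ, ℓ • y = 0 → y = 0) (x : M) : f (t x) = (1 + ℓ) • f x := by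
  have h := congrArg f (hES x)
  rw [map_add, map_sub, map_zero, hcomm, hf, hf, hf, map_nsmul] at h
  -- h : ℓ • ℓ • f x - ℓ • f (t x) + ℓ • f x = 0
  have h2 : ℓ • ((1 + ℓ) • f x - f (t x)) = 0 := by
    rw [smul_sub, add_smul, one_smul, smul_add]
    rw [← h]
    abel
  have h3 := hinj _ h2
  exact (sub_eq_zero.mp h3).symm

/-- **Step (D1), kernel form.** `f` kills the range of `t - (1 + ℓ)`. -/
theorem map_eis_eq_zero (φ t : M →+ M) (ℓ : ℕ) (hcomm : ∀ x, t (φ x) = φ (t x))
    (hES : ∀ x, φ (φ x) - t (φ x) + ℓ • x = 0) (f : M →+ μ) (hf : ∀ x, f (φ x) = ℓ • f x)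
    (hinj : ∀ y : μ, ℓ • y = 0 → y = 0) (x : M) : f (t x - (1 + ℓ) • x) = 0 := by
  rw [map_sub, map_nsmul, map_hecke_eq φ t ℓ hcomm hES f hf hinj x, sub_self]

/-- **Step (D2).** If `f` kills a subgroup `E` and `n' • M ⊆ E`, then `n' • f = 0`. -/
theorem nsmul_map_eq_zero (f : M →+ μ) (E : AddSubgroup M) (hE : ∀ x ∈ E, f x = 0) (n' : ℕ)
    (hn : ∀ x : M, n' • x ∈ E) (x : M) : n' • f x = 0 := by
  rw [← map_nsmul]
  exact hE _ (hn x)

/-- **Steps (D1) + (D2) together.** `ι` indexes the Hecke operators `t i` with Frobenius `φ i` and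
prime `ℓ i`; if `n' • M` lies in the subgroup generated by the ranges of the `t i - (1 + ℓ i)`, then
every `f` which is `φ i`-equivariant for all `i` is killed by `n'`. -/
theorem nsmul_map_eq_zero_of_eis {ι : Type*} (φ t : ι → (M →+ M)) (ℓ : ι → ℕ)
    (hcomm : ∀ i x, t i (φ i x) = φ i (t i x))
    (hES : ∀ i x, φ i (φ i x) - t i (φ i x) + ℓ i • x = 0) (f : M →+ μ)
    (hf : ∀ i x, f (φ i x) = ℓ i • f x) (hinj : ∀ i, ∀ y : μ, ℓ i • y = 0 → y = 0) (n' : ℕ)
    (hn : ∀ x : M, n' • x ∈
      AddSubgroup.closure (⋃ i, Set.range fun x : M => t i x - (1 + ℓ i) • x)) (x : M) :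
    n' • f x = 0 := by
  refine nsmul_map_eq_zero f _ ?_ n' hn x
  intro y hy
  have hle : AddSubgroup.closure (⋃ i, Set.range fun x : M => t i x - (1 + ℓ i) • x) ≤ f.ker := by
    rw [AddSubgroup.closure_le]
    intro z hz
    obtain ⟨i, hi⟩ := Set.mem_iUnion.mp hz
    obtain ⟨w, rfl⟩ := hi
    exact map_eis_eq_zero (φ i) (t i) (ℓ i) (hcomm i) (hES i) f (hf i) (hinj i) w
  exact hle hy

/-- `#(M / n' M) = #M[n']` for a finite abelian group. -/
theorem card_quotient_nsmul [Finite M] (n' : ℕ) :
    Nat.card (M ⧸ (nsmulAddMonoidHom n' : M →+ M).range) =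
      Nat.card (nsmulAddMonoidHom n' : M →+ M).ker := by
  classical
  have h1 := AddSubgroup.card_eq_card_quotient_mul_card_addSubgroup
    (nsmulAddMonoidHom n' : M →+ M).range
  have h2 := AddSubgroup.card_eq_card_quotient_mul_card_addSubgroup
    (nsmulAddMonoidHom n' : M →+ M).ker
  have h3 : Nat.card (M ⧸ (nsmulAddMonoidHom n' : M →+ M).ker) =
      Nat.card (nsmulAddMonoidHom n' : M →+ M).range :=
    Nat.card_congr (QuotientAddGroup.quotientKerEquivRange _).toEquiv
  have hpos : 0 < Nat.card (nsmulAddMonoidHom n' : M →+ M).range := Nat.card_pos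
  rw [h3] at h2
  rw [h2] at h1
  -- h1 : #range * #ker = #(M/range) * #range
  have : Nat.card (nsmulAddMonoidHom n' : M →+ M).range *
      Nat.card (nsmulAddMonoidHom n' : M →+ M).ker =
      Nat.card (nsmulAddMonoidHom n' : M →+ M).range *
        Nat.card (M ⧸ (nsmulAddMonoidHom n' : M →+ M).range) := by
    rw [h1, mul_comm]
  exact (Nat.eq_of_mul_eq_mul_left hpos this).symm

/-- **Step (D3), counting.** A set of additive maps `M → μ` all killed by `n'` has at most
`#μ[n'] ^ #M[n']` elements: a bound independent of the exponent of `M`. -/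
theorem card_le_of_nsmul_eq_zero [Finite M] [Finite μ] (n' : ℕ) (S : Set (M →+ μ))
    (hS : ∀ f ∈ S, ∀ x : M, n' • f x = 0) :
    Nat.card S ≤ Nat.card (nsmulAddMonoidHom n' : μ →+ μ).ker ^
      Nat.card (nsmulAddMonoidHom n' : M →+ M).ker := by
  classical
  rw [← card_quotient_nsmul (M := M)]
  set R := (nsmulAddMonoidHom n' : M →+ M).range with hR
  set K := (nsmulAddMonoidHom n' : μ →+ μ).ker with hK
  have hkill : ∀ f ∈ S, R ≤ (f : M →+ μ).ker := by
    rintro f hf _ ⟨x, rfl⟩
    rw [AddMonoidHom.mem_ker]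
    change f (n' • x) = 0
    rw [map_nsmul]
    exact hS f hf x
  have : Finite (M ⧸ R) := Quotient.finite _
  have hcard : Nat.card ((M ⧸ R) → K) = Nat.card K ^ Nat.card (M ⧸ R) := by
    rw [Nat.card_fun]
  rw [← hcard]
  have hmem : ∀ (f : S) (q : M ⧸ R), QuotientAddGroup.lift R f.1 (hkill f.1 f.2) q ∈ K := by
    intro f q
    induction q using QuotientAddGroup.induction_on with
    | H x =>
      rw [QuotientAddGroup.lift_mk, hK, AddMonoidHom.mem_ker]
      exact hS f.1 f.2 x
  refine Nat.card_le_card_of_injective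
    (fun f : S => fun q : M ⧸ R =>
      (⟨QuotientAddGroup.lift R f.1 (hkill f.1 f.2) q, hmem f q⟩ : K)) ?_
  intro f g hfg
  apply Subtype.ext
  ext x
  have h := congrArg Subtype.val (congrFun hfg (QuotientAddGroup.mk x))
  simp only [QuotientAddGroup.lift_mk] at h
  exact h

end PartD

/-! ### Part L: localisation -/

section Localise

variable {T : Type*} [CommRing T]

/-- If every prime ideal between `I'` and the prime `P` contains `r`, then some `s ∉ P` and some power
of `r` multiply into `I'`. -/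
theorem exists_mul_pow_mem (P : Ideal T) [P.IsPrime] (I' : Ideal T) (r : T)
    (h : ∀ 𝔮 : Ideal T, 𝔮.IsPrime → I' ≤ 𝔮 → 𝔮 ≤ P → r ∈ 𝔮) :
    ∃ s : T, s ∉ P ∧ ∃ a : ℕ, s * r ^ a ∈ I' := by
  classical
  by_contra hcon
  have hcon' : ∀ s : T, s ∉ P → ∀ a : ℕ, s * r ^ a ∉ I' := by
    intro s hs a hmem
    exact hcon ⟨s, hs, a, hmem⟩
  have hone : (1 : T) ∉ P := fun h1 =>
    (Ideal.IsPrime.ne_top ‹P.IsPrime›) ((Ideal.eq_top_iff_one _).mpr h1)
  let S : Submonoid T :=
    { carrier := {x | ∃ s : T, s ∉ P ∧ ∃ a : ℕ, x = s * r ^ a}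
      one_mem' := ⟨1, hone, 0, by simp⟩
      mul_mem' := by
        rintro x y ⟨s, hs, a, rfl⟩ ⟨s', hs', a', rfl⟩
        refine ⟨s * s', fun hmem => ?_, a + a', by ring⟩
        rcases Ideal.IsPrime.mem_or_mem ‹P.IsPrime› hmem with h1 | h1
        · exact hs h1
        · exact hs' h1 }
  have hdisj : Disjoint (I' : Set T) (S : Set T) := by
    rw [Set.disjoint_left]
    rintro x hx ⟨s, hs, a, rfl⟩
    exact hcon' s hs a hx
  obtain ⟨𝔮, h𝔮prime, h𝔮le, h𝔮disj⟩ := Ideal.exists_le_prime_disjoint I' S hdisj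
  have h𝔮P : 𝔮 ≤ P := by
    intro x hx
    by_contra hxP
    exact (Set.disjoint_left.mp h𝔮disj) hx ⟨x, hxP, 0, by simp⟩
  have hr : r ∈ 𝔮 := h 𝔮 h𝔮prime h𝔮le h𝔮P
  exact (Set.disjoint_left.mp h𝔮disj) hr ⟨1, hone, 1, by simp⟩

variable {M : Type*} [AddCommGroup M] [Module T M]

/-- On a module on which every `s ∉ P` acts surjectively (e.g. a finite `P`-primary module),
`r ^ a • M ⊆ I' • M` as soon as `s * r ^ a ∈ I'` for some `s ∉ P`. -/
theorem pow_smul_mem_smul_top (P : Ideal T) (I' : Ideal T) (r : T)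
    (hsurj : ∀ s : T, s ∉ P → Function.Surjective fun m : M => s • m)
    {s : T} (hs : s ∉ P) {a : ℕ} (hsa : s * r ^ a ∈ I') (m : M) :
    r ^ a • m ∈ I' • (⊤ : Submodule T M) := by
  obtain ⟨m', rfl⟩ := hsurj s hs m
  change r ^ a • s • m' ∈ _
  rw [← mul_smul, mul_comm]
  exact Submodule.smul_mem_smul hsa Submodule.mem_top

/-- The span of `r ^ a • M` is contained in `I' • M`. -/
theorem span_pow_smul_le (P : Ideal T) (I' : Ideal T) (r : T)
    (hsurj : ∀ s : T, s ∉ P → Function.Surjective fun m : M => s • m)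
    {s : T} (hs : s ∉ P) {a : ℕ} (hsa : s * r ^ a ∈ I') :
    Ideal.span {r ^ a} • (⊤ : Submodule T M) ≤ I' • (⊤ : Submodule T M) := by
  rw [Submodule.ideal_span_singleton_smul]
  rintro _ ⟨m, -, rfl⟩
  exact pow_smul_mem_smul_top P I' r hsurj hs hsa m

/-- **Counting form**: `#(M / I' M) ≤ #(M / r ^ a M)`. -/
theorem card_quotient_le [Finite M] (P : Ideal T) (I' : Ideal T) (r : T)
    (hsurj : ∀ s : T, s ∉ P → Function.Surjective fun m : M => s • m)
    {s : T} (hs : s ∉ P) {a : ℕ} (hsa : s * r ^ a ∈ I') :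
    Nat.card (M ⧸ (I' • (⊤ : Submodule T M))) ≤
      Nat.card (M ⧸ (Ideal.span {r ^ a} • (⊤ : Submodule T M))) := by
  have hle := span_pow_smul_le (M := M) P I' r hsurj hs hsa
  have : Finite (M ⧸ (Ideal.span {r ^ a} • (⊤ : Submodule T M))) := Quotient.finite _
  refine Nat.card_le_card_of_surjective
    (Submodule.mapQ _ _ (LinearMap.id : M →ₗ[T] M) (by simpa using hle)) ?_
  intro y
  obtain ⟨m, rfl⟩ := Submodule.Quotient.mk_surjective _ y
  exact ⟨Submodule.Quotient.mk m, rfl⟩

/-- For a finite module, every `s` acting injectively acts surjectively. -/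
theorem surjective_smul_of_injective [Finite M] (s : T)
    (h : Function.Injective fun m : M => s • m) : Function.Surjective fun m : M => s • m :=
  Finite.surjective_of_injective h

/-- On a finite module each element of which is killed by a power of the maximal ideal `P`, every
`s ∉ P` acts bijectively. -/
theorem surjective_smul_of_primary [Finite M] (P : Ideal T) [hP : P.IsMaximal]
    (hprim : ∀ m : M, ∃ n : ℕ, ∀ t ∈ P ^ n, t • m = 0) (s : T) (hs : s ∉ P) :
    Function.Surjective fun m : M => s • m := by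
  apply surjective_smul_of_injective
  intro m m' hmm'
  have h0 : s • (m - m') = 0 := by
    have : s • m = s • m' := hmm'
    rw [smul_sub, this, sub_self]
  obtain ⟨n, hn⟩ := hprim (m - m')
  obtain ⟨y, i, hi, hyi⟩ := Ideal.IsMaximal.exists_inv_pow P hs n
  have : m - m' = (y * s + i) • (m - m') := by rw [hyi, one_smul]
  rw [add_smul, mul_smul, h0, smul_zero, zero_add, hn i hi] at this
  exact sub_eq_zero.mp this

end Localise

/-! ### Part Q: the quadratic relation at one Frobenius -/

section Quadratic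

variable {K : Type*} [CommRing K] {V : Type*} [AddCommGroup V] [Module K V]

/-- If `(φ - 1)(φ - q) = 0` and `φ² - t φ + q = 0` on `V` and `φ` is surjective, then `t - 1 - q`
kills `V`. -/
theorem smul_eq_zero_of_quadratic (φ : Module.End K V) (t q : K)
    (h1 : ∀ w : V, φ (φ w) - q • φ w - (φ w - q • w) = 0)
    (h2 : ∀ w : V, φ (φ w) - t • φ w + q • w = 0)
    (hφ : Function.Surjective φ) (v : V) : (t - 1 - q) • v = 0 := by
  obtain ⟨w, rfl⟩ := hφ v
  have e1 := h1 w
  have e2 := h2 w
  have : (t - 1 - q) • φ w = (φ (φ w) - q • φ w - (φ w - q • w)) - (φ (φ w) - t • φ w + q • w) := by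
    simp only [sub_smul, one_smul]
    abel
  rw [this, e1, e2, sub_zero]

/-- Faithful form: if only `0` kills `V`, then `t = 1 + q`. -/
theorem eq_add_of_quadratic (φ : Module.End K V) (t q : K)
    (h1 : ∀ w : V, φ (φ w) - q • φ w - (φ w - q • w) = 0)
    (h2 : ∀ w : V, φ (φ w) - t • φ w + q • w = 0)
    (hφ : Function.Surjective φ) (hfaith : ∀ a : K, (∀ v : V, a • v = 0) → a = 0) :
    t = 1 + q := by
  have := hfaith (t - 1 - q) (smul_eq_zero_of_quadratic φ t q h1 h2 hφ)
  linear_combination this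

end Quadratic

/-! ### Homomorphisms killing `I' • M` -/

section Hom

variable {T : Type*} [CommRing T] {M : Type*} [AddCommGroup M] [Module T M]
  {μ : Type*} [AddCommGroup μ]

/-- Additive maps `M → μ` killing `I' • M` inject into additive maps `M / I' M → μ`. -/
theorem card_hom_le [Finite M] [Finite μ] (I' : Ideal T) (S : Set (M →+ μ))
    (hS : ∀ f ∈ S, ∀ x ∈ I' • (⊤ : Submodule T M), f x = 0) :
    Nat.card S ≤ Nat.card ((M ⧸ (I' • (⊤ : Submodule T M))) →+ μ) := by
  classical
  set N : Submodule T M := I' • (⊤ : Submodule T M) with hN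
  have : Finite (M ⧸ N) := Quotient.finite _
  have hfin : Finite ((M ⧸ N) →+ μ) :=
    Finite.of_injective (fun f : (M ⧸ N) →+ μ => (f : (M ⧸ N) → μ)) DFunLike.coe_injective
  refine Nat.card_le_card_of_injective
    (fun f : S => QuotientAddGroup.lift N.toAddSubgroup f.1 (fun x hx => hS f.1 f.2 x hx)) ?_
  intro f g hfg
  apply Subtype.ext
  ext x
  have h := DFunLike.congr_fun hfg (QuotientAddGroup.mk x)
  exact h

end Hom

end Fermat.Agent.MAZ.Desc.HomMuAlg50
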