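/-
MAZ (S15) G-side, brick (HOM-μ)/(D) (helper11): **a `G_ℚ`-equivariant homomorphism from a Galois- and
Hecke-stable subgroup `M ≤ J₀(N)[m]` to a module on which Frobenius at `ℓ` acts through `ℓ` (e.g.
`μ_{r^k}`) kills `(T_ℓ - 1 - ℓ) M` for every `ℓ ∉ S`**, hence is killed by the Eisenstein index `n'`
of (C), and the number of such homomorphisms is bounded by a constant depending only on `n'` and `N`.

* `map_eis_eq_zero`   : `f (T_ℓ y - (1 + ℓ) y) = 0` (Eichler–Shimura `TorsionGalois12.frobenius_relation`,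
                        `HeckeGalois12.heckeOperatorBar_smul`, existence of Frobenius elements, and the
                        abstract `HomMuAlg50.map_eis_eq_zero`);
* `EisIndex`          : the conclusion of (C2) (`EisTransferFinal85.exists_eis_index`) for one `M`;
* `nsmul_map_eq_zero` : `n' • f = 0`;
* `card_le`           : `#{f equivariant} ≤ n' ^ #J₀(N)[n']` for a finite cyclic target;
* `card_le_of_embedding` : the same for an abstract `G_ℚ`-module `M'` with an equivariant embedding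
                        into `J₀(N)` (the shape consumed by `DualDevissage2.equivariantHoms`).
-/
import Mathlib
import Fermat.Agent.ES.TOP.TorsionGalois12
import Fermat.Agent.ES.HECKE.HeckeGalois12
import Fermat.Agent.ES.KUM.FiniteTorsion15
import Fermat.Agent.Lib.FrobeniusExists
import Fermat.Agent.MAZ.Desc.HomMuAlg50

set_option autoImplicit false
set_option linter.unusedSectionVars false
set_option linter.style.haveILetI false

noncomputable section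

namespace Fermat.Agent.MAZ.Desc.HomMuFrob11

open AlgebraicCurve ModularCurve

local notation "Qb" => AlgebraicClosure ℚ
local notation "GQ" => (AlgebraicClosure ℚ ≃ₐ[ℚ] AlgebraicClosure ℚ)

variable {N : ℕ} [NeZero N]

/-- restriction of an endomorphism to a stable subgroup. -/
def restrictHom {J : Type*} [AddCommGroup J] (M : AddSubgroup J) (g : J →+ J)
    (h : ∀ x ∈ M, g x ∈ M) : ↥M →+ ↥M :=
  (g.comp M.subtype).codRestrict M fun x => h x x.2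

@[simp] theorem coe_restrictHom {J : Type*} [AddCommGroup J] (M : AddSubgroup J) (g : J →+ J)
    (h : ∀ x ∈ M, g x ∈ M) (x : ↥M) : ((restrictHom M g h x : ↥M) : J) = g x := rfl

/-- **the conclusion of (C2)** for one subgroup `M`. -/
def EisIndex (N : ℕ) [NeZero N] (S : Finset ℕ) (n' : ℕ) (M : AddSubgroup (JZero N)) : Prop :=
  ∀ x ∈ M, n' • x ∈ AddSubgroup.closure {z : JZero N | ∃ (ℓ : ℕ) (hℓ : ℓ.Prime), ℓ ∉ S ∧
    ∃ y ∈ M, z = heckeOperatorBar N ⟨ℓ, hℓ⟩ y - (1 + ℓ) • y}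

section Main

variable (S : Finset ℕ) (hS : ∀ q : ℕ, q.Prime → q ∣ N → q ∈ S)
  {m : ℕ} (hmS : ∀ q : ℕ, q.Prime → q ∣ m → q ∈ S)
  (M : AddSubgroup (JZero N)) (hMm : ∀ x ∈ M, m • x = 0)
  (hMG : ∀ σ : GQ, ∀ x ∈ M, σ • x ∈ M)
  (hMT : ∀ (ℓ : ℕ) (hℓ : ℓ.Prime), ℓ ∉ S → ∀ x ∈ M, heckeOperatorBar N ⟨ℓ, hℓ⟩ x ∈ M)
  {C : Type*} [AddCommGroup C] [DistribMulAction GQ C]
  (hFrob : ∀ ℓ : ℕ, ℓ.Prime → ℓ ∉ S → ∀ A : ValuationSubring Qb, A.LiesOverPrime ℓ →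
    ∀ σ : GQ, A.IsFrobeniusAt σ ℓ → ∀ c : C, σ • c = ℓ • c)
  (hinj : ∀ ℓ : ℕ, ℓ.Prime → ℓ ∉ S → ∀ c : C, ℓ • c = 0 → c = 0)

include hS hmS hMm hMG hMT hFrob hinj in
/-- **(D1)** an equivariant `f` kills `(T_ℓ - 1 - ℓ) M`, `ℓ ∉ S`. -/
theorem map_eis_eq_zero (f : ↥M →+ C)
    (hf : ∀ (σ : GQ) (x : ↥M), f ⟨σ • (x : JZero N), hMG σ x x.2⟩ = σ • f x)
    {ℓ : ℕ} (hℓ : ℓ.Prime) (hℓS : ℓ ∉ S) (y : ↥M) :
    f (restrictHom M (heckeOperatorBar N ⟨ℓ, hℓ⟩) (hMT ℓ hℓ hℓS) y - (1 + ℓ) • y) = 0 := by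
  obtain ⟨A, σ, hA, hσ⟩ := Fermat.Agent.Lib.exists_isFrobeniusAt ℓ hℓ
  have hℓN : ¬ ℓ ∣ N := fun h => hℓS (hS ℓ hℓ h)
  have hℓm : ¬ ℓ ∣ m := fun h => hℓS (hmS ℓ hℓ h)
  refine Fermat.Agent.MAZ.Desc.HomMuAlg50.map_eis_eq_zero
    (restrictHom M (DistribSMul.toAddMonoidHom (JZero N) σ) (hMG σ))
    (restrictHom M (heckeOperatorBar N ⟨ℓ, hℓ⟩) (hMT ℓ hℓ hℓS)) ℓ ?_ ?_ f ?_ (hinj ℓ hℓ hℓS) y
  · intro x
    apply Subtype.ext
    show heckeOperatorBar N ⟨ℓ, hℓ⟩ (σ • (x : JZero N)) = σ • heckeOperatorBar N ⟨ℓ, hℓ⟩ (x : JZero N)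
    exact Fermat.Agent.ES.HECKE.HeckeGalois12.heckeOperatorBar_smul N ⟨ℓ, hℓ⟩ σ x
  · intro x
    apply Subtype.ext
    have h := Fermat.Agent.ES.TOP.TorsionGalois12.frobenius_relation hℓ hℓN hA hℓm
      (hMm x x.2) hσ
    rw [AddSubgroup.coe_add, AddSubgroup.coe_sub, AddSubgroup.coe_nsmul]
    exact h
  · intro x
    have h1 : restrictHom M (DistribSMul.toAddMonoidHom (JZero N) σ) (hMG σ) x =
        ⟨σ • (x : JZero N), hMG σ x x.2⟩ := rfl
    rw [h1, hf σ x, hFrob ℓ hℓ hℓS A hA σ hσ]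

include hS hmS hMm hMG hMT hFrob hinj in
/-- **(D)** an equivariant `f` is killed by the Eisenstein index. -/
theorem nsmul_map_eq_zero (n' : ℕ) (hn : EisIndex N S n' M) (f : ↥M →+ C)
    (hf : ∀ (σ : GQ) (x : ↥M), f ⟨σ • (x : JZero N), hMG σ x x.2⟩ = σ • f x) (x : ↥M) :
    n' • f x = 0 := by
  have key : ∀ z ∈ AddSubgroup.closure {z : JZero N | ∃ (ℓ : ℕ) (hℓ : ℓ.Prime), ℓ ∉ S ∧
      ∃ y ∈ M, z = heckeOperatorBar N ⟨ℓ, hℓ⟩ y - (1 + ℓ) • y}, ∃ hz : z ∈ M, f ⟨z, hz⟩ = 0 := by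
    intro z hz
    induction hz using AddSubgroup.closure_induction with
    | mem z hz =>
      obtain ⟨ℓ, hℓ, hℓS, y, hy, rfl⟩ := hz
      have h := map_eis_eq_zero S hS hmS M hMm hMG hMT hFrob hinj f hf hℓ hℓS ⟨y, hy⟩
      exact ⟨M.sub_mem (hMT ℓ hℓ hℓS y hy) (M.nsmul_mem hy _), h⟩
    | zero => exact ⟨M.zero_mem, map_zero f⟩
    | add a b _ _ ha hb =>
      obtain ⟨ha1, ha2⟩ := ha
      obtain ⟨hb1, hb2⟩ := hb
      refine ⟨M.add_mem ha1 hb1, ?_⟩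
      have : (⟨a + b, M.add_mem ha1 hb1⟩ : ↥M) = ⟨a, ha1⟩ + ⟨b, hb1⟩ := rfl
      rw [this, map_add, ha2, hb2, add_zero]
    | neg a _ ha =>
      obtain ⟨ha1, ha2⟩ := ha
      refine ⟨M.neg_mem ha1, ?_⟩
      have : (⟨-a, M.neg_mem ha1⟩ : ↥M) = -⟨a, ha1⟩ := rfl
      rw [this, map_neg, ha2, neg_zero]
  obtain ⟨hz, h0⟩ := key _ (hn x x.2)
  rw [← map_nsmul]
  have : n' • x = ⟨n' • (x : JZero N), hz⟩ := Subtype.ext (AddSubgroup.coe_nsmul _ _ _)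
  rw [this, h0]

end Main

/-! ### The count -/

/-- in a finite cyclic group, at most `n` elements are killed by `n`. -/
theorem card_ker_nsmul_le {C : Type*} [AddCommGroup C] [Finite C] [IsAddCyclic C] {n : ℕ}
    (hn : 0 < n) : Nat.card (nsmulAddMonoidHom n : C →+ C).ker ≤ n := by
  classical
  cases nonempty_fintype C
  have h := IsAddCyclic.card_nsmul_eq_zero_le (α := C) hn
  have h2 : Nat.card (nsmulAddMonoidHom n : C →+ C).ker =
      (Finset.univ.filter fun a : C => n • a = 0).card := by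
    rw [Nat.card_eq_fintype_card, Fintype.card_subtype]
    congr 1
    ext a
    simp [AddMonoidHom.mem_ker]
  rw [h2]
  exact h

section Count

variable (S : Finset ℕ) (hS : ∀ q : ℕ, q.Prime → q ∣ N → q ∈ S)
  {m : ℕ} (hmS : ∀ q : ℕ, q.Prime → q ∣ m → q ∈ S)
  (M : AddSubgroup (JZero N)) (hMm : ∀ x ∈ M, m • x = 0)
  (hMG : ∀ σ : GQ, ∀ x ∈ M, σ • x ∈ M)
  (hMT : ∀ (ℓ : ℕ) (hℓ : ℓ.Prime), ℓ ∉ S → ∀ x ∈ M, heckeOperatorBar N ⟨ℓ, hℓ⟩ x ∈ M)
  {C : Type*} [AddCommGroup C] [DistribMulAction GQ C] [Finite C] [IsAddCyclic C]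
  (hFrob : ∀ ℓ : ℕ, ℓ.Prime → ℓ ∉ S → ∀ A : ValuationSubring Qb, A.LiesOverPrime ℓ →
    ∀ σ : GQ, A.IsFrobeniusAt σ ℓ → ∀ c : C, σ • c = ℓ • c)
  (hinj : ∀ ℓ : ℕ, ℓ.Prime → ℓ ∉ S → ∀ c : C, ℓ • c = 0 → c = 0)

include hS hmS hMm hMG hMT hFrob hinj in
/-- **(HOM-μ), subgroup form**: the number of equivariant homomorphisms `M → C` is at most
`n' ^ #J₀(N)[n']`, whatever `m ≠ 0` (the exponent of `M`) and `C`. -/
theorem card_le (hm0 : m ≠ 0) (n' : ℕ) (hn' : 0 < n') (hn : EisIndex N S n' M) :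
    Nat.card {f : ↥M →+ C // ∀ (σ : GQ) (x : ↥M),
      f ⟨σ • (x : JZero N), hMG σ x x.2⟩ = σ • f x} ≤
      n' ^ Nat.card {y : JZero N // n' • y = 0} := by
  classical
  haveI : NeZero n' := ⟨hn'.ne'⟩
  haveI : NeZero m := ⟨hm0⟩
  haveI hfinJ : Finite {y : JZero N // n' • y = 0} :=
    (Fermat.Agent.ES.KUM.FiniteTorsion15.finite_setOf_nsmul_eq_zero N n').to_subtype
  haveI hfinM : Finite ↥M := by
    have h1 : (M : Set (JZero N)).Finite :=
      (Fermat.Agent.ES.KUM.FiniteTorsion15.finite_setOf_nsmul_eq_zero N m).subset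
        fun x hx => hMm x hx
    exact h1.to_subtype
  set E : Set (↥M →+ C) := {f | ∀ (σ : GQ) (x : ↥M),
      f ⟨σ • (x : JZero N), hMG σ x x.2⟩ = σ • f x} with hE
  have hkill : ∀ f ∈ E, ∀ x : ↥M, n' • f x = 0 := fun f hf x =>
    nsmul_map_eq_zero S hS hmS M hMm hMG hMT hFrob hinj n' hn f hf x
  have h1 := Fermat.Agent.MAZ.Desc.HomMuAlg50.card_le_of_nsmul_eq_zero n' E hkill
  have h2 : Nat.card (nsmulAddMonoidHom n' : C →+ C).ker ≤ n' := card_ker_nsmul_le hn'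
  have h3 : Nat.card (nsmulAddMonoidHom n' : ↥M →+ ↥M).ker ≤
      Nat.card {y : JZero N // n' • y = 0} := by
    refine Nat.card_le_card_of_injective
      (fun x => ⟨((x : ↥M) : JZero N), ?_⟩) ?_
    · have h : n' • (x : ↥M) = 0 := x.2
      have h' : ((n' • (x : ↥M) : ↥M) : JZero N) = 0 := by rw [h]; rfl
      rwa [AddSubgroup.coe_nsmul] at h'
    · intro x y hxy
      apply Subtype.ext
      apply Subtype.ext
      exact congrArg (fun z : {y : JZero N // n' • y = 0} => (z : JZero N)) hxy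
  calc Nat.card ↥E ≤ Nat.card (nsmulAddMonoidHom n' : C →+ C).ker ^
        Nat.card (nsmulAddMonoidHom n' : ↥M →+ ↥M).ker := h1
    _ ≤ n' ^ Nat.card (nsmulAddMonoidHom n' : ↥M →+ ↥M).ker := Nat.pow_le_pow_left h2 _
    _ ≤ n' ^ Nat.card {y : JZero N // n' • y = 0} := Nat.pow_le_pow_right hn' h3

end Count

/-! ### The count for an abstract module with an equivariant embedding into `J₀(N)` -/

section Embedding

variable (S : Finset ℕ) (hS : ∀ q : ℕ, q.Prime → q ∣ N → q ∈ S)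
  {m : ℕ} (hmS : ∀ q : ℕ, q.Prime → q ∣ m → q ∈ S)
  {M' : Type*} [AddCommGroup M'] [DistribMulAction GQ M']
  (ι : M' →+ JZero N) (hι : Function.Injective ι) (hιG : ∀ (σ : GQ) (x : M'), ι (σ • x) = σ • ι x)
  (hMm : ∀ x : M', m • ι x = 0)
  (hMT : ∀ (ℓ : ℕ) (hℓ : ℓ.Prime), ℓ ∉ S → ∀ x : M', ∃ y : M', ι y = heckeOperatorBar N ⟨ℓ, hℓ⟩ (ι x))
  {C : Type*} [AddCommGroup C] [DistribMulAction GQ C] [Finite C] [IsAddCyclic C]
  (hFrob : ∀ ℓ : ℕ, ℓ.Prime → ℓ ∉ S → ∀ A : ValuationSubring Qb, A.LiesOverPrime ℓ →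
    ∀ σ : GQ, A.IsFrobeniusAt σ ℓ → ∀ c : C, σ • c = ℓ • c)
  (hinj : ∀ ℓ : ℕ, ℓ.Prime → ℓ ∉ S → ∀ c : C, ℓ • c = 0 → c = 0)

include hS hmS hι hιG hMm hMT hFrob hinj in
/-- **(HOM-μ), embedding form**: for a `G_ℚ`-module `M'` embedded equivariantly in `J₀(N)[m]` with
Hecke-stable image, the number of equivariant homomorphisms `M' → C` is at most `n' ^ #J₀(N)[n']`. -/
theorem card_le_of_embedding (hm0 : m ≠ 0) (n' : ℕ) (hn' : 0 < n') (hn : EisIndex N S n' ι.range) :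
    Nat.card {f : M' →+ C // ∀ (σ : GQ) (x : M'), f (σ • x) = σ • f x} ≤
      n' ^ Nat.card {y : JZero N // n' • y = 0} := by
  classical
  set M : AddSubgroup (JZero N) := ι.range with hM
  have hMm' : ∀ x ∈ M, m • x = 0 := by
    rintro _ ⟨x, rfl⟩
    exact hMm x
  have hMG' : ∀ σ : GQ, ∀ x ∈ M, σ • x ∈ M := by
    rintro σ _ ⟨x, rfl⟩
    exact ⟨σ • x, hιG σ x⟩
  have hMT' : ∀ (ℓ : ℕ) (hℓ : ℓ.Prime), ℓ ∉ S → ∀ x ∈ M, heckeOperatorBar N ⟨ℓ, hℓ⟩ x ∈ M := by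
    rintro ℓ hℓ hℓS _ ⟨x, rfl⟩
    obtain ⟨y, hy⟩ := hMT ℓ hℓ hℓS x
    exact ⟨y, hy⟩
  have hfinJ : Finite {y : JZero N // n' • y = 0} := by
    haveI : NeZero n' := ⟨hn'.ne'⟩
    exact (Fermat.Agent.ES.KUM.FiniteTorsion15.finite_setOf_nsmul_eq_zero N n').to_subtype
  refine le_trans ?_ (card_le S hS hmS M hMm' hMG' hMT' hFrob hinj hm0 n' hn' hn)
  haveI hfinM : Finite ↥M := by
    haveI : NeZero m := ⟨hm0⟩
    have h1 : (M : Set (JZero N)).Finite :=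
      (Fermat.Agent.ES.KUM.FiniteTorsion15.finite_setOf_nsmul_eq_zero N m).subset
        fun x hx => hMm' x hx
    exact h1.to_subtype
  haveI : Finite (↥M →+ C) :=
    Finite.of_injective (fun f : ↥M →+ C => (f : ↥M → C)) DFunLike.coe_injective
  let e : M' ≃+ ↥M := AddMonoidHom.ofInjective hι
  have he : ∀ x : M', ((e x : ↥M) : JZero N) = ι x := fun x => rfl
  refine Nat.card_le_card_of_injective
    (fun f => ⟨(f : M' →+ C).comp e.symm.toAddMonoidHom, ?_⟩) ?_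
  · intro σ x
    obtain ⟨x', rfl⟩ := e.surjective x
    have h1 : (⟨σ • ((e x' : ↥M) : JZero N), hMG' σ _ (e x').2⟩ : ↥M) = e (σ • x') := by
      apply Subtype.ext
      show σ • ((e x' : ↥M) : JZero N) = ((e (σ • x') : ↥M) : JZero N)
      rw [he, he, hιG]
    rw [h1]
    simp only [AddMonoidHom.coe_comp, AddEquiv.coe_toAddMonoidHom, Function.comp_apply,
      AddEquiv.symm_apply_apply]
    exact f.2 σ x'
  · intro f g hfg
    apply Subtype.ext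
    have h1 := congrArg Subtype.val hfg
    ext x
    have h2 := DFunLike.congr_fun h1 (e x)
    simpa using h2

end Embedding

end Fermat.Agent.MAZ.Desc.HomMuFrob11
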