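/-
MAZ (S15) G-side, (HOM-μ), final shape (helper11): the count of `HomMuFrob11` restated for helper2's
`DualDevissage2.equivariantHoms`, instantiated at `C = μ_{r^k}` (`MuModule11.Mu (r ^ k)`), and the
uniform bound `∃ B, ∀ k, #Hom_G(M_k, μ_{r^k}) ≤ B` from the conclusion of (C2)
(`EisTransferFinal85.exists_eis_index`) taken as a hypothesis.
-/
import Mathlib
import Fermat.Agent.MAZ.Desc.DualDevissage2
import Fermat.Agent.MAZ.Desc.MuModule11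
import Fermat.Agent.MAZ.Desc.HomMuFrob11

set_option autoImplicit false
set_option linter.unusedSectionVars false
set_option linter.style.haveILetI false

noncomputable section

namespace Fermat.Agent.MAZ.Desc.HomMuDual11

open AlgebraicCurve ModularCurve
open Fermat.Agent.MAZ.Desc.DualModule2 Fermat.Agent.MAZ.Desc.DualDevissage2
open Fermat.Agent.MAZ.Desc.MuModule11 Fermat.Agent.MAZ.Desc.HomMuFrob11

local notation "Qb" => AlgebraicClosure ℚ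
local notation "GQ" => (AlgebraicClosure ℚ ≃ₐ[ℚ] AlgebraicClosure ℚ)

variable {N : ℕ} [NeZero N]

/-- `equivariantHoms` is the set of equivariant additive maps. -/
theorem card_equivariantHoms_eq {M' : Type*} [AddCommGroup M'] [DistribMulAction GQ M']
    {C : Type*} [AddCommGroup C] [DistribMulAction GQ C] :
    Nat.card ↥(equivariantHoms GQ M' C) =
      Nat.card {f : M' →+ C // ∀ (σ : GQ) (x : M'), f (σ • x) = σ • f x} :=
  Nat.card_congr ⟨fun f => ⟨f.1, f.2⟩, fun f => ⟨f.1, f.2⟩, fun _ => rfl, fun _ => rfl⟩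

section

variable (S : Finset ℕ) (hS : ∀ q : ℕ, q.Prime → q ∣ N → q ∈ S)
  {M' : Type*} [AddCommGroup M'] [DistribMulAction GQ M']
  (ι : M' →+ JZero N) (hι : Function.Injective ι) (hιG : ∀ (σ : GQ) (x : M'), ι (σ • x) = σ • ι x)
  (hMT : ∀ (ℓ : ℕ) (hℓ : ℓ.Prime), ℓ ∉ S → ∀ x : M', ∃ y : M', ι y = heckeOperatorBar N ⟨ℓ, hℓ⟩ (ι x))

include hS hι hιG hMT in
/-- **(HOM-μ) in DUAL's vocabulary, abstract target.** -/
theorem card_equivariantHoms_le {m : ℕ} (hmS : ∀ q : ℕ, q.Prime → q ∣ m → q ∈ S)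
    (hMm : ∀ x : M', m • ι x = 0)
    {C : Type*} [AddCommGroup C] [DistribMulAction GQ C] [Finite C] [IsAddCyclic C]
    (hFrob : ∀ ℓ : ℕ, ℓ.Prime → ℓ ∉ S → ∀ A : ValuationSubring Qb, A.LiesOverPrime ℓ →
      ∀ σ : GQ, A.IsFrobeniusAt σ ℓ → ∀ c : C, σ • c = ℓ • c)
    (hinj : ∀ ℓ : ℕ, ℓ.Prime → ℓ ∉ S → ∀ c : C, ℓ • c = 0 → c = 0)
    (hm0 : m ≠ 0) (n' : ℕ) (hn' : 0 < n') (hn : EisIndex N S n' ι.range) :
    Nat.card ↥(equivariantHoms GQ M' C) ≤ n' ^ Nat.card {y : JZero N // n' • y = 0} := by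
  rw [card_equivariantHoms_eq]
  exact card_le_of_embedding S hS hmS ι hι hιG hMm hMT hFrob hinj hm0 n' hn' hn

include hS hι hιG hMT in
/-- **(HOM-μ) in DUAL's vocabulary, `C = μ_{r^k}`.** -/
theorem card_equivariantHoms_mu_le {r : ℕ} [hr : Fact r.Prime] (hrS : r ∈ S) (k : ℕ)
    (hMm : ∀ x : M', r ^ k • ι x = 0)
    (n' : ℕ) (hn' : 0 < n') (hn : EisIndex N S n' ι.range) :
    Nat.card ↥(equivariantHoms GQ M' (Mu (r ^ k))) ≤
      n' ^ Nat.card {y : JZero N // n' • y = 0} := by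
  have hdvd : ∀ q : ℕ, q.Prime → q ∣ r ^ k → q = r := fun q hq hqr =>
    (Nat.prime_dvd_prime_iff_eq hq hr.out).mp (hq.dvd_of_dvd_pow hqr)
  refine card_equivariantHoms_le S hS ι hι hιG hMT (m := r ^ k)
    (fun q hq hqr => hdvd q hq hqr ▸ hrS) hMm ?_ ?_ (pow_ne_zero _ hr.out.ne_zero) n' hn' hn
  · intro ℓ hℓ hℓS A hA σ hσ c
    refine Mu.smul_eq_nsmul_of_isFrobeniusAt hℓ (fun h => hℓS ?_) A hA hσ c
    rw [hdvd ℓ hℓ h]
    exact hrS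
  · intro ℓ hℓ hℓS c hc
    refine Mu.eq_zero_of_nsmul_eq_zero ?_ c hc
    apply Nat.Coprime.pow_right
    rw [Nat.coprime_primes hℓ hr.out]
    rintro rfl
    exact hℓS hrS

end

/-- **(HOM-μ): the uniform bound**, from the conclusion of (C2) as a hypothesis. -/
theorem exists_bound (N : ℕ) [NeZero N] (S : Finset ℕ) (hS : ∀ q : ℕ, q.Prime → q ∣ N → q ∈ S)
    (hC2 : ∃ n' : ℕ, 0 < n' ∧ ∀ (r : ℕ) [Fact r.Prime] (k : ℕ) (M : AddSubgroup (JZero N)),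
      (∀ x ∈ M, r ^ k • x = 0) →
      (∀ (ℓ : ℕ) (hℓ : ℓ.Prime), ℓ ∉ S → ∀ x ∈ M, heckeOperatorBar N ⟨ℓ, hℓ⟩ x ∈ M) →
      ∀ x ∈ M, n' • x ∈ AddSubgroup.closure {z : JZero N | ∃ (ℓ : ℕ) (hℓ : ℓ.Prime), ℓ ∉ S ∧
        ∃ y ∈ M, z = heckeOperatorBar N ⟨ℓ, hℓ⟩ y - (1 + ℓ) • y}) :
    ∃ B : ℕ, ∀ (r : ℕ) [Fact r.Prime], r ∈ S → ∀ (k : ℕ) (M' : Type) [AddCommGroup M']
      [DistribMulAction GQ M'] (ι : M' →+ JZero N), Function.Injective ι →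
      (∀ (σ : GQ) (x : M'), ι (σ • x) = σ • ι x) → (∀ x : M', r ^ k • ι x = 0) →
      (∀ (ℓ : ℕ) (hℓ : ℓ.Prime), ℓ ∉ S → ∀ x : M', ∃ y : M',
        ι y = heckeOperatorBar N ⟨ℓ, hℓ⟩ (ι x)) →
      Nat.card ↥(equivariantHoms GQ M' (Mu (r ^ k))) ≤ B := by
  obtain ⟨n', hn', h⟩ := hC2
  refine ⟨n' ^ Nat.card {y : JZero N // n' • y = 0}, ?_⟩
  intro r _ hrS k M' _ _ ι hι hιG hMm hMT
  refine card_equivariantHoms_mu_le S hS ι hι hιG hMT hrS k hMm n' hn' ?_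
  refine h r k ι.range ?_ ?_
  · rintro _ ⟨x, rfl⟩
    exact hMm x
  · rintro ℓ hℓ hℓS _ ⟨x, rfl⟩
    obtain ⟨y, hy⟩ := hMT ℓ hℓ hℓS x
    exact ⟨y, hy⟩

end Fermat.Agent.MAZ.Desc.HomMuDual11
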