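/-
MAZ (S15), G-side (descent), helper30: **`J₀(N)(ℚ̄)` is a divisible group** (unconditional).

Instance of the S27 chain (`JAC/Final27/ChainFinal63.pic0_nsmul_surjective`, unconditional since the
S25 chain is closed) at the modular pair `(ℚ̄, ℚ̄(X₀(N)))` (`MW/Weak/CurveInst21`).  This is the
hypothesis `div` of the Kummer construction (`KummerCone95.KummerData.Hyp.div`, (K-CONST) of
`GSpec26`): every point of `JZero N` is divisible by every `n ≠ 0`.

* `jzero_nsmul_surjective N n hn z : ∃ y : JZero N, n • y = z`;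
* `jzero_pow_smul_surjective N r k hr z : ∃ y : JZero N, (r ^ k) • y = z`;
* `jzero_zsmul_surjective N n hn z : ∃ y : JZero N, (n : ℤ) • y = z`;
* `exists_torsion_translate` : two `n`-th roots of the same point differ by an `n`-torsion point.
-/
import Fermat.Agent.MW.Weak.CurveInst21
import Fermat.Agent.JAC.Final27.ChainFinal63

set_option autoImplicit false
set_option linter.style.haveILetI false

namespace Fermat.Agent.MAZ.Desc.JZeroDiv30

open ModularCurve AlgebraicCurve Fermat.Agent.MW.Weak.CurveInst21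

local notation "Qbar" => AlgebraicClosure ℚ

variable (N : ℕ) [NeZero N]

/-- **`J₀(N)(ℚ̄)` is `n`-divisible for every `n ≠ 0`.** -/
theorem jzero_nsmul_surjective (n : ℕ) (hn : n ≠ 0) (z : JZero N) :
    ∃ y : JZero N, n • y = z := by
  haveI := isCurveOver_modular N
  haveI := essFiniteType_modular N
  exact Fermat.Agent.JAC.Final27.ChainFinal63.pic0_nsmul_surjective.{0} Qbar
    ↥(modularFunctionFieldBar N) n hn z

/-- `J₀(N)(ℚ̄)` is `r^k`-divisible, `r ≠ 0`. -/
theorem jzero_pow_smul_surjective (r k : ℕ) (hr : r ≠ 0) (z : JZero N) :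
    ∃ y : JZero N, (r ^ k) • y = z :=
  jzero_nsmul_surjective N (r ^ k) (pow_ne_zero k hr) z

/-- `J₀(N)(ℚ̄)` is divisible by every nonzero integer. -/
theorem jzero_zsmul_surjective (n : ℤ) (hn : n ≠ 0) (z : JZero N) :
    ∃ y : JZero N, n • y = z := by
  obtain ⟨m, rfl | rfl⟩ := Int.eq_nat_or_neg n
  · have hm : m ≠ 0 := by
      rintro rfl
      exact hn Nat.cast_zero
    obtain ⟨y, hy⟩ := jzero_nsmul_surjective N m hm z
    exact ⟨y, by rw [natCast_zsmul]; exact hy⟩
  · have hm : m ≠ 0 := by
      rintro rfl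
      exact hn (by rw [Nat.cast_zero, neg_zero])
    obtain ⟨y, hy⟩ := jzero_nsmul_surjective N m hm z
    refine ⟨-y, ?_⟩
    rw [neg_smul, natCast_zsmul, neg_nsmul, neg_neg]
    exact hy

/-- Multiplication by `n ≠ 0` on `J₀(N)(ℚ̄)` is surjective (function form). -/
theorem surjective_nsmul (n : ℕ) (hn : n ≠ 0) :
    Function.Surjective (fun y : JZero N => n • y) :=
  fun z => jzero_nsmul_surjective N n hn z

omit [NeZero N] in
/-- Two `n`-th roots of the same point differ by an `n`-torsion point. -/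
theorem exists_torsion_translate (n : ℕ) {y y' z : JZero N} (hy : n • y = z) (hy' : n • y' = z) :
    ∃ m : JZero N, n • m = 0 ∧ y' = y + m :=
  ⟨y' - y, by rw [nsmul_sub, hy, hy', sub_self], by abel⟩

end Fermat.Agent.MAZ.Desc.JZeroDiv30
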