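/-
Program MAZ (S15), G-side, brick K-UNR (helper3; table #2012 line 5):
THE KUMMER COCYCLE OF A RATIONAL POINT IS UNRAMIFIED AT EVERY PRIME `q ∤ N r`.

For `q` prime, `q ∤ N`, `A` a valuation subring of `ℚ̄` over `q`, `z ∈ J₀(N)(ℚ̄)` Galois-fixed and
`m • y = z` with `q ∤ m`: every `τ` in the inertia group `I_A` fixes `y`.
Proof: `τ • y - y` is `m`-torsion, it is killed by the reduction homomorphism `Φ` of the contract (SP)
(`ES/TOP/TorsionGalois12.sp`, unconditional for every prime `q ∤ N`, including `q = 2, 3`), because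
`Φ` is inertia-invariant on ALL of `JZero N`; and `Φ` is injective on prime-to-`q` torsion.

Consequence in the vocabulary of `MAZ/Spec/GSpec26`: `UnramAt r k (σ ↦ σ • y - y) q` for `q ∤ p r`.
-/
import Mathlib
import Fermat.Agent.ES.TOP.TorsionGalois12
import Fermat.Agent.MAZ.Spec.GSpec26

set_option autoImplicit false
set_option linter.unusedSectionVars false

noncomputable section

open AlgebraicCurve ModularCurve

namespace Fermat.Agent.MAZ.Desc.KUnr3

open Fermat.Agent.ES.TOP.Skeleton8 Fermat.Agent.ES.TOP.TorsionGalois12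
open Fermat.Agent.MAZ.Spec.XSpec62

/-- **K-UNR, core form.** A point `y` with `m • y` Galois-fixed, `q ∤ N m`, is fixed by the inertia
groups over `q`. -/
theorem inertia_smul_eq_of_nsmul_fixed {N q : ℕ} [NeZero N] (hq : q.Prime) (hqN : ¬ q ∣ N)
    {A : ValuationSubring Qb} (hA : A.LiesOverPrime q) {m : ℕ} (hm : ¬ q ∣ m)
    {y z : JZero N} (hy : m • y = z) (hz : ∀ σ : GQ, σ • z = z)
    {τ : GQ} (hτ : τ ∈ A.inertiaSubgroupIn ℚ) : τ • y = y := by
  obtain ⟨G, _, Φ, h1, -, h3⟩ := sp N q hq hqN A hA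
  rw [← sub_eq_zero]
  refine h3 m (τ • y - y) hm ?_ ?_
  · have e : m • (τ • y) = τ • (m • y) := (smul_nsmul_comm τ m y).symm
    rw [nsmul_sub, e, hy, hz, sub_self]
  · rw [map_sub, h1 τ hτ y, sub_self]

/-- **K-UNR** in the vocabulary of `GSpec26`: the Kummer cocycle `σ ↦ σ • y - y` of a rational point
`z = r^k • y` of `J₀(p)` is unramified at every prime `q ∤ p r`. -/
theorem kummer_unramAt {p : ℕ} [NeZero p] (r k q : ℕ) (hq : q.Prime) (hqp : ¬ q ∣ p)
    (hqr : ¬ q ∣ r) {y z : JZero p} (hy : (r ^ k) • y = z) (hz : ∀ σ : GQ, σ • z = z) :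
    Fermat.Agent.MAZ.Spec.GSpec26.UnramAt r k (fun σ : GQ => σ • y - y) q := by
  intro 𝔄 h𝔄
  refine ⟨0, smul_zero _, fun σ hσ => ?_⟩
  have hm : ¬ q ∣ r ^ k := fun h => hqr (hq.dvd_of_dvd_pow h)
  show σ • y - y = σ • (0 : JZero p) - 0
  rw [inertia_smul_eq_of_nsmul_fixed hq hqp h𝔄 hm hy hz hσ, sub_self, sub_zero]
  exact (smul_zero (A := JZero p) σ).symm

/-- Variant with prime `p`, `r` and `q ∉ {p, r}`. -/
theorem kummer_unramAt' {p : ℕ} [NeZero p] (hp : p.Prime) {r : ℕ} (hr : r.Prime) (k q : ℕ)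
    (hq : q.Prime) (hqp : q ≠ p) (hqr : q ≠ r) {y z : JZero p} (hy : (r ^ k) • y = z)
    (hz : ∀ σ : GQ, σ • z = z) :
    Fermat.Agent.MAZ.Spec.GSpec26.UnramAt r k (fun σ : GQ => σ • y - y) q :=
  kummer_unramAt r k q hq (fun h => hqp ((Nat.prime_dvd_prime_iff_eq hq hp).mp h))
    (fun h => hqr ((Nat.prime_dvd_prime_iff_eq hq hr).mp h)) hy hz

end Fermat.Agent.MAZ.Desc.KUnr3
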