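/-
Program MAZ (S15), G-side, brick K-UNR (helper3), adapter:
the contract `KummerInst26.KUnr p r` (helper26, line 8b) as a THEOREM, for `p` prime and any prime `r`
(including `r = 2, 3`; the primes `q = 2, 3` are included as well).
-/
import Mathlib
import Fermat.Agent.MAZ.Desc.KUnr3
import Fermat.Agent.MAZ.Desc.KummerInst26

set_option autoImplicit false

noncomputable section

open AlgebraicCurve ModularCurve

namespace Fermat.Agent.MAZ.Desc.KUnrInst3

open Fermat.Agent.MAZ.Spec.XSpec62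

/-- **K-UNR**, the literal contract of `KummerInst26`. -/
theorem kUnr {p : ℕ} [NeZero p] (hp : p.Prime) (r : ℕ) [hr : Fact r.Prime] :
    Fermat.Agent.MAZ.Desc.KummerInst26.KUnr p r := by
  intro q hq hqr hqp B hB σ hσ k y hfix
  have hqp' : ¬ q ∣ p := fun h => hqp ((Nat.prime_dvd_prime_iff_eq hq hp).mp h)
  have hm : ¬ q ∣ r ^ k := fun h =>
    hqr ((Nat.prime_dvd_prime_iff_eq hq hr.out).mp (hq.dvd_of_dvd_pow h))
  exact Fermat.Agent.MAZ.Desc.KUnr3.inertia_smul_eq_of_nsmul_fixed hq hqp' hB hm rfl hfix hσ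

end Fermat.Agent.MAZ.Desc.KUnrInst3
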