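/-
MAZ (S15), G-side, line 8b (helper26): **the DUAL descent at `JZero p` with K-FLAT only for rational
points of INFINITE ORDER** (`P`-part variant).

The chapter K-FLAT (`KummerSet69`, helper69) realises the extension module `E_y` of the Kummer cocycle
of `z = r^k • y` inside `J₀(p)` through the set map `(m, a) ↦ m + a • y`, which is injective only
when `z` has infinite order.  So here:

* the Kummer datum at the level `r^k` has domain `BkA = {z ∈ A | z ∈ r^k J^I}` (instead of all the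
  rational points which are `r^k`-divisible in `J^I`), where `A` is TORSION-FREE;
* `KFlatInf p r` : K-FLAT for the rational points of infinite order; the point `z = 0` is a
  coboundary (`FlatAdm68.flat_ext_dd`, from S19);
* `InputsDualPA`, **`eisBound_of_inputsDualPA`**, **`globalEis_of_inputsDualPA`**;
* `kFlatInf_of_flatAtR` : the adapter from the vocabulary of `GSpec26`.
-/
import Mathlib
import Fermat.Agent.MAZ.Desc.KummerInstDual26

set_option autoImplicit false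
set_option linter.unusedSectionVars false
set_option linter.unusedVariables false
set_option linter.style.haveILetI false

open AlgebraicCurve ModularCurve

noncomputable section

namespace Fermat.Agent.MAZ.Desc.KummerInstDualA26

open Fermat.Agent.X0 Fermat.Agent.MAZ.Spec.XSpec62 Fermat.Agent.MAZ.Spec.GSpec26
open Fermat.Agent.MAZ.Desc.SelmerCone95 Fermat.Agent.MAZ.Desc.KummerCone95
  Fermat.Agent.MAZ.Desc.Devissage95 Fermat.Agent.MAZ.Desc.PrimaryPart19
  Fermat.Agent.MAZ.Desc.ConePrimary95 Fermat.Agent.MAZ.Desc.DescentAsm95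
  Fermat.Agent.MAZ.Desc.EisBoundAbs95 Fermat.Agent.MAZ.Desc.FlatAdm68
  Fermat.Agent.MAZ.Desc.RatTors26 Fermat.Agent.MAZ.Desc.KummerInst26
  Fermat.Agent.MAZ.Desc.KummerInstP26 Fermat.Agent.MAZ.Desc.KummerInstDual26
  Fermat.Agent.MAZ.Desc.DualModule2 Fermat.Agent.MAZ.Desc.DualDevissage2
  Fermat.Agent.MAZ.Desc.DescentAsmDual2 Fermat.Agent.MAZ.Desc.MuModule11
open Fermat.Agent.TW.FF.FlatModel68 (FlatModel)

attribute [local instance] dmaMk modMk primaryDMA

variable {p : ℕ} [NeZero p] {T : Type} [CommRing T] [Module T (JZero p)]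
variable (r : ℕ) [Fact r.Prime] (𝔄 : ValuationSubring Qb)

/-! ### 1. K-FLAT for points of infinite order -/

/-- **(K-FLAT) for the rational points of infinite order.** -/
def KFlatInf (p r : ℕ) [NeZero p] [Fact r.Prime] : Prop :=
  ∀ k : ℕ, ∀ z : JZero p, (∀ σ : GQ, σ • z = z) → (∀ n : ℕ, n • z = 0 → n = 0) →
    ∀ y : JZero p, (r ^ k) • y = z → ∀ c : GQ → ↥(Mk p r k),
      (∀ σ, (c σ : JZero p) = σ • y - y) →
        FlatModel r (↥(Mk p r k) × ZMod (r ^ k)) (extActN r k c)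

variable {r}

/-- K-FLAT on a torsion-free group of rational points: the points of infinite order are the
contract, the point `0` gives a coboundary. -/
theorem kFlat_of_inf (hS : S19At p r) (h : KFlatInf p r) (A : Set (JZero p))
    (hA : ∀ z ∈ A, ∀ σ : GQ, σ • z = z)
    (htf : ∀ z ∈ A, ∀ n : ℕ, n ≠ 0 → n • z = 0 → z = 0) : KFlat p r A := by
  intro k z hz y hy c hc
  by_cases hz0 : z = 0
  · subst hz0
    let m : ↥(Mk p r k) := ⟨y, (mem_Mk_iff r k).2 hy⟩
    have hcm : c = (dd m : GQ → ↥(Mk p r k)) := funext fun σ => Subtype.ext (hc σ)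
    rw [hcm]
    exact flat_ext_dd r k (hS k) m (nsmul_Mk_eq_zero r k m)
  · exact h k z (hA z hz) (fun n hn => by
      by_contra hn0
      exact hz0 (htf z hz n hn0 hn)) y hy c hc

/-- the adapter from the exit of chapter K-FLAT in the vocabulary of `GSpec26`. -/
theorem kFlatInf_of_flatAtR
    (h : ∀ (k : ℕ) (y : JZero p), (∀ σ : GQ, σ • ((r ^ k) • y) = (r ^ k) • y) →
      (∀ n : ℕ, n • ((r ^ k) • y) = 0 → n = 0) → FlatAtR r k (fun σ : GQ => σ • y - y)) :
    KFlatInf p r := by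
  intro k z hz hinf y hy c hc
  obtain ⟨y', hy', hM⟩ := h k y (by rw [hy]; exact hz) (by rw [hy]; exact hinf)
  have hyc : y' = c := funext fun σ => Subtype.ext ((hy' σ).trans (hc σ).symm)
  subst hyc
  exact hM

/-! ### 2. The Kummer domain inside `A` -/

variable (r)

/-- the points of `A` which are `r^k`-divisible in the inertia invariants at `𝔄`. -/
def BkA (hT : HeckeModel p T) (A : Submodule T (JZero p)) (k : ℕ) : Submodule T (JZero p) where
  carrier := {z | z ∈ A ∧ ∃ y ∈ J0 (p := p) 𝔄, (r ^ k) • y = z}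
  zero_mem' := ⟨A.zero_mem, 0, (J0 (p := p) 𝔄).zero_mem, smul_zero _⟩
  add_mem' := by
    rintro a b ⟨ha, y, hy, hya⟩ ⟨hb, y', hy', hyb⟩
    refine ⟨A.add_mem ha hb, y + y', (J0 (p := p) 𝔄).add_mem hy hy', ?_⟩
    rw [nsmul_add, hya, hyb]
  smul_mem' := by
    rintro t z ⟨hz, y, hy, hyz⟩
    refine ⟨A.smul_mem t hz, t • y, J0_tsmul 𝔄 hT t hy, ?_⟩
    rw [smul_comm, hyz]

theorem mem_BkA (hT : HeckeModel p T) (A : Submodule T (JZero p)) (k : ℕ) {z : JZero p} :
    z ∈ BkA r 𝔄 hT A k ↔ z ∈ A ∧ ∃ y ∈ J0 (p := p) 𝔄, (r ^ k) • y = z := Iff.rfl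

/-! ### 3. The inputs and the bound -/

/-- **the list of inputs of the G-side at the prime `r`, DUAL form, `P`-part variant, with K-FLAT
for points of infinite order only**: `A` is torsion-free. -/
structure InputsDualPA (hT : HeckeModel p T) (π : T →+* ZMod r) (A : Submodule T (JZero p))
    (B : ℕ) : Prop where
  /-- S19 at level `p` (FFJ) -/
  s19 : S19At p r
  /-- K-UNR -/
  kunr : KUnr p r
  /-- finite index -/
  fin : FiniteIndexIn A (ratPoints hT)
  /-- `A` is torsion-free -/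
  tf : ∀ z ∈ A, ∀ n : ℕ, n ≠ 0 → n • z = 0 → z = 0
  /-- K-FLAT for the rational points of infinite order -/
  kflat : KFlatInf p r
  /-- QUAD-J -/
  quad : QuadAt p r 𝔄
  /-- (P-FIN)_P + RANK-ONE + EIS-REL (integer form) + (HOM-μ) -/
  level : ∀ k : ℕ, ∃ e : T,
    (∀ x ∈ primarySet (RingHom.ker π) (A ⧸ (Ideal.span {(r : T) ^ k} • ⊤ : Submodule T A)),
      e • x = x) ∧
    (∀ z ∈ A, ∃ y ∈ J0 (p := p) 𝔄, (r ^ k) • y = e • z) ∧
    LevelInputDual (p := p) r 𝔄 π B k

variable {r}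

/-- **DESCENT-ASM at `JZero p`, DUAL form, `P`-part variant, K-FLAT at infinite order.** -/
theorem eisBound_of_inputsDualPA (hT : HeckeModel p T) (hMW : MW p) (hp : p.Prime) (hpr : p ≠ r)
    (h𝔄 : 𝔄.LiesOverPrime p) {π : T →+* ZMod r} {A : Submodule T (JZero p)} {B : ℕ}
    (h : InputsDualPA r 𝔄 hT π A B) :
    ∃ B' : ℕ, EisBound A (RingHom.ker π) r B' := by
  haveI := finite_ratPoints hT hMW
  haveI := finite_ratTorsion (p := p) hMW
  obtain ⟨hle, N, hN, hNA⟩ := h.fin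
  refine exists_bound_dual_varP (D := 𝔄.decompositionSubgroup ℚ) (I := 𝔄.inertiaSubgroupIn ℚ)
    (ratPoints hT) A hle N hN hNA (ratTorsion p) B fun k => ?_
  have hOk : OkMod r k p ↥(Mk p r k) := okMod_Mk h.s19 h.kunr
  obtain ⟨e, he, heA, hlev⟩ := h.level k
  obtain ⟨φ₀, h3⟩ := hlev
  obtain ⟨χ, τ, δ, hR, htau, hdelta, hrel, hδ, hB⟩ := h3
  have hfix : ∀ z ∈ BkA r 𝔄 hT A k, z ∈ J0 (p := p) 𝔄 ∧ ∀ σ : GQ, σ • z = z :=
    fun z hz => ⟨mem_J0_of_fixed 𝔄 (hle hz.1), hle hz.1⟩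
  have heA' : ∀ a ∈ A, e • a ∈ BkA r 𝔄 hT A k := fun a ha =>
    (mem_BkA r 𝔄 hT A k).2 ⟨A.smul_mem e ha, heA a ha⟩
  have hKF : KFlat p r ((BkA r 𝔄 hT A k : Submodule T (JZero p)) : Set (JZero p)) :=
    kFlat_of_inf h.s19 h.kflat _ (fun z hz => (hfix z hz).2) (fun z hz => h.tf z hz.1)
  exact ⟨admFamily r k p, φ₀, χ, τ, δ, BkA r 𝔄 hT A k, e, hR, htau, hdelta, he, heA',
    levelDataDual 𝔄 hT hp hpr h𝔄 hOk (BkA r 𝔄 hT A k) hfix (fun z hz => hz.2) h.kunr
      hKF h.quad hrel hδ hB⟩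

/-- **THE G-SIDE FROM THE INPUTS, DUAL form, `P`-part variant, K-FLAT at infinite order.** -/
theorem globalEis_of_inputsDualPA (hT : HeckeModel p T) (hMW : MW p) (hdeg : DegOne p)
    (cZ : Place Qb (FF p)) (hp : p.Prime) (hpr : p ≠ r) (h𝔄 : 𝔄.LiesOverPrime p)
    {π : T →+* ZMod r} (m : ℕ) (hC : CuspEis hT hdeg cZ r π m)
    {A : Submodule T (JZero p)} {B : ℕ} (h : InputsDualPA r 𝔄 hT π A B) : GlobalEis hdeg cZ := by
  obtain ⟨B', hB'⟩ := eisBound_of_inputsDualPA 𝔄 hT hMW hp hpr h𝔄 h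
  exact Fermat.Agent.MAZ.Desc.AlgFin79.globalEis_of_bound hT hMW hdeg cZ r π m hC A h.fin B' hB'

end Fermat.Agent.MAZ.Desc.KummerInstDualA26
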