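/-
MAZ (S15), G-side (descent), brick 8b-M (helper95): **the Kummer datum at `JZero p` for a MARKED
family** (`r`-agnostic; needed for `r = 2`).  The marked twin of §4 of helper26's `KummerInst26`,
GENERIC in the marked family: `KummerInst26` + `DevissageMarked95`.

* `kummerDataM 𝔄 F M₀ hOk A hA` : as `KummerInst26.kummerData` (`M = J₀(p)[r^k]`, `J0 = J^I`,
  `Mf = M^I`, `B = A`), with the admissible cocycles `Z := F.Z M M₀` of ANY marked family `F` on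
  `GQ`, for a mark `M₀` with `F.Ok M M₀`;
* `lin_kummerDataM` : its compatibility with the Hecke action;
* `hyp_kummerDataM` : the hypotheses of the Kummer map, from P-FIN (divisibility in `J^I`) and the
  abstract K-FLAT WITH MARKS `KFlatM` (the Kummer cocycles of the points of `A` are admissible for
  the mark).
-/
import Mathlib
import Fermat.Agent.MAZ.Desc.KummerInst26
import Fermat.Agent.MAZ.Desc.DevissageMarked95

set_option autoImplicit false
set_option linter.unusedSectionVars false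
set_option linter.unusedVariables false
set_option linter.style.haveILetI false

open AlgebraicCurve ModularCurve

noncomputable section

namespace Fermat.Agent.MAZ.Desc.KummerInstM95

open Fermat.Agent.X0 Fermat.Agent.MAZ.Spec.XSpec62 Fermat.Agent.MAZ.Spec.GSpec26
open Fermat.Agent.MAZ.Desc.SelmerCone95 Fermat.Agent.MAZ.Desc.KummerCone95
  Fermat.Agent.MAZ.Desc.Devissage95 Fermat.Agent.MAZ.Desc.PrimaryPart19
  Fermat.Agent.MAZ.Desc.ConePrimary95 Fermat.Agent.MAZ.Desc.DescentAsm95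
  Fermat.Agent.MAZ.Desc.DevissageMarked95 Fermat.Agent.MAZ.Desc.KummerInst26

variable {p : ℕ} [NeZero p] {T : Type} [CommRing T] [Module T (JZero p)]
variable {r : ℕ} [Fact r.Prime] {k : ℕ}

attribute [local instance] dmaMk modMk primaryDMA

variable (𝔄 : ValuationSubring Qb)

/-- **(K-FLAT WITH MARKS), abstract form**: the Kummer cocycles (at the level `r^k`) of the points
of `A` are admissible for the marked family `F` and the mark `M₀` on `J₀(p)[r^k]`. -/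
def KFlatM (F : MarkedFamily.{0} GQ) (M₀ : AddSubgroup ↥(Mk p r k)) (A : Set (JZero p)) : Prop :=
  ∀ z ∈ A, ∀ y : JZero p, (r ^ k) • y = z → ∀ c : GQ → ↥(Mk p r k),
    (∀ σ, (c σ : JZero p) = σ • y - y) → c ∈ F.Z ↥(Mk p r k) M₀

/-- **the Kummer datum at `JZero p` for a marked family**: `M = J₀(p)[r^k]`, `J0 = J^I`,
`Z = F.Z M M₀`, `B = A`. -/
def kummerDataM (F : MarkedFamily.{0} GQ) (M₀ : AddSubgroup ↥(Mk p r k))
    (hOk : F.Ok ↥(Mk p r k) M₀) (A : Submodule T (JZero p))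
    (hA : ∀ z ∈ A, z ∈ J0 (p := p) 𝔄 ∧ ∀ σ : GQ, σ • z = z) :
    KummerData (𝔄.decompositionSubgroup ℚ) (𝔄.inertiaSubgroupIn ℚ) (JZero p) ↥(Mk p r k)
      (r ^ k) where
  ι := (Mk p r k).subtype.toAddMonoidHom
  ι_inj := Subtype.coe_injective
  ι_equiv := fun _ _ => rfl
  ι_range := fun x => ⟨fun hx => ⟨⟨x, (mem_Mk_iff r k).2 hx⟩, rfl⟩, by
    rintro ⟨m, rfl⟩
    exact (mem_Mk_iff r k).1 m.2⟩
  J0 := J0 𝔄
  J0_stable := fun σ hσ x hx => J0_stable 𝔄 hσ hx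
  J0_fixed := fun σ hσ x hx => hx σ hσ
  cone :=
    { Mf := (J0 (p := p) 𝔄).comap (Mk p r k).subtype.toAddMonoidHom
      stable := fun σ hσ x hx => J0_stable 𝔄 hσ hx
      fixed := fun σ hσ x hx => Subtype.ext (hx σ hσ)
      Z := F.Z ↥(Mk p r k) M₀
      cocycle := F.cocycle _ _
      cobound := F.cobound _ _ hOk }
  mem_Mf := fun _ => Iff.rfl
  B := A.toAddSubgroup
  B_le := fun y hy => hA y hy

theorem kummerDataM_cone_Z (F : MarkedFamily.{0} GQ) (M₀ : AddSubgroup ↥(Mk p r k))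
    (hOk : F.Ok ↥(Mk p r k) M₀) (A : Submodule T (JZero p))
    (hA : ∀ z ∈ A, z ∈ J0 (p := p) 𝔄 ∧ ∀ σ : GQ, σ • z = z) :
    (kummerDataM 𝔄 F M₀ hOk A hA).cone.Z = F.Z ↥(Mk p r k) M₀ := rfl

theorem mem_kummerDataM_Mf (F : MarkedFamily.{0} GQ) (M₀ : AddSubgroup ↥(Mk p r k))
    (hOk : F.Ok ↥(Mk p r k) M₀) (A : Submodule T (JZero p))
    (hA : ∀ z ∈ A, z ∈ J0 (p := p) 𝔄 ∧ ∀ σ : GQ, σ • z = z) (x : ↥(Mk p r k)) :
    x ∈ (kummerDataM 𝔄 F M₀ hOk A hA).cone.Mf ↔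
      ∀ σ ∈ 𝔄.inertiaSubgroupIn ℚ, σ • (x : JZero p) = x := Iff.rfl

theorem kummerDataM_A (F : MarkedFamily.{0} GQ) (M₀ : AddSubgroup ↥(Mk p r k))
    (hOk : F.Ok ↥(Mk p r k) M₀) (A : Submodule T (JZero p))
    (hA : ∀ z ∈ A, z ∈ J0 (p := p) 𝔄 ∧ ∀ σ : GQ, σ • z = z) (w : JZero p) :
    w ∈ (kummerDataM 𝔄 F M₀ hOk A hA).A ↔ w ∈ J0 (p := p) 𝔄 ∧ ∀ σ : GQ, σ • w = w := Iff.rfl

/-- the Kummer datum is compatible with the Hecke action. -/
theorem lin_kummerDataM (hT : HeckeModel p T) (F : MarkedFamily.{0} GQ)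
    (M₀ : AddSubgroup ↥(Mk p r k)) (hOk : F.Ok ↥(Mk p r k) M₀) (A : Submodule T (JZero p))
    (hA : ∀ z ∈ A, z ∈ J0 (p := p) 𝔄 ∧ ∀ σ : GQ, σ • z = z) :
    Lin (kummerDataM 𝔄 F M₀ hOk A hA) A where
  B_eq := rfl
  gal := fun t σ x => (hT.galois t σ x).symm
  J0_smul := fun t x hx => J0_tsmul 𝔄 hT t hx
  ι_smul := fun _ _ => rfl

/-- **the hypotheses of the Kummer map** from P-FIN (divisibility in `J^I`) and K-FLAT with
marks. -/
theorem hyp_kummerDataM (F : MarkedFamily.{0} GQ) (M₀ : AddSubgroup ↥(Mk p r k))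
    (hOk : F.Ok ↥(Mk p r k) M₀) (A : Submodule T (JZero p))
    (hA : ∀ z ∈ A, z ∈ J0 (p := p) 𝔄 ∧ ∀ σ : GQ, σ • z = z)
    (hdiv : ∀ z ∈ A, ∃ y ∈ J0 (p := p) 𝔄, (r ^ k) • y = z)
    (hF : KFlatM F M₀ (A : Set (JZero p))) : (kummerDataM 𝔄 F M₀ hOk A hA).Hyp where
  div := fun y hy => by
    obtain ⟨y', -, h⟩ := hdiv y hy
    exact ⟨y', h⟩
  div0 := fun y hy => hdiv y hy
  adm := fun y hy y' hy' c hc => hF y hy y' hy' c hc

end Fermat.Agent.MAZ.Desc.KummerInstM95
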