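/-
MAZ (S15), G-side (descent), brick 8b-M, part 2 (helper95): **the symmetric marked descent
instantiated at `JZero p`, end to end** (`r`-agnostic; this is the form needed for `r = 2`).  The
marked-DUAL twin of helper26's `KummerInst26.eisBound_of_inputs` / `globalEis_of_inputs`:
`KummerInstM95` (the marked Kummer datum) + `DescentAsmDualCore95` (the symmetric marked descent on
the `T`-stable core, no Hecke-stability of marks) + `AlgFin79`.

* `LevelInputDualM 𝔄 hT π A B k` : the inputs at the level `r^k`, GENERIC in the marked family (all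
  of `F`, `χ`, `τ`, `δ`, the mark `M₀`, `C`, the dual mark `D₀` depend on `k`);
* **`eisBound_of_levels_dualM`** : `∃ B', GSpec26.EisBound A (ker π) r B'`;
* **`globalEis_of_levels_dualM`** : `XSpec62.GlobalEis hdeg cZ`.
-/
import Mathlib
import Fermat.Agent.MAZ.Desc.KummerInstM95
import Fermat.Agent.MAZ.Desc.DescentAsmDualCore95

set_option autoImplicit false
set_option linter.unusedSectionVars false
set_option linter.unusedVariables false
set_option linter.style.haveILetI false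

open AlgebraicCurve ModularCurve

noncomputable section

namespace Fermat.Agent.MAZ.Desc.KummerInstDualM95

open Fermat.Agent.X0 Fermat.Agent.MAZ.Spec.XSpec62 Fermat.Agent.MAZ.Spec.GSpec26
open Fermat.Agent.MAZ.Desc.SelmerCone95 Fermat.Agent.MAZ.Desc.KummerCone95
  Fermat.Agent.MAZ.Desc.Devissage95 Fermat.Agent.MAZ.Desc.PrimaryPart19
  Fermat.Agent.MAZ.Desc.ConePrimary95 Fermat.Agent.MAZ.Desc.DescentAsm95
  Fermat.Agent.MAZ.Desc.DualModule2 Fermat.Agent.MAZ.Desc.DualDevissage2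
  Fermat.Agent.MAZ.Desc.DevissageMarked95 Fermat.Agent.MAZ.Desc.DescentAsmMarked95
  Fermat.Agent.MAZ.Desc.KummerInst26 Fermat.Agent.MAZ.Desc.KummerInstM95
  Fermat.Agent.MAZ.Desc.DescentAsmDualCore95 Fermat.Agent.MAZ.Desc.RatTors26

variable {p : ℕ} [NeZero p] {T : Type} [CommRing T] [Module T (JZero p)]
variable {r : ℕ} [Fact r.Prime]

attribute [local instance] dmaMk modMk primaryDMA

variable (𝔄 : ValuationSubring Qb)

/-- **the inputs of the symmetric marked descent at the level `r^k`** (`M := J₀(p)[r^k]`,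
`M_P := primaryPart (ker π) M`, `D := D_𝔄`, `I := I_𝔄`):
a marked family `F` with RANK-ONE (`RankOneBoundM`), a Chebotarev choice `(τ, δ)` with EIS-REL, a
mark `M₀` with `F.Ok M M₀` and K-FLAT WITH MARKS, a finite cyclic `GQ`-module `C` (`= μ_{r^k}`)
killing `M`, unramified at `𝔄`, on which `g` acts as `δ g` does on `M`; unipotent monodromy at `𝔄`
(`(σ - 1) M ⊆ M^I`); CARTIER WITH MARKS on `M_P` (`D₀`, `Ok`, the count); (HOM-μ) with the uniform
bound `B`. -/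
def LevelInputDualM (hT : HeckeModel p T) (π : T →+* ZMod r) (A : Submodule T (JZero p))
    (B k : ℕ) : Prop :=
  haveI := smulComm_Mk r k hT
  ∃ (F : MarkedFamily.{0} GQ) (χ : GQ →* ZMod r) (τ δ : GQ → T) (M₀ : AddSubgroup ↥(Mk p r k))
    (C : Type) (_ : AddCommGroup C) (_ : DistribMulAction GQ C) (_ : Finite C) (_ : IsAddCyclic C)
    (D₀ : AddSubgroup (Dual (primaryPart (RingHom.ker π) ↥(Mk p r k)) C)),
    Finite ↥(Mk p r k) ∧
    RankOneBoundM F (𝔄.decompositionSubgroup ℚ) (𝔄.inertiaSubgroupIn ℚ) r χ ∧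
    (∀ g, π (τ g) = 1 + χ g) ∧ (∀ g, π (δ g) = χ g) ∧
    F.Ok ↥(Mk p r k) M₀ ∧ KFlatM F M₀ (A : Set (JZero p)) ∧
    (∀ (g : GQ) (x : JZero p), (r ^ k) • x = 0 → g • g • x - τ g • g • x + δ g • x = 0) ∧
    (∀ x : ↥(Mk p r k), Nat.card C • x = 0) ∧
    (∀ σ ∈ 𝔄.inertiaSubgroupIn ℚ, ∀ c : C, σ • c = c) ∧
    (∀ g : GQ, ∃ u : ℕ, (∀ c : C, g • c = u • c) ∧ ∀ x : ↥(Mk p r k), δ g • x = u • x) ∧
    (∀ σ ∈ 𝔄.inertiaSubgroupIn ℚ, ∀ x : JZero p, (r ^ k) • x = 0 →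
      ∀ σ' ∈ 𝔄.inertiaSubgroupIn ℚ, σ' • (σ • x - x) = σ • x - x) ∧
    F.Ok (primaryPart (RingHom.ker π) ↥(Mk p r k) ×
        Dual (primaryPart (RingHom.ker π) ↥(Mk p r k)) C)
      ((primaryMark (RingHom.ker π) M₀).prod D₀) ∧
    Nat.card D₀ * Nat.card (primaryMark (RingHom.ker π) M₀) ≤
      Nat.card (primaryPart (RingHom.ker π) ↥(Mk p r k)) ∧
    Nat.card (equivariantHoms GQ ↥(Mk p r k) C) ≤ B

/-- **DESCENT-ASM at `JZero p`, symmetric marked form: the uniform bound from the inputs.** -/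
theorem eisBound_of_levels_dualM (hT : HeckeModel p T) (hMW : MW p) {π : T →+* ZMod r}
    {A : Submodule T (JZero p)} (hfin : FiniteIndexIn A (ratPoints hT))
    (hdiv : ∀ z ∈ A, ∀ k : ℕ, ∃ y ∈ J0 (p := p) 𝔄, (r ^ k) • y = z) (B : ℕ)
    (hlev : ∀ k : ℕ, LevelInputDualM 𝔄 hT π A B k) :
    ∃ B' : ℕ, EisBound A (RingHom.ker π) r B' := by
  haveI := finite_ratPoints hT hMW
  haveI := finite_ratTorsion (p := p) hMW
  obtain ⟨hle, N, hN, hNA⟩ := hfin
  have hA : ∀ z ∈ A, z ∈ J0 (p := p) 𝔄 ∧ ∀ σ : GQ, σ • z = z :=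
    fun z hz => ⟨mem_J0_of_fixed 𝔄 (hle hz), hle hz⟩
  refine exists_bound_dual_core (D := 𝔄.decompositionSubgroup ℚ) (I := 𝔄.inertiaSubgroupIn ℚ)
    (ratPoints hT) A hle N hN hNA (ratTorsion p) B fun k => ?_
  obtain ⟨F, χ, τ, δ, M₀, C, c1, c2, c3, c4, D₀, hfinM, hR, htau, hdelta, hOk, hF, hrel, hMC, hIC,
    hδ, hI, hOkN, hD₀, hB⟩ := hlev k
  refine ⟨F, χ, τ, δ, hR, htau, hdelta, ↥(Mk p r k), inferInstance, dmaMk r k, modMk r k,
    smulComm_Mk r k hT, hfinM, kummerDataM 𝔄 F M₀ hOk A hA, lin_kummerDataM 𝔄 hT F M₀ hOk A hA,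
    M₀, C, c1, c2, c3, c4, D₀,
    hyp_kummerDataM 𝔄 F M₀ hOk A hA (fun z hz => hdiv z hz k) hF, hOk, rfl,
    fun w hw => hw.2, fun g x => Subtype.ext ?_, hMC, hIC, hδ, fun σ hσ x => ?_, hOkN, hD₀, hB,
    fun x hx hx0 => ?_⟩
  · exact hrel g (x : JZero p) ((mem_Mk_iff r k).1 x.2)
  · exact fun σ' hσ' => hI σ hσ (x : JZero p) ((mem_Mk_iff r k).1 x.2) σ' hσ'
  · exact ⟨hx.2, r ^ k, pow_pos (Fact.out : r.Prime).pos k, hx0⟩

/-- **THE G-SIDE FROM THE INPUTS, symmetric marked form**: `GlobalEis` from Mordell-Weil, the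
cuspidal character and the inputs of the symmetric marked descent. -/
theorem globalEis_of_levels_dualM (hT : HeckeModel p T) (hMW : MW p) (hdeg : DegOne p)
    (cZ : Place Qb (FF p)) {π : T →+* ZMod r} (m : ℕ) (hC : CuspEis hT hdeg cZ r π m)
    {A : Submodule T (JZero p)} (hfin : FiniteIndexIn A (ratPoints hT))
    (hdiv : ∀ z ∈ A, ∀ k : ℕ, ∃ y ∈ J0 (p := p) 𝔄, (r ^ k) • y = z) (B : ℕ)
    (hlev : ∀ k : ℕ, LevelInputDualM 𝔄 hT π A B k) : GlobalEis hdeg cZ := by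
  obtain ⟨B', hB'⟩ := eisBound_of_levels_dualM 𝔄 hT hMW hfin hdiv B hlev
  exact Fermat.Agent.MAZ.Desc.AlgFin79.globalEis_of_bound hT hMW hdeg cZ r π m hC A hfin B' hB'

end Fermat.Agent.MAZ.Desc.KummerInstDualM95
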