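/-
MAZ (S15), G-side (descent), brick 8b-M, part 3 (helper95): **the `P`-part variant of the symmetric
marked descent at `JZero p`** (`r`-agnostic; this is the form needed for `r = 2` on the PT-GAL
route).  The marked twin of helper26's `KummerInstDual26.exists_bound_dual_varP` /
`eisBound_of_inputsDualP`: (P-FIN) is replaced by (P-FIN)_P (a projector `e` at each level and the
domain `Bk` of the Kummer map depending on the level), via `KerAdapterP26.kerAdapterP`.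

The levels `k = 0` are handled here (`A ⧸ r^0 A = 0`), so the inputs are only required for `1 ≤ k`
(the rank-one bound of the marked family at the level `r^k` needs `1 ≤ k`).

* `primarySet_quot_zero` : the trivial level;
* **`exists_bound_dual_core_varP`** : the abstract uniform bound;
* **`eisBound_of_levels_dualMP`**, **`globalEis_of_levels_dualMP`** : at `JZero p`, from
  `KummerInstDualM95.LevelInputDualM` on `Bk r 𝔄 hT k` for `1 ≤ k`.
-/
import Mathlib
import Fermat.Agent.MAZ.Desc.KummerInstDualM95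
import Fermat.Agent.MAZ.Desc.KummerInstP26

set_option autoImplicit false
set_option linter.unusedSectionVars false
set_option linter.unusedVariables false
set_option linter.style.haveILetI false

open AlgebraicCurve ModularCurve

noncomputable section

namespace Fermat.Agent.MAZ.Desc.KummerInstDualMP95

open Fermat.Agent.X0 Fermat.Agent.MAZ.Spec.XSpec62 Fermat.Agent.MAZ.Spec.GSpec26
open Fermat.Agent.MAZ.Desc.SelmerCone95 Fermat.Agent.MAZ.Desc.KummerCone95
  Fermat.Agent.MAZ.Desc.Devissage95 Fermat.Agent.MAZ.Desc.PrimaryPart19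
  Fermat.Agent.MAZ.Desc.ConePrimary95 Fermat.Agent.MAZ.Desc.DescentAsm95
  Fermat.Agent.MAZ.Desc.DualModule2 Fermat.Agent.MAZ.Desc.DualDevissage2
  Fermat.Agent.MAZ.Desc.DevissageMarked95 Fermat.Agent.MAZ.Desc.DescentAsmMarked95
  Fermat.Agent.MAZ.Desc.KummerInst26 Fermat.Agent.MAZ.Desc.KummerInstM95
  Fermat.Agent.MAZ.Desc.KummerInstP26 Fermat.Agent.MAZ.Desc.KerAdapterP26
  Fermat.Agent.MAZ.Desc.DescentAsmDualCore95 Fermat.Agent.MAZ.Desc.RatTors26
  Fermat.Agent.MAZ.Desc.KummerInstDualM95 Fermat.Agent.MAZ.Desc.ConeCore92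

attribute [local instance] dmaMk modMk primaryDMA

/-! ### 1. The abstract bound -/

section Abstract

variable {T : Type} [CommRing T] {J : Type} [AddCommGroup J] [Module T J]

/-- the trivial level: `A ⧸ r^0 A = 0`. -/
theorem primarySet_quot_zero (A : Submodule T J) (P : Ideal T) (r : ℕ) :
    (primarySet P (A ⧸ (Ideal.span {(r : T) ^ 0} • ⊤ : Submodule T A))).Finite ∧
      (primarySet P (A ⧸ (Ideal.span {(r : T) ^ 0} • ⊤ : Submodule T A))).ncard ≤ 1 := by
  have htop : (Ideal.span {(r : T) ^ 0} • ⊤ : Submodule T A) = ⊤ := by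
    rw [pow_zero, Ideal.span_singleton_one, Submodule.top_smul]
  haveI : Subsingleton (A ⧸ (Ideal.span {(r : T) ^ 0} • ⊤ : Submodule T A)) := by
    rw [htop]
    exact Submodule.Quotient.subsingleton_iff.2 rfl
  exact ⟨Set.toFinite _, Set.ncard_le_one_of_subsingleton _⟩

end Abstract

/-- **the uniform bound, symmetric marked descent on the core, `P`-part variant, level-dependent
auxiliary data**: at the level `k ≥ 1` the Kummer datum has domain `Bk` and the Kummer map of `A` is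
`a ↦ κ (e • a)`; the bound `B` for the equivariant functionals is uniform. -/
theorem exists_bound_dual_core_varP {G : Type} [Group G] {D I : Subgroup G} {T : Type}
    [CommRing T] {J : Type} [AddCommGroup J] [DistribMulAction G J] [Module T J] {r : ℕ}
    [Fact r.Prime] {π : T →+* ZMod r} (Y A : Submodule T J) (hAY : A ≤ Y) [Module.Finite ℤ Y]
    (N : ℕ) (hN : 0 < N) (hNA : ∀ y ∈ Y, N • y ∈ A) (Tt : AddSubgroup J) [Finite Tt] (B : ℕ)
    (hk : ∀ k : ℕ, 1 ≤ k → ∃ (F : MarkedFamily.{0} G) (χ : G →* ZMod r) (τ δ : G → T)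
      (Bk : Submodule T J) (e : T),
      RankOneBoundM F D I r χ ∧ (∀ g, π (τ g) = 1 + χ g) ∧ (∀ g, π (δ g) = χ g) ∧
      (∀ x ∈ primarySet (RingHom.ker π) (A ⧸ (Ideal.span {(r : T) ^ k} • ⊤ : Submodule T A)),
        e • x = x) ∧
      (∀ a ∈ A, e • a ∈ Bk) ∧ LevelDataDualCore (r := r) D I Bk Y F π τ δ Tt B k) :
    ∃ B' : ℕ, ∀ k : ℕ,
      (primarySet (RingHom.ker π) (A ⧸ (Ideal.span {(r : T) ^ k} • ⊤ : Submodule T A))).Finite ∧
        (primarySet (RingHom.ker π)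
          (A ⧸ (Ideal.span {(r : T) ^ k} • ⊤ : Submodule T A))).ncard ≤ B' := by
  obtain ⟨B', hB'⟩ := kerAdapterP Y A hAY N hN hNA (RingHom.ker π) r (Nat.card Tt * B)
  refine ⟨max B' 1, fun k => ?_⟩
  rcases Nat.eq_zero_or_pos k with rfl | hkpos
  · obtain ⟨h1, h2⟩ := primarySet_quot_zero A (RingHom.ker π) r
    exact ⟨h1, h2.trans (le_max_right _ _)⟩
  obtain ⟨F, χ, τ, δ, Bk, e, hR, htau, hdelta, he, heA, hLD⟩ := hk k hkpos
  obtain ⟨M, i1, i2, i3, i5, i4, K, hL, M₀, C, c1, c2, c3, c4, D₀, hK, hOk, hZ, hKA, hrel, hMC,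
    hIC, hδ, hI, hOkN, hD₀, hB, hTt⟩ := hLD
  obtain ⟨inst, f, h1, h2, h3, h4⟩ := descent_asm_dual_core F hR K Bk hL hK M₀ hOk hZ htau
    hdelta hrel C hMC hIC hδ hI D₀ hOkN hD₀ B hB Tt hTt
  let eMul : A →ₗ[T] Bk :=
    { toFun := fun a => ⟨e • (a : J), heA a a.2⟩
      map_add' := fun a b => Subtype.ext (smul_add e (a : J) (b : J))
      map_smul' := fun t a => Subtype.ext (smul_comm e t (a : J)) }
  obtain ⟨g1, g2⟩ := hB' k (H1S (core T K).cone) Set.univ (f.comp eMul) e he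
    (fun a => h1 (eMul a)) (fun a ha => by
      obtain ⟨w, hw, hwa⟩ := h2 (eMul a) ha
      exact ⟨w, hKA w hw, hwa⟩)
    (fun a => Set.mem_univ _) h3 h4
  exact ⟨g1, g2.trans (le_max_left _ _)⟩

/-! ### 2. At `JZero p` -/

variable {p : ℕ} [NeZero p] {T : Type} [CommRing T] [Module T (JZero p)]
variable {r : ℕ} [Fact r.Prime] (𝔄 : ValuationSubring Qb)

/-- the level data of the symmetric marked descent at `JZero p` from `LevelInputDualM`, on a
submodule `A'` of rational points which are `r^k`-divisible in the inertia invariants. -/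
theorem levelDataDualCore_of_input (hT : HeckeModel p T) {π : T →+* ZMod r} {k : ℕ}
    (A' : Submodule T (JZero p))
    (hA' : ∀ z ∈ A', z ∈ J0 (p := p) 𝔄 ∧ ∀ σ : GQ, σ • z = z)
    (hdiv : ∀ z ∈ A', ∃ y ∈ J0 (p := p) 𝔄, (r ^ k) • y = z) {B : ℕ}
    (h : LevelInputDualM 𝔄 hT π A' B k) :
    ∃ (F : MarkedFamily.{0} GQ) (χ : GQ →* ZMod r) (τ δ : GQ → T),
      RankOneBoundM F (𝔄.decompositionSubgroup ℚ) (𝔄.inertiaSubgroupIn ℚ) r χ ∧
      (∀ g, π (τ g) = 1 + χ g) ∧ (∀ g, π (δ g) = χ g) ∧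
      LevelDataDualCore (r := r) (𝔄.decompositionSubgroup ℚ) (𝔄.inertiaSubgroupIn ℚ) A'
        (ratPoints hT) F π τ δ (ratTorsion p) B k := by
  obtain ⟨F, χ, τ, δ, M₀, C, c1, c2, c3, c4, D₀, hfinM, hR, htau, hdelta, hOk, hF, hrel, hMC, hIC,
    hδ, hI, hOkN, hD₀, hB⟩ := h
  refine ⟨F, χ, τ, δ, hR, htau, hdelta, ↥(Mk p r k), inferInstance, dmaMk r k, modMk r k,
    smulComm_Mk r k hT, hfinM, kummerDataM 𝔄 F M₀ hOk A' hA', lin_kummerDataM 𝔄 hT F M₀ hOk A' hA',
    M₀, C, c1, c2, c3, c4, D₀,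
    hyp_kummerDataM 𝔄 F M₀ hOk A' hA' hdiv hF, hOk, rfl,
    fun w hw => hw.2, fun g x => Subtype.ext ?_, hMC, hIC, hδ, fun σ hσ x => ?_, hOkN, hD₀, hB,
    fun x hx hx0 => ?_⟩
  · exact hrel g (x : JZero p) ((mem_Mk_iff r k).1 x.2)
  · exact fun σ' hσ' => hI σ hσ (x : JZero p) ((mem_Mk_iff r k).1 x.2) σ' hσ'
  · exact ⟨hx.2, r ^ k, pow_pos (Fact.out : r.Prime).pos k, hx0⟩

/-- **DESCENT-ASM at `JZero p`, symmetric marked form, `P`-part variant.**  At each level `k ≥ 1`: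
a projector `e` on the `ker π`-primary part of `A ⧸ r^k A`, (P-FIN)_P (`e • z` is `r^k`-divisible in
the inertia invariants), and the inputs of the symmetric marked descent on
`Bk r 𝔄 hT k` (all rational points which are `r^k`-divisible in the inertia invariants). -/
theorem eisBound_of_levels_dualMP (hT : HeckeModel p T) (hMW : MW p) {π : T →+* ZMod r}
    {A : Submodule T (JZero p)} (hfin : FiniteIndexIn A (ratPoints hT)) (B : ℕ)
    (hlev : ∀ k : ℕ, 1 ≤ k → ∃ e : T,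
      (∀ x ∈ primarySet (RingHom.ker π) (A ⧸ (Ideal.span {(r : T) ^ k} • ⊤ : Submodule T A)),
        e • x = x) ∧
      (∀ z ∈ A, ∃ y ∈ J0 (p := p) 𝔄, (r ^ k) • y = e • z) ∧
      LevelInputDualM 𝔄 hT π (Bk r 𝔄 hT k) B k) :
    ∃ B' : ℕ, EisBound A (RingHom.ker π) r B' := by
  haveI := finite_ratPoints hT hMW
  haveI := finite_ratTorsion (p := p) hMW
  obtain ⟨hle, N, hN, hNA⟩ := hfin
  have key : ∀ k : ℕ, 1 ≤ k → ∃ (F : MarkedFamily.{0} GQ) (χ : GQ →* ZMod r) (τ δ : GQ → T)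
      (Bk' : Submodule T (JZero p)) (e : T),
      RankOneBoundM F (𝔄.decompositionSubgroup ℚ) (𝔄.inertiaSubgroupIn ℚ) r χ ∧
      (∀ g, π (τ g) = 1 + χ g) ∧ (∀ g, π (δ g) = χ g) ∧
      (∀ x ∈ primarySet (RingHom.ker π) (A ⧸ (Ideal.span {(r : T) ^ k} • ⊤ : Submodule T A)),
        e • x = x) ∧
      (∀ a ∈ A, e • a ∈ Bk') ∧
      LevelDataDualCore (r := r) (𝔄.decompositionSubgroup ℚ) (𝔄.inertiaSubgroupIn ℚ) Bk'
        (ratPoints hT) F π τ δ (ratTorsion p) B k := by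
    intro k hk1
    obtain ⟨e, he, heA, hin⟩ := hlev k hk1
    have heA' : ∀ a ∈ A, e • a ∈ Bk r 𝔄 hT k := fun a ha =>
      (mem_Bk r 𝔄 hT k).2 ⟨fun σ => by rw [hT.galois, hle ha σ], heA a ha⟩
    obtain ⟨F, χ, τ, δ, hR, htau, hdelta, hLD⟩ :=
      levelDataDualCore_of_input 𝔄 hT (Bk r 𝔄 hT k) (Bk_fixed r 𝔄 hT k) (fun z hz => hz.2) hin
    exact ⟨F, χ, τ, δ, Bk r 𝔄 hT k, e, hR, htau, hdelta, he, heA', hLD⟩
  exact exists_bound_dual_core_varP (D := 𝔄.decompositionSubgroup ℚ)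
    (I := 𝔄.inertiaSubgroupIn ℚ) (ratPoints hT) A hle N hN hNA (ratTorsion p) B key

/-- **THE G-SIDE FROM THE INPUTS, symmetric marked form, `P`-part variant.** -/
theorem globalEis_of_levels_dualMP (hT : HeckeModel p T) (hMW : MW p) (hdeg : DegOne p)
    (cZ : Place Qb (FF p)) {π : T →+* ZMod r} (m : ℕ) (hC : CuspEis hT hdeg cZ r π m)
    {A : Submodule T (JZero p)} (hfin : FiniteIndexIn A (ratPoints hT)) (B : ℕ)
    (hlev : ∀ k : ℕ, 1 ≤ k → ∃ e : T,
      (∀ x ∈ primarySet (RingHom.ker π) (A ⧸ (Ideal.span {(r : T) ^ k} • ⊤ : Submodule T A)),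
        e • x = x) ∧
      (∀ z ∈ A, ∃ y ∈ J0 (p := p) 𝔄, (r ^ k) • y = e • z) ∧
      LevelInputDualM 𝔄 hT π (Bk r 𝔄 hT k) B k) : GlobalEis hdeg cZ := by
  obtain ⟨B', hB'⟩ := eisBound_of_levels_dualMP 𝔄 hT hMW hfin B hlev
  exact Fermat.Agent.MAZ.Desc.AlgFin79.globalEis_of_bound hT hMW hdeg cZ r π m hC A hfin B' hB'

end Fermat.Agent.MAZ.Desc.KummerInstDualMP95
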