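/-
MAZ (S15) G-side, brick QUAD-J (helper11): **the inertia group at `q ∥ N` acts on the prime-to-`q`
torsion of `J₀(N)(ℚ̄)` through a CYCLIC unipotent quotient.**

Input: `IfaceN4.InertiaTors` (the geometric theorem behind S34: `(τ - 1)² y = 0` for ONE `τ ∈ I_q` and
`y ∈ J₀(N)[m]`, `q ∤ m`), proved here as `inertiaTors` from the landed chain TOP ⇐ LVL ⇐ DESC ⇐ NUM ⇐
MODEL of Program N, and `TameCyclic11` (tame inertia is procyclic).  Output, for `q ∥ N`, `A` over `q`,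
`q ∤ m`:

* `exists_generator` : `∃ s ∈ I_A, ∀ σ ∈ I_A, ∃ j : ℕ, ∀ y, m • y = 0 → σ • y = s ^ j • y`;
* `quad` : `σ • (τ • y - y) = τ • y - y` for ALL `σ τ ∈ I_A`, `m • y = 0`
  (the hypothesis `DeltaHalf11.Quad`, i.e. `(σ - 1)(τ - 1) = 0`, which does NOT follow formally from
  `(τ - 1)² = 0` for single elements);
* `exists_generator_invariants` : `∃ s ∈ I_A, ∀ y, m • y = 0 → ((∀ σ ∈ I_A, σ • y = y) ↔ s • y = y)`.
-/
import Mathlib
import Fermat.Agent.ES.N34.TorsionInertia12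
import Fermat.Agent.ES.N34.LvlN17
import Fermat.Agent.ES.N34.DescN1
import Fermat.Agent.ES.N34.NumN13
import Fermat.Agent.ES.N34.ModelEnd4
import Fermat.Agent.ES.GAL.OpenStab12
import Fermat.Agent.ES.KUM.FiniteTorsion15
import Fermat.Agent.MAZ.Desc.TameCyclic11

set_option autoImplicit false
set_option linter.unusedSectionVars false
set_option linter.style.haveILetI false

open ModularCurve

noncomputable section

namespace Fermat.Agent.MAZ.Desc.QuadJ11

open Fermat.Agent.RED.Interface4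

/-! ### The geometric input -/

/-- `IfaceN4.NumStep`, as in `S34.lean`. -/
theorem numStep : Fermat.Agent.ES.N34.IfaceN4.NumStep :=
  Fermat.Agent.ES.N34.NumN13.numStep_of_model
    (fun q M' _ _ A hq hqM h2 h4 hA =>
      Fermat.Agent.ES.N34.ModelEnd4.modelInput_four q M' A hq hqM h2 h4 hA)
    (fun M' _ A h2 h9 hA =>
      Fermat.Agent.ES.N34.ModelEnd4.modelInput_nine M' A h2 h9 hA)

/-- **`(τ - 1)² = 0` on the prime-to-`q` torsion of `J₀(N)`, `q ∥ N`, `τ ∈ I_q`** (unconditional). -/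
theorem inertiaTors : Fermat.Agent.ES.N34.IfaceN4.InertiaTors :=
  Fermat.Agent.ES.N34.IfaceN4.inertiaTors_of_chain
    Fermat.Agent.ES.N34.TorsionInertia12.topStep
    Fermat.Agent.ES.N34.LvlN17.hlvl
    Fermat.Agent.ES.N34.DescN1.descStep_chain
    numStep

/-! ### Abstract: powers of a unipotent element -/

section Abstract

variable {G : Type*} [Group G] {J : Type*} [AddCommGroup J] [DistribMulAction G J]

theorem smul_nsmul' (σ : G) (m : ℕ) (y : J) : σ • (m • y) = m • (σ • y) :=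
  map_nsmul (DistribSMul.toAddMonoidHom J σ) m y

/-- if `(s - 1)² = 0` on an `s`-stable subgroup `T`, then `s ^ j = 1 + j (s - 1)` on `T`. -/
theorem pow_smul_of_sq (s : G) (T : AddSubgroup J) (hst : ∀ y ∈ T, s • y ∈ T)
    (hsq : ∀ y ∈ T, s • s • y + y = s • y + s • y) (j : ℕ) :
    ∀ y ∈ T, s ^ j • y = y + j • (s • y - y) := by
  induction j with
  | zero => intro y _; simp
  | succ j ih =>
    intro y hy
    have h1 := ih (s • y) (hst y hy)
    have h2 : s • s • y - s • y = s • y - y := by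
      have := hsq y hy
      rw [sub_eq_sub_iff_add_eq_add]
      exact this
    rw [pow_succ, mul_smul, h1, h2, succ_nsmul]
    abel

end Abstract

/-! ### The torsion of `J₀(N)` -/

variable (N : ℕ) [NeZero N] (m : ℕ)

/-- `J₀(N)[m]`. -/
def tors : AddSubgroup (JZero N) where
  carrier := {y | m • y = 0}
  zero_mem' := smul_zero m
  add_mem' := fun {a b} ha hb => by
    have ha' : m • a = 0 := ha
    have hb' : m • b = 0 := hb
    show m • (a + b) = 0
    rw [nsmul_add, ha', hb', add_zero]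
  neg_mem' := fun {a} ha => by
    have ha' : m • a = 0 := ha
    show m • (-a) = 0
    rw [neg_nsmul, ha', neg_zero]

theorem mem_tors {y : JZero N} : y ∈ tors N m ↔ m • y = 0 := Iff.rfl

theorem smul_mem_tors (σ : Qbar ≃ₐ[ℚ] Qbar) {y : JZero N} (hy : y ∈ tors N m) :
    σ • y ∈ tors N m := by
  show m • (σ • y) = 0
  have h := smul_nsmul' (J := JZero N) σ m y
  have hy' : m • y = 0 := hy
  rw [hy', smul_zero] at h
  exact h.symm

/-- `σ` as a permutation of `J₀(N)[m]`. -/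
def permT (σ : Qbar ≃ₐ[ℚ] Qbar) : Equiv.Perm ↥(tors N m) where
  toFun y := ⟨σ • (y : JZero N), smul_mem_tors N m σ y.2⟩
  invFun y := ⟨σ⁻¹ • (y : JZero N), smul_mem_tors N m σ⁻¹ y.2⟩
  left_inv y := Subtype.ext (inv_smul_smul σ (y : JZero N))
  right_inv y := Subtype.ext (smul_inv_smul σ (y : JZero N))

/-- the permutation representation of `G_ℚ` on `J₀(N)[m]`. -/
def permHom : (Qbar ≃ₐ[ℚ] Qbar) →* Equiv.Perm ↥(tors N m) where
  toFun := permT N m
  map_one' := by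
    ext y
    show (1 : Qbar ≃ₐ[ℚ] Qbar) • (y : JZero N) = y
    exact one_smul _ _
  map_mul' σ τ := by
    ext y
    show (σ * τ) • (y : JZero N) = σ • τ • (y : JZero N)
    exact mul_smul σ τ _

theorem coe_permHom_apply (σ : Qbar ≃ₐ[ℚ] Qbar) (y : ↥(tors N m)) :
    ((permHom N m σ y : ↥(tors N m)) : JZero N) = σ • (y : JZero N) := rfl

instance finite_tors [NeZero m] : Finite ↥(tors N m) :=
  (Fermat.Agent.ES.KUM.FiniteTorsion15.finite_setOf_nsmul_eq_zero N m).to_subtype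

variable {N m}

/-- **QUAD-J, generator form.** -/
theorem exists_generator {q : ℕ} (hq : q.Prime) (hqN : q ∣ N) (hq2 : ¬ q ^ 2 ∣ N)
    (A : ValuationSubring Qbar) (hA : A.LiesOverPrime q) (hm : ¬ q ∣ m) :
    ∃ s ∈ A.inertiaSubgroupIn ℚ, ∀ σ ∈ A.inertiaSubgroupIn ℚ, ∃ j : ℕ,
      ∀ y : JZero N, m • y = 0 → σ • y = s ^ j • y := by
  classical
  have hm0 : m ≠ 0 := fun h => hm (h ▸ dvd_zero q)
  haveI : NeZero m := ⟨hm0⟩
  haveI : Fact q.Prime := ⟨hq⟩
  -- the action of inertia on `J₀(N)[m]`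
  set f : ↥(A.inertiaSubgroupIn ℚ) →* Equiv.Perm ↥(tors N m) :=
    (permHom N m).comp (A.inertiaSubgroupIn ℚ).subtype with hf
  -- every element of the image is killed by `m`
  have hpow : ∀ τ : ↥(A.inertiaSubgroupIn ℚ), f τ ^ m = 1 := by
    intro τ
    rw [← map_pow]
    ext y
    rw [hf, MonoidHom.comp_apply, coe_permHom_apply]
    show ((τ : Qbar ≃ₐ[ℚ] Qbar) ^ m) • (y : JZero N) = _
    have hsq : ∀ z ∈ tors N m, (τ : Qbar ≃ₐ[ℚ] Qbar) • (τ : Qbar ≃ₐ[ℚ] Qbar) • z + z =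
        (τ : Qbar ≃ₐ[ℚ] Qbar) • z + (τ : Qbar ≃ₐ[ℚ] Qbar) • z := fun z hz =>
      inertiaTors N q hq hqN hq2 A hA τ τ.2 m hm z hz
    rw [pow_smul_of_sq (τ : Qbar ≃ₐ[ℚ] Qbar) (tors N m) (fun z hz => smul_mem_tors N m _ hz) hsq m
      y y.2, nsmul_sub, ← smul_nsmul', (mem_tors N m).mp y.2, smul_zero, sub_self, add_zero]
    rfl
  -- the image has order prime to `q`
  have hU : (Nat.card f.range).Coprime q := by
    rw [Nat.coprime_comm, Nat.Prime.coprime_iff_not_dvd hq]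
    intro hdvd
    obtain ⟨x, hx⟩ := exists_prime_orderOf_dvd_card' q hdvd
    obtain ⟨τ, hτ⟩ := x.2
    have h1 : x ^ m = 1 := by
      apply Subtype.ext
      rw [SubgroupClass.coe_pow, ← hτ, hpow τ]
      rfl
    have h2 := orderOf_dvd_of_pow_eq_one h1
    rw [hx] at h2
    exact hm h2
  -- finite level
  obtain ⟨L, hL, HL⟩ := Fermat.Agent.ES.GAL.OpenStab12.hasLevel_torsion N m
    (Fermat.Agent.ES.KUM.FiniteTorsion15.finite_setOf_nsmul_eq_zero N m)
  haveI := hL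
  have hopen : IsOpen (L.fixingSubgroup : Set (Qbar ≃ₐ[ℚ] Qbar)) :=
    IntermediateField.fixingSubgroup_isOpen L
  obtain ⟨s, hs⟩ := TameCyclic11.exists_inertia_generator_of_isOpen A hq hA hU f.rangeRestrict
    (L.fixingSubgroup : Set (Qbar ≃ₐ[ℚ] Qbar)) hopen (one_mem _) (by
      intro σ hσ
      apply Subtype.ext
      rw [MonoidHom.coe_rangeRestrict]
      ext y
      rw [hf, MonoidHom.comp_apply, coe_permHom_apply]
      have hσ' : ∀ a ∈ L, (σ : Qbar ≃ₐ[ℚ] Qbar) a = a := fun a ha =>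
        (IntermediateField.mem_fixingSubgroup_iff L _).mp hσ a ha
      exact HL _ hσ' y y.2)
  refine ⟨s, s.2, fun σ hσ => ?_⟩
  obtain ⟨j, hj⟩ := hs ⟨σ, hσ⟩
  refine ⟨j, fun y hy => ?_⟩
  have h1 : f ⟨σ, hσ⟩ = f (s ^ j) := by
    have := congrArg Subtype.val hj
    rw [MonoidHom.coe_rangeRestrict, SubgroupClass.coe_pow, MonoidHom.coe_rangeRestrict,
      ← map_pow] at this
    exact this
  have h2 := congrArg (fun g : Equiv.Perm ↥(tors N m) => ((g ⟨y, hy⟩ : ↥(tors N m)) : JZero N)) h1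
  simp only [hf, MonoidHom.comp_apply, coe_permHom_apply] at h2
  exact h2

/-- **QUAD-J: `(σ - 1)(τ - 1) = 0` on `J₀(N)[m]` for all `σ τ` in an inertia group at `q ∥ N`,
`q ∤ m`.** -/
theorem quad {q : ℕ} (hq : q.Prime) (hqN : q ∣ N) (hq2 : ¬ q ^ 2 ∣ N)
    (A : ValuationSubring Qbar) (hA : A.LiesOverPrime q) (hm : ¬ q ∣ m)
    {σ τ : Qbar ≃ₐ[ℚ] Qbar} (hσ : σ ∈ A.inertiaSubgroupIn ℚ) (hτ : τ ∈ A.inertiaSubgroupIn ℚ)
    {y : JZero N} (hy : m • y = 0) : σ • (τ • y - y) = τ • y - y := by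
  obtain ⟨s, hsI, hs⟩ := exists_generator hq hqN hq2 A hA hm
  obtain ⟨j, hj⟩ := hs σ hσ
  obtain ⟨j', hj'⟩ := hs τ hτ
  have hsq : ∀ z ∈ tors N m, s • s • z + z = s • z + s • z := fun z hz =>
    inertiaTors N q hq hqN hq2 A hA s hsI m hm z hz
  have hst : ∀ z ∈ tors N m, s • z ∈ tors N m := fun z hz => smul_mem_tors N m s hz
  have hpow := fun (k : ℕ) => pow_smul_of_sq s (tors N m) hst hsq k
  -- `a = s y - y` is fixed by `s`
  set a : JZero N := s • y - y with ha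
  have haT : a ∈ tors N m := (tors N m).sub_mem (hst y hy) hy
  have hsa : s • a = a := by
    rw [ha, smul_sub]
    have := hsq y hy
    rw [sub_eq_sub_iff_add_eq_add]
    exact this
  have h1 : τ • y - y = j' • a := by rw [hj' y hy, hpow j' y hy]; abel
  have h2 : j' • a ∈ tors N m := (tors N m).nsmul_mem haT j'
  rw [h1, hj (j' • a) h2, hpow j (j' • a) h2, smul_nsmul' s j' a, hsa, sub_self, smul_zero,
    add_zero]

/-- **the inertia invariants of `J₀(N)[m]` are the fixed points of one element.** -/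
theorem exists_generator_invariants {q : ℕ} (hq : q.Prime) (hqN : q ∣ N) (hq2 : ¬ q ^ 2 ∣ N)
    (A : ValuationSubring Qbar) (hA : A.LiesOverPrime q) (hm : ¬ q ∣ m) :
    ∃ s ∈ A.inertiaSubgroupIn ℚ, ∀ y : JZero N, m • y = 0 →
      ((∀ σ ∈ A.inertiaSubgroupIn ℚ, σ • y = y) ↔ s • y = y) := by
  obtain ⟨s, hsI, hs⟩ := exists_generator hq hqN hq2 A hA hm
  refine ⟨s, hsI, fun y hy => ⟨fun h => h s hsI, fun h σ hσ => ?_⟩⟩
  obtain ⟨j, hj⟩ := hs σ hσ
  rw [hj y hy]
  exact smul_pow_fixed h j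
where
  smul_pow_fixed {s : Qbar ≃ₐ[ℚ] Qbar} {y : JZero N} (h : s • y = y) (j : ℕ) : s ^ j • y = y := by
    induction j with
    | zero => simp
    | succ j ih => rw [pow_succ, mul_smul, h, ih]

end Fermat.Agent.MAZ.Desc.QuadJ11
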