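/-
MAZ (S15), G-side, line 8b (helper26): **THE DESCENT BOUND FOR ODD `r`, with every landed supplier
plugged in** (DUAL route).

`KummerInstDual26.InputsDualP` is filled from:
* K-UNR            : `KUnr3.inertia_smul_eq_of_nsmul_fixed` (helper3);
* QUAD-J           : `QuadJ11.quad` (helper11);
* RANK-ONE         : `RankOneInst19.rankOneBound_admFamily` (helper19), `χ` the mod `r` cyclotomic
                     character `EisRel55.chiMod r`, `φ₀` the complex conjugation; the level `0` is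
                     empty;
* EIS-REL (integer form) : `EisRelInt55.exists_tau_delta_nat` (helper55) at `m = r ^ k`, with
                     `FiniteTorsion15.finite_setOf_nsmul_eq_zero`;
* (HOM-μ)          : `HomMuDual11.exists_bound` (helper11) from the conclusion of (C2) (`C2Stmt`).

What is left as hypotheses of **`eisBound_odd`** / **`descentBound_odd`**: the Hecke model `hT` and
the values of `π` on the Hecke operators (`GModel71`), Mordell-Weil (S17 at level `p`), S19 at level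
`p` (`S19At`), K-FLAT (`KFlat`), (C2) (`C2Stmt`), and the exit of (P-FIN)_P
(`PFinPInst90.pfinP`, literally).
-/
import Mathlib
import Fermat.Agent.MAZ.Desc.KummerInstDual26
import Fermat.Agent.MAZ.Desc.KUnr3
import Fermat.Agent.MAZ.Desc.QuadJ11
import Fermat.Agent.MAZ.Desc.HomMuDual11
import Fermat.Agent.MAZ.Desc.RankOneInst19
import Fermat.Agent.MAZ.Hecke.EisRelInt55
import Fermat.Agent.ES.KUM.FiniteTorsion15

set_option autoImplicit false
set_option linter.unusedSectionVars false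
set_option linter.unusedVariables false
set_option linter.style.haveILetI false

open AlgebraicCurve ModularCurve

noncomputable section

namespace Fermat.Agent.MAZ.Desc.LevelDualInst26

open Fermat.Agent.X0 Fermat.Agent.MAZ.Spec.XSpec62 Fermat.Agent.MAZ.Spec.GSpec26
open Fermat.Agent.MAZ.Desc.SelmerCone95 Fermat.Agent.MAZ.Desc.KummerCone95
  Fermat.Agent.MAZ.Desc.Devissage95 Fermat.Agent.MAZ.Desc.PrimaryPart19
  Fermat.Agent.MAZ.Desc.FlatAdm68
  Fermat.Agent.MAZ.Desc.KummerInst26 Fermat.Agent.MAZ.Desc.KummerInstP26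
  Fermat.Agent.MAZ.Desc.KummerInstDual26
  Fermat.Agent.MAZ.Desc.DualModule2 Fermat.Agent.MAZ.Desc.DualDevissage2
  Fermat.Agent.MAZ.Desc.MuModule11
open Fermat.Agent.ES.J.CycloChar8
open Fermat.Agent.MAZ.Hecke.EisRel55 (chiMod chiMod_eq chiMod_spec)

attribute [local instance] dmaMk modMk

variable {p : ℕ} [NeZero p] {T : Type} [CommRing T] [Module T (JZero p)]
variable {r : ℕ} [hr : Fact r.Prime]

/-! ### 1. Small suppliers -/

/-- the action of `T` on `JZero p`, as a ring homomorphism to the endomorphism ring. -/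
def evT (p : ℕ) [NeZero p] (T : Type) [CommRing T] [Module T (JZero p)] :
    T →+* Module.End ℤ (JZero p) where
  toFun t :=
    { toFun := fun x => t • x
      map_add' := smul_add t
      map_smul' := fun n x => smul_comm t n x }
  map_one' := LinearMap.ext fun x => one_smul T x
  map_mul' s t := LinearMap.ext fun x => mul_smul s t x
  map_zero' := LinearMap.ext fun x => zero_smul T x
  map_add' s t := LinearMap.ext fun x => add_smul s t x

theorem evT_apply (t : T) (x : JZero p) : evT p T t x = t • x := rfl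

/-- an exponent computing the action of `g` on the `m`-th roots of unity computes its action on
`Mu m`. -/
theorem smul_mu_of_roots {m : ℕ} {g : GQ} {a : ℕ} (ha : ∀ ζ : Qb, ζ ^ m = 1 → g ζ = ζ ^ a)
    (c : Mu m) : g • c = a • c := by
  apply Mu.val_injective
  rw [Mu.val_smul, Mu.val_nsmul]
  exact ha _ c.val_pow

/-- complex conjugation is not trivial on the `r`-th roots of unity, `r` odd. -/
theorem chiMod_conj_ne_one (hr2 : r ≠ 2) :
    haveI : NeZero r := ⟨hr.out.ne_zero⟩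
    chiMod r complexConjugation ≠ 1 := by
  haveI : NeZero r := ⟨hr.out.ne_zero⟩
  intro h
  obtain ⟨ζ, hζ⟩ := HasEnoughRootsOfUnity.exists_primitiveRoot Qb r
  have h1 : complexConjugation ζ = ζ ^ (chiMod r complexConjugation).val :=
    chiMod_spec r complexConjugation hζ.pow_eq_one
  haveI : Fact (1 < r) := ⟨hr.out.one_lt⟩
  rw [h, ZMod.val_one, pow_one,
    complexConjugation_rootOfUnity hr.out.ne_zero hζ.pow_eq_one] at h1
  have h2 : ζ ^ 2 = 1 := by
    have hne : ζ ≠ 0 := hζ.ne_zero hr.out.ne_zero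
    rw [pow_two]
    nth_rewrite 1 [← h1]
    exact inv_mul_cancel₀ hne
  have h3 : r ∣ 2 := hζ.dvd_of_pow_eq_one 2 h2
  exact hr2 ((Nat.prime_dvd_prime_iff_eq hr.out Nat.prime_two).1 h3)

/-- the rank-one bound at the level `0` is empty. -/
theorem rankOneBound_zero (D I : Subgroup GQ) (χ : GQ →* ZMod r) (φ₀ : GQ) :
    RankOneBound (admFamily r 0 p) D I r χ φ₀ := by
  intro N _ _ _ hOk hN
  exfalso
  have hOk' : OkMod r 0 p N := hOk
  have hsub : ∀ x : N, x = 0 := fun x => by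
    have := hOk'.killed x
    rwa [pow_zero, one_smul] at this
  haveI : Subsingleton N := ⟨fun a b => (hsub a).trans (hsub b).symm⟩
  rw [Nat.card_of_subsingleton (0 : N)] at hN
  exact hr.out.one_lt.ne hN

/-- **K-UNR** (`KUnr3`, helper3). -/
theorem kUnr (hp : p.Prime) : KUnr p r :=
  fun q hq hqr hqp B hB σ hσ k y hfix =>
    Fermat.Agent.MAZ.Desc.KUnr3.inertia_smul_eq_of_nsmul_fixed hq
      (fun h => hqp ((Nat.prime_dvd_prime_iff_eq hq hp).1 h)) hB
      (fun h => hqr ((Nat.prime_dvd_prime_iff_eq hq hr.out).1 (hq.dvd_of_dvd_pow h))) rfl hfix hσ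

/-- **QUAD-J** (`QuadJ11`, helper11). -/
theorem quadAt (hp : p.Prime) (hpr : p ≠ r) (𝔄 : ValuationSubring Qb)
    (h𝔄 : 𝔄.LiesOverPrime p) : QuadAt p r 𝔄 :=
  fun k σ τ hσ hτ y hy =>
    Fermat.Agent.MAZ.Desc.QuadJ11.quad hp dvd_rfl
      (fun h => by
        have h1 := Nat.le_of_dvd hp.pos h
        have h2 := hp.two_le
        nlinarith)
      𝔄 h𝔄 (fun h => hpr ((Nat.prime_dvd_prime_iff_eq hp hr.out).1 (hp.dvd_of_dvd_pow h)))
      hσ hτ hy

/-! ### 2. (HOM-μ) -/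

/-- **the conclusion of (C2)** (`EisTransferFinal85.exists_eis_index`), in the literal shape of the
hypothesis of `HomMuDual11.exists_bound`. -/
def C2Stmt (N : ℕ) [NeZero N] (S : Finset ℕ) : Prop :=
  ∃ n' : ℕ, 0 < n' ∧ ∀ (r : ℕ) [Fact r.Prime] (k : ℕ) (M : AddSubgroup (JZero N)),
    (∀ x ∈ M, r ^ k • x = 0) →
    (∀ (ℓ : ℕ) (hℓ : ℓ.Prime), ℓ ∉ S → ∀ x ∈ M, heckeOperatorBar N ⟨ℓ, hℓ⟩ x ∈ M) →
    ∀ x ∈ M, n' • x ∈ AddSubgroup.closure {z : JZero N | ∃ (ℓ : ℕ) (hℓ : ℓ.Prime), ℓ ∉ S ∧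
      ∃ y ∈ M, z = heckeOperatorBar N ⟨ℓ, hℓ⟩ y - (1 + ℓ) • y}

/-- **(HOM-μ)**: the uniform bound for `#Hom_G(J₀(p)[r^k], μ_{r^k})`. -/
theorem homMu_bound (hp : p.Prime) (hC2 : C2Stmt p {p, r}) :
    ∃ B : ℕ, ∀ k : ℕ, Nat.card (equivariantHoms GQ ↥(Mk p r k) (Mu (r ^ k))) ≤ B := by
  obtain ⟨B, hB⟩ := Fermat.Agent.MAZ.Desc.HomMuDual11.exists_bound p {p, r}
    (fun q hq hqp => by
      rw [(Nat.prime_dvd_prime_iff_eq hq hp).1 hqp]
      exact Finset.mem_insert_self p {r}) hC2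
  refine ⟨B, fun k => hB r (Finset.mem_insert_of_mem (Finset.mem_singleton_self r)) k ↥(Mk p r k)
    (Mk p r k).subtype.toAddMonoidHom Subtype.coe_injective (fun σ x => rfl)
    (fun x => (mem_Mk_iff r k).1 x.2) (fun ℓ hℓ _ x => ⟨⟨heckeOperatorBar p ⟨ℓ, hℓ⟩ x, ?_⟩, rfl⟩)⟩
  rw [mem_Mk_iff, ← map_nsmul, (mem_Mk_iff r k).1 x.2, map_zero]

/-! ### 3. The level inputs -/

variable (𝔄 : ValuationSubring Qb)

/-- **the level inputs of the DUAL form at the level `k ≥ 1`**: RANK-ONE (`RankOneInst19`, helper19),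
EIS-REL in integer form (`EisRelInt55`, helper55), with `χ` the mod `r` cyclotomic character and `φ₀`
the complex conjugation. -/
theorem levelInputDual_pos (hp : p.Prime) (hr2 : r ≠ 2) (hpr : p ≠ r) (h𝔄 : 𝔄.LiesOverPrime p)
    (π : T →+* ZMod r)
    (hev : ∀ ℓ : Nat.Primes, (ℓ : ℕ) ≠ p →
      ∃ t : T, (∀ x : JZero p, t • x = heckeOperatorBar p ℓ x) ∧ π t = ((ℓ : ℕ) : ZMod r) + 1)
    {B : ℕ} (hB : ∀ k : ℕ, Nat.card (equivariantHoms GQ ↥(Mk p r k) (Mu (r ^ k))) ≤ B)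
    {k : ℕ} (hk : 1 ≤ k) : LevelInputDual (p := p) r 𝔄 π B k := by
  haveI : NeZero r := ⟨hr.out.ne_zero⟩
  haveI : NeZero (r ^ k) := ⟨pow_ne_zero k hr.out.ne_zero⟩
  obtain ⟨τ, δ, u, h1, h2, h3, h4, h5, h6⟩ :=
    Fermat.Agent.MAZ.Hecke.EisRelInt55.exists_tau_delta_nat hp (pow_ne_zero k hr.out.ne_zero)
      (dvd_pow_self r (Nat.one_le_iff_ne_zero.1 hk))
      (Fermat.Agent.ES.KUM.FiniteTorsion15.finite_setOf_nsmul_eq_zero p (r ^ k)) (evT p T) π
      (fun ℓ hℓp _ => by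
        obtain ⟨t, ht, hπ⟩ := hev ℓ hℓp
        exact ⟨t, LinearMap.ext ht, hπ⟩)
      (chiMod r) (chiMod_eq r)
  refine ⟨complexConjugation, chiMod r, τ, δ,
    Fermat.Agent.MAZ.Desc.RankOneInst19.rankOneBound_admFamily hr2 hk hp hpr 𝔄 h𝔄 (chiMod r)
      (fun σ z hz => chiMod_spec r σ hz) complexConjugation (chiMod_conj_ne_one hr2),
    h1, h2, fun g x hx => h6 g x hx,
    fun g => ⟨u g, h3 g, fun c => smul_mu_of_roots (h4 g) c, fun x _ => ?_⟩, hB k⟩
  rw [h5 g]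
  exact Nat.cast_smul_eq_nsmul T (u g) x

/-- the level inputs at the level `0`, from those at the level `1`. -/
theorem levelInputDual_zero {π : T →+* ZMod r} {B : ℕ}
    (hB : Nat.card (equivariantHoms GQ ↥(Mk p r 0) (Mu (r ^ 0))) ≤ B)
    (h : LevelInputDual (p := p) r 𝔄 π B 1) : LevelInputDual (p := p) r 𝔄 π B 0 := by
  obtain ⟨φ₀, h'⟩ := h
  obtain ⟨χ, τ, δ, -, h1, h2, -, h4, -⟩ := h'
  have hx0 : ∀ x : JZero p, (r ^ 0) • x = 0 → x = 0 := fun x hx => by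
    rwa [pow_zero, one_smul] at hx
  refine ⟨φ₀, χ, τ, δ, rankOneBound_zero _ _ χ φ₀, h1, h2, fun g x hx => ?_, fun g => ?_, hB⟩
  · rw [hx0 x hx, smul_zero (A := JZero p) g, smul_zero (A := JZero p) g, smul_zero, smul_zero,
      sub_zero, add_zero]
  · obtain ⟨u, hu, -, -⟩ := h4 g
    refine ⟨u, hu, fun c => ?_, fun x hx => ?_⟩
    · have hc : c = 0 := by
        have h := Mu.nsmul_self c
        have e : (r ^ 0 : ℕ) • c = (1 : ℕ) • c := congrArg (· • c) (pow_zero r)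
        rw [e, one_smul] at h
        exact h
      rw [hc, smul_zero, smul_zero]
    · rw [hx0 x hx, smul_zero, smul_zero]

/-- **the level inputs of the DUAL form at every level.** -/
theorem levelInputDual_all (hp : p.Prime) (hr2 : r ≠ 2) (hpr : p ≠ r) (h𝔄 : 𝔄.LiesOverPrime p)
    (π : T →+* ZMod r)
    (hev : ∀ ℓ : Nat.Primes, (ℓ : ℕ) ≠ p →
      ∃ t : T, (∀ x : JZero p, t • x = heckeOperatorBar p ℓ x) ∧ π t = ((ℓ : ℕ) : ZMod r) + 1)
    {B : ℕ} (hB : ∀ k : ℕ, Nat.card (equivariantHoms GQ ↥(Mk p r k) (Mu (r ^ k))) ≤ B)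
    (k : ℕ) : LevelInputDual (p := p) r 𝔄 π B k := by
  rcases Nat.eq_zero_or_pos k with rfl | hk
  · exact levelInputDual_zero 𝔄 (hB 0) (levelInputDual_pos 𝔄 hp hr2 hpr h𝔄 π hev hB le_rfl)
  · exact levelInputDual_pos 𝔄 hp hr2 hpr h𝔄 π hev hB hk

/-! ### 4. The descent bound for odd `r` -/

/-- **THE DESCENT BOUND FOR ODD `r`** from the contracts which are still external: S19 at level `p`
(FFJ), K-FLAT, (C2), and the exit of (P-FIN)_P (`PFinPInst90.pfinP`, literally). Everything else of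
the G-side is discharged. -/
theorem eisBound_odd (hT : HeckeModel p T) (hMW : MW p) (hp : p.Prime) (hr2 : r ≠ 2) (hpr : p ≠ r)
    (h𝔄 : 𝔄.LiesOverPrime p) (π : T →+* ZMod r)
    (hev : ∀ ℓ : Nat.Primes, (ℓ : ℕ) ≠ p →
      ∃ t : T, (∀ x : JZero p, t • x = heckeOperatorBar p ℓ x) ∧ π t = ((ℓ : ℕ) : ZMod r) + 1)
    (hS19 : S19At p r) (hKF : KFlat p r {z : JZero p | ∀ σ : GQ, σ • z = z})
    (hC2 : C2Stmt p {p, r}) (A : Submodule T (JZero p)) (hA : FiniteIndexIn A (ratPoints hT))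
    (hP : ∀ k : ℕ, ∃ e : T,
      (∀ x ∈ primarySet (RingHom.ker π) (↥A ⧸ (Ideal.span {(r : T) ^ k} • ⊤ : Submodule T ↥A)),
        e • x = x) ∧
      ∀ z ∈ A, ∃ y : JZero p, (∀ σ ∈ 𝔄.inertiaSubgroupIn ℚ, σ • y = y) ∧ r ^ k • y = e • z) :
    ∃ B' : ℕ, EisBound A (RingHom.ker π) r B' := by
  obtain ⟨B, hB⟩ := homMu_bound (r := r) hp hC2
  refine eisBound_of_inputsDualP 𝔄 hT hMW hp hpr h𝔄 (B := B)
    { s19 := hS19
      kunr := kUnr hp
      fin := hA
      kflat := hKF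
      quad := quadAt hp hpr 𝔄 h𝔄
      level := fun k => ?_ }
  obtain ⟨e, he, hez⟩ := hP k
  refine ⟨e, he, fun z hz => ?_, levelInputDual_all 𝔄 hp hr2 hpr h𝔄 π hev hB k⟩
  obtain ⟨y, hy, hyz⟩ := hez z hz
  exact ⟨y, (mem_J0 𝔄).2 hy, hyz⟩

/-- the same in the shape of the exit `S15Top62.DescentBound`. -/
theorem descentBound_odd (hT : HeckeModel p T) (hMW : MW p) (hp : p.Prime) (hr2 : r ≠ 2)
    (hpr : p ≠ r) (h𝔄 : 𝔄.LiesOverPrime p) (π : T →+* ZMod r)
    (hev : ∀ ℓ : Nat.Primes, (ℓ : ℕ) ≠ p →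
      ∃ t : T, (∀ x : JZero p, t • x = heckeOperatorBar p ℓ x) ∧ π t = ((ℓ : ℕ) : ZMod r) + 1)
    (hS19 : S19At p r) (hKF : KFlat p r {z : JZero p | ∀ σ : GQ, σ • z = z})
    (hC2 : C2Stmt p {p, r})
    (hPF : ∃ A : Submodule T (JZero p), FiniteIndexIn A (ratPoints hT) ∧ ∀ k : ℕ, ∃ e : T,
      (∀ x ∈ primarySet (RingHom.ker π) (↥A ⧸ (Ideal.span {(r : T) ^ k} • ⊤ : Submodule T ↥A)),
        e • x = x) ∧
      ∀ z ∈ A, ∃ y : JZero p, (∀ σ ∈ 𝔄.inertiaSubgroupIn ℚ, σ • y = y) ∧ r ^ k • y = e • z) :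
    ∃ (A : Submodule T (JZero p)) (B' : ℕ), FiniteIndexIn A (ratPoints hT) ∧
      EisBound A (RingHom.ker π) r B' := by
  obtain ⟨A, hA, hP⟩ := hPF
  obtain ⟨B', hB'⟩ := eisBound_odd 𝔄 hT hMW hp hr2 hpr h𝔄 π hev hS19 hKF hC2 A hA hP
  exact ⟨A, B', hA, hB'⟩

end Fermat.Agent.MAZ.Desc.LevelDualInst26
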