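/-
MAZ (S15), G-side, line 8b (helper26): **the descent bound for odd `r` with K-FLAT at infinite order
only** = `LevelDualInst26.eisBound_odd` for a torsion-free `A` (`PFinTF26.pfinP_of_toric_tf`) and
`KummerInstDualA26.KFlatInf` instead of `KFlat` for all rational points.
-/
import Mathlib
import Fermat.Agent.MAZ.Desc.LevelDualInst26
import Fermat.Agent.MAZ.Desc.KummerInstDualA26

set_option autoImplicit false
set_option linter.unusedSectionVars false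
set_option linter.unusedVariables false
set_option linter.style.haveILetI false

open AlgebraicCurve ModularCurve

noncomputable section

namespace Fermat.Agent.MAZ.Desc.LevelDualInstA26

open Fermat.Agent.X0 Fermat.Agent.MAZ.Spec.XSpec62 Fermat.Agent.MAZ.Spec.GSpec26
open Fermat.Agent.MAZ.Desc.PrimaryPart19 Fermat.Agent.MAZ.Desc.KummerInst26
  Fermat.Agent.MAZ.Desc.KummerInstDual26 Fermat.Agent.MAZ.Desc.KummerInstDualA26
  Fermat.Agent.MAZ.Desc.LevelDualInst26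

variable {p : ℕ} [NeZero p] {T : Type} [CommRing T] [Module T (JZero p)]
variable {r : ℕ} [hr : Fact r.Prime] (𝔄 : ValuationSubring Qb)

/-- **THE DESCENT BOUND FOR ODD `r`, K-FLAT at infinite order**: `LevelDualInst26.eisBound_odd` with
`A` torsion-free and `KFlat` replaced by `KFlatInf`. -/
theorem eisBound_odd_tf (hT : HeckeModel p T) (hMW : MW p) (hp : p.Prime) (hr2 : r ≠ 2)
    (hpr : p ≠ r) (h𝔄 : 𝔄.LiesOverPrime p) (π : T →+* ZMod r)
    (hev : ∀ ℓ : Nat.Primes, (ℓ : ℕ) ≠ p →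
      ∃ t : T, (∀ x : JZero p, t • x = heckeOperatorBar p ℓ x) ∧ π t = ((ℓ : ℕ) : ZMod r) + 1)
    (hS19 : S19At p r) (hKF : KFlatInf p r) (hC2 : C2Stmt p {p, r})
    (A : Submodule T (JZero p)) (hA : FiniteIndexIn A (ratPoints hT))
    (htf : ∀ z ∈ A, ∀ n : ℕ, n ≠ 0 → n • z = 0 → z = 0)
    (hP : ∀ k : ℕ, ∃ e : T,
      (∀ x ∈ primarySet (RingHom.ker π) (↥A ⧸ (Ideal.span {(r : T) ^ k} • ⊤ : Submodule T ↥A)),
        e • x = x) ∧
      ∀ z ∈ A, ∃ y : JZero p, (∀ σ ∈ 𝔄.inertiaSubgroupIn ℚ, σ • y = y) ∧ r ^ k • y = e • z) :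
    ∃ B' : ℕ, EisBound A (RingHom.ker π) r B' := by
  obtain ⟨B, hB⟩ := homMu_bound (r := r) hp hC2
  refine eisBound_of_inputsDualPA 𝔄 hT hMW hp hpr h𝔄 (B := B)
    { s19 := hS19
      kunr := kUnr hp
      fin := hA
      tf := htf
      kflat := hKF
      quad := quadAt hp hpr 𝔄 h𝔄
      level := fun k => ?_ }
  obtain ⟨e, he, hez⟩ := hP k
  refine ⟨e, he, fun z hz => ?_, levelInputDual_all 𝔄 hp hr2 hpr h𝔄 π hev hB k⟩
  obtain ⟨y, hy, hyz⟩ := hez z hz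
  exact ⟨y, (mem_J0 𝔄).2 hy, hyz⟩

/-- the same in the shape of the exit `S15Top62.DescentBound`; `hPF` is the conclusion of
`PFinTF26.pfinP_of_toric_tf`, literally. -/
theorem descentBound_odd_tf (hT : HeckeModel p T) (hMW : MW p) (hp : p.Prime) (hr2 : r ≠ 2)
    (hpr : p ≠ r) (h𝔄 : 𝔄.LiesOverPrime p) (π : T →+* ZMod r)
    (hev : ∀ ℓ : Nat.Primes, (ℓ : ℕ) ≠ p →
      ∃ t : T, (∀ x : JZero p, t • x = heckeOperatorBar p ℓ x) ∧ π t = ((ℓ : ℕ) : ZMod r) + 1)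
    (hS19 : S19At p r) (hKF : KFlatInf p r) (hC2 : C2Stmt p {p, r})
    (hPF : ∃ A : Submodule T (JZero p), FiniteIndexIn A (ratPoints hT) ∧
      (∀ z ∈ A, ∀ n : ℕ, n ≠ 0 → n • z = 0 → z = 0) ∧ ∀ k : ℕ, ∃ e : T,
      (∀ x ∈ primarySet (RingHom.ker π) (↥A ⧸ (Ideal.span {(r : T) ^ k} • ⊤ : Submodule T ↥A)),
        e • x = x) ∧
      ∀ z ∈ A, ∃ y : JZero p, (∀ σ ∈ 𝔄.inertiaSubgroupIn ℚ, σ • y = y) ∧ r ^ k • y = e • z) :
    ∃ (A : Submodule T (JZero p)) (B' : ℕ), FiniteIndexIn A (ratPoints hT) ∧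
      EisBound A (RingHom.ker π) r B' := by
  obtain ⟨A, hA, htf, hP⟩ := hPF
  obtain ⟨B', hB'⟩ := eisBound_odd_tf 𝔄 hT hMW hp hr2 hpr h𝔄 π hev hS19 hKF hC2 A hA htf hP
  exact ⟨A, B', hA, hB'⟩

end Fermat.Agent.MAZ.Desc.LevelDualInstA26
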