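/-
MAZ (S15), G-side, line 8b at `r = 2` (helper2): **THE DESCENT BOUND FOR `r = 2`, with every landed
supplier plugged in** (symmetric marked descent, `P`-part variant).  The `r = 2` twin of helper26's
`LevelDualInst26` (named in the arbitration #2517 (4)).

`KummerInstDualMP95.eisBound_of_levels_dualMP` (helper95) is filled, at every level `k ≥ 1`, from:
* the marked family     : `MarkedAdm19.markedFamily 2 k p` (helper19/helper68);
* RANK-ONE              : `MarkedAdm19.rankOneBoundM_markedFamily_two`, `χ := chiModR 2` (trivial);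
* EIS-REL (integer form): `EisRelInt55.exists_tau_delta_nat` (helper55) at `m = 2 ^ k`;
* QUAD-J                : `LevelDualInst26.quadAt` (`QuadJ11.quad`, helper11);
* K-UNR                 : `LevelDualInst26.kUnr` (`KUnr3`, helper3);
* (HOM-μ)               : `LevelDualInst26.homMu_bound` (`HomMuDual11`, helper11) from `C2Stmt p {p, 2}`;
* CARTIER WITH MARKS    : `CartierPrimaryM95.exists_dualMark_primary` (helper95; helper68's
                          `CartierMarked68` on the `ker π`-primary part);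
* `μ_{2^k}`             : `MuModule11.Mu (2 ^ k)` (helper11).

What is left as hypotheses of **`eisBound_two`** / **`descentBound_two`**: the Hecke model and the
values of `π` on the Hecke operators (`GModel71`), Mordell-Weil (S17 at level `p`), S19 at level `p`
for `r = 2` (`S19At p 2`), K-FLAT (`KFlat p 2`), the MARKS (`MarkStmt p` : a marked local model of
`J₀(p)[2^k]` at `2` and, for the Kummer cocycles of the rational points, a marked local model of the
extension module with the induced mark), (C2) (`C2Stmt p {p, 2}`), and the exit of (P-FIN)_P.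
-/
import Mathlib
import Fermat.Agent.MAZ.Desc.LevelDualInst26
import Fermat.Agent.MAZ.Desc.KummerInstDualMP95
import Fermat.Agent.MAZ.Desc.MarkedAdm19
import Fermat.Agent.MAZ.Desc.CartierPrimaryM95

set_option autoImplicit false
set_option linter.unusedSectionVars false
set_option linter.unusedVariables false
set_option linter.style.haveILetI false

open AlgebraicCurve ModularCurve

noncomputable section

namespace Fermat.Agent.MAZ.Desc.LevelDualInstM2

open Fermat.Agent.X0 Fermat.Agent.MAZ.Spec.XSpec62 Fermat.Agent.MAZ.Spec.GSpec26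
open Fermat.Agent.MAZ.Desc.SelmerCone95 Fermat.Agent.MAZ.Desc.KummerCone95
  Fermat.Agent.MAZ.Desc.Devissage95 Fermat.Agent.MAZ.Desc.PrimaryPart19
  Fermat.Agent.MAZ.Desc.ConePrimary95
  Fermat.Agent.MAZ.Desc.FlatAdm68
  Fermat.Agent.MAZ.Desc.KummerInst26 Fermat.Agent.MAZ.Desc.KummerInstP26
  Fermat.Agent.MAZ.Desc.DualModule2 Fermat.Agent.MAZ.Desc.DualDevissage2
  Fermat.Agent.MAZ.Desc.MuModule11
  Fermat.Agent.MAZ.Desc.DevissageMarked95 Fermat.Agent.MAZ.Desc.DescentAsmMarked95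
  Fermat.Agent.MAZ.Desc.KummerInstM95 Fermat.Agent.MAZ.Desc.KummerInstDualM95
  Fermat.Agent.MAZ.Desc.KummerInstDualMP95
  Fermat.Agent.MAZ.Desc.MarkedAdm19 Fermat.Agent.MAZ.Desc.LevelDualInst26
  Fermat.Agent.MAZ.Flat.Mark68
open Fermat.Agent.MAZ.Desc.KummerInstDual26 (mu_inertia)
open Fermat.Agent.MAZ.Desc.RankOneInst19 (chiModR)
open Fermat.Agent.TW.FF.FlatModel68 (FlatModel GQp)

attribute [local instance] dmaMk modMk primaryDMA

variable {p : ℕ} [NeZero p] {T : Type} [CommRing T] [Module T (JZero p)]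

/-! ### 1. The character at `2` -/

/-- every character of a group with values in `ZMod 2` is trivial. -/
theorem chi_two {G : Type*} [Group G] (χ : G →* ZMod 2) (g : G) : χ g = 1 := by
  have h : χ g * χ g⁻¹ = 1 := by rw [← map_mul, mul_inv_cancel, map_one]
  have key : ∀ a b : ZMod 2, a * b = 1 → a = 1 := by decide
  exact key _ _ h

/-- an exponent computing the action of `g` on the square roots of unity is odd. -/
theorem natCast_eq_one_of_roots {g : GQ} {n : ℕ} (h : ∀ ζ : Qb, ζ ^ 2 = 1 → g ζ = ζ ^ n) :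
    ((n : ℕ) : ZMod 2) = 1 := by
  rw [ZMod.natCast_eq_one_iff_odd]
  rcases Nat.even_or_odd n with he | ho
  · exfalso
    have h1 := h (-1) (by norm_num)
    rw [he.neg_one_pow, map_neg, map_one] at h1
    have h2 : (2 : Qb) = 0 := by linear_combination (-1 : Qb) * h1
    exact two_ne_zero h2
  · exact ho

/-! ### 2. The marks -/

/-- **the marks at `2`** (the exit of the chain S19@2-with-marks + K-FLAT-with-marks, in the
vocabulary of `Mark68` / `MarkedAdm19`): at every level `k ≥ 1`, a marked local model of `J₀(p)[2^k]`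
at the standard place over `2`, with mark `M₀`, such that the extension module of the Kummer cocycle of
every rational point has a marked local model with mark `M₀ × 0`. -/
def MarkStmt (p : ℕ) [NeZero p] : Prop :=
  ∀ k : ℕ, 1 ≤ k → ∃ M₀ : AddSubgroup ↥(Mk p 2 k),
    MarkedModel 2 ↥(Mk p 2 k) (fun (τ : GQp 2) (x : ↥(Mk p 2 k)) => localGaloisToGlobal 2 τ • x) M₀ ∧
    ∀ z : JZero p, (∀ σ : GQ, σ • z = z) → ∀ y : JZero p, ((2 : ℕ) ^ k) • y = z →
      ∀ c : GQ → ↥(Mk p 2 k), (∀ σ, (c σ : JZero p) = σ • y - y) →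
        MarkedModel 2 (↥(Mk p 2 k) × ZMod (2 ^ k))
          (fun (τ : GQp 2) => extActN 2 k c (localGaloisToGlobal 2 τ))
          (M₀.prod (⊥ : AddSubgroup (ZMod (2 ^ k))))

/-- the Kummer cocycle of a rational point is admissible for `FlatAdm68.admFamily` (K-UNR + K-FLAT);
this is the `adm` field of `KummerInst26.hyp_kummerData`, without (P-FIN). -/
theorem kummer_mem_Zadm {r : ℕ} [Fact r.Prime] {k : ℕ} (hU : KUnr p r)
    (hF : KFlat p r {z : JZero p | ∀ σ : GQ, σ • z = z}) {z : JZero p}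
    (hz : ∀ σ : GQ, σ • z = z) {y : JZero p} (hy : (r ^ k) • y = z) {c : GQ → ↥(Mk p r k)}
    (hc : ∀ σ, (c σ : JZero p) = σ • y - y) : c ∈ Zadm r k p ↥(Mk p r k) := by
  refine mem_Zadm_of_flat (fun σ τ => Subtype.ext ?_) (fun q hq hqr hqp B hB σ hσ =>
    Subtype.ext ?_) (hF k z hz y hy c hc)
  · change (c (σ * τ) : JZero p) = (c σ : JZero p) + σ • (c τ : JZero p)
    rw [hc, hc, hc, mul_smul, smul_sub]
    abel
  · change (c σ : JZero p) = 0
    rw [hc, hU q hq hqr hqp B hB σ hσ k y (fun τ => by rw [hy]; exact hz τ), sub_self]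

/-- **the good marked module `J₀(p)[2^k]` and K-FLAT WITH MARKS** for the concrete marked family,
from S19 at `2`, K-UNR, K-FLAT and the marks. -/
theorem exists_mark (hS19 : S19At p 2) (hU : KUnr p 2)
    (hF : KFlat p 2 {z : JZero p | ∀ σ : GQ, σ • z = z}) (hM : MarkStmt p) {k : ℕ} (hk : 1 ≤ k) :
    ∃ M₀ : AddSubgroup ↥(Mk p 2 k), OkModM 2 k p ↥(Mk p 2 k) M₀ ∧
      KFlatM (markedFamily 2 k p) M₀ {z : JZero p | ∀ σ : GQ, σ • z = z} := by
  obtain ⟨M₀, hM₀, hE⟩ := hM k hk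
  refine ⟨M₀, ⟨okMod_Mk hS19 hU, hM₀⟩, fun z hz y hy c hc => ?_⟩
  exact mem_ZadmM_of (kummer_mem_Zadm hU hF hz hy hc) (hE z hz y hy c hc)

/-! ### 3. The level inputs -/

variable (𝔄 : ValuationSubring Qb)

/-- **the level inputs of the symmetric marked descent at `r = 2`, level `k ≥ 1`**, on any
`T`-submodule `A'`: everything is discharged except the good marked module and K-FLAT with marks. -/
theorem levelInputDualM_two (hT : HeckeModel p T) (hp : p.Prime) (hp2 : p ≠ 2)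
    (h𝔄 : 𝔄.LiesOverPrime p) (π : T →+* ZMod 2)
    (hev : ∀ ℓ : Nat.Primes, (ℓ : ℕ) ≠ p →
      ∃ t : T, (∀ x : JZero p, t • x = heckeOperatorBar p ℓ x) ∧ π t = ((ℓ : ℕ) : ZMod 2) + 1)
    {B : ℕ} (hB : ∀ k : ℕ, Nat.card (equivariantHoms GQ ↥(Mk p 2 k) (Mu (2 ^ k))) ≤ B)
    {k : ℕ} (hk : 1 ≤ k) (A' : Submodule T (JZero p)) {M₀ : AddSubgroup ↥(Mk p 2 k)}
    (hOk : OkModM 2 k p ↥(Mk p 2 k) M₀)
    (hKF : KFlatM (markedFamily 2 k p) M₀ (A' : Set (JZero p))) :
    LevelInputDualM 𝔄 hT π A' B k := by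
  haveI : NeZero (2 ^ k) := ⟨pow_ne_zero k two_ne_zero⟩
  obtain ⟨τ, δ, u, h1, h2, h3, h4, h5, h6⟩ :=
    Fermat.Agent.MAZ.Hecke.EisRelInt55.exists_tau_delta_nat hp (pow_ne_zero k two_ne_zero)
      (dvd_pow_self 2 (Nat.one_le_iff_ne_zero.1 hk))
      (Fermat.Agent.ES.KUM.FiniteTorsion15.finite_setOf_nsmul_eq_zero p (2 ^ k)) (evT p T) π
      (fun ℓ hℓp _ => by
        obtain ⟨t, ht, hπ⟩ := hev ℓ hℓp
        exact ⟨t, LinearMap.ext ht, hπ⟩)
      (⇑(chiModR 2)) (fun g n h => (chi_two (chiModR 2) g).trans (natCast_eq_one_of_roots h).symm)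
  have hrel : ∀ (g : GQ) (x : JZero p), ((2 : ℕ) ^ k) • x = 0 →
      g • g • x - τ g • g • x + δ g • x = 0 := fun g x hx => h6 g x hx
  have hrelM : ∀ (g : GQ) (x : ↥(Mk p 2 k)), g • g • x - τ g • g • x + δ g • x = 0 :=
    fun g x => Subtype.ext (hrel g (x : JZero p) ((mem_Mk_iff 2 k).1 x.2))
  haveI := smulComm_Mk 2 k hT
  haveI := hOk.ok.finite
  obtain ⟨D₀, hOkN, hD₀⟩ :=
    Fermat.Agent.MAZ.Desc.CartierPrimaryM95.exists_dualMark_primary (π := π) (χ := chiModR 2)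
      hOk h1 h2 hrelM
  refine ⟨markedFamily 2 k p, chiModR 2, τ, δ, M₀, Mu (2 ^ k), inferInstance, inferInstance,
    inferInstance, inferInstance, D₀, hOk.ok.finite,
    rankOneBoundM_markedFamily_two 𝔄 hk hp hp2 h𝔄, h1, h2, hOk, hKF, hrel, fun x => ?_,
    fun σ hσ c => mu_inertia k hp hp2 𝔄 h𝔄 σ hσ c,
    fun g => ⟨u g, fun c => smul_mu_of_roots (h4 g) c, fun x => ?_⟩,
    fun σ hσ x hx σ' hσ' => quadAt (r := 2) hp hp2 𝔄 h𝔄 k σ' σ hσ' hσ x hx, hOkN, hD₀, hB k⟩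
  · rw [Mu.card_mu]
    exact nsmul_Mk_eq_zero 2 k x
  · rw [h5 g]
    exact Nat.cast_smul_eq_nsmul T (u g) x

/-! ### 4. The descent bound at `r = 2` -/

/-- **THE DESCENT BOUND AT `r = 2`** from the contracts which are still external: S19 at level `p`
for `r = 2` (FFJ), K-FLAT, the marks (`MarkStmt`), (C2), and the exit of (P-FIN)_P (literally the
conclusion of `PFinPInst90.pfinP` at `r = 2`).  Everything else of the G-side is discharged. -/
theorem eisBound_two (hT : HeckeModel p T) (hMW : MW p) (hp : p.Prime) (hp2 : p ≠ 2)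
    (h𝔄 : 𝔄.LiesOverPrime p) (π : T →+* ZMod 2)
    (hev : ∀ ℓ : Nat.Primes, (ℓ : ℕ) ≠ p →
      ∃ t : T, (∀ x : JZero p, t • x = heckeOperatorBar p ℓ x) ∧ π t = ((ℓ : ℕ) : ZMod 2) + 1)
    (hS19 : S19At p 2) (hKF : KFlat p 2 {z : JZero p | ∀ σ : GQ, σ • z = z})
    (hMark : MarkStmt p) (hC2 : C2Stmt p {p, 2}) (A : Submodule T (JZero p))
    (hA : FiniteIndexIn A (ratPoints hT))
    (hP : ∀ k : ℕ, ∃ e : T,
      (∀ x ∈ primarySet (RingHom.ker π)
        (↥A ⧸ (Ideal.span {((2 : ℕ) : T) ^ k} • ⊤ : Submodule T ↥A)), e • x = x) ∧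
      ∀ z ∈ A, ∃ y : JZero p, (∀ σ ∈ 𝔄.inertiaSubgroupIn ℚ, σ • y = y) ∧ (2 : ℕ) ^ k • y = e • z) :
    ∃ B' : ℕ, EisBound A (RingHom.ker π) 2 B' := by
  obtain ⟨B, hB⟩ := homMu_bound (r := 2) hp hC2
  have hU : KUnr p 2 := kUnr hp
  refine eisBound_of_levels_dualMP 𝔄 hT hMW hA B fun k hk => ?_
  obtain ⟨e, he, hez⟩ := hP k
  obtain ⟨M₀, hOk, hKFM⟩ := exists_mark hS19 hU hKF hMark hk
  refine ⟨e, he, fun z hz => ?_,
    levelInputDualM_two 𝔄 hT hp hp2 h𝔄 π hev hB hk (Bk 2 𝔄 hT k) hOk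
      (fun z hz => hKFM z hz.1)⟩
  obtain ⟨y, hy, hyz⟩ := hez z hz
  exact ⟨y, (mem_J0 𝔄).2 hy, hyz⟩

/-- the same in the shape of the exit `S15Top62.DescentBound` (at `r = 2`). -/
theorem descentBound_two (hT : HeckeModel p T) (hMW : MW p) (hp : p.Prime) (hp2 : p ≠ 2)
    (h𝔄 : 𝔄.LiesOverPrime p) (π : T →+* ZMod 2)
    (hev : ∀ ℓ : Nat.Primes, (ℓ : ℕ) ≠ p →
      ∃ t : T, (∀ x : JZero p, t • x = heckeOperatorBar p ℓ x) ∧ π t = ((ℓ : ℕ) : ZMod 2) + 1)
    (hS19 : S19At p 2) (hKF : KFlat p 2 {z : JZero p | ∀ σ : GQ, σ • z = z})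
    (hMark : MarkStmt p) (hC2 : C2Stmt p {p, 2})
    (hPF : ∃ A : Submodule T (JZero p), FiniteIndexIn A (ratPoints hT) ∧ ∀ k : ℕ, ∃ e : T,
      (∀ x ∈ primarySet (RingHom.ker π)
        (↥A ⧸ (Ideal.span {((2 : ℕ) : T) ^ k} • ⊤ : Submodule T ↥A)), e • x = x) ∧
      ∀ z ∈ A, ∃ y : JZero p, (∀ σ ∈ 𝔄.inertiaSubgroupIn ℚ, σ • y = y) ∧ (2 : ℕ) ^ k • y = e • z) :
    ∃ (A : Submodule T (JZero p)) (B' : ℕ), FiniteIndexIn A (ratPoints hT) ∧
      EisBound A (RingHom.ker π) 2 B' := by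
  obtain ⟨A, hA, hP⟩ := hPF
  obtain ⟨B', hB'⟩ := eisBound_two 𝔄 hT hMW hp hp2 h𝔄 π hev hS19 hKF hMark hC2 A hA hP
  exact ⟨A, B', hA, hB'⟩

/-- the same for a prime `r` with a proof of `r = 2` (the form met when `r` is a variable, as in
`S15Top62.DescentBound`). -/
theorem descentBound_of_eq_two {r : ℕ} [Fact r.Prime] (hr : r = 2) (hT : HeckeModel p T)
    (hMW : MW p) (hp : p.Prime) (hpr : p ≠ r) (h𝔄 : 𝔄.LiesOverPrime p) (π : T →+* ZMod r)
    (hev : ∀ ℓ : Nat.Primes, (ℓ : ℕ) ≠ p →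
      ∃ t : T, (∀ x : JZero p, t • x = heckeOperatorBar p ℓ x) ∧ π t = ((ℓ : ℕ) : ZMod r) + 1)
    (hS19 : S19At p r) (hKF : KFlat p r {z : JZero p | ∀ σ : GQ, σ • z = z})
    (hMark : MarkStmt p) (hC2 : C2Stmt p {p, r})
    (hPF : ∃ A : Submodule T (JZero p), FiniteIndexIn A (ratPoints hT) ∧ ∀ k : ℕ, ∃ e : T,
      (∀ x ∈ primarySet (RingHom.ker π)
        (↥A ⧸ (Ideal.span {(r : T) ^ k} • ⊤ : Submodule T ↥A)), e • x = x) ∧
      ∀ z ∈ A, ∃ y : JZero p, (∀ σ ∈ 𝔄.inertiaSubgroupIn ℚ, σ • y = y) ∧ r ^ k • y = e • z) :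
    ∃ (A : Submodule T (JZero p)) (B' : ℕ), FiniteIndexIn A (ratPoints hT) ∧
      EisBound A (RingHom.ker π) r B' := by
  subst hr
  exact descentBound_two 𝔄 hT hMW hp hpr h𝔄 π hev hS19 hKF hMark hC2 hPF

end Fermat.Agent.MAZ.Desc.LevelDualInstM2
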