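/-
MAZ (S15), G-side, line 8b at `r = 2` (helper2): **THE DESCENT BOUND FOR `r = 2` WITH K-FLAT AND THE
MARKS AT INFINITE ORDER ONLY.**  The torsion-free twin of `LevelDualInstM2` (as helper26's
`LevelDualInstA26` is the torsion-free twin of `LevelDualInst26` for odd `r`).

The chapters K-FLAT and MARKS realise the extension module `E_y` of the Kummer cocycle of
`z = 2^k • y` inside `J₀(p)` through `(m, a) ↦ m + a • y`, injective only when `z` has infinite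
order.  So here, as in `KummerInstDualA26`:

* the Kummer datum at the level `2^k` has domain `KummerInstDualA26.BkA 2 𝔄 hT A k`
  `= {z ∈ A | z ∈ 2^k J^I}` where `A` is TORSION-FREE (`PFinTF26.pfinP_of_toric_tf`);
* `KummerInstDualA26.KFlatInf p 2` : K-FLAT for the rational points of infinite order;
* **`MarkStmtInf p`** : the marks, for the rational points of infinite order;
* the point `z = 0` gives a coboundary (`MarkedAdm19.dd_memM`).

Contents: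
* **`eisBound_of_levels_dualMPA`** : `KummerInstDualMP95.eisBound_of_levels_dualMP` (helper95) with the
  Kummer domain `BkA r 𝔄 hT A k` instead of `Bk r 𝔄 hT k` (`r`-agnostic);
* `MarkStmtInf`, `markStmtInf_of_markStmt`, `kummer_mem_Zadm_of_flat`, `exists_mark_inf`;
* **`eisBound_two_tf`**, **`descentBound_two_tf`**, **`descentBound_of_eq_two_tf`** : `hPF` is the
  conclusion of `PFinTF26.pfinP_of_toric_tf`, literally.
-/
import Mathlib
import Fermat.Agent.MAZ.Desc.LevelDualInstM2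
import Fermat.Agent.MAZ.Desc.KummerInstDualA26

set_option autoImplicit false
set_option linter.unusedSectionVars false
set_option linter.unusedVariables false
set_option linter.style.haveILetI false

open AlgebraicCurve ModularCurve

noncomputable section

namespace Fermat.Agent.MAZ.Desc.LevelDualInstMA2

open Fermat.Agent.X0 Fermat.Agent.MAZ.Spec.XSpec62 Fermat.Agent.MAZ.Spec.GSpec26
open Fermat.Agent.MAZ.Desc.SelmerCone95 Fermat.Agent.MAZ.Desc.KummerCone95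
  Fermat.Agent.MAZ.Desc.Devissage95 Fermat.Agent.MAZ.Desc.PrimaryPart19
  Fermat.Agent.MAZ.Desc.ConePrimary95
  Fermat.Agent.MAZ.Desc.FlatAdm68
  Fermat.Agent.MAZ.Desc.KummerInst26 Fermat.Agent.MAZ.Desc.KummerInstP26
  Fermat.Agent.MAZ.Desc.DualModule2 Fermat.Agent.MAZ.Desc.DualDevissage2
  Fermat.Agent.MAZ.Desc.MuModule11
  Fermat.Agent.MAZ.Desc.DevissageMarked95 Fermat.Agent.MAZ.Desc.DescentAsmMarked95
  Fermat.Agent.MAZ.Desc.KummerInstM95 Fermat.Agent.MAZ.Desc.KummerInstDualM95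
  Fermat.Agent.MAZ.Desc.KummerInstDualMP95
  Fermat.Agent.MAZ.Desc.MarkedAdm19 Fermat.Agent.MAZ.Desc.LevelDualInst26
  Fermat.Agent.MAZ.Desc.LevelDualInstM2
  Fermat.Agent.MAZ.Desc.RatTors26 Fermat.Agent.MAZ.Desc.DescentAsmDualCore95
  Fermat.Agent.MAZ.Flat.Mark68
open Fermat.Agent.MAZ.Desc.KummerInstDualA26 (KFlatInf BkA mem_BkA)
open Fermat.Agent.TW.FF.FlatModel68 (FlatModel GQp)

attribute [local instance] dmaMk modMk primaryDMA

variable {p : ℕ} [NeZero p] {T : Type} [CommRing T] [Module T (JZero p)]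

/-! ### 1. The symmetric marked descent with the Kummer domain inside `A` -/

section Abstract

variable {r : ℕ} [Fact r.Prime] (𝔄 : ValuationSubring Qb)

/-- **DESCENT-ASM at `JZero p`, symmetric marked form, `P`-part variant, Kummer domain inside `A`.**
`KummerInstDualMP95.eisBound_of_levels_dualMP` with `BkA r 𝔄 hT A k` (the points of `A` which are
`r^k`-divisible in the inertia invariants) instead of `Bk r 𝔄 hT k` (all such rational points). -/
theorem eisBound_of_levels_dualMPA (hT : HeckeModel p T) (hMW : MW p) {π : T →+* ZMod r}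
    {A : Submodule T (JZero p)} (hfin : FiniteIndexIn A (ratPoints hT)) (B : ℕ)
    (hlev : ∀ k : ℕ, 1 ≤ k → ∃ e : T,
      (∀ x ∈ primarySet (RingHom.ker π) (A ⧸ (Ideal.span {(r : T) ^ k} • ⊤ : Submodule T A)),
        e • x = x) ∧
      (∀ z ∈ A, ∃ y ∈ J0 (p := p) 𝔄, (r ^ k) • y = e • z) ∧
      LevelInputDualM 𝔄 hT π (BkA r 𝔄 hT A k) B k) :
    ∃ B' : ℕ, EisBound A (RingHom.ker π) r B' := by
  haveI := finite_ratPoints hT hMW
  haveI := finite_ratTorsion (p := p) hMW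
  obtain ⟨hle, N, hN, hNA⟩ := hfin
  have key : ∀ k : ℕ, 1 ≤ k → ∃ (F : MarkedFamily.{0} GQ) (χ : GQ →* ZMod r) (τ δ : GQ → T)
      (Bk' : Submodule T (JZero p)) (e : T),
      RankOneBoundM F (𝔄.decompositionSubgroup ℚ) (𝔄.inertiaSubgroupIn ℚ) r χ ∧
      (∀ g, π (τ g) = 1 + χ g) ∧ (∀ g, π (δ g) = χ g) ∧
      (∀ x ∈ primarySet (RingHom.ker π) (A ⧸ (Ideal.span {(r : T) ^ k} • ⊤ : Submodule T A)),
        e • x = x) ∧
      (∀ a ∈ A, e • a ∈ Bk') ∧
      LevelDataDualCore (r := r) (𝔄.decompositionSubgroup ℚ) (𝔄.inertiaSubgroupIn ℚ) Bk'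
        (ratPoints hT) F π τ δ (ratTorsion p) B k := by
    intro k hk1
    obtain ⟨e, he, heA, hin⟩ := hlev k hk1
    have hfix : ∀ z ∈ BkA r 𝔄 hT A k, z ∈ J0 (p := p) 𝔄 ∧ ∀ σ : GQ, σ • z = z :=
      fun z hz => ⟨mem_J0_of_fixed 𝔄 (hle hz.1), hle hz.1⟩
    have heA' : ∀ a ∈ A, e • a ∈ BkA r 𝔄 hT A k := fun a ha =>
      (mem_BkA r 𝔄 hT A k).2 ⟨A.smul_mem e ha, heA a ha⟩
    obtain ⟨F, χ, τ, δ, hR, htau, hdelta, hLD⟩ :=
      levelDataDualCore_of_input 𝔄 hT (BkA r 𝔄 hT A k) hfix (fun z hz => hz.2) hin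
    exact ⟨F, χ, τ, δ, BkA r 𝔄 hT A k, e, hR, htau, hdelta, he, heA', hLD⟩
  exact exists_bound_dual_core_varP (D := 𝔄.decompositionSubgroup ℚ)
    (I := 𝔄.inertiaSubgroupIn ℚ) (ratPoints hT) A hle N hN hNA (ratTorsion p) B key

end Abstract

/-! ### 2. The marks at infinite order -/

/-- **the marks at `2`, for the rational points of infinite order**: `LevelDualInstM2.MarkStmt` with
the extra hypothesis that `z` has infinite order (spelled as in `KummerInstDualA26.KFlatInf`). -/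
def MarkStmtInf (p : ℕ) [NeZero p] : Prop :=
  ∀ k : ℕ, 1 ≤ k → ∃ M₀ : AddSubgroup ↥(Mk p 2 k),
    MarkedModel 2 ↥(Mk p 2 k) (fun (τ : GQp 2) (x : ↥(Mk p 2 k)) => localGaloisToGlobal 2 τ • x) M₀ ∧
    ∀ z : JZero p, (∀ σ : GQ, σ • z = z) → (∀ n : ℕ, n • z = 0 → n = 0) →
      ∀ y : JZero p, ((2 : ℕ) ^ k) • y = z →
        ∀ c : GQ → ↥(Mk p 2 k), (∀ σ, (c σ : JZero p) = σ • y - y) →
          MarkedModel 2 (↥(Mk p 2 k) × ZMod (2 ^ k))
            (fun (τ : GQp 2) => extActN 2 k c (localGaloisToGlobal 2 τ))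
            (M₀.prod (⊥ : AddSubgroup (ZMod (2 ^ k))))

/-- the marks for all rational points give the marks at infinite order. -/
theorem markStmtInf_of_markStmt (h : MarkStmt p) : MarkStmtInf p := by
  intro k hk
  obtain ⟨M₀, hM₀, hE⟩ := h k hk
  exact ⟨M₀, hM₀, fun z hz _ y hy c hc => hE z hz y hy c hc⟩

/-- the Kummer cocycle of a rational point is admissible for `FlatAdm68.admFamily` as soon as its
extension module is flat (K-UNR + the flat model). -/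
theorem kummer_mem_Zadm_of_flat {r : ℕ} [Fact r.Prime] {k : ℕ} (hU : KUnr p r) {z : JZero p}
    (hz : ∀ σ : GQ, σ • z = z) {y : JZero p} (hy : (r ^ k) • y = z) {c : GQ → ↥(Mk p r k)}
    (hc : ∀ σ, (c σ : JZero p) = σ • y - y)
    (hflat : FlatModel r (↥(Mk p r k) × ZMod (r ^ k)) (extActN r k c)) :
    c ∈ Zadm r k p ↥(Mk p r k) := by
  refine mem_Zadm_of_flat (fun σ τ => Subtype.ext ?_) (fun q hq hqr hqp B hB σ hσ =>
    Subtype.ext ?_) hflat
  · change (c (σ * τ) : JZero p) = (c σ : JZero p) + σ • (c τ : JZero p)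
    rw [hc, hc, hc, mul_smul, smul_sub]
    abel
  · change (c σ : JZero p) = 0
    rw [hc, hU q hq hqr hqp B hB σ hσ k y (fun τ => by rw [hy]; exact hz τ), sub_self]

/-- **the good marked module `J₀(p)[2^k]` and K-FLAT WITH MARKS on a torsion-free set of rational
points**, from S19 at `2`, K-UNR, K-FLAT at infinite order and the marks at infinite order; the
point `0` gives a coboundary. -/
theorem exists_mark_inf (hS19 : S19At p 2) (hU : KUnr p 2) (hF : KFlatInf p 2)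
    (hM : MarkStmtInf p) {k : ℕ} (hk : 1 ≤ k) (A : Set (JZero p))
    (hA : ∀ z ∈ A, ∀ σ : GQ, σ • z = z)
    (htf : ∀ z ∈ A, ∀ n : ℕ, n ≠ 0 → n • z = 0 → z = 0) :
    ∃ M₀ : AddSubgroup ↥(Mk p 2 k), OkModM 2 k p ↥(Mk p 2 k) M₀ ∧
      KFlatM (markedFamily 2 k p) M₀ A := by
  obtain ⟨M₀, hM₀, hE⟩ := hM k hk
  have hOk : OkModM 2 k p ↥(Mk p 2 k) M₀ := ⟨okMod_Mk hS19 hU, hM₀⟩
  refine ⟨M₀, hOk, fun z hz y hy c hc => ?_⟩
  by_cases hz0 : z = 0
  · subst hz0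
    let m : ↥(Mk p 2 k) := ⟨y, (mem_Mk_iff 2 k).2 hy⟩
    have hcm : c = (dd m : GQ → ↥(Mk p 2 k)) := funext fun σ => Subtype.ext (hc σ)
    rw [hcm]
    exact dd_memM hOk m
  · have hinf : ∀ n : ℕ, n • z = 0 → n = 0 := fun n hn => by
      by_contra hn0
      exact hz0 (htf z hz n hn0 hn)
    exact mem_ZadmM_of
      (kummer_mem_Zadm_of_flat hU (hA z hz) hy hc (hF k z (hA z hz) hinf y hy c hc))
      (hE z (hA z hz) hinf y hy c hc)

/-! ### 3. The descent bound at `r = 2`, torsion-free form -/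

variable (𝔄 : ValuationSubring Qb)

/-- **THE DESCENT BOUND AT `r = 2`, K-FLAT AND MARKS AT INFINITE ORDER**: `LevelDualInstM2.eisBound_two`
with `A` torsion-free, `KFlat` replaced by `KFlatInf` and `MarkStmt` by `MarkStmtInf`. -/
theorem eisBound_two_tf (hT : HeckeModel p T) (hMW : MW p) (hp : p.Prime) (hp2 : p ≠ 2)
    (h𝔄 : 𝔄.LiesOverPrime p) (π : T →+* ZMod 2)
    (hev : ∀ ℓ : Nat.Primes, (ℓ : ℕ) ≠ p →
      ∃ t : T, (∀ x : JZero p, t • x = heckeOperatorBar p ℓ x) ∧ π t = ((ℓ : ℕ) : ZMod 2) + 1)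
    (hS19 : S19At p 2) (hKF : KFlatInf p 2) (hMark : MarkStmtInf p) (hC2 : C2Stmt p {p, 2})
    (A : Submodule T (JZero p)) (hA : FiniteIndexIn A (ratPoints hT))
    (htf : ∀ z ∈ A, ∀ n : ℕ, n ≠ 0 → n • z = 0 → z = 0)
    (hP : ∀ k : ℕ, ∃ e : T,
      (∀ x ∈ primarySet (RingHom.ker π)
        (↥A ⧸ (Ideal.span {((2 : ℕ) : T) ^ k} • ⊤ : Submodule T ↥A)), e • x = x) ∧
      ∀ z ∈ A, ∃ y : JZero p, (∀ σ ∈ 𝔄.inertiaSubgroupIn ℚ, σ • y = y) ∧ (2 : ℕ) ^ k • y = e • z) :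
    ∃ B' : ℕ, EisBound A (RingHom.ker π) 2 B' := by
  obtain ⟨B, hB⟩ := homMu_bound (r := 2) hp hC2
  have hU : KUnr p 2 := kUnr hp
  refine eisBound_of_levels_dualMPA 𝔄 hT hMW hA B fun k hk => ?_
  obtain ⟨e, he, hez⟩ := hP k
  obtain ⟨M₀, hOk, hKFM⟩ := exists_mark_inf hS19 hU hKF hMark hk
    ((BkA 2 𝔄 hT A k : Submodule T (JZero p)) : Set (JZero p))
    (fun z hz => hA.1 hz.1) (fun z hz => htf z hz.1)
  refine ⟨e, he, fun z hz => ?_,
    levelInputDualM_two 𝔄 hT hp hp2 h𝔄 π hev hB hk (BkA 2 𝔄 hT A k) hOk hKFM⟩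
  obtain ⟨y, hy, hyz⟩ := hez z hz
  exact ⟨y, (mem_J0 𝔄).2 hy, hyz⟩

/-- the same in the shape of the exit `S15Top62.DescentBound` (at `r = 2`); `hPF` is the conclusion
of `PFinTF26.pfinP_of_toric_tf` at `r = 2`. -/
theorem descentBound_two_tf (hT : HeckeModel p T) (hMW : MW p) (hp : p.Prime) (hp2 : p ≠ 2)
    (h𝔄 : 𝔄.LiesOverPrime p) (π : T →+* ZMod 2)
    (hev : ∀ ℓ : Nat.Primes, (ℓ : ℕ) ≠ p →
      ∃ t : T, (∀ x : JZero p, t • x = heckeOperatorBar p ℓ x) ∧ π t = ((ℓ : ℕ) : ZMod 2) + 1)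
    (hS19 : S19At p 2) (hKF : KFlatInf p 2) (hMark : MarkStmtInf p) (hC2 : C2Stmt p {p, 2})
    (hPF : ∃ A : Submodule T (JZero p), FiniteIndexIn A (ratPoints hT) ∧
      (∀ z ∈ A, ∀ n : ℕ, n ≠ 0 → n • z = 0 → z = 0) ∧ ∀ k : ℕ, ∃ e : T,
      (∀ x ∈ primarySet (RingHom.ker π)
        (↥A ⧸ (Ideal.span {((2 : ℕ) : T) ^ k} • ⊤ : Submodule T ↥A)), e • x = x) ∧
      ∀ z ∈ A, ∃ y : JZero p, (∀ σ ∈ 𝔄.inertiaSubgroupIn ℚ, σ • y = y) ∧ (2 : ℕ) ^ k • y = e • z) :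
    ∃ (A : Submodule T (JZero p)) (B' : ℕ), FiniteIndexIn A (ratPoints hT) ∧
      EisBound A (RingHom.ker π) 2 B' := by
  obtain ⟨A, hA, htf, hP⟩ := hPF
  obtain ⟨B', hB'⟩ :=
    eisBound_two_tf 𝔄 hT hMW hp hp2 h𝔄 π hev hS19 hKF hMark hC2 A hA htf hP
  exact ⟨A, B', hA, hB'⟩

/-- the same for a prime `r` with a proof of `r = 2` (the form met when `r` is a variable, as in
`S15Top62.DescentBound`); `hPF` is the conclusion of `PFinTF26.pfinP_of_toric_tf`, literally. -/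
theorem descentBound_of_eq_two_tf {r : ℕ} [Fact r.Prime] (hr : r = 2) (hT : HeckeModel p T)
    (hMW : MW p) (hp : p.Prime) (hpr : p ≠ r) (h𝔄 : 𝔄.LiesOverPrime p) (π : T →+* ZMod r)
    (hev : ∀ ℓ : Nat.Primes, (ℓ : ℕ) ≠ p →
      ∃ t : T, (∀ x : JZero p, t • x = heckeOperatorBar p ℓ x) ∧ π t = ((ℓ : ℕ) : ZMod r) + 1)
    (hS19 : S19At p r) (hKF : KFlatInf p r) (hMark : MarkStmtInf p) (hC2 : C2Stmt p {p, r})
    (hPF : ∃ A : Submodule T (JZero p), FiniteIndexIn A (ratPoints hT) ∧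
      (∀ z ∈ A, ∀ n : ℕ, n ≠ 0 → n • z = 0 → z = 0) ∧ ∀ k : ℕ, ∃ e : T,
      (∀ x ∈ primarySet (RingHom.ker π)
        (↥A ⧸ (Ideal.span {(r : T) ^ k} • ⊤ : Submodule T ↥A)), e • x = x) ∧
      ∀ z ∈ A, ∃ y : JZero p, (∀ σ ∈ 𝔄.inertiaSubgroupIn ℚ, σ • y = y) ∧ r ^ k • y = e • z) :
    ∃ (A : Submodule T (JZero p)) (B' : ℕ), FiniteIndexIn A (ratPoints hT) ∧
      EisBound A (RingHom.ker π) r B' := by
  subst hr
  exact descentBound_two_tf 𝔄 hT hMW hp hpr h𝔄 π hev hS19 hKF hMark hC2 hPF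

end Fermat.Agent.MAZ.Desc.LevelDualInstMA2
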