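/-
MAZ (S15) G-side, brick (HOM-μ)/(B) EIS-INDEX (helper11): **the Eisenstein ideal of the anemic Hecke
algebra of weight 2 and level `N` contains a positive integer.**

`𝕋 = CuspForm.heckeAlgebra N 2 S` (`S ⊇` primes of `N`), `η_ℓ = T_ℓ - (1 + ℓ)`,
`eisIdeal = (η_ℓ : ℓ ∉ S)`.  `exists_nat_mem_eisIdeal : ∃ n > 0, (n : 𝕋) ∈ eisIdeal`.

Proof: `𝕋 = ℤ + eisIdeal`.  If `ℤ ∩ eisIdeal = 0`: `𝕋` is finite over `ℤ` (S22), so the ideal is
generated by finitely many `η_i`, each integral: `η_i ^ a_i * Q_i(η_i) = 0` with `Q_i(0) ≠ 0`;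
`s = ∏ Q_i(η_i) ≡ ∏ Q_i(0) ≠ 0` modulo the ideal, so `s ≠ 0`; `𝕋` acts faithfully on `S₂(Γ₀(N))`
(by definition), so `s v ≠ 0` for some cusp form `v`; the commuting nilpotents `η_i` on `𝕋 (s v)` have
a common kernel vector `w ≠ 0`: a cusp form with `T_ℓ w = (1 + ℓ) w` for all `ℓ ∉ S`,
contradicting `NoEisForm11.eq_zero_of_eisenstein_eigen` (hypothesis `hA` in the general form).
-/
import Mathlib
import Fermat.Agent.S22
import Fermat.Agent.MAZ.Desc.NoEisForm11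

set_option autoImplicit false
set_option linter.unusedSectionVars false
set_option linter.style.haveILetI false

namespace Fermat.Agent.MAZ.Desc.NoEisAlg11

open CuspForm CongruenceSubgroup Polynomial

/-! ### Abstract: commuting nilpotents have a common kernel vector -/

theorem map_mul_apply' {R : Type*} [Semiring R] {V : Type*} [AddCommMonoid V]
    (φ : R →+* AddMonoid.End V) (a b : R) (w : V) : φ (a * b) w = φ a (φ b w) := by
  rw [map_mul]; rfl

theorem exists_common_kernel {R : Type*} [CommRing R] {V : Type*} [AddCommGroup V]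
    (φ : R →+* AddMonoid.End V) (F : Finset R) (a : R → ℕ) (w₀ : V) (hw₀ : w₀ ≠ 0)
    (h : ∀ η ∈ F, φ (η ^ a η) w₀ = 0) :
    ∃ t : R, φ t w₀ ≠ 0 ∧ ∀ η ∈ F, φ (η * t) w₀ = 0 := by
  classical
  induction F using Finset.induction_on with
  | empty => exact ⟨1, by simpa using hw₀, by simp⟩
  | insert η F hη ih =>
    obtain ⟨t, ht, hF⟩ := ih fun η' hη' => h η' (Finset.mem_insert_of_mem hη')
    have hnil : ∃ b : ℕ, φ (η ^ b * t) w₀ = 0 := by
      refine ⟨a η, ?_⟩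
      rw [mul_comm, map_mul_apply', h η (Finset.mem_insert_self η F), map_zero]
    set b := Nat.find hnil with hb
    have hb0 : b ≠ 0 := by
      intro h0
      have := Nat.find_spec hnil
      rw [← hb, h0, pow_zero, one_mul] at this
      exact ht this
    obtain ⟨b', hb'⟩ := Nat.exists_eq_succ_of_ne_zero hb0
    have hmin : φ (η ^ b' * t) w₀ ≠ 0 := by
      have := Nat.find_min hnil (m := b') (by omega)
      exact this
    refine ⟨η ^ b' * t, hmin, fun η' hη' => ?_⟩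
    rcases Finset.mem_insert.mp hη' with rfl | hη'F
    · have := Nat.find_spec hnil
      rw [← hb, hb', pow_succ] at this
      rw [← mul_assoc, mul_comm η' (η' ^ b')]
      exact this
    · have h1 : η' * (η ^ b' * t) = η ^ b' * (η' * t) := by ring
      rw [h1, map_mul_apply', hF η' hη'F, map_zero]

/-! ### The Eisenstein ideal -/

variable {N : ℕ} [NeZero N] (S : Set ℕ)

/-- `𝕋`. -/
abbrev TT (N : ℕ) [NeZero N] (S : Set ℕ) : Type := ↥(heckeAlgebra N 2 S)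

/-- `η_ℓ = T_ℓ - (1 + ℓ)`. -/
noncomputable def eta {ℓ : ℕ} (hℓ : ℓ.Prime) (hℓN : ¬ ℓ ∣ N) (hℓS : ℓ ∉ S) : TT N S :=
  heckeAlgebra.T hℓ hℓN hℓS - ((1 + ℓ : ℕ) : TT N S)

/-- the generators of the Eisenstein ideal. -/
def eisGens : Set (TT N S) :=
  {x | ∃ (ℓ : ℕ) (hℓ : ℓ.Prime) (hℓN : ¬ ℓ ∣ N) (hℓS : ℓ ∉ S),
    x = heckeAlgebra.T hℓ hℓN hℓS - ((1 + ℓ : ℕ) : heckeAlgebra N 2 S)}

/-- **the Eisenstein ideal** `(T_ℓ - 1 - ℓ : ℓ ∉ S)`. -/
noncomputable def eisIdeal : Ideal (TT N S) := Ideal.span (eisGens S)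

theorem eta_mem_eisIdeal {ℓ : ℕ} (hℓ : ℓ.Prime) (hℓN : ¬ ℓ ∣ N) (hℓS : ℓ ∉ S) :
    eta S hℓ hℓN hℓS ∈ eisIdeal S :=
  Ideal.subset_span ⟨ℓ, hℓ, hℓN, hℓS, rfl⟩

/-- the action of `𝕋` on cusp forms, as a ring homomorphism to additive endomorphisms. -/
noncomputable def act : TT N S →+* AddMonoid.End (CuspForm (Gamma0 N) 2) where
  toFun t := ((t : Module.End ℂ (CuspForm (Gamma0 N) 2)) : CuspForm (Gamma0 N) 2 →ₗ[ℂ] _).toAddMonoidHom
  map_one' := by ext; rfl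
  map_mul' a b := by ext; rfl
  map_zero' := by ext; rfl
  map_add' a b := by ext; rfl

theorem act_apply (t : TT N S) (g : CuspForm (Gamma0 N) 2) :
    act S t g = (t : Module.End ℂ (CuspForm (Gamma0 N) 2)) g := rfl

theorem act_injective : Function.Injective (act (N := N) S) := by
  intro a b hab
  apply Subtype.ext
  ext g
  have := congrArg (fun f : AddMonoid.End (CuspForm (Gamma0 N) 2) => f g) hab
  exact congrArg (fun h : CuspForm (Gamma0 N) 2 => (h : UpperHalfPlane → ℂ) _) this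

theorem act_natCast (n : ℕ) (g : CuspForm (Gamma0 N) 2) : act S (n : TT N S) g = (n : ℂ) • g := by
  rw [act_apply]
  have : ((n : TT N S) : Module.End ℂ (CuspForm (Gamma0 N) 2)) = (n : Module.End ℂ _) := by
    norm_cast
  rw [this]
  simp [Nat.cast_smul_eq_nsmul]

theorem act_eta {ℓ : ℕ} (hℓ : ℓ.Prime) (hℓN : ¬ ℓ ∣ N) (hℓS : ℓ ∉ S)
    (g : CuspForm (Gamma0 N) 2) :
    act S (eta S hℓ hℓN hℓS) g = heckeTLin 2 hℓ hℓN g - ((1 + ℓ : ℕ) : ℂ) • g := by
  have h1 : act S (eta S hℓ hℓN hℓS) g =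
      act S (heckeAlgebra.T hℓ hℓN hℓS) g - act S ((1 + ℓ : ℕ) : TT N S) g := by
    unfold eta
    rw [map_sub]
    rfl
  rw [h1, act_natCast]
  rfl

/-- every element of `𝕋` is an integer modulo the Eisenstein ideal. -/
theorem exists_int_sub_mem (hNS : ∀ q : ℕ, q.Prime → q ∣ N → q ∈ S) (t : TT N S) :
    ∃ z : ℤ, t - (z : TT N S) ∈ eisIdeal S := by
  obtain ⟨x, hx⟩ := t
  induction hx using Algebra.adjoin_induction with
  | mem x hx =>
    rcases hx with ⟨ℓ, hℓ, hℓN, hℓS, rfl⟩ | ⟨q, hqN, hq, hqS, rfl⟩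
    · refine ⟨((1 + ℓ : ℕ) : ℤ), ?_⟩
      have : (⟨heckeTLin 2 hℓ hℓN, Algebra.subset_adjoin
          (Or.inl ⟨ℓ, hℓ, hℓN, hℓS, rfl⟩)⟩ : TT N S) - (((1 + ℓ : ℕ) : ℤ) : TT N S) =
          eta S hℓ hℓN hℓS := by
        unfold eta
        push_cast
        rfl
      rw [this]
      exact eta_mem_eisIdeal S hℓ hℓN hℓS
    · exact absurd (hNS q hq hqN) hqS
  | algebraMap r =>
    refine ⟨r, ?_⟩
    have : (⟨algebraMap ℤ _ r, Subalgebra.algebraMap_mem _ r⟩ : TT N S) = (r : TT N S) := by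
      apply Subtype.ext
      simp
    rw [this, sub_self]
    exact Ideal.zero_mem _
  | add x y hx hy ihx ihy =>
    obtain ⟨a, ha⟩ := ihx
    obtain ⟨b, hb⟩ := ihy
    refine ⟨a + b, ?_⟩
    have : (⟨x + y, Subalgebra.add_mem _ hx hy⟩ : TT N S) - ((a + b : ℤ) : TT N S) =
        ((⟨x, hx⟩ : TT N S) - (a : TT N S)) + ((⟨y, hy⟩ : TT N S) - (b : TT N S)) := by
      push_cast
      rw [show (⟨x + y, Subalgebra.add_mem _ hx hy⟩ : TT N S) = ⟨x, hx⟩ + ⟨y, hy⟩ from rfl]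
      ring
    rw [this]
    exact Ideal.add_mem _ ha hb
  | mul x y hx hy ihx ihy =>
    obtain ⟨a, ha⟩ := ihx
    obtain ⟨b, hb⟩ := ihy
    refine ⟨a * b, ?_⟩
    have : (⟨x * y, Subalgebra.mul_mem _ hx hy⟩ : TT N S) - ((a * b : ℤ) : TT N S) =
        (⟨x, hx⟩ : TT N S) * ((⟨y, hy⟩ : TT N S) - (b : TT N S)) +
          (b : TT N S) * ((⟨x, hx⟩ : TT N S) - (a : TT N S)) := by
      push_cast
      rw [show (⟨x * y, Subalgebra.mul_mem _ hx hy⟩ : TT N S) = ⟨x, hx⟩ * ⟨y, hy⟩ from rfl]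
      ring
    rw [this]
    exact Ideal.add_mem _ (Ideal.mul_mem_left _ _ hb) (Ideal.mul_mem_left _ _ ha)

/-! ### Integrality data -/

theorem exists_pow_mul_aeval (η : TT N S) :
    ∃ (a : ℕ) (Q : ℤ[X]), Q.coeff 0 ≠ 0 ∧ η ^ a * aeval η Q = 0 := by
  haveI : Module.Finite ℤ (TT N S) := Fermat.Agent.S22.result N 2 S
  obtain ⟨P, hPmonic, hP⟩ := Algebra.IsIntegral.isIntegral (R := ℤ) η
  obtain ⟨Q, hPQ, hQ⟩ := P.exists_eq_pow_rootMultiplicity_mul_and_not_dvd hPmonic.ne_zero 0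
  refine ⟨P.rootMultiplicity 0, Q, ?_, ?_⟩
  · intro h0
    apply hQ
    rw [C_0, sub_zero]
    exact X_dvd_iff.mpr h0
  · have h1 : aeval η P = 0 := hP
    rw [hPQ, map_mul, map_pow, C_0, sub_zero, aeval_X] at h1
    exact h1

theorem aeval_sub_coeff_zero_mem (I : Ideal (TT N S)) (η : TT N S) (hη : η ∈ I) (Q : ℤ[X]) :
    aeval η Q - ((Q.coeff 0 : ℤ) : TT N S) ∈ I := by
  have h1 : aeval η Q = η * aeval η Q.divX + ((Q.coeff 0 : ℤ) : TT N S) := by
    conv_lhs => rw [← X_mul_divX_add Q]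
    simp
  rw [h1, add_sub_cancel_right]
  exact Ideal.mul_mem_right _ _ hη

/-! ### Main theorem -/

/-- **(B) EIS-INDEX**, with the generators spelled out in `eisIdeal`.  (No hypothesis on `S` is
needed: `U_q`-operators may be present in `𝕋`.) -/
theorem exists_nat_mem_eisIdeal'
    (hA : ∀ f : CuspForm (Gamma0 N) 2,
      (∀ (ℓ : ℕ) (hℓ : ℓ.Prime) (hℓN : ¬ ℓ ∣ N), ℓ ∉ S →
        heckeTLin 2 hℓ hℓN f = ((1 : ℂ) + ℓ) • f) → f = 0) :
    ∃ n : ℕ, 0 < n ∧ (n : TT N S) ∈ eisIdeal S := by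
  classical
  by_contra hcon
  push Not at hcon
  haveI : Module.Finite ℤ (TT N S) := Fermat.Agent.S22.result N 2 S
  haveI : IsNoetherianRing (TT N S) := IsNoetherianRing.of_finite ℤ _
  have hfg : (eisIdeal (N := N) S).FG := (isNoetherianRing_iff_ideal_fg _).mp inferInstance _
  obtain ⟨s', hs'sub, hs'span⟩ :=
    (Submodule.fg_span_iff_fg_span_finset_subset (R := TT N S) (eisGens S)).mp hfg
  have hs'I : ∀ η ∈ s', η ∈ eisIdeal S := fun η hη =>
    Ideal.subset_span (hs'sub (Finset.mem_coe.mpr hη))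
  choose a Q hQ0 hQ using exists_pow_mul_aeval (N := N) S
  set s : TT N S := ∏ η ∈ s', aeval η (Q η) with hs
  set c : ℤ := ∏ η ∈ s', (Q η).coeff 0 with hc
  have hc0 : c ≠ 0 := Finset.prod_ne_zero_iff.mpr fun η _ => hQ0 η
  have hsc : s - (c : TT N S) ∈ eisIdeal S := by
    rw [← Ideal.Quotient.eq, hs, hc, map_prod, Int.cast_prod, map_prod]
    refine Finset.prod_congr rfl fun η hη => ?_
    rw [Ideal.Quotient.eq]
    exact aeval_sub_coeff_zero_mem S _ η (hs'I η hη) (Q η)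
  have hs0 : s ≠ 0 := by
    intro h0
    rw [h0, zero_sub, neg_mem_iff] at hsc
    obtain ⟨n, hn | hn⟩ := Int.eq_nat_or_neg c
    · have hn0 : 0 < n := Nat.pos_of_ne_zero (by rintro rfl; exact hc0 (by simpa using hn))
      refine hcon n hn0 ?_
      have : ((n : ℕ) : TT N S) = (c : TT N S) := by rw [hn]; push_cast; rfl
      rw [this]; exact hsc
    · have hn0 : 0 < n := Nat.pos_of_ne_zero (by rintro rfl; exact hc0 (by simpa using hn))
      refine hcon n hn0 ?_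
      have : ((n : ℕ) : TT N S) = -(c : TT N S) := by rw [hn]; push_cast; ring
      rw [this]; exact neg_mem hsc
  -- a cusp form not killed by `s`
  have hacts : act S s ≠ 0 := fun h => hs0 (act_injective S (h.trans (map_zero _).symm))
  obtain ⟨v, hv⟩ : ∃ v, act S s v ≠ 0 := by
    by_contra hall
    push Not at hall
    exact hacts (AddMonoidHom.ext fun v => hall v)
  -- nilpotency on `w₀ = s v`
  have hnil : ∀ η ∈ s', act S (η ^ a η) (act S s v) = 0 := by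
    intro η hη
    rw [← map_mul_apply']
    have : η ^ a η * s = 0 := by
      rw [hs, ← Finset.mul_prod_erase s' _ hη, ← mul_assoc, hQ η, zero_mul]
    rw [this, map_zero]
    rfl
  obtain ⟨t, ht, htk⟩ := exists_common_kernel (act S) s' a (act S s v) hv hnil
  -- the whole ideal kills `w = t s v`
  have hkill : ∀ x ∈ Submodule.span (TT N S) (↑s' : Set (TT N S)),
      act S (x * t) (act S s v) = 0 := by
    intro x hx
    induction hx using Submodule.span_induction with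
    | mem y hy => exact htk y (Finset.mem_coe.mp hy)
    | zero => rw [zero_mul, map_zero]; rfl
    | add y z _ _ hy hz =>
      rw [add_mul, map_add]
      show act S (y * t) (act S s v) + act S (z * t) (act S s v) = 0
      rw [hy, hz, add_zero]
    | smul r y _ hy =>
      rw [smul_eq_mul, mul_assoc, map_mul_apply', hy, map_zero]
  refine ht (hA _ fun ℓ hℓ hℓN hℓS => ?_)
  have hmem : eta S hℓ hℓN hℓS ∈ Submodule.span (TT N S) (↑s' : Set (TT N S)) := by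
    rw [← hs'span]; exact eta_mem_eisIdeal S hℓ hℓN hℓS
  have h1 := hkill _ hmem
  rw [map_mul_apply', act_eta, sub_eq_zero] at h1
  rw [h1]
  push_cast
  rfl

/-- **(B) EIS-INDEX, literal of G-table #2127.** -/
theorem exists_nat_mem_eisIdeal (N : ℕ) [NeZero N] (S : Set ℕ) (_hSfin : S.Finite)
    (_hS : ∀ q : ℕ, q.Prime → q ∣ N → q ∈ S)
    (hA : ∀ f : CuspForm (Gamma0 N) 2,
      (∀ (ℓ : ℕ) (hℓ : ℓ.Prime) (hℓN : ¬ ℓ ∣ N), ℓ ∉ S →
        heckeTLin 2 hℓ hℓN f = ((1 : ℂ) + ℓ) • f) → f = 0) :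
    ∃ n' : ℕ, 0 < n' ∧ (n' : heckeAlgebra N 2 S) ∈
      Ideal.span {x | ∃ (ℓ : ℕ) (hℓ : ℓ.Prime) (hℓN : ¬ ℓ ∣ N) (hℓS : ℓ ∉ S),
        x = heckeAlgebra.T hℓ hℓN hℓS - ((1 + ℓ : ℕ) : heckeAlgebra N 2 S)} :=
  exists_nat_mem_eisIdeal' S hA

/-- **(A)+(B) composed**: unconditional, for a finite set `S ⊇` primes of `N`. -/
theorem exists_nat_mem_eisIdeal_finset (N : ℕ) [NeZero N] (S : Finset ℕ)
    (hS : ∀ q : ℕ, q.Prime → q ∣ N → q ∈ S) :
    ∃ n' : ℕ, 0 < n' ∧ (n' : heckeAlgebra N 2 (↑S : Set ℕ)) ∈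
      Ideal.span {x | ∃ (ℓ : ℕ) (hℓ : ℓ.Prime) (hℓN : ¬ ℓ ∣ N) (hℓS : ℓ ∉ (↑S : Set ℕ)),
        x = heckeAlgebra.T hℓ hℓN hℓS - ((1 + ℓ : ℕ) : heckeAlgebra N 2 (↑S : Set ℕ))} := by
  refine exists_nat_mem_eisIdeal N (↑S : Set ℕ) S.finite_toSet (fun q hq hqN => by
    exact_mod_cast hS q hq hqN) fun f hf => ?_
  refine NoEisForm11.eq_zero_of_eisenstein_eigen S f fun ℓ hℓ hℓN hℓS => ?_
  rw [hf ℓ hℓ hℓN (by exact_mod_cast hℓS)]
  push_cast
  rfl

end Fermat.Agent.MAZ.Desc.NoEisAlg11
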