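/-
MAZ (S15) G-side, brick NO-EIS (iii) (helper11): **no cusp form of weight 2 on `Γ₀(N)` has the
Eisenstein eigenvalues `1 + ℓ` at almost all primes.**

`eq_zero_of_eisenstein_eigen` : if `g ∈ S₂(Γ₀(N))` satisfies `T_ℓ g = (1 + ℓ) g` for all primes
`ℓ ∤ N` outside a finite set `S`, then `g = 0`.

Proof: if `a_m(g) ≠ 0`, the Hecke recursion (`ModularFormClass.qCoeff_heckeT`, Prelude) gives
`a_{m ℓ₁ ⋯ ℓ_s} = a_m ∏ (1 + ℓ_i)` for distinct primes `ℓ_i ∉ S`, `ℓ_i ∤ m N`; Hecke's bound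
`a_n = O(n)` (`CuspFormClass.qExpansion_isBigO`, Mathlib) bounds `∏ (1 + 1/ℓ_i) ≥ ∑ 1/ℓ_i`, so
`∑ 1/ℓ` over all primes would converge (`Nat.Primes.not_summable_one_div`).
-/
import Mathlib
import Fermat.Prelude.Def_CuspForm_HeckeAlgebra
import Fermat.Prelude.Thm_ModularFormClass_qCoeff_heckeT
import Fermat.Prelude.Thm_CongruenceSubgroup_one_mem_strictPeriods_Gamma0

set_option autoImplicit false
set_option linter.unusedSectionVars false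
set_option linter.style.haveILetI false

namespace Fermat.Agent.MAZ.Desc.NoEisForm11

open CuspForm CongruenceSubgroup ModularFormClass

variable {N : ℕ}

/-! ### `q`-coefficients -/

theorem qCoeff_smul (c : ℂ) (f : CuspForm (Gamma0 N) 2) (n : ℕ) :
    qCoeff (⇑(c • f)) n = c * qCoeff f n := by
  unfold ModularFormClass.qCoeff
  rw [FunLike.coe_smul, ModularForm.qExpansion_smul one_pos (one_mem_strictPeriods_Gamma0 N) c f]
  simp

theorem qCoeff_cusp_zero (f : CuspForm (Gamma0 N) 2) : qCoeff f 0 = 0 :=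
  CuspFormClass.qExpansion_coeff_zero f one_pos (one_mem_strictPeriods_Gamma0 N)

theorem eq_zero_of_qCoeff (f : CuspForm (Gamma0 N) 2) (h : ∀ n, qCoeff f n = 0) : f = 0 := by
  have hper := SlashInvariantFormClass.periodic_comp_ofComplex f (one_mem_strictPeriods_Gamma0 N)
  have hq0 : UpperHalfPlane.qExpansion 1 f = 0 := by
    ext n
    simpa [ModularFormClass.qCoeff] using h n
  have hz : (f : UpperHalfPlane → ℂ) = 0 := by
    have : Fact (IsCusp OnePoint.infty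
        (Subgroup.map (Matrix.SpecialLinearGroup.mapGL ℝ) (Gamma0 N))) :=
      ⟨Subgroup.isCusp_of_mem_strictPeriods one_pos (one_mem_strictPeriods_Gamma0 N)⟩
    exact (UpperHalfPlane.qExpansion_eq_zero_iff one_pos hper (ModularFormClass.holo f)
      (ModularFormClass.bdd_at_infty f)).mp hq0
  exact DFunLike.coe_injective hz

/-- **the Hecke recursion at a prime not dividing the index.** -/
theorem qCoeff_mul_prime (g : CuspForm (Gamma0 N) 2) {ℓ : ℕ} (hℓ : ℓ.Prime) (hℓN : ¬ ℓ ∣ N)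
    (c : ℂ) (h : heckeTLin 2 hℓ hℓN g = c • g) {m : ℕ} (hm : ¬ ℓ ∣ m) :
    qCoeff g (m * ℓ) = c * qCoeff g m := by
  have h1 : qCoeff (ModularForm.heckeT 2 ℓ ⇑g) m =
      ModularForm.coeffHeckeT 2 ℓ (qCoeff g) m :=
    ModularFormClass.qCoeff_heckeT g (one_mem_strictPeriods_Gamma0 N) hℓ.ne_zero m
  have h2 : (ModularForm.heckeT 2 ℓ ⇑g : UpperHalfPlane → ℂ) = ⇑(heckeTLin 2 hℓ hℓN g) := rfl
  rw [h2, h, qCoeff_smul, ModularForm.coeffHeckeT_apply, if_neg hm, add_zero] at h1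
  exact h1.symm

/-- **Hecke's bound** for weight two, in the Prelude's `qCoeff`. -/
theorem exists_bound [NeZero N] (g : CuspForm (Gamma0 N) 2) :
    ∃ C : ℝ, ∀ n : ℕ, ‖qCoeff g n‖ ≤ C * n := by
  have h := CuspFormClass.qExpansion_isBigO (Γ := (Gamma0 N : Subgroup (GL (Fin 2) ℝ))) (k := 2) g
  rw [CongruenceSubgroup.strictWidthInfty_Gamma0] at h
  have h' : (fun n : ℕ => qCoeff g n) =O[Filter.atTop] fun n : ℕ => (n : ℝ) := by
    refine h.congr_right fun n => ?_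
    norm_num
  obtain ⟨C, hC⟩ := (Asymptotics.isBigO_nat_atTop_iff (f := fun n : ℕ => qCoeff g n)
    (g := fun n : ℕ => (n : ℝ)) (fun n hn => by
      have : n = 0 := by exact_mod_cast hn
      subst this
      exact qCoeff_cusp_zero g)).mp h'
  refine ⟨C, fun n => ?_⟩
  have := hC n
  rwa [Real.norm_of_nonneg (Nat.cast_nonneg n)] at this

/-! ### The product formula -/

/-- `a_{m ∏ F} = a_m ∏_{ℓ ∈ F} (1 + ℓ)` for a finite set `F` of good primes not dividing `m`. -/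
theorem qCoeff_mul_prod (g : CuspForm (Gamma0 N) 2) (S : Finset ℕ)
    (h : ∀ (ℓ : ℕ) (hℓ : ℓ.Prime) (hℓN : ¬ ℓ ∣ N), ℓ ∉ S →
      heckeTLin 2 hℓ hℓN g = ((1 + ℓ : ℕ) : ℂ) • g) {m : ℕ} (_hm : m ≠ 0) (F : Finset ℕ)
    (hF : ∀ ℓ ∈ F, ℓ.Prime ∧ ¬ ℓ ∣ N ∧ ℓ ∉ S ∧ ¬ ℓ ∣ m) :
    qCoeff g (m * ∏ ℓ ∈ F, ℓ) = qCoeff g m * ∏ ℓ ∈ F, ((1 + ℓ : ℕ) : ℂ) := by
  classical
  induction F using Finset.induction_on with
  | empty => simp
  | insert ℓ F hℓF ih =>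
    have hF' : ∀ ℓ' ∈ F, ℓ'.Prime ∧ ¬ ℓ' ∣ N ∧ ℓ' ∉ S ∧ ¬ ℓ' ∣ m := fun ℓ' hℓ' =>
      hF ℓ' (Finset.mem_insert_of_mem hℓ')
    obtain ⟨hℓ, hℓN, hℓS, hℓm⟩ := hF ℓ (Finset.mem_insert_self ℓ F)
    have hnd : ¬ ℓ ∣ m * ∏ ℓ' ∈ F, ℓ' := by
      intro hd
      rcases (Nat.Prime.dvd_mul hℓ).mp hd with h1 | h1
      · exact hℓm h1
      · obtain ⟨ℓ', hℓ', hdvd⟩ := (Prime.dvd_finsetProd_iff hℓ.prime _).mp h1
        have := (Nat.prime_dvd_prime_iff_eq hℓ (hF' ℓ' hℓ').1).mp hdvd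
        exact hℓF (this ▸ hℓ')
    rw [Finset.prod_insert hℓF, Finset.prod_insert hℓF, mul_comm ℓ (∏ ℓ' ∈ F, ℓ'), ← mul_assoc,
      qCoeff_mul_prime g hℓ hℓN _ (h ℓ hℓ hℓN hℓS) hnd, ih hF']
    ring

theorem one_add_sum_le_prod {ι : Type*} (F : Finset ι) (x : ι → ℝ) (hx : ∀ i ∈ F, 0 ≤ x i) :
    1 + ∑ i ∈ F, x i ≤ ∏ i ∈ F, (1 + x i) := by
  classical
  induction F using Finset.induction_on with
  | empty => simp
  | insert i F hi ih =>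
    have hx' : ∀ j ∈ F, 0 ≤ x j := fun j hj => hx j (Finset.mem_insert_of_mem hj)
    have hxi := hx i (Finset.mem_insert_self i F)
    have hsum : 0 ≤ ∑ j ∈ F, x j := Finset.sum_nonneg hx'
    rw [Finset.sum_insert hi, Finset.prod_insert hi]
    have := ih hx'
    nlinarith [mul_le_mul_of_nonneg_left this (by linarith : (0:ℝ) ≤ 1 + x i)]

/-- **NO-EIS (iii).** -/
theorem eq_zero_of_eisenstein_eigen [NeZero N] (S : Finset ℕ) (g : CuspForm (Gamma0 N) 2)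
    (h : ∀ (ℓ : ℕ) (hℓ : ℓ.Prime) (hℓN : ¬ ℓ ∣ N), ℓ ∉ S →
      heckeTLin 2 hℓ hℓN g = ((1 + ℓ : ℕ) : ℂ) • g) : g = 0 := by
  classical
  by_contra hg
  -- a nonzero coefficient
  obtain ⟨m, hm⟩ : ∃ m, qCoeff g m ≠ 0 := by
    by_contra hcon
    push Not at hcon
    exact hg (eq_zero_of_qCoeff g hcon)
  have hm0 : m ≠ 0 := fun h0 => hm (h0 ▸ qCoeff_cusp_zero g)
  have hN0 : N ≠ 0 := NeZero.ne N
  obtain ⟨C, hC⟩ := exists_bound g
  have hapos : 0 < ‖qCoeff g m‖ := norm_pos_iff.mpr hm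
  -- the bad primes
  set B : Finset ℕ := S ∪ N.primeFactors ∪ m.primeFactors with hB
  -- bound for finite sets of good primes
  have key : ∀ F : Finset ℕ, (∀ ℓ ∈ F, ℓ.Prime ∧ ℓ ∉ B) →
      ∑ ℓ ∈ F, (1 : ℝ) / ℓ ≤ C * m / ‖qCoeff g m‖ := by
    intro F hF
    have hF' : ∀ ℓ ∈ F, ℓ.Prime ∧ ¬ ℓ ∣ N ∧ ℓ ∉ S ∧ ¬ ℓ ∣ m := by
      intro ℓ hℓ
      obtain ⟨hp, hnB⟩ := hF ℓ hℓ
      rw [hB, Finset.mem_union, Finset.mem_union, not_or, not_or] at hnB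
      refine ⟨hp, fun hd => hnB.1.2 (Nat.mem_primeFactors.mpr ⟨hp, hd, hN0⟩), hnB.1.1,
        fun hd => hnB.2 (Nat.mem_primeFactors.mpr ⟨hp, hd, hm0⟩)⟩
    have h1 := qCoeff_mul_prod g S h hm0 F hF'
    have h2 := hC (m * ∏ ℓ ∈ F, ℓ)
    rw [h1, norm_mul, norm_prod] at h2
    have hpos : ∀ ℓ ∈ F, (0 : ℝ) < ℓ := fun ℓ hℓ => by exact_mod_cast (hF ℓ hℓ).1.pos
    have hprodpos : (0 : ℝ) < ∏ ℓ ∈ F, (ℓ : ℝ) := Finset.prod_pos hpos
    have h3 : ∏ ℓ ∈ F, ‖((1 + ℓ : ℕ) : ℂ)‖ = (∏ ℓ ∈ F, (ℓ : ℝ)) * ∏ ℓ ∈ F, (1 + (1 : ℝ) / ℓ) := by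
      rw [← Finset.prod_mul_distrib]
      refine Finset.prod_congr rfl fun ℓ hℓ => ?_
      have := hpos ℓ hℓ
      rw [Complex.norm_natCast]
      push_cast
      field_simp
      ring
    rw [h3] at h2
    push_cast at h2
    have h4 : ‖qCoeff g m‖ * ∏ ℓ ∈ F, (1 + (1 : ℝ) / ℓ) ≤ C * m := by
      have : (‖qCoeff g m‖ * ∏ ℓ ∈ F, (1 + (1 : ℝ) / ℓ)) * ∏ ℓ ∈ F, (ℓ : ℝ) ≤
          (C * m) * ∏ ℓ ∈ F, (ℓ : ℝ) := by
        calc (‖qCoeff g m‖ * ∏ ℓ ∈ F, (1 + (1 : ℝ) / ℓ)) * ∏ ℓ ∈ F, (ℓ : ℝ)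
            = ‖qCoeff g m‖ * ((∏ ℓ ∈ F, (ℓ : ℝ)) * ∏ ℓ ∈ F, (1 + (1 : ℝ) / ℓ)) := by ring
          _ ≤ C * ((m : ℝ) * ∏ ℓ ∈ F, (ℓ : ℝ)) := h2
          _ = (C * m) * ∏ ℓ ∈ F, (ℓ : ℝ) := by ring
      exact le_of_mul_le_mul_right this hprodpos
    have h5 := one_add_sum_le_prod F (fun ℓ => (1 : ℝ) / ℓ) (fun ℓ hℓ => by
      have := hpos ℓ hℓ; positivity)
    rw [le_div_iff₀ hapos]
    calc (∑ ℓ ∈ F, (1 : ℝ) / ℓ) * ‖qCoeff g m‖
        ≤ (∏ ℓ ∈ F, (1 + (1 : ℝ) / ℓ)) * ‖qCoeff g m‖ := by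
          apply mul_le_mul_of_nonneg_right _ hapos.le
          linarith
      _ = ‖qCoeff g m‖ * ∏ ℓ ∈ F, (1 + (1 : ℝ) / ℓ) := mul_comm _ _
      _ ≤ C * m := h4
  -- hence `∑ 1/ℓ` over the primes converges
  apply not_summable_one_div_on_primes
  refine summable_of_sum_le (c := (B.card : ℝ) + C * m / ‖qCoeff g m‖)
    (fun n => Set.indicator_nonneg (fun p _ => by positivity) n) fun u => ?_
  have hsplit : ∑ n ∈ u, Set.indicator {p : ℕ | p.Prime} (fun n : ℕ => (1 : ℝ) / n) n =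
      ∑ n ∈ (u.filter Nat.Prime).filter (· ∈ B), (1 : ℝ) / n +
        ∑ n ∈ (u.filter Nat.Prime).filter (· ∉ B), (1 : ℝ) / n := by
    rw [Finset.sum_filter_add_sum_filter_not, Finset.sum_filter]
    refine Finset.sum_congr rfl fun n _ => ?_
    by_cases hn : n.Prime
    · rw [Set.indicator_of_mem (show n ∈ {p : ℕ | p.Prime} from hn), if_pos hn]
    · rw [Set.indicator_of_notMem (show n ∉ {p : ℕ | p.Prime} from hn), if_neg hn]
  rw [hsplit]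
  refine add_le_add ?_ (key _ fun ℓ hℓ => ?_)
  · calc ∑ n ∈ (u.filter Nat.Prime).filter (· ∈ B), (1 : ℝ) / n
        ≤ ∑ n ∈ (u.filter Nat.Prime).filter (· ∈ B), (1 : ℝ) := by
          refine Finset.sum_le_sum fun n hn => ?_
          have hp : n.Prime := (Finset.mem_filter.mp (Finset.mem_filter.mp hn).1).2
          have : (1 : ℝ) ≤ n := by exact_mod_cast hp.one_lt.le
          rw [div_le_one (by linarith)]
          exact this
      _ = (((u.filter Nat.Prime).filter (· ∈ B)).card : ℝ) := by simp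
      _ ≤ (B.card : ℝ) := by
          exact_mod_cast Finset.card_le_card fun n hn => (Finset.mem_filter.mp hn).2
  · rw [Finset.mem_filter, Finset.mem_filter] at hℓ
    exact ⟨hℓ.1.2, hℓ.2⟩

end Fermat.Agent.MAZ.Desc.NoEisForm11
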