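/-
Program MAZ (S15), G-side, brick (NUM') (helper4): the TWO-element form of `hnum` from the ONE-element
form and procyclicity (`hcyc`).  Mathlib + `PFinAbstract90` (for the literal vocabulary) only.

`PFinAbstract90.exists_divisible_subgroup` (helper90) consumes
  `hnum : ∀ k y, r ^ k • y ∈ Y → ∀ σ τ : I, σ • (τ • y - y) = τ • y - y`,
while the geometry (`ES/N34/InertiaDiv4.inertiaDiv`) gives the ONE-element form
  `∀ τ : I, τ • (τ • y - y) = τ • y - y`.
With `hcyc` (`I` acts on the division points through powers of one `τ₀`): `w := τ₀ y - y` is fixed by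
`τ₀`, every `τ` acts on `y` as `τ₀ ^ b`, so `τ y - y = b • w`, and every `σ` acts on `b • w` (a division
point of `0`) as `τ₀ ^ a`, which fixes it.
-/
import Mathlib
import Fermat.Agent.MAZ.Desc.PFinAbstract90

set_option autoImplicit false

namespace Fermat.Agent.MAZ.Desc.NumTwo4

open Fermat.Agent.MAZ.Desc.PFinAbstract90

variable {J : Type*} [AddCommGroup J] {I : Type*} [Group I] [DistribMulAction I J]

/-- **One level**: the two-element form of `hnum` from the one-element form and `hcyc`. -/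
theorem hnum_two_of_one (Y : AddSubgroup J) (hY : Y ≤ fixedPts I J) (n : ℕ)
    (hcyc : ∃ τ : I, ∀ σ : I, ∃ m : ℕ, ∀ y : J, n • y ∈ Y → σ • y = τ ^ m • y)
    (hone : ∀ y : J, n • y ∈ Y → ∀ τ : I, τ • (τ • y - y) = τ • y - y)
    (y : J) (hy : n • y ∈ Y) (σ τ : I) : σ • (τ • y - y) = τ • y - y := by
  obtain ⟨τ₀, h0⟩ := hcyc
  set w := τ₀ • y - y with hw
  have hw1 : τ₀ • w = w := hone y hy τ₀
  have hpow : ∀ m : ℕ, τ₀ ^ m • w = w := by
    intro m
    induction m with
    | zero => rw [pow_zero, one_smul]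
    | succ m ih => rw [pow_succ, mul_smul, hw1, ih]
  have hnw : n • w = 0 := by
    rw [hw, smul_sub, smul_comm n τ₀ y, mem_fixedPts.mp (hY hy) τ₀, sub_self]
  have hwY : n • w ∈ Y := by
    rw [hnw]
    exact Y.zero_mem
  have hsum : ∀ m : ℕ, τ₀ ^ m • y - y = m • w := by
    intro m
    induction m with
    | zero => rw [pow_zero, one_smul, sub_self, zero_smul]
    | succ m ih =>
      have h1 : τ₀ ^ (m + 1) • y - y = τ₀ ^ m • (τ₀ • y - y) + (τ₀ ^ m • y - y) := by
        rw [pow_succ, mul_smul, smul_sub]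
        abel
      rw [h1, ← hw, hpow m, ih, succ_nsmul]
      abel
  obtain ⟨b, hb⟩ := h0 τ
  obtain ⟨a, ha⟩ := h0 σ
  rw [hb y hy, hsum b]
  have hbw : n • (b • w) ∈ Y := by
    rw [smul_comm n b w]
    exact Y.nsmul_mem hwY b
  rw [ha (b • w) hbw, smul_comm (τ₀ ^ a) b w, hpow a]

/-- **All levels, literal shape of `PFinAbstract90.exists_divisible_subgroup`.** -/
theorem hnum_of_hcyc (r : ℕ) (Y : AddSubgroup J) (hY : Y ≤ fixedPts I J)
    (hcyc : ∀ k : ℕ, ∃ τ : I, ∀ σ : I, ∃ m : ℕ, ∀ y : J, r ^ k • y ∈ Y → σ • y = τ ^ m • y)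
    (hone : ∀ (k : ℕ) (y : J), r ^ k • y ∈ Y → ∀ τ : I, τ • (τ • y - y) = τ • y - y) :
    ∀ (k : ℕ) (y : J), r ^ k • y ∈ Y → ∀ σ τ : I, σ • (τ • y - y) = τ • y - y :=
  fun k y hy σ τ => hnum_two_of_one Y hY (r ^ k) (hcyc k) (hone k) y hy σ τ

end Fermat.Agent.MAZ.Desc.NumTwo4
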