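/-
Program MAZ (S15), G-side, brick (NUM') (helper4): **the hypothesis `hnum` of
`PFinAbstract90.exists_divisible_subgroup` for `J = JZero p = J₀(p)(ℚ̄)` and `I` = the inertia group of a
valuation subring `A` of `ℚ̄` over `p`** — the companion of helper48's `HCyc48.hcyc`.

* `hone` : the ONE-element form, from `ES/N34/InertiaDiv4.inertiaDiv` at `(N, q) = (p, p)`
  (`p ∥ p`): for `y` with `r ^ k • y ∈ Y` (`Y` any subgroup of inertia-fixed classes, `r ≠ p` prime)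
  and `τ` in the inertia group, `τ • (τ • y - y) = τ • y - y`;
* `hnum` : the TWO-element form `σ • (τ • y - y) = τ • y - y`, LITERALLY the hypothesis `hnum` of
  `PFinAbstract90.index_divIn_le / exists_divisible_subgroup`, from `hone` and the literal `hcyc`
  (`NumTwo4.hnum_of_hcyc`).
-/
import Mathlib
import Fermat.Agent.ES.N34.InertiaDiv4
import Fermat.Agent.MAZ.Desc.PFinAbstract90
import Fermat.Agent.MAZ.Desc.NumTwo4

set_option autoImplicit false

open ModularCurve AlgebraicCurve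

noncomputable section

namespace Fermat.Agent.MAZ.Desc.NumInst4

open Fermat.Agent.RED.Interface4 Fermat.Agent.MAZ.Desc.PFinAbstract90

/-- **(NUM'), one-element form, in the vocabulary of `PFinAbstract90`.** -/
theorem hone {p : ℕ} [NeZero p] (hp : p.Prime) {r : ℕ} (hr : r.Prime) (hrp : r ≠ p)
    (A : ValuationSubring Qbar) (hA : A.LiesOverPrime p) (Y : AddSubgroup (JZero p))
    (hY : Y ≤ fixedPts ↥(A.inertiaSubgroupIn ℚ) (JZero p)) :
    ∀ (k : ℕ) (y : JZero p), r ^ k • y ∈ Y →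
      ∀ τ : ↥(A.inertiaSubgroupIn ℚ), τ • (τ • y - y) = τ • y - y := by
  intro k y hy τ
  have hp2 : ¬ p ^ 2 ∣ p := by
    intro h
    have h1 := Nat.le_of_dvd hp.pos h
    have h2 := hp.two_le
    nlinarith
  have hn : ¬ p ∣ r ^ k := fun hd =>
    hrp ((Nat.prime_dvd_prime_iff_eq hp hr).mp (hp.dvd_of_dvd_pow hd)).symm
  have hfix : (τ : Qbar ≃ₐ[ℚ] Qbar) • (r ^ k • y) = r ^ k • y := mem_fixedPts.mp (hY hy) τ
  exact Fermat.Agent.ES.N34.InertiaDiv4.hnum_of_fixed hp (dvd_refl p) hp2 hA τ.2 hn y hfix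

/-- **(NUM'), LITERALLY the hypothesis `hnum` of `PFinAbstract90.exists_divisible_subgroup`**, from the
literal `hcyc` (helper48's `HCyc48.hcyc`). -/
theorem hnum {p : ℕ} [NeZero p] (hp : p.Prime) {r : ℕ} (hr : r.Prime) (hrp : r ≠ p)
    (A : ValuationSubring Qbar) (hA : A.LiesOverPrime p) (Y : AddSubgroup (JZero p))
    (hY : Y ≤ fixedPts ↥(A.inertiaSubgroupIn ℚ) (JZero p))
    (hcyc : ∀ k : ℕ, ∃ τ : ↥(A.inertiaSubgroupIn ℚ), ∀ σ : ↥(A.inertiaSubgroupIn ℚ), ∃ m : ℕ,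
      ∀ y : JZero p, r ^ k • y ∈ Y → σ • y = τ ^ m • y) :
    ∀ (k : ℕ) (y : JZero p), r ^ k • y ∈ Y →
      ∀ σ τ : ↥(A.inertiaSubgroupIn ℚ), σ • (τ • y - y) = τ • y - y :=
  Fermat.Agent.MAZ.Desc.NumTwo4.hnum_of_hcyc r Y hY hcyc (hone hp hr hrp A hA Y hY)

/-- **(NUM') in the literal shape of the binder `hquad` of `PFinPInst90.pfinP`** (helper90, G6):
`r ^ k • y ∈ ratPoints hT` unfolds (`GSpec26.mem_ratPoints`, `Iff.rfl`) to the hypothesis below. -/
theorem hquad {p : ℕ} [NeZero p] (hp : p.Prime) {r : ℕ} (hr : r.Prime) (hrp : r ≠ p)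
    (A : ValuationSubring Qbar) (hA : A.LiesOverPrime p) :
    ∀ (k : ℕ) (τ : ↥(A.inertiaSubgroupIn ℚ)) (y : JZero p),
      (∀ σ : Qbar ≃ₐ[ℚ] Qbar, σ • (r ^ k • y) = r ^ k • y) → τ • τ • y + y = τ • y + τ • y := by
  intro k τ y hy
  have hp2 : ¬ p ^ 2 ∣ p := by
    intro h
    have h1 := Nat.le_of_dvd hp.pos h
    have h2 := hp.two_le
    nlinarith
  have hn : ¬ p ∣ r ^ k := fun hd =>
    hrp ((Nat.prime_dvd_prime_iff_eq hp hr).mp (hp.dvd_of_dvd_pow hd)).symm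
  exact Fermat.Agent.ES.N34.InertiaDiv4.inertiaDiv p p hp (dvd_refl p) hp2 A hA τ τ.2 (r ^ k) hn y
    (hy τ)

end Fermat.Agent.MAZ.Desc.NumInst4
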