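/-
Program MAZ (S15), G-side, brick (P-FIN)_P, abstract half (helper90).  Mathlib only.

**The `P`-part variant of `PFinAbstract90`, in EXPONENT form, one level at a time.**

`J` an abelian group with commuting actions of a group `I` (inertia at `p`) and of a commutative ring
`T` (Hecke), `Y` a `T`-submodule of `I`-fixed points (rational points), `r ^ k` a level,
`e : T` (think: an element acting as the `P`-primary projector on `J[r^k]`), `Mk ≤ J[r^k]` a
subgroup containing `e • J[r^k]` (think: the `P`-primary part of `J[r^k]`), `τ : I` such that every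
`σ : I` acts on the `r^k`-division points of `Y` as a power of `τ` (`hcyc`), with the one-`τ`
quadratic relation on division points (`hnum`, `(τ-1)² y = 0`), and

  (PT)_P-exp :  `c • ker (τ - 1 | Mk) ⊆ (τ - 1) Mk`.

Then for every `z ∈ Y` which is `r^k`-divisible in `J`, `e • (c • z)` is `r^k`-divisible in the
`I`-FIXED points (`exists_fixed_div`).  No cardinalities, no rank, no Tate module.

`exists_fixed_div_all` : the same for all `k` at once, with `A := c • Y`.
`smul_ker_le_range_of_card` : the adapter from the cardinality form (`#ker² ≤ C · #Mk`) to the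
exponent form (`c := C !`).
-/
import Mathlib

set_option autoImplicit false
set_option linter.style.haveILetI false

namespace Fermat.Agent.MAZ.Desc.PFinP90

section OneLevel

variable {J : Type*} [AddCommGroup J] {I : Type*} [Group I] [DistribMulAction I J]
  {T : Type*} [CommRing T] [Module T J]

/-- **(P-FIN)_P, one level.** -/
theorem exists_fixed_div (hcomm : ∀ (σ : I) (t : T) (x : J), σ • (t • x) = t • (σ • x))
    (r k c : ℕ) (Y : Submodule T J) (e : T) (Mk : AddSubgroup J)
    (hM1 : ∀ x : J, r ^ k • x = 0 → e • x ∈ Mk) (hM2 : ∀ m ∈ Mk, r ^ k • m = 0)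
    (τ : I) (hcyc : ∀ σ : I, ∃ n : ℕ, ∀ y : J, r ^ k • y ∈ Y → σ • y = τ ^ n • y)
    (hnum : ∀ y : J, r ^ k • y ∈ Y → τ • (τ • y - y) = τ • y - y)
    (hPT : ∀ w ∈ Mk, τ • w = w → ∃ m ∈ Mk, c • w = τ • m - m)
    (hYfix : ∀ z ∈ Y, τ • z = z)
    (z : J) (hz : z ∈ Y) (hdiv : ∃ y : J, r ^ k • y = z) :
    ∃ y' : J, (∀ σ : I, σ • y' = y') ∧ r ^ k • y' = e • (c • z) := by
  obtain ⟨y, hy⟩ := hdiv
  have hyY : r ^ k • y ∈ Y := by rw [hy]; exact hz
  -- the obstruction `w = e (τ y - y)`
  have htors : r ^ k • (τ • y - y) = 0 := by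
    rw [smul_sub, smul_comm (r ^ k) τ y, hy, hYfix z hz, sub_self]
  have hwM : e • (τ • y - y) ∈ Mk := hM1 _ htors
  have hwfix : τ • (e • (τ • y - y)) = e • (τ • y - y) := by
    rw [hcomm, hnum y hyY]
  obtain ⟨m, hmM, hm⟩ := hPT _ hwM hwfix
  refine ⟨c • e • y - m, ?_, ?_⟩
  · -- fixed by `τ`, hence by all of `I`
    have hτ : τ • (c • e • y - m) = c • e • y - m := by
      have h1 : τ • (c • e • y - m) - (c • e • y - m) = c • (e • (τ • y - y)) - (τ • m - m) := by
        rw [smul_sub, smul_comm τ c (e • y), hcomm, smul_sub, smul_sub]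
        abel
      rw [hm, sub_self] at h1
      exact sub_eq_zero.mp h1
    have hpow : ∀ n : ℕ, τ ^ n • (c • e • y - m) = c • e • y - m := by
      intro n
      induction n with
      | zero => rw [pow_zero, one_smul]
      | succ n ih => rw [pow_succ, mul_smul, hτ, ih]
    have hdivY : r ^ k • (c • e • y - m) ∈ Y := by
      rw [smul_sub, hM2 m hmM, sub_zero, smul_comm (r ^ k) c (e • y), smul_comm (r ^ k) e y, hy]
      exact Y.smul_of_tower_mem c (Y.smul_mem e hz)
    intro σ
    obtain ⟨n, hn⟩ := hcyc σ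
    rw [hn _ hdivY, hpow]
  · rw [smul_sub, hM2 m hmM, sub_zero, smul_comm (r ^ k) c (e • y), smul_comm (r ^ k) e y, hy,
      smul_comm c e z]

end OneLevel

section AllLevels

variable {J : Type*} [AddCommGroup J] {I : Type*} [Group I] [DistribMulAction I J]
  {T : Type*} [CommRing T] [Module T J]

/-- `c • Y` as a `T`-submodule. -/
def smulSub (c : ℕ) (Y : Submodule T J) : Submodule T J :=
  Y.map ((c : T) • (LinearMap.id : J →ₗ[T] J))

theorem mem_smulSub {c : ℕ} {Y : Submodule T J} {z : J} :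
    z ∈ smulSub c Y ↔ ∃ z₀ ∈ Y, c • z₀ = z := by
  rw [smulSub, Submodule.mem_map]
  constructor
  · rintro ⟨z₀, hz₀, rfl⟩
    refine ⟨z₀, hz₀, ?_⟩
    rw [LinearMap.smul_apply, LinearMap.id_apply, Nat.cast_smul_eq_nsmul]
  · rintro ⟨z₀, hz₀, rfl⟩
    refine ⟨z₀, hz₀, ?_⟩
    rw [LinearMap.smul_apply, LinearMap.id_apply, Nat.cast_smul_eq_nsmul]

theorem smulSub_le (c : ℕ) (Y : Submodule T J) : smulSub c Y ≤ Y := by
  intro z hz
  obtain ⟨z₀, hz₀, rfl⟩ := mem_smulSub.mp hz
  exact Y.smul_of_tower_mem c hz₀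

/-- **(P-FIN)_P, all levels**: with `A := c • Y`, every `z ∈ A` has `e_k • z` divisible by `r ^ k`
in the `I`-fixed points, for every `k`. -/
theorem exists_fixed_div_all (hcomm : ∀ (σ : I) (t : T) (x : J), σ • (t • x) = t • (σ • x))
    (r c : ℕ) (Y : Submodule T J) (hYfix : ∀ z ∈ Y, ∀ σ : I, σ • z = z)
    (hdiv : ∀ z ∈ Y, ∀ k : ℕ, ∃ y : J, r ^ k • y = z)
    (e : ℕ → T) (Mk : ℕ → AddSubgroup J)
    (hM1 : ∀ k, ∀ x : J, r ^ k • x = 0 → e k • x ∈ Mk k) (hM2 : ∀ k, ∀ m ∈ Mk k, r ^ k • m = 0)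
    (hlevel : ∀ k : ℕ, ∃ τ : I, (∀ σ : I, ∃ n : ℕ, ∀ y : J, r ^ k • y ∈ Y → σ • y = τ ^ n • y) ∧
      (∀ y : J, r ^ k • y ∈ Y → τ • (τ • y - y) = τ • y - y) ∧
      (∀ w ∈ Mk k, τ • w = w → ∃ m ∈ Mk k, c • w = τ • m - m)) :
    ∀ k : ℕ, ∀ z ∈ smulSub c Y, ∃ y : J, (∀ σ : I, σ • y = y) ∧ r ^ k • y = e k • z := by
  intro k z hz
  obtain ⟨z₀, hz₀, rfl⟩ := mem_smulSub.mp hz
  obtain ⟨τ, hcyc, hnum, hPT⟩ := hlevel k
  exact exists_fixed_div hcomm r k c Y (e k) (Mk k) (hM1 k) (hM2 k) τ hcyc hnum hPT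
    (fun z hz => hYfix z hz τ) z₀ hz₀ (hdiv z₀ hz₀ k)

end AllLevels

section Adapter

variable {M : Type*} [AddCommGroup M]

/-- **Cardinality form ⟹ exponent form.**  For an endomorphism `n` of a finite abelian group `M`
with `n ∘ n = 0` and `#ker n ^ 2 ≤ C · #M`, the group `ker n / im n` has order at most `C`, hence is
killed by `C !`. -/
theorem smul_ker_le_range_of_card [Finite M] (n : M →+ M) (hn : ∀ x, n (n x) = 0) (C : ℕ)
    (hC : Nat.card n.ker ^ 2 ≤ C * Nat.card M) :
    ∀ w : M, n w = 0 → ∃ m : M, (C.factorial) • w = n m := by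
  classical
  -- `R := im n` as a subgroup of `K := ker n`
  let K : AddSubgroup M := n.ker
  let R : AddSubgroup K := (n.range).addSubgroupOf K
  have hRK : n.range ≤ K := by
    rintro _ ⟨x, rfl⟩
    exact hn x
  have hcardR : Nat.card R = Nat.card n.range := by
    exact Nat.card_congr (AddSubgroup.addSubgroupOfEquivOfLe hRK).toEquiv
  have hrn : Nat.card n.ker * Nat.card n.range = Nat.card M := by
    rw [← AddSubgroup.index_ker, AddSubgroup.card_mul_index]
  have hKpos : 0 < Nat.card K := Nat.card_pos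
  have hRpos : 0 < Nat.card R := Nat.card_pos
  -- `[K : R] ≤ C`
  have hidx : R.index ≤ C := by
    have h1 : Nat.card R * R.index = Nat.card K := AddSubgroup.card_mul_index R
    have h2 : Nat.card K * Nat.card K ≤ C * (Nat.card K * Nat.card R) := by
      have : Nat.card K ^ 2 ≤ C * Nat.card M := hC
      rw [← hrn, sq] at this
      rwa [hcardR]
    have h3 : Nat.card K ≤ C * Nat.card R := by
      have h4 : Nat.card K * Nat.card K ≤ Nat.card K * (C * Nat.card R) := by
        calc Nat.card K * Nat.card K ≤ C * (Nat.card K * Nat.card R) := h2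
          _ = Nat.card K * (C * Nat.card R) := by ring
      exact Nat.le_of_mul_le_mul_left h4 hKpos
    rw [← h1] at h3
    have h5 : Nat.card R * R.index ≤ Nat.card R * C := by
      calc Nat.card R * R.index ≤ C * Nat.card R := h3
        _ = Nat.card R * C := by ring
    exact Nat.le_of_mul_le_mul_left h5 hRpos
  have hidx0 : R.index ≠ 0 := by
    haveI : Finite K := inferInstance
    exact AddSubgroup.index_ne_zero_of_finite
  intro w hw
  -- `index • w ∈ R`
  have hmem : R.index • (⟨w, hw⟩ : K) ∈ R := by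
    haveI : R.Normal := inferInstance
    have h6 : (R.index) • ((QuotientAddGroup.mk (⟨w, hw⟩ : K)) : K ⧸ R) = 0 := by
      have h7 : Nat.card (K ⧸ R) = R.index := (AddSubgroup.index_eq_card R).symm
      haveI : Finite (K ⧸ R) := inferInstance
      rw [← h7]
      exact card_nsmul_eq_zero'
    rw [← QuotientAddGroup.mk_nsmul] at h6
    exact (QuotientAddGroup.eq_zero_iff _).mp h6
  have hdvd : R.index ∣ C.factorial :=
    Nat.dvd_factorial (Nat.pos_of_ne_zero hidx0) hidx
  obtain ⟨q, hq⟩ := hdvd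
  have hmem2 : C.factorial • (⟨w, hw⟩ : K) ∈ R := by
    rw [hq, mul_nsmul]
    exact R.nsmul_mem hmem q
  have hmem3 : ((C.factorial • (⟨w, hw⟩ : K) : K) : M) ∈ n.range :=
    AddSubgroup.mem_addSubgroupOf.mp hmem2
  obtain ⟨m, hm⟩ := hmem3
  refine ⟨m, ?_⟩
  rw [hm]
  simp

end Adapter

end Fermat.Agent.MAZ.Desc.PFinP90
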