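/-
Program MAZ (S15), G-side, brick G6 = (P-FIN)_P, instantiation at `J₀(p)` (helper90).

**Exit literal of helper26 (#2249 (e)), verbatim** (`pfinP`): there is a `T`-submodule `A` of finite
index in the rational points such that for every `k` there is `e : T` acting as the identity on the
`P`-primary part of `A / r^k A` with `e • z ∈ r^k • J₀(p)^{I_𝔄}` for every `z ∈ A`.

Inputs, all as hypotheses in the literal shapes of their suppliers:
* `hdiv`  : `J₀(p)(ℚ̄)` is `r^k`-divisible (`JZeroDiv30`);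
* `hfin`  : `J₀(p)[r^k]` is finite (`ES/KUM/FiniteTorsion15`);
* `hMW`   : `GSpec26.MW p` (S17 at level `p`);
* `hcyc`  : conclusion of `HCyc48.hcyc` for `Y = J₀(p)(ℚ)`;
* `hquad` : the one-variable (NUM') `τ τ y + y = τ y + τ y` on the `r^k`-division points of `J₀(p)(ℚ)`;
* `hPT`   : **`PTExp`** = (PT)_P in exponent form: `c • ker (τ - 1 | M_k) ⊆ (τ - 1) M_k`, `M_k` the
  `P`-primary part of `J₀(p)[r^k]`, for every `τ` generating the action of `I_𝔄` on `J₀(p)[r^k]`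
  (delivered by the PT-GAL bricks: `ToricAlg50` STEP 4 / `PTGalois76.level_bound` / G5 + the adapter
  `PFinP90.smul_ker_le_range_of_card`).
The abstract argument is `PFinP90.exists_fixed_div`; `A := c • J₀(p)(ℚ)`.
-/
import Mathlib
import Fermat.Agent.MAZ.Spec.GSpec26
import Fermat.Agent.MAZ.Desc.PrimaryPart19
import Fermat.Agent.MAZ.Desc.PFinP90

set_option autoImplicit false
set_option linter.unusedSectionVars false
set_option linter.unusedVariables false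
set_option linter.style.haveILetI false

open AlgebraicCurve ModularCurve

noncomputable section

namespace Fermat.Agent.MAZ.Desc.PFinPInst90

open Fermat.Agent.X0 Fermat.Agent.MAZ.Spec.XSpec62 Fermat.Agent.MAZ.Spec.GSpec26
  Fermat.Agent.MAZ.Desc.PrimaryPart19 Fermat.Agent.MAZ.Desc.PFinP90

variable {p : ℕ} [NeZero p] {T : Type} [CommRing T] [Module T (JZero p)]

variable (p T) in
/-- `J₀(p)[n]` as a `T`-submodule. -/
def torsT (n : ℕ) : Submodule T (JZero p) where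
  carrier := {x | n • x = 0}
  zero_mem' := smul_zero n
  add_mem' := fun {a b} ha hb => by
    change n • (a + b) = 0
    have ha' : n • a = 0 := ha
    have hb' : n • b = 0 := hb
    rw [nsmul_add, ha', hb', add_zero]
  smul_mem' := fun t x hx => by
    change n • (t • x) = 0
    have hx' : n • x = 0 := hx
    rw [smul_comm, hx', smul_zero]

theorem mem_torsT {n : ℕ} {x : JZero p} : x ∈ torsT p T n ↔ n • x = 0 := Iff.rfl

variable (p) in
/-- The `P`-primary part of `J₀(p)[r^k]`, as a subgroup of `J₀(p)(ℚ̄)`. -/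
def MkP (P : Ideal T) (r k : ℕ) : AddSubgroup (JZero p) where
  carrier := {x | r ^ k • x = 0 ∧ ∃ j : ℕ, ∀ t ∈ P ^ j, t • x = 0}
  zero_mem' := ⟨smul_zero _, 0, fun t _ => smul_zero t⟩
  add_mem' := by
    rintro a b ⟨ha, i, hi⟩ ⟨hb, j, hj⟩
    refine ⟨by rw [nsmul_add, ha, hb, add_zero], max i j, fun t ht => ?_⟩
    rw [smul_add, hi t (Ideal.pow_le_pow_right (le_max_left i j) ht),
      hj t (Ideal.pow_le_pow_right (le_max_right i j) ht), add_zero]
  neg_mem' := by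
    rintro a ⟨ha, i, hi⟩
    exact ⟨by rw [neg_nsmul, ha, neg_zero], i, fun t ht => by rw [smul_neg, hi t ht, neg_zero]⟩

theorem mem_MkP {P : Ideal T} {r k : ℕ} {x : JZero p} :
    x ∈ MkP p P r k ↔ r ^ k • x = 0 ∧ ∃ j : ℕ, ∀ t ∈ P ^ j, t • x = 0 := Iff.rfl

variable (p) in
/-- **(PT)_P in exponent form.** -/
def PTExp (P : Ideal T) (𝔄 : ValuationSubring Qb) (r c : ℕ) : Prop :=
  ∀ (k : ℕ) (τ : ↥(𝔄.inertiaSubgroupIn ℚ)),
    (∀ σ : ↥(𝔄.inertiaSubgroupIn ℚ), ∃ n : ℕ, ∀ x : JZero p, r ^ k • x = 0 → σ • x = τ ^ n • x) →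
    ∀ w ∈ MkP p P r k, τ • w = w → ∃ m ∈ MkP p P r k, c • w = τ • m - m

/-- `A / r^k A` is finite for a finitely generated `A`. -/
theorem finite_quot_pow (A : Submodule T (JZero p)) [Module.Finite ℤ ↥A] (r k : ℕ) (hr : 0 < r) :
    Finite (↥A ⧸ (Ideal.span {(r : T) ^ k} • ⊤ : Submodule T ↥A)) := by
  set I : Submodule T ↥A := Ideal.span {(r : T) ^ k} • ⊤ with hI
  let q : ↥A →ₗ[ℤ] (↥A ⧸ I) := (I.mkQ).toAddMonoidHom.toIntLinearMap
  have hq : Function.Surjective q := I.mkQ_surjective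
  haveI : Module.Finite ℤ (↥A ⧸ I) := Module.Finite.of_surjective q hq
  apply Module.finite_of_fg_torsion
  intro x
  obtain ⟨a, rfl⟩ := I.mkQ_surjective x
  refine ⟨⟨((r ^ k : ℕ) : ℤ), ?_⟩, ?_⟩
  · rw [mem_nonZeroDivisors_iff_ne_zero]
    exact_mod_cast (pow_pos hr k).ne'
  · change ((r ^ k : ℕ) : ℤ) • I.mkQ a = 0
    rw [natCast_zsmul, ← map_nsmul, Submodule.mkQ_apply, Submodule.Quotient.mk_eq_zero, hI]
    have h1 : (r ^ k) • a = ((r : T) ^ k) • a := by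
      rw [← Nat.cast_pow, Nat.cast_smul_eq_nsmul]
    rw [h1]
    exact Submodule.smul_mem_smul (Ideal.mem_span_singleton_self _) Submodule.mem_top

/-- **One level of G6**, for abstract `Y` (rational points) and `A ≤ Y` with `A ⊆ c • Y`. -/
theorem level_step (hgal : ∀ (t : T) (σ : GQ) (z : JZero p), σ • (t • z) = t • (σ • z))
    (P : Ideal T) (𝔄 : ValuationSubring Qb) (r c k : ℕ) (hr : 0 < r)
    (Y A : Submodule T (JZero p)) (hYrat : ∀ z ∈ Y, ∀ σ : GQ, σ • z = z)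
    [Module.Finite ℤ ↥A] (hAc : ∀ z ∈ A, ∃ z₀ ∈ Y, c • z₀ = z)
    (hdiv : ∀ z : JZero p, ∃ y : JZero p, r ^ k • y = z)
    (hfin : Finite ↥(torsT p T (r ^ k)))
    (hcyc : ∃ τ : ↥(𝔄.inertiaSubgroupIn ℚ), ∀ σ : ↥(𝔄.inertiaSubgroupIn ℚ), ∃ m : ℕ,
      ∀ y : JZero p, r ^ k • y ∈ Y → σ • y = τ ^ m • y)
    (hquad : ∀ (τ : ↥(𝔄.inertiaSubgroupIn ℚ)) (y : JZero p), r ^ k • y ∈ Y →
      τ • τ • y + y = τ • y + τ • y)
    (hPT : ∀ τ : ↥(𝔄.inertiaSubgroupIn ℚ),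
      (∀ σ : ↥(𝔄.inertiaSubgroupIn ℚ), ∃ n : ℕ, ∀ x : JZero p, r ^ k • x = 0 → σ • x = τ ^ n • x) →
      ∀ w ∈ MkP p P r k, τ • w = w → ∃ m ∈ MkP p P r k, c • w = τ • m - m) :
    ∃ e : T,
      (∀ x ∈ primarySet P (↥A ⧸ (Ideal.span {(r : T) ^ k} • ⊤ : Submodule T ↥A)), e • x = x) ∧
      ∀ z ∈ A, ∃ y : JZero p, (∀ σ ∈ 𝔄.inertiaSubgroupIn ℚ, σ • y = y) ∧ r ^ k • y = e • z := by
  classical
  -- the projector on `J[r^k] × A / r^k A`
  haveI := hfin
  haveI := finite_quot_pow A r k hr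
  obtain ⟨e, he⟩ := exists_isProj P
    (↥(torsT p T (r ^ k)) × (↥A ⧸ (Ideal.span {(r : T) ^ k} • ⊤ : Submodule T ↥A)))
  have he1 : IsProj P e ↥(torsT p T (r ^ k)) :=
    he.of_surjective (LinearMap.fst T _ _) LinearMap.fst_surjective
  have he2 : IsProj P e (↥A ⧸ (Ideal.span {(r : T) ^ k} • ⊤ : Submodule T ↥A)) :=
    he.of_surjective (LinearMap.snd T _ _) LinearMap.snd_surjective
  refine ⟨e, fun x hx => he2.smul_eq hx, ?_⟩
  -- the abstract descent step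
  have hcomm : ∀ (σ : ↥(𝔄.inertiaSubgroupIn ℚ)) (t : T) (x : JZero p),
      σ • (t • x) = t • (σ • x) := fun σ t x => hgal t (σ : GQ) x
  have hM1 : ∀ x : JZero p, r ^ k • x = 0 → e • x ∈ MkP p P r k := by
    intro x hx
    refine ⟨by rw [smul_comm, hx, smul_zero], ?_⟩
    obtain ⟨j, hj⟩ := he1.smul_mem (⟨x, hx⟩ : ↥(torsT p T (r ^ k)))
    refine ⟨j, fun t ht => ?_⟩
    have := congrArg (fun y : ↥(torsT p T (r ^ k)) => (y : JZero p)) (hj t ht)
    simpa using this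
  have hM2 : ∀ m ∈ MkP p P r k, r ^ k • m = 0 := fun m hm => hm.1
  obtain ⟨τ, hτ⟩ := hcyc
  have hgen : ∀ σ : ↥(𝔄.inertiaSubgroupIn ℚ), ∃ n : ℕ, ∀ x : JZero p, r ^ k • x = 0 →
      σ • x = τ ^ n • x := by
    intro σ
    obtain ⟨n, hn⟩ := hτ σ
    exact ⟨n, fun x hx => hn x (by rw [hx]; exact Y.zero_mem)⟩
  have hnum : ∀ y : JZero p, r ^ k • y ∈ Y → τ • (τ • y - y) = τ • y - y := by
    intro y hy
    have h := hquad τ y hy
    rw [smul_sub]
    have h2 : τ • τ • y = τ • y + τ • y - y := by rw [← h]; abel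
    rw [h2]; abel
  intro z hz
  obtain ⟨z₀, hz₀, rfl⟩ := hAc z hz
  obtain ⟨y', hy'fix, hy'⟩ := exists_fixed_div hcomm r k c Y e (MkP p P r k) hM1 hM2 τ hτ hnum
    (hPT τ hgen) (fun z hz => hYrat z hz (τ : GQ)) z₀ hz₀ (hdiv z₀)
  exact ⟨y', fun σ hσ => hy'fix ⟨σ, hσ⟩, hy'⟩

/-- **G6 = (P-FIN)_P**, exit literal of #2249 (e). -/
theorem pfinP (hT : HeckeModel p T) (hMW : MW p) (P : Ideal T) (𝔄 : ValuationSubring Qb)
    (r c : ℕ) (hr : 0 < r) (hc : 0 < c)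
    (hdiv : ∀ (z : JZero p) (k : ℕ), ∃ y : JZero p, r ^ k • y = z)
    (hfin : ∀ k : ℕ, Finite ↥(torsT p T (r ^ k)))
    (hcyc : ∀ k : ℕ, ∃ τ : ↥(𝔄.inertiaSubgroupIn ℚ), ∀ σ : ↥(𝔄.inertiaSubgroupIn ℚ), ∃ m : ℕ,
      ∀ y : JZero p, r ^ k • y ∈ ratPoints hT → σ • y = τ ^ m • y)
    (hquad : ∀ (k : ℕ) (τ : ↥(𝔄.inertiaSubgroupIn ℚ)) (y : JZero p), r ^ k • y ∈ ratPoints hT →
      τ • τ • y + y = τ • y + τ • y)
    (hPT : PTExp p P 𝔄 r c) :
    ∃ A : Submodule T (JZero p), FiniteIndexIn A (ratPoints hT) ∧ ∀ k : ℕ, ∃ e : T,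
      (∀ x ∈ primarySet P (↥A ⧸ (Ideal.span {(r : T) ^ k} • ⊤ : Submodule T ↥A)), e • x = x) ∧
      ∀ z ∈ A, ∃ y : JZero p, (∀ σ ∈ 𝔄.inertiaSubgroupIn ℚ, σ • y = y) ∧ r ^ k • y = e • z := by
  classical
  have hAY : smulSub c (ratPoints hT) ≤ ratPoints hT := smulSub_le c (ratPoints hT)
  refine ⟨smulSub c (ratPoints hT), ?_, ?_⟩
  · refine ⟨hAY, c, hc, fun z hz => ?_⟩
    exact mem_smulSub.mpr ⟨z, hz, rfl⟩
  · intro k
    -- `A` is finitely generated over `ℤ`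
    haveI hfg : Module.Finite ℤ ↥(FixedPoints.addSubgroup GQ (JZero p)) :=
      Module.Finite.iff_addGroup_fg.mpr hMW
    have hmemA : ∀ a : ↥(smulSub c (ratPoints hT)),
        (a : JZero p) ∈ FixedPoints.addSubgroup GQ (JZero p) := fun a σ => hAY a.2 σ
    let ι : ↥(smulSub c (ratPoints hT)) →ₗ[ℤ] ↥(FixedPoints.addSubgroup GQ (JZero p)) :=
      { toFun := fun a => ⟨(a : JZero p), hmemA a⟩
        map_add' := fun a b => rfl
        map_smul' := fun n a => by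
          apply Subtype.ext
          change ((n • a : _) : JZero p) = n • (a : JZero p)
          exact AddSubgroupClass.coe_zsmul a n }
    have hι : Function.Injective ι := fun a b hab => by
      apply Subtype.ext
      exact congrArg (fun x : ↥(FixedPoints.addSubgroup GQ (JZero p)) => (x : JZero p)) hab
    haveI : IsNoetherian ℤ ↥(FixedPoints.addSubgroup GQ (JZero p)) :=
      isNoetherian_of_isNoetherianRing_of_finite ℤ _
    haveI : Module.Finite ℤ ↥(smulSub c (ratPoints hT)) := Module.Finite.of_injective ι hι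
    exact level_step hT.galois P 𝔄 r c k hr (ratPoints hT) (smulSub c (ratPoints hT))
      (fun z hz σ => hz σ) (fun z hz => mem_smulSub.mp hz) (fun z => hdiv z k) (hfin k) (hcyc k)
      (hquad k) (hPT k)

end Fermat.Agent.MAZ.Desc.PFinPInst90
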