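/-
Programme MAZ (S15), G-side, pole P1 = (PT) "purely toric at `p`", ALGEBRAIC ROUTE (helper50, report 2267).
Mathlib only.

`M` a finite abelian group with commuting actions of a group `G` (Galois) and a commutative ring `T`
(Hecke), carrying a Cayley–Hamilton relation `g² - τ_g g + δ_g = 0` for every `g ∈ G`
(`τ δ : G → T`, as in `EisFiltration19.EisData.rel`), `σ ∈ G` with `N := σ - 1`, `N² = 0` (a generator
of the tame inertia at `p`), `δ` multiplicative on `M` and `δ_σ = 1` on `M`.

* `star`            : **polarised Cayley–Hamilton at `σ`**: `g N + N g - τ_g N = ν_g`,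
                      `ν_g := τ_{gσ} - τ_g ∈ T` ("`tr (g N)`");
* `nil_smul_nil`    : `N g N = ν_g N`;
* `nil_smul_of_ker` : `N (g w) = ν_g w` for `w ∈ ker N`; hence `𝔞 · ker N ⊆ range N` for the ideal `𝔞`
                      generated by the `ν_g` (`smul_mem_range_of_mem_ram`);
* `index_ramSub_le` : if every `(G, T)`-stable subquotient `Y / Z` of `M` on which `σ` acts trivially
                      has order `≤ B` (hypothesis `BU`: "bounded unramified", to be supplied by the
                      devissage over `Spec ℤ` + duality + no Eisenstein eigensystem), then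
                      `#(M / 𝔞 M) ≤ B²`;
* `exists_nsmul_ker_le_range` : then `Q · ker N ⊆ range N` for `Q = #(M / 𝔞 M) ^ d ≤ (B²) ^ d`,
                      `d` the number of generators of `M` (determinant trick);
* `card_ker_sq_le`  : hence `(# ker N)² ≤ #M · #M[Q]`: the inertia invariants are at most half of
                      `M`, up to the uniformly bounded factor `#M[Q]`.  This is (PT) on the
                      Eisenstein part.
-/
import Mathlib

set_option autoImplicit false

namespace Fermat.Agent.MAZ.Desc.ToricAlg50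

open Polynomial

variable {G : Type*} [Group G] {T : Type*} [CommRing T] {M : Type*} [AddCommGroup M]
  [DistribMulAction G M] [Module T M] [SMulCommClass G T M]

/-- `N = σ - 1` as a `T`-linear endomorphism of `M`. -/
def nil (T : Type*) [CommRing T] {M : Type*} [AddCommGroup M] [DistribMulAction G M] [Module T M]
    [SMulCommClass G T M] (σ : G) : M →ₗ[T] M where
  toFun x := σ • x - x
  map_add' x y := by rw [smul_add]; abel
  map_smul' t x := by
    simp only [RingHom.id_apply]
    rw [smul_comm σ t x, smul_sub]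

theorem nil_apply (σ : G) (x : M) : nil T σ x = σ • x - x := rfl

/-- The hypotheses: Cayley–Hamilton for every `g`, multiplicativity of `δ`, `δ_σ = 1`, `N² = 0`. -/
structure CHData (τ δ : G → T) (σ : G) (M : Type*) [AddCommGroup M] [DistribMulAction G M]
    [Module T M] [SMulCommClass G T M] : Prop where
  rel : ∀ (g : G) (x : M), g • g • x - τ g • g • x + δ g • x = 0
  dmul : ∀ (g h : G) (x : M), δ (g * h) • x = δ g • δ h • x
  dsig : ∀ x : M, δ σ • x = x
  nil2 : ∀ x : M, nil T σ (nil T σ x) = 0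

variable {τ δ : G → T} {σ : G}

/-- `ν_g = τ_{gσ} - τ_g`, the "trace of `g N`". -/
def nu (τ : G → T) (σ : G) (g : G) : T := τ (g * σ) - τ g

namespace CHData

variable (D : CHData τ δ σ M)
include D

/-- `σ (N x) = N x`. -/
theorem smul_nil (x : M) : σ • nil T σ x = nil T σ x := by
  have h := D.nil2 x
  rw [nil_apply] at h
  exact sub_eq_zero.mp h

/-- `σ⁻¹ = 1 - N`. -/
theorem inv_smul (x : M) : σ⁻¹ • x = x - nil T σ x := by
  rw [inv_smul_eq_iff, smul_sub, D.smul_nil, nil_apply]
  abel

/-- `τ_g = g + δ_g g⁻¹` as operators on `M`. -/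
theorem tau_smul (g : G) (x : M) : τ g • x = g • x + δ g • g⁻¹ • x := by
  have h := D.rel g (g⁻¹ • x)
  rw [smul_inv_smul] at h
  have : τ g • x = g • x + δ g • g⁻¹ • x - (g • x - τ g • x + δ g • g⁻¹ • x) := by abel
  rw [this, h, sub_zero]

/-- **Polarised Cayley–Hamilton at `σ`**: `g N + N g - τ_g N = ν_g`. -/
theorem star (g : G) (x : M) :
    g • nil T σ x + nil T σ (g • x) - τ g • nil T σ x = nu τ σ g • x := by
  have h1 : τ g • nil T σ x = nil T σ (g • x) + δ g • nil T σ (g⁻¹ • x) := by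
    rw [← LinearMap.map_smul, D.tau_smul g x, map_add, LinearMap.map_smul]
  have h2 : τ (g * σ) • x = g • σ • x + δ g • (g⁻¹ • x - nil T σ (g⁻¹ • x)) := by
    rw [D.tau_smul (g * σ) x, mul_smul, mul_inv_rev, mul_smul, D.dmul, D.dsig, D.inv_smul]
  rw [nu, sub_smul, h2, D.tau_smul g x, h1, nil_apply σ x, smul_sub, smul_sub]
  abel

/-- `N g N = ν_g N`. -/
theorem nil_smul_nil (g : G) (x : M) : nil T σ (g • nil T σ x) = nu τ σ g • nil T σ x := by
  have h := D.star g (nil T σ x)
  rw [D.nil2, smul_zero, smul_zero, zero_add, sub_zero] at h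
  exact h

/-- On `ker N`: `N (g w) = ν_g w`. -/
theorem nil_smul_of_ker (g : G) {w : M} (hw : nil T σ w = 0) :
    nil T σ (g • w) = nu τ σ g • w := by
  have h := D.star g w
  rw [hw, smul_zero, smul_zero, zero_add, sub_zero] at h
  exact h

end CHData

/-- The ramification ideal `𝔞 = (ν_g : g ∈ G)`. -/
def ramIdeal (τ : G → T) (σ : G) : Ideal T := Ideal.span (Set.range (nu τ σ))

/-- `𝔞 M`. -/
def ramSub (τ : G → T) (σ : G) (M : Type*) [AddCommGroup M] [Module T M] : Submodule T M :=
  ramIdeal τ σ • (⊤ : Submodule T M)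

/-- `𝔞 · ker N ⊆ range N`. -/
theorem smul_mem_range_of_mem_ram (D : CHData τ δ σ M) {a : T} (ha : a ∈ ramIdeal τ σ) {w : M}
    (hw : nil T σ w = 0) : a • w ∈ LinearMap.range (nil T σ) := by
  induction ha using Submodule.span_induction with
  | mem x hx =>
    obtain ⟨g, rfl⟩ := hx
    exact ⟨g • w, D.nil_smul_of_ker g hw⟩
  | zero => rw [zero_smul]; exact Submodule.zero_mem _
  | add x y _ _ hx hy => rw [add_smul]; exact Submodule.add_mem _ hx hy
  | smul t x _ hx =>
    rw [smul_eq_mul, mul_smul]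
    exact Submodule.smul_mem _ t hx

/-- `𝔞 M` is `G`-stable. -/
theorem smul_mem_ramSub (g : G) {x : M} (hx : x ∈ ramSub τ σ M) : g • x ∈ ramSub τ σ M := by
  unfold ramSub at hx ⊢
  refine Submodule.smul_induction_on hx (fun a ha m _ => ?_) (fun x y hx hy => ?_)
  · rw [smul_comm g a m]
    exact Submodule.smul_mem_smul ha Submodule.mem_top
  · rw [smul_add]; exact Submodule.add_mem _ hx hy

/-- `N (𝔞 M) ⊆ 𝔞 M`. -/
theorem nil_mem_ramSub {x : M} (hx : x ∈ ramSub τ σ M) : nil T σ x ∈ ramSub τ σ M := by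
  unfold ramSub at hx ⊢
  refine Submodule.smul_induction_on hx (fun a ha m _ => ?_) (fun x y hx hy => ?_)
  · rw [LinearMap.map_smul]
    exact Submodule.smul_mem_smul ha Submodule.mem_top
  · rw [map_add]; exact Submodule.add_mem _ hx hy

/-- The `(G, T)`-span of `N M`. -/
def gSpan (T : Type*) [CommRing T] (σ : G) (M : Type*) [AddCommGroup M] [DistribMulAction G M]
    [Module T M] [SMulCommClass G T M] : Submodule T M :=
  Submodule.span T {y | ∃ (g : G) (x : M), y = g • nil T σ x}

/-- `gSpan` is `G`-stable. -/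
theorem smul_mem_gSpan (g : G) {y : M} (hy : y ∈ gSpan T σ M) : g • y ∈ gSpan T σ M := by
  unfold gSpan at hy ⊢
  induction hy using Submodule.span_induction with
  | mem y hy =>
    obtain ⟨g', x, rfl⟩ := hy
    exact Submodule.subset_span ⟨g * g', x, (mul_smul g g' _).symm⟩
  | zero => rw [smul_zero]; exact Submodule.zero_mem _
  | add y z _ _ hy hz => rw [smul_add]; exact Submodule.add_mem _ hy hz
  | smul t y _ hy =>
    rw [smul_comm g t y]
    exact Submodule.smul_mem _ t hy

/-- `N (gSpan) ⊆ 𝔞 M`. -/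
theorem nil_mem_ramSub_of_mem_gSpan (D : CHData τ δ σ M) {y : M} (hy : y ∈ gSpan T σ M) :
    nil T σ y ∈ ramSub τ σ M := by
  unfold gSpan at hy
  induction hy using Submodule.span_induction with
  | mem y hy =>
    obtain ⟨g, x, rfl⟩ := hy
    rw [D.nil_smul_nil]
    exact Submodule.smul_mem_smul (Ideal.subset_span ⟨g, rfl⟩) Submodule.mem_top
  | zero => rw [map_zero]; exact Submodule.zero_mem _
  | add y z _ _ hy hz => rw [map_add]; exact Submodule.add_mem _ hy hz
  | smul t y _ hy => rw [LinearMap.map_smul]; exact Submodule.smul_mem _ t hy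

/-- The `(G, T)`-span of `N M`, enlarged by `𝔞 M`. -/
def midSub (τ : G → T) (σ : G) (M : Type*) [AddCommGroup M] [DistribMulAction G M] [Module T M]
    [SMulCommClass G T M] : Submodule T M :=
  ramSub τ σ M ⊔ gSpan T σ M

theorem ramSub_le_midSub : ramSub τ σ M ≤ midSub τ σ M := le_sup_left

theorem nil_mem_midSub (x : M) : nil T σ x ∈ midSub τ σ M :=
  (le_sup_right : _ ≤ midSub τ σ M) (Submodule.subset_span ⟨1, x, (one_smul G _).symm⟩)

/-- `midSub` is `G`-stable. -/
theorem smul_mem_midSub (g : G) {x : M} (hx : x ∈ midSub τ σ M) : g • x ∈ midSub τ σ M := by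
  unfold midSub at hx ⊢
  obtain ⟨a, ha, b, hb, rfl⟩ := Submodule.mem_sup.mp hx
  rw [smul_add]
  exact Submodule.add_mem _ (le_sup_left (a := ramSub τ σ M) (smul_mem_ramSub g ha))
    ((le_sup_right : _ ≤ ramSub τ σ M ⊔ gSpan T σ M) (smul_mem_gSpan g hb))

/-- `N (midSub) ⊆ 𝔞 M`: `σ` acts trivially on `midSub / 𝔞 M`. -/
theorem nil_mem_ramSub_of_mem_midSub (D : CHData τ δ σ M) {x : M} (hx : x ∈ midSub τ σ M) :
    nil T σ x ∈ ramSub τ σ M := by
  unfold midSub at hx
  obtain ⟨a, ha, b, hb, rfl⟩ := Submodule.mem_sup.mp hx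
  rw [map_add]
  exact Submodule.add_mem _ (nil_mem_ramSub ha) (nil_mem_ramSub_of_mem_gSpan D hb)

/-- **Bounded unramified** (hypothesis): every `(G, T)`-stable subquotient `Y / Z` of `M` on which `σ`
acts trivially has at most `B` elements. -/
def BU (σ : G) (T : Type*) [CommRing T] (M : Type*) [AddCommGroup M] [DistribMulAction G M]
    [Module T M] [SMulCommClass G T M] (B : ℕ) : Prop :=
  ∀ Y Z : Submodule T M, (∀ (g : G), ∀ y ∈ Y, g • y ∈ Y) → (∀ (g : G), ∀ z ∈ Z, g • z ∈ Z) →
    Z ≤ Y → (∀ y ∈ Y, nil T σ y ∈ Z) → Z.toAddSubgroup.relIndex Y.toAddSubgroup ≤ B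

/-- `#(M / 𝔞 M) ≤ B²`. -/
theorem index_ramSub_le (D : CHData τ δ σ M) {B : ℕ} (hBU : BU σ T M B) :
    (ramSub τ σ M).toAddSubgroup.index ≤ B * B := by
  have h1 : (midSub τ σ M).toAddSubgroup.relIndex (⊤ : Submodule T M).toAddSubgroup ≤ B :=
    hBU ⊤ (midSub τ σ M) (fun _ _ _ => Submodule.mem_top) (fun g z hz => smul_mem_midSub g hz)
      le_top (fun y _ => nil_mem_midSub y)
  have h2 : (ramSub τ σ M).toAddSubgroup.relIndex (midSub τ σ M).toAddSubgroup ≤ B :=
    hBU (midSub τ σ M) (ramSub τ σ M) (fun g z hz => smul_mem_midSub g hz)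
      (fun g z hz => smul_mem_ramSub g hz) ramSub_le_midSub
      (fun y hy => nil_mem_ramSub_of_mem_midSub D hy)
  have h3 : (midSub τ σ M).toAddSubgroup.index ≤ B := by
    rwa [Submodule.top_toAddSubgroup, AddSubgroup.relIndex_top_right] at h1
  have hle : (ramSub τ σ M).toAddSubgroup ≤ (midSub τ σ M).toAddSubgroup := ramSub_le_midSub
  rw [← AddSubgroup.relIndex_mul_index hle]
  exact Nat.mul_le_mul h2 h3

/-- **Determinant trick.** If `q M ⊆ 𝔞 M` then `q ^ d ∈ 𝔞 + Ann M`, `d` the number of generators of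
`M`; in the form: `q ^ d • w ∈ 𝔞 w + 0`. -/
theorem exists_mem_ideal_pow_smul [Module.Finite T M] (I : Ideal T) (q : T)
    (hq : ∀ x : M, q • x ∈ I • (⊤ : Submodule T M)) :
    ∃ a ∈ I, ∀ x : M, q ^ (⊤ : Submodule T M).spanFinrank • x = a • x := by
  classical
  set f : Module.End T M := algebraMap T (Module.End T M) q with hf
  have hrange : LinearMap.range f ≤ I • (⊤ : Submodule T M) := by
    rintro _ ⟨x, rfl⟩
    rw [hf, Module.algebraMap_end_apply]
    exact hq x
  obtain ⟨p, hmonic, hdeg, hcoeff, hp⟩ :=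
    LinearMap.exists_monic_and_natDegree_eq_and_coeff_mem_pow_and_aeval_eq_zero T f I hrange
  set d := (⊤ : Submodule T M).spanFinrank with hd
  -- `p.eval q` kills `M`
  have hkill : ∀ x : M, (p.eval q) • x = 0 := by
    intro x
    have h1 : Polynomial.aeval f p = algebraMap T (Module.End T M) (p.eval q) := by
      rw [hf, Polynomial.aeval_algebraMap_apply, Polynomial.coe_aeval_eq_eval]
    have h2 := LinearMap.congr_fun hp x
    rw [h1, Module.algebraMap_end_apply, LinearMap.zero_apply] at h2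
    exact h2
  -- `p.eval q = q ^ d + (element of I)`
  have heval : p.eval q = ∑ i ∈ Finset.range d, p.coeff i * q ^ i + q ^ d := by
    rw [Polynomial.eval_eq_sum_range, hdeg, Finset.sum_range_succ]
    congr 1
    rw [← hdeg, hmonic.coeff_natDegree, one_mul]
  have hlow : ∑ i ∈ Finset.range d, p.coeff i * q ^ i ∈ I := by
    refine Ideal.sum_mem _ fun i hi => ?_
    have hi' : i < d := Finset.mem_range.mp hi
    have h1 : p.coeff i ∈ I ^ (p.natDegree - i) := hcoeff i
    have h2 : I ^ (p.natDegree - i) ≤ I := Ideal.pow_le_self (by rw [hdeg]; omega)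
    exact Ideal.mul_mem_right _ _ (h2 h1)
  refine ⟨-(∑ i ∈ Finset.range d, p.coeff i * q ^ i), I.neg_mem hlow, fun x => ?_⟩
  have h := hkill x
  rw [heval, add_smul] at h
  rw [neg_smul]
  exact eq_neg_of_add_eq_zero_right h

/-- **`Q · ker N ⊆ range N`** with `Q = #(M / 𝔞 M) ^ d ≤ (B²) ^ d`. -/
theorem exists_nsmul_ker_le_range [Finite M] (D : CHData τ δ σ M) {B : ℕ} (hBU : BU σ T M B) :
    ∃ Q : ℕ, 0 < Q ∧ Q ≤ (B * B) ^ (⊤ : Submodule T M).spanFinrank ∧
      ∀ w : M, nil T σ w = 0 → Q • w ∈ LinearMap.range (nil T σ) := by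
  classical
  set q : ℕ := (ramSub τ σ M).toAddSubgroup.index with hq
  have hqB : q ≤ B * B := index_ramSub_le D hBU
  have hq0 : 0 < q := Nat.pos_of_ne_zero AddSubgroup.index_ne_zero_of_finite
  have hqM : ∀ x : M, (q : T) • x ∈ ramIdeal τ σ • (⊤ : Submodule T M) := by
    intro x
    rw [Nat.cast_smul_eq_nsmul]
    exact (ramSub τ σ M).toAddSubgroup.nsmul_index_mem x
  obtain ⟨a, ha, hax⟩ := exists_mem_ideal_pow_smul (M := M) (ramIdeal τ σ) (q : T) hqM
  refine ⟨q ^ (⊤ : Submodule T M).spanFinrank, pow_pos hq0 _, Nat.pow_le_pow_left hqB _,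
    fun w hw => ?_⟩
  have h1 : (q ^ (⊤ : Submodule T M).spanFinrank) • w =
      ((q : T) ^ (⊤ : Submodule T M).spanFinrank) • w := by
    rw [← Nat.cast_pow, Nat.cast_smul_eq_nsmul]
  rw [h1, hax w]
  exact smul_mem_range_of_mem_ram D ha hw

/-! ### Counting -/

section Count

variable {A : Type*} [AddCommGroup A] [Finite A]

/-- For an endomorphism `N` of a finite abelian group with `N² = 0` and `Q · ker N ⊆ range N`:
`(# ker N)² ≤ #A · #A[Q]`. -/
theorem card_ker_sq_le_of_nsmul (N : A →+ A) (Q : ℕ)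
    (hQ : ∀ w : A, N w = 0 → ∃ m : A, N m = Q • w) :
    Nat.card N.ker ^ 2 ≤ Nat.card A * Nat.card (nsmulAddMonoidHom Q : A →+ A).ker := by
  classical
  -- `#A = #ker · #range`
  have h1 : Nat.card A = Nat.card N.ker * Nat.card N.range := by
    have := AddSubgroup.card_eq_card_quotient_mul_card_addSubgroup N.ker
    rw [this, Nat.card_congr (QuotientAddGroup.quotientKerEquivRange N).toEquiv, mul_comm]
  -- the map `ker N → range N`, `w ↦ Q w`, has kernel inside `A[Q]`
  let φ : N.ker →+ N.range :=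
    { toFun := fun w => ⟨Q • (w : A), by
        obtain ⟨m, hm⟩ := hQ w w.2
        exact ⟨m, hm⟩⟩
      map_zero' := by
        apply Subtype.ext
        simp
      map_add' := fun a b => by
        apply Subtype.ext
        simp [smul_add] }
  have h2 : Nat.card N.ker = Nat.card φ.ker * Nat.card φ.range := by
    have := AddSubgroup.card_eq_card_quotient_mul_card_addSubgroup φ.ker
    rw [this, Nat.card_congr (QuotientAddGroup.quotientKerEquivRange φ).toEquiv, mul_comm]
  have h3 : Nat.card φ.range ≤ Nat.card N.range := Nat.card_le_card_of_injective _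
    (Subtype.val_injective)
  have h4 : Nat.card φ.ker ≤ Nat.card (nsmulAddMonoidHom Q : A →+ A).ker := by
    refine Nat.card_le_card_of_injective
      (fun w : φ.ker => (⟨((w : N.ker) : A), ?_⟩ : (nsmulAddMonoidHom Q : A →+ A).ker)) ?_
    · have hw := w.2
      rw [AddMonoidHom.mem_ker] at hw ⊢
      have := congrArg (fun z : N.range => (z : A)) hw
      simpa [φ] using this
    · intro a b hab
      have := congrArg (fun z : (nsmulAddMonoidHom Q : A →+ A).ker => (z : A)) hab
      exact Subtype.ext (Subtype.ext this)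
  calc Nat.card N.ker ^ 2 = Nat.card N.ker * Nat.card N.ker := sq _
    _ = Nat.card N.ker * (Nat.card φ.ker * Nat.card φ.range) := by rw [← h2]
    _ ≤ Nat.card N.ker * (Nat.card (nsmulAddMonoidHom Q : A →+ A).ker * Nat.card N.range) :=
        Nat.mul_le_mul_left _ (Nat.mul_le_mul h4 h3)
    _ = Nat.card A * Nat.card (nsmulAddMonoidHom Q : A →+ A).ker := by rw [h1]; ring

end Count

/-- **(PT) on the Eisenstein part, abstract form.**  Under `CHData` and the hypothesis `BU`
("bounded unramified"), the `σ`-invariants of `M` are at most half of `M` up to the factor `#M[Q]`,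
`Q ≤ (B²) ^ d`. -/
theorem card_ker_sq_le [Finite M] (D : CHData τ δ σ M) {B : ℕ} (hBU : BU σ T M B) :
    ∃ Q : ℕ, 0 < Q ∧ Q ≤ (B * B) ^ (⊤ : Submodule T M).spanFinrank ∧
      Nat.card (nil T σ : M →ₗ[T] M).toAddMonoidHom.ker ^ 2 ≤
        Nat.card M * Nat.card (nsmulAddMonoidHom Q : M →+ M).ker := by
  obtain ⟨Q, hQ0, hQB, hQ⟩ := exists_nsmul_ker_le_range D hBU
  refine ⟨Q, hQ0, hQB, card_ker_sq_le_of_nsmul _ Q fun w hw => ?_⟩
  obtain ⟨m, hm⟩ := hQ w hw
  exact ⟨m, hm⟩

end Fermat.Agent.MAZ.Desc.ToricAlg50
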