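/-
Programme MAZ (S15), G-side, pole P1 = (PT): ASSEMBLY of the algebraic route (helper50).
`ToricAlg50` (polarised Cayley–Hamilton, determinant trick) + `BoundedUnram2` (helper2: bounded
unramified pieces from the symmetric devissage) + `HomMuAlg50` (counting).

Abstract setting: `G ⊇ I`, `T`, a finite `(G, T)`-module `M` with `EisData π χ τ δ M`, a finite cyclic
`r`-group `C` (think `μ_{r^k}`) with `hδ` (`δ g` acts on `M` as the integer `u` through which `g` acts
on `C`), `σ ∈ I` generating the action of `I` on `M` (`hcyc`), `(σ - 1)² = 0`, the CARTIER property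
`F.Ok (M × Dual M C)` for an admissible family with `RankOneBound`, and the relation (NE) "no
Eisenstein eigensystem": `n' ∈ (τ g - 1 - δ g : g ∈ G) + Ann M`.

* `chData_of_eisData`  : `ToricAlg50.CHData` from `EisData` + `hδ`;
* `fixed_smul_eq_zero`, `equivariant_hom_smul_eq_zero` : the Eisenstein ideal kills `X^G` and is
  killed by every equivariant `X → C`;
* `bu_of_devissage`    : the hypothesis `ToricAlg50.BU σ T M B` with `B = b * n' ^ b`, `b = #M[n']`;
* `exists_nsmul_fixed_le_range` : **(PT) on the Eisenstein part, exponent form**: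
  `∃ Q > 0, Q ≤ (B * B) ^ d`, every `σ`-fixed `w ∈ M` has `Q • w = σ • m - m`.
-/
import Mathlib
import Fermat.Agent.MAZ.Desc.ToricAlg50
import Fermat.Agent.MAZ.Desc.BoundedUnram2
import Fermat.Agent.MAZ.Desc.HomMuAlg50

set_option autoImplicit false
set_option linter.style.haveILetI false
set_option linter.unusedSectionVars false

universe u

namespace Fermat.Agent.MAZ.Desc.ToricAsm50

open Fermat.Agent.MAZ.Desc Fermat.Agent.MAZ.Desc.SelmerCone95
  Fermat.Agent.MAZ.Desc.EisFiltration19 Fermat.Agent.MAZ.Desc.Devissage95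
  Fermat.Agent.MAZ.Desc.DualModule2 Fermat.Agent.MAZ.Desc.DualDevissage2
  Fermat.Agent.MAZ.Desc.BoundedUnram2 Fermat.Agent.MAZ.Desc.ToricAlg50

/-! ### Integers acting through a cyclic group -/

section Cyclic

variable {C : Type*} [AddCommGroup C] [Finite C] [IsAddCyclic C]
  {A : Type*} [AddCommGroup A]

/-- If two natural numbers act in the same way on the finite cyclic group `C`, they act in the same
way on every group killed by `#C`. -/
theorem nsmul_eq_of_forall_nsmul_eq (hAC : ∀ x : A, Nat.card C • x = 0) {a b : ℕ}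
    (hab : ∀ c : C, a • c = b • c) (x : A) : a • x = b • x := by
  obtain ⟨c₀, hc₀⟩ := IsAddCyclic.exists_generator (α := C)
  have hord : addOrderOf c₀ = Nat.card C := addOrderOf_eq_card_of_forall_mem_zmultiples hc₀
  have h1 : ((a : ℤ) - b) • c₀ = 0 := by
    rw [sub_smul, natCast_zsmul, natCast_zsmul, hab c₀, sub_self]
  have h2 : (addOrderOf c₀ : ℤ) ∣ (a : ℤ) - b := (addOrderOf_dvd_iff_zsmul_eq_zero).mpr h1
  rw [hord] at h2
  obtain ⟨k, hk⟩ := h2
  have h3 : ((a : ℤ) - b) • x = 0 := by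
    rw [hk, mul_comm, mul_smul, natCast_zsmul, hAC, smul_zero]
  rw [sub_smul, natCast_zsmul, natCast_zsmul, sub_eq_zero] at h3
  exact h3

/-- A natural number prime to `#C` acts injectively on `C`. -/
theorem eq_zero_of_nsmul_eq_zero_of_coprime {u : ℕ} (hu : u.Coprime (Nat.card C)) {c : C}
    (hc : u • c = 0) : c = 0 := by
  have h1 : addOrderOf c ∣ u := addOrderOf_dvd_of_nsmul_eq_zero hc
  have h2 : addOrderOf c ∣ Nat.card C := addOrderOf_dvd_natCard c
  have h3 : addOrderOf c = 1 := Nat.eq_one_of_dvd_coprimes hu h1 h2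
  exact AddMonoid.addOrderOf_eq_one_iff.mp h3

end Cyclic

variable {G : Type*} [Group G] {D I : Subgroup G} {T : Type*} [CommRing T] {r : ℕ}
  [hr : Fact r.Prime] {π : T →+* ZMod r} {χ : G →* ZMod r} {τ δ : G → T}

/-! ### `CHData` from `EisData` -/

section CH

variable {M : Type*} [AddCommGroup M] [DistribMulAction G M] [Module T M] [SMulCommClass G T M]
  {C : Type*} [AddCommGroup C] [DistribMulAction G C] [Finite C] [IsAddCyclic C]

/-- The hypotheses of `ToricAlg50` from the Eichler–Shimura data and the cyclotomic form of `δ`. -/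
theorem chData_of_eisData (E : EisData π χ τ δ M) (hMC : ∀ x : M, Nat.card C • x = 0)
    (hδ : ∀ g : G, ∃ u : ℕ, (∀ c : C, g • c = u • c) ∧ ∀ x : M, δ g • x = u • x)
    (σ : G) (hσC : ∀ c : C, σ • c = c) (hN2 : ∀ x : M, σ • (σ • x - x) = σ • x - x) :
    CHData τ δ σ M := by
  refine ⟨E.rel, fun g h x => ?_, fun x => ?_, fun x => ?_⟩
  · obtain ⟨ugh, hghC, hghM⟩ := hδ (g * h)
    obtain ⟨ug, hgC, hgM⟩ := hδ g
    obtain ⟨uh, hhC, hhM⟩ := hδ h
    rw [hghM, hhM, hgM, ← mul_smul]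
    refine nsmul_eq_of_forall_nsmul_eq (C := C) hMC (fun c => ?_) x
    rw [← hghC, mul_smul, hhC, smul_comm g uh c, hgC, ← mul_smul, mul_comm]
  · obtain ⟨u, huC, huM⟩ := hδ σ
    rw [huM]
    have := nsmul_eq_of_forall_nsmul_eq (C := C) (a := u) (b := 1) hMC
      (fun c => by rw [← huC, hσC, one_smul]) x
    rwa [one_smul] at this
  · rw [nil_apply, nil_apply, hN2, sub_self]

end CH

/-! ### The Eisenstein ideal, fixed points and equivariant maps -/

section Eis

variable {X : Type*} [AddCommGroup X] [DistribMulAction G X] [Module T X] [SMulCommClass G T X]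
  {C : Type*} [AddCommGroup C] [DistribMulAction G C] [Finite C] [IsAddCyclic C]

/-- The Eisenstein ideal `(τ g - 1 - δ g : g ∈ G)` of `T`. -/
def eisIdeal (τ δ : G → T) : Ideal T := Ideal.span (Set.range fun g : G => τ g - 1 - δ g)

/-- The Eisenstein ideal kills the `G`-fixed points. -/
theorem fixed_smul_eq_zero (hrel : ∀ (g : G) (x : X), g • g • x - τ g • g • x + δ g • x = 0)
    {a : T} (ha : a ∈ eisIdeal τ δ) {x : X} (hx : ∀ g : G, g • x = x) : a • x = 0 := by
  unfold eisIdeal at ha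
  induction ha using Submodule.span_induction with
  | mem y hy =>
    obtain ⟨g, rfl⟩ := hy
    have h := hrel g x
    rw [hx g, hx g] at h
    rw [sub_smul, sub_smul, one_smul]
    have : τ g • x - x - δ g • x = -(x - τ g • x + δ g • x) := by abel
    rw [this, h, neg_zero]
  | zero => exact zero_smul _ _
  | add y z _ _ hy hz => rw [add_smul, hy, hz, add_zero]
  | smul t y _ hy => rw [smul_eq_mul, mul_smul, hy, smul_zero]

/-- Every equivariant map to `C` kills the Eisenstein ideal. -/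
theorem equivariant_hom_smul_eq_zero
    (hrel : ∀ (g : G) (x : X), g • g • x - τ g • g • x + δ g • x = 0)
    (hδ : ∀ g : G, ∃ u : ℕ, u.Coprime (Nat.card C) ∧ (∀ c : C, g • c = u • c) ∧
      ∀ x : X, δ g • x = u • x)
    (f : X →+ C) (hf : ∀ (g : G) (x : X), f (g • x) = g • f x)
    {a : T} (ha : a ∈ eisIdeal τ δ) (x : X) : f (a • x) = 0 := by
  unfold eisIdeal at ha
  induction ha using Submodule.span_induction generalizing x with
  | mem y hy =>
    obtain ⟨g, rfl⟩ := hy
    obtain ⟨u, hu, huC, huX⟩ := hδ g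
    have h := congrArg f (hrel g x)
    rw [map_add, map_sub, map_zero, hf, hf, ← smul_comm g (τ g) x, hf, huX, map_nsmul, huC, huC,
      huC] at h
    -- `u • u • f x - u • f (τ g • x) + u • f x = 0`
    have h2 : u • (f x + u • f x - f (τ g • x)) = 0 := by
      rw [smul_sub, smul_add, ← h]
      abel
    have h3 := eq_zero_of_nsmul_eq_zero_of_coprime hu h2
    rw [sub_smul, sub_smul, one_smul, map_sub, map_sub, huX, map_nsmul]
    have : f (τ g • x) - f x - u • f x = -(f x + u • f x - f (τ g • x)) := by abel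
    rw [this, h3, neg_zero]
  | zero => rw [zero_smul, map_zero]
  | add y z _ _ hy hz => rw [add_smul, map_add, hy x, hz x, add_zero]
  | smul t y _ hy => rw [smul_eq_mul, mul_comm, mul_smul]; exact hy (t • x)

end Eis

/-! ### Counting torsion -/

section Tors

/-- `A[n]`. -/
def tors (n : ℕ) (A : Type*) [AddCommGroup A] : AddSubgroup A := (nsmulAddMonoidHom n : A →+ A).ker

theorem mem_tors {n : ℕ} {A : Type*} [AddCommGroup A] {x : A} : x ∈ tors n A ↔ n • x = 0 := by
  unfold tors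
  rw [AddMonoidHom.mem_ker]
  rfl

variable {A B : Type*} [AddCommGroup A] [AddCommGroup B]

theorem card_tors_le_of_injective [Finite B] (f : A →+ B) (hf : Function.Injective f) (n : ℕ) :
    Nat.card (tors n A) ≤ Nat.card (tors n B) := by
  refine Nat.card_le_card_of_injective
    (fun x : tors n A => (⟨f x.1, by
      rw [mem_tors, ← map_nsmul, mem_tors.mp x.2, map_zero]⟩ : tors n B)) ?_
  intro x y hxy
  exact Subtype.ext (hf (congrArg Subtype.val hxy))

theorem card_tors_le_of_surjective [Finite A] (f : A →+ B) (hf : Function.Surjective f) (n : ℕ) :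
    Nat.card (tors n B) ≤ Nat.card (tors n A) := by
  have : Finite B := Finite.of_surjective f hf
  unfold tors
  rw [← HomMuAlg50.card_quotient_nsmul (M := B) n, ← HomMuAlg50.card_quotient_nsmul (M := A) n]
  have hle : (nsmulAddMonoidHom n : A →+ A).range ≤
      ((nsmulAddMonoidHom n : B →+ B).range).comap f := by
    rintro _ ⟨x, rfl⟩
    exact ⟨f x, by simp⟩
  refine Nat.card_le_card_of_surjective (QuotientAddGroup.map _ _ f hle) ?_
  intro y
  induction y using QuotientAddGroup.induction_on with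
  | H y =>
    obtain ⟨x, rfl⟩ := hf y
    exact ⟨QuotientAddGroup.mk x, rfl⟩

/-- `#C[n] ≤ n` for a finite cyclic group. -/
theorem card_tors_cyclic_le {C : Type*} [AddCommGroup C] [Finite C] [IsAddCyclic C] {n : ℕ}
    (hn : 0 < n) : Nat.card (tors n C) ≤ n := by
  classical
  haveI : Fintype C := Fintype.ofFinite C
  have h := IsAddCyclic.card_nsmul_eq_zero_le (α := C) hn
  have h2 : Nat.card (tors n C) = (Finset.univ.filter fun a : C => n • a = 0).card := by
    rw [Nat.card_eq_fintype_card, Fintype.card_subtype]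
    refine congrArg Finset.card (Finset.filter_congr fun x _ => ?_)
    exact mem_tors
  rw [h2]
  exact h

end Tors

/-! ### The hypothesis `BU` from the symmetric devissage -/

section BUsec

variable {M : Type u} [AddCommGroup M] [DistribMulAction G M] [Module T M] [SMulCommClass G T M]

/-- the Eichler–Shimura data pass to stable submodules. -/
theorem eisData_sub (Y : Submodule T M) (hY : ∀ (g : G), ∀ y ∈ Y, g • y ∈ Y)
    (E : EisData π χ τ δ M) :
    letI := subDMA Y hY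
    EisData π χ τ δ Y := by
  letI := subDMA Y hY
  refine ⟨?_, E.tau, E.delta, fun g x => ?_⟩
  · obtain ⟨m, hm⟩ := E.nil
    exact ⟨m, fun t ht x => Subtype.ext (hm t ht x)⟩
  · exact Subtype.ext (E.rel g x)

theorem sub_smulCommClass (Y : Submodule T M) (hY : ∀ (g : G), ∀ y ∈ Y, g • y ∈ Y) :
    letI := subDMA Y hY
    SMulCommClass G T Y := by
  letI := subDMA Y hY
  exact ⟨fun g t x => Subtype.ext (smul_comm g t (x : M))⟩

/-- `σ ^ n • y - y ∈ Z` when `σ • y - y ∈ Z` for all `y ∈ Y` (`Y`, `Z` stable). -/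
theorem pow_smul_sub_mem (σ : G) (Y Z : Submodule T M) (_hY : ∀ (g : G), ∀ y ∈ Y, g • y ∈ Y)
    (hZ : ∀ (g : G), ∀ z ∈ Z, g • z ∈ Z) (hN : ∀ y ∈ Y, nil T σ y ∈ Z) (n : ℕ) {y : M}
    (hy : y ∈ Y) : σ ^ n • y - y ∈ Z := by
  induction n with
  | zero => rw [pow_zero, one_smul, sub_self]; exact Z.zero_mem
  | succ n ih =>
    have h1 : σ ^ (n + 1) • y - y = σ ^ n • (σ • y - y) + (σ ^ n • y - y) := by
      rw [pow_succ, mul_smul, smul_sub]
      abel
    rw [h1]
    exact Z.add_mem (hZ _ _ (hN y hy)) ih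

variable [Finite M]

/-- **(BU) from the symmetric devissage.** -/
theorem bu_of_devissage (F : AdmFamily.{u} G) (φ₀ : G) (hR : RankOneBound F D I r χ φ₀)
    (C : Type u) [AddCommGroup C] [DistribMulAction G C] [Finite C] [IsAddCyclic C]
    (hMC : ∀ x : M, Nat.card C • x = 0) (hIC : ∀ ι ∈ I, ∀ c : C, ι • c = c)
    (hδ : ∀ g : G, ∃ u : ℕ, (u : ZMod r) = χ g ∧ u.Coprime (Nat.card C) ∧
      (∀ c : C, g • c = u • c) ∧ ∀ x : M, δ g • x = u • x)
    (E : EisData π χ τ δ M) (hOk : F.Ok (M × Dual M C))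
    (σ : G) (hcyc : ∀ ι ∈ I, ∃ n : ℕ, ∀ x : M, ι • x = σ ^ n • x)
    (n' : ℕ) (hn' : 0 < n') (a : T) (ha : a ∈ eisIdeal τ δ) (hNE : ∀ x : M, n' • x = a • x) :
    BU σ T M (Nat.card (tors n' M) * n' ^ Nat.card (tors n' M)) := by
  intro Y Z hY hZ hZY hN
  classical
  letI iY : DistribMulAction G Y := subDMA Y hY
  haveI cY : SMulCommClass G T Y := sub_smulCommClass Y hY
  have EY : EisData π χ τ δ Y := eisData_sub Y hY E
  set Z' : Submodule T Y := Z.comap Y.subtype with hZ'def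
  have hZ' : ∀ (g : G), ∀ w ∈ Z', g • w ∈ Z' := fun g w hw => hZ g _ hw
  letI iX : DistribMulAction G (Y ⧸ Z') := quotDMA Z' hZ'
  haveI cX : SMulCommClass G T (Y ⧸ Z') := quot_smulCommClass Z' hZ'
  have EX : EisData π χ τ δ (Y ⧸ Z') := eisData_quot Z' hZ' EY
  haveI : Finite Y := Finite.of_injective _ Subtype.val_injective
  haveI : Finite (Y ⧸ Z') := Finite.of_surjective _ Z'.mkQ_surjective
  -- the exponent
  have hXC : ∀ x : Y ⧸ Z', Nat.card C • x = 0 := by
    intro x
    obtain ⟨y, rfl⟩ := Submodule.Quotient.mk_surjective Z' x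
    rw [← Submodule.Quotient.mk_smul]
    have : Nat.card C • y = 0 := Subtype.ext (by simpa using hMC (y : M))
    rw [this, Submodule.Quotient.mk_zero]
  -- `δ` on the subquotient
  have hδX : ∀ g : G, ∃ u : ℕ, (u : ZMod r) = χ g ∧ (∀ c : C, g • c = u • c) ∧
      ∀ x : Y ⧸ Z', δ g • x = u • x := by
    intro g
    obtain ⟨u, h1, -, h2, h3⟩ := hδ g
    refine ⟨u, h1, h2, fun x => ?_⟩
    obtain ⟨y, rfl⟩ := Submodule.Quotient.mk_surjective Z' x
    rw [← Submodule.Quotient.mk_smul, ← Submodule.Quotient.mk_smul]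
    congr 1
    exact Subtype.ext (by simpa using h3 (y : M))
  have hδX' : ∀ g : G, ∃ u : ℕ, u.Coprime (Nat.card C) ∧ (∀ c : C, g • c = u • c) ∧
      ∀ x : Y ⧸ Z', δ g • x = u • x := by
    intro g
    obtain ⟨u, -, h0, h2, h3⟩ := hδ g
    refine ⟨u, h0, h2, fun x => ?_⟩
    obtain ⟨y, rfl⟩ := Submodule.Quotient.mk_surjective Z' x
    rw [← Submodule.Quotient.mk_smul, ← Submodule.Quotient.mk_smul]
    congr 1
    exact Subtype.ext (by simpa using h3 (y : M))
  -- inertia acts trivially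
  have hIX : ∀ ι ∈ I, ∀ x : Y ⧸ Z', ι • x = x := by
    intro ι hι x
    obtain ⟨y, rfl⟩ := Submodule.Quotient.mk_surjective Z' x
    rw [quot_smul_mk Z' hZ']
    rw [Submodule.Quotient.eq]
    obtain ⟨n, hn⟩ := hcyc ι hι
    change ((ι • y - y : Y) : M) ∈ Z
    have : ((ι • y - y : Y) : M) = σ ^ n • (y : M) - y := by
      change ι • (y : M) - (y : M) = _
      rw [hn]
    rw [this]
    exact pow_smul_sub_mem σ Y Z hY hZ hN n y.2
  -- CARTIER for the subquotient
  have hOkY : F.Ok (Y × Dual Y C) :=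
    ok_dual_of_injective C F (Y.subtype : Y →ₗ[T] M).toAddMonoidHom (fun _ _ => rfl)
      Subtype.val_injective hMC hOk
  have hOkX : F.Ok ((Y ⧸ Z') × Dual (Y ⧸ Z') C) :=
    ok_dual_of_surjective C F (Z'.mkQ : Y →ₗ[T] Y ⧸ Z').toAddMonoidHom (fun _ _ => rfl)
      Z'.mkQ_surjective hOkY
  have hmain := card_le_of_inertia_trivial F φ₀ hR (Y ⧸ Z') C hXC hIC hδX EX hIX hOkX
  -- (NE) on the subquotient
  have hNEX : ∀ x : Y ⧸ Z', n' • x = a • x := by
    intro x
    obtain ⟨y, rfl⟩ := Submodule.Quotient.mk_surjective Z' x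
    rw [← Submodule.Quotient.mk_smul, ← Submodule.Quotient.mk_smul]
    congr 1
    exact Subtype.ext (by simpa using hNE (y : M))
  -- torsion of the subquotient
  have htX : Nat.card (tors n' (Y ⧸ Z')) ≤ Nat.card (tors n' M) :=
    (card_tors_le_of_surjective (Z'.mkQ : Y →ₗ[T] Y ⧸ Z').toAddMonoidHom Z'.mkQ_surjective n').trans
      (card_tors_le_of_injective (Y.subtype : Y →ₗ[T] M).toAddMonoidHom Subtype.val_injective n')
  -- the fixed points
  have hfix : Nat.card {x : Y ⧸ Z' // ∀ g : G, g • x = x} ≤ Nat.card (tors n' M) := by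
    refine le_trans (Nat.card_le_card_of_injective
      (fun x : {x : Y ⧸ Z' // ∀ g : G, g • x = x} => (⟨x.1, by
        rw [mem_tors, hNEX]
        exact fixed_smul_eq_zero EX.rel ha x.2⟩ : tors n' (Y ⧸ Z'))) ?_) htX
    intro x y hxy
    have h := congrArg (fun z : tors n' (Y ⧸ Z') => (z : Y ⧸ Z')) hxy
    exact Subtype.ext h
  -- the equivariant homomorphisms
  have hhom : Nat.card (equivariantHoms G (Y ⧸ Z') C) ≤ n' ^ Nat.card (tors n' M) := by
    let S : Set ((Y ⧸ Z') →+ C) := {f | ∀ (g : G) (x : Y ⧸ Z'), f (g • x) = g • f x}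
    have h1 : Nat.card (equivariantHoms G (Y ⧸ Z') C) = Nat.card S :=
      Nat.card_congr
        { toFun := fun f => ⟨f.1.hom, f.2⟩
          invFun := fun f => ⟨Dual.mk f.1, f.2⟩
          left_inv := fun _ => rfl
          right_inv := fun _ => rfl }
    have h2 := HomMuAlg50.card_le_of_nsmul_eq_zero n' S (fun f hf x => by
      rw [← map_nsmul, hNEX]
      exact equivariant_hom_smul_eq_zero EX.rel hδX' f hf ha x)
    rw [h1]
    refine h2.trans ?_
    calc Nat.card (nsmulAddMonoidHom n' : C →+ C).ker ^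
          Nat.card (nsmulAddMonoidHom n' : (Y ⧸ Z') →+ (Y ⧸ Z')).ker
        ≤ n' ^ Nat.card (nsmulAddMonoidHom n' : (Y ⧸ Z') →+ (Y ⧸ Z')).ker :=
          Nat.pow_le_pow_left (card_tors_cyclic_le (C := C) hn') _
      _ ≤ n' ^ Nat.card (tors n' M) := Nat.pow_le_pow_right hn' htX
  -- `relIndex = #(Y / Z')`
  have hcard : Z.toAddSubgroup.relIndex Y.toAddSubgroup = Nat.card (Y ⧸ Z') := by
    have e1 := AddSubgroup.card_mul_index (Z.toAddSubgroup.addSubgroupOf Y.toAddSubgroup)
    have e2 := Submodule.card_eq_card_quotient_mul_card Z'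
    have e3 : Nat.card (Z.toAddSubgroup.addSubgroupOf Y.toAddSubgroup) = Nat.card Z' := rfl
    have e4 : Nat.card Y.toAddSubgroup = Nat.card Y := rfl
    unfold AddSubgroup.relIndex
    rw [e3, e4, e2] at e1
    have hpos : 0 < Nat.card Z' := Nat.card_pos
    exact Nat.eq_of_mul_eq_mul_left hpos e1
  rw [hcard]
  exact hmain.trans (Nat.mul_le_mul hfix hhom)

end BUsec

/-! ### The final statement -/

section Final

variable {M : Type u} [AddCommGroup M] [DistribMulAction G M] [Module T M] [SMulCommClass G T M]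
  [Finite M]

/-- **(PT) on the Eisenstein part, exponent form, from the devissage.**  For `M` (think
`J₀(p)[r^k]_P`) with its Eichler–Shimura data, `C = μ_{r^k}`, CARTIER for `M`, `σ` generating the
action of the inertia group `I` with `(σ - 1)² = 0`, and `n' ∈ eisIdeal + Ann M`: there is
`Q ≤ (B * B) ^ d`, `B = b * n' ^ b`, `b = #M[n']`, `d` the number of generators of `M`, such that
`Q • M^σ ⊆ (σ - 1) M`. -/
theorem exists_nsmul_fixed_le_range (F : AdmFamily.{u} G) (φ₀ : G)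
    (hR : RankOneBound F D I r χ φ₀)
    (C : Type u) [AddCommGroup C] [DistribMulAction G C] [Finite C] [IsAddCyclic C]
    (hMC : ∀ x : M, Nat.card C • x = 0) (hIC : ∀ ι ∈ I, ∀ c : C, ι • c = c)
    (hδ : ∀ g : G, ∃ u : ℕ, (u : ZMod r) = χ g ∧ u.Coprime (Nat.card C) ∧
      (∀ c : C, g • c = u • c) ∧ ∀ x : M, δ g • x = u • x)
    (E : EisData π χ τ δ M) (hOk : F.Ok (M × Dual M C))
    (σ : G) (hσ : σ ∈ I) (hcyc : ∀ ι ∈ I, ∃ n : ℕ, ∀ x : M, ι • x = σ ^ n • x)
    (hN2 : ∀ x : M, σ • (σ • x - x) = σ • x - x)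
    (n' : ℕ) (hn' : 0 < n') (a : T) (ha : a ∈ eisIdeal τ δ) (hNE : ∀ x : M, n' • x = a • x) :
    ∃ Q : ℕ, 0 < Q ∧
      Q ≤ ((Nat.card (tors n' M) * n' ^ Nat.card (tors n' M)) *
        (Nat.card (tors n' M) * n' ^ Nat.card (tors n' M))) ^ (⊤ : Submodule T M).spanFinrank ∧
      ∀ w : M, σ • w = w → ∃ m : M, Q • w = σ • m - m := by
  have hδ' : ∀ g : G, ∃ u : ℕ, (∀ c : C, g • c = u • c) ∧ ∀ x : M, δ g • x = u • x := fun g => by
    obtain ⟨u, -, -, h2, h3⟩ := hδ g
    exact ⟨u, h2, h3⟩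
  have hCH : CHData τ δ σ M := chData_of_eisData E hMC hδ' σ (hIC σ hσ) hN2
  have hBU := bu_of_devissage F φ₀ hR C hMC hIC hδ E hOk σ hcyc n' hn' a ha hNE
  obtain ⟨Q, hQ0, hQB, hQ⟩ := exists_nsmul_ker_le_range hCH hBU
  refine ⟨Q, hQ0, hQB, fun w hw => ?_⟩
  obtain ⟨m, hm⟩ := hQ w (by rw [nil_apply, hw, sub_self])
  exact ⟨m, by rw [← hm, nil_apply]⟩

/-- **Uniform form.**  With bounds `b₀ ≥ #M[n']` and `d₀ ≥` the number of generators of `M`, the
single integer `c = (((b₀ n'^b₀)²)^d₀)!` satisfies `c • M^σ ⊆ (σ - 1) M`: the constant depends only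
on `(n', b₀, d₀)`, not on the exponent of `M`. -/
theorem factorial_nsmul_fixed_le_range (F : AdmFamily.{u} G) (φ₀ : G)
    (hR : RankOneBound F D I r χ φ₀)
    (C : Type u) [AddCommGroup C] [DistribMulAction G C] [Finite C] [IsAddCyclic C]
    (hMC : ∀ x : M, Nat.card C • x = 0) (hIC : ∀ ι ∈ I, ∀ c : C, ι • c = c)
    (hδ : ∀ g : G, ∃ u : ℕ, (u : ZMod r) = χ g ∧ u.Coprime (Nat.card C) ∧
      (∀ c : C, g • c = u • c) ∧ ∀ x : M, δ g • x = u • x)
    (E : EisData π χ τ δ M) (hOk : F.Ok (M × Dual M C))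
    (σ : G) (hσ : σ ∈ I) (hcyc : ∀ ι ∈ I, ∃ n : ℕ, ∀ x : M, ι • x = σ ^ n • x)
    (hN2 : ∀ x : M, σ • (σ • x - x) = σ • x - x)
    (n' : ℕ) (hn' : 0 < n') (a : T) (ha : a ∈ eisIdeal τ δ) (hNE : ∀ x : M, n' • x = a • x)
    (b₀ d₀ : ℕ) (hb : Nat.card (tors n' M) ≤ b₀) (hd : (⊤ : Submodule T M).spanFinrank ≤ d₀)
    (w : M) (hw : σ • w = w) :
    ∃ m : M, (((b₀ * n' ^ b₀) * (b₀ * n' ^ b₀)) ^ d₀).factorial • w = σ • m - m := by
  obtain ⟨Q, hQ0, hQB, hQ⟩ := exists_nsmul_fixed_le_range F φ₀ hR C hMC hIC hδ E hOk σ hσ hcyc hN2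
    n' hn' a ha hNE
  set b := Nat.card (tors n' M) with hbdef
  have hb1 : 0 < b := Nat.card_pos
  have h1 : b * n' ^ b ≤ b₀ * n' ^ b₀ :=
    Nat.mul_le_mul hb (Nat.pow_le_pow_right hn' hb)
  have hpos : 0 < (b₀ * n' ^ b₀) * (b₀ * n' ^ b₀) := by
    have : 0 < b₀ * n' ^ b₀ := Nat.mul_pos (lt_of_lt_of_le hb1 hb) (pow_pos hn' _)
    exact Nat.mul_pos this this
  have h2 : Q ≤ ((b₀ * n' ^ b₀) * (b₀ * n' ^ b₀)) ^ d₀ :=
    hQB.trans ((Nat.pow_le_pow_left (Nat.mul_le_mul h1 h1) _).trans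
      (Nat.pow_le_pow_right hpos hd))
  obtain ⟨j, hj⟩ := Nat.dvd_factorial hQ0 h2
  obtain ⟨m, hm⟩ := hQ w hw
  refine ⟨j • m, ?_⟩
  rw [hj, mul_comm, mul_smul, hm, smul_sub, smul_comm σ j m]

end Final

end Fermat.Agent.MAZ.Desc.ToricAsm50
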