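/-
Programme MAZ (S15), pole P1 = (PT), finite-level route (ruling 2346, brick T1): adapter from
`ToricAlg50.exists_nsmul_ker_le_range` to the UNIFORM exponent form used by the descent (G6).

* `card_quot_range_eq_card_ker` : for an endomorphism `f` of a finite abelian group,
                                  `#(M / f M) = # ker f`;
* `exists_finset_closure_eq_top` : a finite abelian group killed by `r ^ k` (`r` prime) whose
                                  `r`-torsion has at most `r ^ d` elements is generated by at most `d`
                                  elements;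
* `spanFinrank_top_le`          : hence `(⊤ : Submodule T M).spanFinrank ≤ d` for every ring `T`
                                  acting on `M`;
* `ptExp`                       : under `ToricAlg50.CHData` and `ToricAlg50.BU σ T M B`:
                                  `((B * B) ^ d)! • w ∈ (σ - 1) M` for every `σ`-fixed `w`; the
                                  constant depends only on `B` and `d`.
-/
import Mathlib
import Fermat.Agent.MAZ.Desc.ToricAlg50

set_option autoImplicit false
set_option linter.style.haveILetI false

namespace Fermat.Agent.MAZ.Desc.ToricExp76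

open Fermat.Agent.MAZ.Desc.ToricAlg50

section Count

variable {M : Type*} [AddCommGroup M]

/-- `#(M / f M) = # ker f` for an endomorphism of a finite abelian group. -/
theorem card_quot_range_eq_card_ker [Finite M] (f : M →+ M) :
    Nat.card (M ⧸ f.range) = Nat.card f.ker := by
  have h1 : Nat.card M = Nat.card (M ⧸ f.range) * Nat.card f.range :=
    AddSubgroup.card_eq_card_quotient_mul_card_addSubgroup f.range
  have h2 : Nat.card M = Nat.card f.ker * Nat.card f.range := by
    have := AddSubgroup.card_eq_card_quotient_mul_card_addSubgroup f.ker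
    rw [this, Nat.card_congr (QuotientAddGroup.quotientKerEquivRange f).toEquiv, mul_comm]
  have hpos : 0 < Nat.card f.range := Nat.card_pos
  exact Nat.eq_of_mul_eq_mul_right hpos (h1.symm.trans h2)

/-- Nakayama by hand: if `M = S + r M` and `r ^ k M = 0` then `S = M`. -/
theorem eq_top_of_forall_exists_add_nsmul (S : AddSubgroup M) (r k : ℕ)
    (hk : ∀ x : M, r ^ k • x = 0) (hS : ∀ x : M, ∃ s ∈ S, ∃ y : M, x = s + r • y) : S = ⊤ := by
  have key : ∀ j : ℕ, ∀ x : M, ∃ s ∈ S, ∃ y : M, x = s + r ^ j • y := by
    intro j
    induction j with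
    | zero =>
      intro x
      exact ⟨0, S.zero_mem, x, by rw [pow_zero, one_smul, zero_add]⟩
    | succ j ih =>
      intro x
      obtain ⟨s, hs, y, rfl⟩ := ih x
      obtain ⟨s', hs', y', rfl⟩ := hS y
      refine ⟨s + r ^ j • s', S.add_mem hs (S.nsmul_mem hs' _), y', ?_⟩
      rw [smul_add, pow_succ, mul_smul, add_assoc]
  rw [eq_top_iff]
  intro x _
  obtain ⟨s, hs, y, rfl⟩ := key k x
  rw [hk y, add_zero]
  exact hs

/-- A finite abelian group killed by a prime `r`, of order at most `r ^ d`, is generated by at most
`d` elements. -/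
theorem exists_finset_closure_eq_top_of_prime_smul {Q : Type*} [AddCommGroup Q] [Finite Q]
    {r d : ℕ} (hr : r.Prime) (hQ : ∀ q : Q, r • q = 0) (hd : Nat.card Q ≤ r ^ d) :
    ∃ s : Finset Q, s.card ≤ d ∧ AddSubgroup.closure (s : Set Q) = ⊤ := by
  classical
  haveI : Fact r.Prime := ⟨hr⟩
  haveI : Module (ZMod r) Q := AddCommGroup.zmodModule hQ
  haveI : Fintype Q := Fintype.ofFinite _
  have hcard : Nat.card Q = r ^ Module.finrank (ZMod r) Q := by
    rw [Nat.card_eq_fintype_card, Module.card_eq_pow_finrank (K := ZMod r), ZMod.card]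
  have hn : Module.finrank (ZMod r) Q ≤ d := by
    rw [← Nat.pow_le_pow_iff_right hr.one_lt, ← hcard]
    exact hd
  haveI : Module.Finite (ZMod r) Q := Module.Finite.of_finite
  set b := Module.finBasis (ZMod r) Q with hb
  refine ⟨Finset.image b Finset.univ, ?_, ?_⟩
  · refine (Finset.card_image_le).trans ?_
    rw [Finset.card_univ, Fintype.card_fin]
    exact hn
  · set S : AddSubgroup Q := AddSubgroup.closure ((Finset.image b Finset.univ : Finset Q) : Set Q)
      with hS
    -- `S` is a `ZMod r`-subspace containing the basis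
    let S' : Submodule (ZMod r) Q :=
      { carrier := S
        zero_mem' := S.zero_mem
        add_mem' := fun hs ht => S.add_mem hs ht
        smul_mem' := by
          intro c s hs
          have h1 : c • s = c.val • s := by
            rw [← Nat.cast_smul_eq_nsmul (ZMod r), ZMod.natCast_zmod_val]
          rw [h1]
          exact S.nsmul_mem hs _ }
    have hS' : S' = ⊤ := by
      rw [eq_top_iff, ← b.span_eq, Submodule.span_le]
      rintro _ ⟨i, rfl⟩
      change b i ∈ S
      refine AddSubgroup.subset_closure ?_
      rw [Finset.coe_image]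
      exact ⟨i, Finset.mem_coe.mpr (Finset.mem_univ i), rfl⟩
    rw [eq_top_iff]
    intro x _
    have hx : x ∈ S' := by rw [hS']; exact Submodule.mem_top
    exact hx

/-- A finite abelian group killed by `r ^ k` (`r` prime) whose `r`-torsion has at most `r ^ d`
elements is generated by at most `d` elements. -/
theorem exists_finset_closure_eq_top [Finite M] {r k d : ℕ} (hr : r.Prime)
    (hk : ∀ x : M, r ^ k • x = 0)
    (hd : Nat.card (nsmulAddMonoidHom r : M →+ M).ker ≤ r ^ d) :
    ∃ s : Finset M, s.card ≤ d ∧ AddSubgroup.closure (s : Set M) = ⊤ := by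
  classical
  set f : M →+ M := nsmulAddMonoidHom r with hf
  -- the quotient `Q = M / r M` is killed by `r` and has `# M[r]` elements
  have hQkill : ∀ q : M ⧸ f.range, r • q = 0 := by
    intro q
    obtain ⟨x, rfl⟩ := QuotientAddGroup.mk_surjective q
    rw [← QuotientAddGroup.mk_nsmul, QuotientAddGroup.eq_zero_iff]
    exact ⟨x, rfl⟩
  have hQcard : Nat.card (M ⧸ f.range) ≤ r ^ d := by
    rw [card_quot_range_eq_card_ker]
    exact hd
  obtain ⟨t, ht, hcl⟩ := exists_finset_closure_eq_top_of_prime_smul hr hQkill hQcard
  -- lift the generators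
  have hlift : ∀ q : M ⧸ f.range, ∃ m : M, (QuotientAddGroup.mk m : M ⧸ f.range) = q := fun q =>
    QuotientAddGroup.mk_surjective q
  choose m hm using hlift
  refine ⟨Finset.image m t, (Finset.card_image_le).trans ht, ?_⟩
  set S : AddSubgroup M := AddSubgroup.closure ((Finset.image m t : Finset M) : Set M) with hS
  apply eq_top_of_forall_exists_add_nsmul S r k hk
  -- the image of `S` in `Q` contains the generators, hence is everything
  have hmap : AddSubgroup.map (QuotientAddGroup.mk' f.range) S = ⊤ := by
    rw [eq_top_iff, ← hcl, AddSubgroup.closure_le]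
    intro q hq
    refine ⟨m q, AddSubgroup.subset_closure ?_, hm q⟩
    rw [Finset.coe_image]
    exact ⟨q, hq, rfl⟩
  intro x
  have hx : (QuotientAddGroup.mk' f.range x) ∈ AddSubgroup.map (QuotientAddGroup.mk' f.range) S := by
    rw [hmap]; exact AddSubgroup.mem_top _
  obtain ⟨s, hs, hsx⟩ := hx
  have h1 : -s + x ∈ f.range := QuotientAddGroup.eq.mp hsx
  obtain ⟨y, hy⟩ := h1
  refine ⟨s, hs, y, ?_⟩
  have : r • y = -s + x := hy
  rw [this]
  abel

/-- Hence `M` is generated by at most `d` elements over every ring acting on it. -/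
theorem spanFinrank_top_le (T : Type*) [Ring T] [Module T M] [Finite M] {r k d : ℕ}
    (hr : r.Prime) (hk : ∀ x : M, r ^ k • x = 0)
    (hd : Nat.card (nsmulAddMonoidHom r : M →+ M).ker ≤ r ^ d) :
    (⊤ : Submodule T M).spanFinrank ≤ d := by
  classical
  obtain ⟨s, hs, hcl⟩ := exists_finset_closure_eq_top hr hk hd
  have hspan : Submodule.span T (s : Set M) = ⊤ := by
    rw [eq_top_iff]
    intro x _
    have hx : x ∈ AddSubgroup.closure (s : Set M) := by rw [hcl]; exact AddSubgroup.mem_top x
    have hle : AddSubgroup.closure (s : Set M) ≤ (Submodule.span T (s : Set M)).toAddSubgroup := by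
      rw [AddSubgroup.closure_le]
      intro y hy
      exact Submodule.subset_span hy
    exact hle hx
  rw [← hspan]
  refine (Submodule.spanFinrank_span_le_ncard_of_finite s.finite_toSet).trans ?_
  rw [Set.ncard_coe_finset]
  exact hs

/-- Convenience form for a submodule of an ambient group `J` with finite `r`-torsion: the bound is
`# J[r]` itself (no exact count needed). -/
theorem spanFinrank_top_le_card_tors (T : Type*) [Ring T] [Module T M] [Finite M] {r k : ℕ}
    (hr : r.Prime) (hk : ∀ x : M, r ^ k • x = 0) {J : Type*} [AddCommGroup J] (ι : M →+ J)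
    (hι : Function.Injective ι) [Finite (nsmulAddMonoidHom r : J →+ J).ker] :
    (⊤ : Submodule T M).spanFinrank ≤ Nat.card (nsmulAddMonoidHom r : J →+ J).ker := by
  refine spanFinrank_top_le T hr hk ?_
  have h1 : Nat.card (nsmulAddMonoidHom r : M →+ M).ker ≤
      Nat.card (nsmulAddMonoidHom r : J →+ J).ker := by
    refine Nat.card_le_card_of_injective
      (fun x : (nsmulAddMonoidHom r : M →+ M).ker =>
        (⟨ι x.1, by
          have hx := x.2
          rw [AddMonoidHom.mem_ker] at hx ⊢
          change r • ι x.1 = 0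
          have hx' : r • x.1 = 0 := hx
          rw [← map_nsmul, hx', map_zero]⟩ : (nsmulAddMonoidHom r : J →+ J).ker)) ?_
    intro x y hxy
    exact Subtype.ext (hι (congrArg Subtype.val hxy))
  exact h1.trans (Nat.lt_pow_self hr.one_lt).le

end Count

section PT

variable {G : Type*} [Group G] {T : Type*} [CommRing T] {M : Type*} [AddCommGroup M]
  [DistribMulAction G M] [Module T M] [SMulCommClass G T M] {τ δ : G → T} {σ : G}

/-- The uniform exponent `((B * B) ^ d)!`. -/
def ptConst (B d : ℕ) : ℕ := ((B * B) ^ d).factorial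

theorem ptConst_pos (B d : ℕ) : 0 < ptConst B d := Nat.factorial_pos _

/-- **(PT), uniform exponent form, with the generator bound as a hypothesis.** -/
theorem ptExp_of_spanFinrank_le [Finite M] (D : CHData τ δ σ M) {B d : ℕ} (hBU : BU σ T M B)
    (hd : (⊤ : Submodule T M).spanFinrank ≤ d) :
    ∀ w : M, σ • w = w → ∃ m : M, ptConst B d • w = σ • m - m := by
  obtain ⟨Q, hQ0, hQB, hQ⟩ := exists_nsmul_ker_le_range D hBU
  have hB1 : 1 ≤ B * B := by
    by_contra h
    have h0 : B * B = 0 := by omega
    have hQ1 : Q ≤ 0 ^ (⊤ : Submodule T M).spanFinrank := by rw [← h0]; exact hQB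
    rcases Nat.eq_zero_or_pos (⊤ : Submodule T M).spanFinrank with h' | h'
    · -- `spanFinrank = 0`: `M` is trivial, but then `B ≥ 1` from `BU` at `(⊤, ⊤)`
      have hone : (⊤ : Submodule T M).toAddSubgroup.relIndex (⊤ : Submodule T M).toAddSubgroup ≤ B :=
        hBU ⊤ ⊤ (fun _ _ _ => Submodule.mem_top) (fun _ _ _ => Submodule.mem_top) le_rfl
          (fun _ _ => Submodule.mem_top)
      rw [AddSubgroup.relIndex_self] at hone
      have : B = 0 := by
        rcases Nat.eq_zero_or_pos B with hB | hB
        · exact hB
        · exfalso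
          have : 0 < B * B := Nat.mul_pos hB hB
          omega
      omega
    · rw [zero_pow (Nat.pos_iff_ne_zero.mp h')] at hQ1
      omega
  have hQle : Q ≤ (B * B) ^ d := hQB.trans (Nat.pow_le_pow_right hB1 hd)
  have hdvd : Q ∣ ptConst B d := Nat.dvd_factorial hQ0 hQle
  obtain ⟨e, he⟩ := hdvd
  intro w hw
  have hw0 : nil T σ w = 0 := by rw [nil_apply, hw, sub_self]
  obtain ⟨m, hm⟩ := hQ w hw0
  refine ⟨e • m, ?_⟩
  rw [he, mul_comm, mul_smul, ← hm, nil_apply, smul_sub, smul_comm σ e m]

/-- **(PT), uniform exponent form.**  `M` finite, killed by `r ^ k`, `#M[r] ≤ r ^ d`, with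
`CHData` and "bounded unramified" `BU σ T M B`: every `σ`-fixed `w` satisfies
`((B * B) ^ d)! • w ∈ (σ - 1) M`.  The constant depends only on `B` and `d`. -/
theorem ptExp [Finite M] (D : CHData τ δ σ M) {B : ℕ} (hBU : BU σ T M B) {r k d : ℕ}
    (hr : r.Prime) (hk : ∀ x : M, r ^ k • x = 0)
    (hd : Nat.card (nsmulAddMonoidHom r : M →+ M).ker ≤ r ^ d) :
    ∀ w : M, σ • w = w → ∃ m : M, ptConst B d • w = σ • m - m :=
  ptExp_of_spanFinrank_le D hBU (spanFinrank_top_le T hr hk hd)

end PT

end Fermat.Agent.MAZ.Desc.ToricExp76
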