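/-
Program MAZ (S15), G-side, pole P1 = (PT), brick (T4) wiring (helper90).

**`PFinPInst90.PTExp` from the finite-level toric algebra `ToricAsm50`.**

Vocabulary of `KummerInst26`: `↥(Mk p r k) = J₀(p)[r^k]` with the local instances `dmaMk`, `modMk`,
its `P`-primary part `primaryPart P ↥(Mk p r k)` with `primaryDMA`.

* `mem_MkP_iff`     : `PFinPInst90.MkP p P r k` is the image of `primaryPart P ↥(Mk p r k)` in `J₀(p)`;
* `ptExp_level`     : transport of the conclusion `c • ker (σ - 1) ⊆ im (σ - 1)` from the type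
  `↥(primaryPart P ↥(Mk p r k))` to the subgroup `MkP p P r k` of `J₀(p)(ℚ̄)`;
* `toric_level`     : `ToricAsm50.factorial_nsmul_fixed_le_range` at `M := primaryPart P (Mk p r k)`,
  `G := GQ`, `I := I_𝔄`, with `σ`, `hcyc`, `hN2`, `hb`, `hd` DISCHARGED from statements on `J₀(p)`
  (the generator hypothesis of `PTExp`, QUAD-J, finiteness of `J₀(p)[n']` and of `J₀(p)[r]`);
* `ToricLevelInput` : what is left at level `k` = the binders `F φ₀ hR C hMC hIC hδ E hOk a ha hNE`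
  of `ToricAsm50` (RANK-ONE, CARTIER, EIS-REL + `hδ`, (NE)), existentially packaged;
* `ptExp_of_toric`  : **`PTExp p (ker π) 𝔄 r c`, `c = (((b₀ n'^b₀)²)^d₀)!`, `b₀ = #J₀(p)[n']`,
  `d₀ = #J₀(p)[r]`**, from QUAD-J and `∀ k, ToricLevelInput k`.
-/
import Mathlib
import Fermat.Agent.MAZ.Desc.KummerInst26
import Fermat.Agent.MAZ.Desc.ToricAsm50
import Fermat.Agent.MAZ.Desc.ToricExp76
import Fermat.Agent.MAZ.Desc.PFinPInst90

set_option autoImplicit false
set_option linter.unusedSectionVars false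
set_option linter.unusedVariables false
set_option linter.style.haveILetI false

open AlgebraicCurve ModularCurve

noncomputable section

namespace Fermat.Agent.MAZ.Desc.PTExpInst90

open Fermat.Agent.X0 Fermat.Agent.MAZ.Spec.XSpec62 Fermat.Agent.MAZ.Spec.GSpec26
open Fermat.Agent.MAZ.Desc.SelmerCone95 Fermat.Agent.MAZ.Desc.Devissage95
  Fermat.Agent.MAZ.Desc.PrimaryPart19 Fermat.Agent.MAZ.Desc.ConePrimary95
  Fermat.Agent.MAZ.Desc.EisFiltration19 Fermat.Agent.MAZ.Desc.DualModule2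
  Fermat.Agent.MAZ.Desc.KummerInst26 Fermat.Agent.MAZ.Desc.ToricAsm50
  Fermat.Agent.MAZ.Desc.PFinPInst90

variable {p : ℕ} [NeZero p] {T : Type} [CommRing T] [Module T (JZero p)]
variable (r : ℕ) [Fact r.Prime] (k : ℕ)

attribute [local instance] dmaMk modMk primaryDMA

/-! ### Transport between `MkP` and `primaryPart P (Mk p r k)` -/

theorem mem_primaryPart_Mk_iff (P : Ideal T) (x : ↥(Mk p r k)) :
    x ∈ primaryPart P ↥(Mk p r k) ↔ ∃ j : ℕ, ∀ t ∈ P ^ j, t • (x : JZero p) = 0 := by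
  constructor
  · rintro ⟨j, hj⟩
    exact ⟨j, fun t ht => congrArg (fun y : ↥(Mk p r k) => (y : JZero p)) (hj t ht)⟩
  · rintro ⟨j, hj⟩
    exact ⟨j, fun t ht => Subtype.ext (hj t ht)⟩

theorem mem_MkP_iff (P : Ideal T) (x : JZero p) :
    x ∈ MkP p P r k ↔ ∃ h : x ∈ Mk p r k, (⟨x, h⟩ : ↥(Mk p r k)) ∈ primaryPart P ↥(Mk p r k) := by
  constructor
  · rintro ⟨h1, h2⟩
    exact ⟨(mem_Mk_iff r k).2 h1, (mem_primaryPart_Mk_iff r k P _).2 h2⟩
  · rintro ⟨h1, h2⟩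
    exact ⟨(mem_Mk_iff r k).1 h1, (mem_primaryPart_Mk_iff r k P _).1 h2⟩

/-- the inclusion of the primary part into `J₀(p)(ℚ̄)`. -/
def inclJ (hT : HeckeModel p T) (P : Ideal T) : ↥(primaryPart P ↥(Mk p r k)) →+ JZero p where
  toFun x := ((x : ↥(Mk p r k)) : JZero p)
  map_zero' := rfl
  map_add' _ _ := rfl

theorem inclJ_injective (hT : HeckeModel p T) (P : Ideal T) :
    Function.Injective (inclJ r k hT P) := fun x y h => Subtype.ext (Subtype.ext h)

/-- **Transport of the exponent statement** from the type `primaryPart P (Mk p r k)` to `MkP`. -/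
theorem ptExp_level (hT : HeckeModel p T) (P : Ideal T) (𝔄 : ValuationSubring Qb) (c : ℕ)
    (τ : ↥(𝔄.inertiaSubgroupIn ℚ))
    (h : haveI := smulComm_Mk r k hT
      ∀ w : ↥(primaryPart P ↥(Mk p r k)), (τ : GQ) • w = w →
        ∃ m : ↥(primaryPart P ↥(Mk p r k)), c • w = (τ : GQ) • m - m) :
    ∀ w ∈ MkP p P r k, τ • w = w → ∃ m ∈ MkP p P r k, c • w = τ • m - m := by
  haveI := smulComm_Mk r k hT
  intro w hw hτw
  obtain ⟨h1, h2⟩ := (mem_MkP_iff r k P w).1 hw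
  obtain ⟨m, hm⟩ := h ⟨⟨w, h1⟩, h2⟩ (Subtype.ext (Subtype.ext hτw))
  refine ⟨((m : ↥(Mk p r k)) : JZero p), (mem_MkP_iff r k P _).2 ⟨(m : ↥(Mk p r k)).2, m.2⟩, ?_⟩
  have := congrArg (fun y : ↥(primaryPart P ↥(Mk p r k)) => ((y : ↥(Mk p r k)) : JZero p)) hm
  exact this

/-! ### `ToricAsm50` at the primary part -/

set_option maxHeartbeats 600000 in
/-- **(PT)_P at level `k` for the generator `σ`**: `ToricAsm50.factorial_nsmul_fixed_le_range` with
`σ`, `hcyc`, `hN2`, `hb`, `hd` discharged. -/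
theorem toric_level (hT : HeckeModel p T) (π : T →+* ZMod r) (𝔄 : ValuationSubring Qb)
    [Finite ↥(Mk p r k)]
    (n' : ℕ) (hn' : 0 < n') [Finite {x : JZero p // n' • x = 0}]
    [Finite (nsmulAddMonoidHom r : JZero p →+ JZero p).ker]
    (hquad : ∀ σ ∈ 𝔄.inertiaSubgroupIn ℚ, ∀ x : JZero p, r ^ k • x = 0 →
      σ • σ • x + x = σ • x + σ • x)
    (σ : ↥(𝔄.inertiaSubgroupIn ℚ))
    (hgen : ∀ ι : ↥(𝔄.inertiaSubgroupIn ℚ), ∃ n : ℕ, ∀ x : JZero p, r ^ k • x = 0 →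
      ι • x = σ ^ n • x)
    (F : AdmFamily.{0} GQ) (φ₀ : GQ) {χ : GQ →* ZMod r} {τ δ : GQ → T}
    (hR : RankOneBound F (𝔄.decompositionSubgroup ℚ) (𝔄.inertiaSubgroupIn ℚ) r χ φ₀)
    (C : Type) [AddCommGroup C] [DistribMulAction GQ C] [Finite C] [IsAddCyclic C]
    (hMC : ∀ x : JZero p, r ^ k • x = 0 → Nat.card C • x = 0)
    (hIC : ∀ ι ∈ 𝔄.inertiaSubgroupIn ℚ, ∀ c : C, ι • c = c)
    (hδ : ∀ g : GQ, ∃ u : ℕ, (u : ZMod r) = χ g ∧ u.Coprime (Nat.card C) ∧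
      (∀ c : C, g • c = u • c) ∧ ∀ x : JZero p, r ^ k • x = 0 → δ g • x = u • x)
    (E : haveI := smulComm_Mk r k hT
      EisData π χ τ δ ↥(primaryPart (RingHom.ker π) ↥(Mk p r k)))
    (hOk : haveI := smulComm_Mk r k hT
      F.Ok (↥(primaryPart (RingHom.ker π) ↥(Mk p r k)) ×
        Dual ↥(primaryPart (RingHom.ker π) ↥(Mk p r k)) C))
    (a : T) (ha : a ∈ eisIdeal τ δ)
    (hNE : ∀ x ∈ MkP p (RingHom.ker π) r k, n' • x = a • x) :
    haveI := smulComm_Mk r k hT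
    ∀ w : ↥(primaryPart (RingHom.ker π) ↥(Mk p r k)), (σ : GQ) • w = w →
      ∃ m : ↥(primaryPart (RingHom.ker π) ↥(Mk p r k)),
        ((((Nat.card {x : JZero p // n' • x = 0} * n' ^ Nat.card {x : JZero p // n' • x = 0}) *
          (Nat.card {x : JZero p // n' • x = 0} * n' ^ Nat.card {x : JZero p // n' • x = 0})) ^
            Nat.card (nsmulAddMonoidHom r : JZero p →+ JZero p).ker).factorial) • w =
          (σ : GQ) • m - m := by
  haveI := smulComm_Mk r k hT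
  haveI := primary_smulCommClass (G := GQ) (M := ↥(Mk p r k)) (RingHom.ker π)
  set M := ↥(primaryPart (RingHom.ker π) ↥(Mk p r k)) with hM
  have hcoe : ∀ x : M, r ^ k • ((x : ↥(Mk p r k)) : JZero p) = 0 := fun x =>
    (mem_Mk_iff r k).1 (x : ↥(Mk p r k)).2
  have hmemP : ∀ x : M, ((x : ↥(Mk p r k)) : JZero p) ∈ MkP p (RingHom.ker π) r k := fun x =>
    (mem_MkP_iff r k (RingHom.ker π) _).2 ⟨(x : ↥(Mk p r k)).2, x.2⟩
  intro w hw
  refine factorial_nsmul_fixed_le_range (G := GQ) (D := 𝔄.decompositionSubgroup ℚ)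
    (I := 𝔄.inertiaSubgroupIn ℚ) (T := T) (r := r) (π := π) (χ := χ) (τ := τ) (δ := δ) (M := M)
    F φ₀ hR C ?_ hIC ?_ E hOk (σ : GQ) σ.2 ?_ ?_ n' hn' a ha ?_ _ _ ?_ ?_ w hw
  · -- hMC
    intro x
    exact Subtype.ext (Subtype.ext (hMC _ (hcoe x)))
  · -- hδ
    intro g
    obtain ⟨u, h1, h2, h3, h4⟩ := hδ g
    exact ⟨u, h1, h2, h3, fun x => Subtype.ext (Subtype.ext (h4 _ (hcoe x)))⟩
  · -- hcyc
    intro ι hι
    obtain ⟨n, hn⟩ := hgen ⟨ι, hι⟩
    refine ⟨n, fun x => Subtype.ext (Subtype.ext ?_)⟩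
    have := hn _ (hcoe x)
    exact this
  · -- hN2
    intro x
    apply Subtype.ext
    apply Subtype.ext
    have h := hquad (σ : GQ) σ.2 _ (hcoe x)
    show (σ : GQ) • ((σ : GQ) • ((x : ↥(Mk p r k)) : JZero p) - ((x : ↥(Mk p r k)) : JZero p)) =
      (σ : GQ) • ((x : ↥(Mk p r k)) : JZero p) - ((x : ↥(Mk p r k)) : JZero p)
    rw [smul_sub]
    have h2 : (σ : GQ) • (σ : GQ) • ((x : ↥(Mk p r k)) : JZero p) =
        (σ : GQ) • ((x : ↥(Mk p r k)) : JZero p) + (σ : GQ) • ((x : ↥(Mk p r k)) : JZero p) -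
          ((x : ↥(Mk p r k)) : JZero p) := by
      rw [← h]; abel
    rw [h2]; abel
  · -- hNE
    intro x
    exact Subtype.ext (Subtype.ext (hNE _ (hmemP x)))
  · -- hb
    refine Nat.card_le_card_of_injective
      (fun x : ↥(tors n' M) => (⟨(((x : M) : ↥(Mk p r k)) : JZero p), ?_⟩ :
        {x : JZero p // n' • x = 0})) ?_
    · have h := mem_tors.mp x.2
      have h2 := congrArg (fun y : M => ((y : ↥(Mk p r k)) : JZero p)) h
      exact h2
    · intro x y hxy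
      apply Subtype.ext
      apply Subtype.ext
      apply Subtype.ext
      exact congrArg (fun z : {x : JZero p // n' • x = 0} => (z : JZero p)) hxy
  · -- hd
    refine Fermat.Agent.MAZ.Desc.ToricExp76.spanFinrank_top_le_card_tors T (Fact.out : r.Prime)
      (k := k) (fun x => Subtype.ext (Subtype.ext (hcoe x))) (inclJ r k hT (RingHom.ker π))
      (inclJ_injective r k hT (RingHom.ker π))

/-! ### The level input and the final statement -/

/-- **What is left of P1 at level `k`**: the binders of `ToricAsm50.factorial_nsmul_fixed_le_range`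
which are NOT discharged in `toric_level` (RANK-ONE, the cyclic module `C = μ_{r^k}` with `hδ`,
EIS-REL on the primary part, CARTIER, (NE) with the uniform integer `n'`). -/
def ToricLevelInput (hT : HeckeModel p T) (π : T →+* ZMod r) (𝔄 : ValuationSubring Qb) (n' : ℕ)
    (k : ℕ) : Prop :=
  ∃ (F : AdmFamily.{0} GQ) (φ₀ : GQ) (χ : GQ →* ZMod r) (τ δ : GQ → T)
    (C : Type) (_ : AddCommGroup C) (_ : DistribMulAction GQ C) (_ : Finite C) (_ : IsAddCyclic C),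
    RankOneBound F (𝔄.decompositionSubgroup ℚ) (𝔄.inertiaSubgroupIn ℚ) r χ φ₀ ∧
    (∀ x : JZero p, r ^ k • x = 0 → Nat.card C • x = 0) ∧
    (∀ ι ∈ 𝔄.inertiaSubgroupIn ℚ, ∀ c : C, ι • c = c) ∧
    (∀ g : GQ, ∃ u : ℕ, (u : ZMod r) = χ g ∧ u.Coprime (Nat.card C) ∧
      (∀ c : C, g • c = u • c) ∧ ∀ x : JZero p, r ^ k • x = 0 → δ g • x = u • x) ∧
    (haveI := smulComm_Mk r k hT;
      EisData π χ τ δ ↥(primaryPart (RingHom.ker π) ↥(Mk p r k))) ∧
    (haveI := smulComm_Mk r k hT;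
      F.Ok (↥(primaryPart (RingHom.ker π) ↥(Mk p r k)) ×
        Dual ↥(primaryPart (RingHom.ker π) ↥(Mk p r k)) C)) ∧
    ∃ a ∈ eisIdeal τ δ, ∀ x ∈ MkP p (RingHom.ker π) r k, n' • x = a • x

/-- **P1 = (PT)_P in exponent form**, from QUAD-J and the level inputs. -/
theorem ptExp_of_toric (hT : HeckeModel p T) (π : T →+* ZMod r) (𝔄 : ValuationSubring Qb)
    (hfinM : ∀ k : ℕ, Finite ↥(Mk p r k))
    (n' : ℕ) (hn' : 0 < n') [Finite {x : JZero p // n' • x = 0}]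
    [Finite (nsmulAddMonoidHom r : JZero p →+ JZero p).ker]
    (hquad : ∀ σ ∈ 𝔄.inertiaSubgroupIn ℚ, ∀ (k : ℕ) (x : JZero p), r ^ k • x = 0 →
      σ • σ • x + x = σ • x + σ • x)
    (hlevel : ∀ k : ℕ, ToricLevelInput r hT π 𝔄 n' k) :
    PTExp p (RingHom.ker π) 𝔄 r
      ((((Nat.card {x : JZero p // n' • x = 0} * n' ^ Nat.card {x : JZero p // n' • x = 0}) *
        (Nat.card {x : JZero p // n' • x = 0} * n' ^ Nat.card {x : JZero p // n' • x = 0})) ^
          Nat.card (nsmulAddMonoidHom r : JZero p →+ JZero p).ker).factorial) := by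
  intro k σ hgen
  haveI := hfinM k
  obtain ⟨F, φ₀, χ, τ, δ, C, iC1, iC2, iC3, iC4, hR, hMC, hIC, hδ, E, hOk, a, ha, hNE⟩ := hlevel k
  exact ptExp_level r k hT (RingHom.ker π) 𝔄 _ σ
    (toric_level r k hT π 𝔄 n' hn' (fun σ hσ x hx => hquad σ hσ k x hx) σ hgen F φ₀ hR C hMC hIC
      hδ E hOk a ha hNE)

/-- **(P-FIN)_P end to end**: helper26's exit literal (#2249 (e); = the first two conjuncts of
`KummerInstP26.InputsP.level` + `fin`) from MW, divisibility, finiteness of torsion, `hcyc`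
(`HCyc48.hcyc`), the one-variable (NUM') on division points, and the level inputs of `ToricAsm50`. -/
theorem pfinP_of_toric (hT : HeckeModel p T) (hMW : MW p) (π : T →+* ZMod r)
    (𝔄 : ValuationSubring Qb)
    (hdiv : ∀ (z : JZero p) (k : ℕ), ∃ y : JZero p, r ^ k • y = z)
    (hfin : ∀ k : ℕ, Finite ↥(torsT p T (r ^ k)))
    (n' : ℕ) (hn' : 0 < n') [Finite {x : JZero p // n' • x = 0}]
    [Finite (nsmulAddMonoidHom r : JZero p →+ JZero p).ker]
    (hcyc : ∀ k : ℕ, ∃ τ : ↥(𝔄.inertiaSubgroupIn ℚ), ∀ σ : ↥(𝔄.inertiaSubgroupIn ℚ), ∃ m : ℕ,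
      ∀ y : JZero p, r ^ k • y ∈ ratPoints hT → σ • y = τ ^ m • y)
    (hquad : ∀ (k : ℕ) (τ : ↥(𝔄.inertiaSubgroupIn ℚ)) (y : JZero p), r ^ k • y ∈ ratPoints hT →
      τ • τ • y + y = τ • y + τ • y)
    (hlevel : ∀ k : ℕ, ToricLevelInput r hT π 𝔄 n' k) :
    ∃ A : Submodule T (JZero p), FiniteIndexIn A (ratPoints hT) ∧ ∀ k : ℕ, ∃ e : T,
      (∀ x ∈ primarySet (RingHom.ker π)
        (↥A ⧸ (Ideal.span {(r : T) ^ k} • ⊤ : Submodule T ↥A)), e • x = x) ∧
      ∀ z ∈ A, ∃ y : JZero p, (∀ σ ∈ 𝔄.inertiaSubgroupIn ℚ, σ • y = y) ∧ r ^ k • y = e • z := by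
  have hfinM : ∀ k : ℕ, Finite ↥(Mk p r k) := fun k =>
    haveI := hfin k
    Finite.of_injective
      (fun x : ↥(Mk p r k) => (⟨(x : JZero p), (mem_Mk_iff r k).1 x.2⟩ : ↥(torsT p T (r ^ k))))
      (fun x y hxy => Subtype.ext (congrArg (fun z : ↥(torsT p T (r ^ k)) => (z : JZero p)) hxy))
  have hquadJ : ∀ σ ∈ 𝔄.inertiaSubgroupIn ℚ, ∀ (k : ℕ) (x : JZero p), r ^ k • x = 0 →
      σ • σ • x + x = σ • x + σ • x := fun σ hσ k x hx =>
    hquad k ⟨σ, hσ⟩ x (by rw [hx]; exact (ratPoints hT).zero_mem)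
  exact pfinP hT hMW (RingHom.ker π) 𝔄 r _ (Fact.out : r.Prime).pos (Nat.factorial_pos _) hdiv hfin
    hcyc hquad (ptExp_of_toric r hT π 𝔄 hfinM n' hn' hquadJ hlevel)

end Fermat.Agent.MAZ.Desc.PTExpInst90
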