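/-
Programme MAZ (S15), G-side, pole P1 = (PT) at `r = 2`: ASSEMBLY of the algebraic route WITH MARKS
(helper50) = the marked twin of `ToricAsm50` (`r`-agnostic; needed for `r = 2`, where `ℤ/2` and `μ_2`
are the same Galois module and the devissage runs on marked modules, `DevissageMarked95`).
`ToricAsm50` + `BoundedUnramM50`.

Same abstract setting as `ToricAsm50`, with `(F : AdmFamily) (φ₀) (hR : RankOneBound F D I r χ φ₀)
(hOk : F.Ok (M × Dual M C))` replaced by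

  `(F : MarkedFamily) (hR : RankOneBoundM F D I r χ) (M₀ : AddSubgroup M)`
  `(hOk : F.Ok (M × Dual M C) (prodMark C M₀))`        (CARTIER with marks, `prodMark C M₀ = M₀ × M₀^⊥`)

and the SAME remaining binders (`hδ` is kept in the four-conjunct form of `ToricAsm50` so that a
consumer can pass the same term; its first conjunct is not used) and the SAME conclusions:

* `bu_of_devissage_marked` : `ToricAlg50.BU σ T M B` with `B = b * n' ^ b`, `b = #M[n']`;
* `exists_nsmul_fixed_le_range_marked` : `∃ Q > 0, Q ≤ (B * B) ^ d`, `Q • M^σ ⊆ (σ - 1) M`;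
* `factorial_nsmul_fixed_le_range_marked` : the uniform constant `c = (((b₀ n'^b₀)²)^d₀)!`.

The marks on the subquotients `X = Y / Z` are the induced ones (`Y ∩ M₀`, then its image), and the
dual mark is again the annihilator (`BoundedUnramM50.ok_prodMark_of_injective / _of_surjective`), so
the numeric hypothesis of the marked devissage is the identity `#X₀^⊥ · #X₀ = #X`.
-/
import Mathlib
import Fermat.Agent.MAZ.Desc.ToricAsm50
import Fermat.Agent.MAZ.Desc.BoundedUnramM50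

set_option autoImplicit false
set_option linter.style.haveILetI false
set_option linter.unusedSectionVars false

universe u

namespace Fermat.Agent.MAZ.Desc.ToricAsmM50

open Fermat.Agent.MAZ.Desc Fermat.Agent.MAZ.Desc.SelmerCone95
  Fermat.Agent.MAZ.Desc.EisFiltration19 Fermat.Agent.MAZ.Desc.Devissage95
  Fermat.Agent.MAZ.Desc.DualModule2 Fermat.Agent.MAZ.Desc.DualDevissage2
  Fermat.Agent.MAZ.Desc.BoundedUnram2 Fermat.Agent.MAZ.Desc.ToricAlg50
  Fermat.Agent.MAZ.Desc.ToricAsm50 Fermat.Agent.MAZ.Desc.DevissageMarked95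
  Fermat.Agent.MAZ.Desc.DualDevissageMarked95 Fermat.Agent.MAZ.Desc.BoundedUnramM50

variable {G : Type*} [Group G] {D I : Subgroup G} {T : Type*} [CommRing T] {r : ℕ}
  [hr : Fact r.Prime] {π : T →+* ZMod r} {χ : G →* ZMod r} {τ δ : G → T}

/-! ### The hypothesis `BU` from the symmetric marked devissage -/

section BUsec

variable {M : Type u} [AddCommGroup M] [DistribMulAction G M] [Module T M] [SMulCommClass G T M]
  [Finite M]

/-- **(BU) from the symmetric MARKED devissage.** -/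
theorem bu_of_devissage_marked (F : MarkedFamily.{u} G) (hR : RankOneBoundM F D I r χ)
    (C : Type u) [AddCommGroup C] [DistribMulAction G C] [Finite C] [IsAddCyclic C]
    (hMC : ∀ x : M, Nat.card C • x = 0) (hIC : ∀ ι ∈ I, ∀ c : C, ι • c = c)
    (hδ : ∀ g : G, ∃ u : ℕ, (u : ZMod r) = χ g ∧ u.Coprime (Nat.card C) ∧
      (∀ c : C, g • c = u • c) ∧ ∀ x : M, δ g • x = u • x)
    (E : EisData π χ τ δ M) (M₀ : AddSubgroup M) (hOk : F.Ok (M × Dual M C) (prodMark C M₀))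
    (σ : G) (hcyc : ∀ ι ∈ I, ∃ n : ℕ, ∀ x : M, ι • x = σ ^ n • x)
    (n' : ℕ) (hn' : 0 < n') (a : T) (ha : a ∈ eisIdeal τ δ) (hNE : ∀ x : M, n' • x = a • x) :
    BU σ T M (Nat.card (tors n' M) * n' ^ Nat.card (tors n' M)) := by
  intro Y Z hY hZ hZY hN
  classical
  letI iY : DistribMulAction G Y := subDMA Y hY
  haveI cY : SMulCommClass G T Y := sub_smulCommClass Y hY
  have EY : EisData π χ τ δ Y := eisData_sub Y hY E
  set Z' : Submodule T Y := Z.comap Y.subtype with hZ'def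
  have hZ' : ∀ (g : G), ∀ w ∈ Z', g • w ∈ Z' := fun g w hw => hZ g _ hw
  letI iX : DistribMulAction G (Y ⧸ Z') := quotDMA Z' hZ'
  haveI cX : SMulCommClass G T (Y ⧸ Z') := quot_smulCommClass Z' hZ'
  have EX : EisData π χ τ δ (Y ⧸ Z') := eisData_quot Z' hZ' EY
  haveI : Finite Y := Finite.of_injective _ Subtype.val_injective
  haveI : Finite (Y ⧸ Z') := Finite.of_surjective _ Z'.mkQ_surjective
  -- the exponent
  have hXC : ∀ x : Y ⧸ Z', Nat.card C • x = 0 := by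
    intro x
    obtain ⟨y, rfl⟩ := Submodule.Quotient.mk_surjective Z' x
    rw [← Submodule.Quotient.mk_smul]
    have : Nat.card C • y = 0 := Subtype.ext (by simpa using hMC (y : M))
    rw [this, Submodule.Quotient.mk_zero]
  -- `δ` on the subquotient
  have hδX : ∀ g : G, ∃ u : ℕ, (u : ZMod r) = χ g ∧ (∀ c : C, g • c = u • c) ∧
      ∀ x : Y ⧸ Z', δ g • x = u • x := by
    intro g
    obtain ⟨u, h1, -, h2, h3⟩ := hδ g
    refine ⟨u, h1, h2, fun x => ?_⟩
    obtain ⟨y, rfl⟩ := Submodule.Quotient.mk_surjective Z' x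
    rw [← Submodule.Quotient.mk_smul, ← Submodule.Quotient.mk_smul]
    congr 1
    exact Subtype.ext (by simpa using h3 (y : M))
  have hδX' : ∀ g : G, ∃ u : ℕ, u.Coprime (Nat.card C) ∧ (∀ c : C, g • c = u • c) ∧
      ∀ x : Y ⧸ Z', δ g • x = u • x := by
    intro g
    obtain ⟨u, -, h0, h2, h3⟩ := hδ g
    refine ⟨u, h0, h2, fun x => ?_⟩
    obtain ⟨y, rfl⟩ := Submodule.Quotient.mk_surjective Z' x
    rw [← Submodule.Quotient.mk_smul, ← Submodule.Quotient.mk_smul]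
    congr 1
    exact Subtype.ext (by simpa using h3 (y : M))
  -- inertia acts trivially
  have hIX : ∀ ι ∈ I, ∀ x : Y ⧸ Z', ι • x = x := by
    intro ι hι x
    obtain ⟨y, rfl⟩ := Submodule.Quotient.mk_surjective Z' x
    rw [quot_smul_mk Z' hZ']
    rw [Submodule.Quotient.eq]
    obtain ⟨n, hn⟩ := hcyc ι hι
    change ((ι • y - y : Y) : M) ∈ Z
    have : ((ι • y - y : Y) : M) = σ ^ n • (y : M) - y := by
      change ι • (y : M) - (y : M) = _
      rw [hn]
    rw [this]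
    exact pow_smul_sub_mem σ Y Z hY hZ hN n y.2
  -- CARTIER for the subquotient
  set Y₀ : AddSubgroup Y := M₀.comap (Y.subtype : Y →ₗ[T] M).toAddMonoidHom with hY₀
  have hOkY : F.Ok (Y × Dual Y C) (prodMark C Y₀) :=
    ok_prodMark_of_injective C F (Y.subtype : Y →ₗ[T] M).toAddMonoidHom (fun _ _ => rfl)
      Subtype.val_injective hMC M₀ hOk
  set X₀ : AddSubgroup (Y ⧸ Z') := Y₀.map (Z'.mkQ : Y →ₗ[T] Y ⧸ Z').toAddMonoidHom with hX₀
  have hOkX : F.Ok ((Y ⧸ Z') × Dual (Y ⧸ Z') C) (prodMark C X₀) :=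
    ok_prodMark_of_surjective C F (Z'.mkQ : Y →ₗ[T] Y ⧸ Z').toAddMonoidHom (fun _ _ => rfl)
      Z'.mkQ_surjective Y₀ hOkY
  have hδX'' : ∀ g : G, ∃ u : ℕ, (∀ c : C, g • c = u • c) ∧ ∀ x : Y ⧸ Z', δ g • x = u • x := by
    intro g
    obtain ⟨u, -, h2, h3⟩ := hδX g
    exact ⟨u, h2, h3⟩
  have hmain := card_le_of_inertia_trivial_prodMark F hR (Y ⧸ Z') C hXC hIC hδX'' EX hIX X₀ hOkX
  -- (NE) on the subquotient
  have hNEX : ∀ x : Y ⧸ Z', n' • x = a • x := by
    intro x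
    obtain ⟨y, rfl⟩ := Submodule.Quotient.mk_surjective Z' x
    rw [← Submodule.Quotient.mk_smul, ← Submodule.Quotient.mk_smul]
    congr 1
    exact Subtype.ext (by simpa using hNE (y : M))
  -- torsion of the subquotient
  have htX : Nat.card (tors n' (Y ⧸ Z')) ≤ Nat.card (tors n' M) :=
    (card_tors_le_of_surjective (Z'.mkQ : Y →ₗ[T] Y ⧸ Z').toAddMonoidHom Z'.mkQ_surjective n').trans
      (card_tors_le_of_injective (Y.subtype : Y →ₗ[T] M).toAddMonoidHom Subtype.val_injective n')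
  -- the fixed points
  have hfix : Nat.card {x : Y ⧸ Z' // ∀ g : G, g • x = x} ≤ Nat.card (tors n' M) := by
    refine le_trans (Nat.card_le_card_of_injective
      (fun x : {x : Y ⧸ Z' // ∀ g : G, g • x = x} => (⟨x.1, by
        rw [mem_tors, hNEX]
        exact fixed_smul_eq_zero EX.rel ha x.2⟩ : tors n' (Y ⧸ Z'))) ?_) htX
    intro x y hxy
    have h := congrArg (fun z : tors n' (Y ⧸ Z') => (z : Y ⧸ Z')) hxy
    exact Subtype.ext h
  -- the equivariant homomorphisms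
  have hhom : Nat.card (equivariantHoms G (Y ⧸ Z') C) ≤ n' ^ Nat.card (tors n' M) := by
    let S : Set ((Y ⧸ Z') →+ C) := {f | ∀ (g : G) (x : Y ⧸ Z'), f (g • x) = g • f x}
    have h1 : Nat.card (equivariantHoms G (Y ⧸ Z') C) = Nat.card S :=
      Nat.card_congr
        { toFun := fun f => ⟨f.1.hom, f.2⟩
          invFun := fun f => ⟨Dual.mk f.1, f.2⟩
          left_inv := fun _ => rfl
          right_inv := fun _ => rfl }
    have h2 := HomMuAlg50.card_le_of_nsmul_eq_zero n' S (fun f hf x => by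
      rw [← map_nsmul, hNEX]
      exact equivariant_hom_smul_eq_zero EX.rel hδX' f hf ha x)
    rw [h1]
    refine h2.trans ?_
    calc Nat.card (nsmulAddMonoidHom n' : C →+ C).ker ^
          Nat.card (nsmulAddMonoidHom n' : (Y ⧸ Z') →+ (Y ⧸ Z')).ker
        ≤ n' ^ Nat.card (nsmulAddMonoidHom n' : (Y ⧸ Z') →+ (Y ⧸ Z')).ker :=
          Nat.pow_le_pow_left (card_tors_cyclic_le (C := C) hn') _
      _ ≤ n' ^ Nat.card (tors n' M) := Nat.pow_le_pow_right hn' htX
  -- `relIndex = #(Y / Z')`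
  have hcard : Z.toAddSubgroup.relIndex Y.toAddSubgroup = Nat.card (Y ⧸ Z') := by
    have e1 := AddSubgroup.card_mul_index (Z.toAddSubgroup.addSubgroupOf Y.toAddSubgroup)
    have e2 := Submodule.card_eq_card_quotient_mul_card Z'
    have e3 : Nat.card (Z.toAddSubgroup.addSubgroupOf Y.toAddSubgroup) = Nat.card Z' := rfl
    have e4 : Nat.card Y.toAddSubgroup = Nat.card Y := rfl
    unfold AddSubgroup.relIndex
    rw [e3, e4, e2] at e1
    have hpos : 0 < Nat.card Z' := Nat.card_pos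
    exact Nat.eq_of_mul_eq_mul_left hpos e1
  rw [hcard]
  exact hmain.trans (Nat.mul_le_mul hfix hhom)

end BUsec

/-! ### The final statement -/

section Final

variable {M : Type u} [AddCommGroup M] [DistribMulAction G M] [Module T M] [SMulCommClass G T M]
  [Finite M]

/-- **(PT) on the Eisenstein part, exponent form, from the MARKED devissage.**  For `M` (think
`J₀(p)[r^k]_P`) with its Eichler–Shimura data, `C = μ_{r^k}`, CARTIER for `M`, `σ` generating the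
action of the inertia group `I` with `(σ - 1)² = 0`, and `n' ∈ eisIdeal + Ann M`: there is
`Q ≤ (B * B) ^ d`, `B = b * n' ^ b`, `b = #M[n']`, `d` the number of generators of `M`, such that
`Q • M^σ ⊆ (σ - 1) M`. -/
theorem exists_nsmul_fixed_le_range_marked (F : MarkedFamily.{u} G)
    (hR : RankOneBoundM F D I r χ)
    (C : Type u) [AddCommGroup C] [DistribMulAction G C] [Finite C] [IsAddCyclic C]
    (hMC : ∀ x : M, Nat.card C • x = 0) (hIC : ∀ ι ∈ I, ∀ c : C, ι • c = c)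
    (hδ : ∀ g : G, ∃ u : ℕ, (u : ZMod r) = χ g ∧ u.Coprime (Nat.card C) ∧
      (∀ c : C, g • c = u • c) ∧ ∀ x : M, δ g • x = u • x)
    (E : EisData π χ τ δ M) (M₀ : AddSubgroup M) (hOk : F.Ok (M × Dual M C) (prodMark C M₀))
    (σ : G) (hσ : σ ∈ I) (hcyc : ∀ ι ∈ I, ∃ n : ℕ, ∀ x : M, ι • x = σ ^ n • x)
    (hN2 : ∀ x : M, σ • (σ • x - x) = σ • x - x)
    (n' : ℕ) (hn' : 0 < n') (a : T) (ha : a ∈ eisIdeal τ δ) (hNE : ∀ x : M, n' • x = a • x) :
    ∃ Q : ℕ, 0 < Q ∧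
      Q ≤ ((Nat.card (tors n' M) * n' ^ Nat.card (tors n' M)) *
        (Nat.card (tors n' M) * n' ^ Nat.card (tors n' M))) ^ (⊤ : Submodule T M).spanFinrank ∧
      ∀ w : M, σ • w = w → ∃ m : M, Q • w = σ • m - m := by
  have hδ' : ∀ g : G, ∃ u : ℕ, (∀ c : C, g • c = u • c) ∧ ∀ x : M, δ g • x = u • x := fun g => by
    obtain ⟨u, -, -, h2, h3⟩ := hδ g
    exact ⟨u, h2, h3⟩
  have hCH : CHData τ δ σ M := chData_of_eisData E hMC hδ' σ (hIC σ hσ) hN2
  have hBU := bu_of_devissage_marked F hR C hMC hIC hδ E M₀ hOk σ hcyc n' hn' a ha hNE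
  obtain ⟨Q, hQ0, hQB, hQ⟩ := exists_nsmul_ker_le_range hCH hBU
  refine ⟨Q, hQ0, hQB, fun w hw => ?_⟩
  obtain ⟨m, hm⟩ := hQ w (by rw [nil_apply, hw, sub_self])
  exact ⟨m, by rw [← hm, nil_apply]⟩

/-- **Uniform form.**  With bounds `b₀ ≥ #M[n']` and `d₀ ≥` the number of generators of `M`, the
single integer `c = (((b₀ n'^b₀)²)^d₀)!` satisfies `c • M^σ ⊆ (σ - 1) M`: the constant depends only
on `(n', b₀, d₀)`, not on the exponent of `M`. -/
theorem factorial_nsmul_fixed_le_range_marked (F : MarkedFamily.{u} G)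
    (hR : RankOneBoundM F D I r χ)
    (C : Type u) [AddCommGroup C] [DistribMulAction G C] [Finite C] [IsAddCyclic C]
    (hMC : ∀ x : M, Nat.card C • x = 0) (hIC : ∀ ι ∈ I, ∀ c : C, ι • c = c)
    (hδ : ∀ g : G, ∃ u : ℕ, (u : ZMod r) = χ g ∧ u.Coprime (Nat.card C) ∧
      (∀ c : C, g • c = u • c) ∧ ∀ x : M, δ g • x = u • x)
    (E : EisData π χ τ δ M) (M₀ : AddSubgroup M) (hOk : F.Ok (M × Dual M C) (prodMark C M₀))
    (σ : G) (hσ : σ ∈ I) (hcyc : ∀ ι ∈ I, ∃ n : ℕ, ∀ x : M, ι • x = σ ^ n • x)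
    (hN2 : ∀ x : M, σ • (σ • x - x) = σ • x - x)
    (n' : ℕ) (hn' : 0 < n') (a : T) (ha : a ∈ eisIdeal τ δ) (hNE : ∀ x : M, n' • x = a • x)
    (b₀ d₀ : ℕ) (hb : Nat.card (tors n' M) ≤ b₀) (hd : (⊤ : Submodule T M).spanFinrank ≤ d₀)
    (w : M) (hw : σ • w = w) :
    ∃ m : M, (((b₀ * n' ^ b₀) * (b₀ * n' ^ b₀)) ^ d₀).factorial • w = σ • m - m := by
  obtain ⟨Q, hQ0, hQB, hQ⟩ := exists_nsmul_fixed_le_range_marked F hR C hMC hIC hδ E M₀ hOk σ hσ
    hcyc hN2 n' hn' a ha hNE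
  set b := Nat.card (tors n' M) with hbdef
  have hb1 : 0 < b := Nat.card_pos
  have h1 : b * n' ^ b ≤ b₀ * n' ^ b₀ :=
    Nat.mul_le_mul hb (Nat.pow_le_pow_right hn' hb)
  have hpos : 0 < (b₀ * n' ^ b₀) * (b₀ * n' ^ b₀) := by
    have : 0 < b₀ * n' ^ b₀ := Nat.mul_pos (lt_of_lt_of_le hb1 hb) (pow_pos hn' _)
    exact Nat.mul_pos this this
  have h2 : Q ≤ ((b₀ * n' ^ b₀) * (b₀ * n' ^ b₀)) ^ d₀ :=
    hQB.trans ((Nat.pow_le_pow_left (Nat.mul_le_mul h1 h1) _).trans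
      (Nat.pow_le_pow_right hpos hd))
  obtain ⟨j, hj⟩ := Nat.dvd_factorial hQ0 h2
  obtain ⟨m, hm⟩ := hQ w hw
  refine ⟨j • m, ?_⟩
  rw [hj, mul_comm, mul_smul, hm, smul_sub, smul_comm σ j m]


/-- **Abstract dual mark.**  The same with the mark of the dual given ABSTRACTLY (`D₀`, think "the
connected part of the Cartier dual"), together with the formal inclusion `M₀^⊥ ≤ D₀` and the count
`#D₀ · #M₀ ≤ #M` (they force `D₀ = M₀^⊥`, `BoundedUnramM50.eq_ann_of_card_le`). -/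
theorem factorial_nsmul_fixed_le_range_marked_abs (F : MarkedFamily.{u} G)
    (hR : RankOneBoundM F D I r χ)
    (C : Type u) [AddCommGroup C] [DistribMulAction G C] [Finite C] [IsAddCyclic C]
    (hMC : ∀ x : M, Nat.card C • x = 0) (hIC : ∀ ι ∈ I, ∀ c : C, ι • c = c)
    (hδ : ∀ g : G, ∃ u : ℕ, (u : ZMod r) = χ g ∧ u.Coprime (Nat.card C) ∧
      (∀ c : C, g • c = u • c) ∧ ∀ x : M, δ g • x = u • x)
    (E : EisData π χ τ δ M) (M₀ : AddSubgroup M) (D₀ : AddSubgroup (Dual M C))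
    (hOk : F.Ok (M × Dual M C) (M₀.prod D₀)) (hann : Dual.ann C M₀ ≤ D₀)
    (hD₀ : Nat.card D₀ * Nat.card M₀ ≤ Nat.card M)
    (σ : G) (hσ : σ ∈ I) (hcyc : ∀ ι ∈ I, ∃ n : ℕ, ∀ x : M, ι • x = σ ^ n • x)
    (hN2 : ∀ x : M, σ • (σ • x - x) = σ • x - x)
    (n' : ℕ) (hn' : 0 < n') (a : T) (ha : a ∈ eisIdeal τ δ) (hNE : ∀ x : M, n' • x = a • x)
    (b₀ d₀ : ℕ) (hb : Nat.card (tors n' M) ≤ b₀) (hd : (⊤ : Submodule T M).spanFinrank ≤ d₀)
    (w : M) (hw : σ • w = w) :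
    ∃ m : M, (((b₀ * n' ^ b₀) * (b₀ * n' ^ b₀)) ^ d₀).factorial • w = σ • m - m := by
  have h := eq_ann_of_card_le C hMC M₀ D₀ hann hD₀
  subst h
  exact factorial_nsmul_fixed_le_range_marked F hR C hMC hIC hδ E M₀ hOk σ hσ hcyc hN2 n' hn' a ha
    hNE b₀ d₀ hb hd w hw

end Final

end Fermat.Agent.MAZ.Desc.ToricAsmM50
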