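/-
Program MAZ (S15), G-side, pole P1 = (PT), brick (T4) wiring, MARKED VARIANT (helper90)
= the `r = 2` twin of `PTExpInstB90` (`r`-agnostic), on top of helper50's `ToricAsmM50`.

Same as `PTExpInstB90` (level inputs on the TYPE `↥(primaryPart (ker π) ↥(Mk p r k))`), with

  `(F : AdmFamily) (φ₀) (hR : RankOneBound F D I r χ φ₀) (hOk : F.Ok (M × Dual M C))`

replaced by

  `(F : MarkedFamily) (hR : RankOneBoundM F D I r χ) (M₀ : AddSubgroup M)`
  `(hOk : F.Ok (M × Dual M C) (prodMark C M₀))`          (CARTIER with marks).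

* `toric_level_marked'`, `ToricLevelInputM'`, `ptExp_of_toric_marked'`, `pfinP_of_toric_marked'`.
-/
import Mathlib
import Fermat.Agent.MAZ.Desc.PTExpInst90
import Fermat.Agent.MAZ.Desc.ToricAsmM50

set_option autoImplicit false
set_option linter.unusedSectionVars false
set_option linter.unusedVariables false
set_option linter.style.haveILetI false

open AlgebraicCurve ModularCurve

noncomputable section

namespace Fermat.Agent.MAZ.Desc.PTExpInstM90

open Fermat.Agent.X0 Fermat.Agent.MAZ.Spec.XSpec62 Fermat.Agent.MAZ.Spec.GSpec26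
open Fermat.Agent.MAZ.Desc.SelmerCone95 Fermat.Agent.MAZ.Desc.Devissage95
  Fermat.Agent.MAZ.Desc.PrimaryPart19 Fermat.Agent.MAZ.Desc.ConePrimary95
  Fermat.Agent.MAZ.Desc.EisFiltration19 Fermat.Agent.MAZ.Desc.DualModule2
  Fermat.Agent.MAZ.Desc.KummerInst26 Fermat.Agent.MAZ.Desc.ToricAsm50
  Fermat.Agent.MAZ.Desc.PFinPInst90 Fermat.Agent.MAZ.Desc.PTExpInst90
  Fermat.Agent.MAZ.Desc.DevissageMarked95 Fermat.Agent.MAZ.Desc.DualDevissageMarked95
  Fermat.Agent.MAZ.Desc.ToricAsmM50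

variable {p : ℕ} [NeZero p] {T : Type} [CommRing T] [Module T (JZero p)]
variable (r : ℕ) [Fact r.Prime] (k : ℕ)

attribute [local instance] dmaMk modMk primaryDMA

set_option maxHeartbeats 600000 in
/-- **(PT)_P at level `k` for the generator `σ`, marked form**:
`ToricAsmM50.factorial_nsmul_fixed_le_range_marked` at `M := primaryPart (ker π) (Mk p r k)` with
`σ`, `hcyc`, `hN2`, `hb`, `hd` discharged. -/
theorem toric_level_marked' (hT : HeckeModel p T) (π : T →+* ZMod r) (𝔄 : ValuationSubring Qb)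
    [Finite ↥(Mk p r k)]
    (n' : ℕ) (hn' : 0 < n') [Finite {x : JZero p // n' • x = 0}]
    [Finite (nsmulAddMonoidHom r : JZero p →+ JZero p).ker]
    (hquad : ∀ σ ∈ 𝔄.inertiaSubgroupIn ℚ, ∀ x : JZero p, r ^ k • x = 0 →
      σ • σ • x + x = σ • x + σ • x)
    (σ : ↥(𝔄.inertiaSubgroupIn ℚ))
    (hgen : ∀ ι : ↥(𝔄.inertiaSubgroupIn ℚ), ∃ n : ℕ, ∀ x : JZero p, r ^ k • x = 0 →
      ι • x = σ ^ n • x)
    (F : MarkedFamily.{0} GQ) {χ : GQ →* ZMod r} {τ δ : GQ → T}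
    (hR : RankOneBoundM F (𝔄.decompositionSubgroup ℚ) (𝔄.inertiaSubgroupIn ℚ) r χ)
    (C : Type) [AddCommGroup C] [DistribMulAction GQ C] [Finite C] [IsAddCyclic C]
    (hMC : haveI := smulComm_Mk r k hT
      ∀ x : ↥(primaryPart (RingHom.ker π) ↥(Mk p r k)), Nat.card C • x = 0)
    (hIC : ∀ ι ∈ 𝔄.inertiaSubgroupIn ℚ, ∀ c : C, ι • c = c)
    (hδ : haveI := smulComm_Mk r k hT
      ∀ g : GQ, ∃ u : ℕ, (u : ZMod r) = χ g ∧ u.Coprime (Nat.card C) ∧
        (∀ c : C, g • c = u • c) ∧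
        ∀ x : ↥(primaryPart (RingHom.ker π) ↥(Mk p r k)), δ g • x = u • x)
    (E : haveI := smulComm_Mk r k hT
      EisData π χ τ δ ↥(primaryPart (RingHom.ker π) ↥(Mk p r k)))
    (M₀ : haveI := smulComm_Mk r k hT
      AddSubgroup ↥(primaryPart (RingHom.ker π) ↥(Mk p r k)))
    (hOk : haveI := smulComm_Mk r k hT
      F.Ok (↥(primaryPart (RingHom.ker π) ↥(Mk p r k)) ×
        Dual ↥(primaryPart (RingHom.ker π) ↥(Mk p r k)) C) (prodMark C M₀))
    (a : T) (ha : a ∈ eisIdeal τ δ)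
    (hNE : haveI := smulComm_Mk r k hT
      ∀ x : ↥(primaryPart (RingHom.ker π) ↥(Mk p r k)), n' • x = a • x) :
    haveI := smulComm_Mk r k hT
    ∀ w : ↥(primaryPart (RingHom.ker π) ↥(Mk p r k)), (σ : GQ) • w = w →
      ∃ m : ↥(primaryPart (RingHom.ker π) ↥(Mk p r k)),
        ((((Nat.card {x : JZero p // n' • x = 0} * n' ^ Nat.card {x : JZero p // n' • x = 0}) *
          (Nat.card {x : JZero p // n' • x = 0} * n' ^ Nat.card {x : JZero p // n' • x = 0})) ^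
            Nat.card (nsmulAddMonoidHom r : JZero p →+ JZero p).ker).factorial) • w =
          (σ : GQ) • m - m := by
  haveI := smulComm_Mk r k hT
  haveI := primary_smulCommClass (G := GQ) (M := ↥(Mk p r k)) (RingHom.ker π)
  set M := ↥(primaryPart (RingHom.ker π) ↥(Mk p r k)) with hM
  have hcoe : ∀ x : M, r ^ k • ((x : ↥(Mk p r k)) : JZero p) = 0 := fun x =>
    (mem_Mk_iff r k).1 (x : ↥(Mk p r k)).2
  intro w hw
  refine factorial_nsmul_fixed_le_range_marked (G := GQ) (D := 𝔄.decompositionSubgroup ℚ)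
    (I := 𝔄.inertiaSubgroupIn ℚ) (T := T) (r := r) (π := π) (χ := χ) (τ := τ) (δ := δ) (M := M)
    F hR C hMC hIC hδ E M₀ hOk (σ : GQ) σ.2 ?_ ?_ n' hn' a ha hNE _ _ ?_ ?_ w hw
  · -- hcyc
    intro ι hι
    obtain ⟨n, hn⟩ := hgen ⟨ι, hι⟩
    refine ⟨n, fun x => Subtype.ext (Subtype.ext ?_)⟩
    have := hn _ (hcoe x)
    exact this
  · -- hN2
    intro x
    apply Subtype.ext
    apply Subtype.ext
    have h := hquad (σ : GQ) σ.2 _ (hcoe x)
    show (σ : GQ) • ((σ : GQ) • ((x : ↥(Mk p r k)) : JZero p) - ((x : ↥(Mk p r k)) : JZero p)) =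
      (σ : GQ) • ((x : ↥(Mk p r k)) : JZero p) - ((x : ↥(Mk p r k)) : JZero p)
    rw [smul_sub]
    have h2 : (σ : GQ) • (σ : GQ) • ((x : ↥(Mk p r k)) : JZero p) =
        (σ : GQ) • ((x : ↥(Mk p r k)) : JZero p) + (σ : GQ) • ((x : ↥(Mk p r k)) : JZero p) -
          ((x : ↥(Mk p r k)) : JZero p) := by
      rw [← h]; abel
    rw [h2]; abel
  · -- hb
    refine Nat.card_le_card_of_injective
      (fun x : ↥(tors n' M) => (⟨(((x : M) : ↥(Mk p r k)) : JZero p), ?_⟩ :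
        {x : JZero p // n' • x = 0})) ?_
    · have h := mem_tors.mp x.2
      have h2 := congrArg (fun y : M => ((y : ↥(Mk p r k)) : JZero p)) h
      exact h2
    · intro x y hxy
      apply Subtype.ext
      apply Subtype.ext
      apply Subtype.ext
      exact congrArg (fun z : {x : JZero p // n' • x = 0} => (z : JZero p)) hxy
  · -- hd
    refine Fermat.Agent.MAZ.Desc.ToricExp76.spanFinrank_top_le_card_tors T (Fact.out : r.Prime)
      (k := k) (fun x => Subtype.ext (Subtype.ext (hcoe x))) (inclJ r k hT (RingHom.ker π))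
      (inclJ_injective r k hT (RingHom.ker π))

/-- **What is left of P1 at level `k`, marked form**: the binders of
`ToricAsmM50.factorial_nsmul_fixed_le_range_marked` which are NOT discharged in
`toric_level_marked'` (RANK-ONE with marks, the cyclic module `C = μ_{r^k}` with `hδ`, EIS-REL on
the primary part, CARTIER with marks, (NE) with the uniform integer `n'`). -/
def ToricLevelInputM' (hT : HeckeModel p T) (π : T →+* ZMod r) (𝔄 : ValuationSubring Qb) (n' : ℕ)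
    (k : ℕ) : Prop :=
  haveI := smulComm_Mk r k hT
  ∃ (F : MarkedFamily.{0} GQ) (χ : GQ →* ZMod r) (τ δ : GQ → T)
    (C : Type) (_ : AddCommGroup C) (_ : DistribMulAction GQ C) (_ : Finite C) (_ : IsAddCyclic C),
    RankOneBoundM F (𝔄.decompositionSubgroup ℚ) (𝔄.inertiaSubgroupIn ℚ) r χ ∧
    (∀ x : ↥(primaryPart (RingHom.ker π) ↥(Mk p r k)), Nat.card C • x = 0) ∧
    (∀ ι ∈ 𝔄.inertiaSubgroupIn ℚ, ∀ c : C, ι • c = c) ∧
    (∀ g : GQ, ∃ u : ℕ, (u : ZMod r) = χ g ∧ u.Coprime (Nat.card C) ∧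
      (∀ c : C, g • c = u • c) ∧
      ∀ x : ↥(primaryPart (RingHom.ker π) ↥(Mk p r k)), δ g • x = u • x) ∧
    EisData π χ τ δ ↥(primaryPart (RingHom.ker π) ↥(Mk p r k)) ∧
    (∃ M₀ : AddSubgroup ↥(primaryPart (RingHom.ker π) ↥(Mk p r k)),
      F.Ok (↥(primaryPart (RingHom.ker π) ↥(Mk p r k)) ×
        Dual ↥(primaryPart (RingHom.ker π) ↥(Mk p r k)) C) (prodMark C M₀)) ∧
    ∃ a ∈ eisIdeal τ δ, ∀ x : ↥(primaryPart (RingHom.ker π) ↥(Mk p r k)), n' • x = a • x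

/-- **P1 = (PT)_P in exponent form**, from QUAD-J and the MARKED level inputs. -/
theorem ptExp_of_toric_marked' (hT : HeckeModel p T) (π : T →+* ZMod r)
    (𝔄 : ValuationSubring Qb) (hfinM : ∀ k : ℕ, Finite ↥(Mk p r k))
    (n' : ℕ) (hn' : 0 < n') [Finite {x : JZero p // n' • x = 0}]
    [Finite (nsmulAddMonoidHom r : JZero p →+ JZero p).ker]
    (hquad : ∀ σ ∈ 𝔄.inertiaSubgroupIn ℚ, ∀ (k : ℕ) (x : JZero p), r ^ k • x = 0 →
      σ • σ • x + x = σ • x + σ • x)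
    (hlevel : ∀ k : ℕ, ToricLevelInputM' r hT π 𝔄 n' k) :
    PTExp p (RingHom.ker π) 𝔄 r
      ((((Nat.card {x : JZero p // n' • x = 0} * n' ^ Nat.card {x : JZero p // n' • x = 0}) *
        (Nat.card {x : JZero p // n' • x = 0} * n' ^ Nat.card {x : JZero p // n' • x = 0})) ^
          Nat.card (nsmulAddMonoidHom r : JZero p →+ JZero p).ker).factorial) := by
  intro k σ hgen
  haveI := hfinM k
  obtain ⟨F, χ, τ, δ, C, iC1, iC2, iC3, iC4, hR, hMC, hIC, hδ, E, ⟨M₀, hOk⟩, a, ha, hNE⟩ :=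
    hlevel k
  exact ptExp_level r k hT (RingHom.ker π) 𝔄 _ σ
    (toric_level_marked' r k hT π 𝔄 n' hn' (fun σ hσ x hx => hquad σ hσ k x hx) σ hgen F hR C hMC
      hIC hδ E M₀ hOk a ha hNE)

/-- **(P-FIN)_P end to end**, MARKED level inputs (the `r = 2` twin of
`PTExpInstB90.pfinP_of_toric'`; valid for every prime `r`). -/
theorem pfinP_of_toric_marked' (hT : HeckeModel p T) (hMW : MW p) (π : T →+* ZMod r)
    (𝔄 : ValuationSubring Qb)
    (hdiv : ∀ (z : JZero p) (k : ℕ), ∃ y : JZero p, r ^ k • y = z)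
    (hfin : ∀ k : ℕ, Finite ↥(torsT p T (r ^ k)))
    (n' : ℕ) (hn' : 0 < n') [Finite {x : JZero p // n' • x = 0}]
    [Finite (nsmulAddMonoidHom r : JZero p →+ JZero p).ker]
    (hcyc : ∀ k : ℕ, ∃ τ : ↥(𝔄.inertiaSubgroupIn ℚ), ∀ σ : ↥(𝔄.inertiaSubgroupIn ℚ), ∃ m : ℕ,
      ∀ y : JZero p, r ^ k • y ∈ ratPoints hT → σ • y = τ ^ m • y)
    (hquad : ∀ (k : ℕ) (τ : ↥(𝔄.inertiaSubgroupIn ℚ)) (y : JZero p), r ^ k • y ∈ ratPoints hT →
      τ • τ • y + y = τ • y + τ • y)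
    (hlevel : ∀ k : ℕ, ToricLevelInputM' r hT π 𝔄 n' k) :
    ∃ A : Submodule T (JZero p), FiniteIndexIn A (ratPoints hT) ∧ ∀ k : ℕ, ∃ e : T,
      (∀ x ∈ primarySet (RingHom.ker π)
        (↥A ⧸ (Ideal.span {(r : T) ^ k} • ⊤ : Submodule T ↥A)), e • x = x) ∧
      ∀ z ∈ A, ∃ y : JZero p, (∀ σ ∈ 𝔄.inertiaSubgroupIn ℚ, σ • y = y) ∧ r ^ k • y = e • z := by
  have hfinM : ∀ k : ℕ, Finite ↥(Mk p r k) := fun k =>
    haveI := hfin k
    Finite.of_injective
      (fun x : ↥(Mk p r k) => (⟨(x : JZero p), (mem_Mk_iff r k).1 x.2⟩ : ↥(torsT p T (r ^ k))))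
      (fun x y hxy => Subtype.ext (congrArg (fun z : ↥(torsT p T (r ^ k)) => (z : JZero p)) hxy))
  have hquadJ : ∀ σ ∈ 𝔄.inertiaSubgroupIn ℚ, ∀ (k : ℕ) (x : JZero p), r ^ k • x = 0 →
      σ • σ • x + x = σ • x + σ • x := fun σ hσ k x hx =>
    hquad k ⟨σ, hσ⟩ x (by rw [hx]; exact (ratPoints hT).zero_mem)
  exact pfinP hT hMW (RingHom.ker π) 𝔄 r _ (Fact.out : r.Prime).pos (Nat.factorial_pos _) hdiv hfin
    hcyc hquad (ptExp_of_toric_marked' r hT π 𝔄 hfinM n' hn' hquadJ hlevel)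

end Fermat.Agent.MAZ.Desc.PTExpInstM90
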