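/-
Program MAZ (S15), G-side, pole P1 = (PT): THE FINAL COMPOSITION of (P-FIN)_P (helper90).

`pfinP_of_toric` / `pfinP_of_toric'` / `pfinP_of_toric_marked'` with the hypotheses `hcyc`, `hquad`,
`hdiv`, `hfin` and the `Finite` instances DISCHARGED from the literal conclusions of the landed
suppliers (stated as hypotheses, so that the closure of this file stays light; every one of them is
an unconditional theorem on main except (NUM'), see below):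

* `hdivAll` = `MAZ/Desc/JZeroDiv30.jzero_nsmul_surjective p`;
* `hfinAll` = `ES/KUM/FiniteTorsion15.finite_setOf_nsmul_eq_zero p n` (with `NeZero n`);
* `htame`   = `HCyc48.TameStmt p 𝔄` = `MAZ/Desc/TameCyclic11.exists_inertia_generator`;
* `hNUM`    = **(NUM')** = the literal `InertiaDiv` (helper4 #2132) at `(N, q, P) = (p, p, 𝔄)`:
              `τ ∈ I_𝔄`, `p ∤ m`, `τ • (m • y) = m • y` ⟹ `(τ - 1)² y = 0`
              (it CONTAINS `IfaceN4.InertiaTors` at `(p, p, 𝔄)`, the case `m • y = 0`);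
* `hMW`     = `GSpec26.MW p` (S17 at level `p`);
* `hlevel`  = `∀ k, ToricLevelInput(') r hT π 𝔄 n' k` (helper55) resp. the marked form.

Exits (conclusion = `PFinPInst90.pfinP`'s conclusion = helper26's (P-FIN)_P literal, the hypothesis
`hPF` of `LevelDualInst26.descentBound_odd`, VERBATIM at `P := RingHom.ker π`):

* `hcyc_of_inputs`, `hquad_of_num`  : the two discharges;
* `pfinP_of_ptExp`                  : from `PTExp p (ker π) 𝔄 r c`, `0 < c`;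
* `pfinP_of_inputs`                 : from `∀ k, ToricLevelInput  r hT π 𝔄 n' k`;
* `pfinP_of_inputs'`                : from `∀ k, ToricLevelInput' r hT π 𝔄 n' k`;
* `pfinP_of_inputs_marked`          : from `∀ k, ToricLevelInputM' r hT π 𝔄 n' k` (any `r`, e.g. 2).
-/
import Mathlib
import Fermat.Agent.MAZ.Desc.HCyc48
import Fermat.Agent.MAZ.Desc.PTExpInstB90
import Fermat.Agent.MAZ.Desc.PTExpInstM90

set_option autoImplicit false
set_option linter.unusedSectionVars false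
set_option linter.unusedVariables false
set_option linter.style.haveILetI false

open AlgebraicCurve ModularCurve

noncomputable section

namespace Fermat.Agent.MAZ.Desc.PFinPFinal90

open Fermat.Agent.X0 Fermat.Agent.MAZ.Spec.XSpec62 Fermat.Agent.MAZ.Spec.GSpec26
open Fermat.Agent.MAZ.Desc.PFinPInst90 Fermat.Agent.MAZ.Desc.PTExpInst90
  Fermat.Agent.MAZ.Desc.PTExpInstB90 Fermat.Agent.MAZ.Desc.PTExpInstM90

variable {p : ℕ} [NeZero p] {T : Type} [CommRing T] [Module T (JZero p)]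
variable (r : ℕ) [Fact r.Prime]

/-- **`hcyc` discharged**: `HCyc48.hcyc` at `Y = J₀(p)(ℚ)`, from MW, finiteness of torsion, (NUM')
(only its torsion case is used) and tame inertia. -/
theorem hcyc_of_inputs (hT : HeckeModel p T) (hMW : MW p) (hp : p.Prime) (hrp : r ≠ p)
    (𝔄 : ValuationSubring Qb)
    (hfinAll : ∀ n : ℕ, n ≠ 0 → {y : JZero p | n • y = 0}.Finite)
    (htame : HCyc48.TameStmt p 𝔄)
    (hunip : ∀ τ ∈ 𝔄.inertiaSubgroupIn ℚ, ∀ m : ℕ, ¬ p ∣ m → ∀ y : JZero p, m • y = 0 →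
      τ • τ • y + y = τ • y + τ • y) :
    ∀ k : ℕ, ∃ τ : ↥(𝔄.inertiaSubgroupIn ℚ), ∀ σ : ↥(𝔄.inertiaSubgroupIn ℚ), ∃ m : ℕ,
      ∀ y : JZero p, r ^ k • y ∈ ratPoints hT → σ • y = τ ^ m • y := by
  have hr : r.Prime := Fact.out
  have hY : ∀ z ∈ (ratPoints hT).toAddSubgroup, ∀ σ : GQ, σ • z = z := fun z hz σ => hz σ
  have heq : (ratPoints hT).toAddSubgroup = FixedPoints.addSubgroup GQ (JZero p) := by
    ext z
    exact Iff.rfl
  have hfg : (ratPoints hT).toAddSubgroup.FG := by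
    rw [heq]
    exact (AddGroup.fg_iff_addSubgroup_fg _).mp hMW
  have hfin : ∀ k : ℕ, Finite ↥(PFinAbstract90.tors (JZero p) (r ^ k)) := fun k =>
    (hfinAll (r ^ k) (pow_ne_zero k hr.ne_zero)).to_subtype
  exact HCyc48.hcyc hp hr hrp 𝔄 (ratPoints hT).toAddSubgroup hY hfg hfin hunip htame

/-- **`hquad` discharged** from (NUM') = `InertiaDiv` at `(p, p, 𝔄)`. -/
theorem hquad_of_num (hT : HeckeModel p T) (hp : p.Prime) (hrp : r ≠ p) (𝔄 : ValuationSubring Qb)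
    (hNUM : ∀ τ ∈ 𝔄.inertiaSubgroupIn ℚ, ∀ m : ℕ, ¬ p ∣ m → ∀ y : JZero p,
      τ • (m • y) = m • y → τ • τ • y + y = τ • y + τ • y) :
    ∀ (k : ℕ) (τ : ↥(𝔄.inertiaSubgroupIn ℚ)) (y : JZero p), r ^ k • y ∈ ratPoints hT →
      τ • τ • y + y = τ • y + τ • y := by
  have hr : r.Prime := Fact.out
  intro k τ y hy
  have hpr : ¬ p ∣ r ^ k := fun h =>
    hrp ((Nat.prime_dvd_prime_iff_eq hp hr).mp (hp.dvd_of_dvd_pow h)).symm
  exact hNUM (τ : GQ) τ.2 (r ^ k) hpr y (hy (τ : GQ))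

/-- the torsion case of (NUM'). -/
theorem hunip_of_num (p : ℕ) [NeZero p] (𝔄 : ValuationSubring Qb)
    (hNUM : ∀ τ ∈ 𝔄.inertiaSubgroupIn ℚ, ∀ m : ℕ, ¬ p ∣ m → ∀ y : JZero p,
      τ • (m • y) = m • y → τ • τ • y + y = τ • y + τ • y) :
    ∀ τ ∈ 𝔄.inertiaSubgroupIn ℚ, ∀ m : ℕ, ¬ p ∣ m → ∀ y : JZero p, m • y = 0 →
      τ • τ • y + y = τ • y + τ • y := fun τ hτ m hm y hy =>
  hNUM τ hτ m hm y (by rw [hy]; exact smul_zero (A := JZero p) τ)

/-- **(P-FIN)_P from `PTExp`** with `hcyc`, `hquad`, `hdiv`, `hfin` discharged. -/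
theorem pfinP_of_ptExp (hT : HeckeModel p T) (hMW : MW p) (hp : p.Prime) (hrp : r ≠ p)
    (P : Ideal T) (𝔄 : ValuationSubring Qb)
    (hdivAll : ∀ n : ℕ, n ≠ 0 → ∀ z : JZero p, ∃ y : JZero p, n • y = z)
    (hfinAll : ∀ n : ℕ, n ≠ 0 → {y : JZero p | n • y = 0}.Finite)
    (htame : HCyc48.TameStmt p 𝔄)
    (hNUM : ∀ τ ∈ 𝔄.inertiaSubgroupIn ℚ, ∀ m : ℕ, ¬ p ∣ m → ∀ y : JZero p,
      τ • (m • y) = m • y → τ • τ • y + y = τ • y + τ • y)
    (c : ℕ) (hc : 0 < c) (hPT : PTExp p P 𝔄 r c) :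
    ∃ A : Submodule T (JZero p), FiniteIndexIn A (ratPoints hT) ∧ ∀ k : ℕ, ∃ e : T,
      (∀ x ∈ primarySet P (↥A ⧸ (Ideal.span {(r : T) ^ k} • ⊤ : Submodule T ↥A)), e • x = x) ∧
      ∀ z ∈ A, ∃ y : JZero p, (∀ σ ∈ 𝔄.inertiaSubgroupIn ℚ, σ • y = y) ∧ r ^ k • y = e • z := by
  have hr : r.Prime := Fact.out
  exact pfinP hT hMW P 𝔄 r c hr.pos hc
    (fun z k => hdivAll (r ^ k) (pow_ne_zero k hr.ne_zero) z)
    (fun k => (hfinAll (r ^ k) (pow_ne_zero k hr.ne_zero)).to_subtype)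
    (hcyc_of_inputs r hT hMW hp hrp 𝔄 hfinAll htame (hunip_of_num p 𝔄 hNUM))
    (hquad_of_num r hT hp hrp 𝔄 hNUM) hPT

/-- the two `Finite` instances of `pfinP_of_toric` from `hfinAll`. -/
theorem finite_tors_sub (hfinAll : ∀ n : ℕ, n ≠ 0 → {y : JZero p | n • y = 0}.Finite)
    (n : ℕ) (hn : 0 < n) : Finite {x : JZero p // n • x = 0} :=
  (hfinAll n hn.ne').to_subtype

theorem finite_ker_nsmul (hfinAll : ∀ n : ℕ, n ≠ 0 → {y : JZero p | n • y = 0}.Finite) :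
    Finite (nsmulAddMonoidHom r : JZero p →+ JZero p).ker := by
  have hr : r.Prime := Fact.out
  haveI := finite_tors_sub hfinAll r hr.pos
  refine Finite.of_injective
    (fun x : (nsmulAddMonoidHom r : JZero p →+ JZero p).ker =>
      (⟨(x : JZero p), ?_⟩ : {x : JZero p // r • x = 0})) ?_
  · have := x.2
    rw [AddMonoidHom.mem_ker] at this
    exact this
  · intro x y hxy
    exact Subtype.ext (congrArg (fun z : {x : JZero p // r • x = 0} => (z : JZero p)) hxy)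

/-- **(P-FIN)_P, final form (odd `r`, level inputs stated on `J₀(p)`).** -/
theorem pfinP_of_inputs (hT : HeckeModel p T) (hMW : MW p) (hp : p.Prime) (hrp : r ≠ p)
    (π : T →+* ZMod r) (𝔄 : ValuationSubring Qb)
    (hdivAll : ∀ n : ℕ, n ≠ 0 → ∀ z : JZero p, ∃ y : JZero p, n • y = z)
    (hfinAll : ∀ n : ℕ, n ≠ 0 → {y : JZero p | n • y = 0}.Finite)
    (htame : HCyc48.TameStmt p 𝔄)
    (hNUM : ∀ τ ∈ 𝔄.inertiaSubgroupIn ℚ, ∀ m : ℕ, ¬ p ∣ m → ∀ y : JZero p,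
      τ • (m • y) = m • y → τ • τ • y + y = τ • y + τ • y)
    (n' : ℕ) (hn' : 0 < n') (hlevel : ∀ k : ℕ, ToricLevelInput r hT π 𝔄 n' k) :
    ∃ A : Submodule T (JZero p), FiniteIndexIn A (ratPoints hT) ∧ ∀ k : ℕ, ∃ e : T,
      (∀ x ∈ primarySet (RingHom.ker π)
        (↥A ⧸ (Ideal.span {(r : T) ^ k} • ⊤ : Submodule T ↥A)), e • x = x) ∧
      ∀ z ∈ A, ∃ y : JZero p, (∀ σ ∈ 𝔄.inertiaSubgroupIn ℚ, σ • y = y) ∧ r ^ k • y = e • z := by
  have hr : r.Prime := Fact.out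
  haveI := finite_tors_sub hfinAll n' hn'
  haveI := finite_ker_nsmul r hfinAll
  exact pfinP_of_toric r hT hMW π 𝔄
    (fun z k => hdivAll (r ^ k) (pow_ne_zero k hr.ne_zero) z)
    (fun k => (hfinAll (r ^ k) (pow_ne_zero k hr.ne_zero)).to_subtype) n' hn'
    (hcyc_of_inputs r hT hMW hp hrp 𝔄 hfinAll htame (hunip_of_num p 𝔄 hNUM))
    (hquad_of_num r hT hp hrp 𝔄 hNUM) hlevel

/-- **(P-FIN)_P, final form (odd `r`, level inputs stated on the type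
`primaryPart (ker π) (Mk p r k)`).** -/
theorem pfinP_of_inputs' (hT : HeckeModel p T) (hMW : MW p) (hp : p.Prime) (hrp : r ≠ p)
    (π : T →+* ZMod r) (𝔄 : ValuationSubring Qb)
    (hdivAll : ∀ n : ℕ, n ≠ 0 → ∀ z : JZero p, ∃ y : JZero p, n • y = z)
    (hfinAll : ∀ n : ℕ, n ≠ 0 → {y : JZero p | n • y = 0}.Finite)
    (htame : HCyc48.TameStmt p 𝔄)
    (hNUM : ∀ τ ∈ 𝔄.inertiaSubgroupIn ℚ, ∀ m : ℕ, ¬ p ∣ m → ∀ y : JZero p,
      τ • (m • y) = m • y → τ • τ • y + y = τ • y + τ • y)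
    (n' : ℕ) (hn' : 0 < n') (hlevel : ∀ k : ℕ, ToricLevelInput' r hT π 𝔄 n' k) :
    ∃ A : Submodule T (JZero p), FiniteIndexIn A (ratPoints hT) ∧ ∀ k : ℕ, ∃ e : T,
      (∀ x ∈ primarySet (RingHom.ker π)
        (↥A ⧸ (Ideal.span {(r : T) ^ k} • ⊤ : Submodule T ↥A)), e • x = x) ∧
      ∀ z ∈ A, ∃ y : JZero p, (∀ σ ∈ 𝔄.inertiaSubgroupIn ℚ, σ • y = y) ∧ r ^ k • y = e • z := by
  have hr : r.Prime := Fact.out
  haveI := finite_tors_sub hfinAll n' hn'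
  haveI := finite_ker_nsmul r hfinAll
  exact pfinP_of_toric' r hT hMW π 𝔄
    (fun z k => hdivAll (r ^ k) (pow_ne_zero k hr.ne_zero) z)
    (fun k => (hfinAll (r ^ k) (pow_ne_zero k hr.ne_zero)).to_subtype) n' hn'
    (hcyc_of_inputs r hT hMW hp hrp 𝔄 hfinAll htame (hunip_of_num p 𝔄 hNUM))
    (hquad_of_num r hT hp hrp 𝔄 hNUM) hlevel

/-- **(P-FIN)_P, final form, MARKED level inputs (any prime `r ≠ p`, in particular `r = 2`).** -/
theorem pfinP_of_inputs_marked (hT : HeckeModel p T) (hMW : MW p) (hp : p.Prime) (hrp : r ≠ p)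
    (π : T →+* ZMod r) (𝔄 : ValuationSubring Qb)
    (hdivAll : ∀ n : ℕ, n ≠ 0 → ∀ z : JZero p, ∃ y : JZero p, n • y = z)
    (hfinAll : ∀ n : ℕ, n ≠ 0 → {y : JZero p | n • y = 0}.Finite)
    (htame : HCyc48.TameStmt p 𝔄)
    (hNUM : ∀ τ ∈ 𝔄.inertiaSubgroupIn ℚ, ∀ m : ℕ, ¬ p ∣ m → ∀ y : JZero p,
      τ • (m • y) = m • y → τ • τ • y + y = τ • y + τ • y)
    (n' : ℕ) (hn' : 0 < n') (hlevel : ∀ k : ℕ, ToricLevelInputM' r hT π 𝔄 n' k) :
    ∃ A : Submodule T (JZero p), FiniteIndexIn A (ratPoints hT) ∧ ∀ k : ℕ, ∃ e : T,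
      (∀ x ∈ primarySet (RingHom.ker π)
        (↥A ⧸ (Ideal.span {(r : T) ^ k} • ⊤ : Submodule T ↥A)), e • x = x) ∧
      ∀ z ∈ A, ∃ y : JZero p, (∀ σ ∈ 𝔄.inertiaSubgroupIn ℚ, σ • y = y) ∧ r ^ k • y = e • z := by
  have hr : r.Prime := Fact.out
  haveI := finite_tors_sub hfinAll n' hn'
  haveI := finite_ker_nsmul r hfinAll
  exact pfinP_of_toric_marked' r hT hMW π 𝔄
    (fun z k => hdivAll (r ^ k) (pow_ne_zero k hr.ne_zero) z)
    (fun k => (hfinAll (r ^ k) (pow_ne_zero k hr.ne_zero)).to_subtype) n' hn'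
    (hcyc_of_inputs r hT hMW hp hrp 𝔄 hfinAll htame (hunip_of_num p 𝔄 hNUM))
    (hquad_of_num r hT hp hrp 𝔄 hNUM) hlevel

end Fermat.Agent.MAZ.Desc.PFinPFinal90
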