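/-
Program MAZ (S15), G-side, pole P1 = (PT): the final composition `PFinPFinal90` with the level inputs
required ONLY AT LEVELS `k ≥ 1` (helper90).

At `k = 0` the statement `PTExp` is empty (`J₀(p)[r^0] = 0`), so the suppliers of
`ToricLevelInput(') / ToricLevelInputM'` (RANK-ONE, EIS-REL, CARTIER, (NE), `C = μ_{r^k}`) need not
special-case the level `0`.

* `ptExp_zero`                      : the level `0` of `PTExp`;
* `ptExp_of_toric_pos`, `ptExp_of_toric_pos'`, `ptExp_of_toric_marked_pos'`;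
* `pfinP_of_inputs_pos`, `pfinP_of_inputs_pos'`, `pfinP_of_inputs_marked_pos` : same binders and same
  conclusion as `PFinPFinal90.pfinP_of_inputs / ' / _marked`, with
  `hlevel : ∀ k, 1 ≤ k → ToricLevelInput… r hT π 𝔄 n' k`.
-/
import Mathlib
import Fermat.Agent.MAZ.Desc.PFinPFinal90

set_option autoImplicit false
set_option linter.unusedSectionVars false
set_option linter.unusedVariables false
set_option linter.style.haveILetI false

open AlgebraicCurve ModularCurve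

noncomputable section

namespace Fermat.Agent.MAZ.Desc.PFinPFinalPos90

open Fermat.Agent.X0 Fermat.Agent.MAZ.Spec.XSpec62 Fermat.Agent.MAZ.Spec.GSpec26
open Fermat.Agent.MAZ.Desc.PFinPInst90 Fermat.Agent.MAZ.Desc.PTExpInst90
  Fermat.Agent.MAZ.Desc.PTExpInstB90 Fermat.Agent.MAZ.Desc.PTExpInstM90
  Fermat.Agent.MAZ.Desc.PFinPFinal90 Fermat.Agent.MAZ.Desc.KummerInst26

variable {p : ℕ} [NeZero p] {T : Type} [CommRing T] [Module T (JZero p)]
variable (r : ℕ) [Fact r.Prime]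

/-- **Level `0` of `PTExp` is empty.** -/
theorem ptExp_zero (P : Ideal T) (𝔄 : ValuationSubring Qb) (c : ℕ)
    (τ : ↥(𝔄.inertiaSubgroupIn ℚ)) :
    ∀ w ∈ MkP p P r 0, τ • w = w → ∃ m ∈ MkP p P r 0, c • w = τ • m - m := by
  intro w hw _
  have hw0 : w = 0 := by
    have h := hw.1
    rwa [pow_zero, one_smul] at h
  refine ⟨0, (MkP p P r 0).zero_mem, ?_⟩
  rw [hw0, smul_zero, smul_zero, sub_zero]

/-- `PTExp` from the levels `k ≥ 1`. -/
theorem ptExp_of_pos (P : Ideal T) (𝔄 : ValuationSubring Qb) (c : ℕ)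
    (h : ∀ (k : ℕ), 1 ≤ k → ∀ τ : ↥(𝔄.inertiaSubgroupIn ℚ),
      (∀ σ : ↥(𝔄.inertiaSubgroupIn ℚ), ∃ n : ℕ, ∀ x : JZero p, r ^ k • x = 0 →
        σ • x = τ ^ n • x) →
      ∀ w ∈ MkP p P r k, τ • w = w → ∃ m ∈ MkP p P r k, c • w = τ • m - m) :
    PTExp p P 𝔄 r c := by
  intro k τ hgen
  rcases Nat.eq_zero_or_pos k with rfl | hk
  · exact ptExp_zero r P 𝔄 c τ
  · exact h k hk τ hgen

/-- `ptExp_of_toric` with the level inputs at `k ≥ 1` only. -/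
theorem ptExp_of_toric_pos (hT : HeckeModel p T) (π : T →+* ZMod r) (𝔄 : ValuationSubring Qb)
    (hfinM : ∀ k : ℕ, Finite ↥(Mk p r k))
    (n' : ℕ) (hn' : 0 < n') [Finite {x : JZero p // n' • x = 0}]
    [Finite (nsmulAddMonoidHom r : JZero p →+ JZero p).ker]
    (hquad : ∀ σ ∈ 𝔄.inertiaSubgroupIn ℚ, ∀ (k : ℕ) (x : JZero p), r ^ k • x = 0 →
      σ • σ • x + x = σ • x + σ • x)
    (hlevel : ∀ k : ℕ, 1 ≤ k → ToricLevelInput r hT π 𝔄 n' k) :
    PTExp p (RingHom.ker π) 𝔄 r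
      ((((Nat.card {x : JZero p // n' • x = 0} * n' ^ Nat.card {x : JZero p // n' • x = 0}) *
        (Nat.card {x : JZero p // n' • x = 0} * n' ^ Nat.card {x : JZero p // n' • x = 0})) ^
          Nat.card (nsmulAddMonoidHom r : JZero p →+ JZero p).ker).factorial) := by
  refine ptExp_of_pos r _ 𝔄 _ fun k hk σ hgen => ?_
  haveI := hfinM k
  obtain ⟨F, φ₀, χ, τ, δ, C, iC1, iC2, iC3, iC4, hR, hMC, hIC, hδ, E, hOk, a, ha, hNE⟩ :=
    hlevel k hk
  exact ptExp_level r k hT (RingHom.ker π) 𝔄 _ σ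
    (toric_level r k hT π 𝔄 n' hn' (fun σ hσ x hx => hquad σ hσ k x hx) σ hgen F φ₀ hR C hMC hIC
      hδ E hOk a ha hNE)

/-- `ptExp_of_toric'` with the level inputs at `k ≥ 1` only. -/
theorem ptExp_of_toric_pos' (hT : HeckeModel p T) (π : T →+* ZMod r) (𝔄 : ValuationSubring Qb)
    (hfinM : ∀ k : ℕ, Finite ↥(Mk p r k))
    (n' : ℕ) (hn' : 0 < n') [Finite {x : JZero p // n' • x = 0}]
    [Finite (nsmulAddMonoidHom r : JZero p →+ JZero p).ker]
    (hquad : ∀ σ ∈ 𝔄.inertiaSubgroupIn ℚ, ∀ (k : ℕ) (x : JZero p), r ^ k • x = 0 →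
      σ • σ • x + x = σ • x + σ • x)
    (hlevel : ∀ k : ℕ, 1 ≤ k → ToricLevelInput' r hT π 𝔄 n' k) :
    PTExp p (RingHom.ker π) 𝔄 r
      ((((Nat.card {x : JZero p // n' • x = 0} * n' ^ Nat.card {x : JZero p // n' • x = 0}) *
        (Nat.card {x : JZero p // n' • x = 0} * n' ^ Nat.card {x : JZero p // n' • x = 0})) ^
          Nat.card (nsmulAddMonoidHom r : JZero p →+ JZero p).ker).factorial) := by
  refine ptExp_of_pos r _ 𝔄 _ fun k hk σ hgen => ?_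
  haveI := hfinM k
  obtain ⟨F, φ₀, χ, τ, δ, C, iC1, iC2, iC3, iC4, hR, hMC, hIC, hδ, E, hOk, a, ha, hNE⟩ :=
    hlevel k hk
  exact ptExp_level r k hT (RingHom.ker π) 𝔄 _ σ
    (toric_level' r k hT π 𝔄 n' hn' (fun σ hσ x hx => hquad σ hσ k x hx) σ hgen F φ₀ hR C hMC hIC
      hδ E hOk a ha hNE)

/-- `ptExp_of_toric_marked'` with the level inputs at `k ≥ 1` only. -/
theorem ptExp_of_toric_marked_pos' (hT : HeckeModel p T) (π : T →+* ZMod r)
    (𝔄 : ValuationSubring Qb) (hfinM : ∀ k : ℕ, Finite ↥(Mk p r k))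
    (n' : ℕ) (hn' : 0 < n') [Finite {x : JZero p // n' • x = 0}]
    [Finite (nsmulAddMonoidHom r : JZero p →+ JZero p).ker]
    (hquad : ∀ σ ∈ 𝔄.inertiaSubgroupIn ℚ, ∀ (k : ℕ) (x : JZero p), r ^ k • x = 0 →
      σ • σ • x + x = σ • x + σ • x)
    (hlevel : ∀ k : ℕ, 1 ≤ k → ToricLevelInputM' r hT π 𝔄 n' k) :
    PTExp p (RingHom.ker π) 𝔄 r
      ((((Nat.card {x : JZero p // n' • x = 0} * n' ^ Nat.card {x : JZero p // n' • x = 0}) *
        (Nat.card {x : JZero p // n' • x = 0} * n' ^ Nat.card {x : JZero p // n' • x = 0})) ^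
          Nat.card (nsmulAddMonoidHom r : JZero p →+ JZero p).ker).factorial) := by
  refine ptExp_of_pos r _ 𝔄 _ fun k hk σ hgen => ?_
  haveI := hfinM k
  obtain ⟨F, χ, τ, δ, C, iC1, iC2, iC3, iC4, hR, hMC, hIC, hδ, E, ⟨M₀, hOk⟩, a, ha, hNE⟩ :=
    hlevel k hk
  exact ptExp_level r k hT (RingHom.ker π) 𝔄 _ σ
    (toric_level_marked' r k hT π 𝔄 n' hn' (fun σ hσ x hx => hquad σ hσ k x hx) σ hgen F hR C hMC
      hIC hδ E M₀ hOk a ha hNE)

section Final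

variable (hT : HeckeModel p T) (hMW : MW p) (hp : p.Prime) (hrp : r ≠ p)
  (π : T →+* ZMod r) (𝔄 : ValuationSubring Qb)
  (hdivAll : ∀ n : ℕ, n ≠ 0 → ∀ z : JZero p, ∃ y : JZero p, n • y = z)
  (hfinAll : ∀ n : ℕ, n ≠ 0 → {y : JZero p | n • y = 0}.Finite)
  (htame : HCyc48.TameStmt p 𝔄)
  (hNUM : ∀ τ ∈ 𝔄.inertiaSubgroupIn ℚ, ∀ m : ℕ, ¬ p ∣ m → ∀ y : JZero p,
    τ • (m • y) = m • y → τ • τ • y + y = τ • y + τ • y)
  (n' : ℕ) (hn' : 0 < n')

include hfinAll in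
theorem finite_Mk (k : ℕ) : Finite ↥(Mk p r k) := by
  have hr : r.Prime := Fact.out
  haveI := finite_tors_sub hfinAll (r ^ k) (pow_pos hr.pos k)
  exact Finite.of_injective
    (fun x : ↥(Mk p r k) => (⟨(x : JZero p), (mem_Mk_iff r k).1 x.2⟩ :
      {x : JZero p // r ^ k • x = 0}))
    (fun x y hxy => Subtype.ext
      (congrArg (fun z : {x : JZero p // r ^ k • x = 0} => (z : JZero p)) hxy))

include hp hrp hNUM in
theorem hquadJ_of_num : ∀ σ ∈ 𝔄.inertiaSubgroupIn ℚ, ∀ (k : ℕ) (x : JZero p), r ^ k • x = 0 →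
    σ • σ • x + x = σ • x + σ • x := by
  have hr : r.Prime := Fact.out
  intro σ hσ k x hx
  have hpr : ¬ p ∣ r ^ k := fun h =>
    hrp ((Nat.prime_dvd_prime_iff_eq hp hr).mp (hp.dvd_of_dvd_pow h)).symm
  exact hunip_of_num p 𝔄 hNUM σ hσ (r ^ k) hpr x hx

include hMW hp hrp hdivAll hfinAll htame hNUM hn' in
/-- **(P-FIN)_P, final form, level inputs (on `J₀(p)`) at `k ≥ 1` only.** -/
theorem pfinP_of_inputs_pos (hlevel : ∀ k : ℕ, 1 ≤ k → ToricLevelInput r hT π 𝔄 n' k) :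
    ∃ A : Submodule T (JZero p), FiniteIndexIn A (ratPoints hT) ∧ ∀ k : ℕ, ∃ e : T,
      (∀ x ∈ primarySet (RingHom.ker π)
        (↥A ⧸ (Ideal.span {(r : T) ^ k} • ⊤ : Submodule T ↥A)), e • x = x) ∧
      ∀ z ∈ A, ∃ y : JZero p, (∀ σ ∈ 𝔄.inertiaSubgroupIn ℚ, σ • y = y) ∧ r ^ k • y = e • z := by
  haveI := finite_tors_sub hfinAll n' hn'
  haveI := finite_ker_nsmul r hfinAll
  exact pfinP_of_ptExp r hT hMW hp hrp (RingHom.ker π) 𝔄 hdivAll hfinAll htame hNUM _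
    (Nat.factorial_pos _)
    (ptExp_of_toric_pos r hT π 𝔄 (finite_Mk r hfinAll) n' hn' (hquadJ_of_num r hp hrp 𝔄 hNUM)
      hlevel)

include hMW hp hrp hdivAll hfinAll htame hNUM hn' in
/-- **(P-FIN)_P, final form, level inputs (on the type `primaryPart (ker π) (Mk p r k)`) at `k ≥ 1`
only.** -/
theorem pfinP_of_inputs_pos' (hlevel : ∀ k : ℕ, 1 ≤ k → ToricLevelInput' r hT π 𝔄 n' k) :
    ∃ A : Submodule T (JZero p), FiniteIndexIn A (ratPoints hT) ∧ ∀ k : ℕ, ∃ e : T,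
      (∀ x ∈ primarySet (RingHom.ker π)
        (↥A ⧸ (Ideal.span {(r : T) ^ k} • ⊤ : Submodule T ↥A)), e • x = x) ∧
      ∀ z ∈ A, ∃ y : JZero p, (∀ σ ∈ 𝔄.inertiaSubgroupIn ℚ, σ • y = y) ∧ r ^ k • y = e • z := by
  haveI := finite_tors_sub hfinAll n' hn'
  haveI := finite_ker_nsmul r hfinAll
  exact pfinP_of_ptExp r hT hMW hp hrp (RingHom.ker π) 𝔄 hdivAll hfinAll htame hNUM _
    (Nat.factorial_pos _)
    (ptExp_of_toric_pos' r hT π 𝔄 (finite_Mk r hfinAll) n' hn' (hquadJ_of_num r hp hrp 𝔄 hNUM)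
      hlevel)

include hMW hp hrp hdivAll hfinAll htame hNUM hn' in
/-- **(P-FIN)_P, final form, MARKED level inputs at `k ≥ 1` only (any prime `r ≠ p`).** -/
theorem pfinP_of_inputs_marked_pos
    (hlevel : ∀ k : ℕ, 1 ≤ k → ToricLevelInputM' r hT π 𝔄 n' k) :
    ∃ A : Submodule T (JZero p), FiniteIndexIn A (ratPoints hT) ∧ ∀ k : ℕ, ∃ e : T,
      (∀ x ∈ primarySet (RingHom.ker π)
        (↥A ⧸ (Ideal.span {(r : T) ^ k} • ⊤ : Submodule T ↥A)), e • x = x) ∧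
      ∀ z ∈ A, ∃ y : JZero p, (∀ σ ∈ 𝔄.inertiaSubgroupIn ℚ, σ • y = y) ∧ r ^ k • y = e • z := by
  haveI := finite_tors_sub hfinAll n' hn'
  haveI := finite_ker_nsmul r hfinAll
  exact pfinP_of_ptExp r hT hMW hp hrp (RingHom.ker π) 𝔄 hdivAll hfinAll htame hNUM _
    (Nat.factorial_pos _)
    (ptExp_of_toric_marked_pos' r hT π 𝔄 (finite_Mk r hfinAll) n' hn'
      (hquadJ_of_num r hp hrp 𝔄 hNUM) hlevel)

end Final

end Fermat.Agent.MAZ.Desc.PFinPFinalPos90
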