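/-
MAZ (S15), G-side (helper26): **(P-FIN)_P with a TORSION-FREE `A`**.

`PFinPInst90.pfinP` (helper90) takes `A := c • J₀(p)(ℚ)`.  Here `A := (c · t) • J₀(p)(ℚ)` with `t` the
order of the rational torsion subgroup (finite by Mordell-Weil), so that `A` is torsion-free: the
Kummer classes used by the descent are then classes of points of infinite order (and of `0`), which
is what chapter K-FLAT delivers (`KummerInstDualA26.KFlatInf`).  The proof is `PFinPInst90.level_step`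
for this `A ⊆ c • Y`.
-/
import Mathlib
import Fermat.Agent.MAZ.Desc.PTExpInst90
import Fermat.Agent.MAZ.Desc.RatTors26

set_option autoImplicit false
set_option linter.unusedSectionVars false
set_option linter.unusedVariables false
set_option linter.style.haveILetI false

open AlgebraicCurve ModularCurve

noncomputable section

namespace Fermat.Agent.MAZ.Desc.PFinTF26

open Fermat.Agent.X0 Fermat.Agent.MAZ.Spec.XSpec62 Fermat.Agent.MAZ.Spec.GSpec26
  Fermat.Agent.MAZ.Desc.PrimaryPart19 Fermat.Agent.MAZ.Desc.PFinP90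
  Fermat.Agent.MAZ.Desc.PFinPInst90 Fermat.Agent.MAZ.Desc.PTExpInst90
  Fermat.Agent.MAZ.Desc.RatTors26 Fermat.Agent.MAZ.Desc.KummerInst26

variable {p : ℕ} [NeZero p] {T : Type} [CommRing T] [Module T (JZero p)]

/-- `(c · t) • Y` is torsion-free when `t` kills the rational torsion. -/
theorem smulSub_torsionFree (hT : HeckeModel p T) (c t : ℕ) (hc : 0 < c)
    (ht : ∀ x ∈ ratTorsion p, t • x = 0) :
    ∀ z ∈ smulSub (c * t) (ratPoints hT), ∀ n : ℕ, n ≠ 0 → n • z = 0 → z = 0 := by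
  intro z hz n hn hnz
  obtain ⟨z₁, hz₁, rfl⟩ := mem_smulSub.mp hz
  by_cases ht0 : t = 0
  · rw [ht0, mul_zero]
    exact zero_nsmul z₁
  have hz₁t : z₁ ∈ ratTorsion p :=
    ⟨fun σ => hz₁ σ, n * (c * t), Nat.mul_pos (Nat.pos_of_ne_zero hn)
      (Nat.mul_pos hc (Nat.pos_of_ne_zero ht0)), by rw [mul_smul]; exact hnz⟩
  rw [mul_smul, ht z₁ hz₁t, smul_zero]

/-- **(P-FIN)_P with `A` torsion-free.** -/
theorem pfinP_tf (hT : HeckeModel p T) (hMW : MW p) (P : Ideal T) (𝔄 : ValuationSubring Qb)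
    (r c : ℕ) (hr : 0 < r) (hc : 0 < c)
    (hdiv : ∀ (z : JZero p) (k : ℕ), ∃ y : JZero p, r ^ k • y = z)
    (hfin : ∀ k : ℕ, Finite ↥(torsT p T (r ^ k)))
    (hcyc : ∀ k : ℕ, ∃ τ : ↥(𝔄.inertiaSubgroupIn ℚ), ∀ σ : ↥(𝔄.inertiaSubgroupIn ℚ), ∃ m : ℕ,
      ∀ y : JZero p, r ^ k • y ∈ ratPoints hT → σ • y = τ ^ m • y)
    (hquad : ∀ (k : ℕ) (τ : ↥(𝔄.inertiaSubgroupIn ℚ)) (y : JZero p), r ^ k • y ∈ ratPoints hT →
      τ • τ • y + y = τ • y + τ • y)
    (hPT : PTExp p P 𝔄 r c) :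
    ∃ A : Submodule T (JZero p), FiniteIndexIn A (ratPoints hT) ∧
      (∀ z ∈ A, ∀ n : ℕ, n ≠ 0 → n • z = 0 → z = 0) ∧ ∀ k : ℕ, ∃ e : T,
      (∀ x ∈ primarySet P (↥A ⧸ (Ideal.span {(r : T) ^ k} • ⊤ : Submodule T ↥A)), e • x = x) ∧
      ∀ z ∈ A, ∃ y : JZero p, (∀ σ ∈ 𝔄.inertiaSubgroupIn ℚ, σ • y = y) ∧ r ^ k • y = e • z := by
  classical
  haveI := finite_ratTorsion (p := p) hMW
  set t : ℕ := Nat.card ↥(ratTorsion p) with ht_def
  have htpos : 0 < t := Nat.card_pos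
  have ht : ∀ x ∈ ratTorsion p, t • x = 0 := fun x hx => by
    have h := card_nsmul_eq_zero' (G := ↥(ratTorsion p)) (x := (⟨x, hx⟩ : ↥(ratTorsion p)))
    exact congrArg (fun y : ↥(ratTorsion p) => (y : JZero p)) h
  have hAY : smulSub (c * t) (ratPoints hT) ≤ ratPoints hT := smulSub_le (c * t) (ratPoints hT)
  refine ⟨smulSub (c * t) (ratPoints hT), ?_, smulSub_torsionFree hT c t hc ht, ?_⟩
  · refine ⟨hAY, c * t, Nat.mul_pos hc htpos, fun z hz => ?_⟩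
    exact mem_smulSub.mpr ⟨z, hz, rfl⟩
  · intro k
    haveI hfg : Module.Finite ℤ ↥(FixedPoints.addSubgroup GQ (JZero p)) :=
      Module.Finite.iff_addGroup_fg.mpr hMW
    have hmemA : ∀ a : ↥(smulSub (c * t) (ratPoints hT)),
        (a : JZero p) ∈ FixedPoints.addSubgroup GQ (JZero p) := fun a σ => hAY a.2 σ
    let ι : ↥(smulSub (c * t) (ratPoints hT)) →ₗ[ℤ] ↥(FixedPoints.addSubgroup GQ (JZero p)) :=
      { toFun := fun a => ⟨(a : JZero p), hmemA a⟩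
        map_add' := fun a b => rfl
        map_smul' := fun n a => by
          apply Subtype.ext
          change ((n • a : _) : JZero p) = n • (a : JZero p)
          exact AddSubgroupClass.coe_zsmul a n }
    have hι : Function.Injective ι := fun a b hab => by
      apply Subtype.ext
      exact congrArg (fun x : ↥(FixedPoints.addSubgroup GQ (JZero p)) => (x : JZero p)) hab
    haveI : IsNoetherian ℤ ↥(FixedPoints.addSubgroup GQ (JZero p)) :=
      isNoetherian_of_isNoetherianRing_of_finite ℤ _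
    haveI : Module.Finite ℤ ↥(smulSub (c * t) (ratPoints hT)) := Module.Finite.of_injective ι hι
    refine level_step hT.galois P 𝔄 r c k hr (ratPoints hT) (smulSub (c * t) (ratPoints hT))
      (fun z hz σ => hz σ) (fun z hz => ?_) (fun z => hdiv z k) (hfin k) (hcyc k)
      (hquad k) (hPT k)
    obtain ⟨z₁, hz₁, rfl⟩ := mem_smulSub.mp hz
    exact ⟨t • z₁, (ratPoints hT).smul_of_tower_mem t hz₁, (mul_smul c t z₁).symm⟩

variable (r : ℕ) [Fact r.Prime]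

/-- **(P-FIN)_P end to end, with `A` torsion-free** (`PTExpInst90.pfinP_of_toric` with `pfinP_tf`). -/
theorem pfinP_of_toric_tf (hT : HeckeModel p T) (hMW : MW p) (π : T →+* ZMod r)
    (𝔄 : ValuationSubring Qb)
    (hdiv : ∀ (z : JZero p) (k : ℕ), ∃ y : JZero p, r ^ k • y = z)
    (hfin : ∀ k : ℕ, Finite ↥(torsT p T (r ^ k)))
    (n' : ℕ) (hn' : 0 < n') [Finite {x : JZero p // n' • x = 0}]
    [Finite (nsmulAddMonoidHom r : JZero p →+ JZero p).ker]
    (hcyc : ∀ k : ℕ, ∃ τ : ↥(𝔄.inertiaSubgroupIn ℚ), ∀ σ : ↥(𝔄.inertiaSubgroupIn ℚ), ∃ m : ℕ,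
      ∀ y : JZero p, r ^ k • y ∈ ratPoints hT → σ • y = τ ^ m • y)
    (hquad : ∀ (k : ℕ) (τ : ↥(𝔄.inertiaSubgroupIn ℚ)) (y : JZero p), r ^ k • y ∈ ratPoints hT →
      τ • τ • y + y = τ • y + τ • y)
    (hlevel : ∀ k : ℕ, ToricLevelInput r hT π 𝔄 n' k) :
    ∃ A : Submodule T (JZero p), FiniteIndexIn A (ratPoints hT) ∧
      (∀ z ∈ A, ∀ n : ℕ, n ≠ 0 → n • z = 0 → z = 0) ∧ ∀ k : ℕ, ∃ e : T,
      (∀ x ∈ primarySet (RingHom.ker π)
        (↥A ⧸ (Ideal.span {(r : T) ^ k} • ⊤ : Submodule T ↥A)), e • x = x) ∧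
      ∀ z ∈ A, ∃ y : JZero p, (∀ σ ∈ 𝔄.inertiaSubgroupIn ℚ, σ • y = y) ∧ r ^ k • y = e • z := by
  have hfinM : ∀ k : ℕ, Finite ↥(Mk p r k) := fun k =>
    haveI := hfin k
    Finite.of_injective
      (fun x : ↥(Mk p r k) => (⟨(x : JZero p), (mem_Mk_iff r k).1 x.2⟩ : ↥(torsT p T (r ^ k))))
      (fun x y hxy => Subtype.ext (congrArg (fun z : ↥(torsT p T (r ^ k)) => (z : JZero p)) hxy))
  have hquadJ : ∀ σ ∈ 𝔄.inertiaSubgroupIn ℚ, ∀ (k : ℕ) (x : JZero p), r ^ k • x = 0 →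
      σ • σ • x + x = σ • x + σ • x := fun σ hσ k x hx =>
    hquad k ⟨σ, hσ⟩ x (by rw [hx]; exact (ratPoints hT).zero_mem)
  exact pfinP_tf hT hMW (RingHom.ker π) 𝔄 r _ (Fact.out : r.Prime).pos (Nat.factorial_pos _) hdiv
    hfin hcyc hquad (ptExp_of_toric r hT π 𝔄 hfinM n' hn' hquadJ hlevel)

end Fermat.Agent.MAZ.Desc.PFinTF26
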