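/-
Program MAZ (S15), G-side, pole P1 = (PT), MARKED level input with the dual mark ABSTRACT (helper90).

`PTExpInstM90.ToricLevelInputM'` asks CARTIER with marks in the form
`F.Ok (M × Dual M C) (prodMark C M₀)` (`prodMark C M₀ = M₀ × M₀^⊥`).  The suppliers (helper95's exit
literal `(D₀, hOkP, hD₀)`, helper68's `CartierMarkedAnn68`, helper33's `CartierAnn33`) deliver

  `F.Ok (M × Dual M C) (M₀.prod D₀)`,  `Dual.ann C M₀ ≤ D₀`,  `#D₀ * #M₀ ≤ #M`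

for an abstract `D₀`; by `BoundedUnramM50.eq_ann_of_card_le` this forces `D₀ = M₀^⊥`.

* `ToricLevelInputMAbs'`        : the level input with `(M₀, D₀, hOk, hann, hD₀)`;
* `toricLevelInputM'_of_abs`    : `ToricLevelInputMAbs' → ToricLevelInputM'`;
* `pfinP_of_inputs_marked_abs_pos` : (P-FIN)_P, final form (as in `PFinPFinalPos90`), from
  `∀ k, 1 ≤ k → ToricLevelInputMAbs' r hT π 𝔄 n' k`.
-/
import Mathlib
import Fermat.Agent.MAZ.Desc.PFinPFinalPos90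

set_option autoImplicit false
set_option linter.unusedSectionVars false
set_option linter.unusedVariables false
set_option linter.style.haveILetI false

open AlgebraicCurve ModularCurve

noncomputable section

namespace Fermat.Agent.MAZ.Desc.PTExpInstMAbs90

open Fermat.Agent.X0 Fermat.Agent.MAZ.Spec.XSpec62 Fermat.Agent.MAZ.Spec.GSpec26
open Fermat.Agent.MAZ.Desc.SelmerCone95 Fermat.Agent.MAZ.Desc.Devissage95
  Fermat.Agent.MAZ.Desc.PrimaryPart19 Fermat.Agent.MAZ.Desc.ConePrimary95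
  Fermat.Agent.MAZ.Desc.EisFiltration19 Fermat.Agent.MAZ.Desc.DualModule2
  Fermat.Agent.MAZ.Desc.KummerInst26 Fermat.Agent.MAZ.Desc.ToricAsm50
  Fermat.Agent.MAZ.Desc.PFinPInst90 Fermat.Agent.MAZ.Desc.PTExpInst90
  Fermat.Agent.MAZ.Desc.DevissageMarked95 Fermat.Agent.MAZ.Desc.DualDevissageMarked95
  Fermat.Agent.MAZ.Desc.ToricAsmM50 Fermat.Agent.MAZ.Desc.PTExpInstM90
  Fermat.Agent.MAZ.Desc.PFinPFinal90 Fermat.Agent.MAZ.Desc.PFinPFinalPos90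

variable {p : ℕ} [NeZero p] {T : Type} [CommRing T] [Module T (JZero p)]
variable (r : ℕ) [Fact r.Prime] (k : ℕ)

attribute [local instance] dmaMk modMk primaryDMA

/-- **The marked level input with the dual mark abstract**: `ToricLevelInputM'` with the conjunct
`∃ M₀, F.Ok (M × Dual M C) (prodMark C M₀)` replaced by
`∃ M₀ D₀, F.Ok (M × Dual M C) (M₀.prod D₀) ∧ Dual.ann C M₀ ≤ D₀ ∧ #D₀ * #M₀ ≤ #M`. -/
def ToricLevelInputMAbs' (hT : HeckeModel p T) (π : T →+* ZMod r) (𝔄 : ValuationSubring Qb)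
    (n' : ℕ) (k : ℕ) : Prop :=
  haveI := smulComm_Mk r k hT
  ∃ (F : MarkedFamily.{0} GQ) (χ : GQ →* ZMod r) (τ δ : GQ → T)
    (C : Type) (_ : AddCommGroup C) (_ : DistribMulAction GQ C) (_ : Finite C) (_ : IsAddCyclic C),
    RankOneBoundM F (𝔄.decompositionSubgroup ℚ) (𝔄.inertiaSubgroupIn ℚ) r χ ∧
    (∀ x : ↥(primaryPart (RingHom.ker π) ↥(Mk p r k)), Nat.card C • x = 0) ∧
    (∀ ι ∈ 𝔄.inertiaSubgroupIn ℚ, ∀ c : C, ι • c = c) ∧
    (∀ g : GQ, ∃ u : ℕ, (u : ZMod r) = χ g ∧ u.Coprime (Nat.card C) ∧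
      (∀ c : C, g • c = u • c) ∧
      ∀ x : ↥(primaryPart (RingHom.ker π) ↥(Mk p r k)), δ g • x = u • x) ∧
    EisData π χ τ δ ↥(primaryPart (RingHom.ker π) ↥(Mk p r k)) ∧
    (∃ (M₀ : AddSubgroup ↥(primaryPart (RingHom.ker π) ↥(Mk p r k)))
      (D₀ : AddSubgroup (Dual ↥(primaryPart (RingHom.ker π) ↥(Mk p r k)) C)),
      F.Ok (↥(primaryPart (RingHom.ker π) ↥(Mk p r k)) ×
        Dual ↥(primaryPart (RingHom.ker π) ↥(Mk p r k)) C) (M₀.prod D₀) ∧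
      Dual.ann C M₀ ≤ D₀ ∧
      Nat.card D₀ * Nat.card M₀ ≤ Nat.card ↥(primaryPart (RingHom.ker π) ↥(Mk p r k))) ∧
    ∃ a ∈ eisIdeal τ δ, ∀ x : ↥(primaryPart (RingHom.ker π) ↥(Mk p r k)), n' • x = a • x

/-- the abstract dual mark is the annihilator. -/
theorem toricLevelInputM'_of_abs (hT : HeckeModel p T) (π : T →+* ZMod r)
    (𝔄 : ValuationSubring Qb) (n' : ℕ) [Finite ↥(Mk p r k)]
    (h : ToricLevelInputMAbs' r hT π 𝔄 n' k) : ToricLevelInputM' r hT π 𝔄 n' k := by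
  haveI := smulComm_Mk r k hT
  obtain ⟨F, χ, τ, δ, C, iC1, iC2, iC3, iC4, hR, hMC, hIC, hδ, E, ⟨M₀, D₀, hOk, hann, hD₀⟩,
    a, ha, hNE⟩ := h
  haveI : Finite ↥(primaryPart (RingHom.ker π) ↥(Mk p r k)) :=
    Finite.of_injective (fun x => (x : ↥(Mk p r k))) Subtype.coe_injective
  have hD : D₀ = Dual.ann C M₀ :=
    Fermat.Agent.MAZ.Desc.BoundedUnramM50.eq_ann_of_card_le (C := C) hMC M₀ D₀ hann hD₀
  subst hD
  exact ⟨F, χ, τ, δ, C, iC1, iC2, iC3, iC4, hR, hMC, hIC, hδ, E, ⟨M₀, hOk⟩, a, ha, hNE⟩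

/-- **(P-FIN)_P, final form, MARKED level inputs with abstract dual mark, at `k ≥ 1` only (any prime
`r ≠ p`, in particular `r = 2`).**  Same binders and conclusion as
`PFinPFinalPos90.pfinP_of_inputs_marked_pos`. -/
theorem pfinP_of_inputs_marked_abs_pos (hT : HeckeModel p T) (hMW : MW p) (hp : p.Prime)
    (hrp : r ≠ p) (π : T →+* ZMod r) (𝔄 : ValuationSubring Qb)
    (hdivAll : ∀ n : ℕ, n ≠ 0 → ∀ z : JZero p, ∃ y : JZero p, n • y = z)
    (hfinAll : ∀ n : ℕ, n ≠ 0 → {y : JZero p | n • y = 0}.Finite)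
    (htame : HCyc48.TameStmt p 𝔄)
    (hNUM : ∀ τ ∈ 𝔄.inertiaSubgroupIn ℚ, ∀ m : ℕ, ¬ p ∣ m → ∀ y : JZero p,
      τ • (m • y) = m • y → τ • τ • y + y = τ • y + τ • y)
    (n' : ℕ) (hn' : 0 < n')
    (hlevel : ∀ k : ℕ, 1 ≤ k → ToricLevelInputMAbs' r hT π 𝔄 n' k) :
    ∃ A : Submodule T (JZero p), FiniteIndexIn A (ratPoints hT) ∧ ∀ k : ℕ, ∃ e : T,
      (∀ x ∈ primarySet (RingHom.ker π)
        (↥A ⧸ (Ideal.span {(r : T) ^ k} • ⊤ : Submodule T ↥A)), e • x = x) ∧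
      ∀ z ∈ A, ∃ y : JZero p, (∀ σ ∈ 𝔄.inertiaSubgroupIn ℚ, σ • y = y) ∧ r ^ k • y = e • z :=
  pfinP_of_inputs_marked_pos r hT hMW hp hrp π 𝔄 hdivAll hfinAll htame hNUM n' hn'
    (fun k hk =>
      haveI := finite_Mk r hfinAll k
      toricLevelInputM'_of_abs r k hT π 𝔄 n' (hlevel k hk))

end Fermat.Agent.MAZ.Desc.PTExpInstMAbs90
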