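/-
Program MAZ (S15), G-side, pole P1 = (PT): THE FINAL COMPOSITION of (P-FIN)_P WITH `A` TORSION-FREE
(helper90) = the twins of `PFinPFinal90` / `PFinPFinalPos90` / `PTExpInstMAbs90` on top of helper26's
`PFinTF26.pfinP_tf` (`A := (c · t) • J₀(p)(ℚ)`, `t = #J₀(p)(ℚ)_tors`).

Conclusion of every exit = the conclusion of `PFinTF26.pfinP_of_toric_tf` VERBATIM
(= the hypothesis `hPF` of `LevelDualInstA26.descentBound_odd_tf` and of its `r = 2` twin):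

  `∃ A, FiniteIndexIn A (ratPoints hT) ∧ (∀ z ∈ A, ∀ n : ℕ, n ≠ 0 → n • z = 0 → z = 0) ∧ ∀ k, ∃ e, …`.

Hypotheses: the supplier literals of `PFinPFinal90` (`hdivAll`, `hfinAll`, `htame`, `hNUM`, MW) and the
level inputs AT `k ≥ 1` ONLY.

* `pfinP_of_ptExp_tf`                 : from `PTExp p P 𝔄 r c`, `0 < c`;
* `pfinP_of_inputs_pos_tf`            : from `∀ k ≥ 1, ToricLevelInput  r hT π 𝔄 n' k`;
* `pfinP_of_inputs_pos_tf'`           : from `∀ k ≥ 1, ToricLevelInput' r hT π 𝔄 n' k`;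
* `pfinP_of_inputs_marked_pos_tf`     : from `∀ k ≥ 1, ToricLevelInputM' r hT π 𝔄 n' k`;
* `pfinP_of_inputs_marked_abs_pos_tf` : from `∀ k ≥ 1, ToricLevelInputMAbs' r hT π 𝔄 n' k`.
-/
import Mathlib
import Fermat.Agent.MAZ.Desc.PTExpInstMAbs90
import Fermat.Agent.MAZ.Desc.PFinTF26

set_option autoImplicit false
set_option linter.unusedSectionVars false
set_option linter.unusedVariables false
set_option linter.style.haveILetI false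

open AlgebraicCurve ModularCurve

noncomputable section

namespace Fermat.Agent.MAZ.Desc.PFinPFinalTF90

open Fermat.Agent.X0 Fermat.Agent.MAZ.Spec.XSpec62 Fermat.Agent.MAZ.Spec.GSpec26
open Fermat.Agent.MAZ.Desc.PFinPInst90 Fermat.Agent.MAZ.Desc.PTExpInst90
  Fermat.Agent.MAZ.Desc.PTExpInstB90 Fermat.Agent.MAZ.Desc.PTExpInstM90
  Fermat.Agent.MAZ.Desc.PTExpInstMAbs90
  Fermat.Agent.MAZ.Desc.PFinPFinal90 Fermat.Agent.MAZ.Desc.PFinPFinalPos90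
  Fermat.Agent.MAZ.Desc.PFinTF26 Fermat.Agent.MAZ.Desc.KummerInst26

variable {p : ℕ} [NeZero p] {T : Type} [CommRing T] [Module T (JZero p)]
variable (r : ℕ) [Fact r.Prime]

/-- **(P-FIN)_P with `A` torsion-free, from `PTExp`**, with `hcyc`, `hquad`, `hdiv`, `hfin`
discharged. -/
theorem pfinP_of_ptExp_tf (hT : HeckeModel p T) (hMW : MW p) (hp : p.Prime) (hrp : r ≠ p)
    (P : Ideal T) (𝔄 : ValuationSubring Qb)
    (hdivAll : ∀ n : ℕ, n ≠ 0 → ∀ z : JZero p, ∃ y : JZero p, n • y = z)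
    (hfinAll : ∀ n : ℕ, n ≠ 0 → {y : JZero p | n • y = 0}.Finite)
    (htame : HCyc48.TameStmt p 𝔄)
    (hNUM : ∀ τ ∈ 𝔄.inertiaSubgroupIn ℚ, ∀ m : ℕ, ¬ p ∣ m → ∀ y : JZero p,
      τ • (m • y) = m • y → τ • τ • y + y = τ • y + τ • y)
    (c : ℕ) (hc : 0 < c) (hPT : PTExp p P 𝔄 r c) :
    ∃ A : Submodule T (JZero p), FiniteIndexIn A (ratPoints hT) ∧
      (∀ z ∈ A, ∀ n : ℕ, n ≠ 0 → n • z = 0 → z = 0) ∧ ∀ k : ℕ, ∃ e : T,
      (∀ x ∈ primarySet P (↥A ⧸ (Ideal.span {(r : T) ^ k} • ⊤ : Submodule T ↥A)), e • x = x) ∧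
      ∀ z ∈ A, ∃ y : JZero p, (∀ σ ∈ 𝔄.inertiaSubgroupIn ℚ, σ • y = y) ∧ r ^ k • y = e • z := by
  have hr : r.Prime := Fact.out
  exact pfinP_tf hT hMW P 𝔄 r c hr.pos hc
    (fun z k => hdivAll (r ^ k) (pow_ne_zero k hr.ne_zero) z)
    (fun k => (hfinAll (r ^ k) (pow_ne_zero k hr.ne_zero)).to_subtype)
    (hcyc_of_inputs r hT hMW hp hrp 𝔄 hfinAll htame (hunip_of_num p 𝔄 hNUM))
    (hquad_of_num r hT hp hrp 𝔄 hNUM) hPT

section Final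

variable (hT : HeckeModel p T) (hMW : MW p) (hp : p.Prime) (hrp : r ≠ p)
  (π : T →+* ZMod r) (𝔄 : ValuationSubring Qb)
  (hdivAll : ∀ n : ℕ, n ≠ 0 → ∀ z : JZero p, ∃ y : JZero p, n • y = z)
  (hfinAll : ∀ n : ℕ, n ≠ 0 → {y : JZero p | n • y = 0}.Finite)
  (htame : HCyc48.TameStmt p 𝔄)
  (hNUM : ∀ τ ∈ 𝔄.inertiaSubgroupIn ℚ, ∀ m : ℕ, ¬ p ∣ m → ∀ y : JZero p,
    τ • (m • y) = m • y → τ • τ • y + y = τ • y + τ • y)
  (n' : ℕ) (hn' : 0 < n')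

include hMW hp hrp hdivAll hfinAll htame hNUM hn' in
/-- **(P-FIN)_P, torsion-free `A`, level inputs (on `J₀(p)`) at `k ≥ 1` only.** -/
theorem pfinP_of_inputs_pos_tf (hlevel : ∀ k : ℕ, 1 ≤ k → ToricLevelInput r hT π 𝔄 n' k) :
    ∃ A : Submodule T (JZero p), FiniteIndexIn A (ratPoints hT) ∧
      (∀ z ∈ A, ∀ n : ℕ, n ≠ 0 → n • z = 0 → z = 0) ∧ ∀ k : ℕ, ∃ e : T,
      (∀ x ∈ primarySet (RingHom.ker π)
        (↥A ⧸ (Ideal.span {(r : T) ^ k} • ⊤ : Submodule T ↥A)), e • x = x) ∧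
      ∀ z ∈ A, ∃ y : JZero p, (∀ σ ∈ 𝔄.inertiaSubgroupIn ℚ, σ • y = y) ∧ r ^ k • y = e • z := by
  haveI := finite_tors_sub hfinAll n' hn'
  haveI := finite_ker_nsmul r hfinAll
  exact pfinP_of_ptExp_tf r hT hMW hp hrp (RingHom.ker π) 𝔄 hdivAll hfinAll htame hNUM _
    (Nat.factorial_pos _)
    (ptExp_of_toric_pos r hT π 𝔄 (finite_Mk r hfinAll) n' hn' (hquadJ_of_num r hp hrp 𝔄 hNUM)
      hlevel)

include hMW hp hrp hdivAll hfinAll htame hNUM hn' in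
/-- **(P-FIN)_P, torsion-free `A`, level inputs (on the type `primaryPart (ker π) (Mk p r k)`) at
`k ≥ 1` only.** -/
theorem pfinP_of_inputs_pos_tf' (hlevel : ∀ k : ℕ, 1 ≤ k → ToricLevelInput' r hT π 𝔄 n' k) :
    ∃ A : Submodule T (JZero p), FiniteIndexIn A (ratPoints hT) ∧
      (∀ z ∈ A, ∀ n : ℕ, n ≠ 0 → n • z = 0 → z = 0) ∧ ∀ k : ℕ, ∃ e : T,
      (∀ x ∈ primarySet (RingHom.ker π)
        (↥A ⧸ (Ideal.span {(r : T) ^ k} • ⊤ : Submodule T ↥A)), e • x = x) ∧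
      ∀ z ∈ A, ∃ y : JZero p, (∀ σ ∈ 𝔄.inertiaSubgroupIn ℚ, σ • y = y) ∧ r ^ k • y = e • z := by
  haveI := finite_tors_sub hfinAll n' hn'
  haveI := finite_ker_nsmul r hfinAll
  exact pfinP_of_ptExp_tf r hT hMW hp hrp (RingHom.ker π) 𝔄 hdivAll hfinAll htame hNUM _
    (Nat.factorial_pos _)
    (ptExp_of_toric_pos' r hT π 𝔄 (finite_Mk r hfinAll) n' hn' (hquadJ_of_num r hp hrp 𝔄 hNUM)
      hlevel)

include hMW hp hrp hdivAll hfinAll htame hNUM hn' in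
/-- **(P-FIN)_P, torsion-free `A`, MARKED level inputs at `k ≥ 1` only (any prime `r ≠ p`).** -/
theorem pfinP_of_inputs_marked_pos_tf
    (hlevel : ∀ k : ℕ, 1 ≤ k → ToricLevelInputM' r hT π 𝔄 n' k) :
    ∃ A : Submodule T (JZero p), FiniteIndexIn A (ratPoints hT) ∧
      (∀ z ∈ A, ∀ n : ℕ, n ≠ 0 → n • z = 0 → z = 0) ∧ ∀ k : ℕ, ∃ e : T,
      (∀ x ∈ primarySet (RingHom.ker π)
        (↥A ⧸ (Ideal.span {(r : T) ^ k} • ⊤ : Submodule T ↥A)), e • x = x) ∧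
      ∀ z ∈ A, ∃ y : JZero p, (∀ σ ∈ 𝔄.inertiaSubgroupIn ℚ, σ • y = y) ∧ r ^ k • y = e • z := by
  haveI := finite_tors_sub hfinAll n' hn'
  haveI := finite_ker_nsmul r hfinAll
  exact pfinP_of_ptExp_tf r hT hMW hp hrp (RingHom.ker π) 𝔄 hdivAll hfinAll htame hNUM _
    (Nat.factorial_pos _)
    (ptExp_of_toric_marked_pos' r hT π 𝔄 (finite_Mk r hfinAll) n' hn'
      (hquadJ_of_num r hp hrp 𝔄 hNUM) hlevel)

include hMW hp hrp hdivAll hfinAll htame hNUM hn' in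
/-- **(P-FIN)_P, torsion-free `A`, MARKED level inputs with abstract dual mark at `k ≥ 1` only.** -/
theorem pfinP_of_inputs_marked_abs_pos_tf
    (hlevel : ∀ k : ℕ, 1 ≤ k → ToricLevelInputMAbs' r hT π 𝔄 n' k) :
    ∃ A : Submodule T (JZero p), FiniteIndexIn A (ratPoints hT) ∧
      (∀ z ∈ A, ∀ n : ℕ, n ≠ 0 → n • z = 0 → z = 0) ∧ ∀ k : ℕ, ∃ e : T,
      (∀ x ∈ primarySet (RingHom.ker π)
        (↥A ⧸ (Ideal.span {(r : T) ^ k} • ⊤ : Submodule T ↥A)), e • x = x) ∧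
      ∀ z ∈ A, ∃ y : JZero p, (∀ σ ∈ 𝔄.inertiaSubgroupIn ℚ, σ • y = y) ∧ r ^ k • y = e • z :=
  pfinP_of_inputs_marked_pos_tf r hT hMW hp hrp π 𝔄 hdivAll hfinAll htame hNUM n' hn'
    (fun k hk =>
      haveI := finite_Mk r hfinAll k
      toricLevelInputM'_of_abs r k hT π 𝔄 n' (hlevel k hk))

end Final

end Fermat.Agent.MAZ.Desc.PFinPFinalTF90
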