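/-
Program MAZ (S15), G-side, pole P1 = (PT): THE LEVEL INPUTS OF `ToricAsm(M)50` AT `JZero p`, from the
landed suppliers (helper90).  Part A is `r`-agnostic (the Eichler–Shimura inputs on the `ker π`-primary
part of `J₀(p)[r^k]`); Part B is the `r = 2` (MARKED) twin of helper55's `toricLevelInput`.

* `evT90`                : the action of `T` on `JZero p` as a ring homomorphism `T →+* End ℤ (JZero p)`;
* `exists_eis_inputs`    : `EisRelNE55.exists_toric_inputs` at `M := primaryPart (ker π) (Mk p r k)`,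
                           `m := r ^ k`, `ι := PTExpInst90.inclJ`, with (C1) in the literal shape of
                           `EisTransferFinal85.exists_eis_transfer_pair` (`t i ∈ heckeSub p`, turned into
                           elements of `T` by `hT.mem_iff`) and `hnil` from finiteness: gives
                           `(τ, δ, E, hδ, hMC, (NE))` for `C := Mu (r ^ k)`, `χ := chiMod r`;
* `toricLevelInputMAbs_two` : **`PTExpInstMAbs90.ToricLevelInputMAbs' 2 hT π 𝔄 n' k`, `k ≥ 1`**, with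
                           `F := MarkedAdm19.markedFamily 2 k p`, RANK-ONE :=
                           `MarkedAdm19.rankOneBoundM_markedFamily_two`, CARTIER WITH MARKS :=
                           `CartierMarkedInst68.exists_dualMark` on the primary part (mark
                           `primaryMark (ker π) M₀`), from a good marked module structure
                           `OkModM 2 k p ↥(Mk p 2 k) M₀` on `J₀(p)[2^k]`;
* `pfinP_two`            : **(P-FIN)_P at `r = 2`** = the hypothesis `hPF` of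
                           `LevelDualInstM2.descentBound_two`, from MW, the supplier literals of
                           `PFinPFinal90`, (C1) and `∀ k ≥ 1, ∃ M₀, OkModM 2 k p ↥(Mk p 2 k) M₀`
                           (= `LevelDualInstM2.exists_mark`, first half: S19 at `2` + K-UNR + the marks).
-/
import Mathlib
import Fermat.Agent.MAZ.Hecke.EisRelNE55
import Fermat.Agent.MAZ.Desc.CartierMarkedInst68
import Fermat.Agent.MAZ.Desc.ChiTwo95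
import Fermat.Agent.MAZ.Desc.KummerInstDual26
import Fermat.Agent.MAZ.Desc.PTExpInstMAbs90
import Fermat.Agent.MAZ.Desc.PFinPFinalTF90

set_option autoImplicit false
set_option linter.unusedSectionVars false
set_option linter.unusedVariables false
set_option linter.style.haveILetI false

open AlgebraicCurve ModularCurve

noncomputable section

namespace Fermat.Agent.MAZ.Desc.PTExpInstTwo90

open Fermat.Agent.X0 Fermat.Agent.MAZ.Spec.XSpec62 Fermat.Agent.MAZ.Spec.GSpec26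
open Fermat.Agent.MAZ.Desc.SelmerCone95 Fermat.Agent.MAZ.Desc.Devissage95
  Fermat.Agent.MAZ.Desc.PrimaryPart19 Fermat.Agent.MAZ.Desc.ConePrimary95
  Fermat.Agent.MAZ.Desc.EisFiltration19 Fermat.Agent.MAZ.Desc.DualModule2
  Fermat.Agent.MAZ.Desc.KummerInst26 Fermat.Agent.MAZ.Desc.ToricAsm50
  Fermat.Agent.MAZ.Desc.PFinPInst90 Fermat.Agent.MAZ.Desc.PTExpInst90
  Fermat.Agent.MAZ.Desc.DevissageMarked95 Fermat.Agent.MAZ.Desc.DualDevissageMarked95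
  Fermat.Agent.MAZ.Desc.DescentAsmMarked95
  Fermat.Agent.MAZ.Desc.PTExpInstM90 Fermat.Agent.MAZ.Desc.PTExpInstMAbs90
  Fermat.Agent.MAZ.Desc.PFinPFinalTF90
  Fermat.Agent.MAZ.Desc.MuModule11 Fermat.Agent.MAZ.Desc.MarkedAdm19
open Fermat.Agent.MAZ.Hecke.EisRel55 (chiMod)
open Fermat.Agent.MAZ.Desc.KummerInstDual26 (mu_inertia)
open Fermat.Agent.MAZ.Desc.RankOneInst19 (chiModR)

variable {p : ℕ} [NeZero p] {T : Type} [CommRing T] [Module T (JZero p)]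

attribute [local instance] dmaMk modMk primaryDMA

/-! ### Part A (`r`-agnostic): the Eichler–Shimura inputs on the primary part -/

/-- the action of `T` on `JZero p`, as a ring homomorphism to the endomorphism ring. -/
def evT90 (p : ℕ) [NeZero p] (T : Type) [CommRing T] [Module T (JZero p)] :
    T →+* Module.End ℤ (JZero p) where
  toFun t :=
    { toFun := fun x => t • x
      map_add' := smul_add t
      map_smul' := fun n x => smul_comm t n x }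
  map_one' := LinearMap.ext fun x => one_smul T x
  map_mul' s t := LinearMap.ext fun x => mul_smul s t x
  map_zero' := LinearMap.ext fun x => zero_smul T x
  map_add' s t := LinearMap.ext fun x => add_smul s t x

theorem evT90_apply (t : T) (x : JZero p) : evT90 p T t x = t • x := rfl

variable (r : ℕ) [Fact r.Prime] (k : ℕ)

/-- **`EisRelNE55.exists_toric_inputs` at the `ker π`-primary part of `J₀(p)[r^k]`, `k ≥ 1`**, with
(C1) in the literal shape of `EisTransferFinal85.exists_eis_transfer_pair`. -/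
theorem exists_eis_inputs (hT : HeckeModel p T) (hp : p.Prime) (hk : 1 ≤ k)
    [Finite ↥(Mk p r k)] (π : T →+* ZMod r)
    (hev : ∀ ℓ : Nat.Primes, (ℓ : ℕ) ≠ p →
      ∃ t : T, (∀ x : JZero p, t • x = heckeOperatorBar p ℓ x) ∧ π t = ((ℓ : ℕ) : ZMod r) + 1)
    (hfin : {y : JZero p | r ^ k • y = 0}.Finite)
    (n' : ℕ) {κ : Type} [Fintype κ] (ℓ : κ → Nat.Primes) (t : κ → Module.End ℤ (JZero p))
    (hℓ : ∀ i, (ℓ i : ℕ) ≠ p ∧ (ℓ i : ℕ) ≠ r) (ht : ∀ i, t i ∈ heckeSub p)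
    (hsum : ∀ x : JZero p, r ^ k • x = 0 →
      n' • x = ∑ i, t i (heckeOperatorBar p (ℓ i) x - (1 + (ℓ i : ℕ)) • x)) :
    haveI := smulComm_Mk r k hT
    ∃ τ δ : GQ → T,
      EisData π (chiMod r) τ δ ↥(primaryPart (RingHom.ker π) ↥(Mk p r k)) ∧
      (∀ g : GQ, ∃ u : ℕ, (u : ZMod r) = chiMod r g ∧ u.Coprime (Nat.card (Mu (r ^ k))) ∧
        (∀ c : Mu (r ^ k), g • c = u • c) ∧
        ∀ x : ↥(primaryPart (RingHom.ker π) ↥(Mk p r k)), δ g • x = u • x) ∧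
      (∀ x : ↥(primaryPart (RingHom.ker π) ↥(Mk p r k)), Nat.card (Mu (r ^ k)) • x = 0) ∧
      ∃ a ∈ eisIdeal τ δ, ∀ x : ↥(primaryPart (RingHom.ker π) ↥(Mk p r k)), n' • x = a • x := by
  haveI := smulComm_Mk r k hT
  have hr : r.Prime := Fact.out
  -- the operators `t i` come from `T`
  choose s hs using fun i => (hT.mem_iff (t i)).1 (ht i)
  -- a uniform exponent on the finite primary part
  have hnil : ∃ n : ℕ, ∀ t ∈ (RingHom.ker π) ^ n,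
      ∀ x : ↥(primaryPart (RingHom.ker π) ↥(Mk p r k)), t • x = 0 := by
    choose j hj using fun x : ↥(primaryPart (RingHom.ker π) ↥(Mk p r k)) => x.2
    obtain ⟨m, hm⟩ : ∃ m, ∀ x, j x ≤ m := by
      cases nonempty_fintype ↥(primaryPart (RingHom.ker π) ↥(Mk p r k))
      exact ⟨Finset.univ.sup j, fun x => Finset.le_sup (Finset.mem_univ x)⟩
    exact ⟨m, fun t ht x => Subtype.ext (hj x t (Ideal.pow_le_pow_right (hm x) ht))⟩
  have hcoe : ∀ x : ↥(primaryPart (RingHom.ker π) ↥(Mk p r k)),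
      r ^ k • ((x : ↥(Mk p r k)) : JZero p) = 0 := fun x =>
    (mem_Mk_iff r k).1 (x : ↥(Mk p r k)).2
  exact Fermat.Agent.MAZ.Hecke.EisRelNE55.exists_toric_inputs hp (r := r) (m := r ^ k)
    (pow_ne_zero k hr.ne_zero) (dvd_pow_self r (Nat.one_le_iff_ne_zero.1 hk)) hfin (evT90 p T) π
    (fun q hqp _ => by
      obtain ⟨t, ht, hπ⟩ := hev q hqp
      exact ⟨t, LinearMap.ext ht, hπ⟩)
    (inclJ r k hT (RingHom.ker π)) (inclJ_injective r k hT (RingHom.ker π))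
    (fun g x => rfl) (fun t x => rfl) hcoe hnil n' ℓ
    (fun i => ⟨(hℓ i).1, fun hdvd => (hℓ i).2
      ((Nat.prime_dvd_prime_iff_eq (ℓ i).2 hr).mp ((ℓ i).2.dvd_of_dvd_pow hdvd))⟩)
    s (fun x hx => by
      rw [hsum x hx]
      exact Finset.sum_congr rfl fun i _ => hs i _)

/-! ### Part B: the marked level input at `r = 2` -/

/-- **the MARKED level input of P1 at `r = 2`, level `k ≥ 1`**, from a good marked module structure on
`J₀(p)[2^k]`. -/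
theorem toricLevelInputMAbs_two (hT : HeckeModel p T) (hp : p.Prime) (hp2 : p ≠ 2)
    (𝔄 : ValuationSubring Qb) (h𝔄 : 𝔄.LiesOverPrime p) (π : T →+* ZMod 2)
    (hev : ∀ ℓ : Nat.Primes, (ℓ : ℕ) ≠ p →
      ∃ t : T, (∀ x : JZero p, t • x = heckeOperatorBar p ℓ x) ∧ π t = ((ℓ : ℕ) : ZMod 2) + 1)
    {k : ℕ} (hk : 1 ≤ k) (hfin : {y : JZero p | 2 ^ k • y = 0}.Finite)
    (n' : ℕ) {κ : Type} [Fintype κ] (ℓ : κ → Nat.Primes) (t : κ → Module.End ℤ (JZero p))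
    (hℓ : ∀ i, (ℓ i : ℕ) ≠ p ∧ (ℓ i : ℕ) ≠ 2) (ht : ∀ i, t i ∈ heckeSub p)
    (hsum : ∀ x : JZero p, 2 ^ k • x = 0 →
      n' • x = ∑ i, t i (heckeOperatorBar p (ℓ i) x - (1 + (ℓ i : ℕ)) • x))
    {M₀ : AddSubgroup ↥(Mk p 2 k)} (hOk : OkModM 2 k p ↥(Mk p 2 k) M₀) :
    ToricLevelInputMAbs' 2 hT π 𝔄 n' k := by
  haveI := smulComm_Mk 2 k hT
  haveI : Finite ↥(Mk p 2 k) := hOk.ok.finite
  haveI : NeZero (2 ^ k) := ⟨pow_ne_zero k two_ne_zero⟩
  haveI := primary_smulCommClass (G := GQ) (M := ↥(Mk p 2 k)) (RingHom.ker π)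
  obtain ⟨τ, δ, E, hδ, hMC, a, ha, hNE⟩ :=
    exists_eis_inputs 2 k hT hp hk π hev hfin n' ℓ t hℓ ht hsum
  -- RANK-ONE, with `χ := chiMod 2`
  have hR : RankOneBoundM (markedFamily 2 k p) (𝔄.decompositionSubgroup ℚ)
      (𝔄.inertiaSubgroupIn ℚ) 2 (chiMod 2) := by
    have h := rankOneBoundM_markedFamily_two 𝔄 (k := k) hk hp hp2 h𝔄
    rwa [Fermat.Agent.MAZ.Desc.ChiTwo95.monoidHom_zmod_two_eq (chiModR 2) (chiMod 2)] at h
  -- CARTIER with marks on the primary part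
  have hOkP : OkModM 2 k p ↥(primaryPart (RingHom.ker π) ↥(Mk p 2 k))
      (primaryMark (RingHom.ker π) M₀) :=
    ok_primaryPartM (markedFamily 2 k p) M₀ hOk (RingHom.ker π)
  obtain ⟨D₀, hOkD, hcount, hann⟩ :=
    Fermat.Agent.MAZ.Desc.CartierMarkedInst68.exists_dualMark (C := Mu (2 ^ k)) hOkP
      (Fermat.Agent.MAZ.Flat.CartierMarked68.unipTwoGlobal_of_eisData E)
      Mu.val Mu.val_add Mu.val_zero Mu.val_smul Mu.val_injective
      (fun q hq hq2 _ B hB σ hσ c => mu_inertia k hq hq2 B hB σ hσ c)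
  unfold ToricLevelInputMAbs'
  exact ⟨markedFamily 2 k p, chiMod 2, τ, δ, Mu (2 ^ k), inferInstance, inferInstance,
    inferInstance, inferInstance, hR, hMC,
    fun σ hσ c => mu_inertia k hp hp2 𝔄 h𝔄 σ hσ c, hδ, E,
    ⟨primaryMark (RingHom.ker π) M₀, D₀, hOkD, hann, hcount⟩, a, ha, hNE⟩

/-- **the exit `hPTtwo` of `S15Sup62.s15_of_open` (helper62 #2617 (3))**: a uniform `n'` and the marked
level inputs (in the `prodMark` form of `PTExpInstM90`) at every level `k ≥ 1`. -/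
theorem exists_toricLevelInputM_two (hT : HeckeModel p T) (hp : p.Prime) (hp2 : p ≠ 2)
    (𝔄 : ValuationSubring Qb) (h𝔄 : 𝔄.LiesOverPrime p) (π : T →+* ZMod 2)
    (hev : ∀ ℓ : Nat.Primes, (ℓ : ℕ) ≠ p →
      ∃ t : T, (∀ x : JZero p, t • x = heckeOperatorBar p ℓ x) ∧ π t = ((ℓ : ℕ) : ZMod 2) + 1)
    (hfinAll : ∀ n : ℕ, n ≠ 0 → {y : JZero p | n • y = 0}.Finite)
    (hC1 : ∃ n' : ℕ, 0 < n' ∧ ∃ (κ : Type) (_ : Fintype κ) (ℓ : κ → Nat.Primes)
      (t : κ → Module.End ℤ (JZero p)),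
      (∀ i, (ℓ i : ℕ) ≠ p ∧ (ℓ i : ℕ) ≠ 2) ∧ (∀ i, t i ∈ heckeSub p) ∧
      ∀ k, ∀ x : JZero p, 2 ^ k • x = 0 →
        n' • x = ∑ i, t i (heckeOperatorBar p (ℓ i) x - (1 + (ℓ i : ℕ)) • x))
    (hMark : ∀ k : ℕ, 1 ≤ k → ∃ M₀ : AddSubgroup ↥(Mk p 2 k), OkModM 2 k p ↥(Mk p 2 k) M₀) :
    ∃ n' : ℕ, 0 < n' ∧ ∀ k : ℕ, 1 ≤ k → ToricLevelInputM' 2 hT π 𝔄 n' k := by
  obtain ⟨n', hn', κ, iκ, ℓ, t, hℓ, ht, hsum⟩ := hC1
  refine ⟨n', hn', fun k hk => ?_⟩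
  obtain ⟨M₀, hOk⟩ := hMark k hk
  haveI : Finite ↥(Mk p 2 k) := hOk.ok.finite
  exact toricLevelInputM'_of_abs 2 k hT π 𝔄 n'
    (toricLevelInputMAbs_two hT hp hp2 𝔄 h𝔄 π hev hk
      (hfinAll (2 ^ k) (pow_ne_zero k two_ne_zero)) n' ℓ t hℓ ht (hsum k) hOk)

/-- **(P-FIN)_P at `r = 2`**: the hypothesis `hPF` of `LevelDualInstM2.descentBound_two`. -/
theorem pfinP_two (hT : HeckeModel p T) (hMW : MW p) (hp : p.Prime) (hp2 : p ≠ 2)
    (𝔄 : ValuationSubring Qb) (h𝔄 : 𝔄.LiesOverPrime p) (π : T →+* ZMod 2)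
    (hev : ∀ ℓ : Nat.Primes, (ℓ : ℕ) ≠ p →
      ∃ t : T, (∀ x : JZero p, t • x = heckeOperatorBar p ℓ x) ∧ π t = ((ℓ : ℕ) : ZMod 2) + 1)
    (hdivAll : ∀ n : ℕ, n ≠ 0 → ∀ z : JZero p, ∃ y : JZero p, n • y = z)
    (hfinAll : ∀ n : ℕ, n ≠ 0 → {y : JZero p | n • y = 0}.Finite)
    (htame : HCyc48.TameStmt p 𝔄)
    (hNUM : ∀ τ ∈ 𝔄.inertiaSubgroupIn ℚ, ∀ m : ℕ, ¬ p ∣ m → ∀ y : JZero p,
      τ • (m • y) = m • y → τ • τ • y + y = τ • y + τ • y)
    (hC1 : ∃ n' : ℕ, 0 < n' ∧ ∃ (κ : Type) (_ : Fintype κ) (ℓ : κ → Nat.Primes)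
      (t : κ → Module.End ℤ (JZero p)),
      (∀ i, (ℓ i : ℕ) ≠ p ∧ (ℓ i : ℕ) ≠ 2) ∧ (∀ i, t i ∈ heckeSub p) ∧
      ∀ k, ∀ x : JZero p, 2 ^ k • x = 0 →
        n' • x = ∑ i, t i (heckeOperatorBar p (ℓ i) x - (1 + (ℓ i : ℕ)) • x))
    (hMark : ∀ k : ℕ, 1 ≤ k → ∃ M₀ : AddSubgroup ↥(Mk p 2 k), OkModM 2 k p ↥(Mk p 2 k) M₀) :
    ∃ A : Submodule T (JZero p), FiniteIndexIn A (ratPoints hT) ∧ ∀ k : ℕ, ∃ e : T,
      (∀ x ∈ primarySet (RingHom.ker π)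
        (↥A ⧸ (Ideal.span {((2 : ℕ) : T) ^ k} • ⊤ : Submodule T ↥A)), e • x = x) ∧
      ∀ z ∈ A, ∃ y : JZero p, (∀ σ ∈ 𝔄.inertiaSubgroupIn ℚ, σ • y = y) ∧ 2 ^ k • y = e • z := by
  obtain ⟨n', hn', κ, iκ, ℓ, t, hℓ, ht, hsum⟩ := hC1
  exact pfinP_of_inputs_marked_abs_pos 2 hT hMW hp (fun h => hp2 h.symm) π 𝔄 hdivAll hfinAll htame
    hNUM n' hn' (fun k hk => by
      obtain ⟨M₀, hOk⟩ := hMark k hk
      exact toricLevelInputMAbs_two hT hp hp2 𝔄 h𝔄 π hev hk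
        (hfinAll (2 ^ k) (pow_ne_zero k two_ne_zero)) n' ℓ t hℓ ht (hsum k) hOk)

/-- **(P-FIN)_P at `r = 2`, with `A` torsion-free** (conclusion of `PFinTF26.pfinP_of_toric_tf` at
`r = 2`, verbatim). -/
theorem pfinP_two_tf (hT : HeckeModel p T) (hMW : MW p) (hp : p.Prime) (hp2 : p ≠ 2)
    (𝔄 : ValuationSubring Qb) (h𝔄 : 𝔄.LiesOverPrime p) (π : T →+* ZMod 2)
    (hev : ∀ ℓ : Nat.Primes, (ℓ : ℕ) ≠ p →
      ∃ t : T, (∀ x : JZero p, t • x = heckeOperatorBar p ℓ x) ∧ π t = ((ℓ : ℕ) : ZMod 2) + 1)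
    (hdivAll : ∀ n : ℕ, n ≠ 0 → ∀ z : JZero p, ∃ y : JZero p, n • y = z)
    (hfinAll : ∀ n : ℕ, n ≠ 0 → {y : JZero p | n • y = 0}.Finite)
    (htame : HCyc48.TameStmt p 𝔄)
    (hNUM : ∀ τ ∈ 𝔄.inertiaSubgroupIn ℚ, ∀ m : ℕ, ¬ p ∣ m → ∀ y : JZero p,
      τ • (m • y) = m • y → τ • τ • y + y = τ • y + τ • y)
    (hC1 : ∃ n' : ℕ, 0 < n' ∧ ∃ (κ : Type) (_ : Fintype κ) (ℓ : κ → Nat.Primes)
      (t : κ → Module.End ℤ (JZero p)),
      (∀ i, (ℓ i : ℕ) ≠ p ∧ (ℓ i : ℕ) ≠ 2) ∧ (∀ i, t i ∈ heckeSub p) ∧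
      ∀ k, ∀ x : JZero p, 2 ^ k • x = 0 →
        n' • x = ∑ i, t i (heckeOperatorBar p (ℓ i) x - (1 + (ℓ i : ℕ)) • x))
    (hMark : ∀ k : ℕ, 1 ≤ k → ∃ M₀ : AddSubgroup ↥(Mk p 2 k), OkModM 2 k p ↥(Mk p 2 k) M₀) :
    ∃ A : Submodule T (JZero p), FiniteIndexIn A (ratPoints hT) ∧
      (∀ z ∈ A, ∀ n : ℕ, n ≠ 0 → n • z = 0 → z = 0) ∧ ∀ k : ℕ, ∃ e : T,
      (∀ x ∈ primarySet (RingHom.ker π)
        (↥A ⧸ (Ideal.span {((2 : ℕ) : T) ^ k} • ⊤ : Submodule T ↥A)), e • x = x) ∧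
      ∀ z ∈ A, ∃ y : JZero p, (∀ σ ∈ 𝔄.inertiaSubgroupIn ℚ, σ • y = y) ∧ 2 ^ k • y = e • z := by
  obtain ⟨n', hn', κ, iκ, ℓ, t, hℓ, ht, hsum⟩ := hC1
  exact pfinP_of_inputs_marked_abs_pos_tf 2 hT hMW hp (fun h => hp2 h.symm) π 𝔄 hdivAll hfinAll
    htame hNUM n' hn' (fun k hk => by
      obtain ⟨M₀, hOk⟩ := hMark k hk
      exact toricLevelInputMAbs_two hT hp hp2 𝔄 h𝔄 π hev hk
        (hfinAll (2 ^ k) (pow_ne_zero k two_ne_zero)) n' ℓ t hℓ ht (hsum k) hOk)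

end Fermat.Agent.MAZ.Desc.PTExpInstTwo90
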