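/-
Program MAZ (S15), G-side, pole P1 = (PT): THE LEVEL INPUT OF `ToricAsm50` AT `JZero p` FOR ODD `r`
(helper90; hedge twin of helper55's `PTExpInst55.toricLevelInput`, on top of the `r`-agnostic Part A
of `PTExpInstTwo90`).

* `chiMod_eq_chiModR`   : the two mod `r` cyclotomic characters (`EisRel55.chiMod`, `RankOneInst19.chiModR`)
                          coincide;
* `toricLevelInput_odd` : **`PTExpInstB90.ToricLevelInput' r hT π 𝔄 n' k`, `k ≥ 1`, `r` odd**, with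
                          `F := FlatAdm68.admFamily r k p`, `φ₀ :=` complex conjugation, RANK-ONE :=
                          `RankOneInst19.rankOneBound_conj`, CARTIER := `KummerInstDual26.ok_prod_dual` ∘
                          `BoundedUnram2.ok_dual_of_injective` (restriction to the primary part),
                          `(τ, δ, E, hδ, hMC, (NE))` := `PTExpInstTwo90.exists_eis_inputs`;
* `pfinP_odd_tf`        : **(P-FIN)_P for odd `r`, `A` torsion-free** = the hypothesis `hPF` of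
                          `LevelDualInstA26.descentBound_odd_tf`, from MW, the supplier literals of
                          `PFinPFinal90`, (C1), S19 at level `p` and K-UNR;
* `pfinP_odd`           : the same without the torsion-freeness (`hPF` of `descentBound_odd`).
-/
import Mathlib
import Fermat.Agent.MAZ.Desc.PTExpInstTwo90
import Fermat.Agent.MAZ.Desc.RankOneInst19
import Fermat.Agent.MAZ.Desc.BoundedUnram2

set_option autoImplicit false
set_option linter.unusedSectionVars false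
set_option linter.unusedVariables false
set_option linter.style.haveILetI false

open AlgebraicCurve ModularCurve

noncomputable section

namespace Fermat.Agent.MAZ.Desc.PTExpInstOdd90

open Fermat.Agent.X0 Fermat.Agent.MAZ.Spec.XSpec62 Fermat.Agent.MAZ.Spec.GSpec26
open Fermat.Agent.MAZ.Desc.SelmerCone95 Fermat.Agent.MAZ.Desc.Devissage95
  Fermat.Agent.MAZ.Desc.PrimaryPart19 Fermat.Agent.MAZ.Desc.ConePrimary95
  Fermat.Agent.MAZ.Desc.EisFiltration19 Fermat.Agent.MAZ.Desc.DualModule2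
  Fermat.Agent.MAZ.Desc.FlatAdm68
  Fermat.Agent.MAZ.Desc.KummerInst26 Fermat.Agent.MAZ.Desc.ToricAsm50
  Fermat.Agent.MAZ.Desc.PFinPInst90 Fermat.Agent.MAZ.Desc.PTExpInst90
  Fermat.Agent.MAZ.Desc.PTExpInstB90 Fermat.Agent.MAZ.Desc.PTExpInstTwo90
  Fermat.Agent.MAZ.Desc.PFinPFinal90 Fermat.Agent.MAZ.Desc.PFinPFinalPos90
  Fermat.Agent.MAZ.Desc.PFinPFinalTF90
  Fermat.Agent.MAZ.Desc.MuModule11
open Fermat.Agent.MAZ.Hecke.EisRel55 (chiMod chiMod_eq)
open Fermat.Agent.MAZ.Desc.KummerInstDual26 (mu_inertia ok_prod_dual)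
open Fermat.Agent.MAZ.Desc.RankOneInst19 (chiModR chiModR_spec rankOneBound_conj)

variable {p : ℕ} [NeZero p] {T : Type} [CommRing T] [Module T (JZero p)]
variable (r : ℕ) [Fact r.Prime]

attribute [local instance] dmaMk modMk primaryDMA

/-- the two mod `r` cyclotomic characters coincide. -/
theorem chiMod_eq_chiModR : chiMod r = chiModR r := by
  refine MonoidHom.ext fun σ => ?_
  rw [chiMod_eq r σ (chiModR r σ).val (fun ζ hζ => chiModR_spec r σ ζ hζ), ZMod.natCast_val,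
    ZMod.cast_id]

/-- **the level input of P1 at the level `k ≥ 1`, `r` odd**, from a good module structure on
`J₀(p)[r^k]` (S19 at level `p` + K-UNR, `KummerInst26.okMod_Mk`). -/
theorem toricLevelInput_odd (hT : HeckeModel p T) (hp : p.Prime) (hr2 : r ≠ 2) (hpr : p ≠ r)
    (𝔄 : ValuationSubring Qb) (h𝔄 : 𝔄.LiesOverPrime p) (π : T →+* ZMod r)
    (hev : ∀ ℓ : Nat.Primes, (ℓ : ℕ) ≠ p →
      ∃ t : T, (∀ x : JZero p, t • x = heckeOperatorBar p ℓ x) ∧ π t = ((ℓ : ℕ) : ZMod r) + 1)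
    {k : ℕ} (hk : 1 ≤ k) (hfin : {y : JZero p | r ^ k • y = 0}.Finite)
    (n' : ℕ) {κ : Type} [Fintype κ] (ℓ : κ → Nat.Primes) (t : κ → Module.End ℤ (JZero p))
    (hℓ : ∀ i, (ℓ i : ℕ) ≠ p ∧ (ℓ i : ℕ) ≠ r) (ht : ∀ i, t i ∈ heckeSub p)
    (hsum : ∀ x : JZero p, r ^ k • x = 0 →
      n' • x = ∑ i, t i (heckeOperatorBar p (ℓ i) x - (1 + (ℓ i : ℕ)) • x))
    (hOk : OkMod r k p ↥(Mk p r k)) :
    ToricLevelInput' r hT π 𝔄 n' k := by
  haveI := smulComm_Mk r k hT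
  haveI : Finite ↥(Mk p r k) := hOk.finite
  have hr : r.Prime := Fact.out
  haveI : NeZero (r ^ k) := ⟨pow_ne_zero k hr.ne_zero⟩
  haveI := primary_smulCommClass (G := GQ) (M := ↥(Mk p r k)) (RingHom.ker π)
  obtain ⟨τ, δ, E, hδ, hMC, a, ha, hNE⟩ :=
    exists_eis_inputs r k hT hp hk π hev hfin n' ℓ t hℓ ht hsum
  -- RANK-ONE, with `χ := chiMod r`
  have hR : RankOneBound (admFamily r k p) (𝔄.decompositionSubgroup ℚ)
      (𝔄.inertiaSubgroupIn ℚ) r (chiMod r) complexConjugation := by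
    rw [chiMod_eq_chiModR r]
    exact rankOneBound_conj hr2 hk hp hpr 𝔄 h𝔄
  -- CARTIER on the primary part
  have hMCk : ∀ x : ↥(Mk p r k), Nat.card (Mu (r ^ k)) • x = 0 := fun x => by
    rw [Mu.card_mu]
    exact nsmul_Mk_eq_zero r k x
  have hOkP : (admFamily r k p).Ok (↥(primaryPart (RingHom.ker π) ↥(Mk p r k)) ×
      Dual ↥(primaryPart (RingHom.ker π) ↥(Mk p r k)) (Mu (r ^ k))) :=
    Fermat.Agent.MAZ.Desc.BoundedUnram2.ok_dual_of_injective (Mu (r ^ k)) (admFamily r k p)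
      (inclP (M := ↥(Mk p r k)) (RingHom.ker π)) (fun _ _ => rfl)
      (inclP_injective (RingHom.ker π)) hMCk (ok_prod_dual hOk)
  unfold ToricLevelInput'
  exact ⟨admFamily r k p, complexConjugation, chiMod r, τ, δ, Mu (r ^ k), inferInstance,
    inferInstance, inferInstance, inferInstance, hR, hMC,
    fun σ hσ c => mu_inertia k hp hpr 𝔄 h𝔄 σ hσ c, hδ, E, hOkP, a, ha, hNE⟩

section Final

variable (hT : HeckeModel p T) (hMW : MW p) (hp : p.Prime) (hr2 : r ≠ 2) (hpr : p ≠ r)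
  (𝔄 : ValuationSubring Qb) (h𝔄 : 𝔄.LiesOverPrime p) (π : T →+* ZMod r)
  (hev : ∀ ℓ : Nat.Primes, (ℓ : ℕ) ≠ p →
    ∃ t : T, (∀ x : JZero p, t • x = heckeOperatorBar p ℓ x) ∧ π t = ((ℓ : ℕ) : ZMod r) + 1)
  (hdivAll : ∀ n : ℕ, n ≠ 0 → ∀ z : JZero p, ∃ y : JZero p, n • y = z)
  (hfinAll : ∀ n : ℕ, n ≠ 0 → {y : JZero p | n • y = 0}.Finite)
  (htame : HCyc48.TameStmt p 𝔄)
  (hNUM : ∀ τ ∈ 𝔄.inertiaSubgroupIn ℚ, ∀ m : ℕ, ¬ p ∣ m → ∀ y : JZero p,
    τ • (m • y) = m • y → τ • τ • y + y = τ • y + τ • y)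
  (hC1 : ∃ n' : ℕ, 0 < n' ∧ ∃ (κ : Type) (_ : Fintype κ) (ℓ : κ → Nat.Primes)
    (t : κ → Module.End ℤ (JZero p)),
    (∀ i, (ℓ i : ℕ) ≠ p ∧ (ℓ i : ℕ) ≠ r) ∧ (∀ i, t i ∈ heckeSub p) ∧
    ∀ k, ∀ x : JZero p, r ^ k • x = 0 →
      n' • x = ∑ i, t i (heckeOperatorBar p (ℓ i) x - (1 + (ℓ i : ℕ)) • x))
  (hS19 : S19At p r) (hU : KUnr p r)

include hp hr2 hpr h𝔄 hev hfinAll hC1 hS19 hU in
/-- **the exit `hPTodd` of `S15Sup62.s15_of_open` (helper62 #2617 (2))**: a uniform `n'` and the level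
inputs at every level `k ≥ 1`. -/
theorem exists_toricLevelInput_odd :
    ∃ n' : ℕ, 0 < n' ∧ ∀ k : ℕ, 1 ≤ k → ToricLevelInput' r hT π 𝔄 n' k := by
  have hr : r.Prime := Fact.out
  obtain ⟨n', hn', κ, iκ, ℓ, t, hℓ, ht, hsum⟩ := hC1
  exact ⟨n', hn', fun k hk =>
    toricLevelInput_odd r hT hp hr2 hpr 𝔄 h𝔄 π hev hk
      (hfinAll (r ^ k) (pow_ne_zero k hr.ne_zero)) n' ℓ t hℓ ht (hsum k) (okMod_Mk hS19 hU)⟩

include hMW hp hr2 hpr h𝔄 hev hdivAll hfinAll htame hNUM hC1 hS19 hU in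
/-- **(P-FIN)_P for odd `r`, `A` torsion-free**: the hypothesis `hPF` of
`LevelDualInstA26.descentBound_odd_tf`. -/
theorem pfinP_odd_tf :
    ∃ A : Submodule T (JZero p), FiniteIndexIn A (ratPoints hT) ∧
      (∀ z ∈ A, ∀ n : ℕ, n ≠ 0 → n • z = 0 → z = 0) ∧ ∀ k : ℕ, ∃ e : T,
      (∀ x ∈ primarySet (RingHom.ker π)
        (↥A ⧸ (Ideal.span {(r : T) ^ k} • ⊤ : Submodule T ↥A)), e • x = x) ∧
      ∀ z ∈ A, ∃ y : JZero p, (∀ σ ∈ 𝔄.inertiaSubgroupIn ℚ, σ • y = y) ∧ r ^ k • y = e • z := by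
  have hr : r.Prime := Fact.out
  obtain ⟨n', hn', κ, iκ, ℓ, t, hℓ, ht, hsum⟩ := hC1
  exact pfinP_of_inputs_pos_tf' r hT hMW hp (fun h => hpr h.symm) π 𝔄 hdivAll hfinAll htame hNUM
    n' hn' (fun k hk =>
      toricLevelInput_odd r hT hp hr2 hpr 𝔄 h𝔄 π hev hk
        (hfinAll (r ^ k) (pow_ne_zero k hr.ne_zero)) n' ℓ t hℓ ht (hsum k) (okMod_Mk hS19 hU))

include hMW hp hr2 hpr h𝔄 hev hdivAll hfinAll htame hNUM hC1 hS19 hU in
/-- **(P-FIN)_P for odd `r`**: the hypothesis `hPF` of `LevelDualInst26.descentBound_odd`. -/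
theorem pfinP_odd :
    ∃ A : Submodule T (JZero p), FiniteIndexIn A (ratPoints hT) ∧ ∀ k : ℕ, ∃ e : T,
      (∀ x ∈ primarySet (RingHom.ker π)
        (↥A ⧸ (Ideal.span {(r : T) ^ k} • ⊤ : Submodule T ↥A)), e • x = x) ∧
      ∀ z ∈ A, ∃ y : JZero p, (∀ σ ∈ 𝔄.inertiaSubgroupIn ℚ, σ • y = y) ∧ r ^ k • y = e • z := by
  have hr : r.Prime := Fact.out
  obtain ⟨n', hn', κ, iκ, ℓ, t, hℓ, ht, hsum⟩ := hC1
  exact pfinP_of_inputs_pos' r hT hMW hp (fun h => hpr h.symm) π 𝔄 hdivAll hfinAll htame hNUM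
    n' hn' (fun k hk =>
      toricLevelInput_odd r hT hp hr2 hpr 𝔄 h𝔄 π hev hk
        (hfinAll (r ^ k) (pow_ne_zero k hr.ne_zero)) n' ℓ t hℓ ht (hsum k) (okMod_Mk hS19 hU))

end Final

end Fermat.Agent.MAZ.Desc.PTExpInstOdd90
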