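/-
Program MAZ (S15), G-side, pole (P1) = (PT) "purely toric on the Eisenstein part":
a GALOIS-THEORETIC route, abstract core (helper76).  Mathlib only.

Setting (think: `Λ` = the `P`-part of the `r`-adic Tate module of `J₀(p)`, `T` = the (completed,
anemic) Hecke algebra acting on it, `G = G_ℚ`, `τ` a generator of the tame `r`-inertia at `p`,
`c = χ_r` the cyclotomic character, `a g ∈ T` the "trace" of `g`):

* `hrel`  : `g • x + c g • g⁻¹ • x = a g • x` for ALL `g`
            (Eichler–Shimura at the Frobenius elements + Chebotarev + continuity);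
* `hN`    : `(τ - 1)² = 0` (unipotent inertia at `p`), `hc : c (τ h) = c h` (`χ_r` unramified at `p`);
* `hG`    : a `G`-stable, `T`-stable submodule fixed by `τ` is zero
            (no global piece unramified at `p`: Mazur's admissible-group count).

Then
* `key_relation` : `N (h • x) - c h • h⁻¹ • N x = (a (τ h) - a h) • x` with `N = τ - 1`;
* `torsionBy_eq_bot` : the common kernel of all `B h := a (τ h) - a h` on `Λ` is zero;
* `exists_regular_smul_mem_range` : some `b ∈ T` acts injectively on `Λ` and `b • ker N ⊆ im N`;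
* `exists_smul_ker_le_range` : (`Λ` finite free over a domain `R`) there is `d ≠ 0` in `R` with
  `d • ker N ⊆ im N`;
* `level_bound` : at every finite level `Λ / r^k Λ` the group `ker N_k / im N_k` is killed by `d²`.
-/
import Mathlib

set_option autoImplicit false

namespace Fermat.Agent.MAZ.Desc.PTGalois76

section Key

variable {T : Type*} [CommRing T] {Λ : Type*} [AddCommGroup Λ] [Module T Λ]
  {G : Type*} [Group G] [DistribMulAction G Λ]

/-- `τ⁻¹ = 1 - N` when `N² = 0`. -/
theorem inv_smul_eq (τ : G) (hN : ∀ x : Λ, τ • (τ • x - x) = τ • x - x) (x : Λ) :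
    τ⁻¹ • x = x - (τ • x - x) := by
  have h : τ • (x - (τ • x - x)) = x := by
    rw [smul_sub, hN x]
    abel
  calc τ⁻¹ • x = τ⁻¹ • (τ • (x - (τ • x - x))) := by rw [h]
    _ = x - (τ • x - x) := inv_smul_smul τ _

/-- **The key relation.** -/
theorem key_relation (a c : G → T) (hrel : ∀ (g : G) (x : Λ), g • x + c g • (g⁻¹ • x) = a g • x)
    (τ : G) (hc : ∀ h : G, c (τ * h) = c h) (hN : ∀ x : Λ, τ • (τ • x - x) = τ • x - x)
    (h : G) (x : Λ) :
    (τ • (h • x) - h • x) - c h • (h⁻¹ • (τ • x - x)) = (a (τ * h) - a h) • x := by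
  have h1 := hrel (τ * h) x
  have h2 := hrel h x
  rw [mul_smul, mul_inv_rev, mul_smul, inv_smul_eq τ hN x, hc h, smul_sub (h⁻¹), smul_sub (c h)]
    at h1
  rw [sub_smul, ← h1, ← h2]
  abel

end Key

section Main

variable {T : Type*} [CommRing T] {Λ : Type*} [AddCommGroup Λ] [Module T Λ]
  {G : Type*} [Group G] [DistribMulAction G Λ]

/-- The common kernel of the operators `B h = a (τ h) - a h` vanishes. -/
theorem torsionBy_eq_bot (hcomm : ∀ (g : G) (t : T) (x : Λ), g • (t • x) = t • (g • x))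
    (a c : G → T) (hrel : ∀ (g : G) (x : Λ), g • x + c g • (g⁻¹ • x) = a g • x)
    (τ : G) (hc : ∀ h : G, c (τ * h) = c h) (hN : ∀ x : Λ, τ • (τ • x - x) = τ • x - x)
    (hG : ∀ Z : Submodule T Λ, (∀ g : G, ∀ z ∈ Z, g • z ∈ Z) → (∀ z ∈ Z, τ • z = z) → Z = ⊥)
    (y : Λ) (hy : ∀ h : G, (a (τ * h) - a h) • y = 0) : y = 0 := by
  -- step 1: elements of the common kernel fixed by `τ` vanish
  have step1 : ∀ x : Λ, (∀ h : G, (a (τ * h) - a h) • x = 0) → τ • x = x → x = 0 := by
    intro x hx hτ
    set Z : Submodule T Λ := Submodule.span T (Set.range fun h : G => h • x) with hZ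
    have hstab : ∀ g : G, ∀ z ∈ Z, g • z ∈ Z := by
      intro g z hz
      induction hz using Submodule.span_induction with
      | mem z hz =>
        obtain ⟨h, rfl⟩ := hz
        rw [← mul_smul]
        exact Submodule.subset_span ⟨g * h, rfl⟩
      | zero => rw [smul_zero]; exact Z.zero_mem
      | add u v _ _ hu hv => rw [smul_add]; exact Z.add_mem hu hv
      | smul t u _ hu => rw [hcomm]; exact Z.smul_mem t hu
    have hfix : ∀ z ∈ Z, τ • z = z := by
      intro z hz
      induction hz using Submodule.span_induction with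
      | mem z hz =>
        obtain ⟨h, rfl⟩ := hz
        have hk := key_relation a c hrel τ hc hN h x
        rw [hx h, hτ, sub_self, smul_zero, smul_zero, sub_zero] at hk
        exact sub_eq_zero.mp hk
      | zero => rw [smul_zero]
      | add u v _ _ hu hv => rw [smul_add, hu, hv]
      | smul t u _ hu => rw [hcomm, hu]
    have hbot := hG Z hstab hfix
    have hxZ : x ∈ Z := by
      have : (1 : G) • x ∈ Z := Submodule.subset_span ⟨1, rfl⟩
      rwa [one_smul] at this
    rw [hbot] at hxZ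
    exact (Submodule.mem_bot T).mp hxZ
  -- step 2: `N y` is in the common kernel and fixed by `τ`
  have hNy : τ • y - y = 0 := by
    apply step1
    · intro h
      rw [smul_sub, ← hcomm, hy h, smul_zero, sub_zero]
    · exact hN y
  exact step1 y hy (sub_eq_zero.mp hNy)

/-- the ideal generated by the `B h`. -/
def bIdeal (a : G → T) (τ : G) : Ideal T := Ideal.span (Set.range fun h : G => a (τ * h) - a h)

theorem bIdeal_smul_mem_range (hcomm : ∀ (g : G) (t : T) (x : Λ), g • (t • x) = t • (g • x))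
    (a c : G → T) (hrel : ∀ (g : G) (x : Λ), g • x + c g • (g⁻¹ • x) = a g • x)
    (τ : G) (hc : ∀ h : G, c (τ * h) = c h) (hN : ∀ x : Λ, τ • (τ • x - x) = τ • x - x)
    (b : T) (hb : b ∈ bIdeal a τ) (x : Λ) (hx : τ • x = x) : ∃ y : Λ, b • x = τ • y - y := by
  induction hb using Submodule.span_induction with
  | mem b hb =>
    obtain ⟨h, rfl⟩ := hb
    refine ⟨h • x, ?_⟩
    have hk := key_relation a c hrel τ hc hN h x
    rw [hx, sub_self, smul_zero, smul_zero, sub_zero] at hk
    exact hk.symm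
  | zero => exact ⟨0, by rw [zero_smul, smul_zero, sub_zero]⟩
  | add u v _ _ hu hv =>
    obtain ⟨y, hy⟩ := hu
    obtain ⟨z, hz⟩ := hv
    exact ⟨y + z, by rw [add_smul, hy, hz, smul_add]; abel⟩
  | smul t u _ hu =>
    obtain ⟨y, hy⟩ := hu
    exact ⟨t • y, by rw [smul_eq_mul, mul_smul, hy, smul_sub, hcomm]⟩

/-- **Some `b ∈ T` acts injectively on `Λ` and maps `ker N` into `im N`.** -/
theorem exists_regular_smul_mem_range [IsNoetherianRing T] [Module.Finite T Λ]
    (hcomm : ∀ (g : G) (t : T) (x : Λ), g • (t • x) = t • (g • x))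
    (a c : G → T) (hrel : ∀ (g : G) (x : Λ), g • x + c g • (g⁻¹ • x) = a g • x)
    (τ : G) (hc : ∀ h : G, c (τ * h) = c h) (hN : ∀ x : Λ, τ • (τ • x - x) = τ • x - x)
    (hG : ∀ Z : Submodule T Λ, (∀ g : G, ∀ z ∈ Z, g • z ∈ Z) → (∀ z ∈ Z, τ • z = z) → Z = ⊥) :
    ∃ b : T, IsSMulRegular Λ b ∧ ∀ x : Λ, τ • x = x → ∃ y : Λ, b • x = τ • y - y := by
  suffices h : ∃ b ∈ bIdeal a τ, IsSMulRegular Λ b by
    obtain ⟨b, hb, hreg⟩ := h
    exact ⟨b, hreg, fun x hx => bIdeal_smul_mem_range hcomm a c hrel τ hc hN b hb x hx⟩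
  by_contra hcon
  have hsub : ((bIdeal a τ : Ideal T) : Set T) ⊆ ⋃ p ∈ associatedPrimes T Λ, (p : Set T) := by
    rw [biUnion_associatedPrimes_eq_compl_regular T Λ]
    intro b hb hreg
    exact hcon ⟨b, hb, hreg⟩
  obtain ⟨p, hp, hle⟩ := (Ideal.subset_union_prime_finite (associatedPrimes.finite T Λ) ⊤ ⊤
    (fun I hI _ _ => IsAssociatedPrime.isPrime hI)).mp hsub
  obtain ⟨hprime, x, hpx⟩ := isAssociatedPrime_iff.mp (AssociatedPrimes.mem_iff.mp hp)
  have hx0 : x = 0 := by
    apply torsionBy_eq_bot hcomm a c hrel τ hc hN hG x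
    intro h
    have hmem : a (τ * h) - a h ∈ p := hle (Ideal.subset_span ⟨h, rfl⟩)
    rw [hpx, Submodule.mem_colon_singleton] at hmem
    exact (Submodule.mem_bot T).mp hmem
  apply hprime.ne_top
  rw [hpx, hx0, eq_top_iff]
  intro t _
  rw [Submodule.mem_colon_singleton, smul_zero]
  exact Submodule.zero_mem _

end Main


section Det

variable {R : Type*} [CommRing R] [IsDomain R] {M : Type*} [AddCommGroup M] [Module R M]
  [Module.Free R M] [Module.Finite R M]

/-- An injective endomorphism of a finite free module over a domain has a cokernel killed by a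
nonzero scalar (Cayley–Hamilton). -/
theorem exists_smul_mem_range_of_injective (f : M →ₗ[R] M) (hf : Function.Injective f) :
    ∃ d : R, d ≠ 0 ∧ ∀ x : M, ∃ y : M, d • x = f y := by
  refine ⟨f.charpoly.coeff 0, ?_, fun x => ?_⟩
  · intro h0
    have hdet : f.det = 0 := by
      rw [LinearMap.det_eq_sign_charpoly_coeff, h0, mul_zero]
    exact (LinearMap.det_eq_zero_iff_ker_ne_bot.mp hdet) (LinearMap.ker_eq_bot.mpr hf)
  · have hCH := LinearMap.aeval_self_charpoly f
    rw [← Polynomial.X_mul_divX_add f.charpoly, map_add, map_mul, Polynomial.aeval_X,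
      Polynomial.aeval_C] at hCH
    have hx := congrArg (fun g : Module.End R M => g x) hCH
    simp only [LinearMap.add_apply, Module.End.mul_apply, Module.algebraMap_end_apply,
      LinearMap.zero_apply] at hx
    refine ⟨-(Polynomial.aeval f f.charpoly.divX x), ?_⟩
    rw [map_neg]
    exact eq_neg_of_add_eq_zero_right hx

end Det

section Final

variable {R : Type*} [CommRing R] [IsDomain R] {T : Type*} [CommRing T] [Algebra R T]
  [IsNoetherianRing T] {Λ : Type*} [AddCommGroup Λ] [Module R Λ] [Module T Λ]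
  [IsScalarTower R T Λ] [Module.Free R Λ] [Module.Finite R Λ]
  {G : Type*} [Group G] [DistribMulAction G Λ]

/-- **(PT), Tate-module form**: a nonzero scalar `d ∈ R` maps `ker (τ - 1)` into `im (τ - 1)`. -/
theorem exists_smul_ker_le_range
    (hcomm : ∀ (g : G) (t : T) (x : Λ), g • (t • x) = t • (g • x))
    (a c : G → T) (hrel : ∀ (g : G) (x : Λ), g • x + c g • (g⁻¹ • x) = a g • x)
    (τ : G) (hc : ∀ h : G, c (τ * h) = c h) (hN : ∀ x : Λ, τ • (τ • x - x) = τ • x - x)
    (hG : ∀ Z : Submodule T Λ, (∀ g : G, ∀ z ∈ Z, g • z ∈ Z) → (∀ z ∈ Z, τ • z = z) → Z = ⊥) :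
    ∃ d : R, d ≠ 0 ∧ ∀ x : Λ, τ • x = x → ∃ y : Λ, d • x = τ • y - y := by
  have : Module.Finite T Λ := Module.Finite.of_restrictScalars_finite R T Λ
  obtain ⟨b, hreg, hb⟩ := exists_regular_smul_mem_range hcomm a c hrel τ hc hN hG
  let f : Λ →ₗ[R] Λ :=
    { toFun := fun x => b • x
      map_add' := smul_add b
      map_smul' := fun r x => by rw [RingHom.id_apply, smul_comm] }
  obtain ⟨d, hd0, hd⟩ := exists_smul_mem_range_of_injective f hreg
  refine ⟨d, hd0, fun x hx => ?_⟩
  obtain ⟨y, hy⟩ := hd x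
  have hy' : d • x = b • y := hy
  -- `y` is fixed by `τ`
  have hcommR : ∀ (r : R) (z : Λ), τ • (r • z) = r • (τ • z) := by
    intro r z
    rw [← algebraMap_smul T r z, hcomm, algebraMap_smul]
  have hyfix : τ • y = y := by
    apply hreg
    show b • (τ • y) = b • y
    rw [← hcomm, ← hy', hcommR, hx]
  obtain ⟨w, hw⟩ := hb y hyfix
  exact ⟨w, by rw [hy', hw]⟩

end Final

section Level

variable {R : Type*} [CommRing R] {Λ : Type*} [AddCommGroup Λ] [Module R Λ]
  {G : Type*} [Group G] [DistribMulAction G Λ]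

/-- **(PT), finite-level form**: if `d • ker N ⊆ im N` on `Λ` and `m` is a nonzerodivisor on `Λ`,
then every `x` with `N x ∈ m Λ` satisfies `d² x ∈ im N + m Λ`; i.e. on `Λ / m Λ` the group
`ker N / im N` is killed by `d²`. -/
theorem level_bound (τ : G) (hcommR : ∀ (r : R) (z : Λ), τ • (r • z) = r • (τ • z))
    (hN : ∀ x : Λ, τ • (τ • x - x) = τ • x - x)
    (d : R) (hd : ∀ x : Λ, τ • x = x → ∃ y : Λ, d • x = τ • y - y)
    (m : R) (hm : ∀ z : Λ, m • z = 0 → z = 0)
    (x u : Λ) (hxu : τ • x - x = m • u) :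
    ∃ y z : Λ, (d * d) • x = (τ • y - y) + m • z := by
  -- `N u = 0`
  have hu : τ • u = u := by
    have h1 : τ • (m • u) = m • u := by rw [← hxu]; exact hN x
    rw [hcommR] at h1
    have h2 : m • (τ • u - u) = 0 := by rw [smul_sub, h1, sub_self]
    exact sub_eq_zero.mp (hm _ h2)
  obtain ⟨v, hv⟩ := hd u hu
  -- `d x - m v` is fixed
  have hfix : τ • (d • x - m • v) = d • x - m • v := by
    have e1 : τ • (d • x) = d • x + d • (m • u) := by
      rw [hcommR, ← hxu, smul_sub]; abel
    have e2 : τ • (m • v) = m • v + m • (d • u) := by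
      rw [hcommR, hv, smul_sub]; abel
    rw [smul_sub, e1, e2, smul_comm d m u]
    abel
  obtain ⟨w, hw⟩ := hd _ hfix
  refine ⟨w, d • v, ?_⟩
  rw [← hw, smul_sub, mul_smul, smul_comm d m v]
  abel

end Level

end Fermat.Agent.MAZ.Desc.PTGalois76
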