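/-
MAZ (S15), descent side, helper19: THE ENDGAME FROM A SINGLE `r`-DESCENT (`k = 1`).

`T` a commutative ring, `P` an ideal containing the prime number `r`, `A` a `T`-module which is
finitely generated over `ℤ` (think `A = J₀(p)(ℚ)` or a `T`-stable subgroup of finite index).
If `κ : A → S` is `T`-linear with kernel `r A` (the Kummer map into a Selmer group) and

  `#(primaryPart P S) ≤ #(primaryPart P A[r])`,

then some `t ≡ 1 mod P` maps `A` into its torsion (`endgame_one`).  So the global Eisenstein contract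
needs the Selmer inequality only for `J[r]`, a representation over `𝔽_r`, not for all `J[r^k]`.

Proof: `G` = torsion, `P`-primary elements of `A` (a finite group).  `κ` maps `G` onto a group of
order `#G / #(G ∩ r A) = #G / # r G = #G[r] ≥ #(primaryPart P A[r])`, inside `primaryPart P S`; by
the inequality this is all of `primaryPart P S`.  Hence for a projector `e`, `e a ∈ G + r A` for all
`a`, so `A/tors = P (A/tors)`, and Nakayama gives `t`.
-/
import Mathlib
import Fermat.Agent.MAZ.Desc.PrimaryPart19

set_option autoImplicit false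

namespace Fermat.Agent.MAZ.Desc.PrimaryOne19

open Fermat.Agent.MAZ.Desc.PrimaryPart19

universe u v w

variable {T : Type u} [CommRing T] {P : Ideal T}

theorem card_eq_ker_mul_range {G H : Type*} [AddGroup G] [AddGroup H] (φ : G →+ H) :
    Nat.card G = Nat.card φ.ker * Nat.card φ.range := by
  rw [AddSubgroup.card_eq_card_quotient_mul_card_addSubgroup φ.ker, mul_comm]
  congr 1
  exact Nat.card_congr (QuotientAddGroup.quotientKerEquivRange φ).toEquiv

/-- The torsion of a finitely generated abelian group is finite. -/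
theorem finite_torsSub {A : Type v} [AddCommGroup A] [Module T A] [Module.Finite ℤ A] :
    Finite (torsSub T A) := by
  let F' : Submodule ℤ A := (torsSub T A).restrictScalars ℤ
  have hN : IsNoetherian ℤ A := isNoetherian_of_isNoetherianRing_of_finite ℤ A
  have hfin : Module.Finite ℤ F' := Module.IsNoetherian.finite ℤ F'
  have htors : Module.IsTorsion ℤ F' := by
    rintro ⟨x, n, hn, hx⟩
    refine ⟨⟨(n : ℤ), ?_⟩, ?_⟩
    · rw [mem_nonZeroDivisors_iff_ne_zero]
      exact_mod_cast hn.ne'
    · apply Subtype.ext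
      change (n : ℤ) • x = 0
      rw [Nat.cast_smul_eq_nsmul]
      exact hx
  have hF : Finite F' := Module.finite_of_fg_torsion _ htors
  have h2 : (F' : Set A).Finite := Set.toFinite _
  have hset : (F' : Set A) = (torsSub T A : Set A) := rfl
  rw [hset] at h2
  exact h2.to_subtype

/-- **Endgame from a single `r`-descent.** -/
theorem endgame_one {A : Type v} [AddCommGroup A] [Module T A] [Module.Finite ℤ A] {r : ℕ}
    (hr : r.Prime) (hrP : (r : T) ∈ P) {S : Type w} [AddCommGroup S] [Module T S]
    (κ : A →ₗ[T] S) (hκ : ∀ x, κ x = 0 ↔ ∃ y, x = r • y)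
    (hfin : Finite (primaryPart P S))
    (hcard : Nat.card (primaryPart P S) ≤
      Nat.card (primaryPart P (Submodule.torsionBy T A (r : T)))) :
    ∃ t : T, t - 1 ∈ P ∧ ∀ z : A, ∃ k : ℕ, 0 < k ∧ k • t • z = 0 := by
  classical
  have hF : Finite (torsSub T A) := finite_torsSub
  have hR : Finite (LinearMap.range κ) :=
    finite_range_of_nsmul_eq_zero κ hr.pos (fun y => (hκ _).2 ⟨y, rfl⟩)
  -- a common projector
  obtain ⟨e, he⟩ := exists_isProj P (LinearMap.range κ × torsSub T A)
  have heR : IsProj P e (LinearMap.range κ) :=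
    he.of_surjective (LinearMap.fst T _ _) LinearMap.fst_surjective
  have heF : IsProj P e (torsSub T A) :=
    he.of_surjective (LinearMap.snd T _ _) LinearMap.snd_surjective
  have he1 : 1 - e ∈ P := by
    have := P.neg_mem heR.sub_one_mem
    rwa [neg_sub] at this
  -- the finite group `G`
  let G : AddSubgroup A := (torsSub T A).toAddSubgroup ⊓ (primaryPart P A).toAddSubgroup
  have hGmem : ∀ x : A, x ∈ G ↔ x ∈ torsSub T A ∧ x ∈ primaryPart P A := fun x => Iff.rfl
  have hGfin : Finite G := by
    have : (G : Set A) ⊆ (torsSub T A : Set A) := fun x hx => hx.1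
    exact (Set.Finite.subset (Set.toFinite _) this).to_subtype
  have f1 : ∀ y ∈ torsSub T A, e • y ∈ G := by
    intro y hy
    refine ⟨(torsSub T A).smul_mem e hy, ?_⟩
    obtain ⟨j, hj⟩ := heF.smul_mem (⟨y, hy⟩ : torsSub T A)
    exact ⟨j, fun t ht => congrArg Subtype.val (hj t ht)⟩
  have f2 : ∀ g ∈ G, e • g = g := by
    intro g hg
    have h1 : (⟨g, hg.1⟩ : torsSub T A) ∈ primaryPart P (torsSub T A) := by
      obtain ⟨j, hj⟩ := hg.2
      exact ⟨j, fun t ht => Subtype.ext (hj t ht)⟩
    exact congrArg Subtype.val (heF.smul_eq h1)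
  -- the two maps on `G`
  let φ : G →+ S := κ.toAddMonoidHom.comp G.subtype
  let ψ : G →+ G := nsmulAddMonoidHom r
  have c1 := card_eq_ker_mul_range φ
  have c2 := card_eq_ker_mul_range ψ
  have c3 : Nat.card φ.ker ≤ Nat.card ψ.range := by
    apply AddSubgroup.card_le_of_le
    intro g hg
    have hg0 : κ (g : A) = 0 := hg
    obtain ⟨y, hy⟩ := (hκ _).1 hg0
    have hyF : y ∈ torsSub T A := by
      obtain ⟨n, hn, hng⟩ := g.2.1
      refine ⟨n * r, Nat.mul_pos hn hr.pos, ?_⟩
      rw [mul_smul, ← hy]
      exact hng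
    refine ⟨⟨e • y, f1 y hyF⟩, ?_⟩
    apply Subtype.ext
    change r • (e • y) = (g : A)
    rw [smul_comm, ← hy]
    exact f2 _ g.2
  have c4 : Nat.card (primaryPart P (Submodule.torsionBy T A (r : T))) ≤ Nat.card ψ.ker := by
    have hx0 : ∀ x : primaryPart P (Submodule.torsionBy T A (r : T)), r • (x.1.1 : A) = 0 := by
      intro x
      have := (Submodule.mem_torsionBy_iff _ _).1 x.1.2
      rwa [Nat.cast_smul_eq_nsmul] at this
    have hxG : ∀ x : primaryPart P (Submodule.torsionBy T A (r : T)), (x.1.1 : A) ∈ G := by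
      intro x
      refine ⟨⟨r, hr.pos, hx0 x⟩, ?_⟩
      obtain ⟨j, hj⟩ := x.2
      exact ⟨j, fun t ht => congrArg Subtype.val (hj t ht)⟩
    let ι : primaryPart P (Submodule.torsionBy T A (r : T)) → ψ.ker := fun x =>
      ⟨⟨x.1.1, hxG x⟩, by
        rw [AddMonoidHom.mem_ker]
        apply Subtype.ext
        change r • (x.1.1 : A) = 0
        exact hx0 x⟩
    have hι : Function.Injective ι := by
      intro x y hxy
      apply Subtype.ext
      apply Subtype.ext
      have h0 : ((ι x).1.1 : A) = ((ι y).1.1 : A) := by rw [hxy]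
      exact h0
    exact Nat.card_le_card_of_injective ι hι
  -- `φ.range` inside `primaryPart P S`
  let ρ : φ.range → primaryPart P S := fun s =>
    ⟨s.1, by
      obtain ⟨g, hg⟩ := s.2
      rw [← hg]
      exact map_mem_primaryPart κ g.2.2⟩
  have hρ : Function.Injective ρ := by
    intro x y hxy
    apply Subtype.ext
    have h0 : ((ρ x).1 : S) = ((ρ y).1 : S) := by rw [hxy]
    exact h0
  have c5 : Nat.card φ.range ≤ Nat.card (primaryPart P S) := Nat.card_le_card_of_injective ρ hρ
  have c6 : Nat.card ψ.ker ≤ Nat.card φ.range := by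
    have hpos : 0 < Nat.card ψ.range := Nat.card_pos
    have h1 : Nat.card ψ.ker * Nat.card ψ.range = Nat.card φ.ker * Nat.card φ.range := by
      rw [← c1, ← c2]
    have h2 : Nat.card ψ.ker * Nat.card ψ.range ≤ Nat.card ψ.range * Nat.card φ.range := by
      rw [h1]
      exact Nat.mul_le_mul_right _ c3
    rw [mul_comm] at h2
    exact Nat.le_of_mul_le_mul_left h2 hpos
  have hbij : Function.Bijective ρ :=
    hρ.bijective_of_nat_card_le (hcard.trans (c4.trans c6))
  have hsurj : ∀ s ∈ primaryPart P S, ∃ g ∈ G, κ g = s := by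
    intro s hs
    obtain ⟨x, hx⟩ := hbij.2 ⟨s, hs⟩
    obtain ⟨g, hg⟩ := x.2
    refine ⟨g.1, g.2, ?_⟩
    have h0 : ((ρ x).1 : S) = s := by rw [hx]
    rw [← h0]
    exact hg
  -- the key claim
  set N' := A ⧸ torsSub T A with hN'
  have hmk : Function.Surjective (torsSub T A).mkQ := Submodule.mkQ_surjective _
  have hP : (⊤ : Submodule T N') ≤ P • (⊤ : Submodule T N') := by
    intro x₀ _
    obtain ⟨a, rfl⟩ := hmk x₀
    have hs : κ (e • a) ∈ primaryPart P S := by
      have h1 := heR.smul_mem (⟨κ a, a, rfl⟩ : LinearMap.range κ)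
      have h2 := map_mem_primaryPart (LinearMap.range κ).subtype h1
      rw [map_smul]
      exact h2
    obtain ⟨g, hg, hgs⟩ := hsurj _ hs
    have h0 : κ (e • a - g) = 0 := by rw [map_sub, hgs, sub_self]
    obtain ⟨y, hy⟩ := (hκ _).1 h0
    have hg0 : (torsSub T A).mkQ g = 0 := by
      rw [Submodule.mkQ_apply, Submodule.Quotient.mk_eq_zero]
      exact hg.1
    have h1 : (torsSub T A).mkQ a
        = (1 - e) • (torsSub T A).mkQ a + (r : T) • (torsSub T A).mkQ y := by
      have h2 : (torsSub T A).mkQ (e • a - g) = (r : T) • (torsSub T A).mkQ y := by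
        rw [hy, Nat.cast_smul_eq_nsmul, map_nsmul]
      rw [map_sub, hg0, sub_zero, map_smul] at h2
      rw [← h2, ← add_smul, sub_add_cancel, one_smul]
    rw [h1]
    exact Submodule.add_mem _ (Submodule.smul_mem_smul he1 Submodule.mem_top)
      (Submodule.smul_mem_smul hrP Submodule.mem_top)
  -- Nakayama
  have : Module.Finite T A := Module.Finite.of_restrictScalars_finite ℤ T A
  have hfg : (⊤ : Submodule T N').FG := Module.Finite.fg_top
  obtain ⟨t, ht1, ht2⟩ :=
    Submodule.exists_sub_one_mem_and_smul_eq_zero_of_fg_of_le_smul P ⊤ hfg hP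
  refine ⟨t, ht1, fun z => ?_⟩
  have h := ht2 ((torsSub T A).mkQ z) Submodule.mem_top
  rw [← map_smul, Submodule.mkQ_apply, Submodule.Quotient.mk_eq_zero] at h
  exact h

end Fermat.Agent.MAZ.Desc.PrimaryOne19
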