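/-
MAZ (S15), descent side, P3 (`r = 2` included), helper19: THE RANK-ONE CASES OF THE MARKED DEVISSAGE
(`DevissageMarked95.RankOneBoundM`) FOR EVERY PRIME `r`.

A marked module of prime order `r` is *étale* (`N₀ = ⊥`, trivial Galois action) or *multiplicative*
(`N₀ = ⊤`, action through the mod `r` cyclotomic character; for `r = 2` this is again the trivial
action, and only the mark distinguishes `ℤ/2` from `μ_2`).  The local conditions at `r` enter through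

* `IsAdmEt.unr_r`   : an admissible cocycle on an étale module is unramified at `r`;
* `IsAdmMu.kummer_r`: if `α ^ r = u ∈ ℚˣ` and `α` is fixed by every `σ` which fixes `μ_r` and has
                      `c σ = 0`, then `r ∣ v_r(u)`;

everything else is global: Minkowski (`Minkowski19`), Hilbert 90 / Kummer theory (`KummerH90_19`),
`r ∣ v_ℓ(a)` at unramified `ℓ` (`KummerUnr19`), `ℤˣ = {±1}` (`KummerUnits19`).

* `eq_zero_of_et`, `exists_kummer_of_mu`, `exists_eq_dd_of_mu_odd`, `eq_zero_or_of_mu_two`;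
* `conclM_of_et`, `conclM_of_mu_odd`, `conclM_of_mu_two`;
* `rankOneBoundM` : `RankOneBoundM F D_{𝔄₀} I_{𝔄₀} r χ`;
* `IsAdm.toEt`, `IsAdm.toMu` : for `r` odd the flat condition of `RankOne19.IsAdm` gives both local
  conditions (FlatRank68 (R1), (R2)).
-/
import Mathlib
import Fermat.Agent.MAZ.Desc.RankOne19
import Fermat.Agent.MAZ.Desc.DevissageMarked95

set_option autoImplicit false
set_option linter.style.haveILetI false
set_option linter.unusedSectionVars false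

namespace Fermat.Agent.MAZ.Desc.RankOneMarked19

open Fermat.Agent.MAZ.Desc.SelmerCone95 Fermat.Agent.MAZ.Desc.Devissage95
open Fermat.Agent.MAZ.Desc.DevissageMarked95 Fermat.Agent.MAZ.Desc.RankOne19

local notation "Qbar" => AlgebraicClosure ℚ
local notation "GQ" => (AlgebraicClosure ℚ) ≃ₐ[ℚ] (AlgebraicClosure ℚ)

variable {r : ℕ} [hr : Fact r.Prime]

/-! ### The two kinds of admissible cocycles -/

/-- admissible cocycles on an étale module. -/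
structure IsAdmEt (p : ℕ) {N : Type} [AddCommGroup N] [DistribMulAction GQ N] (c : GQ → N) :
    Prop where
  cocycle : ∀ σ τ : GQ, c (σ * τ) = c σ + σ • c τ
  isOpen : ∃ L₀ : IntermediateField ℚ Qbar, FiniteDimensional ℚ L₀ ∧
    ∀ σ ∈ L₀.fixingSubgroup, c σ = 0
  unr : ∀ q : ℕ, q.Prime → q ≠ r → q ≠ p → ∀ A : ValuationSubring Qbar, A.LiesOverPrime q →
    ∀ σ ∈ A.inertiaSubgroupIn ℚ, c σ = 0
  unr_r : ∀ A : ValuationSubring Qbar, A.LiesOverPrime r → ∀ σ ∈ A.inertiaSubgroupIn ℚ, c σ = 0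

/-- admissible cocycles on a multiplicative module. -/
structure IsAdmMu (p : ℕ) {N : Type} [AddCommGroup N] [DistribMulAction GQ N] (c : GQ → N) :
    Prop where
  cocycle : ∀ σ τ : GQ, c (σ * τ) = c σ + σ • c τ
  isOpen : ∃ L₀ : IntermediateField ℚ Qbar, FiniteDimensional ℚ L₀ ∧
    ∀ σ ∈ L₀.fixingSubgroup, c σ = 0
  unr : ∀ q : ℕ, q.Prime → q ≠ r → q ≠ p → ∀ A : ValuationSubring Qbar, A.LiesOverPrime q →
    ∀ σ ∈ A.inertiaSubgroupIn ℚ, c σ = 0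
  kummer_r : ∀ (α : Qbar) (u : ℚ), u ≠ 0 → α ^ r = algebraMap ℚ Qbar u →
    (∀ σ : GQ, (∀ ζ : Qbar, ζ ^ r = 1 → σ ζ = ζ) → c σ = 0 → σ α = α) →
    (r : ℤ) ∣ padicValRat r u

/-- a multiplicative embedding of a group of order `r` onto `μ_r`. -/
structure IsMuEmb (N : Type) [AddCommGroup N] (ψ : N → Qbar) : Prop where
  add : ∀ x y, ψ (x + y) = ψ x * ψ y
  pow : ∀ x, ψ x ^ r = 1
  inj : Function.Injective ψ
  surj : ∀ z : Qbar, z ^ r = 1 → ∃ x, ψ x = z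
  nsmul : ∀ (k : ℕ) x, ψ (k • x) = ψ x ^ k

theorem exists_isMuEmb (N : Type) [AddCommGroup N] [Finite N] (hN : Nat.card N = r) :
    ∃ ψ : N → Qbar, IsMuEmb (r := r) N ψ := by
  obtain ⟨ψ, h1, h2, h3, h4, h5⟩ := exists_mulEmb (r := r) N hN
  exact ⟨ψ, h1, h2, h3, h4, h5⟩

section MuEmb

variable {N : Type} [AddCommGroup N] {ψ : N → Qbar}

theorem IsMuEmb.ne_zero (hψ : IsMuEmb (r := r) N ψ) (x : N) : ψ x ≠ 0 := by
  intro h
  have := hψ.pow x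
  rw [h, zero_pow hr.out.ne_zero] at this
  exact zero_ne_one this

theorem IsMuEmb.map_zero (hψ : IsMuEmb (r := r) N ψ) : ψ 0 = 1 := by
  have h1 := hψ.add 0 0
  rw [add_zero] at h1
  exact (mul_eq_left₀ (hψ.ne_zero 0)).1 h1.symm

theorem IsMuEmb.eq_zero_of_eq_one (hψ : IsMuEmb (r := r) N ψ) {x : N} (h : ψ x = 1) : x = 0 :=
  hψ.inj (by rw [h, hψ.map_zero])

end MuEmb

/-! ### The étale case -/

/-- **Étale case**: an admissible cocycle (= homomorphism) on a module with trivial action,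
vanishing on the inertia group of one place over `p`, is zero.  Any prime `r`. -/
theorem eq_zero_of_et {p : ℕ} (hp : p.Prime) {N : Type} [AddCommGroup N]
    [DistribMulAction GQ N] (htriv : ∀ (g : GQ) (x : N), g • x = x) {c : GQ → N}
    (hc : IsAdmEt (r := r) p c) (𝔄₀ : ValuationSubring Qbar) (h𝔄₀ : 𝔄₀.LiesOverPrime p)
    (hI : ∀ σ ∈ 𝔄₀.inertiaSubgroupIn ℚ, c σ = 0) : ∀ σ : GQ, c σ = 0 := by
  have hadd : ∀ σ τ : GQ, c (σ * τ) = c σ + c τ := fun σ τ => by rw [hc.cocycle, htriv]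
  have hone : c 1 = 0 := by
    have := hadd 1 1
    rw [mul_one] at this
    exact add_eq_left.1 this.symm
  refine Minkowski19.addHom_eq_zero_of_unramified c hadd hc.isOpen ?_
  intro ℓ hℓ A hA σ hσ
  by_cases hℓr : ℓ = r
  · rw [hℓr] at hA
    exact hc.unr_r A hA σ hσ
  by_cases hℓp : ℓ = p
  · rw [hℓp] at hA
    obtain ⟨g, hg⟩ := Fermat.Agent.TW.LocalQ.PlaceConj96.exists_conj_mem_inertia hp hA h𝔄₀
    have h1 := hI _ (hg σ hσ)
    rw [hadd, hadd] at h1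
    have h2 : c g + c g⁻¹ = 0 := by rw [← hadd, mul_inv_cancel, hone]
    have h3 : c g + c σ + c g⁻¹ = c σ + (c g + c g⁻¹) := by abel
    rw [h3, h2, add_zero] at h1
    exact h1
  · exact hc.unr ℓ hℓ hℓr hℓp A hA σ hσ

/-! ### The multiplicative case -/

/-- **Kummer analysis**: an admissible cocycle on a multiplicative module of order `r`, vanishing
on the inertia group of one place over `p`, is the Kummer cocycle of `± w ^ r`, `w ∈ ℚˣ`.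
Any prime `r`. -/
theorem exists_kummer_of_mu {p : ℕ} (hp : p.Prime) (χ : GQ →* ZMod r)
    (hχ : ∀ (σ : GQ) (z : Qbar), z ^ r = 1 → σ z = z ^ (χ σ).val)
    (hμp : ∀ A : ValuationSubring Qbar, A.LiesOverPrime p → ∀ σ ∈ A.inertiaSubgroupIn ℚ,
      ∀ z : Qbar, z ^ r = 1 → σ z = z)
    {N : Type} [AddCommGroup N] [DistribMulAction GQ N] {ψ : N → Qbar}
    (hψ : IsMuEmb (r := r) N ψ)
    (hact : ∀ (g : GQ) (x : N), g • x = (χ g).val • x) {c : GQ → N} (hc : IsAdmMu (r := r) p c)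
    (𝔄₀ : ValuationSubring Qbar) (h𝔄₀ : 𝔄₀.LiesOverPrime p)
    (hI : ∀ σ ∈ 𝔄₀.inertiaSubgroupIn ℚ, c σ = 0) :
    ∃ (α : Qbar) (w : ℚ), α ≠ 0 ∧ w ≠ 0 ∧
      (α ^ r = algebraMap ℚ Qbar (w ^ r) ∨ α ^ r = algebraMap ℚ Qbar (-w ^ r)) ∧
      ∀ σ : GQ, ψ (c σ) * α = σ α := by
  classical
  have hr' : r.Prime := hr.out
  have hψeq : ∀ (σ : GQ) (x : N), ψ (σ • x) = σ (ψ x) := by
    intro σ x
    rw [hact, hψ.nsmul, hχ σ _ (hψ.pow x)]
  set c' : GQ → Qbar := fun σ => ψ (c σ) with hc'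
  have hc'coc : ∀ σ τ : GQ, c' (σ * τ) = c' σ * σ (c' τ) := by
    intro σ τ
    simp only [hc']
    rw [hc.cocycle, hψ.add, hψeq]
  have hc'r : ∀ σ, c' σ ^ r = 1 := fun σ => hψ.pow _
  obtain ⟨L₀, hL₀fin, hL₀⟩ := hc.isOpen
  obtain ⟨α, a₀, hα0, ha₀, hαr, hα⟩ := KummerH90_19.exists_kummer hr'.pos c' hc'coc hc'r
    ⟨L₀, hL₀fin, fun σ hσ => by simp only [hc']; rw [hL₀ σ hσ, hψ.map_zero]⟩
  have hfixα : ∀ σ : GQ, c σ = 0 → σ α = α := by
    intro σ h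
    have h1 := hα σ
    simp only [hc'] at h1
    rw [h, hψ.map_zero, one_mul] at h1
    exact h1.symm
  have hval : ∀ ℓ : ℕ, ℓ.Prime → (r : ℤ) ∣ padicValRat ℓ a₀ := by
    intro ℓ hℓ
    by_cases hℓr : ℓ = r
    · rw [hℓr]
      exact hc.kummer_r α a₀ ha₀ hαr (fun σ _ h0 => hfixα σ h0)
    by_cases hℓp : ℓ = p
    · rw [hℓp]
      refine KummerUnr19.dvd_padicValRat_of_unramified hp α a₀ ha₀ hαr ?_
      intro A hA σ hσ
      obtain ⟨g, hg⟩ := Fermat.Agent.TW.LocalQ.PlaceConj96.exists_conj_mem_inertia hp hA h𝔄₀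
      have h1 : (g * σ * g⁻¹) α = α := hfixα _ (hI _ (hg σ hσ))
      have h2 := hα g⁻¹
      have hz : c' g⁻¹ ^ r = 1 := hc'r _
      have hz0 : c' g⁻¹ ≠ 0 := hψ.ne_zero _
      have h3 : σ (g⁻¹ α) = g⁻¹ α := by
        have h4 := congrArg (fun x => g⁻¹ x) h1
        simp only [AlgEquiv.mul_apply] at h4
        rw [← AlgEquiv.mul_apply g⁻¹ g, inv_mul_cancel, AlgEquiv.one_apply] at h4
        exact h4
      rw [← h2, map_mul, hμp A hA σ hσ _ hz] at h3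
      exact mul_left_cancel₀ hz0 h3
    · refine KummerUnr19.dvd_padicValRat_of_unramified hℓ α a₀ ha₀ hαr ?_
      intro A hA σ hσ
      exact hfixα σ (hc.unr ℓ hℓ hℓr hℓp A hA σ hσ)
  obtain ⟨w, hw⟩ := KummerUnits19.exists_pow_eq_of_forall_dvd_padicValRat a₀ ha₀ hval
  have hw0 : w ≠ 0 := by
    rintro rfl
    rw [zero_pow hr'.ne_zero, neg_zero, or_self] at hw
    exact ha₀ hw
  refine ⟨α, w, hα0, hw0, ?_, hα⟩
  rcases hw with hw | hw
  · left; rw [hαr, hw]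
  · right; rw [hαr, hw]

/-- **Multiplicative case, `r` odd**: the cocycle is a coboundary. -/
theorem exists_eq_dd_of_mu_odd (hr2 : r ≠ 2) {p : ℕ} (hp : p.Prime) (χ : GQ →* ZMod r)
    (hχ : ∀ (σ : GQ) (z : Qbar), z ^ r = 1 → σ z = z ^ (χ σ).val)
    (hμp : ∀ A : ValuationSubring Qbar, A.LiesOverPrime p → ∀ σ ∈ A.inertiaSubgroupIn ℚ,
      ∀ z : Qbar, z ^ r = 1 → σ z = z)
    {N : Type} [AddCommGroup N] [DistribMulAction GQ N] {ψ : N → Qbar}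
    (hψ : IsMuEmb (r := r) N ψ)
    (hact : ∀ (g : GQ) (x : N), g • x = (χ g).val • x) {c : GQ → N} (hc : IsAdmMu (r := r) p c)
    (𝔄₀ : ValuationSubring Qbar) (h𝔄₀ : 𝔄₀.LiesOverPrime p)
    (hI : ∀ σ ∈ 𝔄₀.inertiaSubgroupIn ℚ, c σ = 0) : ∃ m : N, c = dd m := by
  have hr' : r.Prime := hr.out
  obtain ⟨α, w, hα0, hw0, hαw, hα⟩ := exists_kummer_of_mu hp χ hχ hμp hψ hact hc 𝔄₀ h𝔄₀ hI
  have hψeq : ∀ (σ : GQ) (x : N), ψ (σ • x) = σ (ψ x) := by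
    intro σ x
    rw [hact, hψ.nsmul, hχ σ _ (hψ.pow x)]
  have hodd : Odd r := hr'.odd_of_ne_two hr2
  obtain ⟨w', hw'0, hw'⟩ : ∃ w' : ℚ, w' ≠ 0 ∧ α ^ r = algebraMap ℚ Qbar (w' ^ r) := by
    rcases hαw with h | h
    · exact ⟨w, hw0, h⟩
    · exact ⟨-w, neg_ne_zero.2 hw0, by rw [hodd.neg_pow]; exact h⟩
  set W : Qbar := algebraMap ℚ Qbar w' with hW
  have hW0 : W ≠ 0 := by
    rw [hW, Ne, map_eq_zero]
    exact hw'0
  have hWfix : ∀ σ : GQ, σ W = W := fun σ => σ.commutes w'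
  have hz₀ : (α / W) ^ r = 1 := by
    rw [div_pow, hw', map_pow, ← hW, div_self (pow_ne_zero r hW0)]
  obtain ⟨m₀, hm₀⟩ := hψ.surj _ hz₀
  refine ⟨m₀, funext fun σ => ?_⟩
  apply hψ.inj
  apply mul_right_cancel₀ (hψ.ne_zero m₀)
  have h1 : ψ (dd m₀ σ) * ψ m₀ = σ (ψ m₀) := by
    rw [← hψ.add, dd_def, sub_add_cancel, hψeq]
  rw [h1, hm₀, map_div₀, hWfix, ← hα σ, mul_div_assoc]

/-- **Multiplicative case, `r = 2`**: the cocycle is `0` or the Kummer cocycle of `-1`. -/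
theorem eq_zero_or_of_mu_two (h2 : r = 2) {p : ℕ} (hp : p.Prime) (χ : GQ →* ZMod r)
    (hχ : ∀ (σ : GQ) (z : Qbar), z ^ r = 1 → σ z = z ^ (χ σ).val)
    (hμp : ∀ A : ValuationSubring Qbar, A.LiesOverPrime p → ∀ σ ∈ A.inertiaSubgroupIn ℚ,
      ∀ z : Qbar, z ^ r = 1 → σ z = z)
    {N : Type} [AddCommGroup N] [DistribMulAction GQ N] {ψ : N → Qbar}
    (hψ : IsMuEmb (r := r) N ψ)
    (hact : ∀ (g : GQ) (x : N), g • x = (χ g).val • x) {c : GQ → N} (hc : IsAdmMu (r := r) p c)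
    (𝔄₀ : ValuationSubring Qbar) (h𝔄₀ : 𝔄₀.LiesOverPrime p)
    (hI : ∀ σ ∈ 𝔄₀.inertiaSubgroupIn ℚ, c σ = 0) (i : Qbar) (hi : i ^ 2 = -1) :
    (∀ σ : GQ, c σ = 0) ∨ (∀ σ : GQ, ψ (c σ) * i = σ i) := by
  obtain ⟨α, w, hα0, hw0, hαw, hα⟩ := exists_kummer_of_mu hp χ hχ hμp hψ hact hc 𝔄₀ h𝔄₀ hI
  subst h2
  set W : Qbar := algebraMap ℚ Qbar w with hW
  have hW0 : W ≠ 0 := by
    rw [hW, Ne, map_eq_zero]
    exact hw0
  have hWfix : ∀ σ : GQ, σ W = W := fun σ => σ.commutes w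
  rcases hαw with h | h
  · -- `α = ± W` is rational
    left
    have h1 : α ^ 2 = W ^ 2 := by rw [h, map_pow]
    have hαfix : ∀ σ : GQ, σ α = α := by
      intro σ
      rcases sq_eq_sq_iff_eq_or_eq_neg.1 h1 with h3 | h3
      · rw [h3, hWfix]
      · rw [h3, map_neg, hWfix]
    intro σ
    have h4 := hα σ
    rw [hαfix σ] at h4
    have h5 : ψ (c σ) = 1 := (mul_eq_right₀ hα0).1 h4
    exact hψ.eq_zero_of_eq_one h5
  · -- `α = ± i W`
    right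
    have h1 : α ^ 2 = (i * W) ^ 2 := by rw [h, mul_pow, hi, map_neg, map_pow]; ring
    intro σ
    have h4 := hα σ
    rcases sq_eq_sq_iff_eq_or_eq_neg.1 h1 with h3 | h3
    · rw [h3, map_mul, hWfix, ← mul_assoc] at h4
      exact mul_right_cancel₀ hW0 h4
    · rw [h3, map_neg, map_mul, hWfix, mul_neg, neg_inj, ← mul_assoc] at h4
      exact mul_right_cancel₀ hW0 h4

/-! ### The conclusions of the marked devissage -/

section Concl

variable {p : ℕ} (𝔄₀ : ValuationSubring Qbar)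

/-- étale case, any finite part, any prime `r`. -/
theorem conclM_of_et (hp : p.Prime) (h𝔄₀ : 𝔄₀.LiesOverPrime p)
    {N : Type} [AddCommGroup N] [DistribMulAction GQ N] [Finite N]
    (htriv : ∀ (g : GQ) (x : N), g • x = x)
    (𝕟 : ConeData (𝔄₀.decompositionSubgroup ℚ) (𝔄₀.inertiaSubgroupIn ℚ) N)
    (N₀ : AddSubgroup N) (hN₀ : N₀ = ⊥) (hZ : ∀ c ∈ 𝕟.Z, IsAdmEt (r := r) p c) :
    ConclM 𝕟 N₀ := by
  have hsub : Subsingleton (H1S 𝕟) := by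
    apply subsingleton_H1S
    intro t ht
    refine ⟨t.2.1, ?_, by rw [sub_self]; exact 𝕟.Mf.zero_mem⟩
    have h0 : ∀ σ, t.1 σ = 0 :=
      eq_zero_of_et hp htriv (hZ t.1 ht.1) 𝔄₀ h𝔄₀ (fun σ hσ =>
        Z1S_apply_of_mem_inertia ht σ (inertia_le_decomposition hσ) hσ (htriv σ _))
    funext σ
    rw [h0 σ, dd_def, htriv, sub_self]
  refine ⟨Finite.of_subsingleton, ?_⟩
  rw [Nat.card_of_subsingleton (0 : H1S 𝕟), one_mul, hN₀, AddSubgroup.card_bot, mul_one]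
  have hle : 𝕟.Mf ≤ H0S 𝕟 := fun x hx => ⟨hx, fun σ => htriv σ x⟩
  exact AddSubgroup.card_le_of_le hle

/-- multiplicative case, `r` odd. -/
theorem conclM_of_mu_odd (hr2 : r ≠ 2) (hp : p.Prime) (h𝔄₀ : 𝔄₀.LiesOverPrime p)
    (χ : GQ →* ZMod r) (hχ : ∀ (σ : GQ) (z : Qbar), z ^ r = 1 → σ z = z ^ (χ σ).val)
    (hμp : ∀ A : ValuationSubring Qbar, A.LiesOverPrime p → ∀ σ ∈ A.inertiaSubgroupIn ℚ,
      ∀ z : Qbar, z ^ r = 1 → σ z = z)
    {N : Type} [AddCommGroup N] [DistribMulAction GQ N] [Finite N] (hN : Nat.card N = r)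
    (hact : ∀ (g : GQ) (x : N), g • x = (χ g).val • x)
    (𝕟 : ConeData (𝔄₀.decompositionSubgroup ℚ) (𝔄₀.inertiaSubgroupIn ℚ) N)
    (N₀ : AddSubgroup N) (hN₀ : N₀ = ⊤) (hZ : ∀ c ∈ 𝕟.Z, IsAdmMu (r := r) p c) :
    ConclM 𝕟 N₀ := by
  obtain ⟨ψ, hψ⟩ := exists_isMuEmb (r := r) N hN
  have hIfix : ∀ σ ∈ 𝔄₀.inertiaSubgroupIn ℚ, ∀ x : N, σ • x = x := by
    intro σ hσ x
    rw [hact, chi_eq_one_of_fix χ hχ σ (hμp 𝔄₀ h𝔄₀ σ hσ), val_one_zmod, one_smul]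
  have key : ∀ c ∈ 𝕟.Z, (∀ σ ∈ 𝔄₀.inertiaSubgroupIn ℚ, c σ = 0) → ∃ m : N, c = dd m :=
    fun c hc hI => exists_eq_dd_of_mu_odd hr2 hp χ hχ hμp hψ hact (hZ c hc) 𝔄₀ h𝔄₀ hI
  haveI : Fact (Nat.card N).Prime := ⟨by rw [hN]; exact hr.out⟩
  have hposH0 : 1 ≤ Nat.card (H0S 𝕟) := Nat.card_pos
  have hcardN₀ : Nat.card N₀ = r := by rw [hN₀, AddSubgroup.card_top, hN]
  rcases AddSubgroup.eq_bot_or_eq_top_of_prime_card 𝕟.Mf with hbot | htop
  · have H : ∀ c ∈ 𝕟.Z, (∃ a : N, ∀ σ ∈ 𝔄₀.decompositionSubgroup ℚ, c σ = σ • a - a) →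
        ∃ m : N, c = dd m := by
      rintro c hc ⟨a, ha⟩
      apply key c hc
      intro σ hσ
      rw [ha σ (inertia_le_decomposition hσ), hIfix σ hσ, sub_self]
    have hcard := card_H1S_mul_le_of_bot hbot H
    have hfin : Finite (H1S 𝕟) := finite_H1S_of_bot hbot H
    refine ⟨hfin, ?_⟩
    rw [hbot, AddSubgroup.card_bot, mul_one, hcardN₀]
    have h1 : 1 ≤ Nat.card (invariants (⊤ : Subgroup GQ) N) := Nat.card_pos
    have h2 : Nat.card (invariants (𝔄₀.decompositionSubgroup ℚ) N) ≤ r := by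
      rw [← hN]
      exact Nat.card_le_card_of_injective _ Subtype.val_injective
    calc Nat.card (H1S 𝕟) = Nat.card (H1S 𝕟) * 1 := (mul_one _).symm
      _ ≤ Nat.card (H1S 𝕟) * Nat.card (invariants (⊤ : Subgroup GQ) N) :=
          Nat.mul_le_mul_left _ h1
      _ ≤ Nat.card (invariants (𝔄₀.decompositionSubgroup ℚ) N) := hcard
      _ ≤ r := h2
      _ = 1 * r := (one_mul r).symm
      _ ≤ Nat.card (H0S 𝕟) * r := Nat.mul_le_mul_right r hposH0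
  · have hsub : Subsingleton (H1S 𝕟) := by
      apply subsingleton_H1S
      intro t ht
      obtain ⟨m, hm⟩ := key t.1 ht.1 (fun σ hσ =>
        Z1S_apply_of_mem_inertia ht σ (inertia_le_decomposition hσ) hσ (hIfix σ hσ _))
      exact ⟨m, hm, by rw [htop]; exact AddSubgroup.mem_top _⟩
    refine ⟨Finite.of_subsingleton, ?_⟩
    rw [Nat.card_of_subsingleton (0 : H1S 𝕟), one_mul, hcardN₀]
    have h1 : Nat.card 𝕟.Mf ≤ r := by
      rw [← hN]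
      exact Nat.card_le_card_of_injective _ Subtype.val_injective
    calc Nat.card 𝕟.Mf ≤ r := h1
      _ = 1 * r := (one_mul r).symm
      _ ≤ Nat.card (H0S 𝕟) * r := Nat.mul_le_mul_right r hposH0

/-- multiplicative case, `r = 2`: `#H1S ≤ 2`. -/
theorem conclM_of_mu_two (h2 : r = 2) (hp : p.Prime) (h𝔄₀ : 𝔄₀.LiesOverPrime p)
    (χ : GQ →* ZMod r) (hχ : ∀ (σ : GQ) (z : Qbar), z ^ r = 1 → σ z = z ^ (χ σ).val)
    (hμp : ∀ A : ValuationSubring Qbar, A.LiesOverPrime p → ∀ σ ∈ A.inertiaSubgroupIn ℚ,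
      ∀ z : Qbar, z ^ r = 1 → σ z = z)
    {N : Type} [AddCommGroup N] [DistribMulAction GQ N] [Finite N] (hN : Nat.card N = r)
    (hact : ∀ (g : GQ) (x : N), g • x = (χ g).val • x)
    (𝕟 : ConeData (𝔄₀.decompositionSubgroup ℚ) (𝔄₀.inertiaSubgroupIn ℚ) N)
    (N₀ : AddSubgroup N) (hN₀ : N₀ = ⊤) (hZ : ∀ c ∈ 𝕟.Z, IsAdmMu (r := r) p c) :
    ConclM 𝕟 N₀ := by
  classical
  obtain ⟨ψ, hψ⟩ := exists_isMuEmb (r := r) N hN
  obtain ⟨i, hi⟩ := IsAlgClosed.exists_pow_nat_eq (-1 : Qbar) (n := 2) (by norm_num)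
  have hi0 : i ≠ 0 := by
    rintro rfl
    norm_num at hi
  -- the action is trivial
  have htriv : ∀ (g : GQ) (x : N), g • x = x := by
    intro g x
    have h1 : g (-1 : Qbar) = (-1) ^ (χ g).val :=
      hχ g (-1) (by rw [h2]; norm_num)
    rw [map_neg, map_one] at h1
    have hlt : (χ g).val < r := by
      haveI : NeZero r := ⟨hr.out.ne_zero⟩
      exact ZMod.val_lt _
    have hlt2 : (χ g).val < 2 := hlt.trans_eq h2
    have hv : (χ g).val = 1 := by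
      interval_cases hv' : (χ g).val
      · rw [pow_zero] at h1
        norm_num at h1
      · rfl
    rw [hact, hv, one_smul]
  have key : ∀ c ∈ 𝕟.Z, (∀ σ ∈ 𝔄₀.inertiaSubgroupIn ℚ, c σ = 0) →
      (∀ σ : GQ, c σ = 0) ∨ (∀ σ : GQ, ψ (c σ) * i = σ i) :=
    fun c hc hI => eq_zero_or_of_mu_two h2 hp χ hχ hμp hψ hact (hZ c hc) 𝔄₀ h𝔄₀ hI i hi
  have hIt : ∀ t ∈ Z1S 𝕟, ∀ σ ∈ 𝔄₀.inertiaSubgroupIn ℚ, t.1 σ = 0 := fun t ht σ hσ =>
    Z1S_apply_of_mem_inertia ht σ (inertia_le_decomposition hσ) hσ (htriv σ _)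
  -- a cone cocycle with zero global component is a coboundary
  have hB : ∀ t ∈ Z1S 𝕟, (∀ σ, t.1 σ = 0) → t ∈ B1S 𝕟 := by
    intro t ht h0
    refine mem_B1S_of_eq_dd ht t.2.1 ?_ (by rw [sub_self]; exact 𝕟.Mf.zero_mem)
    funext σ
    rw [h0 σ, dd_def, htriv, sub_self]
  -- two nonzero classes coincide
  have hinj : Function.Injective (fun x : H1S 𝕟 => decide (x = 0)) := by
    intro x y hxy
    simp only [decide_eq_decide] at hxy
    by_cases hx : x = 0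
    · rw [hx, (hxy.1 hx)]
    · have hy : y ≠ 0 := fun h => hx (hxy.2 h)
      obtain ⟨s, rfl⟩ := H1S.mk_surjective 𝕟 x
      obtain ⟨t, rfl⟩ := H1S.mk_surjective 𝕟 y
      have hs : ∀ σ : GQ, ψ (s.1.1 σ) * i = σ i := by
        rcases key _ s.2.1 (hIt _ s.2) with h | h
        · exact absurd ((H1S.mk_eq_zero_iff 𝕟 s).2 (hB _ s.2 h)) hx
        · exact h
      have ht : ∀ σ : GQ, ψ (t.1.1 σ) * i = σ i := by
        rcases key _ t.2.1 (hIt _ t.2) with h | h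
        · exact absurd ((H1S.mk_eq_zero_iff 𝕟 t).2 (hB _ t.2 h)) hy
        · exact h
      rw [← sub_eq_zero, ← map_sub, H1S.mk_eq_zero_iff]
      apply hB _ (s - t).2
      intro σ
      have h3 : ψ (s.1.1 σ) = ψ (t.1.1 σ) :=
        mul_right_cancel₀ hi0 ((hs σ).trans (ht σ).symm)
      have h4 := hψ.inj h3
      change s.1.1 σ - t.1.1 σ = 0
      rw [h4, sub_self]
  have hfin : Finite (H1S 𝕟) := Finite.of_injective _ hinj
  have hcard : Nat.card (H1S 𝕟) ≤ 2 := by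
    have := Nat.card_le_card_of_injective _ hinj
    simpa using this
  refine ⟨hfin, ?_⟩
  have hcardN₀ : Nat.card N₀ = 2 := by rw [hN₀, AddSubgroup.card_top, hN, h2]
  have hle : 𝕟.Mf ≤ H0S 𝕟 := fun x hx => ⟨hx, fun σ => htriv σ x⟩
  have h1 : Nat.card 𝕟.Mf ≤ Nat.card (H0S 𝕟) := AddSubgroup.card_le_of_le hle
  rw [hcardN₀]
  calc Nat.card (H1S 𝕟) * Nat.card 𝕟.Mf ≤ 2 * Nat.card (H0S 𝕟) := Nat.mul_le_mul hcard h1
    _ = Nat.card (H0S 𝕟) * 2 := mul_comm _ _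

/-- **MARKED RANK-ONE BOUND**, every prime `r` (including `r = 2`). -/
theorem rankOneBoundM (hp : p.Prime) (hpr : p ≠ r) (h𝔄₀ : 𝔄₀.LiesOverPrime p)
    (χ : GQ →* ZMod r) (hχ : ∀ (σ : GQ) (z : Qbar), z ^ r = 1 → σ z = z ^ (χ σ).val)
    (F : MarkedFamily.{0} GQ)
    (hEt : ∀ (N : Type) [AddCommGroup N] [DistribMulAction GQ N] [Finite N] (N₀ : AddSubgroup N),
      F.Ok N N₀ → Nat.card N = r → N₀ = ⊥ →
        (∀ (g : GQ) (x : N), g • x = x) ∧ ∀ c ∈ F.Z N N₀, IsAdmEt (r := r) p c)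
    (hMu : ∀ (N : Type) [AddCommGroup N] [DistribMulAction GQ N] [Finite N] (N₀ : AddSubgroup N),
      F.Ok N N₀ → Nat.card N = r → N₀ = ⊤ →
        (∀ (g : GQ) (x : N), g • x = (χ g).val • x) ∧ ∀ c ∈ F.Z N N₀, IsAdmMu (r := r) p c) :
    RankOneBoundM F (𝔄₀.decompositionSubgroup ℚ) (𝔄₀.inertiaSubgroupIn ℚ) r χ := by
  intro N _ _ _ N₀ hOk hN _ 𝕟 h𝕟
  have hμp : ∀ A : ValuationSubring Qbar, A.LiesOverPrime p → ∀ σ ∈ A.inertiaSubgroupIn ℚ,
      ∀ z : Qbar, z ^ r = 1 → σ z = z := fun _ hA _ hσ _ hz =>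
    inertia_fix_rootOfUnity hp hA (fun h => hpr ((Nat.prime_dvd_prime_iff_eq hp hr.out).1 h)) hσ hz
  haveI : Fact (Nat.card N).Prime := ⟨by rw [hN]; exact hr.out⟩
  rcases AddSubgroup.eq_bot_or_eq_top_of_prime_card N₀ with hbot | htop
  · obtain ⟨htriv, hZ⟩ := hEt N N₀ hOk hN hbot
    exact conclM_of_et 𝔄₀ hp h𝔄₀ htriv 𝕟 N₀ hbot (by rw [h𝕟]; exact hZ)
  · obtain ⟨hchi, hZ⟩ := hMu N N₀ hOk hN htop
    by_cases h2 : r = 2
    · exact conclM_of_mu_two 𝔄₀ h2 hp h𝔄₀ χ hχ hμp hN hchi 𝕟 N₀ htop (by rw [h𝕟]; exact hZ)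
    · exact conclM_of_mu_odd 𝔄₀ h2 hp h𝔄₀ χ hχ hμp hN hchi 𝕟 N₀ htop (by rw [h𝕟]; exact hZ)

end Concl

/-! ### For `r` odd the flat condition gives both local conditions -/

section Odd

variable {p : ℕ} {N : Type} [AddCommGroup N] [DistribMulAction GQ N] {c : GQ → N}

/-- `r` odd, trivial inertia action at `r`: flat ⟹ étale-admissible (FlatRank68 (R1)). -/
theorem IsAdm.toEt [Finite N] (hr2 : r ≠ 2) (hc : IsAdm (r := r) p c) (hkill : ∀ x : N, r • x = 0)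
    (htriv : ∀ A : ValuationSubring Qbar, A.LiesOverPrime r → ∀ σ ∈ A.inertiaSubgroupIn ℚ,
      ∀ x : N, σ • x = x) : IsAdmEt (r := r) p c :=
  ⟨hc.cocycle, hc.isOpen, hc.unr, fun _ hA =>
    hc.eq_zero_of_inertia_r hr2 hkill hA (htriv _ hA)⟩

/-- `r` odd: flat ⟹ multiplicative-admissible (FlatRank68 (R2)). -/
theorem IsAdm.toMu [Finite N] (hr2 : r ≠ 2) (hc : IsAdm (r := r) p c)
    (hkill : ∀ x : N, r • x = 0) : IsAdmMu (r := r) p c := by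
  haveI : NeZero r := ⟨hr.out.ne_zero⟩
  refine ⟨hc.cocycle, hc.isOpen, hc.unr, fun α u hu hα hfix => ?_⟩
  exact Fermat.Agent.MAZ.Local.FlatRank68.dvd_padicValRat_of_flat' hr2 hc.flat
    (kill_ext1 hkill) u hu α hα (fun σ hμ hE => hfix σ hμ (eq_zero_of_ext1_eq (r := r) hE))

end Odd

end Fermat.Agent.MAZ.Desc.RankOneMarked19
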