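/-
Programme MAZ (S15), pole P3 (r = 2), helper22: ADAPTERS for the marks-free (mult₂) of
`MAZ/Local/KummerTwo22`.

* `even_of_localFlatModel`        : the fully local statement for a `LocalFlatModel 2 E actl`;
* `dvd_padicValRat_two_of_localFlat` : the same for a global action restricted to the decomposition
  group at `2` (`u ∈ ℚ^×`, `z ∈ ℚ̄`);
* `kummer_two_of_localFlat_ext` / `kummer_two_of_flat_ext` : the extension module
  `E_c = N × ℤ/2^k` (`FlatAdm68.extActN 2 k c`, `#N = 2`, `k ≥ 1`) — if it has a local flat model at `2`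
  then `2 ∣ v₂(u)` for every `u` with `ℚ(√u)` cut out by `c`;
* `IsAdm.toMu_two`  : `RankOne19.IsAdm p c → IsAdmMu p c` at `r = 2` (`#N = 2`) — the twin of
  `RankOneMarked19.IsAdm.toMu`, which asks `r ≠ 2`;
* `IsAdm.toMu_card` : every prime `r`, `#N = r`.
-/
import Mathlib
import Fermat.Agent.MAZ.Local.KummerTwo22
import Fermat.Agent.MAZ.Desc.RankOneMarked19
import Fermat.Agent.MAZ.Desc.FlatAdm68

set_option autoImplicit false
set_option linter.unusedSectionVars false
set_option linter.unusedSimpArgs false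
set_option linter.style.haveILetI false

noncomputable section

namespace Fermat.Agent.MAZ.Desc.RankOneTwoMu22

open Fermat.Agent.S19.Shell64 Fermat.Agent.TW.FF.FunOrder68 Fermat.Agent.TW.FF.FlatModel68
open Fermat.Agent.TW.FF.Spec72 Fermat.Agent.TW.FF.Red68 Fermat.Agent.TW.FF.ReducedModel68
open Fermat.Agent.TW.FF.LocalOfGlobal68 Fermat.Agent.MAZ.Local.KummerTwo22
open Fermat.Agent.MAZ.Desc.RankOne19 Fermat.Agent.MAZ.Desc.RankOneMarked19
open Fermat.Agent.MAZ.Desc.FlatAdm68

local notation "Qb" => AlgebraicClosure ℚ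
local notation "Ω" => PadicAlgCl 2

/-! ### 1. Local flat models -/

section Local

variable {E : Type} [AddCommGroup E]

/-- **(mult₂), fully local form**: a local flat model at `2`. -/
theorem even_of_localFlatModel {actl : GQp 2 → E → E} (hloc : LocalFlatModel 2 E actl) (n e : E)
    (hn : n ≠ 0) (h2n : n + n = 0) (h2e : e + e = 0 ∨ e + e = n) (hGn : ∀ τ : GQp 2, actl τ n = n)
    (hGe : ∀ τ : GQp 2, actl τ e = e ∨ actl τ e = e + n) (u : ℚ_[2]) (hu : u ≠ 0) (z : Ω)
    (hz : z ^ 2 = (u : Ω)) (hfix : ∀ τ : GQp 2, actl τ e = e → τ z = z) : Even u.valuation := by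
  obtain ⟨H, i1, i2, hfin, -, -, em, hmul, hact⟩ := hloc
  let _ := galDistribMulAction (F := ℚ_[2]) em hmul
  have hH : IsFunOrder ℤ_[2] ℚ_[2] (redAlg em) := isFunOrder_redAlg (F := ℚ_[2]) em hmul
  have hsm : ∀ (σ : GQp 2) (m : E), σ • m = actl σ m := fun σ m =>
    (act_eq_galSmul em _ hact σ m).symm
  exact even_of_isFunOrder hH n e hn h2n h2e (fun σ => by rw [hsm]; exact hGn _)
    (fun σ => by rw [hsm]; exact hGe _) u hu z hz (fun σ hσ => hfix σ (by rw [← hsm]; exact hσ))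

/-- **(mult₂)** for a global action whose restriction to the decomposition group at `2` has a local
flat model. -/
theorem dvd_padicValRat_two_of_localFlat {act : GQ → E → E}
    (hloc : LocalFlatModel 2 E (fun τ => act (localGaloisToGlobal 2 τ))) (n e : E) (hn : n ≠ 0)
    (h2n : n + n = 0) (h2e : e + e = 0 ∨ e + e = n) (hGn : ∀ σ : GQ, act σ n = n)
    (hGe : ∀ σ : GQ, act σ e = e ∨ act σ e = e + n) (u : ℚ) (hu : u ≠ 0) (z : Qb)
    (hz : z ^ 2 = algebraMap ℚ Qb u) (hfix : ∀ σ : GQ, act σ e = e → σ z = z) :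
    (2 : ℤ) ∣ padicValRat 2 u := by
  have hu2 : ((u : ℚ) : ℚ_[2]) ≠ 0 := by exact_mod_cast hu
  have key := even_of_localFlatModel hloc n e hn h2n h2e (fun τ => hGn _) (fun τ => hGe _)
    ((u : ℚ) : ℚ_[2]) hu2 (padicEmbedding 2 z) ?_ ?_
  · rw [Padic.valuation_ratCast] at key
    exact even_iff_two_dvd.mp key
  · rw [← map_pow, hz, AlgHom.commutes]
    simp
  · intro τ hτ
    rw [← padicEmbedding_localGaloisToGlobal, hfix _ hτ]

end Local

/-! ### 2. The extension modules `E_c = N × ℤ/2^k` -/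

section Ext

variable {N : Type} [AddCommGroup N] [DistribMulAction GQ N] {c : GQ → N}

/-- a group of order two: its nonzero element. -/
theorem exists_unique_ne_zero22 (hN : Nat.card N = 2) :
    ∃ n₀ : N, n₀ ≠ 0 ∧ ∀ x : N, x = 0 ∨ x = n₀ := by
  obtain ⟨n₀, hn₀, huniq⟩ := (Nat.card_eq_two_iff' (0 : N)).1 hN
  refine ⟨n₀, hn₀, fun x => ?_⟩
  by_cases hx : x = 0
  · exact Or.inl hx
  · exact Or.inr (huniq x hx)

/-- a group of order two has trivial action. -/
theorem smul_eq_self22 (hN : Nat.card N = 2) (σ : GQ) (x : N) : σ • x = x := by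
  obtain ⟨n₀, hn₀, hall⟩ := exists_unique_ne_zero22 hN
  rcases hall x with hx | hx
  · rw [hx]
    exact smul_zero σ
  · rw [hx]
    rcases hall (σ • n₀) with h | h
    · exact absurd ((smul_eq_zero_iff_eq σ).1 h) hn₀
    · exact h

/-- **(mult₂) for `E_c` at level `1`** (`RankOne19.ext1`), local flat model. -/
theorem kummer_two_of_localFlat_ext1 (hN : Nat.card N = 2)
    (hloc : LocalFlatModel 2 (N × ZMod 2) (fun τ => ext1 (r := 2) c (localGaloisToGlobal 2 τ)))
    (α : Qb) (u : ℚ) (hu : u ≠ 0) (hα : α ^ 2 = algebraMap ℚ Qb u)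
    (hfix : ∀ σ : GQ, c σ = 0 → σ α = α) : (2 : ℤ) ∣ padicValRat 2 u := by
  obtain ⟨n₀, hn₀, hall⟩ := exists_unique_ne_zero22 hN
  have hkill : ∀ x : N, x + x = 0 := fun x => by
    have := card_nsmul_eq_zero' (G := N) (x := x)
    rwa [hN, two_nsmul] at this
  have hv1 : (1 : ZMod 2).val = 1 := rfl
  have hv0 : (0 : ZMod 2).val = 0 := rfl
  refine dvd_padicValRat_two_of_localFlat hloc ((n₀, 0) : N × ZMod 2) ((0, 1) : N × ZMod 2)
    ?_ ?_ ?_ ?_ ?_ u hu α hα ?_
  · intro h
    exact hn₀ (congrArg Prod.fst h)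
  · exact Prod.ext (hkill n₀) (by simp)
  · left
    refine Prod.ext (by simp) ?_
    change (1 : ZMod 2) + 1 = 0
    decide
  · intro σ
    refine Prod.ext ?_ rfl
    change σ • n₀ + (0 : ZMod 2).val • c σ = n₀
    rw [hv0, zero_smul, add_zero, smul_eq_self22 hN]
  · intro σ
    have h1 : ext1 (r := 2) c σ ((0, 1) : N × ZMod 2) = (c σ, 1) := by
      refine Prod.ext ?_ rfl
      change σ • (0 : N) + (1 : ZMod 2).val • c σ = c σ
      rw [hv1, one_smul, smul_zero, zero_add]
    rw [h1]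
    rcases hall (c σ) with h | h
    · left
      rw [h]
    · right
      rw [h]
      exact Prod.ext (by simp) (by simp)
  · intro σ hσ
    apply hfix
    have h1 := congrArg Prod.fst hσ
    change σ • (0 : N) + (1 : ZMod 2).val • c σ = 0 at h1
    rwa [hv1, one_smul, smul_zero, zero_add] at h1

/-- **(mult₂) for `E_c = N × ℤ/2^k`** (`FlatAdm68.extActN 2 k c`, `k ≥ 1`, `#N = 2`): a LOCAL flat
model at `2` of `E_c` forces `2 ∣ v₂(u)` whenever `√u` is fixed by the kernel of `c`.  No mark. -/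
theorem kummer_two_of_localFlat_ext {k : ℕ} (hk : 0 < k) (hN : Nat.card N = 2)
    (hloc : LocalFlatModel 2 (N × ZMod (2 ^ k))
      (fun τ => extActN 2 k c (localGaloisToGlobal 2 τ)))
    (α : Qb) (u : ℚ) (hu : u ≠ 0) (hα : α ^ 2 = algebraMap ℚ Qb u)
    (hfix : ∀ σ : GQ, c σ = 0 → σ α = α) : (2 : ℤ) ∣ padicValRat 2 u := by
  have hkill : ∀ x : N, 2 • x = 0 := fun x => by
    have := card_nsmul_eq_zero' (G := N) (x := x)
    rwa [hN] at this
  haveI : NeZero (2 ^ k) := ⟨pow_ne_zero k two_ne_zero⟩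
  have hdvd : 2 ∣ 2 ^ k := dvd_pow_self 2 hk.ne'
  let f : N × ZMod (2 ^ k) →+ N × ZMod 2 :=
    AddMonoidHom.prodMap (AddMonoidHom.id N) (ZMod.castHom hdvd (ZMod 2)).toAddMonoidHom
  have hf : Function.Surjective f := by
    rintro ⟨n, a⟩
    obtain ⟨b, hb⟩ := ZMod.castHom_surjective hdvd a
    exact ⟨(n, b), by simp [f, hb]⟩
  refine kummer_two_of_localFlat_ext1 hN ?_ α u hu hα hfix
  refine Fermat.Agent.FFJ.Glue.GlobalClosure68.LocalFlatModel.of_surjective f hf ?_ hloc
  rintro τ ⟨n, a⟩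
  refine Prod.ext ?_ rfl
  set σ := localGaloisToGlobal 2 τ
  change σ • n + a.val • c σ = σ • n + (ZMod.castHom hdvd (ZMod 2) a).val • c σ
  rw [val_cast_nsmul68 hdvd (hkill (c σ)) a]

/-- the same from a global flat model of `E_c`. -/
theorem kummer_two_of_flat_ext {k : ℕ} (hk : 0 < k) (hN : Nat.card N = 2)
    (hflat : FlatModel 2 (N × ZMod (2 ^ k)) (extActN 2 k c))
    (α : Qb) (u : ℚ) (hu : u ≠ 0) (hα : α ^ 2 = algebraMap ℚ Qb u)
    (hfix : ∀ σ : GQ, c σ = 0 → σ α = α) : (2 : ℤ) ∣ padicValRat 2 u :=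
  kummer_two_of_localFlat_ext hk hN (localFlatModel_of_flatModel 2 hflat) α u hu hα hfix

end Ext

/-! ### 3. `IsAdm → IsAdmMu` at `r = 2` -/

section Adm

variable {r : ℕ} [hr : Fact r.Prime] {p : ℕ} {N : Type} [AddCommGroup N] [DistribMulAction GQ N]
  {c : GQ → N}

/-- **`r = 2`: flat ⟹ multiplicative-admissible** for a module of order two.  The twin of
`RankOneMarked19.IsAdm.toMu` (which has `r ≠ 2`); no mark is needed. -/
theorem IsAdm.toMu_two (h2 : r = 2) (hc : IsAdm (r := r) p c) (hN : Nat.card N = r) :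
    IsAdmMu (r := r) p c := by
  subst h2
  refine ⟨hc.cocycle, hc.isOpen, hc.unr, fun α u hu hα hfix => ?_⟩
  have key := kummer_two_of_localFlat_ext1 (c := c) hN (localFlatModel_of_flatModel 2 hc.flat) α u hu hα
    (fun σ hσ => hfix σ (fun ζ hζ => ?_) hσ)
  · exact_mod_cast key
  · have h1 : ζ * ζ = 1 := by rw [← pow_two]; exact hζ
    rcases mul_self_eq_one_iff.1 h1 with h | h
    · rw [h, map_one]
    · rw [h, map_neg, map_one]

/-- **every prime `r`**: flat ⟹ multiplicative-admissible for a module of order `r`. -/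
theorem IsAdm.toMu_card [Finite N] (hc : IsAdm (r := r) p c) (hN : Nat.card N = r) :
    IsAdmMu (r := r) p c := by
  by_cases h2 : r = 2
  · exact IsAdm.toMu_two h2 hc hN
  · exact IsAdm.toMu h2 hc (fun x => by rw [← hN]; exact card_nsmul_eq_zero')

end Adm

end Fermat.Agent.MAZ.Desc.RankOneTwoMu22
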