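/-
MAZ (S15), chapter DESC, brick (D6) of the G-side (helper79): **`J₀(p)(ℚ)[r^∞]` is finite**, from
Mordell-Weil, in several consumer shapes.  Mathlib only for the abstract part; `GSpec26` for the
instantiation.

* `finite_torsion_of_fg` : the torsion of a finitely generated abelian group is finite;
* `exists_card_bound_of_fg` : for a finitely generated subgroup `Y` of an abelian group `J` there is
  `C` such that every type `X` with an injection `f : X → J` into the torsion elements of `Y` is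
  finite with `Nat.card X ≤ C` (and the `Set` form `exists_ncard_bound_of_fg`);
* `exists_card_fixed_torsion_le` : `∃ C, ∀ k, Nat.card {x : Mk p r k // ∀ σ, σ • x = x} ≤ C`
  (and the version with an arbitrary `n`-torsion, in `JZero p`).
-/
import Mathlib
import Fermat.Agent.MAZ.Spec.GSpec26

set_option autoImplicit false
set_option linter.unusedSectionVars false

open AlgebraicCurve ModularCurve

noncomputable section

namespace Fermat.Agent.MAZ.Desc.RatTors79

open Fermat.Agent.X0 Fermat.Agent.MAZ.Spec.XSpec62 Fermat.Agent.MAZ.Spec.GSpec26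

section Abstract

/-- The torsion of a finitely generated abelian group is finite. -/
theorem finite_torsion_of_fg (Y : Type*) [AddCommGroup Y] [Module.Finite ℤ Y] :
    Finite (Submodule.torsion ℤ Y) := by
  have : IsNoetherian ℤ Y := isNoetherian_of_isNoetherianRing_of_finite ℤ Y
  have : Module.Finite ℤ (Submodule.torsion ℤ Y) := Module.Finite.of_fg (IsNoetherian.noetherian _)
  refine Module.finite_of_fg_torsion _ ?_
  intro x
  obtain ⟨a, ha⟩ := (Submodule.mem_torsion_iff (x : Y)).mp x.2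
  exact ⟨a, Subtype.ext ha⟩

variable {J : Type*} [AddCommGroup J]

/-- **Uniform bound**: for a finitely generated subgroup `Y` of `J`, every family of torsion elements
of `Y` indexed injectively by a type `X` has at most `C` members. -/
theorem exists_card_bound_of_fg (Y : AddSubgroup J) (hY : AddGroup.FG Y) :
    ∃ C : ℕ, ∀ (X : Type*) (f : X → J), Function.Injective f →
      (∀ x, f x ∈ Y ∧ ∃ n : ℕ, 0 < n ∧ n • f x = 0) → Finite X ∧ Nat.card X ≤ C := by
  have hfin : Module.Finite ℤ Y := Module.Finite.iff_addGroup_fg.mpr hY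
  have hT := finite_torsion_of_fg Y
  refine ⟨Nat.card (Submodule.torsion ℤ Y), fun X f hf hX => ?_⟩
  let g : X → Submodule.torsion ℤ Y := fun x =>
    ⟨⟨f x, (hX x).1⟩, by
      obtain ⟨n, hn, hnx⟩ := (hX x).2
      refine (Submodule.mem_torsion_iff _).mpr ⟨⟨(n : ℤ), ?_⟩, ?_⟩
      · rw [mem_nonZeroDivisors_iff_ne_zero]
        exact_mod_cast hn.ne'
      · apply Subtype.ext
        change ((n : ℤ) • (⟨f x, (hX x).1⟩ : Y) : Y).1 = 0
        rw [AddSubgroup.coe_zsmul, natCast_zsmul]
        exact hnx⟩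
  have hg : Function.Injective g := fun a b hab => hf (by
    have := congrArg (fun t : Submodule.torsion ℤ Y => ((t : Y) : J)) hab
    exact this)
  exact ⟨Finite.of_injective g hg, Nat.card_le_card_of_injective g hg⟩

/-- The `Set` form. -/
theorem exists_ncard_bound_of_fg (Y : AddSubgroup J) (hY : AddGroup.FG Y) :
    ∃ C : ℕ, ∀ S : Set J, (∀ x ∈ S, x ∈ Y ∧ ∃ n : ℕ, 0 < n ∧ n • x = 0) →
      S.Finite ∧ S.ncard ≤ C := by
  obtain ⟨C, hC⟩ := exists_card_bound_of_fg Y hY
  refine ⟨C, fun S hS => ?_⟩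
  obtain ⟨h1, h2⟩ := hC S (fun x => (x : J)) Subtype.val_injective (fun x => hS x.1 x.2)
  exact ⟨Set.toFinite S, by rw [← Nat.card_coe_set_eq]; exact h2⟩

end Abstract

section Level

variable (p : ℕ) [NeZero p]

/-- **(D6)** from Mordell-Weil at level `p`: a uniform bound for the Galois-fixed torsion of
`J₀(p)(ℚ̄)`, for families indexed injectively. -/
theorem exists_card_bound_fixed (hMW : MW p) :
    ∃ C : ℕ, ∀ (X : Type) (f : X → JZero p), Function.Injective f →
      (∀ x, (∀ σ : GQ, σ • f x = f x) ∧ ∃ n : ℕ, 0 < n ∧ n • f x = 0) →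
      Finite X ∧ Nat.card X ≤ C := by
  obtain ⟨C, hC⟩ := exists_card_bound_of_fg (FixedPoints.addSubgroup GQ (JZero p)) hMW
  exact ⟨C, fun X f hf hX => hC X f hf (fun x => ⟨fun σ => (hX x).1 σ, (hX x).2⟩)⟩

/-- **(D6)** for `Mk p r k = J₀(p)[r^k]` in the literal shape of `GSpec26`: the Galois-fixed points
of `J₀(p)[r^k]` are at most `C`, uniformly in `k`. -/
theorem exists_card_fixed_torsion_le (hMW : MW p) (r : ℕ) (hr : 0 < r) :
    ∃ C : ℕ, ∀ k : ℕ,
      Finite {x : ↥(Mk p r k) // ∀ σ : GQ, σ • (x : JZero p) = (x : JZero p)} ∧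
      Nat.card {x : ↥(Mk p r k) // ∀ σ : GQ, σ • (x : JZero p) = (x : JZero p)} ≤ C := by
  obtain ⟨C, hC⟩ := exists_card_bound_fixed p hMW
  refine ⟨C, fun k => ?_⟩
  refine hC {x : ↥(Mk p r k) // ∀ σ : GQ, σ • (x : JZero p) = (x : JZero p)}
    (fun x => ((x : ↥(Mk p r k)) : JZero p))
    (fun a b hab => Subtype.ext (Subtype.ext hab)) (fun x => ⟨x.2, r ^ k, pow_pos hr k, ?_⟩)
  have h := (Submodule.mem_torsionBy_iff _ _).mp x.1.2
  rw [← Nat.cast_pow, natCast_zsmul] at h
  exact h

/-- **(D6)**, set form in `JZero p`: the set of Galois-fixed points killed by `n > 0` has at most `C`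
elements, uniformly in `n`. -/
theorem exists_ncard_fixed_torsion_le (hMW : MW p) :
    ∃ C : ℕ, ∀ n : ℕ, 0 < n →
      {z : JZero p | (∀ σ : GQ, σ • z = z) ∧ n • z = 0}.Finite ∧
      {z : JZero p | (∀ σ : GQ, σ • z = z) ∧ n • z = 0}.ncard ≤ C := by
  obtain ⟨C, hC⟩ := exists_ncard_bound_of_fg (FixedPoints.addSubgroup GQ (JZero p)) hMW
  exact ⟨C, fun n hn => hC _ (fun z hz => ⟨fun σ => hz.1 σ, n, hn, hz.2⟩)⟩

end Level

end Fermat.Agent.MAZ.Desc.RatTors79
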