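/-
Program MAZ (S15), G-side, pole (P1) = (PT), Galois-theoretic route (helper76, reports #2266/#2311):
**(REL-abs)** the Hecke-valued form of helper9's `RelDense9`.

`𝒪` a noetherian local ring, `Λ` a finite free `𝒪`-module, `ρ : G →* End 𝒪 Λ`, `d : G →* 𝒪ˣ`,
`S` a subalgebra of `End 𝒪 Λ` (think: the image of the `r`-adic Hecke algebra; a finitely generated
`𝒪`-submodule, hence closed).  If the Eichler–Shimura relation

  `ρ σ * ρ σ - AΦ σ * ρ σ + d σ • 1 = 0`,  `AΦ σ ∈ S`,   holds for `σ ∈ Φ` (Frobenius lifts)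

and the powers of the elements of `Φ` are dense (in the literal form proved in
`ES/J/S30Assembly13`: `ρ (g⁻¹ σ^j) ≡ 1` and `d (g⁻¹ σ^j) ≡ 1` modulo `𝔪^n`), then for EVERY `g`

  `ρ g + d g • ρ g⁻¹ ∈ S`      (`mem_of_dense`)

— the hypothesis `hrel` of `PTGalois76`.
-/
import Mathlib
import Fermat.Agent.ES.ALG.RelDense9

set_option autoImplicit false
set_option linter.unusedSectionVars false

namespace Fermat.Agent.MAZ.Desc.RelDenseT76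

open Module Fermat.Agent.ES.ALG.RelDense9

variable {𝒪 : Type*} [CommRing 𝒪] {Λ : Type*} [AddCommGroup Λ] [Module 𝒪 Λ]

/-! ### (LUCAS), subalgebra-valued -/

/-- If `F + δ F' = A` with `F F' = F' F = 1`, then `F^j + δ^j F'^j` lies in every subalgebra
containing `A`. -/
theorem lucasT {F F' A : End 𝒪 Λ} (hFF' : F * F' = 1) (hF'F : F' * F = 1) {δ : 𝒪}
    (h : F + δ • F' = A) (S : Subalgebra 𝒪 (End 𝒪 Λ)) (hA : A ∈ S) (j : ℕ) :
    F ^ j + δ ^ j • F' ^ j ∈ S := by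
  suffices H : ∀ j : ℕ, F ^ j + δ ^ j • F' ^ j ∈ S ∧
      F ^ (j + 1) + δ ^ (j + 1) • F' ^ (j + 1) ∈ S from (H j).1
  intro j
  induction j with
  | zero =>
    refine ⟨?_, ?_⟩
    · have : F ^ 0 + δ ^ 0 • F' ^ 0 = (1 : End 𝒪 Λ) + 1 := by simp
      rw [this]
      exact S.add_mem S.one_mem S.one_mem
    · have : F ^ (0 + 1) + δ ^ (0 + 1) • F' ^ (0 + 1) = A := by simpa using h
      rw [this]
      exact hA
  | succ j ih =>
    obtain ⟨h0, h1⟩ := ih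
    refine ⟨h1, ?_⟩
    have hFp : ∀ m : ℕ, F ^ (m + 1) * F' = F ^ m := fun m => by
      rw [pow_succ, mul_assoc, hFF', mul_one]
    have hF'p : ∀ m : ℕ, F' ^ (m + 1) * F = F' ^ m := fun m => by
      rw [pow_succ, mul_assoc, hF'F, mul_one]
    have key : (F ^ (j + 1) + δ ^ (j + 1) • F' ^ (j + 1)) * (F + δ • F') =
        (F ^ (j + 1 + 1) + δ ^ (j + 1 + 1) • F' ^ (j + 1 + 1)) + δ • (F ^ j + δ ^ j • F' ^ j) := by
      simp only [add_mul, mul_add, smul_mul_assoc, mul_smul_comm, smul_add, smul_smul]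
      rw [hFp j, hF'p j, ← pow_succ F, ← pow_succ F']
      have e1 : δ ^ (j + 1) * δ = δ ^ (j + 1 + 1) := (pow_succ δ (j + 1)).symm
      have e2 : δ * δ ^ j = δ ^ (j + 1) := (pow_succ' δ j).symm
      rw [mul_comm δ (δ ^ (j + 1)), e1, e2]
      abel
    have e : F ^ (j + 1 + 1) + δ ^ (j + 1 + 1) • F' ^ (j + 1 + 1) =
        (F ^ (j + 1) + δ ^ (j + 1) • F' ^ (j + 1)) * A - δ • (F ^ j + δ ^ j • F' ^ j) := by
      rw [← h, key]; abel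
    rw [e]
    exact S.sub_mem (S.mul_mem h1 hA) (S.smul_mem h0 δ)

/-- From the quadratic relation to the `σ + d σ⁻¹` form. -/
theorem rel_of_quadraticT {F F' A : End 𝒪 Λ} (hFF' : F * F' = 1) {δ : 𝒪}
    (h : F * F - A * F + δ • (1 : End 𝒪 Λ) = 0) : F + δ • F' = A := by
  have := congrArg (fun x => x * F') h
  simp only [add_mul, sub_mul, smul_mul_assoc, mul_assoc, hFF', mul_one, one_mul, zero_mul] at this
  have e : F + δ • F' = (F - A + δ • F') + A := by abel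
  rw [e, this, zero_add]

/-! ### Finitely generated submodules of `End Λ` are closed -/

section Closed

variable [Module.Free 𝒪 Λ] [Module.Finite 𝒪 Λ]

/-- An endomorphism mapping `Λ` into `I Λ` lies in `I • End Λ`. -/
theorem mem_smul_top_of_endCongr_zero (I : Ideal 𝒪) (φ : End 𝒪 Λ)
    (hφ : ∀ v, φ v ∈ I • (⊤ : Submodule 𝒪 Λ)) : φ ∈ I • (⊤ : Submodule 𝒪 (End 𝒪 Λ)) := by
  classical
  let b := Module.Free.chooseBasis 𝒪 Λ
  -- `w ↦ (coord j) • w` as a linear map `Λ → End Λ`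
  let Ψ : Module.Free.ChooseBasisIndex 𝒪 Λ → Λ →ₗ[𝒪] End 𝒪 Λ := fun j =>
    LinearMap.smulRightₗ (b.coord j)
  have hsum : φ = ∑ j, Ψ j (φ (b j)) := by
    refine b.ext fun i => ?_
    rw [LinearMap.sum_apply]
    simp only [Ψ, LinearMap.smulRightₗ_apply, LinearMap.smulRight_apply, Basis.coord_apply,
      Basis.repr_self, Finsupp.single_apply]
    rw [Finset.sum_eq_single i]
    · rw [if_pos rfl, one_smul]
    · intro j _ hji
      rw [if_neg (Ne.symm hji), zero_smul]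
    · intro h; exact absurd (Finset.mem_univ i) h
  rw [hsum]
  refine Submodule.sum_mem _ fun j _ => ?_
  have h1 : Ψ j (φ (b j)) ∈ (I • (⊤ : Submodule 𝒪 Λ)).map (Ψ j) :=
    Submodule.mem_map_of_mem (hφ (b j))
  rw [Submodule.map_smul''] at h1
  exact Submodule.smul_mono le_rfl le_top h1

variable [IsNoetherianRing 𝒪] [IsLocalRing 𝒪]

/-- **Closedness**: an endomorphism congruent modulo every `𝔪^n` to an element of a submodule `S`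
of `End Λ` lies in `S`. -/
theorem mem_of_forall_congr (S : Submodule 𝒪 (End 𝒪 Λ)) (X : End 𝒪 Λ)
    (hX : ∀ n : ℕ, ∃ s ∈ S, EndCongr (IsLocalRing.maximalIdeal 𝒪 ^ n) X s) : X ∈ S := by
  set 𝔪 := IsLocalRing.maximalIdeal 𝒪 with h𝔪
  have hkrull := Ideal.iInf_pow_smul_eq_bot_of_isLocalRing (R := 𝒪) (M := End 𝒪 Λ ⧸ S) 𝔪
    (IsLocalRing.maximalIdeal.isMaximal 𝒪).ne_top
  have hmem : S.mkQ X ∈ (⨅ i : ℕ, 𝔪 ^ i • ⊤ : Submodule 𝒪 (End 𝒪 Λ ⧸ S)) := by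
    rw [Submodule.mem_iInf]
    intro n
    obtain ⟨s, hs, hcong⟩ := hX n
    have h1 : X - s ∈ 𝔪 ^ n • (⊤ : Submodule 𝒪 (End 𝒪 Λ)) :=
      mem_smul_top_of_endCongr_zero _ _ fun v => by
        rw [LinearMap.sub_apply]; exact hcong v
    have h2 : S.mkQ (X - s) ∈ (𝔪 ^ n • (⊤ : Submodule 𝒪 (End 𝒪 Λ))).map S.mkQ :=
      Submodule.mem_map_of_mem h1
    rw [Submodule.map_smul''] at h2
    have h3 : S.mkQ (X - s) = S.mkQ X := by
      have h0 : S.mkQ s = 0 := by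
        rw [Submodule.mkQ_apply]
        exact (Submodule.Quotient.mk_eq_zero S).mpr hs
      rw [map_sub, h0, sub_zero]
    rw [← h3]
    exact Submodule.smul_mono le_rfl le_top h2
  rw [hkrull, Submodule.mem_bot] at hmem
  exact (Submodule.Quotient.mk_eq_zero S).mp hmem

end Closed

/-! ### (DENSE), subalgebra-valued -/

section Dense

variable [Module.Free 𝒪 Λ] [Module.Finite 𝒪 Λ] [IsNoetherianRing 𝒪] [IsLocalRing 𝒪]
variable {G : Type*} [Group G] (ρ : G →* End 𝒪 Λ) (d : G →* 𝒪ˣ)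

/-- **(REL-abs)**. -/
theorem mem_of_dense (S : Subalgebra 𝒪 (End 𝒪 Λ)) (Φ : Set G) (AΦ : G → End 𝒪 Λ)
    (hAS : ∀ σ ∈ Φ, AΦ σ ∈ S)
    (hΦ : ∀ σ ∈ Φ, ρ σ * ρ σ - AΦ σ * ρ σ + ((d σ : 𝒪ˣ) : 𝒪) • (1 : End 𝒪 Λ) = 0)
    (hdense : ∀ (n : ℕ) (g : G), ∃ σ ∈ Φ, ∃ j : ℕ,
      EndCongr (IsLocalRing.maximalIdeal 𝒪 ^ n) (ρ (g⁻¹ * σ ^ j)) 1 ∧
      ((d (g⁻¹ * σ ^ j) : 𝒪ˣ) : 𝒪) - 1 ∈ IsLocalRing.maximalIdeal 𝒪 ^ n) (g : G) :
    ρ g + ((d g : 𝒪ˣ) : 𝒪) • ρ g⁻¹ ∈ S := by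
  refine mem_of_forall_congr (Subalgebra.toSubmodule S) _ fun n => ?_
  set I := IsLocalRing.maximalIdeal 𝒪 ^ n with hI
  obtain ⟨σ, hσ, j, h1, h2⟩ := hdense n g
  have hrel := rel_of_quadraticT (rho_mul_inv ρ σ) (hΦ σ hσ)
  refine ⟨ρ σ ^ j + ((d σ : 𝒪ˣ) : 𝒪) ^ j • ρ σ⁻¹ ^ j,
    lucasT (rho_mul_inv ρ σ) (rho_inv_mul ρ σ) hrel S (hAS σ hσ) j, ?_⟩
  -- `ρ g ≡ ρ σ ^ j`
  have hρ : EndCongr I (ρ g) (ρ σ ^ j) := by
    have h4 := h1.mul_left (ρ g)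
    rw [← map_mul, mul_inv_cancel_left, map_pow, mul_one] at h4
    exact h4.symm
  -- `d g ≡ d σ ^ j`
  have hd : ((d g : 𝒪ˣ) : 𝒪) - ((d σ : 𝒪ˣ) : 𝒪) ^ j ∈ I := by
    have h5 : ((d g : 𝒪ˣ) : 𝒪) - ((d σ : 𝒪ˣ) : 𝒪) ^ j =
        -(((d g : 𝒪ˣ) : 𝒪) * (((d (g⁻¹ * σ ^ j) : 𝒪ˣ) : 𝒪) - 1)) := by
      have h6 : ((d g : 𝒪ˣ) : 𝒪) * ((d (g⁻¹ * σ ^ j) : 𝒪ˣ) : 𝒪) = ((d σ : 𝒪ˣ) : 𝒪) ^ j := by
        rw [← Units.val_mul, ← map_mul, mul_inv_cancel_left, map_pow, Units.val_pow_eq_pow_val]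
      rw [mul_sub, h6, mul_one, neg_sub]
    rw [h5]
    exact I.neg_mem (I.mul_mem_left _ h2)
  have hinv : EndCongr I (ρ g⁻¹) (ρ σ⁻¹ ^ j) := by
    refine hρ.inv (rho_inv_mul ρ g) ?_
    have hc : Commute (ρ σ) (ρ σ⁻¹) := by
      rw [Commute, SemiconjBy, rho_mul_inv, rho_inv_mul]
    rw [← hc.mul_pow, rho_mul_inv, one_pow]
  exact hρ.add (hinv.smul hd)

end Dense

end Fermat.Agent.MAZ.Desc.RelDenseT76
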