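/-
Program MAZ (S15), G-side (descent), helper11: SUBADDITIVITY OF `h¹ - h⁰` FOR SELMER STRUCTURES,
abstract form (no cohomology theory fixed: any six-term exact sequence of abelian groups).

Let `0 → A₀ → B₀ → C₀ → A₁ → B₁ → C₁` be exact (think `H⁰` and `H¹` of a short exact sequence of
Galois modules `0 → M' → M → M'' → 0`), and let `SB ≤ B₁` be a subgroup (a Selmer group of `M`),
`SA = f₁⁻¹(SB) ≤ A₁` (the INDUCED Selmer group of the submodule) and `SC ⊇ g₁(SB)` (any Selmer group of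
the quotient containing the image, e.g. the induced one).  Then

  `#SB · #A₀ · #C₀ ≤ #SA · #SC · #B₀`,   i.e.   `(h¹ - h⁰)(M) ≤ (h¹ - h⁰)(M') + (h¹ - h⁰)(M'')`,

and `SB` is finite as soon as `SA`, `SC` and `B₀` are.  This is the formal step of Mazur's
devissage (Eisenstein ideal, Prop. I.1.7) `h¹(S, G) - h⁰(S, G) ≤ δ(G) - α(G)`.

* `card_eq_card_range_mul_card_ker` : `#X = #(range φ) · #(ker φ)`;
* `card_mul_le` : the inequality;  `finite_of_exact` : finiteness of `SB`;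
* `card_mul_eq` : equality when `g₁(SB) = SC`.
-/
import Mathlib

set_option autoImplicit false

namespace Fermat.Agent.MAZ.Desc.SelmerSubadd11

/-- `#X = #(range φ) · #(ker φ)` for a homomorphism of additive groups (no finiteness needed). -/
theorem card_eq_card_range_mul_card_ker {X Y : Type*} [AddGroup X] [AddGroup Y] (φ : X →+ Y) :
    Nat.card X = Nat.card φ.range * Nat.card φ.ker := by
  rw [AddSubgroup.card_eq_card_quotient_mul_card_addSubgroup φ.ker,
    Nat.card_congr (QuotientAddGroup.quotientKerEquivRange φ).toEquiv]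

/-- `#(H.addSubgroupOf K) = #(H ⊓ K)`. -/
theorem card_addSubgroupOf {X : Type*} [AddGroup X] (H K : AddSubgroup X) :
    Nat.card (H.addSubgroupOf K) = Nat.card ↥(H ⊓ K) := by
  rw [← AddSubgroup.inf_addSubgroupOf_right H K]
  exact Nat.card_congr (AddSubgroup.addSubgroupOfEquivOfLe inf_le_right).toEquiv

section SixTerm

variable {A₀ B₀ C₀ A₁ B₁ C₁ : Type*} [AddCommGroup A₀] [AddCommGroup B₀] [AddCommGroup C₀]
  [AddCommGroup A₁] [AddCommGroup B₁] [AddCommGroup C₁]
  (f₀ : A₀ →+ B₀) (g₀ : B₀ →+ C₀) (δ : C₀ →+ A₁) (f₁ : A₁ →+ B₁) (g₁ : B₁ →+ C₁)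
  (SA : AddSubgroup A₁) (SB : AddSubgroup B₁) (SC : AddSubgroup C₁)

/-- The numerical content of exactness at `B₀` and `C₀`:
`#B₀ = #A₀ · #(range g₀)` and `#C₀ = #(range δ) · #(range g₀)`. -/
theorem card_H0 (hf₀ : Function.Injective f₀) (hB₀ : Function.Exact f₀ g₀)
    (hC₀ : Function.Exact g₀ δ) :
    Nat.card B₀ = Nat.card g₀.range * Nat.card A₀ ∧
      Nat.card C₀ = Nat.card δ.range * Nat.card g₀.range := by
  constructor
  · rw [card_eq_card_range_mul_card_ker g₀]
    have hker : g₀.ker = f₀.range := by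
      ext b
      rw [AddMonoidHom.mem_ker, AddMonoidHom.mem_range]
      exact hB₀ b
    rw [hker, Nat.card_congr (AddMonoidHom.ofInjective hf₀).toEquiv.symm]
  · rw [card_eq_card_range_mul_card_ker δ]
    have hker : δ.ker = g₀.range := by
      ext c
      rw [AddMonoidHom.mem_ker, AddMonoidHom.mem_range]
      exact hC₀ c
    rw [hker]

/-- The restriction of `f₁` to the induced Selmer group `SA = f₁⁻¹(SB)`: its range is
`SB ⊓ range f₁` and its kernel has the cardinality of `range δ`. -/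
theorem card_SA (hA₁ : Function.Exact δ f₁) (hSA : SA = SB.comap f₁) :
    Nat.card SA = Nat.card ↥(f₁.range ⊓ SB) * Nat.card δ.range := by
  rw [card_eq_card_range_mul_card_ker (f₁.comp SA.subtype)]
  have hrange : (f₁.comp SA.subtype).range = f₁.range ⊓ SB := by
    ext b
    rw [AddMonoidHom.mem_range, AddSubgroup.mem_inf, AddMonoidHom.mem_range]
    constructor
    · rintro ⟨⟨a, ha⟩, rfl⟩
      refine ⟨⟨a, rfl⟩, ?_⟩
      rw [hSA] at ha
      exact ha
    · rintro ⟨⟨a, rfl⟩, hb⟩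
      refine ⟨⟨a, ?_⟩, rfl⟩
      rw [hSA]
      exact hb
  have hker : (f₁.comp SA.subtype).ker = f₁.ker.addSubgroupOf SA := by
    ext a
    rw [AddMonoidHom.mem_ker, AddSubgroup.mem_addSubgroupOf, AddMonoidHom.mem_ker]
    rfl
  have hle : f₁.ker ≤ SA := by
    intro a ha
    rw [hSA, AddSubgroup.mem_comap, AddMonoidHom.mem_ker.1 ha]
    exact SB.zero_mem
  have hker' : f₁.ker = δ.range := by
    ext a
    rw [AddMonoidHom.mem_ker, AddMonoidHom.mem_range]
    exact hA₁ a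
  rw [hrange, hker, card_addSubgroupOf, inf_eq_left.2 hle, hker']

/-- The restriction of `g₁` to `SB`: `#SB = #(g₁(SB)) · #(range f₁ ⊓ SB)`. -/
theorem card_SB (hB₁ : Function.Exact f₁ g₁) :
    Nat.card SB = Nat.card ↥(SB.map g₁) * Nat.card ↥(f₁.range ⊓ SB) := by
  rw [card_eq_card_range_mul_card_ker (g₁.comp SB.subtype)]
  have hrange : (g₁.comp SB.subtype).range = SB.map g₁ := by
    ext c
    rw [AddMonoidHom.mem_range, AddSubgroup.mem_map]
    constructor
    · rintro ⟨⟨b, hb⟩, rfl⟩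
      exact ⟨b, hb, rfl⟩
    · rintro ⟨b, hb, rfl⟩
      exact ⟨⟨b, hb⟩, rfl⟩
  have hker : (g₁.comp SB.subtype).ker = g₁.ker.addSubgroupOf SB := by
    ext b
    rw [AddMonoidHom.mem_ker, AddSubgroup.mem_addSubgroupOf, AddMonoidHom.mem_ker]
    rfl
  have hker' : g₁.ker = f₁.range := by
    ext b
    rw [AddMonoidHom.mem_ker, AddMonoidHom.mem_range]
    exact hB₁ b
  rw [hrange, hker, card_addSubgroupOf, hker']

/-- **Exact count**: `#SB · #A₀ · #C₀ · = #SA · #(g₁(SB)) · #B₀` (all cardinalities `Nat.card`, no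
finiteness hypotheses). -/
theorem card_mul_eq_map (hf₀ : Function.Injective f₀) (hB₀ : Function.Exact f₀ g₀)
    (hC₀ : Function.Exact g₀ δ) (hA₁ : Function.Exact δ f₁) (hB₁ : Function.Exact f₁ g₁)
    (hSA : SA = SB.comap f₁) :
    Nat.card SB * Nat.card A₀ * Nat.card C₀ =
      Nat.card SA * Nat.card ↥(SB.map g₁) * Nat.card B₀ := by
  obtain ⟨e1, e2⟩ := card_H0 f₀ g₀ δ hf₀ hB₀ hC₀
  rw [card_SB f₁ g₁ SB hB₁, card_SA δ f₁ SA SB hA₁ hSA, e1, e2]
  ring

/-- **Subadditivity of `h¹ - h⁰`** (multiplicative form):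
`#SB · #A₀ · #C₀ ≤ #SA · #SC · #B₀` when `SA = f₁⁻¹(SB)` and `g₁(SB) ≤ SC`, `SC` finite. -/
theorem card_mul_le (hf₀ : Function.Injective f₀) (hB₀ : Function.Exact f₀ g₀)
    (hC₀ : Function.Exact g₀ δ) (hA₁ : Function.Exact δ f₁) (hB₁ : Function.Exact f₁ g₁)
    (hSA : SA = SB.comap f₁) (hSC : SB.map g₁ ≤ SC) [Finite SC] :
    Nat.card SB * Nat.card A₀ * Nat.card C₀ ≤ Nat.card SA * Nat.card SC * Nat.card B₀ := by
  rw [card_mul_eq_map f₀ g₀ δ f₁ g₁ SA SB hf₀ hB₀ hC₀ hA₁ hB₁ hSA]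
  have hle : Nat.card ↥(SB.map g₁) ≤ Nat.card SC :=
    Nat.card_le_card_of_injective (AddSubgroup.inclusion hSC) (AddSubgroup.inclusion_injective hSC)
  exact Nat.mul_le_mul_right _ (Nat.mul_le_mul_left _ hle)

/-- **Equality** when the Selmer group of the quotient is exactly the image. -/
theorem card_mul_eq (hf₀ : Function.Injective f₀) (hB₀ : Function.Exact f₀ g₀)
    (hC₀ : Function.Exact g₀ δ) (hA₁ : Function.Exact δ f₁) (hB₁ : Function.Exact f₁ g₁)
    (hSA : SA = SB.comap f₁) (hSC : SB.map g₁ = SC) :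
    Nat.card SB * Nat.card A₀ * Nat.card C₀ = Nat.card SA * Nat.card SC * Nat.card B₀ := by
  rw [card_mul_eq_map f₀ g₀ δ f₁ g₁ SA SB hf₀ hB₀ hC₀ hA₁ hB₁ hSA, hSC]

/-- Finiteness of the middle Selmer group from finiteness of the induced one on the submodule and
of any one on the quotient containing the image. -/
theorem finite_of_exact (hB₁ : Function.Exact f₁ g₁) (hSA : SA = SB.comap f₁)
    (hSC : SB.map g₁ ≤ SC) [Finite SA] [Finite SC] : Finite SB := by
  have h1 : Finite ↥(SB.map g₁) :=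
    Finite.of_injective (AddSubgroup.inclusion hSC) (AddSubgroup.inclusion_injective hSC)
  have h2 : Finite ↥(f₁.range ⊓ SB) := by
    let φ : SA → ↥(f₁.range ⊓ SB) := fun a =>
      ⟨f₁ a.1, ⟨⟨a.1, rfl⟩, by
        have h : a.1 ∈ SB.comap f₁ := by rw [← hSA]; exact a.2
        exact h⟩⟩
    refine Finite.of_surjective φ ?_
    rintro ⟨b, ⟨a, rfl⟩, hb⟩
    refine ⟨⟨a, ?_⟩, rfl⟩
    rw [hSA]
    exact hb
  have hcard := card_SB f₁ g₁ SB hB₁
  have hpos : 0 < Nat.card SB := by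
    rw [hcard]
    exact Nat.mul_pos Nat.card_pos Nat.card_pos
  exact (Nat.card_pos_iff.1 hpos).2

end SixTerm

end Fermat.Agent.MAZ.Desc.SelmerSubadd11
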