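/-
Program MAZ (S15), G-side (descent), helper11: SUBADDITIVITY OF `h¹ - h⁰` FOR SELMER STRUCTURES in the
level cohomology of `PT/PRO/LevelCoh28`.

`G` a group with a level basis `𝓑`, `k` a commutative ring (in the application `ℤ` or `ZMod (r ^ n)`),
`0 → A → B → C → 0` a short exact sequence of `k[G]`-modules with `B` discrete.  For a submodule
`SB ≤ H¹_𝓑(G, B)` (a Selmer group of `B`), the induced Selmer group `SA := H¹(φ)⁻¹(SB)` of `A` and any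
`SC ≤ H¹_𝓑(G, C)` containing `H¹(ψ)(SB)`:

  `#SB · #A^G · #C^G ≤ #SA · #SC · #B^G`     (`card_selmer_le`),

with equality if `SC = H¹(ψ)(SB)` (`card_selmer_eq`), and `SB` is finite if `SA` and `SC` are
(`finite_selmer`).  Six-term sequence: `SixTerm11` (`δ⁰`, exactness at `B^G`, `C^G`, `H¹(A)`) and
`LevelCoh28.ker_mapH1` (exactness at `H¹(B)`); counting: `SelmerSubadd11`.
-/
import Mathlib
import Fermat.Agent.PT.PRO.LevelCoh28
import Fermat.Agent.TW.GlobalEC.SixTerm11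
import Fermat.Agent.MAZ.Desc.SelmerSubadd11

set_option autoImplicit false
set_option linter.unusedSectionVars false

universe u

open CategoryTheory groupCohomology Representation

noncomputable section

namespace Fermat.Agent.MAZ.Desc.SelmerLevel11

open Fermat.Agent.PT.PRO.LevelCoh28 Fermat.Agent.TW.GlobalEC.SixTerm11
  Fermat.Agent.MAZ.Desc.SelmerSubadd11

variable {k G : Type u} [CommRing k] [Group G]
variable {𝓑 : LevelBasis G} {A B C : Rep.{u} k G}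

variable (φ : A →ₗ[k] B) (hφ : ∀ g a, φ (A.ρ g a) = B.ρ g (φ a))
  (ψ : B →ₗ[k] C) (hψ : ∀ g b, ψ (B.ρ g b) = C.ρ g (ψ b))
  (hinj : Function.Injective φ) (hsurj : Function.Surjective ψ)
  (hex : ∀ b, ψ b = 0 ↔ ∃ a, φ a = b) (hB : IsDiscrete 𝓑.sets B)
  (SB : Submodule k (H1 𝓑 B)) (SC : Submodule k (H1 𝓑 C))

include hinj hex in
theorem exact_mapInv : Function.Exact (mapInv φ hφ) (mapInv ψ hψ) :=
  LinearMap.exact_iff.2 (ker_mapInv φ hφ ψ hψ hinj hex)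

include hinj hex in
theorem exact_mapInv_delta0 :
    Function.Exact (mapInv ψ hψ) (delta0 (𝓑 := 𝓑) φ hφ ψ hψ hinj hsurj hex hB) :=
  LinearMap.exact_iff.2 (ker_delta0 (𝓑 := 𝓑) φ hφ ψ hψ hinj hsurj hex hB)

include hinj hex in
theorem exact_delta0_mapH1 :
    Function.Exact (delta0 (𝓑 := 𝓑) φ hφ ψ hψ hinj hsurj hex hB) (mapH1 (𝓑 := 𝓑) φ hφ) :=
  LinearMap.exact_iff.2 (ker_mapH1_eq_range_delta0 (𝓑 := 𝓑) φ hφ ψ hψ hinj hsurj hex hB)

include hinj hsurj hex hB in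
theorem exact_mapH1 : Function.Exact (mapH1 (𝓑 := 𝓑) φ hφ) (mapH1 (𝓑 := 𝓑) ψ hψ) :=
  LinearMap.exact_iff.2 (ker_mapH1 (𝓑 := 𝓑) φ hφ ψ hψ hinj hsurj hex hB)

include hinj hsurj hex hB in
/-- **Exact count** for the induced Selmer structures (no finiteness hypotheses; `Nat.card`). -/
theorem card_selmer_eq_map :
    Nat.card SB * Nat.card ↥(invariants A.ρ) * Nat.card ↥(invariants C.ρ) =
      Nat.card ↥(SB.comap (mapH1 (𝓑 := 𝓑) φ hφ)) * Nat.card ↥(SB.map (mapH1 (𝓑 := 𝓑) ψ hψ)) *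
        Nat.card ↥(invariants B.ρ) := by
  have h := card_mul_eq_map (mapInv φ hφ).toAddMonoidHom (mapInv ψ hψ).toAddMonoidHom
    (delta0 (𝓑 := 𝓑) φ hφ ψ hψ hinj hsurj hex hB).toAddMonoidHom
    (mapH1 (𝓑 := 𝓑) φ hφ).toAddMonoidHom (mapH1 (𝓑 := 𝓑) ψ hψ).toAddMonoidHom
    (SB.comap (mapH1 (𝓑 := 𝓑) φ hφ)).toAddSubgroup SB.toAddSubgroup
    (mapInv_injective φ hφ hinj) (exact_mapInv φ hφ ψ hψ hinj hex)
    (exact_mapInv_delta0 φ hφ ψ hψ hinj hsurj hex hB)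
    (exact_delta0_mapH1 φ hφ ψ hψ hinj hsurj hex hB)
    (exact_mapH1 φ hφ ψ hψ hinj hsurj hex hB) rfl
  exact h

include hinj hsurj hex hB in
/-- **Subadditivity of `h¹ - h⁰` for Selmer structures** (multiplicative form). -/
theorem card_selmer_le (hSC : SB.map (mapH1 (𝓑 := 𝓑) ψ hψ) ≤ SC) [Finite SC] :
    Nat.card SB * Nat.card ↥(invariants A.ρ) * Nat.card ↥(invariants C.ρ) ≤
      Nat.card ↥(SB.comap (mapH1 (𝓑 := 𝓑) φ hφ)) * Nat.card SC * Nat.card ↥(invariants B.ρ) := by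
  rw [card_selmer_eq_map φ hφ ψ hψ hinj hsurj hex hB SB]
  have hle : Nat.card ↥(SB.map (mapH1 (𝓑 := 𝓑) ψ hψ)) ≤ Nat.card SC :=
    Nat.card_le_card_of_injective (Submodule.inclusion hSC) (Submodule.inclusion_injective hSC)
  exact Nat.mul_le_mul_right _ (Nat.mul_le_mul_left _ hle)

include hinj hsurj hex hB in
/-- **Equality** when the Selmer group of the quotient is the image. -/
theorem card_selmer_eq (hSC : SB.map (mapH1 (𝓑 := 𝓑) ψ hψ) = SC) :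
    Nat.card SB * Nat.card ↥(invariants A.ρ) * Nat.card ↥(invariants C.ρ) =
      Nat.card ↥(SB.comap (mapH1 (𝓑 := 𝓑) φ hφ)) * Nat.card SC * Nat.card ↥(invariants B.ρ) := by
  rw [card_selmer_eq_map φ hφ ψ hψ hinj hsurj hex hB SB, hSC]

include hinj hsurj hex hB in
/-- Finiteness of the middle Selmer group. -/
theorem finite_selmer (hSC : SB.map (mapH1 (𝓑 := 𝓑) ψ hψ) ≤ SC)
    [Finite ↥(SB.comap (mapH1 (𝓑 := 𝓑) φ hφ))] [Finite SC] : Finite SB := by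
  have hSC' : SB.toAddSubgroup.map (mapH1 (𝓑 := 𝓑) ψ hψ).toAddMonoidHom ≤ SC.toAddSubgroup := by
    rintro _ ⟨x, hx, rfl⟩
    exact hSC ⟨x, hx, rfl⟩
  have : Finite ↥(SB.comap (mapH1 (𝓑 := 𝓑) φ hφ)).toAddSubgroup :=
    ‹Finite ↥(SB.comap (mapH1 (𝓑 := 𝓑) φ hφ))›
  have : Finite ↥SC.toAddSubgroup := ‹Finite SC›
  exact finite_of_exact (mapH1 (𝓑 := 𝓑) φ hφ).toAddMonoidHom (mapH1 (𝓑 := 𝓑) ψ hψ).toAddMonoidHom
    (SB.comap (mapH1 (𝓑 := 𝓑) φ hφ)).toAddSubgroup SB.toAddSubgroup SC.toAddSubgroup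
    (exact_mapH1 φ hφ ψ hψ hinj hsurj hex hB) rfl hSC'

end Fermat.Agent.MAZ.Desc.SelmerLevel11
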