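/-
Programme MAZ (S15), G-side, pole P1 = (PT), algebraic route (helper50): ADAPTERS for the hypothesis
`ToricAlg50.BU` ("bounded unramified").  Mathlib + `ToricAlg50` only.

* `bu_of_card_le` : `BU σ T M B` from the cardinality form
  `#Y ≤ #Z * B` for stable submodules `Z ≤ Y` with `(σ - 1) Y ⊆ Z`
  (the exit shape of `BUSubquot2.card_le_of_subquotient` / `BUInst11`);
* `ptExp_of_card_le` : the exponent form of (PT) directly from that cardinality form: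
  `∃ Q > 0, Q ≤ (B * B) ^ d`, `Q • M^σ ⊆ (σ - 1) M`;
* `ptExp_factorial_of_card_le` : the uniform constant `((B * B) ^ d₀)!`.
-/
import Mathlib
import Fermat.Agent.MAZ.Desc.ToricAlg50

set_option autoImplicit false

namespace Fermat.Agent.MAZ.Desc.ToricBU50

open Fermat.Agent.MAZ.Desc.ToricAlg50

variable {G : Type*} [Group G] {T : Type*} [CommRing T] {M : Type*} [AddCommGroup M]
  [DistribMulAction G M] [Module T M] [SMulCommClass G T M]

/-- `relIndex` of submodules through cardinalities. -/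
theorem relIndex_mul_card [Finite M] (Y Z : Submodule T M) (hZY : Z ≤ Y) :
    Z.toAddSubgroup.relIndex Y.toAddSubgroup * Nat.card Z = Nat.card Y := by
  have e1 := AddSubgroup.card_mul_index (Z.toAddSubgroup.addSubgroupOf Y.toAddSubgroup)
  have e3 : Nat.card (Z.toAddSubgroup.addSubgroupOf Y.toAddSubgroup) = Nat.card Z :=
    Nat.card_congr (AddSubgroup.addSubgroupOfEquivOfLe hZY).toEquiv
  have e4 : Nat.card Y.toAddSubgroup = Nat.card Y := rfl
  unfold AddSubgroup.relIndex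
  rw [e3, e4, mul_comm] at e1
  exact e1

/-- **`BU` from the cardinality form.** -/
theorem bu_of_card_le [Finite M] (σ : G) (B : ℕ)
    (h : ∀ Y Z : Submodule T M, (∀ (g : G), ∀ y ∈ Y, g • y ∈ Y) → (∀ (g : G), ∀ z ∈ Z, g • z ∈ Z) →
      Z ≤ Y → (∀ y ∈ Y, σ • y - y ∈ Z) → Nat.card Y ≤ Nat.card Z * B) :
    BU σ T M B := by
  intro Y Z hY hZ hZY hN
  have h1 := h Y Z hY hZ hZY (fun y hy => by simpa [nil_apply] using hN y hy)
  have h2 := relIndex_mul_card Y Z hZY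
  have hpos : 0 < Nat.card Z := Nat.card_pos
  rw [← h2, mul_comm] at h1
  exact Nat.le_of_mul_le_mul_left h1 hpos

/-- **(PT), exponent form, from the cardinality form of (BU).** -/
theorem ptExp_of_card_le [Finite M] {τ δ : G → T} {σ : G} (D : CHData τ δ σ M) (B : ℕ)
    (h : ∀ Y Z : Submodule T M, (∀ (g : G), ∀ y ∈ Y, g • y ∈ Y) → (∀ (g : G), ∀ z ∈ Z, g • z ∈ Z) →
      Z ≤ Y → (∀ y ∈ Y, σ • y - y ∈ Z) → Nat.card Y ≤ Nat.card Z * B) :
    ∃ Q : ℕ, 0 < Q ∧ Q ≤ (B * B) ^ (⊤ : Submodule T M).spanFinrank ∧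
      ∀ w : M, σ • w = w → ∃ m : M, Q • w = σ • m - m := by
  obtain ⟨Q, hQ0, hQB, hQ⟩ := exists_nsmul_ker_le_range D (bu_of_card_le σ B h)
  refine ⟨Q, hQ0, hQB, fun w hw => ?_⟩
  obtain ⟨m, hm⟩ := hQ w (by rw [nil_apply, hw, sub_self])
  exact ⟨m, by rw [← hm, nil_apply]⟩

/-- **Uniform constant**: if `1 ≤ B` and `M` has at most `d₀` generators over `T`, then
`c = ((B * B) ^ d₀)!` satisfies `c • M^σ ⊆ (σ - 1) M`. -/
theorem ptExp_factorial_of_card_le [Finite M] {τ δ : G → T} {σ : G} (D : CHData τ δ σ M) (B : ℕ)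
    (hB : 0 < B)
    (h : ∀ Y Z : Submodule T M, (∀ (g : G), ∀ y ∈ Y, g • y ∈ Y) → (∀ (g : G), ∀ z ∈ Z, g • z ∈ Z) →
      Z ≤ Y → (∀ y ∈ Y, σ • y - y ∈ Z) → Nat.card Y ≤ Nat.card Z * B)
    (d₀ : ℕ) (hd : (⊤ : Submodule T M).spanFinrank ≤ d₀) (w : M) (hw : σ • w = w) :
    ∃ m : M, ((B * B) ^ d₀).factorial • w = σ • m - m := by
  obtain ⟨Q, hQ0, hQB, hQ⟩ := ptExp_of_card_le D B h
  have h2 : Q ≤ (B * B) ^ d₀ := hQB.trans (Nat.pow_le_pow_right (Nat.mul_pos hB hB) hd)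
  obtain ⟨j, hj⟩ := Nat.dvd_factorial hQ0 h2
  obtain ⟨m, hm⟩ := hQ w hw
  refine ⟨j • m, ?_⟩
  rw [hj, mul_comm, mul_smul, hm, smul_sub, smul_comm σ j m]

end Fermat.Agent.MAZ.Desc.ToricBU50
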